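import Fermat.Agent.S16.Interfaces2
import Fermat.Prelude.Thm_CongruenceSubgroup_one_mem_strictPeriods_Gamma0

/-!
# S16, block (BR1): from a congruence `f ≡ σ' mod k` to `k ∣ n`

`CongruenceBoundStatement ⇐ EisStatement + UpperStatement`.
-/

set_option autoImplicit false

open ModularCurve CuspForm CongruenceSubgroup ModularFormClass

namespace Fermat.Agent.S16.Bridge

open Fermat.Agent.S16.Interfaces

noncomputable section

variable {N : ℕ} {k : ℤ}

theorem hΓ (N : ℕ) :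
    (1 : ℝ) ∈ (Subgroup.map (Matrix.SpecialLinearGroup.mapGL ℝ) (Gamma0 N)).strictPeriods :=
  CongruenceSubgroup.one_mem_strictPeriods_Gamma0 N

theorem qCoeff_sub_cusp (E : ModularForm (Gamma0 N) k) (f : CuspForm (Gamma0 N) k) (c : ℂ)
    (j : ℕ) :
    qCoeff ⇑(c • (E - ModularFormClass.modularForm f)) j = c * (qCoeff ⇑E j - qCoeff ⇑f j) := by
  have h1 : ⇑(c • (E - ModularFormClass.modularForm f)) =
      c • ⇑(E - ModularFormClass.modularForm f) := by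
    ext z; simp
  have h2 : ⇑(E - ModularFormClass.modularForm f) = ⇑E - ⇑f := by
    ext z; rfl
  simp only [qCoeff, h1]
  rw [ModularForm.qExpansion_smul one_pos (hΓ N) c (E - ModularFormClass.modularForm f), h2,
    ModularForm.qExpansion_sub one_pos (hΓ N) E f]
  simp

theorem qCoeff_cusp_zero (f : CuspForm (Gamma0 N) k) : qCoeff ⇑f 0 = 0 :=
  CuspFormClass.qExpansion_coeff_zero f one_pos (hΓ N)

end

/-- pure arithmetic: `24 / gcd (p-1) 12` and the numerator. -/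
theorem arith (p : ℕ) (hp : 2 ≤ p) :
    ∃ ν w n : ℕ, ν = Nat.gcd (p - 1) 12 ∧ w = 24 / ν ∧ n = eisensteinNumerator p ∧
      ν ≠ 0 ∧ w ≠ 0 ∧ n ≠ 0 ∧ w * ν = 24 ∧ n * ν = p - 1 := by
  have h1 : 0 < p - 1 := by omega
  have hν : Nat.gcd (p - 1) 12 ∣ 12 := Nat.gcd_dvd_right _ _
  have hν' : Nat.gcd (p - 1) 12 ∣ p - 1 := Nat.gcd_dvd_left _ _
  have hνpos : 0 < Nat.gcd (p - 1) 12 := Nat.gcd_pos_of_pos_left _ h1
  have h24 : Nat.gcd (p - 1) 12 ∣ 24 := hν.trans (by norm_num)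
  refine ⟨_, _, _, rfl, rfl, rfl, hνpos.ne', ?_, ?_, Nat.div_mul_cancel h24, ?_⟩
  · exact (Nat.div_pos (Nat.le_of_dvd (by norm_num) h24) hνpos).ne'
  · unfold eisensteinNumerator
    exact (Nat.div_pos (Nat.le_of_dvd h1 hν') hνpos).ne'
  · unfold eisensteinNumerator
    exact Nat.div_mul_cancel hν'

/-- (BR1). -/
theorem congruenceBound (hEis : EisStatement) (hU : UpperStatement) : CongruenceBoundStatement := by
  intro p _ h5 k f hf
  have hp : p.Prime := Fact.out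
  obtain ⟨E, hE0, hEj⟩ := hEis p
  obtain ⟨ν, w, n, hν, hw, hn, hν0, hw0, hn0, hwν, hnν⟩ := arith p hp.two_le
  rw [← hn]
  obtain ⟨-, hfc⟩ := hf
  -- the normalised form
  set c : ℂ := (24 : ℂ) / ((p : ℂ) - 1) with hc
  have hp1 : ((p : ℂ) - 1) ≠ 0 := by
    have : (p : ℂ) ≠ 1 := by
      have : p ≠ 1 := hp.ne_one
      exact_mod_cast this
    exact sub_ne_zero.2 this
  set F : ModularForm (Gamma0 p) 2 := c • (E - ModularFormClass.modularForm f) with hF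
  have hF0 : qCoeff ⇑F 0 = 1 := by
    rw [hF, Bridge.qCoeff_sub_cusp, hE0, Bridge.qCoeff_cusp_zero, hc]
    field_simp
    ring
  have hFj : ∀ j : ℕ, 1 ≤ j → ∃ cj : ℤ, qCoeff ⇑F j = - c * ((k : ℂ) * (cj : ℂ)) := by
    intro j hj
    obtain ⟨cj, hcj⟩ := hfc j hj
    refine ⟨cj, ?_⟩
    rw [hF, Bridge.qCoeff_sub_cusp, hEj j hj, hcj]
    ring
  -- c = w / n
  have hcwn : c = (w : ℂ) / (n : ℂ) := by
    have h1 : ((p : ℂ) - 1) = (n : ℂ) * (ν : ℂ) := by
      have : ((p - 1 : ℕ) : ℂ) = (p : ℂ) - 1 := by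
        rw [Nat.cast_sub hp.one_le]; simp
      rw [← this, ← hnν]; push_cast; ring
    have h2 : (24 : ℂ) = (w : ℂ) * (ν : ℂ) := by
      have : ((24 : ℕ) : ℂ) = 24 := by norm_num
      rw [← this, ← hwν]; push_cast; ring
    have hνc : (ν : ℂ) ≠ 0 := by exact_mod_cast hν0
    have hnc : (n : ℂ) ≠ 0 := by exact_mod_cast hn0
    rw [hc, h1, h2]
    field_simp
  -- k = 0 is impossible
  by_cases hk0 : k = 0
  · exfalso
    subst hk0
    have hOne : IsOneMod p 5 2 F := by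
      refine ⟨hF0, fun j hj => ⟨0, ⟨0, 1, by norm_num, by simp⟩, ?_⟩⟩
      obtain ⟨cj, hcj⟩ := hFj j hj
      rw [hcj]; simp
    have : Fact (Nat.Prime 5) := ⟨by norm_num⟩
    have := hU p h5 5 2 F hOne
    rw [← hν, ← hw] at this
    have hle : w ≤ 24 := by
      have : w ∣ 24 := ⟨ν, hwν.symm⟩
      exact Nat.le_of_dvd (by norm_num) this
    have := Nat.le_of_dvd (Nat.pos_of_ne_zero hw0) this
    omega
  -- k ≠ 0: compare factorizations
  rw [← Nat.factorization_le_iff_dvd hk0 hn0]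
  intro ℓ
  by_contra hlt
  rw [not_le] at hlt
  have hℓ : ℓ.Prime := by
    by_contra hnp
    rw [Nat.factorization_eq_zero_of_not_prime k hnp] at hlt
    exact Nat.not_lt_zero _ hlt
  have : Fact ℓ.Prime := ⟨hℓ⟩
  set b := n.factorization ℓ with hb
  set cw := w.factorization ℓ with hcw
  -- decompositions
  obtain ⟨n', hn'⟩ : ℓ ^ b ∣ n := Nat.ordProj_dvd n ℓ
  have hn'ℓ : ¬ ℓ ∣ n' := by
    intro hd
    have : ℓ ^ (b + 1) ∣ n := by
      rw [pow_succ, hn']; exact Nat.mul_dvd_mul_left _ hd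
    have := (hℓ.pow_dvd_iff_le_factorization hn0).1 this
    omega
  obtain ⟨w', hw'⟩ : ℓ ^ cw ∣ w := Nat.ordProj_dvd w ℓ
  obtain ⟨k', hk'⟩ : ℓ ^ (b + 1) ∣ k := (hℓ.pow_dvd_iff_le_factorization hk0).2 hlt
  have hOne : IsOneMod p ℓ (cw + 1) F := by
    refine ⟨hF0, fun j hj => ?_⟩
    obtain ⟨cj, hcj⟩ := hFj j hj
    have hn'c : (n' : ℂ) ≠ 0 := by
      have : n' ≠ 0 := by rintro rfl; exact hn'ℓ (dvd_zero _)
      exact_mod_cast this
    have hℓc : (ℓ : ℂ) ≠ 0 := by exact_mod_cast hℓ.ne_zero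
    refine ⟨-((w' : ℂ) * (k' : ℂ) * (cj : ℂ)) / (n' : ℂ),
      ⟨-((w' : ℤ) * (k' : ℤ) * cj), (n' : ℤ), ?_, ?_⟩, ?_⟩
    · intro hd
      exact hn'ℓ (by exact_mod_cast hd)
    · push_cast
      field_simp
    · rw [hcj, hcwn, hn', hw', hk']
      push_cast
      field_simp
      ring
  have hdvd := hU p h5 ℓ (cw + 1) F hOne
  rw [← hν, ← hw] at hdvd
  have := (hℓ.pow_dvd_iff_le_factorization hw0).1 hdvd
  omega

end Fermat.Agent.S16.Bridge
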