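import Fermat.Agent.S16.Interfaces
import Fermat.Agent.S22.OfIntegralStructure

/-!
# S16, block (P2): the eigen-congruence statement

If an integral cusp form `f` of level `p` is congruent to the Eisenstein series `∑ σ'(j) q^j`
modulo `k` (in all coefficients `j ≥ 1`), then every Hecke relation `P` (a polynomial in the
Hecke generators acting as `0` on the integral lattice) satisfies `k ∣ ev p P`.

Proof: the property "`g ≡ c · ∑ σ'(j) q^j` mod `k` in the coefficients `j ≥ 1`" is transformed by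
the Hecke operator attached to `P` into the same property with `c` replaced by `ev p P * c`
(induction on `P`, the generator step being the classical identity
`σ'(jℓ) + [ℓ ∣ j] ℓ σ'(j/ℓ) = (1 + ℓ) σ'(j)`, resp. `σ'(jp) = σ'(j)`).  Applying this to `f` and
looking at the coefficient of `q` gives the claim.
-/

set_option autoImplicit false

open ModularCurve CuspForm CongruenceSubgroup ModularFormClass

namespace Fermat.Agent.S16.EigenCongruence

open Fermat.Agent.S16.Interfaces Fermat.Agent.S22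

noncomputable section

/-! ### Arithmetic of `σ'` -/

theorem sigmaPrime_one {p : ℕ} (hp : p.Prime) : sigmaPrime p 1 = 1 := by
  have h : ¬ p ∣ 1 := fun h => hp.one_lt.ne' (Nat.dvd_one.1 h)
  simp [sigmaPrime, Finset.filter_singleton, h]

theorem sigmaPrime_mul_self {p : ℕ} (hp : p.Prime) {n : ℕ} (hn : n ≠ 0) :
    sigmaPrime p (n * p) = sigmaPrime p n := by
  unfold sigmaPrime
  congr 1
  ext d
  simp only [Finset.mem_filter, Nat.mem_divisors]
  constructor
  · rintro ⟨⟨hd, -⟩, hpd⟩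
    refine ⟨⟨?_, hn⟩, hpd⟩
    have hc : Nat.Coprime d p := ((Nat.Prime.coprime_iff_not_dvd hp).2 hpd).symm
    exact hc.dvd_of_dvd_mul_right hd
  · rintro ⟨⟨hd, -⟩, hpd⟩
    exact ⟨⟨Dvd.dvd.mul_right hd p, mul_ne_zero hn hp.ne_zero⟩, hpd⟩

/-- the part of `σ'(m ℓ)` coming from the divisors divisible by `ℓ`. -/
theorem sum_filter_dvd {p ℓ : ℕ} (hp : p.Prime) (hℓ : ℓ.Prime) (hne : ℓ ≠ p) {m : ℕ}
    (hm : m ≠ 0) :
    ∑ d ∈ ((m * ℓ).divisors.filter (fun d => ¬ p ∣ d)).filter (fun d => ℓ ∣ d), d =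
      ℓ * sigmaPrime p m := by
  unfold sigmaPrime
  rw [Finset.mul_sum]
  symm
  refine Finset.sum_bij (fun d _ => ℓ * d) ?_ ?_ ?_ ?_
  · intro d hd
    simp only [Finset.mem_filter, Nat.mem_divisors] at hd ⊢
    refine ⟨⟨⟨?_, mul_ne_zero hm hℓ.ne_zero⟩, ?_⟩, Dvd.intro _ rfl⟩
    · rw [mul_comm m ℓ]
      exact Nat.mul_dvd_mul_left ℓ hd.1.1
    · intro h
      rcases (Nat.Prime.dvd_mul hp).1 h with h1 | h1
      · exact hne ((Nat.prime_dvd_prime_iff_eq hp hℓ).1 h1).symm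
      · exact hd.2 h1
  · intro a _ b _ hab
    exact Nat.eq_of_mul_eq_mul_left hℓ.pos hab
  · intro d hd
    simp only [Finset.mem_filter, Nat.mem_divisors] at hd
    obtain ⟨⟨⟨hd1, -⟩, hd2⟩, e, rfl⟩ := hd
    refine ⟨e, ?_, rfl⟩
    simp only [Finset.mem_filter, Nat.mem_divisors]
    refine ⟨⟨?_, hm⟩, fun h => hd2 (Dvd.dvd.mul_left h ℓ)⟩
    rw [mul_comm m ℓ] at hd1
    exact Nat.dvd_of_mul_dvd_mul_left hℓ.pos hd1
  · intro d _
    rfl

theorem filter_not_dvd_mul {p ℓ : ℕ} (hℓ : ℓ.Prime) {n : ℕ} (hn : n ≠ 0) :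
    ((n * ℓ).divisors.filter (fun d => ¬ p ∣ d)).filter (fun d => ¬ ℓ ∣ d) =
      (n.divisors.filter (fun d => ¬ p ∣ d)).filter (fun d => ¬ ℓ ∣ d) := by
  ext d
  simp only [Finset.mem_filter, Nat.mem_divisors]
  constructor
  · rintro ⟨⟨⟨hd, -⟩, hpd⟩, hℓd⟩
    refine ⟨⟨⟨?_, hn⟩, hpd⟩, hℓd⟩
    have hc : Nat.Coprime d ℓ := ((Nat.Prime.coprime_iff_not_dvd hℓ).2 hℓd).symm
    exact hc.dvd_of_dvd_mul_right hd
  · rintro ⟨⟨⟨hd, -⟩, hpd⟩, hℓd⟩
    exact ⟨⟨⟨Dvd.dvd.mul_right hd ℓ, mul_ne_zero hn hℓ.ne_zero⟩, hpd⟩, hℓd⟩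

/-- The Hecke relation of `σ'` at a prime `ℓ ≠ p`. -/
theorem sigmaPrime_hecke {p ℓ : ℕ} (hp : p.Prime) (hℓ : ℓ.Prime) (hne : ℓ ≠ p) {n : ℕ}
    (hn : n ≠ 0) :
    sigmaPrime p (n * ℓ) + (if ℓ ∣ n then ℓ * sigmaPrime p (n / ℓ) else 0) =
      (1 + ℓ) * sigmaPrime p n := by
  set A : ℕ := ∑ d ∈ (n.divisors.filter (fun d => ¬ p ∣ d)).filter (fun d => ¬ ℓ ∣ d), d with hA
  have h1 : sigmaPrime p (n * ℓ) = ℓ * sigmaPrime p n + A := by
    have := Finset.sum_filter_add_sum_filter_not ((n * ℓ).divisors.filter (fun d => ¬ p ∣ d))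
      (fun d => ℓ ∣ d) (fun d => d)
    rw [sum_filter_dvd hp hℓ hne hn, filter_not_dvd_mul hℓ hn] at this
    rw [← hA] at this
    exact this.symm
  have h2 : sigmaPrime p n = (if ℓ ∣ n then ℓ * sigmaPrime p (n / ℓ) else 0) + A := by
    have := Finset.sum_filter_add_sum_filter_not (n.divisors.filter (fun d => ¬ p ∣ d))
      (fun d => ℓ ∣ d) (fun d => d)
    rw [← hA] at this
    rw [show sigmaPrime p n = ∑ d ∈ n.divisors.filter (fun d => ¬ p ∣ d), d from rfl, ← this]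
    congr 1
    split_ifs with hdvd
    · obtain ⟨m, rfl⟩ := hdvd
      have hm : m ≠ 0 := fun h => hn (by rw [h, mul_zero])
      rw [Nat.mul_div_cancel_left m hℓ.pos, mul_comm ℓ m]
      exact sum_filter_dvd hp hℓ hne hm
    · apply Finset.sum_eq_zero
      intro d hd
      simp only [Finset.mem_filter, Nat.mem_divisors] at hd
      exact absurd (dvd_trans hd.2 hd.1.1.1) hdvd
  rw [h1]
  generalize (if ℓ ∣ n then ℓ * sigmaPrime p (n / ℓ) else 0) = B at h2 ⊢
  rw [add_mul, one_mul]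
  nth_rewrite 2 [h2]
  ring

/-! ### The congruence property and its behaviour under Hecke operators -/

variable (p k : ℕ)

/-- `g ≡ c · ∑ σ'(j) q^j` modulo `k`, in all coefficients `j ≥ 1`. -/
def Cong (c : ℤ) (g : CuspForm (Gamma0 p) 2) : Prop :=
  ∀ j : ℕ, 1 ≤ j → ∃ m : ℤ,
    qCoeff g j = (c : ℂ) * (sigmaPrime p j : ℂ) + (k : ℂ) * (m : ℂ)

/-- The endomorphism `t` multiplies the Eisenstein congruence class by `e`. -/
def Good (e : ℤ) (t : Module.End ℂ (CuspForm (Gamma0 p) 2)) : Prop :=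
  ∀ (c : ℤ) (g : CuspForm (Gamma0 p) 2), Cong p k c g → Cong p k (e * c) (t g)

variable {p k}

theorem good_algebraMap (a : ℤ) :
    Good p k a (algebraMap ℤ (Module.End ℂ (CuspForm (Gamma0 p) 2)) a) := by
  intro c g hg j hj
  obtain ⟨m, hm⟩ := hg j hj
  refine ⟨a * m, ?_⟩
  rw [Module.algebraMap_end_apply, ← coeffFunctional_apply, map_zsmul, coeffFunctional_apply, hm,
    zsmul_eq_mul]
  push_cast
  ring

theorem good_add {e e' : ℤ} {t t' : Module.End ℂ (CuspForm (Gamma0 p) 2)}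
    (h : Good p k e t) (h' : Good p k e' t') : Good p k (e + e') (t + t') := by
  intro c g hg j hj
  obtain ⟨m, hm⟩ := h c g hg j hj
  obtain ⟨m', hm'⟩ := h' c g hg j hj
  refine ⟨m + m', ?_⟩
  rw [LinearMap.add_apply, ← coeffFunctional_apply, map_add, coeffFunctional_apply,
    coeffFunctional_apply, hm, hm']
  push_cast
  ring

theorem good_mul {e e' : ℤ} {t t' : Module.End ℂ (CuspForm (Gamma0 p) 2)}
    (h : Good p k e t) (h' : Good p k e' t') : Good p k (e * e') (t * t') := by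
  intro c g hg
  have := h (e' * c) (t' g) (h' c g hg)
  rwa [← mul_assoc] at this

theorem good_heckeT [NeZero p] (hp : p.Prime) {ℓ : ℕ} (hℓ : ℓ.Prime) (hℓp : ¬ ℓ ∣ p) :
    Good p k (1 + (ℓ : ℕ)) (heckeTLin 2 hℓ hℓp) := by
  have hne : ℓ ≠ p := fun h => hℓp (h ▸ dvd_rfl)
  intro c g hg j hj
  have hj0 : j ≠ 0 := Nat.one_le_iff_ne_zero.1 hj
  have key : qCoeff (heckeTLin 2 hℓ hℓp g) j =
      qCoeff g (j * ℓ) + (if ℓ ∣ j then (ℓ : ℂ) * qCoeff g (j / ℓ) else 0) := by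
    have h := LinearMap.congr_fun
      (coeffFunctional_comp_heckeT (N := p) (k := 2) (by norm_num) hℓ hℓp j) g
    rw [LinearMap.comp_apply, coeffFunctional_apply] at h
    rw [h, LinearMap.add_apply, coeffFunctional_apply]
    congr 1
    split_ifs with hd
    · rw [LinearMap.smul_apply, coeffFunctional_apply, zsmul_eq_mul]
      norm_num
    · rfl
  obtain ⟨m1, hm1⟩ := hg (j * ℓ) (Nat.one_le_iff_ne_zero.2 (mul_ne_zero hj0 hℓ.ne_zero))
  have hσ := sigmaPrime_hecke hp hℓ hne hj0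
  by_cases hd : ℓ ∣ j
  · have hjl : 1 ≤ j / ℓ := by
      obtain ⟨m, rfl⟩ := hd
      rw [Nat.mul_div_cancel_left m hℓ.pos]
      exact Nat.one_le_iff_ne_zero.2 fun h => hj0 (by rw [h, mul_zero])
    obtain ⟨m2, hm2⟩ := hg (j / ℓ) hjl
    refine ⟨m1 + ℓ * m2, ?_⟩
    rw [key, if_pos hd, hm1, hm2]
    rw [if_pos hd] at hσ
    have hσ' : (sigmaPrime p (j * ℓ) : ℂ) + (ℓ : ℂ) * (sigmaPrime p (j / ℓ) : ℂ) =
        (1 + (ℓ : ℂ)) * (sigmaPrime p j : ℂ) := by exact_mod_cast hσ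
    push_cast
    linear_combination (c : ℂ) * hσ'
  · refine ⟨m1, ?_⟩
    rw [key, if_neg hd, hm1, add_zero]
    rw [if_neg hd, add_zero] at hσ
    have hσ' : (sigmaPrime p (j * ℓ) : ℂ) = (1 + (ℓ : ℂ)) * (sigmaPrime p j : ℂ) := by
      exact_mod_cast hσ
    push_cast
    linear_combination (c : ℂ) * hσ'

theorem good_heckeU [NeZero p] (hp : p.Prime) {ℓ : ℕ} (hℓ : ℓ.Prime) (hℓp : ℓ ∣ p) :
    Good p k 1 (heckeULin 2 hℓp) := by
  have he : ℓ = p := (Nat.prime_dvd_prime_iff_eq hℓ hp).1 hℓp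
  intro c g hg j hj
  have hj0 : j ≠ 0 := Nat.one_le_iff_ne_zero.1 hj
  have key : qCoeff (heckeULin 2 hℓp g) j = qCoeff g (j * ℓ) := by
    have h := LinearMap.congr_fun
      (coeffFunctional_comp_heckeU (N := p) (k := 2) hℓ hℓp j) g
    rw [LinearMap.comp_apply, coeffFunctional_apply] at h
    rw [h, coeffFunctional_apply]
  obtain ⟨m1, hm1⟩ := hg (j * ℓ) (Nat.one_le_iff_ne_zero.2 (mul_ne_zero hj0 hℓ.ne_zero))
  refine ⟨m1, ?_⟩
  rw [key, hm1, one_mul]
  subst he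
  rw [sigmaPrime_mul_self hp hj0]

/-- Main induction: the Hecke operator attached to `P` multiplies Eisenstein congruence classes
by `ev p P`. -/
theorem good_heckeEvalForms [NeZero p] (hp : p.Prime) (P : HeckeAlg) :
    Good p k (ev p P)
      ((heckeEvalForms p 2 P : heckeAlgebra p 2 ∅) :
        Module.End ℂ (CuspForm (Gamma0 p) 2)) := by
  induction P using MvPolynomial.induction_on with
  | C a =>
    have h1 : ev p (MvPolynomial.C a) = a := by
      simp [ev]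
    rw [h1, heckeEvalForms_C]
    exact good_algebraMap a
  | add P Q hP hQ =>
    rw [map_add, map_add]
    exact good_add hP hQ
  | mul_X P ℓ hP =>
    have h1 : ev p (P * MvPolynomial.X ℓ) = ev p P * eisensteinSystem p ℓ := by
      simp [ev]
    rw [h1, map_mul]
    refine good_mul hP ?_
    have h2 : heckeEvalForms p 2 (MvPolynomial.X ℓ) = heckeFormsGen p 2 ℓ :=
      heckeEvalForms_heckeGen p 2 ℓ
    rw [h2]
    by_cases hd : (ℓ : ℕ) ∣ p
    · rw [heckeFormsGen_of_dvd hd, eisensteinSystem_of_dvd hd, heckeAlgebra.coe_U]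
      exact good_heckeU hp ℓ.2 hd
    · rw [heckeFormsGen_of_not_dvd hd, eisensteinSystem_of_not_dvd hd, heckeAlgebra.coe_T]
      exact good_heckeT hp ℓ.2 hd

/-- **Block (P2)** of the S16 reduction. -/
theorem eigenCongruenceStatement : EigenCongruenceStatement := by
  intro p hp _ k hf P hP
  obtain ⟨f, hf1, hf2⟩ := hf
  have hpp : p.Prime := hp.out
  have hmem : f ∈ intLattice p 2 := Submodule.subset_span hf1
  -- the Hecke operator attached to `P` kills `f`
  have hzero : ((heckeEvalForms p 2 P : heckeAlgebra p 2 ∅) :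
      Module.End ℂ (CuspForm (Gamma0 p) 2)) f = 0 := by
    have h1 : latticeRestrict p ∅ (heckeEvalForms p 2 P).2 = 0 :=
      congrArg Subtype.val hP
    have h2 := LinearMap.congr_fun h1 ⟨f, hmem⟩
    exact congrArg Subtype.val h2
  have hcong : Cong p k 1 f := by
    intro j hj
    obtain ⟨m, hm⟩ := hf2 j hj
    exact ⟨m, by rw [hm]; push_cast; ring⟩
  obtain ⟨m, hm⟩ := good_heckeEvalForms hpp P 1 f hcong 1 le_rfl
  rw [hzero, ← coeffFunctional_apply, map_zero, sigmaPrime_one hpp] at hm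
  have h3 : (0 : ℂ) = ((ev p P : ℤ) : ℂ) + (k : ℂ) * (m : ℂ) := by simpa using hm
  have hz : (0 : ℤ) = ev p P + (k : ℤ) * m := by exact_mod_cast h3
  exact ⟨-m, by linarith⟩

end

end Fermat.Agent.S16.EigenCongruence
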