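import Mathlib

/-!
# S16, block (A): abstract perfectness of a pairing between finite free `ℤ`-modules

`exists_rep`: a bilinear pairing `B : T × L → ℤ` between finite free `ℤ`-modules which is
non-degenerate on both sides and *saturated* on the `L` side represents every functional on `T`.

`exists_lift`: lifting a functional defined modulo `k` on a finite free quotient.
-/

set_option autoImplicit false

open Module

namespace Fermat.Agent.S16.PerfectPairing

section Rep

variable {L T : Type*} [AddCommGroup L] [AddCommGroup T]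
  [Module.Free ℤ L] [Module.Finite ℤ L] [Module.Free ℤ T] [Module.Finite ℤ T]

/-- An injective linear map between finite free `ℤ`-modules of the same rank has torsion cokernel. -/
theorem exists_smul_mem_range {M N : Type*} [AddCommGroup M] [AddCommGroup N]
    [Module.Free ℤ M] [Module.Finite ℤ M] [Module.Free ℤ N] [Module.Finite ℤ N]
    (Θ : M →ₗ[ℤ] N) (hΘ : Function.Injective Θ) (hrk : finrank ℤ N ≤ finrank ℤ M) (x : N) :
    ∃ d : ℤ, d ≠ 0 ∧ d • x ∈ LinearMap.range Θ := by
  have hrange : finrank ℤ (LinearMap.range Θ) = finrank ℤ N := by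
    have h1 : finrank ℤ (LinearMap.range Θ) = finrank ℤ M :=
      LinearMap.finrank_range_of_inj hΘ
    have h2 : finrank ℤ (LinearMap.range Θ) ≤ finrank ℤ N :=
      Submodule.finrank_le _
    omega
  have : Finite (N ⧸ LinearMap.range Θ) :=
    Submodule.finiteQuotientOfFreeOfRankEq _ hrange
  refine ⟨(Nat.card (N ⧸ LinearMap.range Θ) : ℤ), ?_, ?_⟩
  · exact_mod_cast Nat.card_pos.ne'
  · rw [← Submodule.Quotient.mk_eq_zero, Submodule.Quotient.mk_smul, Nat.cast_smul_eq_nsmul]
    exact card_nsmul_eq_zero'

/-- **Perfectness**: if `B : T × L → ℤ` is non-degenerate on both sides and `L` is saturated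
with respect to `B`, every functional on `T` is represented by an element of `L`. -/
theorem exists_rep (B : T →ₗ[ℤ] L →ₗ[ℤ] ℤ)
    (hL : ∀ f : L, (∀ t, B t f = 0) → f = 0)
    (hT : ∀ t : T, (∀ f, B t f = 0) → t = 0)
    (hsat : ∀ d : ℤ, d ≠ 0 → ∀ f : L, (∀ t, d ∣ B t f) → ∃ g : L, d • g = f)
    (μ : T →ₗ[ℤ] ℤ) : ∃ f : L, ∀ t, B t f = μ t := by
  have hinjL : Function.Injective B.flip := by
    rw [← LinearMap.ker_eq_bot, LinearMap.ker_eq_bot']
    intro f hf
    exact hL f fun t => by simpa using LinearMap.congr_fun hf t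
  have hinjT : Function.Injective B := by
    rw [← LinearMap.ker_eq_bot, LinearMap.ker_eq_bot']
    intro t ht
    exact hT t fun f => by simpa using LinearMap.congr_fun ht f
  have hrk : finrank ℤ (T →ₗ[ℤ] ℤ) ≤ finrank ℤ L := by
    rw [Module.finrank_linearMap_self]
    have := LinearMap.finrank_le_finrank_of_injective hinjT
    rwa [Module.finrank_linearMap_self] at this
  obtain ⟨d, hd, f, hf⟩ := exists_smul_mem_range B.flip hinjL hrk μ
  have hdvd : ∀ t, d ∣ B t f := fun t => by
    have := LinearMap.congr_fun hf t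
    simp only [LinearMap.flip_apply, LinearMap.smul_apply, smul_eq_mul] at this
    exact ⟨μ t, this⟩
  obtain ⟨g, rfl⟩ := hsat d hd f hdvd
  refine ⟨g, fun t => ?_⟩
  have := LinearMap.congr_fun hf t
  simp only [LinearMap.flip_apply, LinearMap.smul_apply, smul_eq_mul, map_smul] at this
  exact mul_left_cancel₀ hd this

end Rep

section Lift

variable {R T : Type*} [AddCommGroup R] [AddCommGroup T] [Module.Free ℤ T] [Module.Finite ℤ T]

/-- Lifting a functional which is only well defined modulo `k`. -/
theorem exists_lift (φ : R →+ T) (hφ : Function.Surjective φ) (e : R →+ ℤ) (k : ℤ)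
    (h : ∀ P, φ P = 0 → k ∣ e P) :
    ∃ μ : T →ₗ[ℤ] ℤ, ∀ P, k ∣ e P - μ (φ P) := by
  classical
  set b := Module.Free.chooseBasis ℤ T with hb
  choose Q hQ using fun i => hφ (b i)
  refine ⟨b.constr ℤ fun i => e (Q i), fun P => ?_⟩
  have hzero : φ (P - ∑ i, (b.repr (φ P) i) • Q i) = 0 := by
    rw [map_sub, map_sum]
    simp only [map_zsmul, hQ]
    rw [b.sum_repr, sub_self]
  have := h _ hzero
  rw [map_sub, map_sum] at this
  simp only [map_zsmul] at this
  convert this using 2
  rw [Basis.constr_apply_fintype]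
  simp [Basis.equivFun_apply]

end Lift

end Fermat.Agent.S16.PerfectPairing
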