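import Fermat.Agent.S16.Reduction
import Fermat.Agent.S16.PerfectPairing
import Fermat.Agent.S16.EigenCongruence
import Fermat.Agent.S49.QExp

/-!
# S16, block (P1): the duality statement (hedge file)

`Interfaces.DualityStatement` from the abstract perfectness lemma (`S16/PerfectPairing`) and the
Hecke polynomials `P_j` with `a_1(P_j f) = a_j(f)`, `ev p P_j = σ'(j)`.
-/

set_option autoImplicit false

open ModularCurve CuspForm CongruenceSubgroup ModularFormClass

namespace Fermat.Agent.S16.DualityB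

open Fermat.Agent.S16.Interfaces Fermat.Agent.S22 Fermat.Agent.S16.EigenCongruence

noncomputable section

variable {p : ℕ}

/-- The endomorphism of `S_2(Γ₀(p))` attached to a Hecke polynomial. -/
def op (p : ℕ) [NeZero p] (P : HeckeAlg) : Module.End ℂ (CuspForm (Gamma0 p) 2) :=
  ((heckeEvalForms p 2 P : heckeAlgebra p 2 ∅) : Module.End ℂ (CuspForm (Gamma0 p) 2))

theorem op_one [NeZero p] : op p 1 = 1 := by
  simp [op]

theorem op_mul [NeZero p] (P Q : HeckeAlg) : op p (P * Q) = op p P * op p Q := by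
  simp [op]

theorem op_sub [NeZero p] (P Q : HeckeAlg) : op p (P - Q) = op p P - op p Q := by
  simp [op]

theorem op_C [NeZero p] (a : ℤ) : op p (MvPolynomial.C a) = algebraMap ℤ _ a := by
  rw [op, heckeEvalForms_C]
  rfl

theorem op_X_of_dvd [NeZero p] (ℓ : Nat.Primes) (h : (ℓ : ℕ) ∣ p) :
    op p (MvPolynomial.X ℓ) = heckeULin 2 h := by
  have h2 : heckeEvalForms p 2 (MvPolynomial.X ℓ) = heckeFormsGen p 2 ℓ :=
    heckeEvalForms_heckeGen p 2 ℓ
  rw [op, h2, heckeFormsGen_of_dvd h, heckeAlgebra.coe_U]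

theorem op_X_of_not_dvd [NeZero p] (ℓ : Nat.Primes) (h : ¬ (ℓ : ℕ) ∣ p) :
    op p (MvPolynomial.X ℓ) = heckeTLin 2 ℓ.2 h := by
  have h2 : heckeEvalForms p 2 (MvPolynomial.X ℓ) = heckeFormsGen p 2 ℓ :=
    heckeEvalForms_heckeGen p 2 ℓ
  rw [op, h2, heckeFormsGen_of_not_dvd h, heckeAlgebra.coe_T]

theorem ev_X_of_dvd (ℓ : Nat.Primes) (h : (ℓ : ℕ) ∣ p) : ev p (MvPolynomial.X ℓ) = 1 := by
  simp [ev, eisensteinSystem_of_dvd h]

theorem ev_X_of_not_dvd (ℓ : Nat.Primes) (h : ¬ (ℓ : ℕ) ∣ p) :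
    ev p (MvPolynomial.X ℓ) = 1 + (ℓ : ℕ) := by
  simp [ev, eisensteinSystem_of_not_dvd h]

theorem ev_C (a : ℤ) : ev p (MvPolynomial.C a) = a := by
  simp [ev]

/-- **Hecke polynomials**: for every `j ≥ 1` there is `P_j` with `ev p P_j = σ'(j)` and
`a_1(P_j f) = a_j(f)` for every cusp form `f`. -/
theorem exists_heckePoly [NeZero p] (hp : p.Prime) (j : ℕ) (hj : 1 ≤ j) :
    ∃ P : HeckeAlg, ev p P = (sigmaPrime p j : ℤ) ∧
      ∀ f : CuspForm (Gamma0 p) 2, qCoeff (op p P f) 1 = qCoeff f j := by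
  induction j using Nat.strong_induction_on with
  | _ j ih =>
    rcases Nat.lt_or_ge 1 j with h1 | h1
    swap
    · have hj1 : j = 1 := le_antisymm h1 hj
      subst hj1
      refine ⟨1, ?_, fun f => ?_⟩
      · rw [map_one, sigmaPrime_one hp]; rfl
      · rw [op_one]; rfl
    · -- `j = m * ℓ` with `ℓ` the least prime factor
      have hne1 : j ≠ 1 := h1.ne'
      set ℓ := j.minFac with hℓdef
      have hℓ : ℓ.Prime := Nat.minFac_prime hne1
      obtain ⟨m, hm⟩ : ∃ m, j = m * ℓ := by
        obtain ⟨m, hm⟩ := Nat.minFac_dvd j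
        exact ⟨m, by rw [hm, mul_comm]⟩
      have hm0 : m ≠ 0 := by
        rintro rfl
        rw [zero_mul] at hm
        omega
      have hm1 : 1 ≤ m := Nat.one_le_iff_ne_zero.2 hm0
      have hmj : m < j := by
        rw [hm]
        have := hℓ.two_le
        nlinarith
      obtain ⟨Pm, hPm1, hPm2⟩ := ih m hmj hm1
      let L : Nat.Primes := ⟨ℓ, hℓ⟩
      by_cases hd : ℓ ∣ p
      · -- `ℓ = p`
        have he : ℓ = p := (Nat.prime_dvd_prime_iff_eq hℓ hp).1 hd
        refine ⟨Pm * MvPolynomial.X L, ?_, fun f => ?_⟩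
        · rw [map_mul, ev_X_of_dvd L hd, mul_one, hPm1, hm, he, sigmaPrime_mul_self hp hm0]
        · rw [op_mul, Module.End.mul_apply, hPm2, op_X_of_dvd L hd]
          have h := LinearMap.congr_fun
            (coeffFunctional_comp_heckeU (N := p) (k := 2) hℓ hd m) f
          rw [LinearMap.comp_apply, coeffFunctional_apply, coeffFunctional_apply] at h
          rw [h, hm]
      · have hne : ℓ ≠ p := fun h => hd (h ▸ dvd_rfl)
        have hσ := sigmaPrime_hecke hp hℓ hne hm0
        have key : ∀ f : CuspForm (Gamma0 p) 2, qCoeff (heckeTLin 2 hℓ hd f) m =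
            qCoeff f (m * ℓ) + (if ℓ ∣ m then (ℓ : ℂ) * qCoeff f (m / ℓ) else 0) := by
          intro f
          have h := LinearMap.congr_fun
            (coeffFunctional_comp_heckeT (N := p) (k := 2) (by norm_num) hℓ hd m) f
          rw [LinearMap.comp_apply, coeffFunctional_apply] at h
          rw [h, LinearMap.add_apply, coeffFunctional_apply]
          congr 1
          split_ifs with hdm
          · rw [LinearMap.smul_apply, coeffFunctional_apply, zsmul_eq_mul]
            norm_num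
          · rfl
        by_cases hdm : ℓ ∣ m
        · have hml : m / ℓ < j := lt_of_le_of_lt (Nat.div_le_self m ℓ) hmj
          have hml1 : 1 ≤ m / ℓ := by
            obtain ⟨c, rfl⟩ := hdm
            rw [Nat.mul_div_cancel_left c hℓ.pos]
            exact Nat.one_le_iff_ne_zero.2 fun h => hm0 (by rw [h, mul_zero])
          obtain ⟨Pq, hPq1, hPq2⟩ := ih (m / ℓ) hml hml1
          refine ⟨Pm * MvPolynomial.X L - MvPolynomial.C (ℓ : ℤ) * Pq, ?_, fun f => ?_⟩
          · rw [map_sub, map_mul, map_mul, ev_X_of_not_dvd L hd, ev_C, hPm1, hPq1, hm]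
            rw [if_pos hdm] at hσ
            have hσ' : ((sigmaPrime p (m * ℓ) : ℕ) : ℤ) + (ℓ : ℤ) * (sigmaPrime p (m / ℓ) : ℤ) =
                (1 + (ℓ : ℤ)) * (sigmaPrime p m : ℤ) := by exact_mod_cast hσ
            show (sigmaPrime p m : ℤ) * (1 + ((ℓ : ℕ) : ℤ)) - (ℓ : ℤ) * (sigmaPrime p (m / ℓ) : ℤ) =
              (sigmaPrime p (m * ℓ) : ℤ)
            linarith
          · rw [op_sub, op_mul, op_mul, op_C, LinearMap.sub_apply, Module.End.mul_apply,
              Module.End.mul_apply, ← coeffFunctional_apply, map_sub, coeffFunctional_apply,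
              coeffFunctional_apply, hPm2, op_X_of_not_dvd L hd, key f, if_pos hdm,
              Module.algebraMap_end_apply, ← coeffFunctional_apply (N := p) (k := 2) 1,
              map_zsmul, coeffFunctional_apply, hPq2, zsmul_eq_mul, hm]
            push_cast
            ring
        · refine ⟨Pm * MvPolynomial.X L, ?_, fun f => ?_⟩
          · rw [map_mul, ev_X_of_not_dvd L hd, hPm1, hm]
            rw [if_neg hdm, add_zero] at hσ
            have hσ' : ((sigmaPrime p (m * ℓ) : ℕ) : ℤ) = (1 + (ℓ : ℤ)) * (sigmaPrime p m : ℤ) := by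
              exact_mod_cast hσ
            show (sigmaPrime p m : ℤ) * (1 + ((ℓ : ℕ) : ℤ)) = (sigmaPrime p (m * ℓ) : ℤ)
            linarith
          · rw [op_mul, Module.End.mul_apply, hPm2, op_X_of_not_dvd L hd, key f, if_neg hdm,
              add_zero, hm]

/-! ### The integral lattice and the pairing -/

/-- The lattice `L` of cusp forms with integral `q`-expansion. -/
abbrev Lat (p : ℕ) : Type := ↥(intLattice p 2)

/-- The integral Hecke algebra. -/
abbrev TT (p : ℕ) [NeZero p] : Type := ↥(heckeLatticeAlgebra p ∅)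

theorem mem_lat_iff (f : CuspForm (Gamma0 p) 2) :
    f ∈ intLattice p 2 ↔ ∀ n : ℕ, ∃ m : ℤ, qCoeff f n = (m : ℂ) :=
  P2MW.S_CuspForm_intLattice_fg.W3WsD.mem_intLattice_iff f

theorem exists_int_coeff (f : Lat p) (n : ℕ) : ∃ m : ℤ, qCoeff (f : CuspForm (Gamma0 p) 2) n = (m : ℂ) :=
  (mem_lat_iff _).1 f.2 n

/-- The `n`-th coefficient of an element of the lattice, as an integer. -/
def coeffZ (p n : ℕ) : Lat p →ₗ[ℤ] ℤ where
  toFun f := (exists_int_coeff f n).choose
  map_add' f g := by
    have hf := (exists_int_coeff f n).choose_spec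
    have hg := (exists_int_coeff g n).choose_spec
    have hfg := (exists_int_coeff (f + g) n).choose_spec
    have : qCoeff ((f + g : Lat p) : CuspForm (Gamma0 p) 2) n =
        qCoeff (f : CuspForm (Gamma0 p) 2) n + qCoeff (g : CuspForm (Gamma0 p) 2) n := by
      rw [Submodule.coe_add, ← coeffFunctional_apply, map_add, coeffFunctional_apply,
        coeffFunctional_apply]
    rw [hf, hg, hfg] at this
    exact_mod_cast this
  map_smul' c f := by
    have hf := (exists_int_coeff f n).choose_spec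
    have hcf := (exists_int_coeff (c • f) n).choose_spec
    have : qCoeff ((c • f : Lat p) : CuspForm (Gamma0 p) 2) n =
        (c : ℂ) * qCoeff (f : CuspForm (Gamma0 p) 2) n := by
      rw [Submodule.coe_smul, ← coeffFunctional_apply, map_zsmul, coeffFunctional_apply,
        zsmul_eq_mul]
    rw [hf, hcf] at this
    simp only [RingHom.id_apply, smul_eq_mul]
    exact_mod_cast this

theorem coeffZ_spec (n : ℕ) (f : Lat p) :
    ((coeffZ p n f : ℤ) : ℂ) = qCoeff (f : CuspForm (Gamma0 p) 2) n :=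
  ((exists_int_coeff f n).choose_spec).symm

variable [NeZero p]

/-- The action of `phi p P` on the lattice is the restriction of `op p P`. -/
theorem coe_phi_apply (P : HeckeAlg) (f : Lat p) :
    ((((phi p P : TT p) : Module.End ℤ (Lat p)) f : Lat p) : CuspForm (Gamma0 p) 2) =
      op p P (f : CuspForm (Gamma0 p) 2) := rfl

/-- The pairing `T × L → ℤ`, `(t, f) ↦ a_1(t f)`. -/
def pairing (p : ℕ) [NeZero p] : TT p →ₗ[ℤ] Lat p →ₗ[ℤ] ℤ where
  toFun t := (coeffZ p 1).comp ((t : TT p) : Module.End ℤ (Lat p))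
  map_add' s t := by
    ext f
    simp [map_add]
  map_smul' c t := by
    ext f
    simp [map_smul]

theorem pairing_apply (t : TT p) (f : Lat p) :
    pairing p t f = coeffZ p 1 (((t : TT p) : Module.End ℤ (Lat p)) f) := rfl

/-- Key formula: `a_1(t_j f) = a_j(f)`. -/
theorem pairing_phi (P : HeckeAlg) {j : ℕ}
    (hP : ∀ f : CuspForm (Gamma0 p) 2, qCoeff (op p P f) 1 = qCoeff f j) (f : Lat p) :
    pairing p (phi p P) f = coeffZ p j f := by
  have h1 := coeffZ_spec 1 (((phi p P : TT p) : Module.End ℤ (Lat p)) f)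
  rw [coe_phi_apply, hP] at h1
  have h2 := coeffZ_spec j f
  rw [pairing_apply]
  exact_mod_cast h1.trans h2.symm

omit [NeZero p] in
theorem coeffZ_zero (f : Lat p) : coeffZ p 0 f = 0 := by
  have h := coeffZ_spec 0 f
  rw [Fermat.Agent.S49.qCoeff_zero_index] at h
  exact_mod_cast h

theorem lat_eq_zero_of_coeffZ (f : Lat p) (h : ∀ j, 1 ≤ j → coeffZ p j f = 0) : f = 0 := by
  apply Subtype.ext
  apply Fermat.Agent.S49.eq_zero_of_forall_qCoeff
  intro n
  rcases Nat.eq_zero_or_pos n with rfl | hn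
  · exact Fermat.Agent.S49.qCoeff_zero_index _
  · rw [← coeffZ_spec, h n hn, Int.cast_zero]

theorem pairing_left_nondeg (hp : p.Prime) (f : Lat p) (h : ∀ t, pairing p t f = 0) : f = 0 := by
  apply lat_eq_zero_of_coeffZ
  intro j hj
  obtain ⟨P, -, hP⟩ := exists_heckePoly hp j hj
  rw [← pairing_phi P hP f, h]

theorem pairing_right_nondeg (hp : p.Prime) (t : TT p) (h : ∀ f, pairing p t f = 0) : t = 0 := by
  apply Subtype.ext
  apply LinearMap.ext
  intro f
  apply lat_eq_zero_of_coeffZ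
  intro j hj
  obtain ⟨P, -, hP⟩ := exists_heckePoly hp j hj
  rw [← pairing_phi P hP, pairing_apply]
  have hcomm : ((phi p P : TT p) : Module.End ℤ (Lat p)) (((t : TT p) : Module.End ℤ (Lat p)) f) =
      ((t : TT p) : Module.End ℤ (Lat p)) (((phi p P : TT p) : Module.End ℤ (Lat p)) f) := by
    have := congrArg (fun x : TT p => ((x : TT p) : Module.End ℤ (Lat p)) f) (mul_comm (phi p P) t)
    simpa using this
  rw [hcomm, ← pairing_apply, h]

theorem pairing_saturated (hp : p.Prime) (d : ℤ) (hd : d ≠ 0) (f : Lat p)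
    (h : ∀ t, d ∣ pairing p t f) : ∃ g : Lat p, d • g = f := by
  have hd' : (d : ℂ) ≠ 0 := by exact_mod_cast hd
  have hcoef : ∀ j, 1 ≤ j → d ∣ coeffZ p j f := by
    intro j hj
    obtain ⟨P, -, hP⟩ := exists_heckePoly hp j hj
    rw [← pairing_phi P hP f]
    exact h _
  have hmem : ((d : ℂ)⁻¹ • (f : CuspForm (Gamma0 p) 2)) ∈ intLattice p 2 := by
    rw [mem_lat_iff]
    intro n
    rcases Nat.eq_zero_or_pos n with rfl | hn
    · exact ⟨0, by rw [Fermat.Agent.S49.qCoeff_zero_index]; simp⟩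
    · obtain ⟨c, hc⟩ := hcoef n hn
      refine ⟨c, ?_⟩
      rw [Fermat.Agent.S49.qCoeff_smul, ← coeffZ_spec, hc]
      push_cast
      field_simp
  refine ⟨⟨_, hmem⟩, ?_⟩
  apply Subtype.ext
  rw [Submodule.coe_smul]
  show d • ((d : ℂ)⁻¹ • (f : CuspForm (Gamma0 p) 2)) = f
  rw [← Int.cast_smul_eq_zsmul ℂ, smul_smul, mul_inv_cancel₀ hd', one_smul]

/-- **Block (P1)** of the S16 reduction. -/
theorem dualityStatement : DualityStatement := by
  intro p hp _ k hyp
  have hpp : p.Prime := hp.out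
  have := intLattice.moduleFinite p
  have := intLattice.moduleFree p
  obtain ⟨μ, hμ⟩ := PerfectPairing.exists_lift (R := HeckeAlg) (T := TT p)
    (phi p).toAddMonoidHom (Reduction.phi_surjective p) (ev p).toAddMonoidHom (k : ℤ)
    (fun P hP => hyp P hP)
  obtain ⟨f, hf⟩ := PerfectPairing.exists_rep (pairing p) (pairing_left_nondeg hpp)
    (pairing_right_nondeg hpp) (pairing_saturated hpp) μ
  refine ⟨(f : CuspForm (Gamma0 p) 2), (mem_lat_iff _).1 f.2, ?_⟩
  intro j hj
  obtain ⟨P, hP1, hP2⟩ := exists_heckePoly hpp j hj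
  obtain ⟨c, hc⟩ := hμ P
  have h1 : μ (phi p P) = coeffZ p j f := by
    rw [← hf, pairing_phi P hP2]
  refine ⟨-c, ?_⟩
  rw [← coeffZ_spec, ← h1]
  have h2 : μ (phi p P) = (sigmaPrime p j : ℤ) - (k : ℤ) * c := by
    have : ev p P - μ (phi p P) = (k : ℤ) * c := hc
    rw [hP1] at this
    linarith
  rw [h2]
  push_cast
  ring

end

end Fermat.Agent.S16.DualityB
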