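/-
S16 / block (B)(ii)+(iv): descent wrapper for `Easy23`.

`Easy23.no_one_mod_three` / `no_one_mod_four` are stated over a commutative ring `R` in which
`ℓ` is regular and not a unit.  Here we instantiate `R` with the subring `lInt ℓ ⊂ ℂ` of
`ℓ`-integral rational numbers (carrier = the `IsLInt` predicate of `S16/Interfaces2`), so that the
analytic glue only has to provide identities between complex power series.
-/
import Mathlib
import Fermat.Agent.S16.Easy23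

set_option autoImplicit false

namespace Fermat.Agent.S16.Easy23Complex

open PowerSeries Fermat.Agent.S16.Easy23

/-- The subring `ℤ_(ℓ) ⊂ ℂ` of `ℓ`-integral rational numbers. -/
def lInt (ℓ : ℕ) [hℓ : Fact ℓ.Prime] : Subring ℂ where
  carrier := {z | ∃ a b : ℤ, ¬ (ℓ : ℤ) ∣ b ∧ z * (b : ℂ) = (a : ℂ)}
  mul_mem' := by
    rintro x y ⟨a, b, hb, hx⟩ ⟨c, d, hd, hy⟩
    refine ⟨a * c, b * d, ?_, ?_⟩
    · intro h
      rcases (Int.prime_iff_natAbs_prime.mpr (by simpa using hℓ.out)).dvd_or_dvd h with h | h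
      · exact hb h
      · exact hd h
    · push_cast; linear_combination (y * (d : ℂ)) * hx + (a : ℂ) * hy
  one_mem' := ⟨1, 1, by
    intro h
    have := Int.eq_one_of_dvd_one (by positivity) h
    have h2 := hℓ.out.two_le
    omega, by simp⟩
  add_mem' := by
    rintro x y ⟨a, b, hb, hx⟩ ⟨c, d, hd, hy⟩
    refine ⟨a * d + c * b, b * d, ?_, ?_⟩
    · intro h
      rcases (Int.prime_iff_natAbs_prime.mpr (by simpa using hℓ.out)).dvd_or_dvd h with h | h
      · exact hb h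
      · exact hd h
    · push_cast; linear_combination (d : ℂ) * hx + (b : ℂ) * hy
  zero_mem' := ⟨0, 1, by
    intro h
    have := Int.eq_one_of_dvd_one (by positivity) h
    have h2 := hℓ.out.two_le
    omega, by simp⟩
  neg_mem' := by
    rintro x ⟨a, b, hb, hx⟩
    exact ⟨-a, b, hb, by push_cast; linear_combination -hx⟩

theorem mem_lInt {ℓ : ℕ} [Fact ℓ.Prime] {z : ℂ} :
    z ∈ lInt ℓ ↔ ∃ a b : ℤ, ¬ (ℓ : ℤ) ∣ b ∧ z * (b : ℂ) = (a : ℂ) := Iff.rfl

theorem not_isUnit_natCast (ℓ : ℕ) [hℓ : Fact ℓ.Prime] : ¬ IsUnit ((ℓ : ℕ) : lInt ℓ) := by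
  rintro ⟨u, hu⟩
  have h1 : ((ℓ : lInt ℓ) : ℂ) * ((u⁻¹ : (lInt ℓ)ˣ) : lInt ℓ) = 1 := by
    have : (u : lInt ℓ) * ((u⁻¹ : (lInt ℓ)ˣ) : lInt ℓ) = 1 := u.mul_inv
    rw [hu] at this
    exact_mod_cast congrArg (Subtype.val) this
  obtain ⟨a, b, hb, hab⟩ := ((u⁻¹ : (lInt ℓ)ˣ) : lInt ℓ).2
  apply hb
  refine ⟨a, ?_⟩
  have h2 : ((b : ℤ) : ℂ) = ((ℓ : ℤ) : ℂ) * (a : ℂ) := by
    have h3 : ((ℓ : lInt ℓ) : ℂ) = ((ℓ : ℤ) : ℂ) := by simp
    rw [h3] at h1
    linear_combination (-(b : ℂ)) * h1 + ((ℓ : ℤ) : ℂ) * hab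
  exact_mod_cast h2


/-! ### Descent from `ℂ⟦X⟧` to `A⟦X⟧` for a subring `A ⊂ ℂ` -/

@[simp] theorem coe_ofNat_subring (A : Subring ℂ) (n : ℕ) [n.AtLeastTwo] :
    ((ofNat(n) : A) : ℂ) = ofNat(n) := map_ofNat A.subtype n

section descent

variable (A : Subring ℂ)

theorem exists_lift (m : A) (a : ℂ⟦X⟧) (h0 : coeff 0 a = 1)
    (hj : ∀ j, j ≠ 0 → ∃ z : ℂ, z ∈ A ∧ coeff j a = (m : ℂ) * z) :
    ∃ G : A⟦X⟧, map A.subtype (1 + C m * G) = a := by
  classical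
  refine ⟨PowerSeries.mk fun n => if h : n = 0 then 0 else
    ⟨Classical.choose (hj n h), (Classical.choose_spec (hj n h)).1⟩, ?_⟩
  ext n
  rw [coeff_map, map_add, coeff_one, coeff_C_mul, coeff_mk]
  by_cases hn : n = 0
  · subst hn
    rw [if_pos rfl, dif_pos rfl, mul_zero, add_zero, h0]
    simp
  · rw [if_neg hn, dif_neg hn, zero_add]
    refine Eq.trans ?_ (Classical.choose_spec (hj n hn)).2.symm
    simp

theorem transfer (p : ℕ) (F E : A⟦X⟧) (hE0 : coeff 0 E = 1) (c : ℂ)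
    (htr : C (p : ℂ) * (map A.subtype F) ^ 2 + Up p ((Up p (map A.subtype F)) ^ 2)
      = C c * map A.subtype E) :
    ∃ cA : A, C (p : A) * F ^ 2 + Up p ((Up p F) ^ 2) = C cA * E := by
  obtain ⟨L, hL⟩ : ∃ L : A⟦X⟧, L = C (p : A) * F ^ 2 + Up p ((Up p F) ^ 2) := ⟨_, rfl⟩
  have hmap : map A.subtype L = C c * map A.subtype E := by
    rw [hL, ← htr]
    simp only [map_add, map_mul, map_pow, map_C, ← Up_map]
    simp
  refine ⟨coeff 0 L, ?_⟩
  rw [← hL]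
  apply map_injective A.subtype A.subtype_injective
  rw [hmap, map_mul, map_C]
  have h := congrArg (coeff 0) hmap
  rw [coeff_map, coeff_C_mul, coeff_map, hE0] at h
  simp only [map_one, mul_one] at h
  rw [h]

end descent


/-! ### The two easy cases, for complex power series with `ℓ`-integral rational coefficients -/

theorem sigma_three_prime {p : ℕ} (hp : p.Prime) : ArithmeticFunction.sigma 3 p = 1 + p ^ 3 := by
  rw [ArithmeticFunction.sigma_apply, hp.divisors, Finset.sum_pair hp.one_lt.ne]; simp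

/-- Common core of the two cases: given the lift `a = map (1 + m G)` over `A ⊂ ℂ`, produce all
hypotheses of `Easy23.no_one_mod_*` over `A`. -/
theorem descend_identities (A : Subring ℂ) {p : ℕ} (a E4 : ℂ⟦X⟧)
    (hE4 : ∀ n, coeff n E4 = if n = 0 then 1 else 240 * ((ArithmeticFunction.sigma 3 n : ℕ) : ℂ))
    (F : A⟦X⟧) (hFa : map A.subtype F = a)
    (hUU : Up p (Up p a) = a) (c c' : ℂ)
    (htr : C (p : ℂ) * a ^ 2 + Up p ((Up p a) ^ 2) = C c * E4)
    (htr' : C (p : ℂ) * (Up p a) ^ 2 + Up p (a ^ 2) = C c' * E4) :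
    ∃ (E : A⟦X⟧) (cA cA' : A),
      (∀ n, coeff n E = if n = 0 then 1 else 240 * ((ArithmeticFunction.sigma 3 n : ℕ) : A)) ∧
      Up p (Up p F) = F ∧
      C (p : A) * F ^ 2 + Up p ((Up p F) ^ 2) = C cA * E ∧
      C (p : A) * (Up p F) ^ 2 + Up p (F ^ 2) = C cA' * E := by
  obtain ⟨E, hEdef⟩ : ∃ E : A⟦X⟧, E = PowerSeries.mk fun n =>
      if n = 0 then 1 else 240 * ((ArithmeticFunction.sigma 3 n : ℕ) : A) := ⟨_, rfl⟩
  have hEc : ∀ n, coeff n E = if n = 0 then 1 else 240 * ((ArithmeticFunction.sigma 3 n : ℕ) : A) := by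
    intro n; rw [hEdef, coeff_mk]
  have hE : map A.subtype E = E4 := by
    ext n
    rw [coeff_map, hEc, hE4]
    split_ifs <;> simp
  have hE0 : coeff 0 E = 1 := by rw [hEc, if_pos rfl]
  have hUUA : Up p (Up p F) = F := by
    apply map_injective A.subtype A.subtype_injective
    rw [← Up_map, ← Up_map, hFa, hUU]
  obtain ⟨cA, hc⟩ := transfer A p F E hE0 c (by rw [hFa, hE]; exact htr)
  obtain ⟨cA', hc'⟩ := transfer A p (Up p F) E hE0 c' (by
    rw [← Up_map, hFa, hUU, hE]; exact htr')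
  rw [hUUA] at hc'
  exact ⟨E, cA, cA', hEc, hUUA, hc, hc'⟩

/-- **`ℓ = 3`, `p ≡ 1 mod 3`**, complex form.  `a` plays the role of the `q`-expansion of a form
`F ∈ M_2(Γ0(p))` with `F ≡ 1 mod 3`. -/
theorem no_one_mod_three_complex {p : ℕ} [hp : Fact p.Prime] (hp3 : p % 3 = 1) (a E4 : ℂ⟦X⟧)
    (hE4 : ∀ n, coeff n E4 = if n = 0 then 1 else 240 * ((ArithmeticFunction.sigma 3 n : ℕ) : ℂ))
    (h0 : coeff 0 a = 1)
    (hj : ∀ j, 1 ≤ j → ∃ z : ℂ, (∃ u v : ℤ, ¬ (3 : ℤ) ∣ v ∧ z * (v : ℂ) = (u : ℂ)) ∧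
      coeff j a = 3 * z)
    (hUU : Up p (Up p a) = a) (c c' : ℂ)
    (htr : C (p : ℂ) * a ^ 2 + Up p ((Up p a) ^ 2) = C c * E4)
    (htr' : C (p : ℂ) * (Up p a) ^ 2 + Up p (a ^ 2) = C c' * E4) : False := by
  have : Fact (Nat.Prime 3) := ⟨Nat.prime_three⟩
  obtain ⟨G, hG⟩ := exists_lift (lInt 3) (3 : lInt 3) a h0 (fun j hj0 => by
    obtain ⟨z, hz, h⟩ := hj j (Nat.one_le_iff_ne_zero.mpr hj0)
    exact ⟨z, hz, by simpa using h⟩)
  obtain ⟨E, cA, cA', hEc, hUUA, hc, hc'⟩ :=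
    descend_identities (lInt 3) a E4 hE4 _ hG hUU c c' htr htr'
  refine no_one_mod_three (R := lInt 3) (p := p)
    (s := fun n => ((ArithmeticFunction.sigma 3 n : ℕ) : lInt 3)) (p / 3) (by omega) ?_ ?_ ?_ ?_
    hEc rfl hUUA cA cA' hc hc'
  · intro x hx
    have h := congrArg Subtype.val hx
    simp only [Subring.coe_mul, ZeroMemClass.coe_zero] at h
    have h3 : ((3 : lInt 3) : ℂ) = 3 := by simp
    rw [h3] at h
    exact Subtype.ext ((mul_eq_zero.mp h).resolve_left (by norm_num))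
  · have := not_isUnit_natCast 3
    simpa using this
  · simp
  · simp [sigma_three_prime hp.out]

/-- **`ℓ = 2`, `p ≡ 1 mod 4`**, complex form.  `a` plays the role of the `q`-expansion of a form
`F ∈ M_2(Γ0(p))` with `F ≡ 1 mod 4`. -/
theorem no_one_mod_four_complex {p : ℕ} [hp : Fact p.Prime] (hp4 : p % 4 = 1) (a E4 : ℂ⟦X⟧)
    (hE4 : ∀ n, coeff n E4 = if n = 0 then 1 else 240 * ((ArithmeticFunction.sigma 3 n : ℕ) : ℂ))
    (h0 : coeff 0 a = 1)
    (hj : ∀ j, 1 ≤ j → ∃ z : ℂ, (∃ u v : ℤ, ¬ (2 : ℤ) ∣ v ∧ z * (v : ℂ) = (u : ℂ)) ∧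
      coeff j a = 4 * z)
    (hUU : Up p (Up p a) = a) (c c' : ℂ)
    (htr : C (p : ℂ) * a ^ 2 + Up p ((Up p a) ^ 2) = C c * E4)
    (htr' : C (p : ℂ) * (Up p a) ^ 2 + Up p (a ^ 2) = C c' * E4) : False := by
  have : Fact (Nat.Prime 2) := ⟨Nat.prime_two⟩
  obtain ⟨G, hG⟩ := exists_lift (lInt 2) (4 : lInt 2) a h0 (fun j hj0 => by
    obtain ⟨z, hz, h⟩ := hj j (Nat.one_le_iff_ne_zero.mpr hj0)
    exact ⟨z, hz, by simpa using h⟩)
  obtain ⟨E, cA, cA', hEc, hUUA, hc, hc'⟩ :=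
    descend_identities (lInt 2) a E4 hE4 _ hG hUU c c' htr htr'
  refine no_one_mod_four (R := lInt 2) (p := p)
    (s := fun n => ((ArithmeticFunction.sigma 3 n : ℕ) : lInt 2)) (p / 4) (by omega) ?_ ?_ ?_ ?_
    hEc rfl hUUA cA cA' hc hc'
  · intro x hx
    have h := congrArg Subtype.val hx
    simp only [Subring.coe_mul, ZeroMemClass.coe_zero] at h
    have h3 : ((2 : lInt 2) : ℂ) = 2 := by simp
    rw [h3] at h
    exact Subtype.ext ((mul_eq_zero.mp h).resolve_left (by norm_num))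
  · have := not_isUnit_natCast 2
    simpa using this
  · simp
  · simp [sigma_three_prime hp.out]

end Fermat.Agent.S16.Easy23Complex
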