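/-
S16 prep (helper44), path B: the ModularForm-level Fricke / trace package at prime level `p`, weight `2`.

For `F : ModularForm Γ₀(p) 2`:
* `trace_zero` : `F + ∑_{b < p} F ∣[2] (S T^b) = 0` (the trace to `SL₂(ℤ)` is a weight-2 level-1 form);
* `frickeW F : ModularForm Γ₀(p) 2`, `F ∣[2] [[0,-1],[p,0]]`;
* `frickeW_eq_neg_heckeU` : `W F = - U_p F`;
* `slash_S_T_eq` : `(F ∣[2] (S T^b)) τ = -(1/p) (U_p F)((τ + b)/p)`;
* `heckeU_heckeU` : `U_p (U_p F) = F`.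
-/
import Mathlib
import Fermat.Prelude.Def_ModularForm_HeckeOperator
import Fermat.Agent.S28.ModPolyCoset

set_option autoImplicit false

open UpperHalfPlane ModularForm MatrixGroups CongruenceSubgroup SlashInvariantForm
open Fermat.Agent.S28.ModPolyCoset

namespace Fermat.Agent.S16.FrickeTraceB

variable (p : ℕ) [Fact p.Prime]

/-- The trace of a weight-2 form of level `Γ₀(p)` to level one vanishes. -/
theorem trace_eq_zero (F : ModularForm (GammaP p) 2) : ModularForm.trace 𝒮ℒ F = 0 := by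
  have h := ModularForm.levelOne_weight_two_rank_zero
  rw [rank_zero_iff_forall_zero] at h
  exact h _

/-- **Trace zero**, explicit cosets. -/
theorem trace_zero (F : ModularForm (GammaP p) 2) (τ : ℍ) :
    F τ + ∑ b ∈ Finset.range p,
      ((F : ℍ → ℂ) ∣[(2 : ℤ)] (ModularGroup.S * ModularGroup.T ^ ((b : ℕ) : ℤ))) τ = 0 := by
  classical
  have h0 := congrArg (fun G : ModularForm 𝒮ℒ 2 => (G : ℍ → ℂ) τ) (trace_eq_zero p F)
  simp only [ModularForm.coe_trace, FunLike.coe_zero, Pi.zero_apply] at h0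
  rw [Finset.sum_apply] at h0
  rw [← h0]
  let : Fintype (Quo p) := Fintype.ofFinite _
  have h1 : ∑ q : Quo p, quotientFunc F q τ =
      ∑ o : Option (Fin p), quotientFunc F (cosetEquiv p o) τ :=
    (Fintype.sum_equiv (cosetEquiv p) _ _ (fun _ => rfl)).symm
  have hval : ∀ o : Option (Fin p), quotientFunc F (cosetEquiv p o) τ =
      ((F : ℍ → ℂ) ∣[(2 : ℤ)] (repInv p o)) τ := by
    intro o
    show quotientFunc F (QuotientGroup.mk (toSL (repInv p o)⁻¹)) τ = _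
    rw [quotientFunc_mk]
    have h1 : ((toSL (repInv p o)⁻¹ : 𝒮ℒ) : GL (Fin 2) ℝ)⁻¹ =
        Matrix.SpecialLinearGroup.mapGL ℝ (repInv p o) := by
      show (Matrix.SpecialLinearGroup.mapGL ℝ (repInv p o)⁻¹)⁻¹ = _
      rw [map_inv, inv_inv]
    rw [h1]
    rfl
  rw [h1, Fintype.sum_option, hval none]
  congr 1
  · show F τ = ((F : ℍ → ℂ) ∣[(2 : ℤ)] (1 : SL(2, ℤ))) τ
    rw [SlashAction.slash_one]
  · rw [← Fin.sum_univ_eq_sum_range
      (fun b => ((F : ℍ → ℂ) ∣[(2 : ℤ)] (ModularGroup.S * ModularGroup.T ^ ((b : ℕ) : ℤ))) τ) p]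
    refine Finset.sum_congr rfl fun b _ => ?_
    rw [hval (some b)]
    rfl

/-- **General weight**: explicit coset formula for Mathlib's trace to level one,
`Tr H = H + ∑_{b < p} H ∣[k] (S T^b)`. -/
theorem trace_apply (k : ℤ) (H : ModularForm (GammaP p) k) (τ : ℍ) :
    (ModularForm.trace 𝒮ℒ H) τ = H τ + ∑ b ∈ Finset.range p,
      ((H : ℍ → ℂ) ∣[k] (ModularGroup.S * ModularGroup.T ^ ((b : ℕ) : ℤ))) τ := by
  classical
  have h0 : (ModularForm.trace 𝒮ℒ H) τ = (⇑(ModularForm.trace 𝒮ℒ H)) τ := rfl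
  rw [h0, ModularForm.coe_trace, Finset.sum_apply]
  let : Fintype (Quo p) := Fintype.ofFinite _
  have h1 : ∑ q : Quo p, quotientFunc H q τ =
      ∑ o : Option (Fin p), quotientFunc H (cosetEquiv p o) τ :=
    (Fintype.sum_equiv (cosetEquiv p) _ _ (fun _ => rfl)).symm
  have hval : ∀ o : Option (Fin p), quotientFunc H (cosetEquiv p o) τ =
      ((H : ℍ → ℂ) ∣[k] (repInv p o)) τ := by
    intro o
    show quotientFunc H (QuotientGroup.mk (toSL (repInv p o)⁻¹)) τ = _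
    rw [quotientFunc_mk]
    have h1 : ((toSL (repInv p o)⁻¹ : 𝒮ℒ) : GL (Fin 2) ℝ)⁻¹ =
        Matrix.SpecialLinearGroup.mapGL ℝ (repInv p o) := by
      show (Matrix.SpecialLinearGroup.mapGL ℝ (repInv p o)⁻¹)⁻¹ = _
      rw [map_inv, inv_inv]
    rw [h1]
    rfl
  rw [h1, Fintype.sum_option, hval none]
  congr 1
  · show ((H : ℍ → ℂ) ∣[k] (1 : SL(2, ℤ))) τ = H τ
    rw [SlashAction.slash_one]
  · rw [← Fin.sum_univ_eq_sum_range
      (fun b => ((H : ℍ → ℂ) ∣[k] (ModularGroup.S * ModularGroup.T ^ ((b : ℕ) : ℤ))) τ) p]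
    refine Finset.sum_congr rfl fun b _ => ?_
    rw [hval (some b)]
    rfl

/-! ### The Fricke matrix and the normaliser computation -/

/-- The Fricke matrix `[[0, -1], [p, 0]]`. -/
noncomputable def frickeGL : GL (Fin 2) ℝ :=
  Matrix.GeneralLinearGroup.mkOfDetNeZero !![0, -1; (p : ℝ), 0] (by
    rw [Matrix.det_fin_two_of]
    have hp : (p : ℝ) ≠ 0 := by exact_mod_cast (Fact.out : p.Prime).ne_zero
    simpa using hp)

@[simp] theorem val_frickeGL :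
    ((frickeGL p : GL (Fin 2) ℝ) : Matrix (Fin 2) (Fin 2) ℝ) = !![0, -1; (p : ℝ), 0] := rfl

/-- `W⁻¹ δ W` for `δ ∈ Γ₀(p)`: the matrix `[[d, -c/p], [-p b, a]]`. -/
def conjW (δ : SL(2, ℤ)) (h : (p : ℤ) ∣ δ 1 0) : SL(2, ℤ) :=
  ⟨!![δ 1 1, -(δ 1 0 / p); -(p * δ 0 1), δ 0 0], by
    rw [Matrix.det_fin_two_of]
    have h1 : δ 1 0 / (p : ℤ) * p = δ 1 0 := Int.ediv_mul_cancel h
    have h2 := Matrix.det_fin_two (δ : Matrix (Fin 2) (Fin 2) ℤ)
    rw [Matrix.SpecialLinearGroup.det_coe] at h2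
    have : -(δ 1 0 / (p : ℤ)) * -(p * δ 0 1) = (δ 1 0 / (p : ℤ) * p) * δ 0 1 := by ring
    rw [this, h1]
    linarith⟩

omit [Fact p.Prime] in
theorem coe_conjW (δ : SL(2, ℤ)) (h : (p : ℤ) ∣ δ 1 0) :
    ((conjW p δ h : SL(2, ℤ)) : Matrix (Fin 2) (Fin 2) ℤ) =
      !![δ 1 1, -(δ 1 0 / p); -(p * δ 0 1), δ 0 0] := rfl

theorem conjW_mem (δ : SL(2, ℤ)) (h : (p : ℤ) ∣ δ 1 0) : conjW p δ h ∈ Gamma0 p := by
  rw [Gamma0_mem]
  show (((-(p * δ 0 1) : ℤ)) : ZMod p) = 0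
  simp

omit [Fact p.Prime] in
theorem dvd_of_mem_Gamma0 {δ : SL(2, ℤ)} (hδ : δ ∈ Gamma0 p) : (p : ℤ) ∣ δ 1 0 := by
  rw [Gamma0_mem] at hδ
  exact (ZMod.intCast_zmod_eq_zero_iff_dvd _ _).mp hδ

theorem mapGL_mul_fricke (δ : SL(2, ℤ)) (h : (p : ℤ) ∣ δ 1 0) :
    (Matrix.SpecialLinearGroup.mapGL ℝ δ : GL (Fin 2) ℝ) * frickeGL p =
      frickeGL p * Matrix.SpecialLinearGroup.mapGL ℝ (conjW p δ h) := by
  have h1 : ((δ 1 0 / (p : ℤ) : ℤ) : ℝ) * p = ((δ 1 0 : ℤ) : ℝ) := by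
    exact_mod_cast Int.ediv_mul_cancel h
  apply Matrix.GeneralLinearGroup.ext
  intro i j
  rw [Matrix.GeneralLinearGroup.coe_mul, Matrix.GeneralLinearGroup.coe_mul,
    Matrix.SpecialLinearGroup.mapGL_coe_matrix, Matrix.SpecialLinearGroup.mapGL_coe_matrix,
    val_frickeGL]
  fin_cases i <;> fin_cases j <;>
    simp [coe_conjW, Matrix.SpecialLinearGroup.map_apply_coe, RingHom.mapMatrix_apply,
      Matrix.map_apply, Matrix.mul_apply, Fin.sum_univ_two] <;> linarith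

theorem mapGL_conjW_mul_fricke (δ : SL(2, ℤ)) (h : (p : ℤ) ∣ δ 1 0) :
    (Matrix.SpecialLinearGroup.mapGL ℝ (conjW p δ h) : GL (Fin 2) ℝ) * frickeGL p =
      frickeGL p * Matrix.SpecialLinearGroup.mapGL ℝ δ := by
  have h1 : ((δ 1 0 / (p : ℤ) : ℤ) : ℝ) * p = ((δ 1 0 : ℤ) : ℝ) := by
    exact_mod_cast Int.ediv_mul_cancel h
  apply Matrix.GeneralLinearGroup.ext
  intro i j
  rw [Matrix.GeneralLinearGroup.coe_mul, Matrix.GeneralLinearGroup.coe_mul,
    Matrix.SpecialLinearGroup.mapGL_coe_matrix, Matrix.SpecialLinearGroup.mapGL_coe_matrix,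
    val_frickeGL]
  fin_cases i <;> fin_cases j <;>
    simp [coe_conjW, Matrix.SpecialLinearGroup.map_apply_coe, RingHom.mapMatrix_apply,
      Matrix.map_apply, Matrix.mul_apply, Fin.sum_univ_two] <;> linarith

open ConjAct Pointwise in
/-- `W` normalises `Γ₀(p)`. -/
theorem conj_fricke_GammaP : toConjAct (frickeGL p)⁻¹ • GammaP p = GammaP p := by
  ext x
  rw [map_inv, Subgroup.mem_inv_pointwise_smul_iff, toConjAct_smul]
  constructor
  · rintro ⟨γ, hγ, hγx⟩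
    have hd := dvd_of_mem_Gamma0 p hγ
    refine ⟨conjW p γ hd, conjW_mem p γ hd, ?_⟩
    have h1 := mapGL_mul_fricke p γ hd
    have hγx' : (Matrix.SpecialLinearGroup.mapGL ℝ γ : GL (Fin 2) ℝ) =
        frickeGL p * x * (frickeGL p)⁻¹ := hγx
    rw [hγx'] at h1
    have h2 : frickeGL p * x = frickeGL p * Matrix.SpecialLinearGroup.mapGL ℝ (conjW p γ hd) := by
      rw [← h1]
      group
    exact (mul_left_cancel h2).symm
  · rintro ⟨δ, hδ, rfl⟩
    have hd := dvd_of_mem_Gamma0 p hδ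
    refine ⟨conjW p δ hd, conjW_mem p δ hd, ?_⟩
    have h1 := mapGL_conjW_mul_fricke p δ hd
    show (Matrix.SpecialLinearGroup.mapGL ℝ (conjW p δ hd) : GL (Fin 2) ℝ) =
      frickeGL p * Matrix.SpecialLinearGroup.mapGL ℝ δ * (frickeGL p)⁻¹
    rw [← h1]
    group

/-- Transport of a modular form along an equality of levels. -/
def castLevel {Γ Γ' : Subgroup (GL (Fin 2) ℝ)} {k : ℤ} (h : Γ = Γ') (f : ModularForm Γ k) :
    ModularForm Γ' k where
  toFun := f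
  slash_action_eq' γ hγ := f.slash_action_eq' γ (h ▸ hγ)
  holo' := f.holo'
  bdd_at_cusps' hc := f.bdd_at_cusps' (h ▸ hc)

@[simp] theorem coe_castLevel {Γ Γ' : Subgroup (GL (Fin 2) ℝ)} {k : ℤ} (h : Γ = Γ')
    (f : ModularForm Γ k) : (castLevel h f : ℍ → ℂ) = f := rfl

/-- The Fricke involution on `M₂(Γ₀(p))`. -/
noncomputable def frickeW (F : ModularForm (GammaP p) 2) : ModularForm (GammaP p) 2 :=
  castLevel (conj_fricke_GammaP p) (ModularForm.translate F (frickeGL p))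

theorem coe_frickeW (F : ModularForm (GammaP p) 2) :
    (frickeW p F : ℍ → ℂ) = (F : ℍ → ℂ) ∣[(2 : ℤ)] frickeGL p := rfl

/-! ### `W F = - U_p F` -/

omit [Fact p.Prime] in
/-- In even weight, `-g` and `g` act in the same way. -/
theorem slash_neg_two (f : ℍ → ℂ) (g : GL (Fin 2) ℝ) : f ∣[(2 : ℤ)] (-g) = f ∣[(2 : ℤ)] g := by
  ext τ
  rw [ModularForm.slash_apply, ModularForm.slash_apply, σ_neg, UpperHalfPlane.neg_smul, denom_neg]
  have hdet : ((-g).det : ℝ) = (g.det : ℝ) := by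
    simp [Matrix.det_neg]
  rw [hdet]
  congr 1
  rw [zpow_neg, zpow_neg, show ((2 : ℤ)) = ((2 : ℕ) : ℤ) by rfl, zpow_natCast, zpow_natCast, neg_sq]

theorem fricke_mul_S_T (b : ℕ) :
    frickeGL p * Matrix.SpecialLinearGroup.mapGL ℝ
        (ModularGroup.S * ModularGroup.T ^ ((b : ℕ) : ℤ)) = -(heckeMatrix p b) := by
  have hp : p ≠ 0 := (Fact.out : p.Prime).ne_zero
  apply Matrix.GeneralLinearGroup.ext
  intro i j
  rw [Matrix.GeneralLinearGroup.coe_mul, Matrix.SpecialLinearGroup.mapGL_coe_matrix, val_frickeGL,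
    Matrix.SpecialLinearGroup.map_apply_coe, S_mul_T_zpow_coe]
  fin_cases i <;> fin_cases j <;>
    simp [val_heckeMatrix hp, RingHom.mapMatrix_apply, Matrix.map_apply, Matrix.mul_apply,
      Fin.sum_univ_two]

/-- **`W F = - U_p F`.** -/
theorem frickeW_eq_neg_heckeU (F : ModularForm (GammaP p) 2) :
    (frickeW p F : ℍ → ℂ) = -heckeU 2 p F := by
  ext τ
  have h := trace_zero p (frickeW p F) τ
  have hsum : ∑ b ∈ Finset.range p, ((frickeW p F : ℍ → ℂ) ∣[(2 : ℤ)]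
      (ModularGroup.S * ModularGroup.T ^ ((b : ℕ) : ℤ))) τ = heckeU 2 p F τ := by
    rw [heckeU_def, Finset.sum_apply]
    refine Finset.sum_congr rfl fun b _ => ?_
    have e : (frickeW p F : ℍ → ℂ) ∣[(2 : ℤ)] (ModularGroup.S * ModularGroup.T ^ ((b : ℕ) : ℤ)) =
        (F : ℍ → ℂ) ∣[(2 : ℤ)] (frickeGL p * Matrix.SpecialLinearGroup.mapGL ℝ
          (ModularGroup.S * ModularGroup.T ^ ((b : ℕ) : ℤ))) := by
      rw [coe_frickeW]
      exact (SlashAction.slash_mul (2 : ℤ) (frickeGL p) (Matrix.SpecialLinearGroup.mapGL ℝ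
          (ModularGroup.S * ModularGroup.T ^ ((b : ℕ) : ℤ))) (F : ℍ → ℂ)).symm
    rw [e, fricke_mul_S_T, slash_neg_two]
  rw [hsum] at h
  rw [Pi.neg_apply]
  exact eq_neg_of_add_eq_zero_left h

/-! ### The conjugates `F ∣[2] (S T^b)` -/

theorem det_frickeGL : ((frickeGL p).det : ℝ) = p := by
  rw [Matrix.GeneralLinearGroup.val_det_apply, val_frickeGL, Matrix.det_fin_two_of]
  ring

theorem det_frickeGL_pos : 0 < ((frickeGL p).det : ℝ) := by
  rw [det_frickeGL]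
  exact_mod_cast (Fact.out : p.Prime).pos

theorem denom_frickeGL (w : ℍ) : denom (frickeGL p) w = (p : ℂ) * w := by
  simp [denom, val_frickeGL]

theorem coe_frickeGL_smul (w : ℍ) : ((frickeGL p • w : ℍ) : ℂ) = -1 / ((p : ℂ) * w) := by
  rw [UpperHalfPlane.coe_smul_of_det_pos (det_frickeGL_pos p)]
  simp [num, denom, val_frickeGL]

omit [Fact p.Prime] in
theorem denom_S_T (b : ℕ) (τ : ℍ) :
    denom ((ModularGroup.S * ModularGroup.T ^ ((b : ℕ) : ℤ) : SL(2, ℤ)) : GL (Fin 2) ℝ) τ =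
      (τ : ℂ) + b := by
  have h : (((ModularGroup.S * ModularGroup.T ^ ((b : ℕ) : ℤ) : SL(2, ℤ)) : GL (Fin 2) ℝ) :
      Matrix (Fin 2) (Fin 2) ℝ) = !![0, -1; 1, (b : ℝ)] := by
    show ((Matrix.SpecialLinearGroup.mapGL ℝ (ModularGroup.S * ModularGroup.T ^ ((b : ℕ) : ℤ)) :
      GL (Fin 2) ℝ) : Matrix (Fin 2) (Fin 2) ℝ) = _
    rw [Matrix.SpecialLinearGroup.mapGL_coe_matrix, Matrix.SpecialLinearGroup.map_apply_coe,
      S_mul_T_zpow_coe]
    ext i j
    fin_cases i <;> fin_cases j <;> simp [RingHom.mapMatrix_apply, Matrix.map_apply]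
  have hd : denom ((ModularGroup.S * ModularGroup.T ^ ((b : ℕ) : ℤ) : SL(2, ℤ)) : GL (Fin 2) ℝ) τ =
      (((((ModularGroup.S * ModularGroup.T ^ ((b : ℕ) : ℤ) : SL(2, ℤ)) : GL (Fin 2) ℝ) :
        Matrix (Fin 2) (Fin 2) ℝ) 1 0 : ℝ) : ℂ) * τ +
      (((((ModularGroup.S * ModularGroup.T ^ ((b : ℕ) : ℤ) : SL(2, ℤ)) : GL (Fin 2) ℝ) :
        Matrix (Fin 2) (Fin 2) ℝ) 1 1 : ℝ) : ℂ) := rfl
  rw [hd, h]
  simp

theorem σ_frickeGL : σ (frickeGL p) = .refl ℝ ℂ := by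
  rw [UpperHalfPlane.σ, if_pos (det_frickeGL_pos p)]

theorem fricke_smul_hecke_smul (b : ℕ) (τ : ℍ) :
    frickeGL p • (heckeMatrix p b • τ) =
      (ModularGroup.S * ModularGroup.T ^ ((b : ℕ) : ℤ) : SL(2, ℤ)) • τ := by
  have hp : p ≠ 0 := (Fact.out : p.Prime).ne_zero
  have hp' : (p : ℂ) ≠ 0 := by exact_mod_cast hp
  apply UpperHalfPlane.ext
  rw [coe_frickeGL_smul, coe_heckeMatrix_smul hp, mul_smul, UpperHalfPlane.modular_S_smul]
  show _ = (-((ModularGroup.T ^ ((b : ℕ) : ℤ) • τ : ℍ) : ℂ))⁻¹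
  rw [ModularGroup.coe_T_zpow_smul_eq]
  have hzb : (τ : ℂ) + b ≠ 0 := by
    intro h
    have := congrArg Complex.im h
    simp only [Complex.add_im, Complex.natCast_im, add_zero, Complex.zero_im] at this
    exact τ.im_pos.ne' this
  push_cast
  field_simp

/-- The conjugates of `F` in terms of `W F`. -/
theorem slash_S_T_apply (F : ModularForm (GammaP p) 2) (b : ℕ) (τ : ℍ) :
    ((F : ℍ → ℂ) ∣[(2 : ℤ)] (ModularGroup.S * ModularGroup.T ^ ((b : ℕ) : ℤ))) τ =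
      (p : ℂ)⁻¹ * (frickeW p F) (heckeMatrix p b • τ) := by
  have hp : p ≠ 0 := (Fact.out : p.Prime).ne_zero
  have hp' : (p : ℂ) ≠ 0 := by exact_mod_cast hp
  have hzb : (τ : ℂ) + b ≠ 0 := by
    intro h
    have := congrArg Complex.im h
    simp only [Complex.add_im, Complex.natCast_im, add_zero, Complex.zero_im] at this
    exact τ.im_pos.ne' this
  rw [coe_frickeW, ModularForm.SL_slash_apply, ModularForm.slash_apply, σ_frickeGL,
    fricke_smul_hecke_smul, denom_frickeGL, coe_heckeMatrix_smul hp, det_frickeGL]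
  have hd := denom_S_T b τ
  rw [show denom ((ModularGroup.S * ModularGroup.T ^ ((b : ℕ) : ℤ) : SL(2, ℤ))) τ = (τ : ℂ) + b
    from hd]
  simp only [ContinuousAlgEquiv.refl_apply, Nat.abs_cast, Complex.ofReal_natCast]
  generalize F ((ModularGroup.S * ModularGroup.T ^ ((b : ℕ) : ℤ) : SL(2, ℤ)) • τ) = y
  have h1 : (p : ℂ) * (((τ : ℂ) + b) / p) = (τ : ℂ) + b := by field_simp
  rw [h1]
  norm_num
  field_simp

/-- **The conjugate formula**: `(F ∣[2] S T^b)(τ) = -(1/p) (U_p F)((τ + b)/p)`. -/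
theorem slash_S_T_eq (F : ModularForm (GammaP p) 2) (b : ℕ) (τ : ℍ) :
    ((F : ℍ → ℂ) ∣[(2 : ℤ)] (ModularGroup.S * ModularGroup.T ^ ((b : ℕ) : ℤ))) τ =
      -((p : ℂ)⁻¹ * heckeU 2 p F (heckeMatrix p b • τ)) := by
  rw [slash_S_T_apply, frickeW_eq_neg_heckeU, Pi.neg_apply, mul_neg]

/-- The same with an arbitrary name for the point `(τ + b)/p`. -/
theorem slash_S_T_eq' (F : ModularForm (GammaP p) 2) (b : ℕ) (τ w : ℍ)
    (hw : (w : ℂ) = ((τ : ℂ) + b) / p) :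
    ((F : ℍ → ℂ) ∣[(2 : ℤ)] (ModularGroup.S * ModularGroup.T ^ ((b : ℕ) : ℤ))) τ =
      -((p : ℂ)⁻¹ * heckeU 2 p F w) := by
  have hp : p ≠ 0 := (Fact.out : p.Prime).ne_zero
  have : heckeMatrix p b • τ = w := by
    apply UpperHalfPlane.ext
    rw [coe_heckeMatrix_smul hp, hw]
  rw [slash_S_T_eq, this]

/-- The special case `b = 0`: `(F ∣[2] S)(τ) = -(1/p) (U_p F)(τ/p)`. -/
theorem slash_S_eq (F : ModularForm (GammaP p) 2) (τ w : ℍ) (hw : (w : ℂ) = (τ : ℂ) / p) :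
    ((F : ℍ → ℂ) ∣[(2 : ℤ)] ModularGroup.S) τ = -((p : ℂ)⁻¹ * heckeU 2 p F w) := by
  have h := slash_S_T_eq' p F 0 τ w (by rw [hw]; simp)
  simpa using h

/-! ### `W² = 1` and `U_p² = 1` -/

theorem frickeW_apply (F : ModularForm (GammaP p) 2) (w : ℍ) :
    frickeW p F w = F (frickeGL p • w) * p * (((p : ℂ) * w) ^ 2)⁻¹ := by
  rw [coe_frickeW, ModularForm.slash_apply, σ_frickeGL, denom_frickeGL, det_frickeGL]
  simp only [ContinuousAlgEquiv.refl_apply, Nat.abs_cast, Complex.ofReal_natCast]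
  norm_num

theorem fricke_smul_fricke_smul (τ : ℍ) : frickeGL p • (frickeGL p • τ) = τ := by
  have hp' : (p : ℂ) ≠ 0 := by exact_mod_cast (Fact.out : p.Prime).ne_zero
  apply UpperHalfPlane.ext
  rw [coe_frickeGL_smul, coe_frickeGL_smul]
  have hτ : (τ : ℂ) ≠ 0 := UpperHalfPlane.ne_zero τ
  field_simp

/-- `W` is an involution. -/
theorem frickeW_frickeW (F : ModularForm (GammaP p) 2) : frickeW p (frickeW p F) = F := by
  have hp' : (p : ℂ) ≠ 0 := by exact_mod_cast (Fact.out : p.Prime).ne_zero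
  ext τ
  have hτ : (τ : ℂ) ≠ 0 := UpperHalfPlane.ne_zero τ
  rw [frickeW_apply, frickeW_apply, fricke_smul_fricke_smul, coe_frickeGL_smul]
  field_simp

omit [Fact p.Prime] in
theorem heckeU_neg (k : ℤ) (f : ℍ → ℂ) : heckeU k p (-f) = -heckeU k p f := by
  have h := heckeU_add k p (-f) f
  rw [neg_add_cancel, heckeU_zero] at h
  exact eq_neg_of_add_eq_zero_left h.symm

/-- `U_p F` as a modular form. -/
noncomputable def heckeUForm (F : ModularForm (GammaP p) 2) : ModularForm (GammaP p) 2 :=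
  -frickeW p F

theorem coe_heckeUForm (F : ModularForm (GammaP p) 2) :
    (heckeUForm p F : ℍ → ℂ) = heckeU 2 p F := by
  rw [heckeUForm, FunLike.coe_neg, frickeW_eq_neg_heckeU, neg_neg]

/-- **`U_p² = 1` on `M₂(Γ₀(p))`.** -/
theorem heckeU_heckeU (F : ModularForm (GammaP p) 2) :
    heckeU 2 p (heckeU 2 p F) = (F : ℍ → ℂ) := by
  have h1 : heckeU 2 p F = -(frickeW p F : ℍ → ℂ) := by
    rw [frickeW_eq_neg_heckeU, neg_neg]
  rw [h1, heckeU_neg, ← frickeW_eq_neg_heckeU, frickeW_frickeW]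

end Fermat.Agent.S16.FrickeTraceB
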