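import Fermat.Agent.S16.Interfaces

/-!
# S16: second-layer interfaces (modular-form side)

All statements are about honest Mathlib modular forms of weight 2 on `Gamma0 p` (coerced to a subgroup
of `GL (Fin 2) ℝ` exactly as in the Prelude's `CuspForm (CongruenceSubgroup.Gamma0 p) 2`), and their
`q`-coefficients `ModularFormClass.qCoeff F j` (Prelude).
-/

set_option autoImplicit false

open ModularCurve CuspForm

namespace Fermat.Agent.S16.Interfaces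

/-- `z` is a rational number whose denominator is prime to `ℓ` (viewed in `ℂ`). -/
def IsLInt (ℓ : ℕ) (z : ℂ) : Prop := ∃ a b : ℤ, ¬ (ℓ : ℤ) ∣ b ∧ z * (b : ℂ) = (a : ℂ)

/-- `F ≡ 1 mod ℓ^r`: constant term `1`, higher coefficients in `ℓ^r ℤ_(ℓ)`. -/
def IsOneMod (p ℓ r : ℕ) (F : ModularForm (CongruenceSubgroup.Gamma0 p) 2) : Prop :=
  ModularFormClass.qCoeff F 0 = 1 ∧
    ∀ j : ℕ, 1 ≤ j → ∃ z : ℂ, IsLInt ℓ z ∧ ModularFormClass.qCoeff F j = (ℓ : ℂ) ^ r * z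

/-- (UP) Mazur II.5.12 in elementary form: a weight-2 form of prime level `p ≥ 5` congruent to `1`
modulo `ℓ^r` forces `ℓ^r ∣ 24 / gcd(p-1,12)`. -/
def UpperStatement : Prop :=
  ∀ (p : ℕ) [Fact p.Prime] (_ : 5 ≤ p) (ℓ : ℕ) [Fact ℓ.Prime] (r : ℕ)
    (F : ModularForm (CongruenceSubgroup.Gamma0 p) 2),
    IsOneMod p ℓ r F → ℓ ^ r ∣ 24 / Nat.gcd (p - 1) 12

/-- The five cases of (UP): "there is no `F ≡ 1 mod ℓ^r`". -/
def NoOneMod (p ℓ r : ℕ) : Prop :=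
  ∀ F : ModularForm (CongruenceSubgroup.Gamma0 p) 2, ¬ IsOneMod p ℓ r F

/-- (UP5) `ℓ ≥ 5` (including `ℓ = p`): no `F ≡ 1 mod ℓ`. -/
def Upper5Statement : Prop :=
  ∀ (p : ℕ) [Fact p.Prime] (_ : 5 ≤ p) (ℓ : ℕ) [Fact ℓ.Prime], 5 ≤ ℓ → NoOneMod p ℓ 1

/-- (UP3a) `ℓ = 3`, `p ≡ 1 mod 3`: no `F ≡ 1 mod 3`. -/
def Upper3aStatement : Prop :=
  ∀ (p : ℕ) [Fact p.Prime] (_ : 5 ≤ p), p % 3 = 1 → NoOneMod p 3 1

/-- (UP3b) `ℓ = 3`, `p ≡ 2 mod 3`: no `F ≡ 1 mod 9`. -/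
def Upper3bStatement : Prop :=
  ∀ (p : ℕ) [Fact p.Prime] (_ : 5 ≤ p), p % 3 = 2 → NoOneMod p 3 2

/-- (UP2a) `ℓ = 2`, `p ≡ 1 mod 4`: no `F ≡ 1 mod 4`. -/
def Upper2aStatement : Prop :=
  ∀ (p : ℕ) [Fact p.Prime] (_ : 5 ≤ p), p % 4 = 1 → NoOneMod p 2 2

/-- (UP2b) `ℓ = 2`, `p ≡ 3 mod 4`: no `F ≡ 1 mod 8`. -/
def Upper2bStatement : Prop :=
  ∀ (p : ℕ) [Fact p.Prime] (_ : 5 ≤ p), p % 4 = 3 → NoOneMod p 2 3

/-- (EIS) the Eisenstein series of level `p`: `(p-1)/24 + ∑ σ'(j) q^j`. -/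
def EisStatement : Prop :=
  ∀ (p : ℕ) [Fact p.Prime], ∃ E : ModularForm (CongruenceSubgroup.Gamma0 p) 2,
    ModularFormClass.qCoeff E 0 = ((p : ℂ) - 1) / 24 ∧
      ∀ j : ℕ, 1 ≤ j → ModularFormClass.qCoeff E j = (sigmaPrime p j : ℂ)

/-- (CUSP) a weight-2 form of prime level whose constant term at `∞` vanishes is a cusp form. -/
def CuspCriterionStatement : Prop :=
  ∀ (p : ℕ) [Fact p.Prime] (g : ModularForm (CongruenceSubgroup.Gamma0 p) 2),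
    ModularFormClass.qCoeff g 0 = 0 →
      ∃ f : CuspForm (CongruenceSubgroup.Gamma0 p) 2, ∀ z, f z = g z

/-- (LOW-theta) a weight-2 form of level `p` with constant term `1` and even higher coefficients. -/
def ThetaFormStatement : Prop :=
  ∀ (p : ℕ) [Fact p.Prime] (_ : 5 ≤ p), ∃ G : ModularForm (CongruenceSubgroup.Gamma0 p) 2,
    ModularFormClass.qCoeff G 0 = 1 ∧
      ∀ j : ℕ, 1 ≤ j → ∃ c : ℤ, ModularFormClass.qCoeff G j = 2 * (c : ℂ)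

/-- (LOW) the lower bound in the form consumed by the reduction. -/
def LowerStatement : Prop :=
  ∀ (p : ℕ) [Fact p.Prime] [NeZero p] (_ : 5 ≤ p) (P : HeckeAlg), phi p P = 0 →
    (eisensteinNumerator p : ℤ) ∣ ev p P

/-- (BR1) from a congruence `f ≡ σ' mod k` to `k ∣ n`. -/
def CongruenceBoundStatement : Prop :=
  ∀ (p : ℕ) [Fact p.Prime] (_ : 5 ≤ p) (k : ℕ)
    (f : CuspForm (CongruenceSubgroup.Gamma0 p) 2), IsEisCongruent p k f →
      k ∣ eisensteinNumerator p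

/-- (SMALL) the frozen statement for `p = 2, 3`. -/
def SmallStatement : Prop :=
  ∀ (p : ℕ) [Fact p.Prime], p < 5 →
    Nat.card (↥(heckeLatticeAlgebra p ∅) ⧸
        Ideal.map ((latticeRestrictHom p ∅).toRingHom.comp (heckeEvalForms p 2))
          (eisensteinIdeal p)) =
      eisensteinNumerator p

end Fermat.Agent.S16.Interfaces
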