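/-
S16 / (UP3a) + (UP2a): analytic glue (helper82).

For `F : ModularForm Γ₀(p) 2` with `q`-expansion `a`, the trace of `F²` to level one is a multiple of
`E₄`; with the conjugate formula `(F ∣ S T^b)(τ) = -(1/p)(U_p F)((τ+b)/p)` (FrickeTraceB) this gives
the power series identity `p a² + U_p((U_p a)²) = c E₄`, which together with `U_p² F = F` is exactly
the input of `Easy23Complex.no_one_mod_three_complex / no_one_mod_four_complex`.

Exports: `upper3a : Interfaces.Upper3aStatement`, `upper2a : Interfaces.Upper2aStatement`.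
-/
import Mathlib
import Fermat.Agent.S16.FrickeTraceB
import Fermat.Agent.S16.Easy23Complex
import Fermat.Agent.S16.Interfaces2
import Fermat.Prelude.Thm_ModularFormClass_qCoeff_heckeU
import Fermat.Prelude.Thm_CongruenceSubgroup_one_mem_strictPeriods_Gamma0

set_option autoImplicit false

open UpperHalfPlane ModularForm MatrixGroups CongruenceSubgroup SlashInvariantForm
open Fermat.Agent.S28.ModPolyCoset Fermat.Agent.S16.FrickeTraceB
open Fermat.Agent.S16.Easy23 (Up coeff_Up)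

namespace Fermat.Agent.S16.Easy23Glue

variable (p : ℕ) [Fact p.Prime] [NeZero p]

/-- `U_p F` as a modular form (Prelude operator). -/
noncomputable abbrev UF (F : ModularForm (CongruenceSubgroup.Gamma0 p) 2) :
    ModularForm (CongruenceSubgroup.Gamma0 p) 2 :=
  ModularForm.heckeULin 2 (dvd_refl p) F

/-- `U_p ((U_p F)^2)` as a modular form of weight `2 + 2`. -/
noncomputable abbrev UUF2 (F : ModularForm (CongruenceSubgroup.Gamma0 p) 2) :
    ModularForm (CongruenceSubgroup.Gamma0 p) (2 + 2) :=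
  ModularForm.heckeULin (2 + 2) (dvd_refl p) ((UF p F).mul (UF p F))

/-- `Tr(F²) = F² + p⁻¹ U_p((U_p F)²)` as functions. -/
theorem trace_sq_apply (F : ModularForm (CongruenceSubgroup.Gamma0 p) 2) (z : ℍ) :
    (ModularForm.trace 𝒮ℒ (F.mul F)) z = F z * F z + (p : ℂ)⁻¹ * UUF2 p F z := by
  have hp0 : p ≠ 0 := (Fact.out : p.Prime).ne_zero
  rw [trace_apply p (2 + 2) (F.mul F) z]
  congr 1
  rw [ModularForm.heckeULin_apply_apply, heckeU_apply _ hp0, Finset.mul_sum, Finset.mul_sum]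
  refine Finset.sum_congr rfl fun b _ => ?_
  have hmul : ((F.mul F : ModularForm (CongruenceSubgroup.Gamma0 p) (2 + 2)) : ℍ → ℂ) = ⇑F * ⇑F :=
    rfl
  rw [hmul, mul_slash_SL2, Pi.mul_apply, slash_S_T_eq p F b z]
  show _ = _ * (_ * ((UF p F) _ * (UF p F) _))
  show _ = _ * (_ * (heckeU 2 p F _ * heckeU 2 p F _))
  ring

omit [Fact p.Prime] in
/-- `q`-expansion of `U_p G`. -/
theorem qExpansion_heckeU {k : ℤ} (G : ModularForm (CongruenceSubgroup.Gamma0 p) k) :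
    qExpansion 1 (heckeU k p G) = Up p (qExpansion 1 G) := by
  ext n
  rw [coeff_Up, mul_comm]
  exact ModularFormClass.qCoeff_heckeU G (CongruenceSubgroup.one_mem_strictPeriods_Gamma0 p)
    (NeZero.ne p) n

/-- The `q`-expansion form of `Tr(F²) ∈ ℂ E₄`. -/
theorem traceSquare_qExpansion (F : ModularForm (CongruenceSubgroup.Gamma0 p) 2) :
    ∃ c : ℂ, qExpansion 1 F ^ 2 + (p : ℂ)⁻¹ • Up p ((Up p (qExpansion 1 F)) ^ 2) =
      c • qExpansion 1 E₄ := by
  obtain ⟨c, hc⟩ : ∃ c : ℂ, c • E₄ = ModularForm.trace 𝒮ℒ (F.mul F) :=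
    (finrank_eq_one_iff_of_nonzero' E₄ (EisensteinSeries.E_ne_zero _ ⟨2, rfl⟩)).mp
      (Module.rank_eq_one_iff_finrank_eq_one.mp levelOne_weight_four_rank_one) _
  refine ⟨c, ?_⟩
  have hΓ := CongruenceSubgroup.one_mem_strictPeriods_Gamma0 p
  have hfun : (⇑(ModularForm.trace 𝒮ℒ (F.mul F)) : ℍ → ℂ) =
      ⇑(F.mul F + (p : ℂ)⁻¹ • UUF2 p F) := by
    funext z
    rw [trace_sq_apply p F z]
    rfl
  have h1 : qExpansion 1 (⇑(ModularForm.trace 𝒮ℒ (F.mul F)) : ℍ → ℂ) = c • qExpansion 1 E₄ := by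
    rw [← hc]
    exact ModularForm.qExpansion_smul one_pos one_mem_strictPeriods_SL c E₄
  rw [← h1, hfun]
  have h2 : qExpansion 1 (⇑(F.mul F + (p : ℂ)⁻¹ • UUF2 p F) : ℍ → ℂ) =
      qExpansion 1 (F.mul F) + qExpansion 1 ((p : ℂ)⁻¹ • UUF2 p F) :=
    ModularForm.qExpansion_add one_pos hΓ (F.mul F) ((p : ℂ)⁻¹ • UUF2 p F)
  rw [h2, ModularForm.qExpansion_mul one_pos hΓ F F]
  have h3 : qExpansion 1 ((p : ℂ)⁻¹ • (⇑(UUF2 p F) : ℍ → ℂ)) =
      (p : ℂ)⁻¹ • qExpansion 1 (UUF2 p F) :=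
    ModularForm.qExpansion_smul one_pos hΓ _ (UUF2 p F)
  rw [h3]
  have h4 : qExpansion 1 (UUF2 p F) = Up p (qExpansion 1 ((UF p F).mul (UF p F))) :=
    qExpansion_heckeU p ((UF p F).mul (UF p F))
  have h5 : qExpansion 1 (UF p F) = Up p (qExpansion 1 F) := qExpansion_heckeU p F
  rw [h4, ModularForm.qExpansion_mul one_pos hΓ (UF p F) (UF p F), h5, pow_two, pow_two]

/-- The identity in the `p`-multiplied shape consumed by `Easy23`. -/
theorem traceSquare_identity (F : ModularForm (CongruenceSubgroup.Gamma0 p) 2) :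
    ∃ c : ℂ, PowerSeries.C (p : ℂ) * qExpansion 1 F ^ 2 + Up p ((Up p (qExpansion 1 F)) ^ 2) =
      PowerSeries.C c * qExpansion 1 E₄ := by
  obtain ⟨c, hc⟩ := traceSquare_qExpansion p F
  have hp' : (p : ℂ) ≠ 0 := by exact_mod_cast NeZero.ne p
  refine ⟨(p : ℂ) * c, ?_⟩
  calc PowerSeries.C (p : ℂ) * qExpansion 1 F ^ 2 + Up p ((Up p (qExpansion 1 F)) ^ 2)
      = PowerSeries.C (p : ℂ) *
          (qExpansion 1 F ^ 2 + (p : ℂ)⁻¹ • Up p ((Up p (qExpansion 1 F)) ^ 2)) := by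
        rw [mul_add, PowerSeries.smul_eq_C_mul, ← mul_assoc, ← map_mul, mul_inv_cancel₀ hp',
          map_one, one_mul]
    _ = PowerSeries.C (p : ℂ) * (c • qExpansion 1 E₄) := by rw [hc]
    _ = PowerSeries.C ((p : ℂ) * c) * qExpansion 1 E₄ := by
        rw [PowerSeries.smul_eq_C_mul, ← mul_assoc, ← map_mul]

/-- Coefficients of `E₄`. -/
theorem coeff_E4 (n : ℕ) : PowerSeries.coeff n (qExpansion 1 E₄) =
    if n = 0 then 1 else 240 * ((ArithmeticFunction.sigma 3 n : ℕ) : ℂ) := by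
  have h := EisensteinSeries.E_qExpansion_coeff (k := 4) (by norm_num) ⟨2, rfl⟩ n
  rw [h]
  split_ifs with hn
  · rfl
  · have hb : bernoulli 4 = -1 / 30 := by decide +kernel
    rw [hb]
    norm_num

/-- `U_p² F = F` on `q`-expansions. -/
theorem Up_Up_qExpansion (F : ModularForm (CongruenceSubgroup.Gamma0 p) 2) :
    Up p (Up p (qExpansion 1 F)) = qExpansion 1 F := by
  have h1 : qExpansion 1 (UF p F) = Up p (qExpansion 1 F) := qExpansion_heckeU p F
  have h2 : qExpansion 1 (heckeU 2 p (UF p F)) = Up p (qExpansion 1 (UF p F)) :=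
    qExpansion_heckeU p (UF p F)
  rw [← h1, ← h2]
  congr 1
  exact heckeU_heckeU p F

/-- All inputs of `Easy23Complex` for the `q`-expansion of `F`. -/
theorem easy23_inputs (F : ModularForm (CongruenceSubgroup.Gamma0 p) 2) :
    let a := qExpansion 1 F
    Up p (Up p a) = a ∧ ∃ c c' : ℂ,
      PowerSeries.C (p : ℂ) * a ^ 2 + Up p ((Up p a) ^ 2) = PowerSeries.C c * qExpansion 1 E₄ ∧
      PowerSeries.C (p : ℂ) * (Up p a) ^ 2 + Up p (a ^ 2) = PowerSeries.C c' * qExpansion 1 E₄ := by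
  intro a
  have hUU : Up p (Up p a) = a := Up_Up_qExpansion p F
  obtain ⟨c, hc⟩ := traceSquare_identity p F
  obtain ⟨c', hc'⟩ := traceSquare_identity p (UF p F)
  have h1 : qExpansion 1 (UF p F) = Up p a := qExpansion_heckeU p F
  rw [h1, hUU] at hc'
  exact ⟨hUU, c, c', hc, hc'⟩

end Fermat.Agent.S16.Easy23Glue

namespace Fermat.Agent.S16.Easy23Glue

open Fermat.Agent.S16.Interfaces Fermat.Agent.S16.Easy23Complex

/-- **(UP3a)** `ℓ = 3`, `p ≡ 1 mod 3`: no `F ≡ 1 mod 3`. -/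
theorem upper3a : Upper3aStatement := by
  intro p _ _ hp3 F hF
  have : NeZero p := ⟨(Fact.out : p.Prime).ne_zero⟩
  obtain ⟨h0, hj⟩ := hF
  obtain ⟨hUU, c, c', hc, hc'⟩ := easy23_inputs p F
  refine no_one_mod_three_complex hp3 (qExpansion 1 F) (qExpansion 1 E₄) coeff_E4 h0 ?_ hUU c c'
    hc hc'
  intro j hj1
  obtain ⟨z, ⟨u, v, hv, huv⟩, hz⟩ := hj j hj1
  refine ⟨z, ⟨u, v, by simpa using hv, huv⟩, ?_⟩
  have : ModularFormClass.qCoeff F j = ((3 : ℕ) : ℂ) ^ 1 * z := hz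
  rw [pow_one] at this
  simpa [ModularFormClass.qCoeff] using this

/-- **(UP2a)** `ℓ = 2`, `p ≡ 1 mod 4`: no `F ≡ 1 mod 4`. -/
theorem upper2a : Upper2aStatement := by
  intro p _ _ hp4 F hF
  have : NeZero p := ⟨(Fact.out : p.Prime).ne_zero⟩
  obtain ⟨h0, hj⟩ := hF
  obtain ⟨hUU, c, c', hc, hc'⟩ := easy23_inputs p F
  refine no_one_mod_four_complex hp4 (qExpansion 1 F) (qExpansion 1 E₄) coeff_E4 h0 ?_ hUU c c'
    hc hc'
  intro j hj1
  obtain ⟨z, ⟨u, v, hv, huv⟩, hz⟩ := hj j hj1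
  refine ⟨z, ⟨u, v, by simpa using hv, huv⟩, ?_⟩
  have : ModularFormClass.qCoeff F j = ((2 : ℕ) : ℂ) ^ 2 * z := hz
  have h4 : ((2 : ℕ) : ℂ) ^ 2 = 4 := by norm_num
  rw [h4] at this
  simpa [ModularFormClass.qCoeff] using this

end Fermat.Agent.S16.Easy23Glue
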