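import Fermat.Prelude.Def_CuspForm_HeckeLocal
import Fermat.Prelude.Def_CuspForm_HeckeEvalForms
import Fermat.Prelude.Def_HeckeGalois_EichlerShimura
import Fermat.Prelude.Def_ModularCurve_ModularUnit

/-!
# S16 (Eisenstein ideal index): top-level interfaces

`T := heckeLatticeAlgebra p ∅`, `phi p : HeckeAlg →+* T`, `ev p : HeckeAlg →+* ℤ` (Eisenstein system).
S16 is reduced (file `Reduction.lean`) to three closed statements about congruences between the
Eisenstein series and cusp forms.
-/

set_option autoImplicit false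

open ModularCurve CuspForm

namespace Fermat.Agent.S16.Interfaces

/-- The map from the abstract Hecke ring to the integral Hecke algebra of level `p`. -/
noncomputable def phi (p : ℕ) [NeZero p] : HeckeAlg →+* ↥(heckeLatticeAlgebra p ∅) :=
  (latticeRestrictHom p ∅).toRingHom.comp (heckeEvalForms p 2)

/-- Evaluation at the Eisenstein system (`ℓ ↦ 1 + ℓ` for `ℓ ≠ p`, `p ↦ 1`). -/
noncomputable def ev (p : ℕ) : HeckeAlg →+* ℤ :=
  (MvPolynomial.aeval (R := ℤ) (eisensteinSystem p)).toRingHom

/-- `σ'(j)`: sum of the divisors of `j` prime to `p`. -/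
def sigmaPrime (p j : ℕ) : ℕ := ∑ d ∈ j.divisors.filter (fun d => ¬ p ∣ d), d

/-- `f` is a cusp form of level `p` with integral `q`-expansion, congruent to the Eisenstein series
`∑ σ'(j) q^j` modulo `k` (in all coefficients `j ≥ 1`). -/
def IsEisCongruent (p k : ℕ) (f : CuspForm (CongruenceSubgroup.Gamma0 p) 2) : Prop :=
  (∀ j : ℕ, ∃ c : ℤ, ModularFormClass.qCoeff f j = (c : ℂ)) ∧
    ∀ j : ℕ, 1 ≤ j → ∃ c : ℤ, ModularFormClass.qCoeff f j = (sigmaPrime p j : ℂ) + (k : ℂ) * (c : ℂ)

/-- (P1) duality: if every Hecke relation on cusp forms vanishes mod `k` at the Eisenstein system,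
there is an integral cusp form congruent to the Eisenstein series mod `k`. -/
def DualityStatement : Prop :=
  ∀ (p : ℕ) [Fact p.Prime] [NeZero p] (k : ℕ),
    (∀ P : HeckeAlg, phi p P = 0 → (k : ℤ) ∣ ev p P) →
      ∃ f : CuspForm (CongruenceSubgroup.Gamma0 p) 2, IsEisCongruent p k f

/-- (P2) an integral cusp form congruent to the Eisenstein series mod `k` forces every Hecke
relation on cusp forms to vanish mod `k` at the Eisenstein system. -/
def EigenCongruenceStatement : Prop :=
  ∀ (p : ℕ) [Fact p.Prime] [NeZero p] (k : ℕ),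
    (∃ f : CuspForm (CongruenceSubgroup.Gamma0 p) 2, IsEisCongruent p k f) →
      ∀ P : HeckeAlg, phi p P = 0 → (k : ℤ) ∣ ev p P

/-- (P3) Mazur: a congruence mod `k` exists iff `k` divides the numerator of `(p-1)/12`. -/
def CongruenceIffStatement : Prop :=
  ∀ (p : ℕ) [Fact p.Prime] [NeZero p] (k : ℕ),
    (∃ f : CuspForm (CongruenceSubgroup.Gamma0 p) 2, IsEisCongruent p k f) ↔
      k ∣ eisensteinNumerator p

end Fermat.Agent.S16.Interfaces
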