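import Fermat.Agent.S16.E2Level
import Fermat.Agent.S16.Interfaces

/-!
# S16: the Eisenstein bridge

`eisM p := (1/24) • E2lvl p ∈ M_2(Γ0(p))` has `q`-expansion `(p-1)/24 + ∑ σ'(j) q^j`
(`σ' = Interfaces.sigmaPrime p`).  Hence an integral cusp form `f ≡ ∑ σ'(j) q^j (mod k)` is the same
as a modular form `H = (eisM p - f)/k` with constant term `(p-1)/(24k)` and integral higher
coefficients (`HasConstTerm`).  The converse needs a cusp criterion (`a_0 = 0 ⇒` cusp form).
-/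

set_option autoImplicit false

open UpperHalfPlane ModularForm EisensteinSeries CongruenceSubgroup ModularFormClass
open scoped MatrixGroups ModularForm ArithmeticFunction.sigma

namespace Fermat.Agent.S16.EisBridge

open Fermat.Agent.S16.E2Level Fermat.Agent.S16.Interfaces ModularCurve

/-! ### `σ'` versus `σ₁` -/

/-- divisors of `m` divisible by `N` are `N * d'`, `d' ∣ m / N`. -/
theorem sum_divisors_filter_dvd (N m : ℕ) (hN : 0 < N) (hm : m ≠ 0) (h : N ∣ m) :
    ∑ d ∈ m.divisors.filter (fun d => N ∣ d), d = N * ∑ d ∈ (m / N).divisors, d := by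
  rw [Finset.mul_sum]
  symm
  apply Finset.sum_bij (fun d _ => N * d)
  · intro d hd
    rw [Nat.mem_divisors] at hd
    rw [Finset.mem_filter, Nat.mem_divisors]
    refine ⟨⟨?_, hm⟩, dvd_mul_right _ _⟩
    obtain ⟨c, hc⟩ := h
    rw [hc, Nat.mul_div_cancel_left _ hN] at hd
    rw [hc]
    exact mul_dvd_mul_left _ hd.1
  · intro a _ b _ hab
    exact Nat.eq_of_mul_eq_mul_left hN hab
  · intro d hd
    rw [Finset.mem_filter, Nat.mem_divisors] at hd
    obtain ⟨⟨hdm, _⟩, c, rfl⟩ := hd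
    refine ⟨c, ?_, rfl⟩
    rw [Nat.mem_divisors]
    obtain ⟨e, he⟩ := h
    refine ⟨?_, ?_⟩
    · rw [he, Nat.mul_div_cancel_left _ hN]
      rw [he] at hdm
      exact (Nat.mul_dvd_mul_iff_left hN).1 hdm
    · rw [he, Nat.mul_div_cancel_left _ hN]
      rintro rfl
      simp at he
      exact hm he
  · intro d _
    rfl

theorem sigmaPrime_add (N m : ℕ) :
    sigmaPrime N m + ∑ d ∈ m.divisors.filter (fun d => N ∣ d), d = σ 1 m := by
  rw [ArithmeticFunction.sigma_one_apply, sigmaPrime, add_comm]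
  exact Finset.sum_filter_add_sum_filter_not _ _ _

theorem sigmaPrime_of_not_dvd (N m : ℕ) (h : ¬ N ∣ m) : sigmaPrime N m = σ 1 m := by
  rw [← sigmaPrime_add N m, eq_comm, Nat.add_eq_left]
  apply Finset.sum_eq_zero
  intro d hd
  rw [Finset.mem_filter, Nat.mem_divisors] at hd
  exact absurd (hd.2.trans hd.1.1) h

theorem sigmaPrime_of_dvd (N m : ℕ) (hN : 0 < N) (hm : m ≠ 0) (h : N ∣ m) :
    sigmaPrime N m + N * σ 1 (m / N) = σ 1 m := by
  rw [← sigmaPrime_add N m, sum_divisors_filter_dvd N m hN hm h,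
    ArithmeticFunction.sigma_one_apply]

/-- the `q`-coefficients of `E2lvl N` are `24 σ'`. -/
theorem cE_eq_sigmaPrime (N : ℕ) [NeZero N] {m : ℕ} (hm : m ≠ 0) :
    cE N m = 24 * (sigmaPrime N m : ℂ) := by
  by_cases h : N ∣ m
  · rw [cE_of_dvd N hm h, ← sigmaPrime_of_dvd N m (Nat.pos_of_ne_zero (NeZero.ne N)) hm h]
    push_cast
    ring
  · rw [cE_of_not_dvd N hm h, sigmaPrime_of_not_dvd N m h]

/-! ### Mazur's Eisenstein series -/

theorem one_mem_strictPeriods (N : ℕ) : (1 : ℝ) ∈ (G0 N).strictPeriods :=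
  CongruenceSubgroup.one_mem_strictPeriods_Gamma0 N

/-- Mazur's normalised Eisenstein series `(p-1)/24 + ∑ σ'(j) q^j` of level `N`. -/
noncomputable def eisM (N : ℕ) [NeZero N] : ModularForm (CongruenceSubgroup.Gamma0 N) 2 :=
  ((24 : ℂ)⁻¹) • E2lvl N

theorem coe_eisM (N : ℕ) [NeZero N] : ⇑(eisM N) = ((24 : ℂ)⁻¹) • ⇑(E2lvl N) := rfl

theorem qCoeff_eisM (N : ℕ) [NeZero N] (m : ℕ) :
    ModularFormClass.qCoeff (eisM N) m = (24 : ℂ)⁻¹ * cE N m := by
  rw [ModularFormClass.qCoeff, coe_eisM,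
    ModularForm.qExpansion_smul one_pos (one_mem_strictPeriods N), PowerSeries.coeff_smul,
    qExpansion_E2lvl_coeff, smul_eq_mul]

theorem qCoeff_eisM_zero (N : ℕ) [NeZero N] :
    ModularFormClass.qCoeff (eisM N) 0 = ((N : ℂ) - 1) / 24 := by
  rw [qCoeff_eisM, cE_zero]
  ring

theorem qCoeff_eisM_pos (N : ℕ) [NeZero N] {m : ℕ} (hm : m ≠ 0) :
    ModularFormClass.qCoeff (eisM N) m = (sigmaPrime N m : ℂ) := by
  rw [qCoeff_eisM, cE_eq_sigmaPrime N hm]
  ring

/-! ### the lattice of constant terms -/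

/-- `a` is the constant term of a weight-2 form of level `p` with integral higher coefficients. -/
def HasConstTerm (p : ℕ) (a : ℂ) : Prop :=
  ∃ H : ModularForm (CongruenceSubgroup.Gamma0 p) 2, ModularFormClass.qCoeff H 0 = a ∧
    ∀ j : ℕ, 1 ≤ j → ∃ c : ℤ, ModularFormClass.qCoeff H j = (c : ℂ)

theorem qCoeff_smul (p : ℕ) (c : ℂ) (H : ModularForm (CongruenceSubgroup.Gamma0 p) 2) (j : ℕ) :
    ModularFormClass.qCoeff (⇑(c • H)) j = c * ModularFormClass.qCoeff H j := by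
  rw [ModularFormClass.qCoeff, ModularFormClass.qCoeff, FunLike.coe_smul,
    ModularForm.qExpansion_smul one_pos (one_mem_strictPeriods p), PowerSeries.coeff_smul,
    smul_eq_mul]

theorem qCoeff_add (p : ℕ) (H G : ModularForm (CongruenceSubgroup.Gamma0 p) 2) (j : ℕ) :
    ModularFormClass.qCoeff (⇑(H + G)) j =
      ModularFormClass.qCoeff H j + ModularFormClass.qCoeff G j := by
  rw [ModularFormClass.qCoeff, ModularFormClass.qCoeff, ModularFormClass.qCoeff,
    FunLike.coe_add, ModularForm.qExpansion_add one_pos (one_mem_strictPeriods p), map_add]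

theorem qCoeff_sub_cusp (p : ℕ) (H : ModularForm (CongruenceSubgroup.Gamma0 p) 2)
    (f : CuspForm (CongruenceSubgroup.Gamma0 p) 2) (j : ℕ) :
    ModularFormClass.qCoeff (⇑(H - ModularFormClass.modularForm f)) j =
      ModularFormClass.qCoeff H j - ModularFormClass.qCoeff f j := by
  rw [ModularFormClass.qCoeff, ModularFormClass.qCoeff, ModularFormClass.qCoeff,
    FunLike.coe_sub,
    ModularForm.qExpansion_sub one_pos (one_mem_strictPeriods p), map_sub]
  rfl

theorem HasConstTerm.eis (p : ℕ) [NeZero p] : HasConstTerm p (((p : ℂ) - 1) / 24) :=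
  ⟨eisM p, qCoeff_eisM_zero p, fun j hj =>
    ⟨(sigmaPrime p j : ℤ), by rw [qCoeff_eisM_pos p (by omega)]; push_cast; rfl⟩⟩

theorem HasConstTerm.zsmul {p : ℕ} {a : ℂ} (h : HasConstTerm p a) (x : ℤ) :
    HasConstTerm p (x * a) := by
  obtain ⟨H, h0, hj⟩ := h
  refine ⟨(x : ℂ) • H, by rw [qCoeff_smul, h0], fun j hj1 => ?_⟩
  obtain ⟨c, hc⟩ := hj j hj1
  exact ⟨x * c, by rw [qCoeff_smul, hc]; push_cast; rfl⟩

theorem HasConstTerm.add {p : ℕ} {a b : ℂ} (ha : HasConstTerm p a) (hb : HasConstTerm p b) :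
    HasConstTerm p (a + b) := by
  obtain ⟨H, h0, hj⟩ := ha
  obtain ⟨G, g0, gj⟩ := hb
  refine ⟨H + G, by rw [qCoeff_add, h0, g0], fun j hj1 => ?_⟩
  obtain ⟨c, hc⟩ := hj j hj1
  obtain ⟨d, hd⟩ := gj j hj1
  exact ⟨c + d, by rw [qCoeff_add, hc, hd]; push_cast; rfl⟩

/-- **Bridge, forward direction**: a cusp form congruent to the Eisenstein series mod `k` gives a
form with constant term `(p-1)/(24k)` and integral higher coefficients. -/
theorem hasConstTerm_of_isEisCongruent (p k : ℕ) [NeZero p] (hk : k ≠ 0)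
    (f : CuspForm (CongruenceSubgroup.Gamma0 p) 2) (hf : IsEisCongruent p k f) :
    HasConstTerm p (((p : ℂ) - 1) / (24 * k)) := by
  have hk' : (k : ℂ) ≠ 0 := Nat.cast_ne_zero.2 hk
  refine ⟨((k : ℂ)⁻¹) • (eisM p - ModularFormClass.modularForm f), ?_, fun j hj1 => ?_⟩
  · rw [qCoeff_smul, qCoeff_sub_cusp, qCoeff_eisM_zero]
    have h0 : ModularFormClass.qCoeff f 0 = 0 := by
      rw [ModularFormClass.qCoeff]
      exact CuspFormClass.qExpansion_coeff_zero f one_pos (one_mem_strictPeriods p)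
    rw [h0, sub_zero]
    field_simp
  · obtain ⟨c, hc⟩ := hf.2 j hj1
    refine ⟨-c, ?_⟩
    rw [qCoeff_smul, qCoeff_sub_cusp, qCoeff_eisM_pos p (by omega), hc]
    push_cast
    field_simp
    ring

/-- The cusp criterion at level `p`: a weight-2 form whose `q`-expansion at `∞` has no constant term
is a cusp form (for prime `p` this follows from the vanishing of the trace to level one). -/
def CuspCriterion (p : ℕ) : Prop :=
  ∀ G : ModularForm (CongruenceSubgroup.Gamma0 p) 2, ModularFormClass.qCoeff G 0 = 0 →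
    ∃ f : CuspForm (CongruenceSubgroup.Gamma0 p) 2, (⇑f : ℍ → ℂ) = ⇑G

/-- **Bridge, backward direction.** -/
theorem isEisCongruent_of_hasConstTerm (p k : ℕ) [NeZero p] (hcusp : CuspCriterion p)
    (h : HasConstTerm p (((p : ℂ) - 1) / (24 * k))) (hk : k ≠ 0) :
    ∃ f : CuspForm (CongruenceSubgroup.Gamma0 p) 2, IsEisCongruent p k f := by
  have hk' : (k : ℂ) ≠ 0 := Nat.cast_ne_zero.2 hk
  obtain ⟨H, h0, hj⟩ := h
  set G : ModularForm (CongruenceSubgroup.Gamma0 p) 2 := eisM p + (-(k : ℂ)) • H with hG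
  have hG0 : ModularFormClass.qCoeff G 0 = 0 := by
    rw [hG, qCoeff_add, qCoeff_smul, qCoeff_eisM_zero, h0]
    field_simp
    ring
  obtain ⟨f, hf⟩ := hcusp G hG0
  have hfq : ∀ j, ModularFormClass.qCoeff f j = ModularFormClass.qCoeff G j := by
    intro j
    rw [ModularFormClass.qCoeff, ModularFormClass.qCoeff, hf]
  refine ⟨f, fun j => ?_, fun j hj1 => ?_⟩
  · rcases Nat.eq_zero_or_pos j with rfl | hjpos
    · exact ⟨0, by rw [hfq, hG0]; simp⟩
    · obtain ⟨c, hc⟩ := hj j hjpos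
      refine ⟨(sigmaPrime p j : ℤ) - k * c, ?_⟩
      rw [hfq, hG, qCoeff_add, qCoeff_smul, qCoeff_eisM_pos p (by omega), hc]
      push_cast
      ring
  · obtain ⟨c, hc⟩ := hj j hj1
    refine ⟨-c, ?_⟩
    rw [hfq, hG, qCoeff_add, qCoeff_smul, qCoeff_eisM_pos p (by omega), hc]
    push_cast
    ring

/-! ### the arithmetic of the upper bound -/

/-- (UP_l), local form: there is no weight-2 form `F` of level `p` with `a_0(F) = 1` and all higher
coefficients in `l^r ℤ_(l)`. -/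
def NoCongruence (p l r : ℕ) : Prop :=
  ∀ F : ModularForm (CongruenceSubgroup.Gamma0 p) 2, ModularFormClass.qCoeff F 0 = 1 →
    (∀ j : ℕ, 1 ≤ j → ∃ (u : ℤ) (v : ℕ), ¬ l ∣ v ∧
      ModularFormClass.qCoeff F j = (l : ℂ) ^ r * (u : ℂ) / (v : ℂ)) → False

/-- the exponent `v_l(24 / gcd(p-1,12)) + 1`: `1` for `l ≥ 5`; for `l = 3`: `1` if `p ≡ 1 (3)`, else
`2`; for `l = 2` (`p` odd): `2` if `p ≡ 1 (4)`, `3` if `p ≡ 3 (4)`. -/
def eisExp (p l : ℕ) : ℕ := padicValNat l (24 / Nat.gcd (p - 1) 12) + 1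

theorem eisensteinNumerator_mul_gcd (p : ℕ) :
    eisensteinNumerator p * Nat.gcd (p - 1) 12 = p - 1 :=
  Nat.div_mul_cancel (Nat.gcd_dvd_left _ _)

theorem eisensteinNumerator_ne_zero (p : ℕ) (hp : 2 ≤ p) : eisensteinNumerator p ≠ 0 := by
  intro h
  have := eisensteinNumerator_mul_gcd p
  rw [h, zero_mul] at this
  omega

/-- **Upper bound, arithmetic part**: the local non-congruences imply `k ∣ n`. -/
theorem dvd_eisensteinNumerator_of_hasConstTerm (p k : ℕ) (hp : 2 ≤ p) (hk : k ≠ 0)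
    (hup : ∀ l : ℕ, l.Prime → NoCongruence p l (eisExp p l))
    (h : HasConstTerm p (((p : ℂ) - 1) / (24 * k))) : k ∣ eisensteinNumerator p := by
  by_contra hkn
  set n := eisensteinNumerator p with hn
  have hn0 : n ≠ 0 := eisensteinNumerator_ne_zero p hp
  rw [← Nat.factorization_le_iff_dvd hk hn0, Finsupp.le_def] at hkn
  push Not at hkn
  obtain ⟨l, hl⟩ := hkn
  have hlp : l.Prime := by
    by_contra hnp
    rw [Nat.factorization_eq_zero_of_not_prime k hnp] at hl
    exact Nat.not_lt_zero _ hl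
  set s := n.factorization l with hs
  -- `k = l^(s+1) k''`
  obtain ⟨k'', hk''⟩ : l ^ (s + 1) ∣ k :=
    (hlp.pow_dvd_iff_le_factorization hk).2 hl
  -- `n = l^s n'`
  have hn' : n = l ^ s * (n / l ^ s) := (Nat.ordProj_mul_ordCompl_eq_self n l).symm
  have hn'l : ¬ l ∣ n / l ^ s := Nat.not_dvd_ordCompl hlp hn0
  set n' := n / l ^ s with hn'def
  -- `24 = ν w`, `w = l^e w'`
  set ν := Nat.gcd (p - 1) 12 with hν
  have hν0 : ν ≠ 0 := Nat.gcd_ne_zero_right (by norm_num)
  have hν24 : ν * (24 / ν) = 24 :=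
    Nat.mul_div_cancel' ((Nat.gcd_dvd_right _ _).trans (by norm_num : 12 ∣ 24))
  set w := 24 / ν with hw
  set e := padicValNat l w with he
  obtain ⟨w', hw'⟩ : l ^ e ∣ w := pow_padicValNat_dvd
  have hnν : n * ν = p - 1 := eisensteinNumerator_mul_gcd p
  obtain ⟨H, h0, hj⟩ := h
  -- casts
  have hl0 : (l : ℂ) ≠ 0 := Nat.cast_ne_zero.2 hlp.ne_zero
  have hk' : (k : ℂ) ≠ 0 := Nat.cast_ne_zero.2 hk
  have hνC : (ν : ℂ) ≠ 0 := Nat.cast_ne_zero.2 hν0
  have hn'C : (n' : ℂ) ≠ 0 := by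
    apply Nat.cast_ne_zero.2
    rintro h0'
    rw [h0'] at hn'l
    exact hn'l (dvd_zero _)
  have e1 : ((p : ℂ) - 1) = (l : ℂ) ^ s * (n' : ℂ) * (ν : ℂ) := by
    have : ((p - 1 : ℕ) : ℂ) = (p : ℂ) - 1 := by
      rw [Nat.cast_sub (by omega : 1 ≤ p), Nat.cast_one]
    rw [← this, ← hnν, hn']
    push_cast
    ring
  have e2 : (24 : ℂ) = (ν : ℂ) * ((l : ℂ) ^ e * (w' : ℂ)) := by
    have : ((24 : ℕ) : ℂ) = 24 := by norm_num
    rw [← this, ← hν24, hw']
    push_cast
    ring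
  have e3 : (k : ℂ) = (l : ℂ) ^ (s + 1) * (k'' : ℂ) := by
    rw [hk'']
    push_cast
    ring
  have hp1 : ((p : ℂ) - 1) ≠ 0 := by
    rw [e1]
    exact mul_ne_zero (mul_ne_zero (pow_ne_zero _ hl0) hn'C) hνC
  refine hup l hlp ((24 * (k : ℂ) / ((p : ℂ) - 1)) • H) ?_ ?_
  · rw [qCoeff_smul, h0]
    field_simp
  · intro j hj1
    obtain ⟨c, hc⟩ := hj j hj1
    refine ⟨(w' : ℤ) * (k'' : ℤ) * c, n', hn'l, ?_⟩
    rw [qCoeff_smul, hc, eisExp, ← hν, ← hw, ← he, e1, e2, e3]
    push_cast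
    field_simp
    ring

/-! ### the lower bound from one form with constant term `1/2` -/

theorem hasConstTerm_gcd_of_half (p : ℕ) [NeZero p] (hp : 1 ≤ p)
    (h : HasConstTerm p (1 / 2)) : HasConstTerm p ((Nat.gcd (p - 1) 12 : ℂ) / 24) := by
  have hb := Nat.gcd_eq_gcd_ab (p - 1) 12
  have := ((HasConstTerm.eis p).zsmul (Nat.gcdA (p - 1) 12)).add (h.zsmul (Nat.gcdB (p - 1) 12))
  convert this using 1
  have hc : ((Nat.gcd (p - 1) 12 : ℤ) : ℂ) =
      (((p - 1 : ℕ) : ℤ) : ℂ) * (Nat.gcdA (p - 1) 12 : ℂ) + ((12 : ℕ) : ℤ) * (Nat.gcdB (p - 1) 12 : ℂ) := by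
    rw [hb]
    push_cast
    ring
  have h1 : (((p - 1 : ℕ) : ℤ) : ℂ) = (p : ℂ) - 1 := by
    rw [Int.cast_natCast, Nat.cast_sub hp, Nat.cast_one]
  rw [Int.cast_natCast, h1] at hc
  rw [hc]
  push_cast
  ring

/-! ### assembly of `(P3)` -/

/-- (UP): all local non-congruences. -/
def UpperStatement : Prop :=
  ∀ (p : ℕ) [Fact p.Prime] (l : ℕ), l.Prime → NoCongruence p l (eisExp p l)

/-- (LOW): a form with constant term `gcd(p-1,12)/24` and integral higher coefficients. -/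
def LowerStatement : Prop :=
  ∀ (p : ℕ) [Fact p.Prime], HasConstTerm p ((Nat.gcd (p - 1) 12 : ℂ) / 24)

/-- (CUSP): the cusp criterion for all prime levels. -/
def CuspCriterionStatement : Prop := ∀ (p : ℕ) [Fact p.Prime], CuspCriterion p

theorem isEisCongruent_of_zero (p k : ℕ) (f : CuspForm (CongruenceSubgroup.Gamma0 p) 2)
    (hf : IsEisCongruent p 0 f) : IsEisCongruent p k f :=
  ⟨hf.1, fun j hj1 => by
    obtain ⟨c, hc⟩ := hf.2 j hj1
    exact ⟨0, by rw [hc]; push_cast; ring⟩⟩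

/-- **(P3)** from the upper bound, the lower bound and the cusp criterion. -/
theorem congruenceIff_of (hU : UpperStatement) (hL : LowerStatement)
    (hC : CuspCriterionStatement) : CongruenceIffStatement := by
  intro p _ _ k
  have hp : 2 ≤ p := (Fact.out : p.Prime).two_le
  have hn0 := eisensteinNumerator_ne_zero p hp
  constructor
  · rintro ⟨f, hf⟩
    have key : ∀ k' : ℕ, k' ≠ 0 → IsEisCongruent p k' f → k' ∣ eisensteinNumerator p :=
      fun k' hk' hf' => dvd_eisensteinNumerator_of_hasConstTerm p k' hp hk' (hU p)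
        (hasConstTerm_of_isEisCongruent p k' hk' f hf')
    rcases Nat.eq_zero_or_pos k with rfl | hk
    · exfalso
      have := key (2 * eisensteinNumerator p) (by omega) (isEisCongruent_of_zero p _ f hf)
      have := Nat.le_of_dvd (Nat.pos_of_ne_zero hn0) this
      omega
    · exact key k (by omega) hf
  · rintro ⟨k', hk'⟩
    have hk0 : k ≠ 0 := by
      rintro rfl
      rw [zero_mul] at hk'
      exact hn0 hk'
    refine isEisCongruent_of_hasConstTerm p k (hC p) ?_ hk0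
    have := (hL p).zsmul k'
    convert this using 1
    have h1 : ((p : ℂ) - 1) = ((eisensteinNumerator p * Nat.gcd (p - 1) 12 : ℕ) : ℂ) := by
      rw [eisensteinNumerator_mul_gcd, Nat.cast_sub (by omega : 1 ≤ p), Nat.cast_one]
    have hkC : (k : ℂ) ≠ 0 := Nat.cast_ne_zero.2 hk0
    rw [h1, hk']
    push_cast
    field_simp

end Fermat.Agent.S16.EisBridge
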