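import Mathlib
import Fermat.Agent.S24.CuspExpansion

/-!
# S16: symmetric functions of the `SL(2,ℤ)`-conjugates of a form on `Γ₀(p)`

For a prime `p` and `F : ModularForm Γ₀(p) k` the `p + 1` conjugates `F`, `F ∣[k] S T^b` (`b mod p`)
are permuted by `S` and `T`.  Hence the `m`-th elementary symmetric function of them is a modular
form of level one and weight `k * m`; its `q`-expansion is read off from the identity
`∑ e_m(v^p) X^m = (1 + a(v^p) X) ∏_b (1 + g(ζ^b v) X)` in `ℂ⟦v⟧[X]`, `v = q^(1/p)`,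
`a = qExpansion 1 F`, `g = qExpansion p (F ∣[k] S)`.
-/

set_option autoImplicit false

open UpperHalfPlane ModularForm Filter Topology Complex MatrixGroups Polynomial CongruenceSubgroup
open scoped Manifold Real

noncomputable section

namespace Fermat.Agent.S16.NormLevelOne

open Fermat.Agent.S24.CuspExpansion

variable (p : ℕ) {k : ℤ}

section Conj

variable (F : ModularForm ((Gamma0 p : Subgroup SL(2, ℤ)) : Subgroup (GL (Fin 2) ℝ)) k)

/-- `F ∣[k] γ = F` for `γ ∈ Γ₀(p)`. -/
lemma slash_Gamma0 (γ : SL(2, ℤ)) (hγ : γ ∈ Gamma0 p) : (F : ℍ → ℂ) ∣[k] γ = F := by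
  rw [ModularForm.SL_slash]
  exact SlashInvariantForm.slash_action_eqn F _ ⟨γ, hγ, rfl⟩

/-- The conjugate `F ∣[k] A` only depends on the bottom row of `A` as a point of `ℙ¹(𝔽_p)`. -/
lemma slash_eq_of_row (A B : SL(2, ℤ)) (h : (p : ℤ) ∣ A 1 0 * B 1 1 - A 1 1 * B 1 0) :
    (F : ℍ → ℂ) ∣[k] A = (F : ℍ → ℂ) ∣[k] B := by
  have hmem : A * B⁻¹ ∈ Gamma0 p := by
    rw [Gamma0_mem, ZMod.intCast_zmod_eq_zero_iff_dvd]
    have : (A * B⁻¹) 1 0 = A 1 0 * B 1 1 - A 1 1 * B 1 0 := by
      rw [Matrix.SpecialLinearGroup.coe_mul, Matrix.SpecialLinearGroup.SL2_inv_expl,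
        Matrix.mul_apply, Fin.sum_univ_two]
      simp
      ring
    rw [this]
    exact h
  have hA : A = (A * B⁻¹) * B := by group
  conv_lhs => rw [hA, SlashAction.slash_mul, slash_Gamma0 p F _ hmem]

open ModularGroup in
/-- The conjugate `F ∣[k] S T^b`. -/
def conjZ (b : ℤ) : ℍ → ℂ := (F : ℍ → ℂ) ∣[k] (ModularGroup.S * ModularGroup.T ^ b)

open ModularGroup in
lemma ST_row (b : ℤ) : (S * T ^ b) 1 0 = 1 ∧ (S * T ^ b) 1 1 = b := by
  constructor <;>
  · rw [Matrix.SpecialLinearGroup.coe_mul, coe_T_zpow, coe_S]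
    simp [Matrix.mul_apply, Fin.sum_univ_two]

open ModularGroup in
lemma mul_S_row (A : SL(2, ℤ)) : (A * S) 1 0 = A 1 1 ∧ (A * S) 1 1 = -A 1 0 := by
  constructor <;>
  · rw [Matrix.SpecialLinearGroup.coe_mul, coe_S]
    simp [Matrix.mul_apply, Fin.sum_univ_two]

lemma conjZ_congr (b b' : ℤ) (h : (p : ℤ) ∣ b - b') : conjZ p F b = conjZ p F b' := by
  refine slash_eq_of_row p F _ _ ?_
  rw [(ST_row b).1, (ST_row b).2, (ST_row b').1, (ST_row b').2]
  have : (1 : ℤ) * b' - b * 1 = -(b - b') := by ring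
  rw [this]
  exact (dvd_neg).mpr h

open ModularGroup in
lemma conjZ_T (b : ℤ) : conjZ p F b ∣[k] T = conjZ p F (b + 1) := by
  unfold conjZ
  rw [← SlashAction.slash_mul, mul_assoc, ← zpow_add_one]

open ModularGroup in
lemma F_T : (F : ℍ → ℂ) ∣[k] T = F := by
  refine slash_Gamma0 p F T ?_
  rw [Gamma0_mem, coe_T]
  simp

open ModularGroup in
lemma F_S : (F : ℍ → ℂ) ∣[k] S = conjZ p F 0 := by
  unfold conjZ
  rw [zpow_zero, mul_one]

open ModularGroup in
lemma conjZ_zero_S : conjZ p F 0 ∣[k] S = F := by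
  unfold conjZ
  rw [zpow_zero, mul_one, ← SlashAction.slash_mul]
  have h1 : (F : ℍ → ℂ) ∣[k] (S * S) = (F : ℍ → ℂ) ∣[k] (1 : SL(2, ℤ)) := by
    refine slash_eq_of_row p F _ _ ?_
    rw [(mul_S_row S).1, (mul_S_row S).2, coe_S]
    simp
  rw [h1, SlashAction.slash_one]

open ModularGroup in
lemma conjZ_S (b b' : ℤ) (h : (p : ℤ) ∣ b * b' + 1) : conjZ p F b ∣[k] S = conjZ p F b' := by
  unfold conjZ
  rw [← SlashAction.slash_mul]
  refine slash_eq_of_row p F _ _ ?_
  rw [(mul_S_row _).1, (mul_S_row _).2, (ST_row b).1, (ST_row b).2, (ST_row b').1, (ST_row b').2]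
  have : b * b' - -1 * 1 = b * b' + 1 := by ring
  rw [this]
  exact h

end Conj

section Family

variable [hp : Fact p.Prime]
variable (F : ModularForm ((Gamma0 p : Subgroup SL(2, ℤ)) : Subgroup (GL (Fin 2) ℝ)) k)

/-- The conjugate `F ∣[k] S T^b` for `b` modulo `p`. -/
def conjMod (b : ZMod p) : ℍ → ℂ := conjZ p F (b.val : ℤ)

lemma conjMod_intCast (n : ℤ) : conjMod p F (n : ZMod p) = conjZ p F n := by
  unfold conjMod
  refine conjZ_congr p F _ _ ?_
  rw [← ZMod.intCast_zmod_eq_zero_iff_dvd]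
  push_cast
  rw [ZMod.natCast_zmod_val, sub_self]

open ModularGroup in
lemma conjMod_T (b : ZMod p) : conjMod p F b ∣[k] T = conjMod p F (b + 1) := by
  have h1 : conjMod p F b ∣[k] T = conjZ p F ((b.val : ℤ) + 1) := conjZ_T p F _
  rw [h1, ← conjMod_intCast]
  congr 1
  push_cast
  rw [ZMod.natCast_zmod_val]

open ModularGroup in
lemma conjMod_zero_S : conjMod p F 0 ∣[k] S = F := by
  unfold conjMod
  rw [ZMod.val_zero]
  exact conjZ_zero_S p F

open ModularGroup in
lemma F_S' : (F : ℍ → ℂ) ∣[k] S = conjMod p F 0 := by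
  unfold conjMod
  rw [ZMod.val_zero]
  exact F_S p F

open ModularGroup in
lemma conjMod_S (b : ZMod p) (hb : b ≠ 0) : conjMod p F b ∣[k] S = conjMod p F (-b⁻¹) := by
  unfold conjMod
  refine conjZ_S p F _ _ ?_
  rw [← ZMod.intCast_zmod_eq_zero_iff_dvd]
  push_cast
  rw [ZMod.natCast_zmod_val, ZMod.natCast_zmod_val, mul_neg, mul_inv_cancel₀ hb]
  ring

/-- The family of the `p + 1` conjugates: `none ↦ F`, `some b ↦ F ∣[k] S T^b`. -/
def conj : Option (ZMod p) → ℍ → ℂ
  | none => F
  | some b => conjMod p F b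

/-- The permutation of the conjugates induced by `T`. -/
def permT : Equiv.Perm (Option (ZMod p)) := Equiv.optionCongr (Equiv.addRight (1 : ZMod p))

/-- The map on indices induced by `S`. -/
def sigmaS : Option (ZMod p) → Option (ZMod p)
  | none => some 0
  | some b => if b = 0 then none else some (-b⁻¹)

lemma sigmaS_involutive : Function.Involutive (sigmaS p) := by
  intro i
  cases i with
  | none => simp [sigmaS]
  | some b =>
    by_cases hb : b = 0
    · simp [sigmaS, hb]
    · have h1 : -b⁻¹ ≠ 0 := neg_ne_zero.mpr (inv_ne_zero hb)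
      simp [sigmaS, hb, h1, inv_neg]

/-- The permutation of the conjugates induced by `S`. -/
def permS : Equiv.Perm (Option (ZMod p)) := (sigmaS_involutive p).toPerm

open ModularGroup in
lemma conj_T (i : Option (ZMod p)) : conj p F i ∣[k] T = conj p F (permT p i) := by
  cases i with
  | none => exact F_T p F
  | some b => exact conjMod_T p F b

open ModularGroup in
lemma conj_S (i : Option (ZMod p)) : conj p F i ∣[k] S = conj p F (permS p i) := by
  cases i with
  | none => exact F_S' p F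
  | some b =>
    by_cases hb : b = 0
    · subst hb
      have : permS p (some 0) = none := by simp [permS, Function.Involutive.toPerm, sigmaS]
      rw [this]
      exact conjMod_zero_S p F
    · have : permS p (some b) = some (-b⁻¹) := by
        simp [permS, Function.Involutive.toPerm, sigmaS, hb]
      rw [this]
      exact conjMod_S p F b hb

end Family

/-! ### Elementary symmetric functions of a finite family of functions -/

section Sym

variable {ι : Type*} [Fintype ι]

/-- `∏ (1 + f_i(z) X)`. -/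
def symPolyAt (f : ι → ℍ → ℂ) (z : ℍ) : Polynomial ℂ := ∏ i, (1 + C (f i z) * X)

/-- The `m`-th elementary symmetric function of the `f_i`. -/
def esymmFun (f : ι → ℍ → ℂ) (m : ℕ) (z : ℍ) : ℂ := (symPolyAt f z).coeff m

lemma symPolyAt_scale (f : ι → ℍ → ℂ) (z : ℍ) (c : ℂ) :
    ∏ i, (1 + C (f i z * c) * X) = (symPolyAt f z).comp (C c * X) := by
  unfold symPolyAt
  rw [Polynomial.prod_comp]
  refine Finset.prod_congr rfl fun i _ => ?_
  rw [add_comp, one_comp, mul_comp, C_comp, X_comp, C_mul]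
  ring

lemma esymmFun_slash (f : ι → ℍ → ℂ) (k : ℤ) (γ : SL(2, ℤ)) (σ : Equiv.Perm ι)
    (h : ∀ i, f i ∣[k] γ = f (σ i)) (m : ℕ) :
    esymmFun f m ∣[k * m] γ = esymmFun f m := by
  funext z
  rw [ModularForm.SL_slash_apply]
  set d : ℂ := UpperHalfPlane.denom
    (Matrix.SpecialLinearGroup.toGL ((Matrix.SpecialLinearGroup.map (Int.castRingHom ℝ)) γ)) z
    with hd
  have hd0 : d ≠ 0 := UpperHalfPlane.denom_ne_zero _ z
  have hval : ∀ i, f i (γ • z) = f (σ i) z * d ^ k := by
    intro i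
    have := congrFun (h i) z
    rw [ModularForm.SL_slash_apply, ← hd] at this
    rw [← this, mul_assoc, ← zpow_add₀ hd0, neg_add_cancel, zpow_zero, mul_one]
  have hpoly : symPolyAt f (γ • z) = (symPolyAt f z).comp (C (d ^ k) * X) := by
    rw [← symPolyAt_scale]
    unfold symPolyAt
    simp_rw [hval]
    exact Equiv.prod_comp σ (fun i => 1 + C (f i z * d ^ k) * X)
  unfold esymmFun
  rw [hpoly, comp_C_mul_X_coeff, mul_assoc, ← zpow_natCast, ← zpow_mul, ← zpow_add₀ hd0,
    add_neg_cancel, zpow_zero, mul_one]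

end Sym

/-! ### Periodicity and expansions of translates -/

section Periodic

lemma slash_T_zpow_apply (f : ℍ → ℂ) (k n : ℤ) (τ : ℍ) :
    (f ∣[k] (ModularGroup.T ^ n)) τ = f ((n : ℝ) +ᵥ τ) := by
  rw [ModularForm.SL_slash_apply, UpperHalfPlane.modular_T_zpow_smul]
  have : UpperHalfPlane.denom (Matrix.SpecialLinearGroup.toGL
      ((Matrix.SpecialLinearGroup.map (Int.castRingHom ℝ)) (ModularGroup.T ^ n))) τ = 1 := by
    rw [ModularGroup.denom_apply, ModularGroup.coe_T_zpow]
    simp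
  rw [this, one_zpow, mul_one]

lemma periodic_of_vadd {f : ℍ → ℂ} (n : ℕ) (h : ∀ τ : ℍ, f (((n : ℤ) : ℝ) +ᵥ τ) = f τ) :
    Function.Periodic (f ∘ ofComplex) (n : ℝ) := by
  intro z
  simp only [Function.comp_apply]
  by_cases hz : 0 < z.im
  · have hz' : 0 < (z + ((n : ℝ) : ℂ)).im := by simpa using hz
    rw [ofComplex_apply_of_im_pos hz, ofComplex_apply_of_im_pos hz', ← h ⟨z, hz⟩]
    congr 1
    apply UpperHalfPlane.ext
    rw [UpperHalfPlane.coe_vadd]
    push_cast
    ring
  · have hz' : ¬ 0 < (z + ((n : ℝ) : ℂ)).im := by simpa using hz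
    rw [ofComplex_apply_of_im_nonpos (not_lt.mp hz), ofComplex_apply_of_im_nonpos (not_lt.mp hz')]

lemma periodic_of_slash {f : ℍ → ℂ} (k : ℤ) (n : ℕ) (h : f ∣[k] (ModularGroup.T ^ (n : ℤ)) = f) :
    Function.Periodic (f ∘ ofComplex) (n : ℝ) := by
  refine periodic_of_vadd n fun τ => ?_
  rw [← slash_T_zpow_apply f k (n : ℤ) τ, h]

variable {h : ℕ} [NeZero h]

/-- Width change for holomorphic functions: the expansion in `q^(1/h)` of a function of width `1`. -/
theorem qExpansion_of_width_one {f : ℍ → ℂ} (hf1 : HolAtCusp 1 f) (hfh : HolAtCusp h f) :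
    qExpansion (h : ℝ) f =
      PowerSeries.expand h (NeZero.ne h) (qExpansion ((1 : ℕ) : ℝ) f) := by
  have key := (MerAtCusp.of_width_one (h := h) hf1.merAtCusp).2
  rw [cuspLaurent_of_holAtCusp hfh, cuspLaurent_of_holAtCusp hf1] at key
  ext n
  have hn := key (n : ℤ)
  rw [HahnSeries.ofPowerSeries_apply_coeff] at hn
  rw [hn, PowerSeries.coeff_expand]
  by_cases hd : h ∣ n
  · rw [if_pos (Int.natCast_dvd_natCast.mpr hd), if_pos hd, ← Int.natCast_div,
      HahnSeries.ofPowerSeries_apply_coeff]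
  · rw [if_neg (fun hd' => hd (Int.natCast_dvd_natCast.mp hd')), if_neg hd]

/-- Translation by an integer acts on expansions of width `h` by the rotation `v ↦ ω v`. -/
theorem qExpansion_comp_vadd {f : ℍ → ℂ} (hf : HolAtCusp h f) (b : ℤ)
    (hfb : HolAtCusp h (f ∘ fun τ : ℍ => ((b : ℝ) +ᵥ τ))) :
    qExpansion (h : ℝ) (f ∘ fun τ : ℍ => ((b : ℝ) +ᵥ τ)) =
      PowerSeries.rescale (Complex.exp (2 * π * Complex.I * b / h)) (qExpansion (h : ℝ) f) := by
  have hφ : ∀ τ : ℍ, ((((b : ℝ) +ᵥ τ : ℍ)) : ℂ) =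
      (((1 : ℕ) : ℂ) * (τ : ℂ) + (b : ℂ)) / ((1 : ℕ) : ℂ) := by
    intro τ
    rw [UpperHalfPlane.coe_vadd]
    push_cast
    ring
  have key := (MerAtCusp.comp_affine (h₁ := h) (h := h) (a := 1) (d := 1) (e := 1) (b := b)
    (φ := fun τ : ℍ => ((b : ℝ) +ᵥ τ)) hf.merAtCusp one_pos one_pos (by ring) hφ).2
  rw [cuspLaurent_of_holAtCusp hfb, cuspLaurent_of_holAtCusp hf] at key
  ext n
  have hn := key (n : ℤ)
  rw [HahnSeries.ofPowerSeries_apply_coeff] at hn
  simp only [Nat.cast_one, one_dvd, if_true, Int.ediv_one, zpow_natCast,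
    HahnSeries.ofPowerSeries_apply_coeff] at hn
  rw [hn, PowerSeries.coeff_rescale]
  congr 2
  unfold omega
  congr 1
  push_cast
  ring

end Periodic

/-! ### The algebra of functions holomorphic at the cusp -/

section HolAlg

variable (h : ℕ) [NeZero h]

/-- The `ℂ`-algebra of `h`-periodic holomorphic functions on `ℍ` bounded at `i∞`. -/
def holCuspAlg : Subalgebra ℂ (ℍ → ℂ) where
  carrier := {f | HolAtCusp h f}
  mul_mem' := fun hf hg => HolAtCusp.mul hf hg
  one_mem' := HolAtCusp.const (1 : ℂ)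
  add_mem' := fun hf hg => HolAtCusp.add hf hg
  zero_mem' := HolAtCusp.const (0 : ℂ)
  algebraMap_mem' := fun c => HolAtCusp.const c

/-- The `q`-expansion in `v = q^(1/h)` as a ring homomorphism. -/
def qExpHom : holCuspAlg h →+* PowerSeries ℂ where
  toFun := fun f => qExpansion (h : ℝ) (f : ℍ → ℂ)
  map_one' := by
    show qExpansion (h : ℝ) (fun _ : ℍ => (1 : ℂ)) = 1
    rw [qExpansion_const']
    simp
  map_mul' := fun f g => qExpansion_mul' f.2 g.2
  map_zero' := by
    show qExpansion (h : ℝ) (fun _ : ℍ => (0 : ℂ)) = 0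
    rw [qExpansion_const']
    simp
  map_add' := fun f g => qExpansion_add' f.2 g.2

@[simp] lemma qExpHom_apply (f : holCuspAlg h) :
    qExpHom h f = qExpansion (h : ℝ) (f : ℍ → ℂ) := rfl

/-- Evaluation at a point of `ℍ`. -/
def evPt (z : ℍ) : holCuspAlg h →+* ℂ :=
  (Pi.evalRingHom (fun _ : ℍ => ℂ) z).comp (holCuspAlg h).val.toRingHom

lemma evPt_apply (z : ℍ) (f : holCuspAlg h) : evPt h z f = (f : ℍ → ℂ) z := rfl

end HolAlg

/-! ### The symmetric functions of the conjugates as level-one forms -/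

section Main

variable [hp : Fact p.Prime]
variable (F : ModularForm ((Gamma0 p : Subgroup SL(2, ℤ)) : Subgroup (GL (Fin 2) ℝ)) k)

local instance neZero_p : NeZero p := ⟨hp.out.ne_zero⟩

omit hp in
open ModularGroup in
lemma mul_T_zpow_row (A : SL(2, ℤ)) (n : ℤ) :
    (A * T ^ n) 1 0 = A 1 0 ∧ (A * T ^ n) 1 1 = n * A 1 0 + A 1 1 := by
  constructor <;>
  · rw [Matrix.SpecialLinearGroup.coe_mul, coe_T_zpow]
    simp [Matrix.mul_apply, Fin.sum_univ_two]
    try ring

omit hp in
lemma slash_slash_T_pow (A : SL(2, ℤ)) :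
    ((F : ℍ → ℂ) ∣[k] A) ∣[k] (ModularGroup.T ^ ((p : ℕ) : ℤ)) = (F : ℍ → ℂ) ∣[k] A := by
  rw [← SlashAction.slash_mul]
  refine slash_eq_of_row p F _ _ ?_
  rw [(mul_T_zpow_row A _).1, (mul_T_zpow_row A _).2]
  refine ⟨-(A 1 0 * A 1 0), ?_⟩
  ring

lemma holAtCusp_slash (A : SL(2, ℤ)) : HolAtCusp p ((F : ℍ → ℂ) ∣[k] A) where
  per := periodic_of_slash k p (slash_slash_T_pow p F A)
  hol := by
    rw [ModularForm.SL_slash]
    exact (ModularForm.translate F (A : GL (Fin 2) ℝ)).holo'
  bdd := ModularFormClass.bdd_at_infty_slash F A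

/-- Representatives of the cosets. -/
def rep : Option (ZMod p) → SL(2, ℤ)
  | none => 1
  | some b => ModularGroup.S * ModularGroup.T ^ ((b.val : ℕ) : ℤ)

omit hp in
lemma conj_eq (i : Option (ZMod p)) : conj p F i = (F : ℍ → ℂ) ∣[k] rep p i := by
  cases i with
  | none => exact (SlashAction.slash_one k (F : ℍ → ℂ)).symm
  | some b => rfl

lemma holAtCusp_conj (i : Option (ZMod p)) : HolAtCusp p (conj p F i) := by
  rw [conj_eq]
  exact holAtCusp_slash p F _

/-- The conjugates as elements of `holCuspAlg p`. -/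
def conjEl (i : Option (ZMod p)) : holCuspAlg p := ⟨conj p F i, holAtCusp_conj p F i⟩

/-- `∏ (1 + conj_i X)` over the algebra of functions. -/
def symPoly : Polynomial (holCuspAlg p) := ∏ i : Option (ZMod p), (1 + C (conjEl p F i) * X)

lemma symPoly_map_evPt (z : ℍ) :
    (symPoly p F).map (evPt p z) = symPolyAt (conj p F) z := by
  unfold symPoly symPolyAt
  rw [Polynomial.map_prod]
  refine Finset.prod_congr rfl fun i _ => ?_
  rw [Polynomial.map_add, Polynomial.map_one, Polynomial.map_mul, Polynomial.map_C,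
    Polynomial.map_X]
  rfl

lemma coeff_symPoly_apply (m : ℕ) (z : ℍ) :
    (((symPoly p F).coeff m : holCuspAlg p) : ℍ → ℂ) z = esymmFun (conj p F) m z := by
  unfold esymmFun
  rw [← symPoly_map_evPt, Polynomial.coeff_map]
  rfl

lemma coeff_symPoly_eq (m : ℕ) :
    (((symPoly p F).coeff m : holCuspAlg p) : ℍ → ℂ) = esymmFun (conj p F) m :=
  funext fun z => coeff_symPoly_apply p F m z

lemma holAtCusp_esymmFun (m : ℕ) : HolAtCusp p (esymmFun (conj p F) m) := by
  rw [← coeff_symPoly_eq]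
  exact ((symPoly p F).coeff m).2

lemma esymmFun_slash_SL (m : ℕ) (γ : SL(2, ℤ)) :
    esymmFun (conj p F) m ∣[k * m] γ = esymmFun (conj p F) m :=
  SlashInvariantForm.slash_action_generators_SL2Z
    (esymmFun_slash (conj p F) k ModularGroup.S (permS p) (conj_S p F) m)
    (esymmFun_slash (conj p F) k ModularGroup.T (permT p) (conj_T p F) m) γ

/-- The `m`-th elementary symmetric function of the conjugates of `F`, as a modular form of level
one and weight `k * m`. -/
def esymmForm (m : ℕ) : ModularForm 𝒮ℒ (k * m) where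
  toFun := esymmFun (conj p F) m
  slash_action_eq' := by
    rintro _ ⟨γ, rfl⟩
    exact esymmFun_slash_SL p F m γ
  holo' := (holAtCusp_esymmFun p F m).hol
  bdd_at_cusps' := fun {c} hc => by
    rw [OnePoint.isBoundedAt_iff_forall_SL2Z hc]
    intro γ _
    rw [esymmFun_slash_SL]
    exact (holAtCusp_esymmFun p F m).bdd

lemma esymmForm_apply (m : ℕ) (z : ℍ) : esymmForm p F m z = esymmFun (conj p F) m z := rfl

lemma coe_esymmForm (m : ℕ) : (esymmForm p F m : ℍ → ℂ) = esymmFun (conj p F) m := rfl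

/-! ### `q`-expansions -/

/-- `ζ = exp(2πi/p)`. -/
def zeta : ℂ := Complex.exp (2 * π * Complex.I / p)

omit hp in
lemma holAtCusp_one_of_T {f : ℍ → ℂ} {w : ℤ} (hT : f ∣[w] ModularGroup.T = f)
    (hf : HolAtCusp p f) : HolAtCusp 1 f where
  per := by
    refine periodic_of_slash w 1 ?_
    rw [Nat.cast_one, zpow_one]
    exact hT
  hol := hf.hol
  bdd := hf.bdd

lemma holAtCusp_one_F : HolAtCusp 1 (F : ℍ → ℂ) := by
  refine holAtCusp_one_of_T p (F_T p F) ?_
  have := holAtCusp_conj p F none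
  exact this

lemma holAtCusp_one_esymmFun (m : ℕ) : HolAtCusp 1 (esymmFun (conj p F) m) :=
  holAtCusp_one_of_T p (esymmFun_slash_SL p F m ModularGroup.T) (holAtCusp_esymmFun p F m)

lemma qExpansion_conj_none :
    qExpansion (p : ℝ) (conj p F none) =
      PowerSeries.expand p hp.out.ne_zero (qExpansion (1 : ℝ) (F : ℍ → ℂ)) := by
  have h := qExpansion_of_width_one (h := p) (holAtCusp_one_F p F) (holAtCusp_conj p F none)
  rw [Nat.cast_one] at h
  exact h

omit hp in
lemma conj_some_eq (b : ZMod p) :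
    conj p F (some b) =
      ((F : ℍ → ℂ) ∣[k] ModularGroup.S) ∘ fun τ : ℍ => ((((b.val : ℕ) : ℤ) : ℝ) +ᵥ τ) := by
  funext τ
  show conjZ p F (b.val : ℤ) τ = _
  unfold conjZ
  rw [SlashAction.slash_mul, slash_T_zpow_apply]
  rfl

lemma qExpansion_conj_some (b : ZMod p) :
    qExpansion (p : ℝ) (conj p F (some b)) =
      PowerSeries.rescale (zeta p ^ b.val)
        (qExpansion (p : ℝ) ((F : ℍ → ℂ) ∣[k] ModularGroup.S)) := by
  have hfb := holAtCusp_conj p F (some b)
  rw [conj_some_eq] at hfb ⊢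
  rw [qExpansion_comp_vadd (holAtCusp_slash p F ModularGroup.S) _ hfb]
  congr 2
  unfold zeta
  rw [← Complex.exp_nat_mul]
  congr 1
  push_cast
  ring

/-- The polynomial `∑ e_m(v) X^m` over `ℂ⟦v⟧`, `v = q^(1/p)`. -/
def symSeries : Polynomial (PowerSeries ℂ) := (symPoly p F).map (qExpHom p)

/-- The coefficients of `symSeries` are the `q`-expansions of the level-one forms `esymmForm`
(with `q = v^p`). -/
theorem coeff_symSeries (m : ℕ) :
    (symSeries p F).coeff m =
      PowerSeries.expand p hp.out.ne_zero (qExpansion (1 : ℝ) (esymmForm p F m)) := by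
  unfold symSeries
  rw [Polynomial.coeff_map, qExpHom_apply, coeff_symPoly_eq, coe_esymmForm]
  have h := qExpansion_of_width_one (h := p) (holAtCusp_one_esymmFun p F m)
    (holAtCusp_esymmFun p F m)
  rw [Nat.cast_one] at h
  exact h

/-- **The `q`-expansion identity**: `∑ e_m(v^p) X^m = (1 + a(v^p) X) ∏_b (1 + g(ζ^b v) X)`. -/
theorem symSeries_eq :
    symSeries p F =
      (1 + C (PowerSeries.expand p hp.out.ne_zero (qExpansion (1 : ℝ) (F : ℍ → ℂ))) * X) *
        ∏ b ∈ Finset.range p, (1 + C (PowerSeries.rescale (zeta p ^ b)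
          (qExpansion (p : ℝ) ((F : ℍ → ℂ) ∣[k] ModularGroup.S))) * X) := by
  unfold symSeries symPoly
  rw [Polynomial.map_prod, Fintype.prod_option]
  congr 1
  · rw [Polynomial.map_add, Polynomial.map_one, Polynomial.map_mul, Polynomial.map_C,
      Polynomial.map_X, qExpHom_apply]
    congr 3
    exact qExpansion_conj_none p F
  · have h2 : ∀ b : ZMod p, Polynomial.map (qExpHom p) (1 + C (conjEl p F (some b)) * X) =
        1 + C (PowerSeries.rescale (zeta p ^ b.val)
          (qExpansion (p : ℝ) ((F : ℍ → ℂ) ∣[k] ModularGroup.S))) * X := by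
      intro b
      rw [Polynomial.map_add, Polynomial.map_one, Polynomial.map_mul, Polynomial.map_C,
        Polynomial.map_X, qExpHom_apply]
      congr 3
      exact qExpansion_conj_some p F b
    simp_rw [h2]
    refine Finset.prod_nbij' (fun b : ZMod p => b.val) (fun n : ℕ => (n : ZMod p)) ?_ ?_ ?_ ?_ ?_
    · intro b _
      exact Finset.mem_range.mpr (ZMod.val_lt b)
    · intro n _
      exact Finset.mem_univ _
    · intro b _
      exact ZMod.natCast_zmod_val b
    · intro n hn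
      exact ZMod.val_natCast_of_lt (Finset.mem_range.mp hn)
    · intro b _
      rfl

end Main

end Fermat.Agent.S16.NormLevelOne
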