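import Mathlib
import Fermat.Agent.S16.NormLevelOne

/-!
# S16: integrality and reduction of the symmetric functions of the conjugates

Pure algebra on top of `NormLevelOne.symSeries_eq`: if the `q`-expansions `a` of `F` and `g` of
`F ∣[k] S` (in `v = q^(1/p)`) have coefficients in a ring `R ⊆ ℂ` containing `ζ_p`, then so have
the level-one forms `esymmForm p F m`; and if `a`, `g` become constants `α`, `β` under a ring
homomorphism `φ : R → κ` then `esymmForm p F m` becomes the constant `[X^m] (1 + αX)(1 + βX)^p`.
-/

set_option autoImplicit false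

open UpperHalfPlane ModularForm Complex MatrixGroups Polynomial CongruenceSubgroup
open scoped Real

noncomputable section

namespace Fermat.Agent.S16.NormLevelOneAlg

open Fermat.Agent.S16.NormLevelOne

variable (p : ℕ) [hp : Fact p.Prime] {k : ℤ}
variable (F : ModularForm ((Gamma0 p : Subgroup SL(2, ℤ)) : Subgroup (GL (Fin 2) ℝ)) k)

section Integral

variable {R : Type*} [CommRing R]

/-- The model over `R` of the right hand side of `symSeries_eq`. -/
def symModel (ζR : R) (A G : PowerSeries R) : Polynomial (PowerSeries R) :=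
  (1 + C (PowerSeries.expand p hp.out.ne_zero A) * X) *
    ∏ b ∈ Finset.range p, (1 + C (PowerSeries.rescale (ζR ^ b) G) * X)

lemma symModel_map {S : Type*} [CommRing S] (φ : R →+* S) (ζR : R) (A G : PowerSeries R) :
    (symModel p ζR A G).map (PowerSeries.map φ) =
      symModel p (φ ζR) (A.map φ) (G.map φ) := by
  unfold symModel
  rw [Polynomial.map_mul, Polynomial.map_prod]
  congr 1
  · rw [Polynomial.map_add, Polynomial.map_one, Polynomial.map_mul, Polynomial.map_C,
      Polynomial.map_X, PowerSeries.map_expand]
  · refine Finset.prod_congr rfl fun b _ => ?_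
    rw [Polynomial.map_add, Polynomial.map_one, Polynomial.map_mul, Polynomial.map_C,
      Polynomial.map_X, ← map_pow, PowerSeries.rescale_map]

variable (ι : R →+* ℂ) (ζR : R) (A G : PowerSeries R)

lemma symModel_map_eq (hζ : ι ζR = zeta p)
    (hA : A.map ι = qExpansion (1 : ℝ) (F : ℍ → ℂ))
    (hG : G.map ι = qExpansion (p : ℝ) ((F : ℍ → ℂ) ∣[k] ModularGroup.S)) :
    (symModel p ζR A G).map (PowerSeries.map ι) = symSeries p F := by
  rw [symModel_map, hζ, hA, hG, symSeries_eq]
  rfl

/-- The `q`-expansions of the `esymmForm p F m`, with coefficients in `R`. -/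
def esymmSeries (m : ℕ) : PowerSeries R :=
  PowerSeries.mk fun n => ((symModel p ζR A G).coeff m).coeff (p * n)

variable {ι} in
/-- **Integrality.** -/
theorem esymmSeries_map (hι : Function.Injective ι) (hζ : ι ζR = zeta p)
    (hA : A.map ι = qExpansion (1 : ℝ) (F : ℍ → ℂ))
    (hG : G.map ι = qExpansion (p : ℝ) ((F : ℍ → ℂ) ∣[k] ModularGroup.S)) (m : ℕ) :
    (esymmSeries p ζR A G m).map ι = qExpansion (1 : ℝ) (esymmForm p F m) ∧
      PowerSeries.expand p hp.out.ne_zero (esymmSeries p ζR A G m) =
        (symModel p ζR A G).coeff m := by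
  have key : ((symModel p ζR A G).coeff m).map ι =
      PowerSeries.expand p hp.out.ne_zero (qExpansion (1 : ℝ) (esymmForm p F m)) := by
    rw [← coeff_symSeries, ← symModel_map_eq p F ι ζR A G hζ hA hG, Polynomial.coeff_map]
  constructor
  · ext n
    rw [PowerSeries.coeff_map, esymmSeries, PowerSeries.coeff_mk, ← PowerSeries.coeff_map, key,
      PowerSeries.coeff_expand_mul]
  · ext j
    rw [PowerSeries.coeff_expand]
    by_cases hj : p ∣ j
    · obtain ⟨n, rfl⟩ := hj
      rw [if_pos (dvd_mul_right _ _), Nat.mul_div_cancel_left _ hp.out.pos, esymmSeries,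
        PowerSeries.coeff_mk]
    · rw [if_neg hj]
      apply hι
      rw [map_zero, ← PowerSeries.coeff_map, key, PowerSeries.coeff_expand_of_not_dvd _ _ _ hj]

end Integral

section Reduction

variable {R : Type*} [CommRing R] {κ : Type*} [CommRing κ]

lemma rescale_C' (a β : κ) : PowerSeries.rescale a (PowerSeries.C β) = PowerSeries.C β := by
  ext n
  rw [PowerSeries.coeff_rescale, PowerSeries.coeff_C]
  split_ifs with h
  · rw [h, pow_zero, one_mul]
  · rw [mul_zero]

lemma symModel_const (c : κ) (α β : κ) :
    symModel p c (PowerSeries.C α) (PowerSeries.C β) =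
      ((1 + C α * X) * (1 + C β * X) ^ p : Polynomial κ).map (PowerSeries.C (R := κ)) := by
  unfold symModel
  simp_rw [PowerSeries.expand_C, rescale_C']
  rw [Finset.prod_const, Finset.card_range, Polynomial.map_mul, Polynomial.map_pow,
    Polynomial.map_add, Polynomial.map_add, Polynomial.map_one, Polynomial.map_mul,
    Polynomial.map_mul, Polynomial.map_C, Polynomial.map_C, Polynomial.map_X]

/-- **Reduction.** If `A` and `G` become constants `α`, `β` under `φ`, then `esymmSeries m` becomes
the constant `[X^m] (1 + αX)(1 + βX)^p`. -/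
theorem esymmSeries_map_const (φ : R →+* κ) (ζR : R) (A G : PowerSeries R) (α β : κ)
    (hα : A.map φ = PowerSeries.C α) (hβ : G.map φ = PowerSeries.C β) (m : ℕ) :
    (esymmSeries p ζR A G m).map φ =
      PowerSeries.C (((1 + C α * X) * (1 + C β * X) ^ p : Polynomial κ).coeff m) := by
  have key : ((symModel p ζR A G).coeff m).map φ =
      PowerSeries.C (((1 + C α * X) * (1 + C β * X) ^ p : Polynomial κ).coeff m) := by
    rw [← Polynomial.coeff_map, ← Polynomial.coeff_map]
    congr 1
    have := symModel_map p φ ζR A G
    rw [hα, hβ, symModel_const] at this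
    exact this
  ext n
  rw [PowerSeries.coeff_map, esymmSeries, PowerSeries.coeff_mk, ← PowerSeries.coeff_map, key,
    PowerSeries.coeff_C, PowerSeries.coeff_C]
  have hp0 := hp.out.ne_zero
  simp [hp0]

end Reduction

end Fermat.Agent.S16.NormLevelOneAlg
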