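import Mathlib
import Fermat.Prelude.Thm_ModularFormClass_qCoeff_heckeU
import Fermat.Prelude.Thm_CongruenceSubgroup_one_mem_strictPeriods_Gamma0
import Fermat.Agent.S16.NormLevelOneAlg
import Fermat.Agent.S16.FrickeTrace

/-!
# S16: the weight-2 bridge between `NormLevelOne` and `FrickeTrace`

For `F : ModularForm Γ₀(p) 2` the expansion of `F ∣[2] S` in `v = q^(1/p)` is `-(1/p) ∑ a_{pn} v^n`.
Consequently the elementary symmetric functions of the conjugates of `F` have `q`-expansions with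
coefficients in any ring `R ⊆ ℂ` containing the `a_n`, `1/p` and `ζ_p`, and they reduce to the
constants `[X^m] (1 + αX)(1 - (α/p)X)^p` whenever `F` reduces to the constant `α`.
-/

set_option autoImplicit false

open UpperHalfPlane ModularForm Complex MatrixGroups Polynomial CongruenceSubgroup
open scoped Real

noncomputable section

namespace Fermat.Agent.S16.NormLevelOneFricke

open Fermat.Agent.S24.CuspExpansion
open Fermat.Agent.S16.NormLevelOne Fermat.Agent.S16.NormLevelOneAlg Fermat.Agent.S16.FrickeTrace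

variable (p : ℕ) [hp : Fact p.Prime]
variable (F : ModularForm ((Gamma0 p : Subgroup SL(2, ℤ)) : Subgroup (GL (Fin 2) ℝ)) 2)

local instance neZero_p : NeZero p := ⟨hp.out.ne_zero⟩

/-- The expansion of `F ∣[2] S` in `v = q^(1/p)`: the coefficient of `v^n` is `-(1/p) a_{pn}(F)`. -/
theorem coeff_qExpansion_slash_S (n : ℕ) :
    (qExpansion (p : ℝ) ((F : ℍ → ℂ) ∣[(2 : ℤ)] ModularGroup.S)).coeff n =
      -((p : ℂ)⁻¹ * (qExpansion (1 : ℝ) (F : ℍ → ℂ)).coeff (n * p)) := by
  have hp0 : p ≠ 0 := hp.out.ne_zero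
  -- `H' = -(1/p) U_p F`
  set H : ModularForm ((Gamma0 p : Subgroup SL(2, ℤ)) : Subgroup (GL (Fin 2) ℝ)) 2 :=
    heckeUForm p F with hH
  have hH1 : HolAtCusp 1 (H : ℍ → ℂ) := holAtCusp_one_F p H
  set H' : ℍ → ℂ := (fun _ : ℍ => -(p : ℂ)⁻¹) * (H : ℍ → ℂ) with hH'
  have hH'1 : HolAtCusp 1 H' := (HolAtCusp.const _).mul hH1
  set φ : ℍ → ℍ := fun τ => ModularForm.heckeMatrix p 0 • τ with hφdef
  have hφ : ∀ τ : ℍ, ((φ τ : ℍ) : ℂ) = (((1 : ℕ) : ℂ) * (τ : ℂ) + ((0 : ℤ) : ℂ)) / ((p : ℕ) : ℂ) := by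
    intro τ
    rw [hφdef, ModularForm.coe_heckeMatrix_smul hp0]
    push_cast
    ring
  have hfun : (F : ℍ → ℂ) ∣[(2 : ℤ)] ModularGroup.S = H' ∘ φ := by
    funext τ
    have hw : ((φ τ : ℍ) : ℂ) = (τ : ℂ) / p := by
      rw [hφ]
      push_cast
      ring
    rw [slash_S_eq p F τ (φ τ) hw, Function.comp_apply, hH', Pi.mul_apply, hH, coe_heckeUForm]
    ring
  have hS : HolAtCusp p ((F : ℍ → ℂ) ∣[(2 : ℤ)] ModularGroup.S) :=
    holAtCusp_slash p F ModularGroup.S
  have key := (MerAtCusp.comp_affine (h₁ := 1) (h := p) (a := 1) (d := p) (e := 1) (b := 0)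
    (φ := φ) hH'1.merAtCusp hp.out.pos one_pos (by ring) hφ).2 (n : ℤ)
  rw [← hfun, cuspLaurent_of_holAtCusp hS, cuspLaurent_of_holAtCusp hH'1,
    HahnSeries.ofPowerSeries_apply_coeff] at key
  have hω : omega 0 p 1 = 1 := by simp [omega]
  simp only [Nat.cast_one, one_dvd, if_true, Int.ediv_one, hω, one_zpow, one_mul,
    HahnSeries.ofPowerSeries_apply_coeff] at key
  have hmul : qExpansion (1 : ℝ) H' =
      PowerSeries.C (-(p : ℂ)⁻¹) * qExpansion (1 : ℝ) (H : ℍ → ℂ) := by
    have h1 := qExpansion_mul' (h := 1) (HolAtCusp.const (-(p : ℂ)⁻¹)) hH1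
    rw [qExpansion_const', Nat.cast_one] at h1
    exact h1
  rw [key, hmul, PowerSeries.coeff_C_mul]
  have hU := ModularFormClass.qCoeff_heckeU F (CongruenceSubgroup.one_mem_strictPeriods_Gamma0 p)
    hp0 n
  rw [ModularFormClass.qCoeff, ModularForm.coeffHeckeU_apply, ModularFormClass.qCoeff] at hU
  rw [hH, coe_heckeUForm, hU]
  ring

section Packaged

variable {R : Type*} [CommRing R]

/-- The model over `R` of the expansion of `F ∣[2] S`: `-(1/p) ∑ a_{pn} v^n`. -/
def slashSeries (pinv : R) (A : PowerSeries R) : PowerSeries R :=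
  PowerSeries.mk fun n => -(pinv * A.coeff (n * p))

lemma slashSeries_map (ι : R →+* ℂ) (pinv : R) (A : PowerSeries R)
    (hpinv : ι pinv = (p : ℂ)⁻¹) (hA : A.map ι = qExpansion (1 : ℝ) (F : ℍ → ℂ)) :
    (slashSeries p pinv A).map ι =
      qExpansion (p : ℝ) ((F : ℍ → ℂ) ∣[(2 : ℤ)] ModularGroup.S) := by
  ext n
  rw [PowerSeries.coeff_map, slashSeries, PowerSeries.coeff_mk, coeff_qExpansion_slash_S, ← hA,
    PowerSeries.coeff_map, map_neg, map_mul, hpinv]

omit F in
lemma slashSeries_map_const {κ : Type*} [CommRing κ] (φ : R →+* κ) (pinv : R) (A : PowerSeries R)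
    (α : κ) (hα : A.map φ = PowerSeries.C α) :
    (slashSeries p pinv A).map φ = PowerSeries.C (-(φ pinv * α)) := by
  ext n
  rw [PowerSeries.coeff_map, slashSeries, PowerSeries.coeff_mk, map_neg, map_mul,
    ← PowerSeries.coeff_map, hα, PowerSeries.coeff_C, PowerSeries.coeff_C]
  have hp0 := hp.out.ne_zero
  by_cases hn : n = 0
  · simp [hn]
  · simp [hn, hp0]

/-- The `q`-expansion over `R` of the `m`-th elementary symmetric function of the conjugates of a
weight-2 form `F` with `q`-expansion `A` over `R`. -/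
def esymmSeries₂ (ζR pinv : R) (A : PowerSeries R) (m : ℕ) : PowerSeries R :=
  esymmSeries p ζR A (slashSeries p pinv A) m

variable {ι : R →+* ℂ}

/-- **Integrality of the symmetric functions, weight 2.** -/
theorem esymmSeries₂_map (hι : Function.Injective ι) (ζR pinv : R) (A : PowerSeries R)
    (hζ : ι ζR = zeta p) (hpinv : ι pinv = (p : ℂ)⁻¹)
    (hA : A.map ι = qExpansion (1 : ℝ) (F : ℍ → ℂ)) (m : ℕ) :
    (esymmSeries₂ p ζR pinv A m).map ι = qExpansion (1 : ℝ) (esymmForm p F m) :=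
  (esymmSeries_map p F ζR A (slashSeries p pinv A) hι hζ hA
    (slashSeries_map p F ι pinv A hpinv hA) m).1

omit F in
/-- **Reduction of the symmetric functions, weight 2**: if `F ≡ α` (a constant) then
`e_m ≡ [X^m] (1 + αX)(1 - (α/p)X)^p`. -/
theorem esymmSeries₂_map_const {κ : Type*} [CommRing κ] (φ : R →+* κ) (ζR pinv : R)
    (A : PowerSeries R) (α : κ) (hα : A.map φ = PowerSeries.C α) (m : ℕ) :
    (esymmSeries₂ p ζR pinv A m).map φ =
      PowerSeries.C (((1 + C α * X) * (1 + C (-(φ pinv * α)) * X) ^ p : Polynomial κ).coeff m) :=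
  esymmSeries_map_const p φ ζR A (slashSeries p pinv A) α _ hα
    (slashSeries_map_const p φ pinv A α hα) m

end Packaged

end Fermat.Agent.S16.NormLevelOneFricke
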