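/-
S16 / (UP_l), `l ≥ 5` (helper71): the pure-algebra end.

Over a field `k` of characteristic `l ≥ 5`, the generating polynomial
`G(t) = (1 + u t) (1 + v t) ^ p` (`u ≠ 0`, `p ≥ 2`) of the reductions of the elementary symmetric
functions of the `p + 1` conjugates of a form `F ≡ u`, `F|S ≡ v` has a NONZERO coefficient in a
degree `i` with `¬ (l - 1) ∣ 2 * i`.  (Consumer: `u = 1`, `v = -1/p`; the `i`-th symmetric function
is a level-one form of weight `2 i` which is a nonzero constant mod `l`, contradicting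
Swinnerton-Dyer.)
-/
import Mathlib

set_option autoImplicit false

namespace Fermat.Agent.S16.GenPoly

open Polynomial

variable {k : Type*} [Field k]

/-- The generating polynomial `(1 + u t) (1 + v t) ^ p`. -/
noncomputable def gen (u v : k) (p : ℕ) : k[X] := (1 + C u * X) * (1 + C v * X) ^ p

theorem gen_eval (u v : k) (p : ℕ) (x : k) :
    (gen u v p).eval x = (1 + u * x) * (1 + v * x) ^ p := by
  simp [gen]

theorem derivative_gen_eval (u v : k) (p : ℕ) (x : k) :
    (derivative (gen u v p)).eval x =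
      u * (1 + v * x) ^ p + (1 + u * x) * ((p : k) * (1 + v * x) ^ (p - 1) * v) := by
  simp [gen, derivative_mul, derivative_pow]

/-- If all nonzero coefficients of `G` sit in degrees divisible by `m` and `ω ^ m = 1`, then
`G(ω t) = G(t)`. -/
theorem comp_C_mul_X_eq_self {G : k[X]} {m : ℕ} {ω : k} (hω : ω ^ m = 1)
    (h : ∀ i, G.coeff i ≠ 0 → m ∣ i) : G.comp (C ω * X) = G := by
  ext i
  rw [comp_C_mul_X_coeff]
  by_cases hi : G.coeff i = 0
  · rw [hi, zero_mul]
  · obtain ⟨j, rfl⟩ := h i hi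
    rw [pow_mul, hω, one_pow, mul_one]

/-- **Key lemma**: with a nontrivial `m`-th root of unity `ω` in `k`, the polynomial
`(1 + u t)(1 + v t)^p` (`u ≠ 0`, `p ≥ 2`) has a nonzero coefficient in a degree not divisible
by `m`. -/
theorem exists_coeff_ne_zero_not_dvd_of_root {m : ℕ} (hm : m ≠ 0) {ω : k} (hω : ω ^ m = 1)
    (hω1 : ω ≠ 1) (u v : k) (hu : u ≠ 0) {p : ℕ} (hp : 2 ≤ p) :
    ∃ i, (gen u v p).coeff i ≠ 0 ∧ ¬ m ∣ i := by
  by_contra hcon
  have h : ∀ i, (gen u v p).coeff i ≠ 0 → m ∣ i := by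
    intro i hi
    by_contra hmi
    exact hcon ⟨i, hi, hmi⟩
  have hcomp := comp_C_mul_X_eq_self hω h
  have hω0 : ω ≠ 0 := by
    rintro rfl
    rw [zero_pow hm] at hω
    exact zero_ne_one hω
  -- the point `t₁ = -(ω u)⁻¹` is mapped to `-u⁻¹` by `t ↦ ω t`
  set t₁ : k := -(ω * u)⁻¹ with ht₁
  have hωt₁ : ω * t₁ = -u⁻¹ := by
    rw [ht₁, mul_inv]
    field_simp
  -- `G(t₁) = G(ω t₁) = G(-1/u) = 0`
  have hroot : (gen u v p).eval t₁ = 0 := by
    have h1 := congrArg (eval t₁) hcomp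
    rw [eval_comp, eval_mul, eval_C, eval_X, hωt₁] at h1
    rw [← h1, gen_eval]
    have : 1 + u * -u⁻¹ = 0 := by
      field_simp
      ring
    rw [this, zero_mul]
  rw [gen_eval] at hroot
  -- hence `1 + v t₁ = 0`, i.e. `v = ω u`
  have h1ut : 1 + u * t₁ ≠ 0 := by
    rw [ht₁, mul_inv]
    intro h0
    apply hω1
    have : u * -(ω⁻¹ * u⁻¹) = -ω⁻¹ := by
      field_simp
    rw [this] at h0
    have h2 : ω⁻¹ = 1 := neg_injective (eq_neg_of_add_eq_zero_right h0)
    rw [inv_eq_one] at h2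
    exact h2
  have hvt : 1 + v * t₁ = 0 := by
    rcases mul_eq_zero.mp hroot with h0 | h0
    · exact absurd h0 h1ut
    · exact pow_eq_zero_iff (by omega) |>.mp h0
  -- derivative identity
  have hder := congrArg (fun q => (derivative q).eval t₁) hcomp
  simp only [derivative_comp, derivative_mul, derivative_C, zero_mul, derivative_X, mul_one,
    zero_add, eval_mul, eval_comp, eval_C, eval_X] at hder
  rw [hωt₁, derivative_gen_eval, derivative_gen_eval, hvt] at hder
  have hp1 : p - 1 ≠ 0 := by omega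
  have hp0 : p ≠ 0 := by omega
  have hu1 : 1 + u * -u⁻¹ = 0 := by
    field_simp
    ring
  rw [hu1, zero_mul, add_zero, zero_pow hp0, zero_pow hp1, mul_zero, mul_zero, zero_mul, mul_zero,
    add_zero] at hder
  -- so `u (1 - v/u)^p ω = 0`
  have hne : 1 + v * -u⁻¹ ≠ 0 := by
    -- `v = ω u`
    have hv : v = ω * u := by
      have h2 : v * t₁ = -1 := by
        have := eq_neg_of_add_eq_zero_right hvt
        exact this
      rw [ht₁] at h2
      have h3 : v * (ω * u)⁻¹ = 1 := by
        rw [mul_neg] at h2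
        exact neg_injective h2
      have hωu : ω * u ≠ 0 := mul_ne_zero hω0 hu
      field_simp at h3
      exact h3
    rw [hv]
    intro h0
    apply hω1
    have : ω * u * -u⁻¹ = -ω := by
      field_simp
    rw [this] at h0
    exact neg_injective (eq_neg_of_add_eq_zero_right h0)
  rcases mul_eq_zero.mp hder with h0 | h0
  · exact hω0 h0
  · rcases mul_eq_zero.mp h0 with h1 | h1
    · exact hu h1
    · exact hne (pow_eq_zero_iff hp0 |>.mp h1)

/-- A field of characteristic `l ≥ 5` contains a nontrivial `(l-1)/2`-th root of unity. -/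
theorem exists_root (l : ℕ) [Fact l.Prime] [CharP k l] (hl : 5 ≤ l) :
    ∃ ω : k, ω ^ ((l - 1) / 2) = 1 ∧ ω ≠ 1 := by
  have hprime : l.Prime := Fact.out
  obtain ⟨g, hg⟩ := IsCyclic.exists_generator (α := (ZMod l)ˣ)
  have hord : orderOf g = l - 1 := by
    rw [orderOf_eq_card_of_forall_mem_zpowers hg, Nat.card_eq_fintype_card, ZMod.card_units_eq_totient,
      Nat.totient_prime hprime]
  have hodd : (l - 1) / 2 * 2 = l - 1 := by
    rcases hprime.eq_two_or_odd with h2 | hodd
    · omega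
    · omega
  let φ : ZMod l →+* k := ZMod.castHom (dvd_refl l) k
  have hφinj : Function.Injective φ := RingHom.injective φ
  refine ⟨φ ((g ^ 2 : (ZMod l)ˣ) : ZMod l), ?_, ?_⟩
  · rw [← map_pow, ← Units.val_pow_eq_pow_val, ← pow_mul, mul_comm, hodd, ← hord, pow_orderOf_eq_one,
      Units.val_one, map_one]
  · intro h1
    have h2 : ((g ^ 2 : (ZMod l)ˣ) : ZMod l) = 1 := hφinj (by rw [h1, map_one])
    have h3 : g ^ 2 = 1 := Units.ext h2
    have h4 : orderOf g ∣ 2 := orderOf_dvd_of_pow_eq_one h3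
    rw [hord] at h4
    have := Nat.le_of_dvd (by norm_num) h4
    omega

/-- **(UP_l)-end, `l ≥ 5`**: over a field of characteristic `l ≥ 5`, the generating polynomial
`(1 + u t)(1 + v t)^p` (`u ≠ 0`, `p ≥ 2`) has a nonzero coefficient in a degree `i` with
`¬ (l - 1) ∣ 2 * i`. -/
theorem exists_coeff_ne_zero_not_dvd (l : ℕ) [Fact l.Prime] [CharP k l] (hl : 5 ≤ l)
    (u v : k) (hu : u ≠ 0) {p : ℕ} (hp : 2 ≤ p) :
    ∃ i, ((1 + C u * X) * (1 + C v * X) ^ p : k[X]).coeff i ≠ 0 ∧ ¬ (l - 1) ∣ 2 * i := by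
  have hprime : l.Prime := Fact.out
  obtain ⟨ω, hω, hω1⟩ := exists_root (k := k) l hl
  have hm : (l - 1) / 2 ≠ 0 := by omega
  obtain ⟨i, hi, hmi⟩ := exists_coeff_ne_zero_not_dvd_of_root hm hω hω1 u v hu hp
  refine ⟨i, hi, fun hdvd => hmi ?_⟩
  have hodd : (l - 1) / 2 * 2 = l - 1 := by
    rcases hprime.eq_two_or_odd with h2 | hodd
    · omega
    · omega
  rw [← hodd, mul_comm 2 i] at hdvd
  exact Nat.dvd_of_mul_dvd_mul_right (by norm_num) hdvd

end Fermat.Agent.S16.GenPoly
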