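import Mathlib
import Fermat.Prelude.Thm_CongruenceSubgroup_one_mem_strictPeriods_Gamma0
import Fermat.Agent.S16.Interfaces2
import Fermat.Agent.S16.GenPoly

/-!
# S16 / (UP5) (helper71): assembly of `Interfaces.Upper5Statement`

For primes `p ≥ 5`, `ℓ ≥ 5` (including `ℓ = p`) there is no `F ∈ M₂(Γ₀(p))` with `F ≡ 1 (mod ℓ)`.

Inputs (closed `Prop`s, proved elsewhere):

* `EsymmStatement`: the elementary symmetric functions `e_i` of the `p + 1` conjugates
  `F, F|ST^b` are level-one forms of weight `2 i`; if the `q`-expansions `a` of `F` and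
  `h = -(1/p) U_p a` of `(F|S)(p z)` have coefficients in a subring `R ⊆ ℂ` containing `ζ_p` and
  reduce to constants `α, β` under `φ : R → κ`, then `e_i` has coefficients in `R` and reduces to
  the constant `[X^i] (1 + α X) (1 + β X)^p`.
* `SwDStatement` (Swinnerton-Dyer/Serre): a level-one form with coefficients in `R ⊇ ℤ_(ℓ)` which
  reduces to a nonzero constant in a field of characteristic `ℓ ≥ 5` has weight divisible by `ℓ - 1`.

The assembly: `R` is the localisation of the ring of algebraic integers at a maximal ideal over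
`ℓ` (as a subring of `ℂ`), `κ` its residue field.  For `ℓ ≠ p` take `α = 1`, `β = -1/p` and
`GenPoly.exists_coeff_ne_zero_not_dvd`; for `ℓ = p` apply (ESYMM) to `p • F` (`α = 0`, `β = -1`,
`i = p`, coefficient `(-1)^p`).
-/

set_option autoImplicit false

open UpperHalfPlane ModularForm ModularFormClass MatrixGroups

namespace Fermat.Agent.S16.UpperL5

open Fermat.Agent.S16.Interfaces

/-- (ESYMM) elementary symmetric functions of the `p + 1` conjugates of a weight-2 form of level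
`p` are level-one forms of weight `2 i`; coefficient ring and reduction of constants. -/
def EsymmStatement : Prop :=
  ∀ (p : ℕ) [Fact p.Prime] (F : ModularForm (CongruenceSubgroup.Gamma0 p) 2) (i : ℕ),
    ∃ e : ModularForm 𝒮ℒ ((2 * i : ℕ) : ℤ),
      ∀ (R : Subring ℂ), Complex.exp (2 * Real.pi * Complex.I / p) ∈ R →
        ∀ (a h : PowerSeries R),
          (∀ n, ((a.coeff n : R) : ℂ) = qCoeff F n) →
          (∀ n, ((h.coeff n : R) : ℂ) = -(p : ℂ)⁻¹ * qCoeff F (p * n)) →
          ∃ E : PowerSeries R, (∀ n, ((E.coeff n : R) : ℂ) = (qExpansion 1 e).coeff n) ∧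
            ∀ (κ : Type) [Field κ] (φ : R →+* κ) (α β : κ),
              a.map φ = PowerSeries.C α → h.map φ = PowerSeries.C β →
              E.map φ = PowerSeries.C (((1 + Polynomial.C α * Polynomial.X) *
                (1 + Polynomial.C β * Polynomial.X) ^ p : Polynomial κ).coeff i)

/-- (SwD) Swinnerton-Dyer/Serre: a level-one form which is a nonzero constant modulo a prime over
`ℓ ≥ 5` has weight divisible by `ℓ - 1`. -/
def SwDStatement : Prop :=
  ∀ (ℓ : ℕ) [Fact ℓ.Prime], 5 ≤ ℓ → ∀ (R : Subring ℂ), (∀ n : ℕ, ¬ ℓ ∣ n → (n : ℂ)⁻¹ ∈ R) →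
    ∀ (κ : Type) [Field κ] [CharP κ ℓ] (φ : R →+* κ) (k : ℕ) (f : ModularForm 𝒮ℒ (k : ℤ))
      (A : PowerSeries R), (∀ n, ((A.coeff n : R) : ℂ) = (qExpansion 1 f).coeff n) →
      ∀ c : κ, c ≠ 0 → A.map φ = PowerSeries.C c → (ℓ - 1) ∣ k

noncomputable section

/-! ### The coefficient ring -/

/-- A subring of `ℂ` containing all algebraic integers and the inverses of the integers prime to
`ℓ`, together with a ring homomorphism to a field of characteristic `ℓ`. -/
theorem exists_ring (ℓ : ℕ) [Fact ℓ.Prime] :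
    ∃ (R : Subring ℂ) (κ : Type) (_ : Field κ) (_ : CharP κ ℓ) (_ : R →+* κ),
      (∀ z : ℂ, IsIntegral ℤ z → z ∈ R) ∧ ∀ n : ℕ, ¬ ℓ ∣ n → (n : ℂ)⁻¹ ∈ R := by
  classical
  have hℓ : ℓ.Prime := Fact.out
  let O : Type := integralClosure ℤ ℂ
  have hPmax : (Ideal.span {(ℓ : ℤ)}).IsMaximal := Int.ideal_span_isMaximal_of_prime ℓ
  have hker : RingHom.ker (algebraMap ℤ O) ≤ Ideal.span {(ℓ : ℤ)} := by
    intro x hx
    rw [RingHom.mem_ker] at hx
    have : x = 0 := by
      have h1 : ((algebraMap ℤ O x : O) : ℂ) = 0 := by rw [hx]; rfl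
      have h2 : ((algebraMap ℤ O x : O) : ℂ) = (x : ℂ) := by
        rw [eq_intCast]
        exact SubringClass.coe_intCast (integralClosure ℤ ℂ) x
      rw [h2] at h1
      exact_mod_cast h1
    rw [this]; exact Ideal.zero_mem _
  obtain ⟨Q, hQmax, hQ⟩ := Ideal.exists_ideal_over_maximal_of_isIntegral (S := O)
    (Ideal.span {(ℓ : ℤ)}) hker
  have : Q.IsPrime := hQmax.isPrime
  let L : Type := Localization.AtPrime Q
  let g : O →+* ℂ := (integralClosure ℤ ℂ).val.toRingHom
  have hg : ∀ y : Q.primeCompl, IsUnit (g (y : O)) := by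
    intro y
    rw [isUnit_iff_ne_zero]
    intro h0
    have : (y : O) = 0 := Subtype.ext h0
    exact y.2 (this ▸ Q.zero_mem)
  let ι : L →+* ℂ := IsLocalization.lift (M := Q.primeCompl) (S := L) hg
  have hι : Function.Injective ι := by
    rw [IsLocalization.lift_injective_iff]
    intro x y
    have h1 : Function.Injective (algebraMap O L) :=
      IsLocalization.injective L (M := Q.primeCompl) Q.primeCompl_le_nonZeroDivisors
    constructor
    · intro h; rw [h1 h]
    · intro h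
      have : x = y := Subtype.ext h
      rw [this]
  let e : L ≃+* ι.range := RingEquiv.ofLeftInverse (Function.leftInverse_invFun hι)
  have : IsLocalRing L := IsLocalization.AtPrime.isLocalRing L Q
  let κ : Type := IsLocalRing.ResidueField L
  let φ : ι.range →+* κ := (IsLocalRing.residue L).comp e.symm.toRingHom
  -- `ℓ = 0` in `κ`
  have hℓQ : ((ℓ : ℤ) : O) ∈ Q := by
    have : (ℓ : ℤ) ∈ Ideal.comap (algebraMap ℤ O) Q := by
      rw [hQ]; exact Ideal.mem_span_singleton_self _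
    simpa using this
  have hℓκ : ((ℓ : ℕ) : κ) = 0 := by
    have h1 : (IsLocalRing.residue L) (algebraMap O L ((ℓ : ℤ) : O)) = 0 := by
      rw [IsLocalRing.residue_eq_zero_iff]
      exact (IsLocalization.AtPrime.to_map_mem_maximal_iff L Q _).mpr hℓQ
    simpa using h1
  have hchar : CharP κ ℓ := by
    have := CharP.ringChar_of_prime_eq_zero (R := κ) hℓ hℓκ
    rw [← this]
    exact ringChar.charP κ
  refine ⟨ι.range, κ, inferInstance, hchar, φ, ?_, ?_⟩
  · intro z hz
    refine ⟨algebraMap O L ⟨z, hz⟩, ?_⟩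
    exact IsLocalization.lift_eq hg _
  · intro n hn
    have hnQ : ((n : ℤ) : O) ∉ Q := by
      intro h
      have : (n : ℤ) ∈ Ideal.comap (algebraMap ℤ O) Q := by
        simpa using h
      rw [hQ, Ideal.mem_span_singleton] at this
      exact hn (by exact_mod_cast this)
    obtain ⟨u, hu⟩ := IsLocalization.map_units L (⟨((n : ℤ) : O), hnQ⟩ : Q.primeCompl)
    refine ⟨((u⁻¹ : Lˣ) : L), ?_⟩
    have h1 : ι (u : L) = (n : ℂ) := by
      rw [hu]
      have := IsLocalization.lift_eq (S := L) hg ((n : ℤ) : O)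
      rw [this]
      simp [g]
    have h2 : ι ((u⁻¹ : Lˣ) : L) * ι (u : L) = 1 := by
      rw [← map_mul]; simp
    rw [h1] at h2
    exact eq_inv_of_mul_eq_one_left h2

/-- `ℓ`-integral rationals lie in every subring containing the inverses of the integers prime to
`ℓ`. -/
theorem mem_of_isLInt {ℓ : ℕ} {R : Subring ℂ} (hinv : ∀ n : ℕ, ¬ ℓ ∣ n → (n : ℂ)⁻¹ ∈ R)
    {z : ℂ} (hz : IsLInt ℓ z) : z ∈ R := by
  obtain ⟨a, b, hb, hab⟩ := hz
  have hb0 : b ≠ 0 := by
    rintro rfl
    exact hb (dvd_zero _)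
  have hbn : ¬ ℓ ∣ b.natAbs := by
    intro h
    exact hb (Int.natCast_dvd.mpr h)
  have h1 : ((b.natAbs : ℕ) : ℂ)⁻¹ ∈ R := hinv _ hbn
  have hbinv : (b : ℂ)⁻¹ ∈ R := by
    rcases Int.natAbs_eq b with h | h
    · have : (b : ℂ) = ((b.natAbs : ℕ) : ℂ) := by
        have h' := congrArg (Int.cast : ℤ → ℂ) h
        rw [Int.cast_natCast] at h'
        exact h'
      rw [this]; exact h1
    · have : (b : ℂ) = -((b.natAbs : ℕ) : ℂ) := by
        have h' := congrArg (Int.cast : ℤ → ℂ) h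
        rw [Int.cast_neg, Int.cast_natCast] at h'
        exact h'
      rw [this, inv_neg]; exact R.neg_mem h1
  have hbC : (b : ℂ) ≠ 0 := by exact_mod_cast hb0
  have : z = (a : ℂ) * (b : ℂ)⁻¹ := by
    rw [← hab]; field_simp
  rw [this]
  exact R.mul_mem (intCast_mem R a) hbinv

/-- Elements of `ℓ R` die in a field of characteristic `ℓ`. -/
theorem map_eq_zero_of_eq_mul {ℓ : ℕ} {R : Subring ℂ} {κ : Type} [Field κ] [CharP κ ℓ]
    (φ : R →+* κ) (x : R) {z : ℂ} (hz : z ∈ R) (hx : (x : ℂ) = (ℓ : ℂ) * z) : φ x = 0 := by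
  have : x = (ℓ : R) * ⟨z, hz⟩ := by
    apply Subtype.ext
    rw [hx]
    push_cast
    rfl
  rw [this, map_mul, map_natCast, CharP.cast_eq_zero, zero_mul]

/-- The coefficient used for `ℓ = p`: `[X^p] (1 + 0 X) (1 + β X)^p = β^p`. -/
theorem coeff_gen_zero {κ : Type} [Field κ] (β : κ) (p : ℕ) :
    ((1 + Polynomial.C (0 : κ) * Polynomial.X) *
      (1 + Polynomial.C β * Polynomial.X) ^ p : Polynomial κ).coeff p = β ^ p := by
  have h1 : (1 + Polynomial.C β * Polynomial.X : Polynomial κ) ^ p =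
      ((1 + Polynomial.X) ^ p : Polynomial κ).comp (Polynomial.C β * Polynomial.X) := by
    simp
  rw [map_zero, zero_mul, add_zero, one_mul, h1, Polynomial.comp_C_mul_X_coeff,
    Polynomial.coeff_one_add_X_pow, Nat.choose_self]
  simp

/-- `q`-coefficients of a scalar multiple. -/
theorem qCoeff_smul {p : ℕ} (c : ℂ) (F : ModularForm (CongruenceSubgroup.Gamma0 p) 2) (n : ℕ) :
    qCoeff ((c • F : ModularForm (CongruenceSubgroup.Gamma0 p) 2) : ℍ → ℂ) n = c * qCoeff F n := by
  unfold qCoeff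
  have := ModularForm.qExpansion_smul (k := 2) one_pos
    (CongruenceSubgroup.one_mem_strictPeriods_Gamma0 p) c F
  rw [FunLike.coe_smul, this]
  simp

/-! ### The assembly -/

/-- The common end of both cases: (ESYMM) + (SwD) against an index `i` with nonzero coefficient and
`(ℓ - 1) ∤ 2 i`. -/
theorem false_of_index (hE : EsymmStatement) (hS : SwDStatement) {p ℓ : ℕ} [Fact p.Prime]
    [Fact ℓ.Prime] (hℓ5 : 5 ≤ ℓ) (R : Subring ℂ)
    (hζ : Complex.exp (2 * Real.pi * Complex.I / p) ∈ R)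
    (hinv : ∀ n : ℕ, ¬ ℓ ∣ n → (n : ℂ)⁻¹ ∈ R) (κ : Type) [Field κ] [CharP κ ℓ] (φ : R →+* κ)
    (G : ModularForm (CongruenceSubgroup.Gamma0 p) 2) (a h : PowerSeries R)
    (ha : ∀ n, ((a.coeff n : R) : ℂ) = qCoeff G n)
    (hh : ∀ n, ((h.coeff n : R) : ℂ) = -(p : ℂ)⁻¹ * qCoeff G (p * n))
    (α β : κ) (haα : a.map φ = PowerSeries.C α) (hhβ : h.map φ = PowerSeries.C β) (i : ℕ)
    (hi : ((1 + Polynomial.C α * Polynomial.X) *
      (1 + Polynomial.C β * Polynomial.X) ^ p : Polynomial κ).coeff i ≠ 0)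
    (hdvd : ¬ (ℓ - 1) ∣ 2 * i) : False := by
  obtain ⟨e, he⟩ := hE p G i
  obtain ⟨E, hE1, hE2⟩ := he R hζ a h ha hh
  exact hdvd (hS ℓ hℓ5 R hinv κ φ (2 * i) e E hE1 _ hi (hE2 κ φ α β haα hhβ))

/-- **(UP5)** from (ESYMM) and (SwD). -/
theorem upper5_of (hE : EsymmStatement) (hS : SwDStatement) : Interfaces.Upper5Statement := by
  intro p hp hp5 ℓ hℓ hℓ5 F hF
  have hpP : p.Prime := hp.out
  have hℓP : ℓ.Prime := hℓ.out
  obtain ⟨hF0, hFn⟩ := hF
  obtain ⟨R, κ, _, _, φ, hint, hinv⟩ := exists_ring ℓ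
  have hζ : Complex.exp (2 * Real.pi * Complex.I / p) ∈ R :=
    hint _ ((Complex.isPrimitiveRoot_exp p hpP.ne_zero).isIntegral hpP.pos)
  -- the coefficients of `F` lie in `R`
  have hc : ∀ n, qCoeff F n ∈ R := by
    intro n
    rcases Nat.eq_zero_or_pos n with rfl | hn
    · rw [hF0]; exact R.one_mem
    · obtain ⟨z, hz, hzn⟩ := hFn n hn
      rw [hzn, pow_one]
      exact R.mul_mem (natCast_mem R ℓ) (mem_of_isLInt hinv hz)
  by_cases hlp : ℓ = p
  · -- `ℓ = p`: apply (ESYMM) to `p • F`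
    subst hlp
    have hℓC : (ℓ : ℂ) ≠ 0 := by exact_mod_cast hℓP.ne_zero
    let G : ModularForm (CongruenceSubgroup.Gamma0 ℓ) 2 := (ℓ : ℂ) • F
    have hG : ∀ n, qCoeff G n = (ℓ : ℂ) * qCoeff F n := fun n => qCoeff_smul (ℓ : ℂ) F n
    have ha_mem : ∀ n, (ℓ : ℂ) * qCoeff F n ∈ R := fun n => R.mul_mem (natCast_mem R ℓ) (hc n)
    have hh_mem : ∀ n, -qCoeff F (ℓ * n) ∈ R := fun n => R.neg_mem (hc _)
    let a : PowerSeries R := PowerSeries.mk fun n => ⟨_, ha_mem n⟩
    let h : PowerSeries R := PowerSeries.mk fun n => ⟨_, hh_mem n⟩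
    have ha : ∀ n, ((a.coeff n : R) : ℂ) = qCoeff G n := by
      intro n
      rw [hG, PowerSeries.coeff_mk]
    have hh : ∀ n, ((h.coeff n : R) : ℂ) = -(ℓ : ℂ)⁻¹ * qCoeff G (ℓ * n) := by
      intro n
      rw [hG, PowerSeries.coeff_mk]
      field_simp
    have haα : a.map φ = PowerSeries.C (0 : κ) := by
      ext n
      rw [PowerSeries.coeff_map, PowerSeries.coeff_mk, map_zero, map_zero]
      exact map_eq_zero_of_eq_mul φ _ (hc n) rfl
    have hhβ : h.map φ = PowerSeries.C (-1 : κ) := by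
      ext n
      rw [PowerSeries.coeff_map, PowerSeries.coeff_mk, PowerSeries.coeff_C]
      split_ifs with hn
      · subst hn
        have : (⟨-qCoeff F (ℓ * 0), hh_mem 0⟩ : R) = -1 := by
          apply Subtype.ext
          simp [hF0]
        rw [this, map_neg, map_one]
      · obtain ⟨z, hz, hzn⟩ := hFn (ℓ * n) (Nat.mul_pos hℓP.pos (Nat.pos_of_ne_zero hn))
        refine map_eq_zero_of_eq_mul φ _ (R.neg_mem (mem_of_isLInt hinv hz)) ?_
        simp only
        rw [hzn, pow_one]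
        ring
    refine false_of_index hE hS hℓ5 R hζ hinv κ φ G a h ha hh 0 (-1) haα hhβ ℓ ?_ ?_
    · rw [coeff_gen_zero]
      exact pow_ne_zero _ (neg_ne_zero.mpr one_ne_zero)
    · intro hd
      have h2 : 2 * ℓ = 2 * (ℓ - 1) + 2 := by omega
      rw [h2] at hd
      have h3 : (ℓ - 1) ∣ 2 := (Nat.dvd_add_right (Dvd.intro_left _ rfl)).mp hd
      have := Nat.le_of_dvd (by norm_num) h3
      omega
  · -- `ℓ ≠ p`
    have hpinv : (p : ℂ)⁻¹ ∈ R :=
      hinv p fun hd => hlp ((Nat.prime_dvd_prime_iff_eq hℓP hpP).mp hd)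
    have hh_mem : ∀ n, -(p : ℂ)⁻¹ * qCoeff F (p * n) ∈ R :=
      fun n => R.mul_mem (R.neg_mem hpinv) (hc _)
    let a : PowerSeries R := PowerSeries.mk fun n => ⟨_, hc n⟩
    let h : PowerSeries R := PowerSeries.mk fun n => ⟨_, hh_mem n⟩
    have ha : ∀ n, ((a.coeff n : R) : ℂ) = qCoeff F n := by
      intro n
      rw [PowerSeries.coeff_mk]
    have hh : ∀ n, ((h.coeff n : R) : ℂ) = -(p : ℂ)⁻¹ * qCoeff F (p * n) := by
      intro n
      rw [PowerSeries.coeff_mk]
    have haα : a.map φ = PowerSeries.C (1 : κ) := by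
      ext n
      rw [PowerSeries.coeff_map, PowerSeries.coeff_mk, PowerSeries.coeff_C]
      split_ifs with hn
      · subst hn
        have : (⟨qCoeff F 0, hc 0⟩ : R) = 1 := Subtype.ext hF0
        rw [this, map_one]
      · obtain ⟨z, hz, hzn⟩ := hFn n (Nat.pos_of_ne_zero hn)
        refine map_eq_zero_of_eq_mul φ _ (mem_of_isLInt hinv hz) ?_
        simp only
        rw [hzn, pow_one]
    have hhβ : h.map φ = PowerSeries.C (φ ⟨-(p : ℂ)⁻¹, R.neg_mem hpinv⟩) := by
      ext n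
      rw [PowerSeries.coeff_map, PowerSeries.coeff_mk, PowerSeries.coeff_C]
      split_ifs with hn
      · subst hn
        congr 1
        apply Subtype.ext
        simp [hF0]
      · obtain ⟨z, hz, hzn⟩ := hFn (p * n) (Nat.mul_pos hpP.pos (Nat.pos_of_ne_zero hn))
        refine map_eq_zero_of_eq_mul φ _
          (R.mul_mem (R.neg_mem hpinv) (mem_of_isLInt hinv hz)) ?_
        simp only
        rw [hzn, pow_one]
        ring
    obtain ⟨i, hi, hdvd⟩ := GenPoly.exists_coeff_ne_zero_not_dvd (k := κ) ℓ hℓ5 (1 : κ)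
      (φ ⟨-(p : ℂ)⁻¹, R.neg_mem hpinv⟩) one_ne_zero hpP.two_le
    exact false_of_index hE hS hℓ5 R hζ hinv κ φ F a h ha hh 1 _ haα hhβ i hi hdvd

end

end Fermat.Agent.S16.UpperL5
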