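import Mathlib
import Fermat.Agent.S16.UpperL5
import Fermat.Agent.S16.NormLevelOneFricke

/-!
# S16 / (UP5) (helper71): `UpperL5.EsymmStatement` from `NormLevelOne` / `NormLevelOneAlg` /
`NormLevelOneFricke` (helper4) and `FrickeTrace` (helper44)

`e := esymmForm p F i` (the `i`-th elementary symmetric function of the `p + 1` conjugates of `F`),
cast to weight `((2 * i : ℕ) : ℤ)`.  Its `q`-expansion over a subring `R ∋ ζ_p` is
`esymmSeries p ζ a h i`, `h` being the expansion of `F ∣[2] S` in `v = q^(1/p)`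
(`coeff_qExpansion_slash_S`).  No `1/p` in `R` is needed.
-/

set_option autoImplicit false

open UpperHalfPlane ModularForm ModularFormClass MatrixGroups

namespace Fermat.Agent.S16.EsymmInst

open Fermat.Agent.S16.NormLevelOne Fermat.Agent.S16.NormLevelOneAlg
  Fermat.Agent.S16.NormLevelOneFricke

/-- **(ESYMM)**. -/
theorem esymmStatement : UpperL5.EsymmStatement := by
  intro p hp F i
  have hw : (2 : ℤ) * (i : ℤ) = ((2 * i : ℕ) : ℤ) := by push_cast; ring
  refine ⟨ModularForm.mcast hw (esymmForm p F i), ?_⟩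
  intro R hζ a h ha hh
  have hι : Function.Injective (R.subtype : R →+* ℂ) := Subtype.val_injective
  have hζ' : (R.subtype : R →+* ℂ) ⟨_, hζ⟩ = zeta p := rfl
  have hA : a.map (R.subtype : R →+* ℂ) = qExpansion (1 : ℝ) (F : ℍ → ℂ) := by
    ext n
    rw [PowerSeries.coeff_map]
    exact ha n
  have hG : h.map (R.subtype : R →+* ℂ) =
      qExpansion (p : ℝ) ((F : ℍ → ℂ) ∣[(2 : ℤ)] ModularGroup.S) := by
    ext n
    rw [PowerSeries.coeff_map, coeff_qExpansion_slash_S]
    have := hh n
    rw [qCoeff, mul_comm p n] at this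
    rw [Subring.coe_subtype, this]
    ring
  have key := esymmSeries_map p F (⟨_, hζ⟩ : R) a h hι hζ' hA hG i
  refine ⟨esymmSeries p (⟨_, hζ⟩ : R) a h i, ?_, ?_⟩
  · intro n
    have := congrArg (PowerSeries.coeff n) key.1
    rw [PowerSeries.coeff_map] at this
    exact this
  · intro κ _ φ α β hα hβ
    exact esymmSeries_map_const p φ (⟨_, hζ⟩ : R) a h α β hα hβ i

end Fermat.Agent.S16.EsymmInst
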