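import Mathlib
import Fermat.Agent.S16.Interfaces2

/-!
# S16 / G23 (helper90): the coefficient ring of `ℓ`-integral algebraic numbers

`IntL ℓ : Subring ℂ` consists of the complex numbers `x` such that `m * x` is an algebraic integer
for some natural number `m` prime to `ℓ`.  It contains `ℤ_(ℓ)`, all roots of unity, and
`1 / ℓ ∉ IntL ℓ`.  The ideal `ℓ · IntL ℓ`, viewed as an additive subgroup `JL ℓ` of `ℂ`, is the
modulus for the level-one Sturm bound (`SturmModJ`).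
-/

set_option autoImplicit false

namespace Fermat.Agent.S16.G23Ring

open Fermat.Agent.S16.Interfaces

/-- The ring of `ℓ`-integral algebraic numbers. -/
def IntL (ℓ : ℕ) [Fact ℓ.Prime] : Subring ℂ where
  carrier := {x | ∃ m : ℕ, ¬ ℓ ∣ m ∧ IsIntegral ℤ ((m : ℂ) * x)}
  mul_mem' := by
    rintro x y ⟨m, hm, hx⟩ ⟨n, hn, hy⟩
    have hℓ : ℓ.Prime := Fact.out
    refine ⟨m * n, fun h => ?_, ?_⟩
    · rcases (Nat.Prime.dvd_mul hℓ).mp h with h | h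
      · exact hm h
      · exact hn h
    · have : ((m * n : ℕ) : ℂ) * (x * y) = ((m : ℂ) * x) * ((n : ℂ) * y) := by
        push_cast; ring
      rw [this]
      exact hx.mul hy
  one_mem' := ⟨1, by
    have hℓ : ℓ.Prime := Fact.out
    intro h
    exact hℓ.one_lt.ne' (Nat.dvd_one.mp h), by simpa using isIntegral_one⟩
  add_mem' := by
    rintro x y ⟨m, hm, hx⟩ ⟨n, hn, hy⟩
    have hℓ : ℓ.Prime := Fact.out
    refine ⟨m * n, fun h => ?_, ?_⟩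
    · rcases (Nat.Prime.dvd_mul hℓ).mp h with h | h
      · exact hm h
      · exact hn h
    · have : ((m * n : ℕ) : ℂ) * (x + y) = (n : ℂ) * ((m : ℂ) * x) + (m : ℂ) * ((n : ℂ) * y) := by
        push_cast; ring
      rw [this]
      have hn' : IsIntegral ℤ ((n : ℂ)) := by
        have := isIntegral_algebraMap (R := ℤ) (A := ℂ) (x := (n : ℤ))
        simpa using this
      have hm' : IsIntegral ℤ ((m : ℂ)) := by
        have := isIntegral_algebraMap (R := ℤ) (A := ℂ) (x := (m : ℤ))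
        simpa using this
      exact (hn'.mul hx).add (hm'.mul hy)
  zero_mem' := ⟨1, by
    have hℓ : ℓ.Prime := Fact.out
    intro h
    exact hℓ.one_lt.ne' (Nat.dvd_one.mp h), by simpa using isIntegral_zero⟩
  neg_mem' := by
    rintro x ⟨m, hm, hx⟩
    refine ⟨m, hm, ?_⟩
    rw [mul_neg]
    exact hx.neg

variable (ℓ : ℕ) [Fact ℓ.Prime]

theorem mem_IntL_iff {x : ℂ} :
    x ∈ IntL ℓ ↔ ∃ m : ℕ, ¬ ℓ ∣ m ∧ IsIntegral ℤ ((m : ℂ) * x) := Iff.rfl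

/-- Algebraic integers are `ℓ`-integral. -/
theorem mem_of_isIntegral {x : ℂ} (hx : IsIntegral ℤ x) : x ∈ IntL ℓ :=
  ⟨1, by
    have hℓ : ℓ.Prime := Fact.out
    intro h
    exact hℓ.one_lt.ne' (Nat.dvd_one.mp h), by simpa using hx⟩

/-- `1 / m ∈ IntL ℓ` for `ℓ ∤ m`. -/
theorem inv_natCast_mem {m : ℕ} (hm : ¬ ℓ ∣ m) : ((m : ℂ))⁻¹ ∈ IntL ℓ := by
  refine ⟨m, hm, ?_⟩
  by_cases h0 : (m : ℂ) = 0
  · rw [h0, zero_mul]; exact isIntegral_zero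
  · rw [mul_inv_cancel₀ h0]; exact isIntegral_one

/-- `ℓ`-integral rationals (in the sense of `Interfaces.IsLInt`) are in `IntL ℓ`. -/
theorem mem_of_isLInt {z : ℂ} (hz : IsLInt ℓ z) : z ∈ IntL ℓ := by
  obtain ⟨a, b, hb, hab⟩ := hz
  refine ⟨b.natAbs, fun h => hb (Int.natCast_dvd.mpr h), ?_⟩
  have h1 : ((b.natAbs : ℕ) : ℂ) * z = (b.sign : ℂ) * (a : ℂ) := by
    have h2 : ((b.natAbs : ℕ) : ℂ) = ((b.sign * b : ℤ) : ℂ) := by
      rw [Int.sign_mul_self_eq_natAbs]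
      simp
    rw [h2]
    push_cast
    rw [mul_assoc, mul_comm (b : ℂ) z, hab]
  rw [h1]
  have := (isIntegral_algebraMap (R := ℤ) (A := ℂ) (x := b.sign * a))
  simpa using this

/-- `1 / ℓ` is not `ℓ`-integral. -/
theorem inv_prime_not_mem : ((ℓ : ℂ))⁻¹ ∉ IntL ℓ := by
  have hℓ : ℓ.Prime := Fact.out
  rintro ⟨m, hm, hint⟩
  have h1 : (m : ℂ) * ((ℓ : ℂ))⁻¹ = algebraMap ℚ ℂ ((m : ℚ) / (ℓ : ℚ)) := by
    simp [div_eq_mul_inv]
  rw [h1] at hint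
  have h2 : IsIntegral ℤ ((m : ℚ) / (ℓ : ℚ)) :=
    (isIntegral_algebraMap_iff (algebraMap ℚ ℂ).injective).mp hint
  obtain ⟨n, hn⟩ := IsIntegrallyClosed.isIntegral_iff.mp h2
  have hℓ0 : (ℓ : ℚ) ≠ 0 := by exact_mod_cast hℓ.ne_zero
  have h3 : (m : ℚ) = (n : ℚ) * (ℓ : ℚ) := by
    have : ((n : ℤ) : ℚ) = (m : ℚ) / (ℓ : ℚ) := by simpa using hn
    rw [this]; field_simp
  have h4 : (m : ℤ) = n * (ℓ : ℤ) := by exact_mod_cast h3
  apply hm
  have : (ℓ : ℤ) ∣ (m : ℤ) := ⟨n, by rw [h4]; ring⟩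
  exact Int.natCast_dvd_natCast.mp this

/-- The additive subgroup `ℓ · IntL ℓ` of `ℂ`. -/
def JL : AddSubgroup ℂ where
  carrier := {x | ∃ a ∈ IntL ℓ, x = (ℓ : ℂ) * a}
  add_mem' := by
    rintro x y ⟨a, ha, rfl⟩ ⟨b, hb, rfl⟩
    exact ⟨a + b, (IntL ℓ).add_mem ha hb, by ring⟩
  zero_mem' := ⟨0, (IntL ℓ).zero_mem, by ring⟩
  neg_mem' := by
    rintro x ⟨a, ha, rfl⟩
    exact ⟨-a, (IntL ℓ).neg_mem ha, by ring⟩

theorem mem_JL_iff {x : ℂ} : x ∈ JL ℓ ↔ ∃ a ∈ IntL ℓ, x = (ℓ : ℂ) * a := Iff.rfl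

theorem one_not_mem_JL : (1 : ℂ) ∉ JL ℓ := by
  have hℓ : ℓ.Prime := Fact.out
  rintro ⟨a, ha, h⟩
  have hℓ0 : (ℓ : ℂ) ≠ 0 := by exact_mod_cast hℓ.ne_zero
  have : a = ((ℓ : ℂ))⁻¹ := by
    field_simp
    rw [mul_comm]; exact h.symm
  exact inv_prime_not_mem ℓ (this ▸ ha)

end Fermat.Agent.S16.G23Ring
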