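/-
S16 piece `DivisorCongr` (helper97): integer `q`-series of level one and their congruences
modulo `2` and `3`.

Main exports (namespace `Fermat.Agent.S16.DivisorCongr`):
* `sig k : ℤ⟦X⟧ = ∑ σ_k(n) Xⁿ`, `E4q`, `E6q`, `E8q`, `Δq : ℤ⟦X⟧` and their identification with
  the `q`-expansions of `E₄`, `E₆`, `E₈`, `Δ`;
* `E4q_cube_sub_E6q_sq : E4q ^ 3 - E6q ^ 2 = 1728 * Δq`, `E4q_sq : E4q ^ 2 = E8q`;
* `Δq_mod_two : Δq ≡ S + S² (mod 2)`, `Δq_mod_three : Δq ≡ S - S³ (mod 3)` with `S = sig 1`.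
-/
import Mathlib
import Fermat.Prelude.Def_ModularCurve_X0
import Fermat.Agent.S24.JQExpansion
import Fermat.Agent.S24.JLocalOrder

set_option autoImplicit false

namespace Fermat.Agent.S16.DivisorCongr

open PowerSeries UpperHalfPlane ModularForm ModularFormClass MatrixGroups EisensteinSeries
open Fermat.Agent.S24.JQExpansion Fermat.Agent.S24.JLocalOrder

/-- The divisor power-sum series `∑_{n ≥ 1} σ_k(n) Xⁿ` over `ℤ`. -/
noncomputable def sig (k : ℕ) : ℤ⟦X⟧ := PowerSeries.mk fun n => ∑ d ∈ n.divisors, (d : ℤ) ^ k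

@[simp] lemma coeff_sig (k n : ℕ) : (sig k).coeff n = ∑ d ∈ n.divisors, (d : ℤ) ^ k := by
  simp [sig]

@[simp] lemma coeff_zero_sig (k : ℕ) : (sig k).coeff 0 = 0 := by simp

/-- `E₄ = 1 + 240 ∑ σ₃(n) qⁿ`. -/
noncomputable def E4q : ℤ⟦X⟧ := 1 + C (240 : ℤ) * sig 3
/-- `E₆ = 1 - 504 ∑ σ₅(n) qⁿ`. -/
noncomputable def E6q : ℤ⟦X⟧ := 1 - C (504 : ℤ) * sig 5
/-- `E₈ = 1 + 480 ∑ σ₇(n) qⁿ`. -/
noncomputable def E8q : ℤ⟦X⟧ := 1 + C (480 : ℤ) * sig 7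
/-- `Δ = q ∏ (1 - qⁿ)²⁴`. -/
noncomputable def Δq : ℤ⟦X⟧ := X * ModularCurve.dedekindEtaUnit

lemma E4q_eq_eisenstein4 : E4q = ModularCurve.eisenstein4 := by
  ext n
  simp only [E4q, ModularCurve.eisenstein4, map_add, coeff_one, coeff_C_mul, coeff_sig, coeff_mk]
  split_ifs with h
  · subst h; simp
  · simp

/-- The coefficient-wise cast `ℤ⟦X⟧ → ℂ⟦X⟧`. -/
noncomputable abbrev toC : ℤ⟦X⟧ →+* ℂ⟦X⟧ := PowerSeries.map (Int.castRingHom ℂ)

lemma toC_injective : Function.Injective toC := by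
  intro a b hab
  ext n
  have h := congrArg (PowerSeries.coeff n) hab
  rw [PowerSeries.coeff_map, PowerSeries.coeff_map] at h
  exact Int.cast_injective h

lemma qExpansion_E4' : qExpansion 1 E₄ = toC E4q := by
  rw [E4q_eq_eisenstein4]; exact qExpansion_E4

lemma qExpansion_E6' : qExpansion 1 E₆ = toC E6q := by
  ext m
  rw [EisensteinSeries.E_qExpansion_coeff (by norm_num) (by decide) m]
  simp only [E6q, toC, map_sub, map_one, map_mul, map_C, coeff_one, coeff_C_mul, coeff_map,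
    coeff_sig]
  split_ifs with h
  · subst h; simp
  · have hb : bernoulli 6 = 1/42 := by decide +kernel
    rw [hb]
    simp [ArithmeticFunction.sigma_apply]
    norm_num

lemma qExpansion_E8' : qExpansion 1 (E (k := 8) (by norm_num)) = toC E8q := by
  ext m
  rw [EisensteinSeries.E_qExpansion_coeff (by norm_num) (by decide) m]
  simp only [E8q, toC, map_add, map_one, map_mul, map_C, coeff_one, coeff_C_mul, coeff_map,
    coeff_sig]
  split_ifs with h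
  · subst h; simp
  · have hb : bernoulli 8 = -1/30 := by decide +kernel
    rw [hb]
    simp [ArithmeticFunction.sigma_apply]
    norm_num

lemma qExpansion_Δ' : qExpansion 1 ModularForm.discriminant = toC Δq := by
  rw [qExpansion_discriminant, Δq, toC, map_mul, PowerSeries.map_X]

/-- `E₄³ - E₆²` as a weight-12 form. -/
noncomputable def cubeSubSq : ModularForm 𝒮ℒ 12 :=
  ModularForm.mcast (by decide) (E₄.pow 3) - ModularForm.mcast (by decide) (E₆.pow 2)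

lemma cubeSubSq_apply (z : ℍ) : cubeSubSq z = E₄ z ^ 3 - E₆ z ^ 2 := by
  simp only [cubeSubSq, coe_mcast, ModularForm.coe_pow, sub_apply, Pi.pow_apply]

lemma qExpansion_cubeSubSq :
    qExpansion 1 cubeSubSq = qExpansion 1 E₄ ^ 3 - qExpansion 1 E₆ ^ 2 := by
  simp only [cubeSubSq, FunLike.coe_sub, coe_mcast,
    ModularForm.qExpansion_sub one_pos one_mem_strictPeriods_SL,
    ModularForm.qExpansion_pow one_pos one_mem_strictPeriods_SL]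

/-- `E₄³ - E₆² = 1728 Δ` as integral `q`-series. -/
theorem E4q_cube_sub_E6q_sq : E4q ^ 3 - E6q ^ 2 = C (1728 : ℤ) * Δq := by
  apply toC_injective
  have h2 : (cubeSubSq : ℍ → ℂ) = (1728 : ℂ) • (CuspForm.discriminant : ℍ → ℂ) := by
    funext z
    rw [cubeSubSq_apply]
    change _ = (1728 : ℂ) * ModularForm.discriminant z
    rw [discriminant_eq_E₄_cube_sub_E₆_sq]; ring
  have h3 := ModularForm.qExpansion_smul one_pos one_mem_strictPeriods_SL (1728 : ℂ)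
    CuspForm.discriminant
  rw [← h2, qExpansion_cubeSubSq, CuspForm.coe_discriminant, qExpansion_Δ', qExpansion_E4',
    qExpansion_E6'] at h3
  rw [map_sub, map_pow, map_pow, map_mul, h3]
  ext n
  rw [toC, PowerSeries.map_C, coeff_C_mul]
  simp

open Filter Topology in
/-- `E₄² = E₈` as integral `q`-series. -/
theorem E4q_sq : E4q ^ 2 = E8q := by
  apply toC_injective
  set E8 : ModularForm 𝒮ℒ ((8 : ℕ) : ℤ) := E (k := 8) (by norm_num) with hE8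
  have hG : Tendsto (ModularForm.mcast (show (4 : ℤ) + 4 = ((8 : ℕ) : ℤ) by norm_num)
      (E₄.mul E₄) : ℍ → ℂ) atImInfty (𝓝 1) := by
    have := tendsto_E4.mul tendsto_E4
    rw [one_mul] at this
    exact this
  have hH : Tendsto (E8 : ℍ → ℂ) atImInfty (𝓝 1) := by
    have h := tendsto_levelOne E8
    rwa [E_qExpansion_coeff_zero _ ⟨4, rfl⟩] at h
  have key : ((E₄.mul E₄ : ModularForm 𝒮ℒ (4 + 4)) : ℍ → ℂ) = E8 := by
    funext z
    have := eq_mul_of_rank_one levelOne_weight_eight_rank_one _ E8 hG hH z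
    simpa using this
  have hq := ModularForm.qExpansion_mul one_pos one_mem_strictPeriods_SL E₄ E₄
  rw [key, qExpansion_E8', qExpansion_E4'] at hq
  rw [map_pow, pow_two, hq]

/-! ### Congruences -/

lemma exists_eq_mul_of_forall_dvd (m : ℤ) (A : ℤ⟦X⟧) (h : ∀ n, m ∣ coeff n A) :
    ∃ R : ℤ⟦X⟧, A = C m * R := by
  choose f hf using h
  exact ⟨PowerSeries.mk f, by ext n; rw [coeff_C_mul, coeff_mk, hf n]⟩

/-- A series whose `n`-th coefficient is `∑_{d ∣ n} P d` with `m ∣ P d` for all `d` is divisible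
by `m`. -/
lemma exists_eq_mul_of_divisorSum (m : ℤ) (P : ℤ → ℤ) (A : ℤ⟦X⟧)
    (hA : ∀ n, coeff n A = ∑ d ∈ n.divisors, P (d : ℤ)) (hP : ∀ d, m ∣ P d) :
    ∃ R : ℤ⟦X⟧, A = C m * R :=
  exists_eq_mul_of_forall_dvd m A fun n => by
    rw [hA]; exact Finset.dvd_sum fun d _ => hP d

lemma coeff_ofNat_mul (k : ℕ) [k.AtLeastTwo] (f : ℤ⟦X⟧) (n : ℕ) :
    coeff n ((OfNat.ofNat k : ℤ⟦X⟧) * f) = (OfNat.ofNat k : ℤ) * coeff n f := by
  rw [← map_ofNat (C (R := ℤ)) k, coeff_C_mul]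

lemma ofNat_ne_zero_aux (k : ℕ) [k.AtLeastTwo] : (OfNat.ofNat k : ℤ⟦X⟧) ≠ 0 := by
  rw [← map_ofNat (C (R := ℤ)) k]
  exact (map_ne_zero_iff _ C_injective).mpr (OfNat.ofNat_ne_zero k)

lemma E4q_eq : E4q = 1 + 240 * sig 3 := by rw [E4q, map_ofNat]
lemma E6q_eq : E6q = 1 - 504 * sig 5 := by rw [E6q, map_ofNat]
lemma E8q_eq : E8q = 1 + 480 * sig 7 := by rw [E8q, map_ofNat]

lemma dvd_eight_aux (d : ℤ) : (8 : ℤ) ∣ 45 * d ^ 3 + 63 * d ^ 5 - 4 * d ^ 4 := by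
  apply (ZMod.intCast_zmod_eq_zero_iff_dvd (45 * d ^ 3 + 63 * d ^ 5 - 4 * d ^ 4) 8).mp
  push_cast
  generalize (d : ZMod 8) = r
  revert r; decide

lemma dvd_nine_aux (d : ℤ) : (9 : ℤ) ∣ -83 * d ^ 3 + 112 * d ^ 5 + 160 * d ^ 7 := by
  apply (ZMod.intCast_zmod_eq_zero_iff_dvd (-83 * d ^ 3 + 112 * d ^ 5 + 160 * d ^ 7) 9).mp
  push_cast
  generalize (d : ZMod 9) = r
  revert r; decide

lemma dvd_two_aux4 (d : ℤ) : (2 : ℤ) ∣ d ^ 4 - d := by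
  apply (ZMod.intCast_zmod_eq_zero_iff_dvd (d ^ 4 - d) 2).mp
  push_cast
  generalize (d : ZMod 2) = r
  revert r; decide

lemma dvd_two_aux5 (d : ℤ) : (2 : ℤ) ∣ d ^ 5 - d := by
  apply (ZMod.intCast_zmod_eq_zero_iff_dvd (d ^ 5 - d) 2).mp
  push_cast
  generalize (d : ZMod 2) = r
  revert r; decide

lemma dvd_three_aux3 (d : ℤ) : (3 : ℤ) ∣ d ^ 3 - d := by
  apply (ZMod.intCast_zmod_eq_zero_iff_dvd (d ^ 3 - d) 3).mp
  push_cast
  generalize (d : ZMod 3) = r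
  revert r; decide

/-- `45 σ₃ + 63 σ₅ ≡ 4 σ₄ (mod 8)`. -/
lemma exists_R_eight : ∃ R : ℤ⟦X⟧, 45 * sig 3 + 63 * sig 5 - 4 * sig 4 = 8 * R := by
  obtain ⟨R, hR⟩ := exists_eq_mul_of_divisorSum 8
    (fun d => 45 * d ^ 3 + 63 * d ^ 5 - 4 * d ^ 4) (45 * sig 3 + 63 * sig 5 - 4 * sig 4)
    (fun n => by
      rw [map_sub, map_add, coeff_ofNat_mul 45, coeff_ofNat_mul 63, coeff_ofNat_mul 4,
        coeff_sig, coeff_sig, coeff_sig, Finset.mul_sum, Finset.mul_sum, Finset.mul_sum,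
        ← Finset.sum_add_distrib, ← Finset.sum_sub_distrib])
    dvd_eight_aux
  exact ⟨R, by rw [hR, map_ofNat]⟩

/-- `-83 σ₃ + 112 σ₅ + 160 σ₇ ≡ 0 (mod 9)`. -/
lemma exists_R_nine : ∃ R : ℤ⟦X⟧, 112 * sig 5 + 160 * sig 7 - 83 * sig 3 = 9 * R := by
  obtain ⟨R, hR⟩ := exists_eq_mul_of_divisorSum 9
    (fun d => 112 * d ^ 5 + 160 * d ^ 7 - 83 * d ^ 3) (112 * sig 5 + 160 * sig 7 - 83 * sig 3)
    (fun n => by
      rw [map_sub, map_add, coeff_ofNat_mul 112, coeff_ofNat_mul 160, coeff_ofNat_mul 83,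
        coeff_sig, coeff_sig, coeff_sig, Finset.mul_sum, Finset.mul_sum, Finset.mul_sum,
        ← Finset.sum_add_distrib, ← Finset.sum_sub_distrib])
    (fun d => by have := dvd_nine_aux d; rwa [show -83 * d ^ 3 + 112 * d ^ 5 + 160 * d ^ 7 =
      112 * d ^ 5 + 160 * d ^ 7 - 83 * d ^ 3 by ring] at this)
  exact ⟨R, by rw [hR, map_ofNat]⟩

lemma exists_sig_sub (m : ℤ) (k : ℕ) (h : ∀ d : ℤ, m ∣ d ^ k - d) :
    ∃ R : ℤ⟦X⟧, sig k = sig 1 + C m * R := by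
  obtain ⟨R, hR⟩ := exists_eq_mul_of_divisorSum m (fun d => d ^ k - d) (sig k - sig 1)
    (fun n => by simp only [map_sub, coeff_sig, pow_one, ← Finset.sum_sub_distrib]) h
  exact ⟨R, by rw [← hR]; ring⟩

/-- `Δ ≡ S + S² (mod 2)` with `S = ∑ σ(n) qⁿ`. -/
theorem Δq_mod_two : ∃ R : ℤ⟦X⟧, Δq = sig 1 + sig 1 ^ 2 + 2 * R := by
  obtain ⟨R₁, h₁⟩ := exists_R_eight
  obtain ⟨R₄, h₄⟩ := exists_sig_sub 2 4 dvd_two_aux4
  obtain ⟨R₅, h₅⟩ := exists_sig_sub 2 5 dvd_two_aux5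
  have H1 := E4q_cube_sub_E6q_sq
  rw [E4q_eq, E6q_eq, map_ofNat] at H1
  rw [map_ofNat] at h₄ h₅
  have key : (64 : ℤ⟦X⟧) * (27 * Δq) = 64 * (sig 4 + 2 * R₁ + 2700 * sig 3 ^ 2
      + 216000 * sig 3 ^ 3 - 3969 * sig 5 ^ 2) := by
    linear_combination (-1 : ℤ⟦X⟧) * H1 + 16 * h₁
  have key' := mul_left_cancel₀ (ofNat_ne_zero_aux 64) key
  refine ⟨-13 * Δq + R₁ + R₄ + 1350 * sig 3 ^ 2 + 108000 * sig 3 ^ 3 - 1985 * sig 5 ^ 2
    + R₅ * (sig 5 + sig 1), ?_⟩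
  linear_combination key' + h₄ + (sig 5 + sig 1) * h₅

/-- `Δ ≡ S - S³ (mod 3)` with `S = ∑ σ(n) qⁿ`. -/
theorem Δq_mod_three : ∃ R : ℤ⟦X⟧, Δq = sig 1 - sig 1 ^ 3 + 3 * R := by
  obtain ⟨R₂, h₂⟩ := exists_R_nine
  obtain ⟨R₃, h₃⟩ := exists_sig_sub 3 3 dvd_three_aux3
  have H1 := E4q_cube_sub_E6q_sq
  have H3 := E4q_sq
  rw [E4q_eq, E6q_eq, map_ofNat] at H1
  rw [E4q_eq, E8q_eq] at H3
  rw [map_ofNat] at h₃
  have key : (27 : ℤ⟦X⟧) * (64 * Δq) = 27 * (sig 3 + 3 * R₂ + 512000 * sig 3 ^ 3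
      - 9408 * sig 5 ^ 2) := by
    linear_combination (-1 : ℤ⟦X⟧) * H1 + 3 * H3 + 9 * h₂
  have key' := mul_left_cancel₀ (ofNat_ne_zero_aux 27) key
  refine ⟨-21 * Δq + R₃ + 170667 * sig 3 ^ 3 - R₃ * (sig 3 ^ 2 + sig 3 * sig 1 + sig 1 ^ 2)
    + R₂ - 3136 * sig 5 ^ 2, ?_⟩
  linear_combination key' + (1 - (sig 3 ^ 2 + sig 3 * sig 1 + sig 1 ^ 2)) * h₃

/-! ### Reductions modulo `m` -/

/-- Coefficient-wise reduction `ℤ⟦X⟧ → (ZMod m)⟦X⟧`. -/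
noncomputable abbrev red (m : ℕ) : ℤ⟦X⟧ →+* (ZMod m)⟦X⟧ :=
  PowerSeries.map (Int.castRingHom (ZMod m))

lemma red_C_of_dvd (m : ℕ) {a : ℤ} (h : (m : ℤ) ∣ a) : red m (C a) = 0 := by
  rw [red, PowerSeries.map_C, eq_intCast, (ZMod.intCast_zmod_eq_zero_iff_dvd a m).mpr h, map_zero]

lemma red_ofNat_of_dvd (m k : ℕ) [k.AtLeastTwo] (h : m ∣ k) :
    red m (OfNat.ofNat k : ℤ⟦X⟧) = 0 := by
  rw [← map_ofNat (C (R := ℤ)) k]
  exact red_C_of_dvd m (by exact_mod_cast h)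

lemma red_E4q (m : ℕ) (h : m ∣ 240) : red m E4q = 1 := by
  rw [E4q_eq, map_add, map_mul, red_ofNat_of_dvd m 240 h, zero_mul, add_zero, map_one]

lemma red_E6q (m : ℕ) (h : m ∣ 504) : red m E6q = 1 := by
  rw [E6q_eq, map_sub, map_mul, red_ofNat_of_dvd m 504 h, zero_mul, sub_zero, map_one]

lemma red_sig_eq (m : ℕ) (k : ℕ) (h : ∀ d : ℤ, (m : ℤ) ∣ d ^ k - d) :
    red m (sig k) = red m (sig 1) := by
  obtain ⟨R, hR⟩ := exists_sig_sub m k h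
  rw [hR, map_add, map_mul, red_C_of_dvd m dvd_rfl, zero_mul, add_zero]

/-- `Δ = S + S²` in `𝔽₂⟦q⟧`. -/
theorem red_Δq_two : red 2 Δq = red 2 (sig 1) + red 2 (sig 1) ^ 2 := by
  obtain ⟨R, hR⟩ := Δq_mod_two
  rw [hR, map_add, map_add, map_mul, map_pow, red_ofNat_of_dvd 2 2 dvd_rfl, zero_mul, add_zero]

/-- `Δ = S - S³` in `𝔽₃⟦q⟧`. -/
theorem red_Δq_three : red 3 Δq = red 3 (sig 1) - red 3 (sig 1) ^ 3 := by
  obtain ⟨R, hR⟩ := Δq_mod_three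
  rw [hR, map_add, map_sub, map_mul, map_pow, red_ofNat_of_dvd 3 3 dvd_rfl, zero_mul, add_zero]

end Fermat.Agent.S16.DivisorCongr
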