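/-
S16, piece RamanujanODE (helper20): Ramanujan's identity `D E₂ = (E₂² - E₄) / 12` on the upper half
plane, complementing `S24/JLocalOrder.D_E4`, `D_E6`.  The function `D E₂ - E₂²/12` is a weight-4
level-one modular form (from Mathlib's `E2_slash_action` and `normalizedDerivOfComplex_SL_slash`)
tending to `-1/12` at `i∞`, hence equals `-E₄/12`.
-/
import Fermat.Agent.S24.JLocalOrder

set_option autoImplicit false

namespace Fermat.Agent.S16.RamanujanODE

open UpperHalfPlane hiding I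
open ModularForm ModularFormClass MatrixGroups EisensteinSeries Complex Derivative
  Filter Topology CongruenceSubgroup SlashInvariantForm
open Fermat.Agent.S24.JLocalOrder
open scoped Manifold Real

local notation "𝕢" => Function.Periodic.qParam

/-- `D` of the correction term `D2 γ`. -/
lemma D_D2 (γ : SL(2, ℤ)) (z : ℍ) :
    D (D2 γ) z = -((γ 1 0 : ℂ) / denom γ z) ^ 2 := by
  have hz := denom_ne_zero (γ : GL (Fin 2) ℝ) z
  have h_denom : HasDerivAt (fun w : ℂ ↦ (denom (γ : GL (Fin 2) ℝ) w) ^ (-1 : ℤ))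
      (((-1 : ℤ) : ℂ) * ((γ : GL (Fin 2) ℝ) 1 0 : ℂ) *
        (denom (γ : GL (Fin 2) ℝ) z) ^ ((-1 : ℤ) - 1)) ↑z := by
    simpa using hasDerivAt_denom_zpow (γ : GL (Fin 2) ℝ) (-1) z
  have hcomp : ((D2 γ) ∘ ofComplex) =ᶠ[𝓝 ↑z]
      fun w ↦ (2 * π * I * (γ 1 0 : ℂ)) * (denom (γ : GL (Fin 2) ℝ) w) ^ (-1 : ℤ) := by
    filter_upwards [isOpen_upperHalfPlaneSet.mem_nhds z.im_pos] with w hw
    simp only [Function.comp_apply, ofComplex_apply_of_im_pos hw, D2]
    rw [zpow_neg_one, div_eq_mul_inv]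
  rw [normalizedDerivOfComplex, ((h_denom.const_mul _).congr_of_eventuallyEq hcomp).deriv]
  have h2 : (2 * (π : ℂ) * I) ≠ 0 := two_pi_I_ne_zero
  have hc : ((γ : GL (Fin 2) ℝ) 1 0 : ℂ) = (γ 1 0 : ℂ) := by simp
  rw [hc, show ((-1 : ℤ) - 1) = -2 by norm_num, zpow_neg, zpow_ofNat]
  field_simp
  push_cast
  ring

lemma D2_mdifferentiable (γ : SL(2, ℤ)) : MDiff (D2 γ) := by
  have h : D2 γ = fun z : ℍ => (2 * π * I * (γ 1 0 : ℂ)) * (denom (γ : GL (Fin 2) ℝ) z)⁻¹ := by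
    ext z
    simp only [D2, div_eq_mul_inv]
  rw [h]
  exact mdifferentiable_const.mul (mdifferentiable_inv_denom _)

/-- The function `D E₂ - E₂² / 12`. -/
noncomputable def ramG : ℍ → ℂ := fun z => D E2 z - 12⁻¹ * E2 z ^ 2

lemma ramG_slash (γ : SL(2, ℤ)) : ramG ∣[(4 : ℤ)] γ = ramG := by
  have hE : E2 ∣[(2 : ℤ)] γ = E2 - (1 / (2 * riemannZeta 2)) • D2 γ := E2_slash_action γ
  have hD := normalizedDerivOfComplex_SL_slash (k := 2) E2_mdifferentiable (γ := γ)
  ext z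
  have hDz := congrFun hD z
  have hEz := congrFun hE z
  rw [hE, normalizedDerivOfComplex_sub _ _ E2_mdifferentiable
    ((D2_mdifferentiable γ).const_smul _), normalizedDerivOfComplex_smul _ _ (D2_mdifferentiable γ)] at hDz
  simp only [Pi.sub_apply, Pi.smul_apply, smul_eq_mul, D_D2, ModularForm.SL_slash_apply] at hDz hEz
  rw [ModularForm.SL_slash_apply]
  simp only [ramG, D2] at hEz hDz ⊢
  have hz := denom_ne_zero (γ : GL (Fin 2) ℝ) z
  have hpi : (π : ℂ) ≠ 0 := by exact_mod_cast Real.pi_ne_zero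
  rw [riemannZeta_two] at hEz hDz
  generalize denom (γ : GL (Fin 2) ℝ) z = j at *
  generalize (γ 1 0 : ℂ) = c at *
  generalize D E2 (γ • z) = X at *
  generalize E2 (γ • z) = Y at *
  generalize D E2 z = A at *
  generalize E2 z = B at *
  have e1 : j ^ (-(2 + 2) : ℤ) = (j⁻¹) ^ 4 := by
    rw [show (-(2 + 2) : ℤ) = -((4 : ℕ) : ℤ) by norm_num, zpow_neg, zpow_natCast, inv_pow]
  have e2 : j ^ (-2 : ℤ) = (j⁻¹) ^ 2 := by
    rw [show (-2 : ℤ) = -((2 : ℕ) : ℤ) by norm_num, zpow_neg, zpow_natCast, inv_pow]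
  have e3 : j ^ (-4 : ℤ) = (j⁻¹) ^ 4 := by
    rw [show (-4 : ℤ) = -((4 : ℕ) : ℤ) by norm_num, zpow_neg, zpow_natCast, inv_pow]
  rw [e1] at hDz
  rw [e2] at hEz
  rw [e3]
  push_cast at hDz
  have hI : I ^ 2 = -1 := I_sq
  have hII : I⁻¹ = -I := inv_I
  have h2pi : (2 * (π : ℂ) * I)⁻¹ = -I / (2 * π) := by
    rw [mul_inv, hII]; field_simp
  rw [h2pi] at hDz
  have hY : Y = (B - 6 * I * c / (π * j)) * j ^ 2 := by
    field_simp at hEz ⊢
    linear_combination hEz
  have hX : X = (A - 3 / π ^ 2 * (c / j) ^ 2 - I / π * (c / j) * B) * j ^ 4 := by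
    field_simp at hDz ⊢
    linear_combination (-1 / 2) * hDz + 6 * c ^ 2 * j ^ 2 * hI
  subst hY hX
  field_simp
  ring_nf
  linear_combination (-36 * c ^ 2) * hI

lemma ramG_mdifferentiable : MDiff ramG := by
  have h1 : MDiff (D E2) := normalizedDerivOfComplex_mdifferentiable E2_mdifferentiable
  have h2 : MDiff (fun z => (12⁻¹ : ℂ) * (E2 z * E2 z)) :=
    mdifferentiable_const.mul (E2_mdifferentiable.mul E2_mdifferentiable)
  have h3 := h1.sub h2
  have : ramG = D E2 - fun z => (12⁻¹ : ℂ) * (E2 z * E2 z) := by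
    ext z
    simp only [ramG, Pi.sub_apply, pow_two]
  rw [this]
  exact h3

lemma tendsto_ramG : Tendsto ramG atImInfty (𝓝 (-(12⁻¹ : ℂ))) := by
  have h1 : Tendsto (D E2) atImInfty (𝓝 0) :=
    D_isZeroAtImInfty periodic_E2 E2_mdifferentiable isBoundedAtImInfty_E2
  have h2 := (tendsto_const_nhds (x := (12⁻¹ : ℂ))).mul (tendsto_E2.pow 2)
  have h3 := h1.sub h2
  simp only [one_pow, mul_one, zero_sub] at h3
  exact h3

/-- `D E₂ - E₂²/12` as a level one modular form of weight `4`. -/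
noncomputable def ramMF : ModularForm 𝒮ℒ 4 where
  toFun := ramG
  slash_action_eq' := by
    rintro _ ⟨γ, rfl⟩
    have := ramG_slash γ
    rwa [ModularForm.SL_slash] at this
  holo' := ramG_mdifferentiable
  bdd_at_cusps' {c} hc := by
    rw [OnePoint.isBoundedAt_iff_forall_SL2Z hc]
    intro γ _
    rw [ramG_slash γ]
    exact tendsto_ramG.isBigO_one ℝ

/-- Ramanujan: `D E₂ = (E₂² - E₄) / 12`. -/
theorem D_E2 (z : ℍ) : D E2 z = (E2 z ^ 2 - E₄ z) / 12 := by
  have h := eq_mul_of_rank_one levelOne_weight_four_rank_one ramMF E₄ tendsto_ramG tendsto_E4 z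
  have h' : D E2 z - 12⁻¹ * E2 z ^ 2 = -(12⁻¹ : ℂ) * E₄ z := h
  linear_combination h'

end Fermat.Agent.S16.RamanujanODE
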