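/-
S16, piece RamanujanODE part 2 (helper20): Ramanujan's three differential equations as identities of
formal power series.
* `qExpansion_D`: for a `1`-periodic holomorphic function `F` on `ℍ` bounded at `i∞`,
  `qExpansion 1 (D F) = X * d⁄dX (qExpansion 1 F)`.
* `Pz Qz Rz : ℤ⟦X⟧` are the `q`-expansions of `E₂, E₄, E₆`
  (`qExpansion_E2_eq`, `qExpansion_E4_eq`, `qExpansion_E6_eq`).
* `ramanujan_P/Q/R`: `12 θP = P² - Q`, `3 θQ = PQ - R`, `2 θR = PR - Q²` in `ℤ⟦X⟧`, where
  `theta f = X * d⁄dX f`; `ramanujan_PA/QA/RA` are the same identities over any commutative ring `A`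
  for `PA A = map (Int.castRingHom A) Pz` etc.
* `QA_cube_sub_RA_sq_ne_zero_zmod`: `Q³ - R² ≠ 0` over `ZMod l` for a prime `l ≥ 5`.
-/
import Fermat.Agent.S16.RamanujanODE

set_option autoImplicit false

namespace Fermat.Agent.S16.RamanujanSeries

open UpperHalfPlane hiding I
open ModularForm ModularFormClass MatrixGroups EisensteinSeries Complex Derivative
  Filter Topology CongruenceSubgroup SlashInvariantForm
open Fermat.Agent.S24.JLocalOrder Fermat.Agent.S16.RamanujanODE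
open scoped Manifold Real PowerSeries

local notation "𝕢" => Function.Periodic.qParam

/-- `D F` is `1`-periodic when `F` is. -/
lemma periodic_D {F : ℍ → ℂ} (hper : Function.Periodic (F ∘ ofComplex) (1 : ℝ)) :
    Function.Periodic ((D F) ∘ ofComplex) (1 : ℝ) := by
  intro w
  by_cases hw : 0 < w.im
  · have hw1 : 0 < (w + (1 : ℝ)).im := by simpa using hw
    simp only [Function.comp_apply, ofComplex_apply_of_im_pos hw1, ofComplex_apply_of_im_pos hw,
      normalizedDerivOfComplex]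
    congr 1
    have h1 : (fun x : ℂ => (F ∘ ofComplex) (x + (1 : ℝ))) = F ∘ ofComplex := funext hper
    have h2 := deriv_comp_add_const (F ∘ ofComplex) ((1 : ℝ) : ℂ) w
    rw [h1] at h2
    exact h2.symm
  · have hw' : w.im ≤ 0 := not_lt.mp hw
    have hw1 : (w + (1 : ℝ)).im ≤ 0 := by simpa using hw'
    show D F (ofComplex (w + (1 : ℝ))) = D F (ofComplex w)
    rw [ofComplex_apply_of_im_nonpos hw1, ofComplex_apply_of_im_nonpos hw']

/-- The cusp function of `D F` is `q ↦ q * (cuspFunction F)'(q)` on the unit disc. -/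
lemma cuspFunction_D {F : ℍ → ℂ}
    (hper : Function.Periodic (F ∘ ofComplex) (1 : ℝ)) (hhol : MDiff F)
    (hbdd : IsBoundedAtImInfty F) {q : ℂ} (hq : ‖q‖ < 1) :
    cuspFunction 1 (D F) q = q * deriv (cuspFunction 1 F) q := by
  rcases eq_or_ne q 0 with rfl | hq'
  · rw [zero_mul]
    exact (D_isZeroAtImInfty hper hhol hbdd).cuspFunction_apply_zero one_pos
  · have him := Function.Periodic.im_invQParam_pos_of_norm_lt_one one_pos hq hq'
    set τ : ℍ := ⟨_, him⟩ with hτ
    have hqτ : 𝕢 1 (τ : ℂ) = q := Function.Periodic.qParam_right_inv one_ne_zero hq'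
    rw [← hqτ, eq_cuspFunction τ one_ne_zero (periodic_D hper)]
    exact D_eq_qParam_mul_deriv_cuspFunction hper hhol hbdd τ

/-- The `q`-expansion of `D F` is `θ = q d/dq` applied to the `q`-expansion of `F`. -/
theorem qExpansion_D {F : ℍ → ℂ}
    (hper : Function.Periodic (F ∘ ofComplex) (1 : ℝ)) (hhol : MDiff F)
    (hbdd : IsBoundedAtImInfty F) :
    qExpansion 1 (D F) = PowerSeries.X * PowerSeries.derivative ℂ (qExpansion 1 F) := by
  have han : AnalyticAt ℂ (cuspFunction 1 F) 0 :=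
    analyticAt_cuspFunction_zero one_pos hper hhol hbdd
  have hev : cuspFunction 1 (D F) =ᶠ[𝓝 0] ((fun a : ℂ => a) * deriv (cuspFunction 1 F)) := by
    filter_upwards [Metric.ball_mem_nhds (0 : ℂ) zero_lt_one] with q hq
    have hq' : ‖q‖ < 1 := by simpa using hq
    simpa using cuspFunction_D hper hhol hbdd hq'
  ext m
  rw [qExpansion_coeff, hev.iteratedDeriv_eq m,
    iteratedDeriv_mul contDiffAt_fun_id han.deriv.contDiffAt]
  simp only [iteratedDeriv_fun_id_zero]
  rcases m with _ | m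
  · simp
  · rw [PowerSeries.coeff_succ_X_mul, PowerSeries.coeff_derivative, qExpansion_coeff]
    rw [Finset.sum_eq_single 1]
    · simp only [if_true, mul_one, Nat.choose_one_right, Nat.add_sub_cancel]
      rw [← iteratedDeriv_succ']
      have : ((m + 1).factorial : ℂ) = (m + 1 : ℂ) * (m.factorial : ℂ) := by
        rw [Nat.factorial_succ]; push_cast; ring
      rw [this]
      have h1 : ((m : ℂ) + 1) ≠ 0 := by exact_mod_cast Nat.succ_ne_zero m
      have h2 : (m.factorial : ℂ) ≠ 0 := by exact_mod_cast Nat.factorial_ne_zero m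
      push_cast
      field_simp
    · intro b _ hb
      simp [hb]
    · intro h
      exact absurd (Finset.mem_range.mpr (by omega)) h

/-! ### Analyticity of the relevant cusp functions -/

lemma analyticAt_cusp_E2 : AnalyticAt ℂ (cuspFunction 1 E2) 0 :=
  analyticAt_cuspFunction_zero one_pos periodic_E2 E2_mdifferentiable isBoundedAtImInfty_E2

lemma analyticAt_cusp_levelOne {k : ℤ} (F : ModularForm 𝒮ℒ k) :
    AnalyticAt ℂ (cuspFunction 1 (F : ℍ → ℂ)) 0 :=
  analyticAt_cuspFunction_zero one_pos (periodic_levelOne F) (holo F) (isBoundedAtImInfty_levelOne F)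

lemma analyticAt_cusp_mul {f g : ℍ → ℂ} (hf : AnalyticAt ℂ (cuspFunction 1 f) 0)
    (hg : AnalyticAt ℂ (cuspFunction 1 g) 0) : AnalyticAt ℂ (cuspFunction 1 (f * g)) 0 := by
  rw [cuspFunction_mul hf.continuousAt hg.continuousAt]
  exact hf.mul hg

lemma analyticAt_cusp_sub {f g : ℍ → ℂ} (hf : AnalyticAt ℂ (cuspFunction 1 f) 0)
    (hg : AnalyticAt ℂ (cuspFunction 1 g) 0) : AnalyticAt ℂ (cuspFunction 1 (f - g)) 0 := by
  rw [cuspFunction_sub hf.continuousAt hg.continuousAt]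
  exact hf.sub hg

/-! ### The three identities over `ℂ` -/

/-- Ramanujan's first identity for complex `q`-expansions. -/
theorem ramanujan_P_complex :
    (12 : ℂ) • (PowerSeries.X * PowerSeries.derivative ℂ (qExpansion 1 E2)) =
      qExpansion 1 E2 * qExpansion 1 E2 - qExpansion 1 (E₄ : ℍ → ℂ) := by
  have hfun : D E2 = (12⁻¹ : ℂ) • (E2 * E2 - (E₄ : ℍ → ℂ)) := by
    ext z
    simp only [Pi.smul_apply, Pi.sub_apply, Pi.mul_apply, smul_eq_mul]
    rw [D_E2 z]
    ring
  have h1 := qExpansion_D periodic_E2 E2_mdifferentiable isBoundedAtImInfty_E2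
  have hEE := analyticAt_cusp_mul analyticAt_cusp_E2 analyticAt_cusp_E2
  rw [hfun, qExpansion_smul (analyticAt_cusp_sub hEE (analyticAt_cusp_levelOne E₄)),
    qExpansion_sub hEE (analyticAt_cusp_levelOne E₄),
    qExpansion_mul analyticAt_cusp_E2 analyticAt_cusp_E2] at h1
  rw [← h1, smul_smul]
  norm_num

/-- Ramanujan's second identity for complex `q`-expansions. -/
theorem ramanujan_Q_complex :
    (3 : ℂ) • (PowerSeries.X * PowerSeries.derivative ℂ (qExpansion 1 (E₄ : ℍ → ℂ))) =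
      qExpansion 1 E2 * qExpansion 1 (E₄ : ℍ → ℂ) - qExpansion 1 (E₆ : ℍ → ℂ) := by
  have hfun : D (E₄ : ℍ → ℂ) = (3⁻¹ : ℂ) • (E2 * (E₄ : ℍ → ℂ) - (E₆ : ℍ → ℂ)) := by
    ext z
    simp only [Pi.smul_apply, Pi.sub_apply, Pi.mul_apply, smul_eq_mul]
    rw [D_E4 z]
    ring
  have h1 := qExpansion_D (periodic_levelOne E₄) (holo E₄) (isBoundedAtImInfty_levelOne E₄)
  have hEE := analyticAt_cusp_mul analyticAt_cusp_E2 (analyticAt_cusp_levelOne E₄)
  rw [hfun, qExpansion_smul (analyticAt_cusp_sub hEE (analyticAt_cusp_levelOne E₆)),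
    qExpansion_sub hEE (analyticAt_cusp_levelOne E₆),
    qExpansion_mul analyticAt_cusp_E2 (analyticAt_cusp_levelOne E₄)] at h1
  rw [← h1, smul_smul]
  norm_num

/-- Ramanujan's third identity for complex `q`-expansions. -/
theorem ramanujan_R_complex :
    (2 : ℂ) • (PowerSeries.X * PowerSeries.derivative ℂ (qExpansion 1 (E₆ : ℍ → ℂ))) =
      qExpansion 1 E2 * qExpansion 1 (E₆ : ℍ → ℂ) -
        qExpansion 1 (E₄ : ℍ → ℂ) * qExpansion 1 (E₄ : ℍ → ℂ) := by
  have hfun : D (E₆ : ℍ → ℂ) =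
      (2⁻¹ : ℂ) • (E2 * (E₆ : ℍ → ℂ) - (E₄ : ℍ → ℂ) * (E₄ : ℍ → ℂ)) := by
    ext z
    simp only [Pi.smul_apply, Pi.sub_apply, Pi.mul_apply, smul_eq_mul]
    rw [D_E6 z]
    ring
  have h1 := qExpansion_D (periodic_levelOne E₆) (holo E₆) (isBoundedAtImInfty_levelOne E₆)
  have hEE := analyticAt_cusp_mul analyticAt_cusp_E2 (analyticAt_cusp_levelOne E₆)
  have hQQ := analyticAt_cusp_mul (analyticAt_cusp_levelOne E₄) (analyticAt_cusp_levelOne E₄)
  rw [hfun, qExpansion_smul (analyticAt_cusp_sub hEE hQQ),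
    qExpansion_sub hEE hQQ,
    qExpansion_mul analyticAt_cusp_E2 (analyticAt_cusp_levelOne E₆),
    qExpansion_mul (analyticAt_cusp_levelOne E₄) (analyticAt_cusp_levelOne E₄)] at h1
  rw [← h1, smul_smul]
  norm_num

/-! ### The integral `q`-series `P`, `Q`, `R` -/

open ArithmeticFunction in
/-- `P = 1 - 24 ∑ σ₁(n) qⁿ` (the `q`-expansion of `E₂`) over `ℤ`. -/
def Pz : ℤ⟦X⟧ := PowerSeries.mk fun n => if n = 0 then 1 else -24 * (sigma 1 n : ℤ)

open ArithmeticFunction in
/-- `Q = 1 + 240 ∑ σ₃(n) qⁿ` (the `q`-expansion of `E₄`) over `ℤ`. -/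
def Qz : ℤ⟦X⟧ := PowerSeries.mk fun n => if n = 0 then 1 else 240 * (sigma 3 n : ℤ)

open ArithmeticFunction in
/-- `R = 1 - 504 ∑ σ₅(n) qⁿ` (the `q`-expansion of `E₆`) over `ℤ`. -/
def Rz : ℤ⟦X⟧ := PowerSeries.mk fun n => if n = 0 then 1 else -504 * (sigma 5 n : ℤ)

/-- The `θ = q d/dq` operator on power series. -/
noncomputable def theta {A : Type*} [CommRing A] (f : A⟦X⟧) : A⟦X⟧ :=
  PowerSeries.X * PowerSeries.derivative A f

lemma coeff_theta {A : Type*} [CommRing A] (f : A⟦X⟧) (n : ℕ) :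
    PowerSeries.coeff n (theta f) = (n : A) * PowerSeries.coeff n f := by
  rcases n with _ | n
  · simp [theta]
  · rw [theta, PowerSeries.coeff_succ_X_mul, PowerSeries.coeff_derivative]
    push_cast
    ring

lemma map_theta {A B : Type*} [CommRing A] [CommRing B] (φ : A →+* B) (f : A⟦X⟧) :
    PowerSeries.map φ (theta f) = theta (PowerSeries.map φ f) := by
  ext n
  simp [coeff_theta, PowerSeries.coeff_map]

/-- Uniqueness of `q`-expansion coefficients for plain functions on `ℍ`. -/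
lemma qExpansion_coeff_unique_fun {f : ℍ → ℂ} {c : ℕ → ℂ}
    (hfanalytic : AnalyticAt ℂ (cuspFunction 1 f) 0)
    (hf : ∀ τ : ℍ, HasSum (fun m ↦ c m • 𝕢 1 τ ^ m) (f τ)) (m : ℕ) :
    c m = (qExpansion 1 f).coeff m := by
  have h1 := (hasFPowerSeriesOnBall_cuspFunction one_pos hfanalytic hf).hasFPowerSeriesAt
  have h2 := hfanalytic.hasFPowerSeriesAt
  have h3 := congr_arg (FormalMultilinearSeries.coeff · m) (h1.eq_formalMultilinearSeries h2)
  simp only [FormalMultilinearSeries.coeff_ofScalars] at h3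
  rw [h3, qExpansion_coeff, div_eq_mul_inv, mul_comm]

lemma qExpansion_E2_eq : qExpansion 1 E2 = PowerSeries.map (Int.castRingHom ℂ) Pz := by
  ext m
  have hsum : ∀ τ : ℍ, HasSum (fun m : ℕ =>
      (if m = 0 then 1 else -24 * (ArithmeticFunction.sigma 1 m : ℂ)) • 𝕢 1 τ ^ m) (E2 τ) := by
    intro τ
    have h1 : 𝕢 1 (τ : ℂ) = cexp (2 * π * I * τ) := by
      simp only [Function.Periodic.qParam, ofReal_one, div_one]
    rw [h1]
    exact hasSum_qExpansion_E2 (z := τ)
  rw [← qExpansion_coeff_unique_fun analyticAt_cusp_E2 hsum m]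
  simp only [Pz, PowerSeries.coeff_map, PowerSeries.coeff_mk]
  split_ifs <;> simp

lemma qExpansion_E4_eq :
    qExpansion 1 (E₄ : ℍ → ℂ) = PowerSeries.map (Int.castRingHom ℂ) Qz := by
  ext m
  rw [E_qExpansion_coeff _ ⟨2, rfl⟩]
  simp only [Qz, PowerSeries.coeff_map, PowerSeries.coeff_mk]
  split_ifs
  · simp
  · norm_num [show bernoulli 4 = -1 / 30 by decide +kernel]

lemma qExpansion_E6_eq :
    qExpansion 1 (E₆ : ℍ → ℂ) = PowerSeries.map (Int.castRingHom ℂ) Rz := by
  ext m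
  rw [E_qExpansion_coeff _ ⟨3, rfl⟩]
  simp only [Rz, PowerSeries.coeff_map, PowerSeries.coeff_mk]
  split_ifs
  · simp
  · norm_num [show bernoulli 6 = 1 / 42 by decide +kernel]

/-! ### Ramanujan's differential equations over `ℤ` and over any commutative ring -/

lemma smul_eq_ofNat_mul (n : ℕ) [n.AtLeastTwo] (f : ℂ⟦X⟧) :
    (OfNat.ofNat n : ℂ) • f = (OfNat.ofNat n : ℂ⟦X⟧) * f := by
  rw [PowerSeries.smul_eq_C_mul, map_ofNat]

/-- Ramanujan: `12 θP = P² - Q` in `ℤ⟦q⟧`. -/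
theorem ramanujan_P : (12 : ℤ⟦X⟧) * theta Pz = Pz ^ 2 - Qz := by
  apply PowerSeries.map_injective (Int.castRingHom ℂ) Int.cast_injective
  have h := ramanujan_P_complex
  rw [qExpansion_E2_eq, qExpansion_E4_eq, smul_eq_ofNat_mul] at h
  rw [map_mul, map_sub, map_pow, map_theta, map_ofNat, pow_two]
  exact h

/-- Ramanujan: `3 θQ = PQ - R` in `ℤ⟦q⟧`. -/
theorem ramanujan_Q : (3 : ℤ⟦X⟧) * theta Qz = Pz * Qz - Rz := by
  apply PowerSeries.map_injective (Int.castRingHom ℂ) Int.cast_injective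
  have h := ramanujan_Q_complex
  rw [qExpansion_E2_eq, qExpansion_E4_eq, qExpansion_E6_eq, smul_eq_ofNat_mul] at h
  rw [map_mul, map_sub, map_mul, map_theta, map_ofNat]
  exact h

/-- Ramanujan: `2 θR = PR - Q²` in `ℤ⟦q⟧`. -/
theorem ramanujan_R : (2 : ℤ⟦X⟧) * theta Rz = Pz * Rz - Qz ^ 2 := by
  apply PowerSeries.map_injective (Int.castRingHom ℂ) Int.cast_injective
  have h := ramanujan_R_complex
  rw [qExpansion_E2_eq, qExpansion_E4_eq, qExpansion_E6_eq, smul_eq_ofNat_mul] at h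
  rw [map_mul, map_sub, map_mul, map_pow, map_theta, map_ofNat, pow_two]
  exact h

section BaseChange

variable (A : Type*) [CommRing A]

/-- The series `P`, `Q`, `R` over an arbitrary commutative ring. -/
noncomputable def PA : A⟦X⟧ := PowerSeries.map (Int.castRingHom A) Pz
noncomputable def QA : A⟦X⟧ := PowerSeries.map (Int.castRingHom A) Qz
noncomputable def RA : A⟦X⟧ := PowerSeries.map (Int.castRingHom A) Rz

@[simp] lemma constantCoeff_Pz : PowerSeries.constantCoeff Pz = 1 := by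
  simp [Pz, ← PowerSeries.coeff_zero_eq_constantCoeff_apply]

@[simp] lemma constantCoeff_Qz : PowerSeries.constantCoeff Qz = 1 := by
  simp [Qz, ← PowerSeries.coeff_zero_eq_constantCoeff_apply]

@[simp] lemma constantCoeff_Rz : PowerSeries.constantCoeff Rz = 1 := by
  simp [Rz, ← PowerSeries.coeff_zero_eq_constantCoeff_apply]

@[simp] lemma constantCoeff_PA : PowerSeries.constantCoeff (PA A) = 1 := by
  rw [PA, ← PowerSeries.coeff_zero_eq_constantCoeff_apply, PowerSeries.coeff_map,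
    PowerSeries.coeff_zero_eq_constantCoeff_apply, constantCoeff_Pz, map_one]

@[simp] lemma constantCoeff_QA : PowerSeries.constantCoeff (QA A) = 1 := by
  rw [QA, ← PowerSeries.coeff_zero_eq_constantCoeff_apply, PowerSeries.coeff_map,
    PowerSeries.coeff_zero_eq_constantCoeff_apply, constantCoeff_Qz, map_one]

@[simp] lemma constantCoeff_RA : PowerSeries.constantCoeff (RA A) = 1 := by
  rw [RA, ← PowerSeries.coeff_zero_eq_constantCoeff_apply, PowerSeries.coeff_map,
    PowerSeries.coeff_zero_eq_constantCoeff_apply, constantCoeff_Rz, map_one]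

theorem ramanujan_PA : (12 : A⟦X⟧) * theta (PA A) = PA A ^ 2 - QA A := by
  have h := congrArg (PowerSeries.map (Int.castRingHom A)) ramanujan_P
  rw [map_mul, map_sub, map_pow, map_theta, map_ofNat] at h
  exact h

theorem ramanujan_QA : (3 : A⟦X⟧) * theta (QA A) = PA A * QA A - RA A := by
  have h := congrArg (PowerSeries.map (Int.castRingHom A)) ramanujan_Q
  rw [map_mul, map_sub, map_mul, map_theta, map_ofNat] at h
  exact h

theorem ramanujan_RA : (2 : A⟦X⟧) * theta (RA A) = PA A * RA A - QA A ^ 2 := by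
  have h := congrArg (PowerSeries.map (Int.castRingHom A)) ramanujan_R
  rw [map_mul, map_sub, map_mul, map_pow, map_theta, map_ofNat] at h
  exact h

lemma coeff_Pz (n : ℕ) : PowerSeries.coeff n Pz =
    if n = 0 then 1 else -24 * (ArithmeticFunction.sigma 1 n : ℤ) := by
  simp [Pz]

lemma coeff_Qz (n : ℕ) : PowerSeries.coeff n Qz =
    if n = 0 then 1 else 240 * (ArithmeticFunction.sigma 3 n : ℤ) := by
  simp [Qz]

lemma coeff_Rz (n : ℕ) : PowerSeries.coeff n Rz =
    if n = 0 then 1 else -504 * (ArithmeticFunction.sigma 5 n : ℤ) := by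
  simp [Rz]

/-- The `q`-coefficient of `Q³ - R²` is `1728`. -/
lemma coeff_one_Qz_cube_sub_Rz_sq : PowerSeries.coeff 1 (Qz ^ 3 - Rz ^ 2) = 1728 := by
  rw [map_sub, PowerSeries.coeff_one_pow, PowerSeries.coeff_one_pow, constantCoeff_Qz,
    constantCoeff_Rz, coeff_Qz, coeff_Rz]
  simp

lemma coeff_one_QA_cube_sub_RA_sq :
    PowerSeries.coeff 1 (QA A ^ 3 - RA A ^ 2) = (1728 : A) := by
  have h := congrArg (Int.castRingHom A) coeff_one_Qz_cube_sub_Rz_sq
  rw [← PowerSeries.coeff_map, map_sub, map_pow, map_pow] at h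
  simpa [QA, RA] using h

/-- `Q³ - R² ≠ 0` as soon as `1728 ≠ 0` in `A` (e.g. `A = ZMod l`, `l ≥ 5` prime). -/
lemma QA_cube_sub_RA_sq_ne_zero (h1728 : (1728 : A) ≠ 0) : QA A ^ 3 - RA A ^ 2 ≠ 0 := by
  intro h0
  apply h1728
  rw [← coeff_one_QA_cube_sub_RA_sq A, h0, map_zero]

end BaseChange

lemma ne_zero_1728_zmod {l : ℕ} [hl : Fact l.Prime] (h5 : 5 ≤ l) : (1728 : ZMod l) ≠ 0 := by
  intro h
  have h1 : ((1728 : ℕ) : ZMod l) = 0 := by exact_mod_cast h
  have h2 : l ∣ 1728 := (ZMod.natCast_eq_zero_iff 1728 l).mp h1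
  have h3 : l ∣ 2 ^ 6 * 3 ^ 3 := by norm_num; exact h2
  rcases (Nat.Prime.dvd_mul hl.out).mp h3 with h4 | h4
  · have := Nat.le_of_dvd (by norm_num) (hl.out.dvd_of_dvd_pow h4)
    omega
  · have := Nat.le_of_dvd (by norm_num) (hl.out.dvd_of_dvd_pow h4)
    omega

/-- For a prime `l ≥ 5`, `Q³ - R² ≠ 0` in `(ZMod l)⟦q⟧`. -/
lemma QA_cube_sub_RA_sq_ne_zero_zmod {l : ℕ} [Fact l.Prime] (h5 : 5 ≤ l) :
    QA (ZMod l) ^ 3 - RA (ZMod l) ^ 2 ≠ 0 :=
  QA_cube_sub_RA_sq_ne_zero _ (ne_zero_1728_zmod h5)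

end Fermat.Agent.S16.RamanujanSeries
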