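import Mathlib
import Fermat.Agent.S16.DivisorCongr
import Fermat.Agent.S16.RamanujanSeries

/-!
# S16 / G23 (helper90): formal `q`-series algebra for the case `ℓ = 3`, `p ≡ 2 mod 3`

`theta = q d/dq`, `V = expand p` (`q ↦ q^p`).  For a commutative ring `B`:
* `ΔB B`, `SB B`, `PA B` are the images of `Δ`, `∑ σ(n) qⁿ`, `E₂` in `B⟦X⟧`;
* `theta_ΔB : θ Δ = E₂ Δ` (from Ramanujan's equations);
* the series `eS, gS, GS, hS, kS` attached to `x` (`F = 1 + 9 x`):
  `e = 1 + 3c₁(S - pVS)`, `g = 3x - c₁(S - pVS)`, `G = g³ - g e²`,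
  `h = θG - ½ E₂ G`, `k = θG - (p/2) V(E₂) G`;
* naturality under ring homomorphisms and the evaluation in characteristic `3`:
  `hS = Δ`, `kS = - VΔ`.
-/

set_option autoImplicit false

namespace Fermat.Agent.S16.G3Formal

open PowerSeries
open Fermat.Agent.S16.DivisorCongr Fermat.Agent.S16.RamanujanSeries

noncomputable section

/-! ### `theta` -/

section Theta

variable {B : Type*} [CommRing B]

lemma theta_add (f g : B⟦X⟧) : theta (f + g) = theta f + theta g := by
  simp [theta, mul_add]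

lemma theta_neg (f : B⟦X⟧) : theta (-f) = -theta f := by
  simp [theta]

lemma theta_sub (f g : B⟦X⟧) : theta (f - g) = theta f - theta g := by
  simp [theta, mul_sub]

lemma theta_mul (f g : B⟦X⟧) : theta (f * g) = f * theta g + g * theta f := by
  simp only [theta, Derivation.leibniz, smul_eq_mul]
  ring

lemma theta_C_mul (c : B) (f : B⟦X⟧) : theta (C c * f) = C c * theta f := by
  ext n
  simp only [coeff_theta, coeff_C_mul]
  ring

lemma theta_pow_three (f : B⟦X⟧) : theta (f ^ 3) = 3 * f ^ 2 * theta f := by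
  have : f ^ 3 = f * (f * f) := by ring
  rw [this, theta_mul, theta_mul]
  ring

lemma theta_sq (f : B⟦X⟧) : theta (f ^ 2) = 2 * f * theta f := by
  rw [pow_two, theta_mul]
  ring

lemma theta_expand (p : ℕ) (hp : p ≠ 0) (f : B⟦X⟧) :
    theta (expand p hp f) = C (p : B) * expand p hp (theta f) := by
  ext n
  rw [coeff_theta, coeff_C_mul, coeff_expand, coeff_expand]
  split_ifs with h
  · rw [coeff_theta]
    obtain ⟨m, rfl⟩ := h
    rw [Nat.mul_div_cancel_left _ (Nat.pos_of_ne_zero hp)]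
    push_cast
    ring
  · simp

end Theta

/-! ### `θ Δ = E₂ Δ` -/

theorem E4q_eq_Qz : E4q = Qz := by
  apply toC_injective
  rw [← qExpansion_E4', qExpansion_E4_eq]

theorem E6q_eq_Rz : E6q = Rz := by
  apply toC_injective
  rw [← qExpansion_E6', qExpansion_E6_eq]

theorem theta_cube_sub_sq : theta (Qz ^ 3 - Rz ^ 2) = Pz * (Qz ^ 3 - Rz ^ 2) := by
  rw [theta_sub, theta_pow_three, theta_sq]
  linear_combination Qz ^ 2 * ramanujan_Q - Rz * ramanujan_R

theorem theta_Δq : theta Δq = Pz * Δq := by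
  have h := theta_cube_sub_sq
  rw [← E4q_eq_Qz, ← E6q_eq_Rz, E4q_cube_sub_E6q_sq, theta_C_mul] at h
  have h1728 : (C (1728 : ℤ) : ℤ⟦X⟧) ≠ 0 := by
    intro h0
    have := PowerSeries.C_injective (h0.trans (map_zero C).symm)
    norm_num at this
  apply mul_left_cancel₀ h1728
  rw [h]
  ring

section Base

variable (B : Type*) [CommRing B]

/-- `Δ` over `B`. -/
def ΔB : B⟦X⟧ := PowerSeries.map (Int.castRingHom B) Δq
/-- `∑ σ(n) qⁿ` over `B`. -/
def SB : B⟦X⟧ := PowerSeries.map (Int.castRingHom B) (sig 1)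

theorem theta_ΔB : theta (ΔB B) = PA B * ΔB B := by
  rw [ΔB, ← map_theta, theta_Δq, map_mul]
  rfl

theorem PA_eq : PA B = 1 - 24 * SB B := by
  ext n
  rw [PA, SB, coeff_map, coeff_Pz]
  have h24 : ((24 : B⟦X⟧)) = C (24 : B) := by
    rw [map_ofNat]
  rw [map_sub, h24, coeff_C_mul, coeff_map, coeff_one, coeff_sig]
  split_ifs with h
  · subst h; simp
  · simp only [ArithmeticFunction.sigma_apply, eq_intCast]
    push_cast
    ring

variable {B}

theorem map_ΔB {B' : Type*} [CommRing B'] (φ : B →+* B') :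
    PowerSeries.map φ (ΔB B) = ΔB B' := by
  rw [ΔB, ΔB]
  ext n
  simp [coeff_map]

theorem map_SB {B' : Type*} [CommRing B'] (φ : B →+* B') :
    PowerSeries.map φ (SB B) = SB B' := by
  rw [SB, SB]
  ext n
  simp [coeff_map]

theorem map_PA {B' : Type*} [CommRing B'] (φ : B →+* B') :
    PowerSeries.map φ (PA B) = PA B' := by
  rw [PA, PA]
  ext n
  simp [coeff_map]

/-- In characteristic `3`, `E₂ = 1`. -/
theorem PA_of_three (h3 : (3 : B) = 0) : PA B = 1 := by
  rw [PA_eq]
  have : (24 : B⟦X⟧) = 0 := by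
    have h : (24 : B⟦X⟧) = C (24 : B) := by rw [map_ofNat]
    rw [h]
    have : (24 : B) = 3 * 8 := by norm_num
    rw [this, h3, zero_mul, map_zero]
  rw [this, zero_mul, sub_zero]

/-- In characteristic `3`, `Δ = S - S³`. -/
theorem ΔB_of_three (h3 : (3 : B) = 0) : ΔB B = SB B - SB B ^ 3 := by
  obtain ⟨R, hR⟩ := Δq_mod_three
  rw [ΔB, hR, map_add, map_sub, map_pow, map_mul]
  have : PowerSeries.map (Int.castRingHom B) (3 : ℤ⟦X⟧) = 0 := by
    rw [map_ofNat]
    have h : (3 : B⟦X⟧) = C (3 : B) := by rw [map_ofNat]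
    rw [h, h3, map_zero]
  rw [this, zero_mul, add_zero]
  rfl

end Base

/-! ### The series attached to `F = 1 + 9x` -/

section Series

variable {B : Type*} [CommRing B] (p : ℕ) (hp : p ≠ 0) (c₁ half : B) (x : B⟦X⟧)

/-- `S - p V S`. -/
def sS : B⟦X⟧ := SB B - C (p : B) * expand p hp (SB B)

/-- The `q`-expansion of `E = 1 + (24/(p-1)) (S - pVS)`, `3 c₁ = 24/(p-1)`. -/
def eS : B⟦X⟧ := 1 + C (3 * c₁) * sS p hp

/-- The `q`-expansion of `g = (F - E)/3`, `F = 1 + 9x`. -/
def gS : B⟦X⟧ := C 3 * x - C c₁ * sS p hp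

/-- `G = g³ - g E²`. -/
def GS : B⟦X⟧ := gS p hp c₁ x ^ 3 - gS p hp c₁ x * eS p hp c₁ ^ 2

/-- `h = θG - ½ E₂ G`. -/
def hS : B⟦X⟧ := theta (GS p hp c₁ x) - C half * (PA B * GS p hp c₁ x)

/-- `k = θG - (p/2) V(E₂) G`. -/
def kS : B⟦X⟧ :=
  theta (GS p hp c₁ x) - C (half * (p : B)) * (expand p hp (PA B) * GS p hp c₁ x)

variable {B' : Type*} [CommRing B'] (φ : B →+* B')

theorem map_sS : PowerSeries.map φ (sS p hp : B⟦X⟧) = sS p hp := by
  simp only [sS, map_sub, map_mul, map_natCast, map_expand, map_SB]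

theorem map_eS : PowerSeries.map φ (eS p hp c₁) = eS p hp (φ c₁) := by
  simp only [eS, map_add, map_one, map_mul, map_C, map_sS, map_ofNat]

theorem map_gS : PowerSeries.map φ (gS p hp c₁ x) = gS p hp (φ c₁) (PowerSeries.map φ x) := by
  simp only [gS, map_sub, map_mul, map_C, map_sS, map_ofNat]

theorem map_GS : PowerSeries.map φ (GS p hp c₁ x) = GS p hp (φ c₁) (PowerSeries.map φ x) := by
  simp only [GS, map_sub, map_mul, map_pow, map_gS, map_eS]

theorem map_hS : PowerSeries.map φ (hS p hp c₁ half x) =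
    hS p hp (φ c₁) (φ half) (PowerSeries.map φ x) := by
  simp only [hS, map_sub, map_mul, map_C, map_theta, map_GS, map_PA]

theorem map_kS : PowerSeries.map φ (kS p hp c₁ half x) =
    kS p hp (φ c₁) (φ half) (PowerSeries.map φ x) := by
  simp only [kS, map_sub, map_mul, map_C, map_theta, map_GS, map_PA, map_expand, map_natCast]

end Series

/-! ### Characteristic `3` -/

section CharThree

variable {B : Type*} [CommRing B] (p : ℕ) (hp : p ≠ 0) (x : B⟦X⟧)

theorem GS_of_three (h3 : (3 : B) = 0) (hpB : (p : B) = -1) :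
    GS p hp (-1 : B) x = -(ΔB B + expand p hp (ΔB B)) := by
  have hC3 : (C (3 : B) : B⟦X⟧) = 0 := by rw [h3, map_zero]
  have h3' : (3 : B⟦X⟧) = 0 := by
    have h : (3 : B⟦X⟧) = C (3 : B) := by rw [map_ofNat]
    rw [h, hC3]
  have he : eS p hp (-1 : B) = 1 := by
    rw [eS]
    have : (3 * (-1) : B) = 0 := by rw [h3, zero_mul]
    rw [this, map_zero, zero_mul, add_zero]
  have hg : gS p hp (-1 : B) x = SB B + expand p hp (SB B) := by
    rw [gS, hC3, zero_mul, sS, hpB]
    simp only [map_neg, map_one]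
    ring
  rw [GS, he, hg, ΔB_of_three h3, map_sub, map_pow]
  have hcube : ∀ a b : B⟦X⟧, (a + b) ^ 3 = a ^ 3 + b ^ 3 + 3 * (a ^ 2 * b + a * b ^ 2) := by
    intro a b; ring
  rw [hcube, h3']
  ring

theorem hS_of_three (h3 : (3 : B) = 0) (hpB : (p : B) = -1) :
    hS p hp (-1 : B) (-1 : B) x = ΔB B := by
  have h3' : (3 : B⟦X⟧) = 0 := by
    have h : (3 : B⟦X⟧) = C (3 : B) := by rw [map_ofNat]
    rw [h, h3, map_zero]
  rw [hS, GS_of_three p hp x h3 hpB, theta_neg, theta_add, theta_expand, theta_ΔB,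
    PA_of_three h3, hpB]
  simp only [map_neg, map_one, one_mul]
  linear_combination (-(ΔB B)) * h3'

theorem kS_of_three (h3 : (3 : B) = 0) (hpB : (p : B) = -1) :
    kS p hp (-1 : B) (-1 : B) x = -expand p hp (ΔB B) := by
  have h3' : (3 : B⟦X⟧) = 0 := by
    have h : (3 : B⟦X⟧) = C (3 : B) := by rw [map_ofNat]
    rw [h, h3, map_zero]
  rw [kS, GS_of_three p hp x h3 hpB, theta_neg, theta_add, theta_expand, theta_ΔB,
    PA_of_three h3, hpB]
  simp only [map_neg, map_one, one_mul, neg_neg, mul_neg, neg_mul]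
  linear_combination (expand p hp (ΔB B)) * h3'

end CharThree

end

end Fermat.Agent.S16.G3Formal
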