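import Mathlib
import Fermat.Agent.S24.JQExpansion

/-!
# S16 block `L1.sturmModJ` (helper90): the level-one Sturm bound for an arbitrary additive
subgroup `J ≤ ℂ` ("Victor Miller basis" argument).

If `f` is a modular form of weight `k` for `SL(2, ℤ)` and the `q`-expansion coefficients
`a_n(f)` lie in an additive subgroup `J` of `ℂ` for all `n ≤ k / 12`, then **all** coefficients
lie in `J`.

* `J = 0`: the classical Sturm bound; `J = ℤ`: integrality of forms with integral head;
* `J = ℓ^e ℤ_(ℓ)` (as an additive subgroup of `ℂ`): Sturm's theorem mod `ℓ^e`.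

Main exports (namespace `Fermat.Agent.S16.SturmModJ`):
* `coeff_intMul_mem`, `coeff_intMul_mem_all` : multiplying by an integral power series preserves
  "the first `N` coefficients lie in `J`";
* `qExpansion_E6 : qExpansion 1 E₆ = eisenstein6.map (Int.castRingHom ℂ)`;
* `exists_intForm` : for even `k ≠ 2` there is a level-one form of weight `k` whose `q`-expansion
  is integral with constant term `1`;
* `coeff_mem_nat`, `coeff_mem` : the Sturm bound for `J`;
* `coeff_mem_of_lt` : variant with `12 * n ≤ k`.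
-/

set_option autoImplicit false

namespace Fermat.Agent.S16.SturmModJ

open UpperHalfPlane ModularForm ModularFormClass MatrixGroups EisensteinSeries

noncomputable section

/-- Multiplying by an integral power series preserves "the first `N` coefficients lie in `J`". -/
lemma coeff_intMul_mem (J : AddSubgroup ℂ) (P : PowerSeries ℤ) (g : PowerSeries ℂ) (N : ℕ)
    (h : ∀ n < N, g.coeff n ∈ J) :
    ∀ n < N, (P.map (Int.castRingHom ℂ) * g).coeff n ∈ J := by
  intro n hn
  rw [PowerSeries.coeff_mul]
  refine J.sum_mem fun x hx => ?_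
  have hx2 : x.2 ≤ n := by
    have := Finset.HasAntidiagonal.mem_antidiagonal.mp hx
    omega
  rw [PowerSeries.coeff_map, eq_intCast, ← zsmul_eq_mul]
  exact J.zsmul_mem (h _ (lt_of_le_of_lt hx2 hn)) _

lemma coeff_intMul_mem_all (J : AddSubgroup ℂ) (P : PowerSeries ℤ) (g : PowerSeries ℂ)
    (h : ∀ n, g.coeff n ∈ J) :
    ∀ n, (P.map (Int.castRingHom ℂ) * g).coeff n ∈ J := fun n =>
  coeff_intMul_mem J P g (n + 1) (fun m _ => h m) n (Nat.lt_succ_self n)

/-- The integral `q`-expansion of `E₆`. -/
def eisenstein6 : PowerSeries ℤ :=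
  PowerSeries.mk fun n => if n = 0 then 1 else -504 * ∑ d ∈ n.divisors, (d : ℤ) ^ 5

@[simp]
theorem constantCoeff_eisenstein6 : PowerSeries.constantCoeff eisenstein6 = 1 := by
  rw [← PowerSeries.coeff_zero_eq_constantCoeff]
  simp [eisenstein6]

theorem qExpansion_E6 :
    qExpansion 1 E₆ = eisenstein6.map (Int.castRingHom ℂ) := by
  ext m
  rw [EisensteinSeries.E_qExpansion_coeff (by norm_num) (by decide) m]
  simp only [eisenstein6, PowerSeries.coeff_map, PowerSeries.coeff_mk]
  split_ifs with h
  · simp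
  · have hb : bernoulli 6 = 1 / 42 := by decide +kernel
    rw [hb]
    simp [ArithmeticFunction.sigma_apply]
    norm_num

/-- For even `k ≠ 2` there is a level-one modular form of weight `k` with integral `q`-expansion
and constant term `1` (a monomial `E₄^a E₆^b`). -/
theorem exists_intForm : ∀ k : ℕ, Even k → k ≠ 2 →
    ∃ (e : ModularForm 𝒮ℒ (k : ℤ)) (P : PowerSeries ℤ),
      PowerSeries.constantCoeff P = 1 ∧ qExpansion 1 e = P.map (Int.castRingHom ℂ) := by
  intro k
  induction k using Nat.strong_induction_on with | _ k ih =>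
  intro hk hk2
  rcases Nat.lt_or_ge k 8 with h8 | h8
  · have hmem : k = 0 ∨ k = 4 ∨ k = 6 := by
      rcases hk with ⟨r, hr⟩
      omega
    rcases hmem with rfl | rfl | rfl
    · refine ⟨ModularForm.mcast (by norm_num) (1 : ModularForm 𝒮ℒ 0), 1, by simp, ?_⟩
      rw [ModularForm.qExpansion_mcast, ModularForm.qExpansion_one]
      simp
    · refine ⟨ModularForm.mcast (by norm_num) E₄, ModularCurve.eisenstein4, by simp, ?_⟩
      rw [ModularForm.qExpansion_mcast]
      exact Fermat.Agent.S24.JQExpansion.qExpansion_E4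
    · refine ⟨ModularForm.mcast (by norm_num) E₆, eisenstein6, by simp, ?_⟩
      rw [ModularForm.qExpansion_mcast]
      exact qExpansion_E6
  · obtain ⟨e', P', hP', he'⟩ := ih (k - 4) (by omega)
      (by rcases hk with ⟨r, hr⟩; exact ⟨r - 2, by omega⟩) (by omega)
    refine ⟨ModularForm.mcast (by omega) (e'.mul E₄), P' * ModularCurve.eisenstein4, by simp [hP'],
      ?_⟩
    rw [ModularForm.qExpansion_mcast,
      ModularForm.qExpansion_mul one_pos one_mem_strictPeriods_SL, he',
      Fermat.Agent.S24.JQExpansion.qExpansion_E4, map_mul]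

/-- **Level-one Sturm bound for an additive subgroup `J ≤ ℂ`** (natural weight). -/
theorem coeff_mem_nat (J : AddSubgroup ℂ) : ∀ (k : ℕ) (f : ModularForm 𝒮ℒ (k : ℤ)),
    (∀ n ≤ k / 12, (qExpansion 1 f).coeff n ∈ J) → ∀ n, (qExpansion 1 f).coeff n ∈ J := by
  intro k
  induction k using Nat.strong_induction_on with | _ k ih =>
  intro f hf
  have hzero : ∀ f' : ModularForm 𝒮ℒ (k : ℤ), f' = 0 → ∀ n, (qExpansion 1 f').coeff n ∈ J := by
    intro f' h n
    subst h
    rw [FunLike.coe_zero, qExpansion_zero]
    simp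
  rcases Nat.even_or_odd k with hk | hk
  swap
  · exact hzero f (levelOne_odd_weight_eq_zero (by exact_mod_cast hk) f)
  by_cases hk2 : k = 2
  · subst hk2
    exact hzero f (rank_zero_iff_forall_zero.mp
      (by simpa using levelOne_weight_two_rank_zero) f)
  obtain ⟨e, P, hP0, hPe⟩ := exists_intForm k hk hk2
  set a0 := (qExpansion 1 f).coeff 0 with ha0def
  have ha0 : a0 ∈ J := hf 0 (Nat.zero_le _)
  set g : ModularForm 𝒮ℒ (k : ℤ) := f - a0 • e with hgdef
  have hg : qExpansion 1 g = qExpansion 1 f - a0 • P.map (Int.castRingHom ℂ) := by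
    rw [hgdef, FunLike.coe_sub,
      ModularForm.qExpansion_sub one_pos one_mem_strictPeriods_SL, FunLike.coe_smul,
      ModularForm.qExpansion_smul one_pos one_mem_strictPeriods_SL, hPe]
  have hPJ : ∀ n, (a0 • P.map (Int.castRingHom ℂ)).coeff n ∈ J := by
    intro n
    rw [PowerSeries.coeff_smul, PowerSeries.coeff_map, eq_intCast, smul_eq_mul, mul_comm,
      ← zsmul_eq_mul]
    exact J.zsmul_mem ha0 _
  have hg0 : (qExpansion 1 g).coeff 0 = 0 := by
    have hP0' : (PowerSeries.coeff 0) P = 1 := by
      rw [PowerSeries.coeff_zero_eq_constantCoeff_apply, hP0]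
    rw [hg, map_sub, PowerSeries.coeff_smul, PowerSeries.coeff_map, hP0']
    simp [ha0def]
  have hfac := qExpansion_eq_qExpansion_discriminant_mul g hg0
  set h := CuspForm.discriminantEquiv (toCuspForm g hg0) with hhdef
  -- the coefficients of `g` up to `k / 12` lie in `J`
  have hgJ : ∀ n < k / 12 + 1, (qExpansion 1 g).coeff n ∈ J := by
    intro n hn
    rw [hg, map_sub]
    exact J.sub_mem (hf n (by omega)) (hPJ n)
  -- `qExpansion h = etaUnitInv * (qExpansion g / X)`
  have hUinv : (ModularCurve.dedekindEtaUnitInv.map (Int.castRingHom ℂ)) *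
      (ModularCurve.dedekindEtaUnit.map (Int.castRingHom ℂ)) = 1 := by
    rw [← map_mul, mul_comm, ModularCurve.dedekindEtaUnit_mul_inv, map_one]
  have hXh : PowerSeries.X * qExpansion 1 h =
      ModularCurve.dedekindEtaUnitInv.map (Int.castRingHom ℂ) * qExpansion 1 g := by
    rw [hfac, Fermat.Agent.S24.JQExpansion.qExpansion_discriminant]
    linear_combination (-(PowerSeries.X * qExpansion 1 h)) * hUinv
  have hhJ : ∀ n, (qExpansion 1 h).coeff n ∈ J := by
    rcases Nat.lt_or_ge k 12 with hk12 | hk12
    · have h0 : (h : ℍ → ℂ) = 0 := levelOne_neg_weight_eq_zero (by omega) h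
      intro n
      rw [h0, qExpansion_zero]
      simp
    · have hcast : (k : ℤ) - 12 = ((k - 12 : ℕ) : ℤ) := by omega
      have key := ih (k - 12) (by omega) (ModularForm.mcast hcast h) ?_
      · simpa using key
      · intro n hn
        rw [ModularForm.qExpansion_mcast]
        have h1 : (qExpansion 1 h).coeff n = (PowerSeries.X * qExpansion 1 h).coeff (n + 1) := by
          rw [PowerSeries.coeff_succ_X_mul]
        rw [h1, hXh]
        exact coeff_intMul_mem J _ _ (k / 12 + 1) hgJ (n + 1) (by omega)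
  -- conclude
  intro n
  have hfg : qExpansion 1 f = qExpansion 1 g + a0 • P.map (Int.castRingHom ℂ) := by
    rw [hg]; ring
  rw [hfg, map_add]
  refine J.add_mem ?_ (hPJ n)
  have hX : (PowerSeries.X : PowerSeries ℂ) =
      (PowerSeries.X : PowerSeries ℤ).map (Int.castRingHom ℂ) := by simp
  rw [hfac, Fermat.Agent.S24.JQExpansion.qExpansion_discriminant, hX, ← map_mul]
  exact coeff_intMul_mem_all J _ _ hhJ n

/-- **Level-one Sturm bound for an additive subgroup `J ≤ ℂ`**: if the `q`-expansion
coefficients `a_n(f)`, `n ≤ k / 12`, of a level-one modular form of weight `k` lie in `J`, then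
all coefficients lie in `J`. -/
theorem coeff_mem (J : AddSubgroup ℂ) {k : ℤ} (f : ModularForm 𝒮ℒ k)
    (hf : ∀ n ≤ k.toNat / 12, (qExpansion 1 f).coeff n ∈ J) :
    ∀ n, (qExpansion 1 f).coeff n ∈ J := by
  rcases lt_or_ge k 0 with hk | hk
  · have h0 : (f : ℍ → ℂ) = 0 := levelOne_neg_weight_eq_zero hk f
    intro n
    rw [h0, qExpansion_zero]
    simp
  · lift k to ℕ using hk
    exact coeff_mem_nat J k f (by simpa using hf)

/-- Variant: it suffices to control the coefficients `a_n` with `12 * n ≤ k`. -/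
theorem coeff_mem_of_mul_le (J : AddSubgroup ℂ) {k : ℤ} (f : ModularForm 𝒮ℒ k)
    (hf : ∀ n : ℕ, 12 * (n : ℤ) ≤ k → (qExpansion 1 f).coeff n ∈ J) :
    ∀ n, (qExpansion 1 f).coeff n ∈ J := by
  rcases lt_or_ge k 0 with hk | hk
  · have h0 : (f : ℍ → ℂ) = 0 := levelOne_neg_weight_eq_zero hk f
    intro n
    rw [h0, qExpansion_zero]
    simp
  · refine coeff_mem J f fun n hn => hf n ?_
    have h1 : 12 * n ≤ k.toNat := by omega
    omega

/-- Contrapositive form used for the end contradictions: a level-one form of weight `k` cannot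
have all coefficients `a_n`, `12 * n ≤ k`, in `J` and some coefficient outside `J`. -/
theorem exists_small_coeff_not_mem (J : AddSubgroup ℂ) {k : ℤ} (f : ModularForm 𝒮ℒ k) {m : ℕ}
    (hm : (qExpansion 1 f).coeff m ∉ J) :
    ∃ n : ℕ, 12 * (n : ℤ) ≤ k ∧ (qExpansion 1 f).coeff n ∉ J := by
  by_contra hcon
  push Not at hcon
  exact hm (coeff_mem_of_mul_le J f hcon m)

end

end Fermat.Agent.S16.SturmModJ
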