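import Mathlib
import Fermat.Agent.S16.G23Ring
import Fermat.Agent.S16.G3Formal
import Fermat.Agent.S16.NormLevelOneAlg
import Fermat.Agent.S16.SturmModJ

/-!
# S16 / G23 (helper90): the end contradiction "all conjugates are `≡ Δ` mod `ℓ`"

`false_of_conj_delta`: let `H ∈ M_k(Γ₀(p))`, `k < 12`.  If the `q`-expansion of `H` and the
`q^(1/p)`-expansion of `H ∣[k] S` have coefficients in `IntL ℓ` and reduce to `Δ(q)` resp.
`Δ(v^p)` modulo `ℓ`, then `False`: the norm of `H` to level one is `≡ Δ^(p+1)` modulo `ℓ`, of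
weight `k (p + 1) < 12 (p + 1)`, contradicting the level-one Sturm bound modulo `ℓ · IntL ℓ`.
-/

set_option autoImplicit false

namespace Fermat.Agent.S16.G23End

open UpperHalfPlane ModularForm MatrixGroups CongruenceSubgroup PowerSeries
open Fermat.Agent.S16.G23Ring Fermat.Agent.S16.G3Formal Fermat.Agent.S16.DivisorCongr
open Fermat.Agent.S16.NormLevelOne Fermat.Agent.S16.NormLevelOneAlg

noncomputable section

/-! ### Top coefficient of `symModel` -/

section Top

variable {R : Type*} [CommRing R] (p : ℕ) [hp : Fact p.Prime]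

theorem natDegree_linear_le (a : R⟦X⟧) :
    (1 + Polynomial.C a * Polynomial.X : Polynomial R⟦X⟧).natDegree ≤ 1 := by
  refine (Polynomial.natDegree_add_le _ _).trans ?_
  rw [Polynomial.natDegree_one]
  exact max_le (Nat.zero_le _)
    ((Polynomial.natDegree_C_mul_le a Polynomial.X).trans Polynomial.natDegree_X_le)

theorem coeff_one_linear (a : R⟦X⟧) :
    (1 + Polynomial.C a * Polynomial.X : Polynomial R⟦X⟧).coeff 1 = a := by
  simp [Polynomial.coeff_one]

theorem coeff_top_symModel (ζR : R) (A G : R⟦X⟧) :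
    (symModel p ζR A G).coeff (p + 1) =
      expand p hp.out.ne_zero A * ∏ b ∈ Finset.range p, rescale (ζR ^ b) G := by
  unfold symModel
  have h1 : ((∏ b ∈ Finset.range p,
      (1 + Polynomial.C (rescale (ζR ^ b) G) * Polynomial.X : Polynomial R⟦X⟧))).natDegree ≤ p := by
    refine (Polynomial.natDegree_prod_le _ _).trans ?_
    calc ∑ i ∈ Finset.range p, (1 + Polynomial.C (rescale (ζR ^ i) G) * Polynomial.X :
            Polynomial R⟦X⟧).natDegree
        ≤ ∑ _i ∈ Finset.range p, 1 := Finset.sum_le_sum fun i _ => natDegree_linear_le _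
      _ = p := by simp
  rw [add_comm p 1, Polynomial.coeff_mul_add_eq_of_natDegree_le (natDegree_linear_le _) h1,
    coeff_one_linear]
  congr 1
  have h2 := Polynomial.coeff_prod_of_natDegree_le (s := Finset.range p)
    (fun b => (1 + Polynomial.C (rescale (ζR ^ b) G) * Polynomial.X : Polynomial R⟦X⟧)) 1
    (fun b _ => natDegree_linear_le _)
  rw [Finset.card_range, mul_one] at h2
  rw [h2]
  exact Finset.prod_congr rfl fun b _ => coeff_one_linear _

theorem rescale_expand_of_pow_eq_one (a : R) (ha : a ^ p = 1) (f : R⟦X⟧) :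
    rescale a (expand p hp.out.ne_zero f) = expand p hp.out.ne_zero f := by
  ext n
  rw [coeff_rescale, coeff_expand]
  split_ifs with h
  · obtain ⟨m, rfl⟩ := h
    rw [pow_mul, ha, one_pow, one_mul]
  · rw [mul_zero]

theorem expand_injective : Function.Injective (expand p hp.out.ne_zero : R⟦X⟧ → R⟦X⟧) := by
  intro f g h
  ext n
  have := congrArg (coeff (p * n)) h
  rwa [coeff_expand_mul, coeff_expand_mul] at this

end Top

/-! ### `Δ^(p+1)` -/

section DeltaPow

variable (R : Type*) [CommRing R]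

theorem ΔB_eq : ΔB R = X * PowerSeries.map (Int.castRingHom R) ModularCurve.dedekindEtaUnit := by
  rw [ΔB, Δq, map_mul, map_X]

theorem coeff_ΔB_pow_of_lt (m n : ℕ) (h : n < m) : coeff n ((ΔB R) ^ m) = 0 := by
  rw [ΔB_eq, mul_pow, coeff_X_pow_mul', if_neg (by omega)]

theorem coeff_ΔB_pow_self (m : ℕ) : coeff m ((ΔB R) ^ m) = 1 := by
  rw [ΔB_eq, mul_pow, coeff_X_pow_mul', if_pos le_rfl, Nat.sub_self,
    coeff_zero_eq_constantCoeff_apply, map_pow]
  have : constantCoeff (PowerSeries.map (Int.castRingHom R) ModularCurve.dedekindEtaUnit) = 1 := by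
    rw [← coeff_zero_eq_constantCoeff_apply, coeff_map, coeff_zero_eq_constantCoeff_apply,
      ModularCurve.constantCoeff_dedekindEtaUnit, map_one]
  rw [this, one_pow]

end DeltaPow

/-! ### The end contradiction -/

variable (ℓ : ℕ) [Fact ℓ.Prime] (p : ℕ) [hp : Fact p.Prime]

/-- The ideal `(ℓ)` of `IntL ℓ`. -/
abbrev Iℓ : Ideal (IntL ℓ) := Ideal.span {(ℓ : IntL ℓ)}

/-- The residue ring `IntL ℓ / ℓ`. -/
abbrev κ : Type := (IntL ℓ) ⧸ Iℓ ℓ

/-- Reduction of power series modulo `ℓ`. -/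
abbrev redℓ : (IntL ℓ)⟦X⟧ →+* (κ ℓ)⟦X⟧ := PowerSeries.map (Ideal.Quotient.mk (Iℓ ℓ))

/-- Inclusion of power series. -/
abbrev incl : (IntL ℓ)⟦X⟧ →+* ℂ⟦X⟧ := PowerSeries.map (IntL ℓ).subtype

theorem natCast_ℓ_eq_zero : ((ℓ : ℕ) : κ ℓ) = 0 := by
  have : ((ℓ : IntL ℓ)) ∈ Iℓ ℓ := Ideal.subset_span rfl
  have h := Ideal.Quotient.eq_zero_iff_mem.mpr this
  simpa using h

theorem coeff_mem_JL_of_red_eq {a b : (IntL ℓ)⟦X⟧} (h : redℓ ℓ a = redℓ ℓ b) (n : ℕ) :
    coeff n (incl ℓ a) - coeff n (incl ℓ b) ∈ JL ℓ := by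
  have h1 := congrArg (coeff n) h
  rw [coeff_map, coeff_map, Ideal.Quotient.eq, Ideal.mem_span_singleton'] at h1
  obtain ⟨r, hr⟩ := h1
  refine ⟨(r : ℂ), r.2, ?_⟩
  rw [coeff_map, coeff_map]
  have := congrArg (IntL ℓ).subtype hr
  simp only [map_mul, map_sub, map_natCast, Subring.coe_subtype] at this ⊢
  rw [← this]
  ring

/-- The root of unity `ζ_p` is in `IntL ℓ`. -/
theorem zeta_mem : zeta p ∈ IntL ℓ := by
  apply mem_of_isIntegral
  have h1 : zeta p ^ p = 1 := by
    unfold zeta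
    rw [← Complex.exp_nat_mul]
    have hp0 : (p : ℂ) ≠ 0 := by exact_mod_cast hp.out.ne_zero
    rw [show (p : ℂ) * (2 * Real.pi * Complex.I / p) = 2 * Real.pi * Complex.I by field_simp]
    exact Complex.exp_two_pi_mul_I
  exact IsIntegral.of_pow hp.out.pos (h1 ▸ isIntegral_one)

theorem zeta_pow (p : ℕ) [hp : Fact p.Prime] : zeta p ^ p = 1 := by
  unfold zeta
  rw [← Complex.exp_nat_mul]
  have hp0 : (p : ℂ) ≠ 0 := by exact_mod_cast hp.out.ne_zero
  rw [show (p : ℂ) * (2 * Real.pi * Complex.I / p) = 2 * Real.pi * Complex.I by field_simp]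
  exact Complex.exp_two_pi_mul_I

/-- **End contradiction.** -/
theorem false_of_conj_delta {k : ℤ} (hk : k < 12)
    (H : ModularForm ((Gamma0 p : Subgroup SL(2, ℤ)) : Subgroup (GL (Fin 2) ℝ)) k)
    (hA gA : (IntL ℓ)⟦X⟧)
    (h1 : incl ℓ hA = qExpansion (1 : ℝ) (H : ℍ → ℂ))
    (h2 : incl ℓ gA = qExpansion (p : ℝ) ((H : ℍ → ℂ) ∣[k] ModularGroup.S))
    (r1 : redℓ ℓ hA = ΔB (κ ℓ))
    (r2 : redℓ ℓ gA = expand p hp.out.ne_zero (ΔB (κ ℓ))) : False := by
  have hp0 := hp.out.ne_zero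
  have hι : Function.Injective ((IntL ℓ).subtype) := Subtype.val_injective
  set ζA : IntL ℓ := ⟨zeta p, zeta_mem ℓ p⟩ with hζA
  have hζ : (IntL ℓ).subtype ζA = zeta p := rfl
  have hζp : ζA ^ p = 1 := by
    apply hι
    rw [map_pow, hζ, zeta_pow, map_one]
  obtain ⟨hν1, hν2⟩ := esymmSeries_map p H ζA hA gA hι hζ h1 h2 (p + 1)
  set ν := esymmSeries p ζA hA gA (p + 1) with hν
  -- reduction of `ν`
  have hred : redℓ ℓ ν = (ΔB (κ ℓ)) ^ (p + 1) := by
    apply expand_injective p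
    rw [← map_expand, hν2, coeff_top_symModel, map_mul, map_prod, map_expand, r1, map_pow]
    have hb : ∀ b ∈ Finset.range p, redℓ ℓ (rescale (ζA ^ b) gA) =
        expand p hp0 (ΔB (κ ℓ)) := by
      intro b _
      rw [← rescale_map, r2, rescale_expand_of_pow_eq_one]
      rw [← map_pow, ← pow_mul, mul_comm, pow_mul, hζp, one_pow, map_one]
    rw [Finset.prod_congr rfl hb, Finset.prod_const, Finset.card_range, pow_succ']
  have hred' : redℓ ℓ ν = redℓ ℓ ((ΔB (IntL ℓ)) ^ (p + 1)) := by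
    rw [hred, map_pow, map_ΔB]
  have hcoef := coeff_mem_JL_of_red_eq ℓ hred'
  rw [hν1] at hcoef
  -- the norm form
  set N := esymmForm p H (p + 1) with hN
  have hsmall : ∀ n : ℕ, 12 * (n : ℤ) ≤ k * ((p + 1 : ℕ) : ℤ) →
      (qExpansion 1 N).coeff n ∈ JL ℓ := by
    intro n hn
    have hlt : n < p + 1 := by
      by_contra hcon
      push Not at hcon
      have h3 : ((p + 1 : ℕ) : ℤ) ≤ (n : ℤ) := by exact_mod_cast hcon
      have h4 : (0 : ℤ) < ((p + 1 : ℕ) : ℤ) := by positivity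
      nlinarith
    have := hcoef n
    rw [coeff_map, coeff_ΔB_pow_of_lt _ _ _ hlt, map_zero, sub_zero] at this
    exact this
  have hall := Fermat.Agent.S16.SturmModJ.coeff_mem_of_mul_le (JL ℓ) N hsmall (p + 1)
  have htop := hcoef (p + 1)
  rw [coeff_map (IntL ℓ).subtype, coeff_ΔB_pow_self, map_one] at htop
  have : (1 : ℂ) ∈ JL ℓ := by
    have := (JL ℓ).sub_mem hall htop
    simpa using this
  exact one_not_mem_JL ℓ this

end

end Fermat.Agent.S16.G23End
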