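import Mathlib
import Fermat.Prelude.Thm_CongruenceSubgroup_one_mem_strictPeriods_Gamma0
import Fermat.Agent.S24.Hermite

/-!
# The weight-2 Eisenstein series of level `N` as a Mathlib modular form (S16)

`E2lvl N : ModularForm Γ₀(N) 2`, `E2lvl N z = N * E₂(N z) - E₂(z)`, built from Mathlib's
quasi-modular `EisensteinSeries.E2` (`E2_slash_action`, `E2_mdifferentiable`,
`hasSum_qExpansion_E2`), together with its `q`-expansion:
`a₀ = N - 1`, `aₙ = 24 (σ(n) - N σ(n / N))` (second term only when `N ∣ n`).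
-/

set_option autoImplicit false

open UpperHalfPlane ModularForm EisensteinSeries MatrixGroups CongruenceSubgroup Filter
open scoped Manifold ArithmeticFunction.sigma

namespace Fermat.Agent.S16.E2Level

local notation "𝕢" => Function.Periodic.qParam

/-- `Γ₀(N)` as a subgroup of `GL(2, ℝ)`. -/
abbrev G0 (N : ℕ) : Subgroup (GL (Fin 2) ℝ) :=
  ((Gamma0 N : Subgroup SL(2, ℤ)) : Subgroup (GL (Fin 2) ℝ))

/-- The point `N z` of the upper half plane. -/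
def scaleN (N : ℕ) [NeZero N] (z : ℍ) : ℍ :=
  ⟨(N : ℂ) * (z : ℂ), by
    have h1 : (0 : ℝ) < N := by exact_mod_cast Nat.pos_of_ne_zero (NeZero.ne N)
    have h2 : ((N : ℂ) * (z : ℂ)).im = (N : ℝ) * z.im := by simp
    rw [h2]
    exact mul_pos h1 z.im_pos⟩

@[simp] theorem coe_scaleN (N : ℕ) [NeZero N] (z : ℍ) :
    ((scaleN N z : ℍ) : ℂ) = (N : ℂ) * (z : ℂ) := rfl

theorem im_scaleN (N : ℕ) [NeZero N] (z : ℍ) : (scaleN N z).im = (N : ℝ) * z.im := by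
  change ((N : ℂ) * (z : ℂ)).im = _
  simp

/-- The function `z ↦ N * E₂(N z) - E₂(z)`. -/
noncomputable def fE (N : ℕ) [NeZero N] : ℍ → ℂ := fun z => (N : ℂ) * E2 (scaleN N z) - E2 z

/-! ### `D2` is bounded at `i∞` -/

theorem denom_SL (γ : SL(2, ℤ)) (z : ℍ) :
    denom (γ : GL (Fin 2) ℝ) z = ((γ 1 0 : ℤ) : ℂ) * z + ((γ 1 1 : ℤ) : ℂ) := by
  simp [denom]

theorem norm_D2_le (γ : SL(2, ℤ)) (z : ℍ) (hz : 1 ≤ z.im) : ‖D2 γ z‖ ≤ 2 * Real.pi := by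
  unfold D2
  by_cases hc : (γ 1 0 : ℤ) = 0
  · simp [hc, Real.pi_pos.le]
  · have hc1 : (1 : ℝ) ≤ |((γ 1 0 : ℤ) : ℝ)| := by
      have : (1 : ℤ) ≤ |(γ 1 0 : ℤ)| := Int.one_le_abs hc
      exact_mod_cast this
    have hden : |((γ 1 0 : ℤ) : ℝ)| ≤ ‖denom (γ : GL (Fin 2) ℝ) z‖ := by
      have him : (denom (γ : GL (Fin 2) ℝ) z).im = ((γ 1 0 : ℤ) : ℝ) * z.im := by
        rw [denom_SL]
        simp
      calc |((γ 1 0 : ℤ) : ℝ)| ≤ |((γ 1 0 : ℤ) : ℝ)| * z.im := by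
            nlinarith [abs_nonneg ((γ 1 0 : ℤ) : ℝ)]
        _ = |(denom (γ : GL (Fin 2) ℝ) z).im| := by
            rw [him, abs_mul, abs_of_pos z.im_pos]
        _ ≤ ‖denom (γ : GL (Fin 2) ℝ) z‖ := Complex.abs_im_le_norm _
    have hpos : 0 < ‖denom (γ : GL (Fin 2) ℝ) z‖ := lt_of_lt_of_le (by linarith) hden
    rw [norm_div, div_le_iff₀ hpos]
    have hn : ‖2 * (Real.pi : ℂ) * Complex.I * ((γ 1 0 : ℤ) : ℂ)‖ =
        2 * Real.pi * |((γ 1 0 : ℤ) : ℝ)| := by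
      rw [norm_mul, norm_mul, norm_mul, Complex.norm_I, mul_one]
      simp [abs_of_pos Real.pi_pos]
    rw [hn]
    exact mul_le_mul_of_nonneg_left hden (by positivity)

theorem isBoundedAtImInfty_D2 (γ : SL(2, ℤ)) : IsBoundedAtImInfty (D2 γ) :=
  isBoundedAtImInfty_iff.mpr ⟨2 * Real.pi, 1, fun z hz => norm_D2_le γ z hz⟩

/-- `E₂ ∣[2] γ` is bounded at `i∞` for every `γ ∈ SL(2, ℤ)`. -/
theorem isBoundedAtImInfty_E2_slash (γ : SL(2, ℤ)) : IsBoundedAtImInfty (E2 ∣[(2 : ℤ)] γ) := by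
  rw [E2_slash_action]
  have h1 : IsBoundedAtImInfty ((1 / (2 * riemannZeta 2)) • D2 γ) :=
    Filter.BoundedAtFilter.smul _ (isBoundedAtImInfty_D2 γ)
  have h2 := Filter.BoundedAtFilter.add isBoundedAtImInfty_E2 (Filter.BoundedAtFilter.neg h1)
  rw [← sub_eq_add_neg] at h2
  exact h2

/-! ### Transformation under `Γ₀(N)` -/

theorem E2_smul (γ : SL(2, ℤ)) (z : ℍ) :
    E2 (γ • z) = denom (γ : GL (Fin 2) ℝ) z ^ 2 * (E2 z - (1 / (2 * riemannZeta 2)) * D2 γ z) := by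
  have h := congrFun (E2_slash_action γ) z
  rw [SL_slash_apply] at h
  have hd : denom (γ : GL (Fin 2) ℝ) z ≠ 0 := denom_ne_zero _ z
  simp only [Pi.sub_apply, Pi.smul_apply, smul_eq_mul] at h
  rw [← h]
  field_simp

theorem dvd_of_mem_Gamma0 {N : ℕ} {γ : SL(2, ℤ)} (hγ : γ ∈ Gamma0 N) : (N : ℤ) ∣ γ 1 0 :=
  (ZMod.intCast_zmod_eq_zero_iff_dvd _ _).mp (Gamma0_mem.mp hγ)

/-- `diag(N,1) γ diag(N,1)⁻¹` for `γ ∈ Γ₀(N)`. -/
def conjN (N : ℕ) [NeZero N] (γ : SL(2, ℤ)) (hγ : γ ∈ Gamma0 N) : SL(2, ℤ) :=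
  ⟨!![γ 0 0, (N : ℤ) * γ 0 1; γ 1 0 / (N : ℤ), γ 1 1], by
    obtain ⟨c, hc⟩ := dvd_of_mem_Gamma0 hγ
    have hd0 : (N : ℤ) ≠ 0 := by exact_mod_cast NeZero.ne N
    have hdet := γ.det_coe
    rw [Matrix.det_fin_two] at hdet
    rw [Matrix.det_fin_two_of, hc, Int.mul_ediv_cancel_left _ hd0]
    rw [hc] at hdet
    linarith⟩

variable (N : ℕ) [NeZero N] (γ : SL(2, ℤ)) (hγ : γ ∈ Gamma0 N)

theorem conjN_10 : ((conjN N γ hγ 1 0 : ℤ) : ℂ) * (N : ℂ) = ((γ 1 0 : ℤ) : ℂ) := by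
  obtain ⟨c, hc⟩ := dvd_of_mem_Gamma0 hγ
  have hd0 : (N : ℤ) ≠ 0 := by exact_mod_cast NeZero.ne N
  have : (conjN N γ hγ 1 0 : ℤ) = γ 1 0 / (N : ℤ) := rfl
  rw [this, hc, Int.mul_ediv_cancel_left _ hd0]
  push_cast
  ring

theorem conjN_11 : (conjN N γ hγ 1 1 : ℤ) = γ 1 1 := rfl
theorem conjN_00 : (conjN N γ hγ 0 0 : ℤ) = γ 0 0 := rfl
theorem conjN_01 : (conjN N γ hγ 0 1 : ℤ) = (N : ℤ) * γ 0 1 := rfl

theorem denom_conjN (z : ℍ) :
    denom (conjN N γ hγ : GL (Fin 2) ℝ) (scaleN N z) = denom (γ : GL (Fin 2) ℝ) z := by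
  rw [denom_SL, denom_SL, conjN_11, coe_scaleN, ← mul_assoc, conjN_10]

theorem D2_conjN (z : ℍ) : (N : ℂ) * D2 (conjN N γ hγ) (scaleN N z) = D2 γ z := by
  unfold D2
  rw [denom_conjN, ← conjN_10 N γ hγ]
  ring

theorem scaleN_smul (z : ℍ) : scaleN N (γ • z) = conjN N γ hγ • scaleN N z := by
  apply UpperHalfPlane.ext
  have hden : ((γ 1 0 : ℤ) : ℂ) * z + ((γ 1 1 : ℤ) : ℂ) ≠ 0 := by
    rw [← denom_SL]; exact denom_ne_zero _ z
  have hden' : ((conjN N γ hγ 1 0 : ℤ) : ℂ) * (scaleN N z : ℂ) + ((conjN N γ hγ 1 1 : ℤ) : ℂ) ≠ 0 := by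
    rw [← denom_SL]; exact denom_ne_zero _ _
  rw [coe_scaleN, UpperHalfPlane.coe_specialLinearGroup_apply,
    UpperHalfPlane.coe_specialLinearGroup_apply]
  simp only [algebraMap_int_eq, Int.coe_castRingHom, Complex.ofReal_intCast]
  rw [mul_div_assoc', div_eq_div_iff hden hden', conjN_11, conjN_00, conjN_01, coe_scaleN]
  rw [coe_scaleN, conjN_11] at hden'
  have h10 := conjN_10 N γ hγ
  push_cast
  linear_combination ((N : ℂ) * ((γ 0 0 : ℤ) : ℂ) * (z : ℂ) ^ 2 + (N : ℂ) * ((γ 0 1 : ℤ) : ℂ) * (z : ℂ)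
    ) * h10


/-! ### Holomorphy -/

/-- `diag(N, 1)` as an element of `GL(2, ℝ)`. -/
noncomputable def aN (N : ℕ) [NeZero N] : GL (Fin 2) ℝ :=
  Matrix.GeneralLinearGroup.mkOfDetNeZero !![(N : ℝ), 0; 0, 1]
    (by simp [Matrix.det_fin_two, NeZero.ne])

theorem val_aN (N : ℕ) [NeZero N] :
    ((aN N : GL (Fin 2) ℝ) : Matrix (Fin 2) (Fin 2) ℝ) = !![(N : ℝ), 0; 0, 1] := rfl

theorem det_aN (N : ℕ) [NeZero N] : ((aN N).det : ℝ) = N := by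
  rw [Matrix.GeneralLinearGroup.val_det_apply, val_aN, Matrix.det_fin_two_of]
  ring

theorem det_aN_pos (N : ℕ) [NeZero N] : 0 < ((aN N).det : ℝ) := by
  rw [det_aN]
  exact_mod_cast Nat.pos_of_ne_zero (NeZero.ne N)

theorem aN_smul (N : ℕ) [NeZero N] (z : ℍ) : aN N • z = scaleN N z := by
  apply UpperHalfPlane.ext
  rw [UpperHalfPlane.coe_smul_of_det_pos (det_aN_pos N)]
  simp [UpperHalfPlane.num, UpperHalfPlane.denom, val_aN]

theorem E2_slash_aN (N : ℕ) [NeZero N] :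
    E2 ∣[(2 : ℤ)] aN N = fun z => (N : ℂ) * E2 (scaleN N z) := by
  funext z
  have hσ : UpperHalfPlane.σ (aN N) = .refl ℝ ℂ := by
    rw [UpperHalfPlane.σ, if_pos (det_aN_pos N)]
  have hden : UpperHalfPlane.denom (aN N) z = 1 := by
    simp [UpperHalfPlane.denom, val_aN]
  rw [ModularForm.slash_apply, hσ, det_aN, hden, aN_smul]
  simp only [ContinuousAlgEquiv.refl_apply, Nat.abs_cast, Complex.ofReal_natCast, one_zpow,
    mul_one]
  norm_num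
  ring

theorem mdifferentiable_fE (N : ℕ) [NeZero N] : MDiff (fE N) := by
  have h1 : MDiff (E2 ∣[(2 : ℤ)] aN N) := E2_mdifferentiable.slash 2 (aN N)
  rw [E2_slash_aN] at h1
  exact h1.sub E2_mdifferentiable


/-! ### Hermite decomposition in `GL(2, ℝ)` -/

/-- An upper triangular real matrix `!![a, b; 0, e]` with `a e ≠ 0` as an element of `GL(2, ℝ)`. -/
noncomputable def upper (a b e : ℝ) (h : a * e ≠ 0) : GL (Fin 2) ℝ :=
  Matrix.GeneralLinearGroup.mkOfDetNeZero !![a, b; 0, e]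
    (by simpa [Matrix.det_fin_two] using h)

theorem val_upper (a b e : ℝ) (h : a * e ≠ 0) :
    ((upper a b e h : GL (Fin 2) ℝ) : Matrix (Fin 2) (Fin 2) ℝ) = !![a, b; 0, e] := rfl

theorem upper_10 (a b e : ℝ) (h : a * e ≠ 0) : (upper a b e h : GL (Fin 2) ℝ) 1 0 = 0 := by
  rw [val_upper]
  simp

theorem aN_mul_mapGL (N : ℕ) [NeZero N] (γ γ' : SL(2, ℤ)) (a b e : ℤ) (h : ((a : ℝ) * (e : ℝ)) ≠ 0)
    (hmat : !![(N : ℤ), 0; 0, 1] * (γ : Matrix (Fin 2) (Fin 2) ℤ)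
        = (γ' : Matrix (Fin 2) (Fin 2) ℤ) * !![a, b; 0, e]) :
    aN N * Matrix.SpecialLinearGroup.mapGL ℝ γ =
      Matrix.SpecialLinearGroup.mapGL ℝ γ' * upper a b e h := by
  have h00 : (N : ℤ) * γ 0 0 = γ' 0 0 * a := by
    have := congrFun (congrFun hmat 0) 0
    simpa [Matrix.mul_apply, Fin.sum_univ_two] using this
  have h01 : (N : ℤ) * γ 0 1 = γ' 0 0 * b + γ' 0 1 * e := by
    have := congrFun (congrFun hmat 0) 1
    simpa [Matrix.mul_apply, Fin.sum_univ_two] using this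
  have h10 : (γ 1 0 : ℤ) = γ' 1 0 * a := by
    have := congrFun (congrFun hmat 1) 0
    simpa [Matrix.mul_apply, Fin.sum_univ_two] using this
  have h11 : (γ 1 1 : ℤ) = γ' 1 0 * b + γ' 1 1 * e := by
    have := congrFun (congrFun hmat 1) 1
    simpa [Matrix.mul_apply, Fin.sum_univ_two] using this
  have h00r : (N : ℝ) * (γ 0 0 : ℝ) = (γ' 0 0 : ℝ) * a := by exact_mod_cast congrArg (Int.cast : ℤ → ℝ) h00
  have h01r : (N : ℝ) * (γ 0 1 : ℝ) = (γ' 0 0 : ℝ) * b + (γ' 0 1 : ℝ) * e := by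
    exact_mod_cast congrArg (Int.cast : ℤ → ℝ) h01
  have h10r : ((γ 1 0 : ℤ) : ℝ) = (γ' 1 0 : ℝ) * a := by exact_mod_cast congrArg (Int.cast : ℤ → ℝ) h10
  have h11r : ((γ 1 1 : ℤ) : ℝ) = (γ' 1 0 : ℝ) * b + (γ' 1 1 : ℝ) * e := by
    exact_mod_cast congrArg (Int.cast : ℤ → ℝ) h11
  apply Units.ext
  rw [Units.val_mul, Units.val_mul, val_aN, val_upper]
  show !![(N : ℝ), 0; 0, 1] * (γ.val.map (algebraMap ℤ ℝ)) =
    (γ'.val.map (algebraMap ℤ ℝ)) * !![(a : ℝ), (b : ℝ); 0, (e : ℝ)]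
  ext i j
  fin_cases i <;> fin_cases j <;>
    simp [Matrix.mul_apply, Fin.sum_univ_two, h00r, h01r, h10r, h11r]


/-! ### The modular form -/

theorem fE_eq (N : ℕ) [NeZero N] : fE N = E2 ∣[(2 : ℤ)] aN N - E2 := by
  rw [E2_slash_aN]
  rfl

theorem slash_fE (N : ℕ) [NeZero N] (γ : SL(2, ℤ)) (hγ : γ ∈ Gamma0 N) :
    fE N ∣[(2 : ℤ)] γ = fE N := by
  funext z
  rw [SL_slash_apply]
  have hd : denom (γ : GL (Fin 2) ℝ) z ≠ 0 := denom_ne_zero _ z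
  unfold fE
  rw [scaleN_smul N γ hγ z, E2_smul, E2_smul, denom_conjN]
  have hD := D2_conjN N γ hγ z
  have : denom (γ : GL (Fin 2) ℝ) z ^ (-(2 : ℤ)) = (denom (γ : GL (Fin 2) ℝ) z ^ 2)⁻¹ := by
    rw [zpow_neg]; norm_cast
  rw [this, ← hD]
  field_simp
  ring

theorem isBoundedAtImInfty_fE_slash (N : ℕ) [NeZero N] (γ : SL(2, ℤ)) :
    IsBoundedAtImInfty (fE N ∣[(2 : ℤ)] γ) := by
  have hN : 0 < N := Nat.pos_of_ne_zero (NeZero.ne N)
  obtain ⟨γ', a, b, e, hae, ha, hb0, hbe, hmat⟩ := Fermat.Agent.S24.Hermite.exists_SL2_diag_mul N hN γ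
  have h : ((a : ℝ) * (e : ℝ)) ≠ 0 := by
    have : (a : ℝ) * (e : ℝ) = (N : ℝ) := by exact_mod_cast congrArg (Int.cast : ℤ → ℝ) hae
    rw [this]
    exact_mod_cast hN.ne'
  have hmul := aN_mul_mapGL N γ γ' a b e h hmat
  rw [fE_eq, sub_eq_add_neg, SlashAction.add_slash, SlashAction.neg_slash]
  have h1 : (E2 ∣[(2 : ℤ)] aN N) ∣[(2 : ℤ)] γ =
      (E2 ∣[(2 : ℤ)] γ') ∣[(2 : ℤ)] upper a b e h := by
    change (E2 ∣[(2 : ℤ)] aN N) ∣[(2 : ℤ)] (Matrix.SpecialLinearGroup.mapGL ℝ γ) = _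
    rw [← SlashAction.slash_mul, hmul, SlashAction.slash_mul]
    rfl
  rw [h1]
  have hb1 : IsBoundedAtImInfty ((E2 ∣[(2 : ℤ)] γ') ∣[(2 : ℤ)] upper a b e h) :=
    (isBoundedAtImInfty_E2_slash γ').slash 2 (upper_10 a b e h)
  exact Filter.BoundedAtFilter.add hb1 (Filter.BoundedAtFilter.neg (isBoundedAtImInfty_E2_slash γ))

theorem G0_le_SL (N : ℕ) : G0 N ≤ 𝒮ℒ := Subgroup.map_le_range _ _

theorem isBoundedAt_fE (N : ℕ) [NeZero N] {c : OnePoint ℝ} (hc : IsCusp c (G0 N)) :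
    c.IsBoundedAt (fE N) 2 := by
  have hc' : IsCusp c 𝒮ℒ := hc.mono (G0_le_SL N)
  rw [OnePoint.isBoundedAt_iff_exists_SL2Z hc']
  obtain ⟨γ, rfl⟩ := isCusp_SL2Z_iff'.mp hc'
  exact ⟨γ, rfl, isBoundedAtImInfty_fE_slash N γ⟩

/-- **The weight-2 Eisenstein series of level `N`**: `z ↦ N E₂(N z) - E₂(z)` as a modular form on
`Γ₀(N)`. -/
noncomputable def E2lvl (N : ℕ) [NeZero N] : ModularForm (G0 N) 2 where
  toFun := fE N
  slash_action_eq' := by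
    rintro g ⟨γ, hγ, rfl⟩
    exact slash_fE N γ hγ
  holo' := mdifferentiable_fE N
  bdd_at_cusps' := fun hc => isBoundedAt_fE N hc

theorem E2lvl_apply (N : ℕ) [NeZero N] (z : ℍ) :
    E2lvl N z = (N : ℂ) * E2 (scaleN N z) - E2 z := rfl

theorem E2lvl_apply' (N : ℕ) [NeZero N] (z w : ℍ) (hw : (w : ℂ) = (N : ℂ) * (z : ℂ)) :
    E2lvl N z = (N : ℂ) * E2 w - E2 z := by
  rw [E2lvl_apply]
  have : scaleN N z = w := UpperHalfPlane.ext (by rw [coe_scaleN, hw])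
  rw [this]


/-! ### The `q`-expansion -/

/-- The `q`-expansion coefficients of `E₂`. -/
noncomputable def aE2 (m : ℕ) : ℂ := if m = 0 then 1 else -24 * (σ 1 m : ℂ)

theorem hasSum_E2 (τ : ℍ) : HasSum (fun m : ℕ => aE2 m • 𝕢 1 τ ^ m) (E2 τ) := by
  simpa only [Function.Periodic.qParam, Complex.ofReal_one, div_one, aE2] using
    hasSum_qExpansion_E2 (z := τ)

theorem qParam_scaleN (N : ℕ) [NeZero N] (τ : ℍ) : 𝕢 1 (scaleN N τ) = 𝕢 1 τ ^ N := by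
  simp only [Function.Periodic.qParam, Complex.ofReal_one, div_one, coe_scaleN]
  rw [← Complex.exp_nat_mul]
  congr 1
  ring

/-- The `q`-expansion coefficients of `E2lvl N`. -/
noncomputable def cE (N : ℕ) (m : ℕ) : ℂ :=
  (if N ∣ m then (N : ℂ) * aE2 (m / N) else 0) - aE2 m

theorem hasSum_E2_scaleN (N : ℕ) [NeZero N] (τ : ℍ) :
    HasSum (fun m : ℕ => (if N ∣ m then aE2 (m / N) else 0) • 𝕢 1 τ ^ m) (E2 (scaleN N τ)) := by
  have hN : 0 < N := Nat.pos_of_ne_zero (NeZero.ne N)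
  have h1 := hasSum_E2 (scaleN N τ)
  rw [qParam_scaleN] at h1
  have hinj : Function.Injective (fun m : ℕ ↦ N * m) := fun a b hab ↦
    Nat.eq_of_mul_eq_mul_left hN hab
  rw [← hinj.hasSum_iff]
  · convert h1 using 2 with m
    simp [Nat.mul_div_cancel_left _ hN, pow_mul]
  · intro n hn
    have : ¬ N ∣ n := by
      rintro ⟨m, rfl⟩
      exact hn ⟨m, rfl⟩
    simp [this]

theorem hasSum_E2lvl (N : ℕ) [NeZero N] (τ : ℍ) :
    HasSum (fun m : ℕ => cE N m • 𝕢 1 τ ^ m) (E2lvl N τ) := by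
  rw [E2lvl_apply]
  have h1 := (hasSum_E2_scaleN N τ).mul_left (N : ℂ)
  have h2 := h1.sub (hasSum_E2 τ)
  have hfun : (fun m : ℕ => cE N m • 𝕢 1 τ ^ m) = fun m : ℕ =>
      (N : ℂ) * ((if N ∣ m then aE2 (m / N) else 0) • 𝕢 1 τ ^ m) - aE2 m • 𝕢 1 τ ^ m := by
    funext m
    unfold cE
    split_ifs <;> simp only [smul_eq_mul] <;> ring
  rw [hfun]
  exact h2

theorem qExpansion_E2lvl_coeff (N : ℕ) [NeZero N] (m : ℕ) :
    (qExpansion 1 (E2lvl N)).coeff m = cE N m :=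
  (ModularFormClass.qExpansion_coeff_unique (Γ := G0 N) (k := 2) (c := cE N) one_pos
    (CongruenceSubgroup.one_mem_strictPeriods_Gamma0 N) (f := E2lvl N)
    (fun τ => hasSum_E2lvl N τ) m).symm

theorem cE_zero (N : ℕ) : cE N 0 = (N : ℂ) - 1 := by
  simp [cE, aE2]

theorem cE_of_not_dvd (N : ℕ) {m : ℕ} (hm : m ≠ 0) (h : ¬ N ∣ m) :
    cE N m = 24 * (σ 1 m : ℂ) := by
  simp [cE, aE2, h, hm]

theorem cE_of_dvd (N : ℕ) [NeZero N] {m : ℕ} (hm : m ≠ 0) (h : N ∣ m) :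
    cE N m = 24 * ((σ 1 m : ℂ) - (N : ℂ) * (σ 1 (m / N) : ℂ)) := by
  have hN : 0 < N := Nat.pos_of_ne_zero (NeZero.ne N)
  have hmN : m / N ≠ 0 := by
    obtain ⟨k, rfl⟩ := h
    rw [Nat.mul_div_cancel_left _ hN]
    rintro rfl
    exact hm (by simp)
  simp [cE, aE2, h, hm, hmN]
  ring


end Fermat.Agent.S16.E2Level
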