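import Mathlib
import Fermat.Agent.S16.E2Level

/-!
# S16 (helper90): the Serre derivative and the substitution `z ↦ z / N`

Function-level lemmas used to transport the Serre derivative to the cusp `0` of `Γ₀(N)`:
if `ψ(z) = φ(z / N)` then

* `D ψ (z) = N⁻¹ * (D φ)(z / N)`;
* `E₂(z) = N⁻¹ * (E2lvl N (z / N) + E₂(z / N))`;
* `∂_k ψ (z) = N⁻¹ * ((∂_k φ)(z / N) - k/12 * E2lvl N (z / N) * φ(z / N))`.

So if `(G ∣[k] S)(z) = c * G'(z / N)` with `G'` a form on `Γ₀(N)`, then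
`((∂_k G) ∣[k+2] S)(z) = c * N⁻¹ * (∂_k G' - k/12 * E2lvl N * G')(z / N)`, where the function in
brackets is again a genuine modular form on `Γ₀(N)`.
-/

set_option autoImplicit false

namespace Fermat.Agent.S16.SerreScale

open UpperHalfPlane Complex EisensteinSeries Derivative
open scoped Manifold MatrixGroups ModularForm Topology Real

open Fermat.Agent.S16.E2Level

noncomputable section

/-- The point `z / N` of the upper half plane. -/
def divN (N : ℕ) [NeZero N] (z : ℍ) : ℍ :=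
  ⟨(z : ℂ) / (N : ℂ), by
    have h1 : (0 : ℝ) < N := by exact_mod_cast Nat.pos_of_ne_zero (NeZero.ne N)
    have h2 : ((z : ℂ) / (N : ℂ)).im = z.im / (N : ℝ) := by
      rw [show ((N : ℂ)) = (((N : ℝ)) : ℂ) by simp, Complex.div_ofReal_im]
      rfl
    rw [h2]
    exact div_pos z.im_pos h1⟩

@[simp] theorem coe_divN (N : ℕ) [NeZero N] (z : ℍ) :
    ((divN N z : ℍ) : ℂ) = (z : ℂ) / (N : ℂ) := rfl

theorem natCast_ne_zero' (N : ℕ) [NeZero N] : (N : ℂ) ≠ 0 := by
  exact_mod_cast NeZero.ne N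

@[simp] theorem scaleN_divN (N : ℕ) [NeZero N] (z : ℍ) : scaleN N (divN N z) = z := by
  apply UpperHalfPlane.ext
  rw [coe_scaleN, coe_divN]
  field_simp [natCast_ne_zero' N]

@[simp] theorem divN_scaleN (N : ℕ) [NeZero N] (z : ℍ) : divN N (scaleN N z) = z := by
  apply UpperHalfPlane.ext
  rw [coe_divN, coe_scaleN]
  field_simp [natCast_ne_zero' N]

/-- `D (φ(z / N)) = N⁻¹ * (D φ)(z / N)`. -/
theorem D_comp_divN (N : ℕ) [NeZero N] {φ : ℍ → ℂ} (hφ : MDiff φ) (z : ℍ) :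
    D (fun w => φ (divN N w)) z = (N : ℂ)⁻¹ * D φ (divN N z) := by
  have hN := natCast_ne_zero' N
  simp only [normalizedDerivOfComplex]
  have hcomp : ((fun w => φ (divN N w)) ∘ ofComplex) =ᶠ[𝓝 (z : ℂ)]
      fun w => (φ ∘ ofComplex) (w / (N : ℂ)) := by
    filter_upwards [isOpen_upperHalfPlaneSet.mem_nhds z.im_pos] with w hw
    have hw' : 0 < (w / (N : ℂ)).im := by
      have h1 : (0 : ℝ) < N := by exact_mod_cast Nat.pos_of_ne_zero (NeZero.ne N)
      rw [show ((N : ℂ)) = (((N : ℝ)) : ℂ) by simp, Complex.div_ofReal_im]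
      exact div_pos hw h1
    simp only [Function.comp_apply]
    congr 1
    apply UpperHalfPlane.ext
    rw [coe_divN, ofComplex_apply_of_im_pos hw, ofComplex_apply_of_im_pos hw']
  have hF : HasDerivAt (φ ∘ ofComplex) (deriv (φ ∘ ofComplex) ((z : ℂ) / (N : ℂ)))
      ((z : ℂ) / (N : ℂ)) := by
    have := (mdifferentiableAt_iff.mp (hφ (divN N z))).hasDerivAt
    simpa using this
  have hdiv : HasDerivAt (fun w : ℂ => w / (N : ℂ)) ((N : ℂ)⁻¹) (z : ℂ) := by
    simpa [div_eq_mul_inv] using (hasDerivAt_id (z : ℂ)).mul_const ((N : ℂ)⁻¹)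
  have hchain : HasDerivAt (fun w : ℂ => (φ ∘ ofComplex) (w / (N : ℂ)))
      (deriv (φ ∘ ofComplex) ((z : ℂ) / (N : ℂ)) * (N : ℂ)⁻¹) (z : ℂ) :=
    HasDerivAt.comp (z : ℂ) hF hdiv
  rw [(hchain.congr_of_eventuallyEq hcomp).deriv]
  simp only [coe_divN]
  ring

/-- `E₂(z) = N⁻¹ * (E2lvl N (z/N) + E₂(z/N))`. -/
theorem E2_eq_divN (N : ℕ) [NeZero N] (z : ℍ) :
    E2 z = (N : ℂ)⁻¹ * (E2lvl N (divN N z) + E2 (divN N z)) := by
  have hN := natCast_ne_zero' N
  rw [E2lvl_apply, scaleN_divN]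
  field_simp
  ring

/-- The Serre derivative of `z ↦ φ(z / N)`. -/
theorem serreDerivative_comp_divN (N : ℕ) [NeZero N] (k : ℂ) {φ : ℍ → ℂ} (hφ : MDiff φ)
    (z : ℍ) :
    serreDerivative k (fun w => φ (divN N w)) z =
      (N : ℂ)⁻¹ * (serreDerivative k φ (divN N z) -
        k * 12⁻¹ * E2lvl N (divN N z) * φ (divN N z)) := by
  rw [serreDerivative_apply, serreDerivative_apply, D_comp_divN N hφ z, E2_eq_divN N z]
  ring

end

end Fermat.Agent.S16.SerreScale
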