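import Mathlib
import Fermat.Agent.S16.EisBridge
import Fermat.Agent.S16.FrickeTrace
import Fermat.Agent.S16.SerreScale
import Fermat.Prelude.Thm_ModularFormClass_qCoeff_heckeU

/-!
# S16 / G23 (helper90): the Eisenstein series `E2lvl p` at the cusp `0`

* `sigmaPrime_mul_self` : `σ'(n p) = σ'(n)`;
* `heckeU_E2lvl` : `U_p (E2lvl p) = E2lvl p`;
* `E2lvl_slash_S` : `(E2lvl p ∣[2] S)(τ) = -(1/p) (E2lvl p)(τ/p)`;
* `slash_S_divN` : FrickeTrace's conjugate formula with `divN p τ = τ/p`.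
-/

set_option autoImplicit false

namespace Fermat.Agent.S16.G23Eis

open UpperHalfPlane ModularForm MatrixGroups CongruenceSubgroup
open Fermat.Agent.S16.E2Level Fermat.Agent.S16.EisBridge Fermat.Agent.S16.Interfaces
open Fermat.Agent.S16.FrickeTrace Fermat.Agent.S16.SerreScale
open Fermat.Agent.S28.ModPolyCoset

variable (p : ℕ) [hp : Fact p.Prime]

instance : NeZero p := ⟨hp.out.ne_zero⟩

theorem sigmaPrime_mul_self (n : ℕ) (hn : n ≠ 0) : sigmaPrime p (n * p) = sigmaPrime p n := by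
  unfold sigmaPrime
  apply Finset.sum_congr _ (fun _ _ => rfl)
  ext d
  simp only [Finset.mem_filter, Nat.mem_divisors]
  constructor
  · rintro ⟨⟨hd, _⟩, hpd⟩
    refine ⟨⟨?_, hn⟩, hpd⟩
    have hcop : Nat.Coprime d p := ((Nat.Prime.coprime_iff_not_dvd hp.out).mpr hpd).symm
    exact hcop.dvd_of_dvd_mul_right hd
  · rintro ⟨⟨hd, _⟩, hpd⟩
    exact ⟨⟨hd.mul_right p, mul_ne_zero hn hp.out.ne_zero⟩, hpd⟩

theorem cE_mul_self (n : ℕ) : cE p (n * p) = cE p n := by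
  rcases Nat.eq_zero_or_pos n with rfl | hn
  · simp
  · rw [cE_eq_sigmaPrime p (mul_ne_zero hn.ne' hp.out.ne_zero), cE_eq_sigmaPrime p hn.ne',
      sigmaPrime_mul_self p n hn.ne']

/-- `U_p (E2lvl p) = E2lvl p`. -/
theorem heckeUForm_E2lvl : heckeUForm p (E2lvl p) = E2lvl p := by
  have hΓ := CongruenceSubgroup.one_mem_strictPeriods_Gamma0 p
  rw [← sub_eq_zero, ← ModularForm.qExpansion_eq_zero_iff one_pos hΓ]
  ext n
  rw [FunLike.coe_sub, ModularForm.qExpansion_sub one_pos hΓ, map_sub, map_zero, sub_eq_zero,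
    coe_heckeUForm]
  have h := ModularFormClass.qCoeff_heckeU (E2lvl p) hΓ hp.out.ne_zero n
  rw [ModularFormClass.qCoeff, coeffHeckeU, ModularFormClass.qCoeff] at h
  rw [h, qExpansion_E2lvl_coeff, qExpansion_E2lvl_coeff, cE_mul_self]

theorem heckeU_E2lvl : heckeU 2 p (E2lvl p) = (E2lvl p : ℍ → ℂ) := by
  rw [← coe_heckeUForm, heckeUForm_E2lvl]

/-- FrickeTrace's formula for the conjugate at the cusp `0`, in terms of `divN`. -/
theorem slash_S_divN (F : ModularForm (GammaP p) 2) (τ : ℍ) :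
    ((F : ℍ → ℂ) ∣[(2 : ℤ)] ModularGroup.S) τ = -((p : ℂ)⁻¹ * heckeUForm p F (divN p τ)) := by
  rw [slash_S_eq p F τ (divN p τ) (coe_divN p τ), coe_heckeUForm]

theorem E2lvl_slash_S (τ : ℍ) :
    ((E2lvl p : ℍ → ℂ) ∣[(2 : ℤ)] ModularGroup.S) τ = -((p : ℂ)⁻¹ * E2lvl p (divN p τ)) := by
  rw [slash_S_divN p (E2lvl p) τ, heckeUForm_E2lvl]

end Fermat.Agent.S16.G23Eis
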