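/-
S16 (Eisenstein ideal index), analytic support: the Serre derivative at arbitrary level.
Owner: helper45.

* `D_eq_qParam_mul_deriv` : for an `h`-periodic holomorphic bounded `G`,
  `D G = (1/h) · q_h · (d/dq_h) G`.
* `D_isZeroAtImInfty_of_periodic` : then `D G → 0` at `i∞`.
* `coeff_qExpansion_D` : `(qExpansion h (D G)).coeff n = (n / h) * (qExpansion h G).coeff n`.
* `serreLevel` : `ModularForm Γ k → ModularForm Γ (k + 2)` for a finite index `Γ ≤ SL(2, ℤ)`,
  with `coe_serreLevel`, `serreLevel_slash`.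
* `qExpansion_E2`, `coeff_qExpansion_serreLevel`.
-/
import Fermat.Agent.S24.JLocalOrder
import Fermat.Agent.S24.JQExpansion

set_option autoImplicit false

namespace Fermat.Agent.S16.SerreLevel

open UpperHalfPlane hiding I
open ModularForm ModularFormClass MatrixGroups EisensteinSeries Complex Derivative
  Filter Topology CongruenceSubgroup SlashInvariantForm
open scoped Manifold Real

local notation "𝕢" => Function.Periodic.qParam

/-! ### `D` of a periodic function -/

/-- For an `h`-periodic holomorphic function bounded at `i∞`, `D F = (1/h) · q · (d/dq) F`. -/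
lemma D_eq_qParam_mul_deriv {F : ℍ → ℂ} {h : ℝ} (hh : 0 < h)
    (hper : Function.Periodic (F ∘ ofComplex) h) (hhol : MDiff F)
    (hbdd : IsBoundedAtImInfty F) (z : ℍ) :
    D F z = (h : ℂ)⁻¹ * (𝕢 h z * deriv (cuspFunction h F) (𝕢 h z)) := by
  have hq : ‖𝕢 h (z : ℂ)‖ < 1 := Function.Periodic.norm_qParam_lt_one hh z.im_pos
  have hc : DifferentiableAt ℂ (cuspFunction h F) (𝕢 h z) :=
    differentiableAt_cuspFunction hh hper hhol hbdd hq
  have hh0 : (h : ℂ) ≠ 0 := by exact_mod_cast hh.ne'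
  have hqd : HasDerivAt (𝕢 h) (2 * π * I / h * 𝕢 h (z : ℂ)) (z : ℂ) := by
    have h1 : HasDerivAt (fun w : ℂ => 2 * π * I * w / (h : ℂ)) (2 * π * I / h) (z : ℂ) := by
      simpa using ((hasDerivAt_id (z : ℂ)).const_mul (2 * π * I)).div_const (h : ℂ)
    have h2 := h1.cexp
    have h3 : (𝕢 h) = fun w : ℂ => cexp (2 * π * I * w / (h : ℂ)) := rfl
    rw [h3]
    refine h2.congr_deriv ?_
    show _ = 2 * (π : ℂ) * I / h * cexp (2 * π * I * z / (h : ℂ))
    ring
  have hcomp : HasDerivAt (fun w => cuspFunction h F (𝕢 h w))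
      (deriv (cuspFunction h F) (𝕢 h z) * (2 * π * I / h * 𝕢 h (z : ℂ))) (z : ℂ) :=
    hc.hasDerivAt.comp (z : ℂ) hqd
  have heq : (F ∘ ofComplex) =ᶠ[𝓝 (z : ℂ)] fun w => cuspFunction h F (𝕢 h w) := by
    filter_upwards [isOpen_upperHalfPlaneSet.mem_nhds z.im_pos] with w hw
    have := eq_cuspFunction (h := h) (f := F) ⟨w, hw⟩ hh.ne' hper
    simp only [Function.comp_apply, ofComplex_apply_of_im_pos hw]
    exact this.symm
  rw [normalizedDerivOfComplex, (hcomp.congr_of_eventuallyEq heq).deriv]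
  have : (2 * (π : ℂ) * I) ≠ 0 := two_pi_I_ne_zero
  field_simp

/-- For an `h`-periodic holomorphic function bounded at `i∞`, `D F` tends to `0` at `i∞`. -/
lemma D_isZeroAtImInfty_of_periodic {F : ℍ → ℂ} {h : ℝ} (hh : 0 < h)
    (hper : Function.Periodic (F ∘ ofComplex) h) (hhol : MDiff F)
    (hbdd : IsBoundedAtImInfty F) : IsZeroAtImInfty (D F) := by
  have han : AnalyticAt ℂ (cuspFunction h F) 0 :=
    analyticAt_cuspFunction_zero hh hper hhol hbdd
  have hcont : ContinuousAt (deriv (cuspFunction h F)) 0 := han.deriv.continuousAt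
  have hq : Tendsto (fun τ : ℍ => 𝕢 h τ) atImInfty (𝓝 0) := qParam_tendsto_atImInfty hh
  have h1 : Tendsto (fun τ : ℍ => (h : ℂ)⁻¹ * (𝕢 h τ * deriv (cuspFunction h F) (𝕢 h τ)))
      atImInfty (𝓝 ((h : ℂ)⁻¹ * (0 * deriv (cuspFunction h F) 0))) :=
    (hq.mul (hcont.tendsto.comp hq)).const_mul _
  rw [zero_mul, mul_zero] at h1
  refine h1.congr fun τ => ?_
  exact (D_eq_qParam_mul_deriv hh hper hhol hbdd τ).symm

/-- The Serre derivative of an `h`-periodic holomorphic function bounded at `i∞` is bounded at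
`i∞`. -/
lemma serreDerivative_isBoundedAtImInfty_of_periodic {F : ℍ → ℂ} {h : ℝ} (hh : 0 < h)
    (hper : Function.Periodic (F ∘ ofComplex) h) (hhol : MDiff F)
    (hbdd : IsBoundedAtImInfty F) (k : ℂ) :
    IsBoundedAtImInfty (serreDerivative k F) := by
  have h1 : IsBoundedAtImInfty (D F) :=
    (D_isZeroAtImInfty_of_periodic hh hper hhol hbdd).boundedAtFilter
  have h2 : IsBoundedAtImInfty (fun z => k * 12⁻¹ * E2 z * F z) := by
    have := ((const_boundedAtFilter atImInfty (k * 12⁻¹)).mul isBoundedAtImInfty_E2).mul hbdd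
    exact this
  have h3 := h1.add h2.neg
  have h4 : serreDerivative k F = D F + -fun z => k * 12⁻¹ * E2 z * F z := by
    ext z
    simp [sub_eq_add_neg]
  rw [h4]
  exact h3

/-! ### `q`-expansions -/

section QExp

open Fermat.Agent.S24.JQExpansion

/-- `qExpansion` is the Taylor series of the cusp function. -/
lemma qExpansion_eq_tps (h : ℝ) (F : ℍ → ℂ) : qExpansion h F = tps (cuspFunction h F) := rfl

/-- The cusp function of `D G` is `(1/h) · q · (d/dq)` of the cusp function of `G`. -/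
lemma cuspFunction_D {G : ℍ → ℂ} {h : ℝ} (hh : 0 < h)
    (hper : Function.Periodic (G ∘ ofComplex) h) (hhol : MDiff G)
    (hbdd : IsBoundedAtImInfty G) {q : ℂ} (hq : ‖q‖ < 1) :
    cuspFunction h (D G) q = (h : ℂ)⁻¹ * (q * deriv (cuspFunction h G) q) := by
  rcases eq_or_ne q 0 with rfl | hq0
  · rw [(D_isZeroAtImInfty_of_periodic hh hper hhol hbdd).cuspFunction_apply_zero hh]
    simp
  · have him : 0 < (Function.Periodic.invQParam h q).im :=
      Function.Periodic.im_invQParam_pos_of_norm_lt_one hh hq hq0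
    have hqq : 𝕢 h (Function.Periodic.invQParam h q) = q :=
      Function.Periodic.qParam_right_inv hh.ne' hq0
    have h1 := D_eq_qParam_mul_deriv hh hper hhol hbdd ⟨_, him⟩
    rw [UpperHalfPlane.coe_mk, hqq] at h1
    rw [← h1]
    show Function.Periodic.cuspFunction h (D G ∘ ofComplex) q = _
    rw [Function.Periodic.cuspFunction_eq_of_nonzero _ _ hq0, Function.comp_apply,
      ofComplex_apply_of_im_pos him]

/-- Taylor coefficients of `q · G'(q)`. -/
lemma coeff_tps_id_mul_deriv {G : ℂ → ℂ} (hG : AnalyticAt ℂ G 0) (n : ℕ) :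
    (tps (fun q => q * deriv G q)).coeff n = (n : ℂ) * (tps G).coeff n := by
  have h1 : tps (fun q => q * deriv G q) = PowerSeries.X * tps (deriv G) := by
    have := tps_mul (G := fun q : ℂ => q) (H := deriv G) analyticAt_id hG.deriv
    rw [tps_id] at this
    exact this
  rw [h1]
  cases n with
  | zero => simp
  | succ m =>
    rw [PowerSeries.coeff_succ_X_mul, coeff_tps, coeff_tps, ← iteratedDeriv_succ']
    have hm : ((m + 1).factorial : ℂ) = (m + 1 : ℂ) * (m.factorial : ℂ) := by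
      rw [Nat.factorial_succ]; push_cast; ring
    have hm0 : (m.factorial : ℂ) ≠ 0 := by exact_mod_cast Nat.factorial_ne_zero m
    have hm1 : (m + 1 : ℂ) ≠ 0 := by exact_mod_cast Nat.succ_ne_zero m
    rw [hm]
    push_cast
    field_simp

/-- **`q`-expansion of `D`**: the `n`-th coefficient of the `q_h`-expansion of `D G` is `n / h`
times that of `G`. -/
theorem coeff_qExpansion_D {G : ℍ → ℂ} {h : ℝ} (hh : 0 < h)
    (hper : Function.Periodic (G ∘ ofComplex) h) (hhol : MDiff G)
    (hbdd : IsBoundedAtImInfty G) (n : ℕ) :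
    (qExpansion h (D G)).coeff n = (n : ℂ) / (h : ℂ) * (qExpansion h G).coeff n := by
  have han : AnalyticAt ℂ (cuspFunction h G) 0 :=
    analyticAt_cuspFunction_zero hh hper hhol hbdd
  have hev : cuspFunction h (D G) =ᶠ[𝓝 0]
      fun q => (h : ℂ)⁻¹ * (q * deriv (cuspFunction h G) q) := by
    filter_upwards [Metric.ball_mem_nhds (0 : ℂ) one_pos] with q hq
    exact cuspFunction_D hh hper hhol hbdd (by simpa using hq)
  rw [qExpansion_eq_tps, qExpansion_eq_tps, tps_congr hev, coeff_tps,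
    iteratedDeriv_const_mul_field, ← mul_assoc, mul_comm _ ((h : ℂ)⁻¹), mul_assoc, ← coeff_tps,
    coeff_tps_id_mul_deriv han]
  ring

/-- `D` of a periodic function is periodic. -/
lemma periodic_D {G : ℍ → ℂ} {h : ℝ} (hper : Function.Periodic (G ∘ ofComplex) h) :
    Function.Periodic (D G ∘ ofComplex) h := by
  intro w
  simp only [Function.comp_apply]
  by_cases hw : 0 < w.im
  · have hw1 : 0 < (w + (h : ℂ)).im := by simpa using hw
    rw [ofComplex_apply_of_im_pos hw1, ofComplex_apply_of_im_pos hw]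
    simp only [normalizedDerivOfComplex]
    congr 1
    have : (G ∘ ofComplex) = fun v => (G ∘ ofComplex) (v + (h : ℂ)) := by
      funext v; exact (hper v).symm
    conv_rhs => rw [this]
    rw [deriv_comp_add_const]
  · have hw' : w.im ≤ 0 := not_lt.mp hw
    have hw1 : (w + (h : ℂ)).im ≤ 0 := by simpa using hw'
    rw [ofComplex_apply_of_im_nonpos hw1, ofComplex_apply_of_im_nonpos hw']

/-- The cusp function of `D G` is analytic at `0`. -/
lemma analyticAt_cuspFunction_D {G : ℍ → ℂ} {h : ℝ} (hh : 0 < h)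
    (hper : Function.Periodic (G ∘ ofComplex) h) (hhol : MDiff G)
    (hbdd : IsBoundedAtImInfty G) : AnalyticAt ℂ (cuspFunction h (D G)) 0 :=
  analyticAt_cuspFunction_zero hh (periodic_D hper) (normalizedDerivOfComplex_mdifferentiable hhol)
    (D_isZeroAtImInfty_of_periodic hh hper hhol hbdd).boundedAtFilter

/-- The cusp function of `E2` is analytic at `0`. -/
lemma analyticAt_cuspFunction_E2 : AnalyticAt ℂ (cuspFunction 1 E2) 0 :=
  analyticAt_cuspFunction_zero one_pos Fermat.Agent.S24.JLocalOrder.periodic_E2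
    E2_mdifferentiable isBoundedAtImInfty_E2

/-- Uniqueness of `q`-expansion coefficients for plain functions `ℍ → ℂ`. -/
lemma qExpansion_coeff_unique_fun {f : ℍ → ℂ} {h : ℝ} {c : ℕ → ℂ} (hh : 0 < h)
    (hfanalytic : AnalyticAt ℂ (cuspFunction h f) 0)
    (hf : ∀ τ : ℍ, HasSum (fun m ↦ c m • 𝕢 h τ ^ m) (f τ)) (m : ℕ) :
    (qExpansion h f).coeff m = c m := by
  have h1 := (hasFPowerSeriesOnBall_cuspFunction hh hfanalytic hf).hasFPowerSeriesAt
  have h2 := hfanalytic.hasFPowerSeriesAt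
  have h3 := congr_arg (FormalMultilinearSeries.coeff · m) (h1.eq_formalMultilinearSeries h2)
  simp only [FormalMultilinearSeries.coeff_ofScalars] at h3
  rw [qExpansion_coeff, h3, div_eq_mul_inv, mul_comm]

/-- **`q`-expansion of `E₂`**: `E₂ = 1 - 24 ∑ σ₁(n) qⁿ`. -/
theorem coeff_qExpansion_E2 (m : ℕ) :
    (qExpansion 1 E2).coeff m =
      if m = 0 then 1 else -24 * (ArithmeticFunction.sigma 1 m : ℂ) := by
  have hsum : ∀ τ : ℍ, HasSum (fun m : ℕ =>
      (if m = 0 then 1 else -24 * (ArithmeticFunction.sigma 1 m : ℂ)) • 𝕢 1 τ ^ m) (E2 τ) := by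
    intro τ
    have h1 : 𝕢 1 (τ : ℂ) = cexp (2 * π * I * τ) := by
      simp only [Function.Periodic.qParam, ofReal_one, div_one]
    rw [h1]
    exact hasSum_qExpansion_E2 (z := τ)
  exact qExpansion_coeff_unique_fun one_pos analyticAt_cuspFunction_E2 hsum m

/-- The `q`-expansion of a Serre derivative, for a `1`-periodic function: `θ f - (k/12) e₂ f`. -/
theorem qExpansion_serreDerivative {G : ℍ → ℂ}
    (hper : Function.Periodic (G ∘ ofComplex) (1 : ℝ)) (hhol : MDiff G)
    (hbdd : IsBoundedAtImInfty G) (k : ℂ) :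
    qExpansion 1 (serreDerivative k G) =
      qExpansion 1 (D G) - (k * 12⁻¹) • (qExpansion 1 E2 * qExpansion 1 G) := by
  have hanG : AnalyticAt ℂ (cuspFunction 1 G) 0 :=
    analyticAt_cuspFunction_zero one_pos hper hhol hbdd
  have hanD := analyticAt_cuspFunction_D one_pos hper hhol hbdd
  have hanEG : AnalyticAt ℂ (cuspFunction 1 (E2 * G)) 0 := by
    rw [cuspFunction_mul analyticAt_cuspFunction_E2.continuousAt hanG.continuousAt]
    exact analyticAt_cuspFunction_E2.mul hanG
  have h1 : serreDerivative k G = D G - (k * 12⁻¹) • (E2 * G) := by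
    ext z
    simp [serreDerivative_apply, mul_assoc]
  have hanS : AnalyticAt ℂ (cuspFunction 1 ((k * 12⁻¹) • (E2 * G))) 0 := by
    rw [cuspFunction_smul hanEG.continuousAt]
    exact hanEG.const_smul
  rw [h1, qExpansion_sub hanD hanS, qExpansion_smul hanEG,
    qExpansion_mul analyticAt_cuspFunction_E2 hanG]

/-- Coefficient form of `qExpansion_serreDerivative`. -/
theorem coeff_qExpansion_serreDerivative {G : ℍ → ℂ}
    (hper : Function.Periodic (G ∘ ofComplex) (1 : ℝ)) (hhol : MDiff G)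
    (hbdd : IsBoundedAtImInfty G) (k : ℂ) (n : ℕ) :
    (qExpansion 1 (serreDerivative k G)).coeff n =
      (n : ℂ) * (qExpansion 1 G).coeff n -
        k * 12⁻¹ * (qExpansion 1 E2 * qExpansion 1 G).coeff n := by
  rw [qExpansion_serreDerivative hper hhol hbdd, map_sub, coeff_qExpansion_D one_pos hper hhol hbdd]
  simp

end QExp

/-! ### The Serre derivative as a map of modular forms of arbitrary level -/

section Level

open ConjAct Pointwise Matrix Matrix.SpecialLinearGroup Matrix.GeneralLinearGroup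

/-- `[1, n; 0, 1]` over `ℝ` is the image of `T ^ n`. -/
lemma mapGL_T_zpow (m : ℤ) :
    mapGL ℝ (ModularGroup.T ^ m) = upperRightHom (m : ℝ) := by
  apply Units.ext
  rw [mapGL_coe_matrix, map_apply_coe, ModularGroup.coe_T_zpow]
  ext i j
  fin_cases i <;> fin_cases j <;> simp

/-- `[1, n; 0, 1]` over `ℝ` is the image of `T ^ n`. -/
lemma mapGL_T_pow (n : ℕ) :
    mapGL ℝ (ModularGroup.T ^ n) = upperRightHom (n : ℝ) := by
  have h := mapGL_T_zpow (n : ℤ)
  rwa [zpow_natCast, Int.cast_natCast] at h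

/-- Every conjugate `γ⁻¹ Γ γ` of a finite index subgroup of `SL(2, ℤ)` contains a translation
`z ↦ z + n`, `n > 0`. -/
lemma exists_mem_strictPeriods_conj (Γ : Subgroup SL(2, ℤ)) [Γ.FiniteIndex] (γ : SL(2, ℤ)) :
    ∃ n : ℕ, 0 < n ∧ (n : ℝ) ∈
      (toConjAct (mapGL ℝ γ)⁻¹ • (Γ : Subgroup (GL (Fin 2) ℝ))).strictPeriods := by
  obtain ⟨n, hn, -, hmem⟩ := Subgroup.exists_pow_mem_of_index_ne_zero (H := Γ)
    Subgroup.FiniteIndex.index_ne_zero (γ * ModularGroup.T * γ⁻¹)
  refine ⟨n, hn, ?_⟩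
  rw [Subgroup.mem_strictPeriods_iff, map_inv, Subgroup.mem_inv_pointwise_smul_iff,
    toConjAct_smul]
  refine ⟨(γ * ModularGroup.T * γ⁻¹) ^ n, hmem, ?_⟩
  rw [conj_pow, map_mul, map_mul, map_inv, mapGL_T_pow]

variable {Γ : Subgroup SL(2, ℤ)} [Γ.FiniteIndex] {k : ℤ}
  (F : ModularForm (Γ : Subgroup (GL (Fin 2) ℝ)) k)

omit [Γ.FiniteIndex] in
lemma serreDerivative_slash_of_mem {γ : SL(2, ℤ)} (hγ : γ ∈ Γ) :
    serreDerivative k (F : ℍ → ℂ) ∣[k + 2] γ = serreDerivative k (F : ℍ → ℂ) := by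
  refine serreDerivative_slash_invariant (holo F) ?_
  rw [ModularForm.SL_slash]
  exact SlashInvariantFormClass.slash_action_eq F _ ⟨γ, hγ, rfl⟩

/-- Each `SL(2, ℤ)`-translate of a modular form of finite index level is periodic, holomorphic and
bounded at `i∞`. -/
lemma translate_data (γ : SL(2, ℤ)) :
    ∃ n : ℕ, 0 < n ∧ Function.Periodic (((F : ℍ → ℂ) ∣[k] γ) ∘ ofComplex) (n : ℝ) ∧
      MDiff ((F : ℍ → ℂ) ∣[k] γ) ∧ IsBoundedAtImInfty ((F : ℍ → ℂ) ∣[k] γ) := by
  obtain ⟨n, hn, hmem⟩ := exists_mem_strictPeriods_conj Γ γ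
  refine ⟨n, hn, ?_, ?_, ?_⟩
  · exact SlashInvariantFormClass.periodic_comp_ofComplex
      (ModularForm.translate F (mapGL ℝ γ)) hmem
  · exact (ModularForm.translate F (mapGL ℝ γ)).holo'
  · have hc : IsCusp (mapGL ℝ γ • OnePoint.infty) 𝒮ℒ := isCusp_SL2Z_iff'.mpr ⟨γ, rfl⟩
    have hc' : IsCusp (mapGL ℝ γ • OnePoint.infty) (Γ : Subgroup (GL (Fin 2) ℝ)) :=
      (Subgroup.IsArithmetic.isCusp_iff_isCusp_SL2Z _).mpr hc
    exact (OnePoint.isBoundedAt_iff_forall_SL2Z hc).mp (F.bdd_at_cusps' hc') γ rfl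

/-- The Serre derivative of a modular form of weight `k` on a finite index subgroup of
`SL(2, ℤ)`, as a modular form of weight `k + 2` of the same level. -/
noncomputable def serreLevel : ModularForm (Γ : Subgroup (GL (Fin 2) ℝ)) (k + 2) where
  toFun := serreDerivative k (F : ℍ → ℂ)
  slash_action_eq' := by
    rintro _ ⟨γ, hγ, rfl⟩
    have := serreDerivative_slash_of_mem F hγ
    rwa [ModularForm.SL_slash] at this
  holo' := serreDerivative_mdifferentiable k (holo F)
  bdd_at_cusps' {c} hc := by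
    have hc' : IsCusp c 𝒮ℒ := (Subgroup.IsArithmetic.isCusp_iff_isCusp_SL2Z _).mp hc
    rw [OnePoint.isBoundedAt_iff_forall_SL2Z hc']
    intro γ _
    rw [serreDerivative_slash_equivariant (holo F)]
    obtain ⟨n, hn, hper, hhol, hbdd⟩ := translate_data F γ
    exact serreDerivative_isBoundedAtImInfty_of_periodic (by exact_mod_cast hn) hper hhol hbdd k

@[simp] lemma serreLevel_apply (z : ℍ) :
    serreLevel F z = serreDerivative k (F : ℍ → ℂ) z := rfl

lemma coe_serreLevel : (serreLevel F : ℍ → ℂ) = serreDerivative k (F : ℍ → ℂ) := rfl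

/-- The Serre derivative commutes with the slash action of `SL(2, ℤ)`. -/
lemma serreLevel_slash (γ : SL(2, ℤ)) :
    (serreLevel F : ℍ → ℂ) ∣[k + 2] γ = serreDerivative k ((F : ℍ → ℂ) ∣[k] γ) := by
  rw [coe_serreLevel]
  exact serreDerivative_slash_equivariant (holo F)

/-- **`q`-expansion of the Serre derivative at level `Γ ∋ T`**:
`a_n(∂_k F) = n · a_n(F) - (k/12) · a_n(e₂ · f)`, `e₂ = 1 - 24 ∑ σ₁(n) qⁿ`
(see `coeff_qExpansion_E2`). -/
theorem coeff_qExpansion_serreLevel
    (h1 : (1 : ℝ) ∈ (Γ : Subgroup (GL (Fin 2) ℝ)).strictPeriods) (n : ℕ) :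
    (qExpansion 1 (serreLevel F)).coeff n =
      (n : ℂ) * (qExpansion 1 F).coeff n -
        (k : ℂ) * 12⁻¹ * (qExpansion 1 E2 * qExpansion 1 F).coeff n :=
  coeff_qExpansion_serreDerivative (SlashInvariantFormClass.periodic_comp_ofComplex F h1)
    (holo F) (ModularFormClass.bdd_at_infty F) k n

/-- Power series form of `coeff_qExpansion_serreLevel`. -/
theorem qExpansion_serreLevel
    (h1 : (1 : ℝ) ∈ (Γ : Subgroup (GL (Fin 2) ℝ)).strictPeriods) :
    qExpansion 1 (serreLevel F) =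
      qExpansion 1 (D (F : ℍ → ℂ)) - ((k : ℂ) * 12⁻¹) • (qExpansion 1 E2 * qExpansion 1 F) :=
  qExpansion_serreDerivative (SlashInvariantFormClass.periodic_comp_ofComplex F h1)
    (holo F) (ModularFormClass.bdd_at_infty F) k

/-- `1` is a strict period of `Γ₀(N)`. -/
lemma one_mem_strictPeriods_Gamma0' (N : ℕ) :
    (1 : ℝ) ∈ ((Gamma0 N : Subgroup SL(2, ℤ)) : Subgroup (GL (Fin 2) ℝ)).strictPeriods := by
  rw [CongruenceSubgroup.strictPeriods_Gamma0]
  exact AddSubgroup.mem_zmultiples 1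

/-- `coeff_qExpansion_serreLevel` for `Γ₀(N)`. -/
theorem coeff_qExpansion_serreLevel_Gamma0 (N : ℕ) [NeZero N] {k : ℤ}
    (F : ModularForm ((Gamma0 N : Subgroup SL(2, ℤ)) : Subgroup (GL (Fin 2) ℝ)) k) (n : ℕ) :
    (qExpansion 1 (serreLevel F)).coeff n =
      (n : ℂ) * (qExpansion 1 F).coeff n -
        (k : ℂ) * 12⁻¹ * (qExpansion 1 E2 * qExpansion 1 F).coeff n :=
  coeff_qExpansion_serreLevel F (one_mem_strictPeriods_Gamma0' N) n

end Level

end Fermat.Agent.S16.SerreLevel
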