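import Mathlib
import Fermat.Agent.S16.G23Eis
import Fermat.Agent.S16.SerreLevel

/-!
# S16 / G23 (helper90): the forms `g, G₆, H₈, K₈` for `ℓ = 3` and their conjugates at the cusp `0`

For `F ∈ M₂(Γ₀(p))`, `F₁ = U_p F`, `E = E2lvl p / (p - 1)`:
`g(F) = (F - E)/3`, `G(F) = g³ - g E² ∈ M₆`, `H(F) = ∂₆ G(F) ∈ M₈`,
`K(F) = ∂₆ G(F₁) - ½ (E2lvl p) G(F₁) ∈ M₈`, and
`(H(F) ∣[8] S)(τ) = -p⁻⁴ K(F)(τ/p)`  (`slash_S_HF`).
-/

set_option autoImplicit false

namespace Fermat.Agent.S16.G3Forms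

open UpperHalfPlane ModularForm MatrixGroups CongruenceSubgroup Derivative
open scoped Manifold
open Fermat.Agent.S16.E2Level Fermat.Agent.S16.FrickeTrace Fermat.Agent.S16.SerreScale
open Fermat.Agent.S16.SerreLevel Fermat.Agent.S16.G23Eis
open Fermat.Agent.S28.ModPolyCoset

noncomputable section

variable (p : ℕ) [hp : Fact p.Prime]

/-- `a³ - a b²` as a form of weight `6`. -/
def cub (a b : ModularForm (GammaP p) 2) : ModularForm (GammaP p) 6 :=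
  ModularForm.mcast (by norm_num) ((a.mul a).mul a) -
    ModularForm.mcast (by norm_num) (a.mul (b.mul b))

theorem cub_apply (a b : ModularForm (GammaP p) 2) (z : ℍ) :
    cub p a b z = a z ^ 3 - a z * b z ^ 2 := by
  show (a z * a z) * a z - a z * (b z * b z) = _
  ring

/-- The normalised Eisenstein series `E = E2lvl p / (p - 1)`. -/
def Ep : ModularForm (GammaP p) 2 := ((p : ℂ) - 1)⁻¹ • E2lvl p

theorem Ep_apply (z : ℍ) : Ep p z = ((p : ℂ) - 1)⁻¹ * E2lvl p z := rfl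

/-- `g(F) = (F - E)/3`. -/
def gF (F : ModularForm (GammaP p) 2) : ModularForm (GammaP p) 2 := (3 : ℂ)⁻¹ • (F - Ep p)

theorem gF_apply (F : ModularForm (GammaP p) 2) (z : ℍ) :
    gF p F z = (3 : ℂ)⁻¹ * (F z - Ep p z) := rfl

/-- `G(F) = g³ - g E²`. -/
def GF (F : ModularForm (GammaP p) 2) : ModularForm (GammaP p) 6 := cub p (gF p F) (Ep p)

/-- `H(F) = ∂₆ G(F)`. -/
def HF (F : ModularForm (GammaP p) 2) : ModularForm (GammaP p) (6 + 2) :=
  serreLevel (Γ := Gamma0 p) (GF p F)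

/-- `K(F) = ∂₆ G(U_p F) - ½ (E2lvl p) G(U_p F)`. -/
def KF (F : ModularForm (GammaP p) 2) : ModularForm (GammaP p) (6 + 2) :=
  serreLevel (Γ := Gamma0 p) (GF p (heckeUForm p F)) -
    (2 : ℂ)⁻¹ • ModularForm.mcast (by norm_num) ((E2lvl p).mul (GF p (heckeUForm p F)))

theorem KF_apply (F : ModularForm (GammaP p) 2) (z : ℍ) :
    KF p F z = serreDerivative 6 (GF p (heckeUForm p F) : ℍ → ℂ) z -
      (2 : ℂ)⁻¹ * (E2lvl p z * GF p (heckeUForm p F) z) := rfl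

/-! ### Conjugates at the cusp `0` -/

theorem Ep_slash_S (τ : ℍ) :
    ((Ep p : ℍ → ℂ) ∣[(2 : ℤ)] ModularGroup.S) τ = -((p : ℂ)⁻¹ * Ep p (divN p τ)) := by
  have h := E2lvl_slash_S p τ
  rw [ModularForm.SL_slash_apply] at h ⊢
  rw [Ep_apply, Ep_apply, mul_assoc, h]
  ring

theorem gF_slash_S (F : ModularForm (GammaP p) 2) (τ : ℍ) :
    ((gF p F : ℍ → ℂ) ∣[(2 : ℤ)] ModularGroup.S) τ =
      -((p : ℂ)⁻¹ * gF p (heckeUForm p F) (divN p τ)) := by
  have h1 := slash_S_divN p F τ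
  have h2 := Ep_slash_S p τ
  rw [ModularForm.SL_slash_apply] at h1 h2 ⊢
  rw [gF_apply, gF_apply]
  linear_combination (3 : ℂ)⁻¹ * h1 - (3 : ℂ)⁻¹ * h2

theorem GF_slash_S (F : ModularForm (GammaP p) 2) (τ : ℍ) :
    ((GF p F : ℍ → ℂ) ∣[(6 : ℤ)] ModularGroup.S) τ =
      -((p : ℂ)⁻¹ ^ 3 * GF p (heckeUForm p F) (divN p τ)) := by
  have h1 := gF_slash_S p F τ
  have h2 := Ep_slash_S p τ
  rw [ModularForm.SL_slash_apply] at h1 h2 ⊢
  simp only [GF, cub_apply]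
  have hd : denom (ModularGroup.S : SL(2, ℤ)) τ ^ (-(6 : ℤ)) =
      (denom (ModularGroup.S : SL(2, ℤ)) τ ^ (-(2 : ℤ))) ^ 3 := by
    rw [← zpow_natCast, ← zpow_mul]
    norm_num
  rw [hd]
  set d := denom (ModularGroup.S : SL(2, ℤ)) τ ^ (-(2 : ℤ))
  set a := gF p F (ModularGroup.S • τ)
  set b := Ep p (ModularGroup.S • τ)
  have e1 : (a ^ 3 - a * b ^ 2) * d ^ 3 = (a * d) ^ 3 - (a * d) * (b * d) ^ 2 := by ring
  rw [e1, h1, h2]
  ring

/-- `φ ∘ (z ↦ z / N)` is holomorphic when `φ` is. -/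
theorem mdifferentiable_comp_divN (N : ℕ) [NeZero N] {φ : ℍ → ℂ} (hφ : MDiff φ) :
    MDiff (fun w => φ (divN N w)) := by
  rw [UpperHalfPlane.mdifferentiable_iff] at hφ ⊢
  have hN : (0 : ℝ) < N := by exact_mod_cast Nat.pos_of_ne_zero (NeZero.ne N)
  have hmaps : Set.MapsTo (fun w : ℂ => w / (N : ℂ)) upperHalfPlaneSet upperHalfPlaneSet := by
    intro w hw
    show 0 < (w / (N : ℂ)).im
    rw [show ((N : ℂ)) = (((N : ℝ)) : ℂ) by simp, Complex.div_ofReal_im]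
    exact div_pos hw hN
  have h1 : DifferentiableOn ℂ ((φ ∘ ofComplex) ∘ fun w : ℂ => w / (N : ℂ)) upperHalfPlaneSet :=
    hφ.comp (by fun_prop) hmaps
  refine h1.congr ?_
  intro w hw
  have hw' : 0 < (w / (N : ℂ)).im := hmaps hw
  simp only [Function.comp_apply]
  congr 1
  apply UpperHalfPlane.ext
  rw [coe_divN, ofComplex_apply_of_im_pos hw, ofComplex_apply_of_im_pos hw']

theorem HF_slash_S (F : ModularForm (GammaP p) 2) (τ : ℍ) :
    ((HF p F : ℍ → ℂ) ∣[((6 : ℤ) + 2)] ModularGroup.S) τ =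
      -((p : ℂ)⁻¹ ^ 4 * KF p F (divN p τ)) := by
  have hG1 : MDiff (GF p (heckeUForm p F) : ℍ → ℂ) := ModularFormClass.holo _
  have hψ : MDiff (fun w => GF p (heckeUForm p F) (divN p w)) :=
    mdifferentiable_comp_divN p hG1
  have hslash : ((GF p F : ℍ → ℂ) ∣[(6 : ℤ)] ModularGroup.S) =
      (-((p : ℂ)⁻¹ ^ 3)) • (fun w => GF p (heckeUForm p F) (divN p w)) := by
    funext w
    rw [GF_slash_S]
    simp only [Pi.smul_apply, smul_eq_mul]
    ring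
  rw [HF, serreLevel_slash, hslash, serreDerivative_smul (6 : ℤ) _ _ hψ, Pi.smul_apply,
    serreDerivative_comp_divN p (6 : ℤ) hG1 τ, KF_apply, smul_eq_mul]
  push_cast
  ring

end

end Fermat.Agent.S16.G3Forms
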