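import Mathlib
import Fermat.Agent.S16.G3Forms
import Fermat.Agent.S16.G3Formal

/-!
# S16 / G23 (helper90): `q`-expansions of `g, G₆, H₈, K₈` (case `ℓ = 3`)

If `qExpansion 1 F = 1 + 9 x` then the `q`-expansions of `Ep`, `gF`, `GF`, `HF`, `KF` are the formal
series `eS`, `gS`, `GS`, `hS`, `kS` of `G3Formal` (over `ℂ`, with `c₁ = 8/(p-1)`, `half = 1/2`).
-/

set_option autoImplicit false

namespace Fermat.Agent.S16.G3QExp

open UpperHalfPlane ModularForm MatrixGroups CongruenceSubgroup PowerSeries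
open scoped ArithmeticFunction.sigma
open Fermat.Agent.S16.E2Level Fermat.Agent.S16.FrickeTrace Fermat.Agent.S16.SerreLevel
open Fermat.Agent.S16.G23Eis Fermat.Agent.S16.G3Forms Fermat.Agent.S16.G3Formal
open Fermat.Agent.S16.RamanujanSeries Fermat.Agent.S16.DivisorCongr
open Fermat.Agent.S28.ModPolyCoset

noncomputable section

variable (p : ℕ) [hp : Fact p.Prime]

/-- `c₁ = 8 / (p - 1)`. -/
def c1 : ℂ := 8 * ((p : ℂ) - 1)⁻¹

omit hp in
theorem hΓ : (1 : ℝ) ∈ (GammaP p).strictPeriods :=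
  CongruenceSubgroup.one_mem_strictPeriods_Gamma0 p

theorem coeff_SB (m : ℕ) : coeff m (SB ℂ) = (σ 1 m : ℂ) := by
  rw [SB, coeff_map, coeff_sig, ArithmeticFunction.sigma_one_apply]
  simp

theorem coeff_PA (m : ℕ) : coeff m (PA ℂ) = aE2 m := by
  rw [PA, coeff_map, coeff_Pz, aE2]
  split_ifs <;> simp

theorem qExpansion_E2lvl :
    qExpansion 1 (E2lvl p) = C (p : ℂ) * expand p hp.out.ne_zero (PA ℂ) - PA ℂ := by
  ext m
  rw [qExpansion_E2lvl_coeff, map_sub, coeff_C_mul, coeff_expand, cE]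
  simp only [coeff_PA]
  split_ifs with h <;> simp

theorem p_sub_one_ne_zero : ((p : ℂ) - 1) ≠ 0 := by
  have : (p : ℂ) ≠ 1 := by exact_mod_cast hp.out.one_lt.ne'
  exact sub_ne_zero.mpr this

theorem qExpansion_Ep : qExpansion 1 (Ep p) = eS p hp.out.ne_zero (c1 p) := by
  have h1 := p_sub_one_ne_zero p
  ext m
  rw [Ep, FunLike.coe_smul, ModularForm.qExpansion_smul one_pos (hΓ p), coeff_smul,
    qExpansion_E2lvl_coeff, smul_eq_mul, eS, sS, map_add, coeff_one, coeff_C_mul, map_sub,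
    coeff_C_mul, coeff_expand, coeff_SB]
  rcases Nat.eq_zero_or_pos m with rfl | hm
  · simp only [cE_zero, if_true, dvd_zero, Nat.zero_div, coeff_SB]
    simp only [ArithmeticFunction.map_zero, Nat.cast_zero, mul_zero, sub_zero, add_zero]
    field_simp
  · rw [if_neg hm.ne']
    by_cases hd : p ∣ m
    · rw [if_pos hd, cE_of_dvd p hm.ne' hd, coeff_SB, c1]
      field_simp
      ring
    · rw [if_neg hd, cE_of_not_dvd p hm.ne' hd, c1]
      field_simp
      ring

variable {p}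

theorem qExpansion_gF (F : ModularForm (GammaP p) 2) (x : ℂ⟦X⟧)
    (hF : qExpansion 1 F = 1 + C 9 * x) :
    qExpansion 1 (gF p F) = gS p hp.out.ne_zero (c1 p) x := by
  rw [gF, FunLike.coe_smul, ModularForm.qExpansion_smul one_pos (hΓ p), FunLike.coe_sub,
    ModularForm.qExpansion_sub one_pos (hΓ p), hF, qExpansion_Ep, eS, gS]
  ext m
  simp only [coeff_smul, map_sub, map_add, coeff_C_mul, smul_eq_mul]
  ring

theorem qExpansion_cub (a b : ModularForm (GammaP p) 2) :
    qExpansion 1 (cub p a b) =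
      qExpansion 1 a ^ 3 - qExpansion 1 a * qExpansion 1 b ^ 2 := by
  rw [cub, FunLike.coe_sub, ModularForm.qExpansion_sub one_pos (hΓ p),
    ModularForm.qExpansion_mcast, ModularForm.qExpansion_mcast,
    ModularForm.qExpansion_mul one_pos (hΓ p), ModularForm.qExpansion_mul one_pos (hΓ p),
    ModularForm.qExpansion_mul one_pos (hΓ p), ModularForm.qExpansion_mul one_pos (hΓ p)]
  ring

theorem qExpansion_GF (F : ModularForm (GammaP p) 2) (x : ℂ⟦X⟧)
    (hF : qExpansion 1 F = 1 + C 9 * x) :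
    qExpansion 1 (GF p F) = GS p hp.out.ne_zero (c1 p) x := by
  rw [GF, qExpansion_cub, qExpansion_gF F x hF, qExpansion_Ep, GS]

theorem qExpansion_E2 : qExpansion 1 EisensteinSeries.E2 = PA ℂ := qExpansion_E2_eq

theorem qExpansion_HF (F : ModularForm (GammaP p) 2) (x : ℂ⟦X⟧)
    (hF : qExpansion 1 F = 1 + C 9 * x) :
    qExpansion 1 (HF p F) = hS p hp.out.ne_zero (c1 p) (2 : ℂ)⁻¹ x := by
  ext n
  rw [HF, coeff_qExpansion_serreLevel_Gamma0 p (GF p F) n, qExpansion_E2, qExpansion_GF F x hF,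
    hS, map_sub, coeff_theta, coeff_C_mul]
  push_cast
  ring

theorem qExpansion_KF (F : ModularForm (GammaP p) 2) (x1 : ℂ⟦X⟧)
    (hF1 : qExpansion 1 (heckeUForm p F) = 1 + C 9 * x1) :
    qExpansion 1 (KF p F) = kS p hp.out.ne_zero (c1 p) (2 : ℂ)⁻¹ x1 := by
  have hG := qExpansion_GF (heckeUForm p F) x1 hF1
  rw [KF, FunLike.coe_sub, ModularForm.qExpansion_sub one_pos (hΓ p), FunLike.coe_smul,
    ModularForm.qExpansion_smul one_pos (hΓ p), ModularForm.qExpansion_mcast,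
    ModularForm.qExpansion_mul one_pos (hΓ p), qExpansion_E2lvl, hG]
  ext n
  rw [map_sub, coeff_qExpansion_serreLevel_Gamma0 p (GF p (heckeUForm p F)) n, qExpansion_E2, hG,
    kS, map_sub, coeff_theta, coeff_C_mul, coeff_smul, smul_eq_mul]
  have e1 : (C (p : ℂ) * expand p hp.out.ne_zero (PA ℂ) - PA ℂ) *
      GS p hp.out.ne_zero (c1 p) x1 =
      C (p : ℂ) * (expand p hp.out.ne_zero (PA ℂ) * GS p hp.out.ne_zero (c1 p) x1) -
        PA ℂ * GS p hp.out.ne_zero (c1 p) x1 := by ring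
  rw [e1, map_sub, coeff_C_mul]
  push_cast
  ring

end

end Fermat.Agent.S16.G3QExp
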