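import Mathlib
import Fermat.Agent.S16.G3QExp
import Fermat.Agent.S16.G23End
import Fermat.Agent.S16.Interfaces2

/-!
# S16 / G23 (helper90): `Upper3bStatement` (`ℓ = 3`, `p ≡ 2 mod 3`: no `F ≡ 1 mod 9`)

Assembly of the route of report #1235 (Serre derivative + norm to level one):
`FrickeTrace` (conjugates at the cusp `0`) + `SerreLevel` + `G3Forms.HF_slash_S` (function level)
+ `G3QExp` (`q`-expansions) + `G3Formal` (characteristic `3` algebra) + `G23End`
(norm + Sturm modulo `3 · IntL 3`).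
-/

set_option autoImplicit false

namespace Fermat.Agent.S16.G3Main

open UpperHalfPlane ModularForm MatrixGroups CongruenceSubgroup PowerSeries
open Fermat.Agent.S16.E2Level Fermat.Agent.S16.FrickeTrace Fermat.Agent.S16.SerreScale
open Fermat.Agent.S16.G23Eis Fermat.Agent.S16.G3Forms Fermat.Agent.S16.G3Formal
open Fermat.Agent.S16.G3QExp Fermat.Agent.S16.G23Ring Fermat.Agent.S16.G23End
open Fermat.Agent.S16.NormLevelOne Fermat.Agent.S24.CuspExpansion
open Fermat.Agent.S16.Interfaces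
open Fermat.Agent.S28.ModPolyCoset

noncomputable section

/-! ### Width change: `τ ↦ K(τ/p)` -/

section Width

variable (p : ℕ) [hp : Fact p.Prime]

theorem qParam_divN (τ : ℍ) :
    Function.Periodic.qParam 1 (divN p τ : ℂ) = Function.Periodic.qParam (p : ℝ) (τ : ℂ) := by
  simp only [Function.Periodic.qParam, coe_divN, Complex.ofReal_one, div_one,
    Complex.ofReal_natCast]
  congr 1
  ring

theorem qExpansion_slash_S_of_divN {k k' : ℤ} (H : ModularForm (GammaP p) k)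
    (K : ModularForm (GammaP p) k') (c : ℂ)
    (h : ∀ τ : ℍ, ((H : ℍ → ℂ) ∣[k] ModularGroup.S) τ = c * K (divN p τ)) :
    qExpansion (p : ℝ) ((H : ℍ → ℂ) ∣[k] ModularGroup.S) = C c * qExpansion 1 K := by
  have hol := holAtCusp_slash p H ModularGroup.S
  have hΓ1 := G3QExp.hΓ p
  have : Fact (IsCusp OnePoint.infty (GammaP p)) :=
    ⟨(GammaP p).isCusp_of_mem_strictPeriods one_pos hΓ1⟩
  ext n
  rw [coeff_C_mul]
  symm
  refine Fermat.Agent.S24.CuspExpansion.qExpansion_coeff_unique_fun (hpos p) hol.analyticAt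
    (c := fun n => c * (qExpansion 1 K).coeff n) ?_ n
  intro τ
  have hs := UpperHalfPlane.hasSum_qExpansion one_pos
    (SlashInvariantFormClass.periodic_comp_ofComplex K hΓ1) (ModularFormClass.holo K)
    (ModularFormClass.bdd_at_infty K) (divN p τ)
  rw [qParam_divN] at hs
  rw [h τ]
  have := hs.mul_left c
  simpa [smul_eq_mul, mul_assoc] using this

end Width

/-! ### The residue ring `IntL 3 / 3` -/

section Residue

variable (p : ℕ) [hp : Fact p.Prime]

theorem three_eq_zero : (3 : κ 3) = 0 := by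
  simpa using natCast_ℓ_eq_zero 3

omit hp in
theorem p_eq_neg_one (h3 : p % 3 = 2) : (p : κ 3) = -1 := by
  have h : (p : κ 3) = ((3 * (p / 3) + 2 : ℕ) : κ 3) := by
    rw [← h3, Nat.div_add_mod]
  rw [h]
  push_cast
  linear_combination ((p / 3 : ℕ) + 1 : κ 3) * three_eq_zero

omit hp in
theorem not_three_dvd_p (h3 : p % 3 = 2) : ¬ 3 ∣ p := by omega

omit hp in
theorem not_three_dvd_p_sub_one (h3 : p % 3 = 2) : ¬ 3 ∣ p - 1 := by omega

/-- `c₁ = 8/(p-1)` in `IntL 3`. -/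
def c1A (h3 : p % 3 = 2) : IntL 3 :=
  ⟨c1 p, by
    have hp1 : 1 ≤ p := hp.out.pos
    have h := inv_natCast_mem 3 (not_three_dvd_p_sub_one p h3)
    have h8 : (8 : ℂ) ∈ IntL 3 := by
      exact_mod_cast natCast_mem (IntL 3) 8
    have : c1 p = 8 * (((p - 1 : ℕ) : ℂ))⁻¹ := by
      rw [c1, Nat.cast_sub hp1, Nat.cast_one]
    rw [this]
    exact (IntL 3).mul_mem h8 h⟩

/-- `1/2` in `IntL 3`. -/
def halfA : IntL 3 := ⟨(2 : ℂ)⁻¹, by
  have := inv_natCast_mem 3 (m := 2) (by norm_num)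
  simpa using this⟩

/-- `1/p` in `IntL 3`. -/
def pinvA (h3 : p % 3 = 2) : IntL 3 := ⟨(p : ℂ)⁻¹, inv_natCast_mem 3 (not_three_dvd_p p h3)⟩

theorem mk_halfA : Ideal.Quotient.mk (Iℓ 3) halfA = -1 := by
  have e : halfA * 2 = 1 := by
    apply Subtype.ext
    show (2 : ℂ)⁻¹ * ((2 : IntL 3) : ℂ) = 1
    have : ((2 : IntL 3) : ℂ) = 2 := rfl
    rw [this]; norm_num
  have e' := congrArg (Ideal.Quotient.mk (Iℓ 3)) e
  rw [map_mul, map_one, map_ofNat] at e'
  linear_combination (-1 : κ 3) * e' + (Ideal.Quotient.mk (Iℓ 3) halfA) * three_eq_zero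

theorem mk_c1A (h3 : p % 3 = 2) : Ideal.Quotient.mk (Iℓ 3) (c1A p h3) = -1 := by
  have e : c1A p h3 * ((p : IntL 3) - 1) = 8 := by
    apply Subtype.ext
    show c1 p * (((p : IntL 3) - 1 : IntL 3) : ℂ) = ((8 : IntL 3) : ℂ)
    have h1 : (((p : IntL 3) - 1 : IntL 3) : ℂ) = (p : ℂ) - 1 := by
      push_cast; rfl
    have h2 : ((8 : IntL 3) : ℂ) = 8 := rfl
    rw [h1, h2, c1]
    have := p_sub_one_ne_zero p
    field_simp
  have e' := congrArg (Ideal.Quotient.mk (Iℓ 3)) e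
  rw [map_mul, map_sub, map_one, map_natCast, map_ofNat] at e'
  have hP := p_eq_neg_one p h3
  linear_combination e' - (Ideal.Quotient.mk (Iℓ 3) (c1A p h3)) * hP +
    (Ideal.Quotient.mk (Iℓ 3) (c1A p h3) + 3) * three_eq_zero

theorem mk_pinvA (h3 : p % 3 = 2) : Ideal.Quotient.mk (Iℓ 3) (pinvA p h3) = -1 := by
  have e : pinvA p h3 * (p : IntL 3) = 1 := by
    apply Subtype.ext
    show (p : ℂ)⁻¹ * (((p : IntL 3)) : ℂ) = 1
    have h1 : (((p : IntL 3)) : ℂ) = (p : ℂ) := by push_cast; rfl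
    have hp0 : (p : ℂ) ≠ 0 := by exact_mod_cast hp.out.ne_zero
    rw [h1, inv_mul_cancel₀ hp0]
  have e' := congrArg (Ideal.Quotient.mk (Iℓ 3)) e
  rw [map_mul, map_one, map_natCast] at e'
  have hP := p_eq_neg_one p h3
  linear_combination (-1 : κ 3) * e' + (Ideal.Quotient.mk (Iℓ 3) (pinvA p h3)) * hP

end Residue

/-! ### Main theorem -/

section Main

variable (p : ℕ) [hp : Fact p.Prime]

theorem incl_apply (a : (IntL 3)⟦X⟧) (n : ℕ) : coeff n (incl 3 a) = ((coeff n a : IntL 3) : ℂ) := by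
  rw [coeff_map]; rfl

/-- **(UP3b)**: for `p ≡ 2 mod 3` there is no `F ∈ M₂(Γ₀(p))` with `F ≡ 1 mod 9`. -/
theorem no_oneMod_nine (h3 : p % 3 = 2) (F : ModularForm (CongruenceSubgroup.Gamma0 p) 2) :
    ¬ IsOneMod p 3 2 F := by
  rintro ⟨h0, hj⟩
  have hp0 : p ≠ 0 := hp.out.ne_zero
  have hΓ1 := G3QExp.hΓ p
  choose z hz using hj
  -- the series `x` with `F = 1 + 9x`
  obtain ⟨xA, hcoeffx, hcoeffx0⟩ : ∃ xA : (IntL 3)⟦X⟧,
      (∀ j (hj : 1 ≤ j), ((coeff j xA : IntL 3) : ℂ) = z j hj) ∧ coeff 0 xA = 0 := by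
    refine ⟨PowerSeries.mk fun j =>
      if hj : 1 ≤ j then ⟨z j hj, mem_of_isLInt 3 (hz j hj).1⟩ else 0, ?_, ?_⟩
    · intro j hj
      rw [coeff_mk, dif_pos hj]
    · rw [coeff_mk, dif_neg (by norm_num)]
  have hFc : ∀ n, (qExpansion 1 F).coeff n = (1 + C (9 : ℂ) * incl 3 xA).coeff n := by
    intro j
    rw [map_add, coeff_one, coeff_C_mul, incl_apply]
    rcases Nat.eq_zero_or_pos j with rfl | hjpos
    · rw [hcoeffx0]
      simpa [ModularFormClass.qCoeff] using h0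
    · rw [if_neg hjpos.ne', zero_add, hcoeffx j hjpos]
      have := (hz j hjpos).2
      rw [ModularFormClass.qCoeff] at this
      rw [this]
      norm_num
  have hF : qExpansion 1 F = 1 + C (9 : ℂ) * incl 3 xA := PowerSeries.ext hFc
  -- the series `x₁` with `U_p F = 1 + 9 x₁`
  obtain ⟨x1A, hx1A⟩ : ∃ x1A : (IntL 3)⟦X⟧, ∀ n, coeff n x1A = coeff (n * p) xA :=
    ⟨PowerSeries.mk fun n => coeff (n * p) xA, fun n => coeff_mk _ _⟩
  have hF1 : qExpansion 1 (heckeUForm p F) = 1 + C (9 : ℂ) * incl 3 x1A := by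
    ext n
    have h := ModularFormClass.qCoeff_heckeU F hΓ1 hp0 n
    rw [ModularFormClass.qCoeff, ModularForm.coeffHeckeU, ModularFormClass.qCoeff] at h
    rw [coe_heckeUForm, h, hFc, map_add, map_add, coeff_one, coeff_one, coeff_C_mul, coeff_C_mul,
      incl_apply, incl_apply, hx1A]
    have : (n * p = 0) ↔ (n = 0) := by
      constructor
      · intro h; exact (Nat.mul_eq_zero.mp h).resolve_right hp0
      · rintro rfl; simp
    simp only [this]
  -- integral models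
  set hA : (IntL 3)⟦X⟧ := hS p hp0 (c1A p h3) halfA xA with hhA
  set kA : (IntL 3)⟦X⟧ := kS p hp0 (c1A p h3) halfA x1A with hkA
  set gA : (IntL 3)⟦X⟧ := C (-(pinvA p h3) ^ 4) * kA with hgA
  have h1 : incl 3 hA = qExpansion (1 : ℝ) (HF p F : ℍ → ℂ) := by
    rw [hhA, map_hS, qExpansion_HF F _ hF]
    rfl
  have hslash : ∀ τ : ℍ, ((HF p F : ℍ → ℂ) ∣[((6 : ℤ) + 2)] ModularGroup.S) τ =
      (-((p : ℂ)⁻¹) ^ 4) * KF p F (divN p τ) := by
    intro τ
    rw [HF_slash_S]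
    ring
  have h2 : incl 3 gA =
      qExpansion (p : ℝ) ((HF p F : ℍ → ℂ) ∣[((6 : ℤ) + 2)] ModularGroup.S) := by
    rw [qExpansion_slash_S_of_divN p (HF p F) (KF p F) _ hslash, qExpansion_KF F _ hF1, hgA,
      map_mul, hkA, map_kS, map_C]
    rfl
  have r1 : redℓ 3 hA = ΔB (κ 3) := by
    rw [hhA, map_hS, mk_c1A, mk_halfA]
    exact hS_of_three p hp0 _ three_eq_zero (p_eq_neg_one p h3)
  have r2 : redℓ 3 gA = expand p hp0 (ΔB (κ 3)) := by
    rw [hgA, map_mul, map_C, hkA, map_kS, mk_c1A, mk_halfA, map_neg, map_pow, mk_pinvA,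
      kS_of_three p hp0 _ three_eq_zero (p_eq_neg_one p h3)]
    have e : (-(-1 : κ 3) ^ 4) = -1 := by ring
    rw [e, map_neg, map_one]
    ring
  exact false_of_conj_delta 3 p (k := (6 : ℤ) + 2) (by norm_num) (HF p F) hA gA h1 h2 r1 r2

/-- **`Upper3bStatement`** of `Interfaces2`. -/
theorem upper3b : Upper3bStatement := by
  intro p _ _ h3 F
  exact no_oneMod_nine p h3 F

end Main

end

end Fermat.Agent.S16.G3Main
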