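/-
S16 helper library (helper8): the presentation `PSL(2,ℤ) = C₂ * C₃`, in the form of its universal
property for `SL(2,ℤ)`:

  for every group `K` and `a b : K` with `a ^ 2 = 1`, `b ^ 3 = 1` there is a homomorphism
  `ρ : SL(2,ℤ) →* K` with `ρ S = a` and `ρ (S * T) = b`.

Proof: ping-pong (Mathlib `Monoid.CoprodI.lift_injective_of_ping_pong`) for the action on the upper
half plane with the sets `{0 < re z}` and `{re z < 0}`; surjectivity from `SL2Z_generators`.
Mathlib only.
-/
import Mathlib

set_option autoImplicit false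

namespace Fermat.Agent.S16.SL2Presentation

open Matrix Matrix.SpecialLinearGroup ModularGroup UpperHalfPlane
open scoped MatrixGroups Pointwise

/-! ### Homomorphisms out of a cyclic group `Multiplicative (ZMod n)` -/

section Cyclic

variable {K : Type*} [Group K]

/-- The homomorphism `Multiplicative (ZMod n) →* K` sending the generator to `a`, for `a ^ n = 1`. -/
noncomputable def cycHom (n : ℕ) (a : K) (ha : a ^ n = 1) : Multiplicative (ZMod n) →* K :=
  AddMonoidHom.toMultiplicativeLeft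
    (ZMod.lift n ⟨zmultiplesHom (Additive K) (Additive.ofMul a), by
      rw [zmultiplesHom_apply, natCast_zsmul, ← ofMul_pow, ha, ofMul_one]⟩)

theorem cycHom_intCast (n : ℕ) (a : K) (ha : a ^ n = 1) (k : ℤ) :
    cycHom n a ha (Multiplicative.ofAdd (k : ZMod n)) = a ^ k := by
  unfold cycHom
  rw [AddMonoidHom.coe_toMultiplicativeLeft]
  simp only [Function.comp_apply, toAdd_ofAdd]
  rw [ZMod.lift_coe]
  simp [zmultiplesHom_apply]

theorem cycHom_natCast (n : ℕ) (a : K) (ha : a ^ n = 1) (k : ℕ) :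
    cycHom n a ha (Multiplicative.ofAdd (k : ZMod n)) = a ^ k := by
  have := cycHom_intCast n a ha (k : ℤ)
  simpa using this

theorem cycHom_gen (n : ℕ) (a : K) (ha : a ^ n = 1) :
    cycHom n a ha (Multiplicative.ofAdd (1 : ZMod n)) = a := by
  have := cycHom_natCast n a ha 1
  simpa using this

end Cyclic

/-! ### The free product `C₂ * C₃` -/

/-- The index type of the two free factors. -/
inductive Idx : Type
  | s : Idx
  | u : Idx
  deriving DecidableEq

instance : Nontrivial Idx := ⟨⟨Idx.s, Idx.u, by decide⟩⟩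

/-- The two free factors `C₂`, `C₃`. -/
def Fac : Idx → Type
  | Idx.s => Multiplicative (ZMod 2)
  | Idx.u => Multiplicative (ZMod 3)

instance instGroupFac : ∀ i, Group (Fac i)
  | Idx.s => inferInstanceAs (Group (Multiplicative (ZMod 2)))
  | Idx.u => inferInstanceAs (Group (Multiplicative (ZMod 3)))

/-- The generator of the factor `C₂`. -/
def genS : Fac Idx.s := Multiplicative.ofAdd (1 : ZMod 2)

/-- The generator of the factor `C₃`. -/
def genU : Fac Idx.u := Multiplicative.ofAdd (1 : ZMod 3)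

/-- The family of homomorphisms out of the two factors attached to `a ^ 2 = 1`, `b ^ 3 = 1`. -/
noncomputable def facHom {K : Type*} [Group K] (a b : K) (ha : a ^ 2 = 1) (hb : b ^ 3 = 1) :
    ∀ i, Fac i →* K
  | Idx.s => cycHom 2 a ha
  | Idx.u => cycHom 3 b hb

theorem facHom_s {K : Type*} [Group K] (a b : K) (ha : a ^ 2 = 1) (hb : b ^ 3 = 1) :
    facHom a b ha hb Idx.s genS = a := cycHom_gen 2 a ha

theorem facHom_u {K : Type*} [Group K] (a b : K) (ha : a ^ 2 = 1) (hb : b ^ 3 = 1) :
    facHom a b ha hb Idx.u genU = b := cycHom_gen 3 b hb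

theorem fac_s_cases (h : Fac Idx.s) : h = 1 ∨ h = genS := by
  have key : ∀ k : ZMod 2, (Multiplicative.ofAdd k : Multiplicative (ZMod 2)) = 1 ∨
      (Multiplicative.ofAdd k : Multiplicative (ZMod 2)) = genS := by
    intro k
    fin_cases k
    · left; rfl
    · right; rfl
  exact key (Multiplicative.toAdd h)

theorem fac_u_cases (h : Fac Idx.u) : h = 1 ∨ h = genU ∨ h = genU ^ 2 := by
  have key : ∀ k : ZMod 3, (Multiplicative.ofAdd k : Multiplicative (ZMod 3)) = 1 ∨
      (Multiplicative.ofAdd k : Multiplicative (ZMod 3)) = genU ∨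
      (Multiplicative.ofAdd k : Multiplicative (ZMod 3)) = genU ^ 2 := by
    intro k
    fin_cases k
    · left; rfl
    · right; left; rfl
    · right; right; rfl
  exact key (Multiplicative.toAdd h)

/-! ### The action on the upper half plane -/

/-- The action homomorphism `SL(2,ℤ) →* Perm ℍ`. -/
noncomputable def actHom : SL(2, ℤ) →* Equiv.Perm ℍ := MulAction.toPermHom SL(2, ℤ) ℍ

theorem actHom_apply (g : SL(2, ℤ)) (z : ℍ) : actHom g z = g • z := rfl

theorem S_sq : (S : SL(2, ℤ)) ^ 2 = -1 := by decide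

theorem ST_cube : (S * T : SL(2, ℤ)) ^ 3 = -1 := by decide

theorem actHom_neg_one : actHom (-1 : SL(2, ℤ)) = 1 := by
  ext z : 1
  rw [actHom_apply, SL_neg_smul, one_smul]; rfl

theorem actHom_S_sq : (actHom S) ^ 2 = 1 := by
  rw [← map_pow, S_sq, actHom_neg_one]

theorem actHom_ST_cube : (actHom (S * T)) ^ 3 = 1 := by
  rw [← map_pow, ST_cube, actHom_neg_one]

theorem re_S_smul (z : ℍ) : (S • z).re = -z.re / Complex.normSq (z : ℂ) := by
  rw [modular_S_smul]
  show ((-(z : ℂ))⁻¹).re = _
  rw [Complex.inv_re, Complex.normSq_neg, Complex.neg_re]; rfl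

theorem normSq_coe_pos (z : ℍ) : 0 < Complex.normSq (z : ℂ) :=
  Complex.normSq_pos.mpr z.ne_zero

theorem re_S_smul_pos {z : ℍ} (hz : z.re < 0) : 0 < (S • z).re := by
  rw [re_S_smul]
  exact div_pos (by linarith) (normSq_coe_pos z)

theorem re_S_smul_neg {z : ℍ} (hz : 0 < z.re) : (S • z).re < 0 := by
  rw [re_S_smul]
  exact div_neg_of_neg_of_pos (by linarith) (normSq_coe_pos z)

theorem re_ST_smul_neg {z : ℍ} (hz : 0 < z.re) : ((S * T) • z).re < 0 := by
  rw [mul_smul]
  apply re_S_smul_neg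
  rw [re_T_smul]; linarith

/-- `(ST)² z = -1 - 1/z`, in terms of real parts. -/
theorem re_ST_sq_smul_neg {z : ℍ} (hz : 0 < z.re) : (((S * T) ^ 2 : SL(2, ℤ)) • z).re < 0 := by
  have h : ((S * T) ^ 2 : SL(2, ℤ)) = T⁻¹ * S := by decide
  rw [h, mul_smul]
  have h1 : (T⁻¹ • (S • z)).re = (S • z).re - 1 := by
    have := re_T_zpow_smul (S • z) (-1)
    simpa [sub_eq_add_neg] using this
  rw [h1]
  have := re_S_smul_neg hz
  linarith

/-- The ping-pong sets. -/
def pp : Idx → Set ℍ
  | Idx.s => {z | 0 < z.re}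
  | Idx.u => {z | z.re < 0}

/-- The two homomorphisms `C₂ → Perm ℍ`, `C₃ → Perm ℍ`. -/
noncomputable def facAct : ∀ i, Fac i →* Equiv.Perm ℍ :=
  facHom (actHom S) (actHom (S * T)) actHom_S_sq actHom_ST_cube

theorem facAct_genS : facAct Idx.s genS = actHom S := facHom_s _ _ _ _

theorem facAct_genU : facAct Idx.u genU = actHom (S * T) := facHom_u _ _ _ _

theorem facAct_injective : Function.Injective (Monoid.CoprodI.lift facAct) := by
  refine Monoid.CoprodI.lift_injective_of_ping_pong facAct (Or.inr ⟨Idx.u, ?_⟩) pp ?_ ?_ ?_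
  · show 3 ≤ Cardinal.mk (Multiplicative (ZMod 3))
    rw [Cardinal.mk_fintype]
    have : Fintype.card (Multiplicative (ZMod 3)) = 3 := by
      rw [Fintype.card_multiplicative, ZMod.card]
    rw [this]; norm_num
  · intro i
    cases i
    · refine ⟨UpperHalfPlane.mk ⟨1, 1⟩ (by simp), ?_⟩
      show (0 : ℝ) < (UpperHalfPlane.mk ⟨1, 1⟩ (by simp)).re
      simp [UpperHalfPlane.re]
    · refine ⟨UpperHalfPlane.mk ⟨-1, 1⟩ (by simp), ?_⟩
      show (UpperHalfPlane.mk ⟨-1, 1⟩ (by simp)).re < (0 : ℝ)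
      simp [UpperHalfPlane.re]
  · intro i j hij
    cases i <;> cases j
    · exact absurd rfl hij
    · refine Set.disjoint_left.mpr fun z (h1 : 0 < z.re) (h2 : z.re < 0) => ?_
      linarith
    · refine Set.disjoint_left.mpr fun z (h1 : z.re < 0) (h2 : 0 < z.re) => ?_
      linarith
    · exact absurd rfl hij
  · intro i j hij
    cases i <;> cases j
    · exact absurd rfl hij
    · intro h hne
      rcases fac_s_cases h with rfl | rfl
      · exact absurd rfl hne
      · rw [facAct_genS]
        rintro _ ⟨z, hz, rfl⟩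
        exact re_S_smul_pos hz
    · intro h hne
      rcases fac_u_cases h with rfl | rfl | rfl
      · exact absurd rfl hne
      · rw [facAct_genU]
        rintro _ ⟨z, hz, rfl⟩
        exact re_ST_smul_neg hz
      · rw [map_pow, facAct_genU, ← map_pow]
        rintro _ ⟨z, hz, rfl⟩
        exact re_ST_sq_smul_neg hz
    · exact absurd rfl hij

/-- The image of `SL(2,ℤ)` in `Perm ℍ` lies in the image of the free product. -/
theorem actHom_mem_range (g : SL(2, ℤ)) : actHom g ∈ (Monoid.CoprodI.lift facAct).range := by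
  have hS : actHom S ∈ (Monoid.CoprodI.lift facAct).range :=
    ⟨Monoid.CoprodI.of genS, by rw [Monoid.CoprodI.lift_of, facAct_genS]⟩
  have hU : actHom (S * T) ∈ (Monoid.CoprodI.lift facAct).range :=
    ⟨Monoid.CoprodI.of genU, by rw [Monoid.CoprodI.lift_of, facAct_genU]⟩
  have hT : actHom T ∈ (Monoid.CoprodI.lift facAct).range := by
    have : actHom T = (actHom S)⁻¹ * actHom (S * T) := by
      rw [map_mul, inv_mul_cancel_left]
    rw [this]
    exact mul_mem (inv_mem hS) hU
  have hle : (⊤ : Subgroup SL(2, ℤ)) ≤ (Monoid.CoprodI.lift facAct).range.comap actHom := by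
    rw [← SpecialLinearGroup.SL2Z_generators, Subgroup.closure_le]
    rintro x (rfl | rfl)
    · exact hS
    · exact hT
  exact hle (Subgroup.mem_top g)

/-- The presentation homomorphism `SL(2,ℤ) →* C₂ * C₃`. -/
noncomputable def toFree : SL(2, ℤ) →* Monoid.CoprodI Fac :=
  (MonoidHom.ofInjective facAct_injective).symm.toMonoidHom.comp
    (actHom.codRestrict (Monoid.CoprodI.lift facAct).range actHom_mem_range)

theorem lift_toFree (g : SL(2, ℤ)) : Monoid.CoprodI.lift facAct (toFree g) = actHom g := by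
  have h := (MonoidHom.ofInjective facAct_injective).apply_symm_apply
    (actHom.codRestrict (Monoid.CoprodI.lift facAct).range actHom_mem_range g)
  have h2 := congrArg Subtype.val h
  rw [MonoidHom.ofInjective_apply] at h2
  exact h2

theorem toFree_S : toFree S = Monoid.CoprodI.of genS := by
  apply facAct_injective
  rw [lift_toFree, Monoid.CoprodI.lift_of, facAct_genS]

theorem toFree_ST : toFree (S * T) = Monoid.CoprodI.of genU := by
  apply facAct_injective
  rw [lift_toFree, Monoid.CoprodI.lift_of, facAct_genU]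

/-- **Universal property of `SL(2,ℤ)/±1 = C₂ * C₃`.** -/
theorem exists_hom {K : Type*} [Group K] (a b : K) (ha : a ^ 2 = 1) (hb : b ^ 3 = 1) :
    ∃ ρ : SL(2, ℤ) →* K, ρ S = a ∧ ρ (S * T) = b := by
  refine ⟨(Monoid.CoprodI.lift (facHom a b ha hb)).comp toFree, ?_, ?_⟩
  · rw [MonoidHom.comp_apply, toFree_S, Monoid.CoprodI.lift_of, facHom_s]
  · rw [MonoidHom.comp_apply, toFree_ST, Monoid.CoprodI.lift_of, facHom_u]

/-- Variant: the homomorphism also kills `-1`, and is unique. -/
theorem exists_hom_neg_one {K : Type*} [Group K] (a b : K) (ha : a ^ 2 = 1) (hb : b ^ 3 = 1) :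
    ∃ ρ : SL(2, ℤ) →* K, ρ S = a ∧ ρ (S * T) = b ∧ ρ (-1) = 1 ∧ ρ T = a⁻¹ * b := by
  obtain ⟨ρ, h1, h2⟩ := exists_hom a b ha hb
  refine ⟨ρ, h1, h2, ?_, ?_⟩
  · rw [← S_sq, map_pow, h1, ha]
  · rw [← h1, ← h2, map_mul, inv_mul_cancel_left]

/-- Two homomorphisms out of `SL(2,ℤ)` agreeing on `S` and `S * T` are equal. -/
theorem hom_ext {K : Type*} [Group K] {ρ σ : SL(2, ℤ) →* K} (hS : ρ S = σ S)
    (hU : ρ (S * T) = σ (S * T)) : ρ = σ := by
  have hT : ρ T = σ T := by
    have h1 : ρ T = (ρ S)⁻¹ * ρ (S * T) := by rw [map_mul, inv_mul_cancel_left]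
    have h2 : σ T = (σ S)⁻¹ * σ (S * T) := by rw [map_mul, inv_mul_cancel_left]
    rw [h1, h2, hS, hU]
  have hle : (⊤ : Subgroup SL(2, ℤ)) ≤ MonoidHom.eqLocus ρ σ := by
    rw [← SpecialLinearGroup.SL2Z_generators, Subgroup.closure_le]
    rintro x (rfl | rfl)
    · exact hS
    · exact hT
  exact MonoidHom.ext fun g => hle (Subgroup.mem_top g)

end Fermat.Agent.S16.SL2Presentation
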