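/-
S16 helper library (helper8): combinatorial core of the lifting lemma for parabolic homomorphisms.

* `Tw X A` : the group of "twisted permutations" `(x, k) ↦ (σ x, k + f x)` of `X × A`
  (= `Perm X ⋉ (X → A)`); a homomorphism `G →* Tw X A` over the action of `G` on `X` is the same as a
  groupoid cocycle `c : G → X → A`, `c (g h) x = c h x + c g (h x)`.
* `exists_cob` : a function on a finite set all of whose cycle sums along a permutation `π` vanish is
  a `π`-coboundary `g ∘ π - g` (any abelian coefficient group).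
* `exists_decomp` : for two permutations `σ, τ` generating a transitive group, every integer function
  of total sum `0` is `(m₁ ∘ σ - m₁) + (m₂ ∘ τ - m₂)`.
Mathlib only.
-/
import Mathlib

set_option autoImplicit false

namespace Fermat.Agent.S16.TwistGroup

open Equiv

/-- Twisted permutations of `X × A`: pairs `(σ, f)` acting by `(x, k) ↦ (σ x, k + f x)`. -/
@[ext]
structure Tw (X : Type*) (A : Type*) where
  /-- the permutation of the base -/
  perm : Equiv.Perm X
  /-- the translation function -/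
  fn : X → A

namespace Tw

variable {X : Type*} {A : Type*} [AddCommGroup A]

instance : Mul (Tw X A) := ⟨fun a b => ⟨a.perm * b.perm, fun x => b.fn x + a.fn (b.perm x)⟩⟩
instance : One (Tw X A) := ⟨⟨1, fun _ => 0⟩⟩
instance : Inv (Tw X A) := ⟨fun a => ⟨a.perm⁻¹, fun y => - a.fn (a.perm⁻¹ y)⟩⟩

@[simp] theorem mul_perm (a b : Tw X A) : (a * b).perm = a.perm * b.perm := rfl
@[simp] theorem mul_fn (a b : Tw X A) (x : X) : (a * b).fn x = b.fn x + a.fn (b.perm x) := rfl
@[simp] theorem one_perm : (1 : Tw X A).perm = 1 := rfl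
@[simp] theorem one_fn (x : X) : (1 : Tw X A).fn x = 0 := rfl
@[simp] theorem inv_perm (a : Tw X A) : (a⁻¹).perm = a.perm⁻¹ := rfl
@[simp] theorem inv_fn (a : Tw X A) (y : X) : (a⁻¹).fn y = - a.fn (a.perm⁻¹ y) := rfl

instance : Group (Tw X A) :=
  Group.ofLeftAxioms
    (fun a b c => by
      apply Tw.ext
      · simp [mul_assoc]
      · funext x; simp [add_assoc])
    (fun a => by
      apply Tw.ext
      · simp
      · funext x; simp)
    (fun a => by
      apply Tw.ext
      · simp
      · funext x; simp)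

/-- The projection to the permutation part. -/
def permHom : Tw X A →* Equiv.Perm X where
  toFun a := a.perm
  map_one' := rfl
  map_mul' _ _ := rfl

@[simp] theorem permHom_apply (a : Tw X A) : permHom a = a.perm := rfl

/-- Change of coefficients. -/
def map {B : Type*} [AddCommGroup B] (f : A →+ B) : Tw X A →* Tw X B where
  toFun a := ⟨a.perm, fun x => f (a.fn x)⟩
  map_one' := by
    apply Tw.ext
    · rfl
    · funext x; simp
  map_mul' a b := by
    apply Tw.ext
    · rfl
    · funext x; simp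

@[simp] theorem map_perm {B : Type*} [AddCommGroup B] (f : A →+ B) (a : Tw X A) :
    (map f a).perm = a.perm := rfl
@[simp] theorem map_fn {B : Type*} [AddCommGroup B] (f : A →+ B) (a : Tw X A) (x : X) :
    (map f a).fn x = f (a.fn x) := rfl

/-- The coboundary element `(σ, g ∘ σ - g)`. -/
def cob (σ : Equiv.Perm X) (g : X → A) : Tw X A := ⟨σ, fun x => g (σ x) - g x⟩

@[simp] theorem cob_perm (σ : Equiv.Perm X) (g : X → A) : (cob σ g).perm = σ := rfl
@[simp] theorem cob_fn (σ : Equiv.Perm X) (g : X → A) (x : X) :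
    (cob σ g).fn x = g (σ x) - g x := rfl

theorem cob_mul (σ τ : Equiv.Perm X) (g : X → A) : cob σ g * cob τ g = cob (σ * τ) g := by
  apply Tw.ext
  · rfl
  · funext x; simp

theorem cob_one (g : X → A) : cob (1 : Equiv.Perm X) g = 1 := by
  apply Tw.ext
  · rfl
  · funext x; simp

/-- `σ ↦ cob σ g` as a homomorphism. -/
def cobHom (g : X → A) : Equiv.Perm X →* Tw X A where
  toFun σ := cob σ g
  map_one' := cob_one g
  map_mul' σ τ := (cob_mul σ τ g).symm

@[simp] theorem cobHom_apply (g : X → A) (σ : Equiv.Perm X) : cobHom g σ = cob σ g := rfl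

theorem cob_pow (σ : Equiv.Perm X) (g : X → A) (k : ℕ) : cob σ g ^ k = cob (σ ^ k) g := by
  rw [← cobHom_apply, ← map_pow, cobHom_apply]

theorem cob_zpow (σ : Equiv.Perm X) (g : X → A) (k : ℤ) : cob σ g ^ k = cob (σ ^ k) g := by
  rw [← cobHom_apply, ← map_zpow, cobHom_apply]

theorem cob_inv (σ : Equiv.Perm X) (g : X → A) : (cob σ g)⁻¹ = cob σ⁻¹ g := by
  rw [← cobHom_apply, ← map_inv, cobHom_apply]

/-- The translation part of a conjugate. -/
theorem conj_fn (R P : Tw X A) (y : X) :
    (R * P * R⁻¹).fn y =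
      - R.fn (R.perm⁻¹ y) + P.fn (R.perm⁻¹ y) + R.fn (P.perm (R.perm⁻¹ y)) := by
  simp [add_assoc]

end Tw

/-! ### Coboundaries along a permutation -/

section Cob

variable {X : Type*} {A : Type*} [AddCommGroup A]

/-- A function all of whose cycle sums along `π` vanish is a `π`-coboundary. -/
theorem exists_cob [Finite X] (π : Equiv.Perm X) (f : X → A)
    (h : ∀ (x : X) (k : ℕ), (π ^ k) x = x → ∑ i ∈ Finset.range k, f ((π ^ i) x) = 0) :
    ∃ g : X → A, ∀ x, f x = g (π x) - g x := by
  classical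
  let r : X → X := fun x =>
    Quotient.out (s := Perm.SameCycle.setoid π) (Quotient.mk (Perm.SameCycle.setoid π) x)
  have hr : ∀ x, π.SameCycle (r x) x := fun x =>
    Quotient.exact (s := Perm.SameCycle.setoid π) (Quotient.out_eq _)
  have hrπ : ∀ x, r (π x) = r x := by
    intro x
    have hq : Quotient.mk (Perm.SameCycle.setoid π) (π x) =
        Quotient.mk (Perm.SameCycle.setoid π) x :=
      Quotient.sound (s := Perm.SameCycle.setoid π) ⟨-1, by simp⟩
    show Quotient.out (s := Perm.SameCycle.setoid π) (Quotient.mk (Perm.SameCycle.setoid π) (π x))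
      = Quotient.out (s := Perm.SameCycle.setoid π) (Quotient.mk (Perm.SameCycle.setoid π) x)
    rw [hq]
  have hex : ∀ x, ∃ j : ℕ, (π ^ j) (r x) = x := fun x => (hr x).exists_nat_pow_eq
  let J : X → ℕ := fun x => Nat.find (hex x)
  have hJ : ∀ x, (π ^ J x) (r x) = x := fun x => Nat.find_spec (hex x)
  have hJmin : ∀ x j, (π ^ j) (r x) = x → J x ≤ j := fun x j hj => Nat.find_min' (hex x) hj
  refine ⟨fun x => ∑ i ∈ Finset.range (J x), f ((π ^ i) (r x)), fun x => ?_⟩
  have h1 : (π ^ (J x + 1)) (r x) = π x := by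
    rw [pow_succ', Perm.mul_apply, hJ]
  have hle : J (π x) ≤ J x + 1 := hJmin (π x) (J x + 1) (by rw [hrπ]; exact h1)
  have hy : (π ^ J (π x)) (r x) = π x := by
    have := hJ (π x)
    rwa [hrπ] at this
  obtain ⟨k, hk⟩ := Nat.exists_eq_add_of_le hle
  have hper : (π ^ k) (π x) = π x := by
    have h2 : (π ^ (k + J (π x))) (r x) = π x := by
      rw [add_comm, ← hk]; exact h1
    rw [pow_add, Perm.mul_apply, hy] at h2
    exact h2
  have hsum := h (π x) k hper
  have key : ∑ i ∈ Finset.range (J x + 1), f ((π ^ i) (r x)) =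
      ∑ i ∈ Finset.range (J (π x)), f ((π ^ i) (r x)) := by
    rw [hk, Finset.sum_range_add]
    have : ∑ i ∈ Finset.range k, f ((π ^ (J (π x) + i)) (r x)) = 0 := by
      rw [← hsum]
      refine Finset.sum_congr rfl fun i _ => ?_
      rw [add_comm, pow_add, Perm.mul_apply, hy]
    rw [this, add_zero]
  rw [Finset.sum_range_succ, hJ] at key
  show f x = ∑ i ∈ Finset.range (J (π x)), f ((π ^ i) (r (π x))) -
    ∑ i ∈ Finset.range (J x), f ((π ^ i) (r x))
  rw [hrπ, ← key]
  abel

end Cob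

/-! ### The augmentation kernel -/

section Aug

variable {X : Type*}

/-- The functions of the form `(m₁ ∘ σ - m₁) + (m₂ ∘ τ - m₂)`. -/
def cobSpan (σ τ : Equiv.Perm X) : AddSubgroup (X → ℤ) where
  carrier := {v | ∃ m₁ m₂ : X → ℤ, ∀ x, v x = (m₁ (σ x) - m₁ x) + (m₂ (τ x) - m₂ x)}
  zero_mem' := ⟨0, 0, fun x => by simp⟩
  add_mem' := by
    rintro v w ⟨m₁, m₂, hv⟩ ⟨n₁, n₂, hw⟩
    refine ⟨m₁ + n₁, m₂ + n₂, fun x => ?_⟩
    simp only [Pi.add_apply, hv x, hw x]; ring
  neg_mem' := by
    rintro v ⟨m₁, m₂, hv⟩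
    refine ⟨-m₁, -m₂, fun x => ?_⟩
    simp only [Pi.neg_apply, hv x]; ring

theorem mem_cobSpan {σ τ : Equiv.Perm X} {v : X → ℤ} :
    v ∈ cobSpan σ τ ↔ ∃ m₁ m₂ : X → ℤ, ∀ x, v x = (m₁ (σ x) - m₁ x) + (m₂ (τ x) - m₂ x) :=
  Iff.rfl

variable [DecidableEq X]

theorem single_sub_mem_of_left (σ τ : Equiv.Perm X) (x : X) :
    (Pi.single (σ x) 1 - Pi.single x 1 : X → ℤ) ∈ cobSpan σ τ := by
  refine ⟨-Pi.single (σ x) 1, 0, fun y => ?_⟩
  simp only [Pi.sub_apply, Pi.neg_apply, Pi.zero_apply, sub_self, add_zero]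
  have h1 : (Pi.single (σ x) (1 : ℤ) : X → ℤ) (σ y) = (Pi.single x (1 : ℤ) : X → ℤ) y := by
    by_cases hxy : y = x
    · subst hxy; simp
    · rw [Pi.single_eq_of_ne hxy, Pi.single_eq_of_ne (fun h => hxy (σ.injective h))]
  rw [h1]; ring

theorem single_sub_mem_of_right (σ τ : Equiv.Perm X) (x : X) :
    (Pi.single (τ x) 1 - Pi.single x 1 : X → ℤ) ∈ cobSpan σ τ := by
  refine ⟨0, -Pi.single (τ x) 1, fun y => ?_⟩
  simp only [Pi.sub_apply, Pi.neg_apply, Pi.zero_apply, sub_self, zero_add]
  have h1 : (Pi.single (τ x) (1 : ℤ) : X → ℤ) (τ y) = (Pi.single x (1 : ℤ) : X → ℤ) y := by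
    by_cases hxy : y = x
    · subst hxy; simp
    · rw [Pi.single_eq_of_ne hxy, Pi.single_eq_of_ne (fun h => hxy (τ.injective h))]
  rw [h1]; ring

theorem single_sub_mem_of_closure (σ τ : Equiv.Perm X) {w : Equiv.Perm X}
    (hw : w ∈ Subgroup.closure ({σ, τ} : Set (Equiv.Perm X))) (x : X) :
    (Pi.single (w x) 1 - Pi.single x 1 : X → ℤ) ∈ cobSpan σ τ := by
  induction hw using Subgroup.closure_induction generalizing x with
  | mem w hw =>
    rcases hw with rfl | rfl
    · exact single_sub_mem_of_left _ τ x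
    · exact single_sub_mem_of_right σ _ x
  | one => simp
  | mul w w' _ _ ih ih' =>
    have := (cobSpan σ τ).add_mem (ih (w' x)) (ih' x)
    rw [Perm.mul_apply]
    convert this using 1
    abel
  | inv w _ ih =>
    have := (cobSpan σ τ).neg_mem (ih (w⁻¹ x))
    have e : w (w⁻¹ x) = x := by simp
    rw [e] at this
    convert this using 1
    abel

/-- If `⟨σ, τ⟩` is transitive on `X`, every integer function with total sum `0` lies in
`cobSpan σ τ`. -/
theorem exists_decomp [Fintype X] (σ τ : Equiv.Perm X)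
    (htrans : ∀ x y : X, ∃ w ∈ Subgroup.closure ({σ, τ} : Set (Equiv.Perm X)), w x = y)
    (v : X → ℤ) (hv : ∑ x, v x = 0) :
    ∃ m₁ m₂ : X → ℤ, ∀ x, v x = (m₁ (σ x) - m₁ x) + (m₂ (τ x) - m₂ x) := by
  rw [← mem_cobSpan]
  rcases isEmpty_or_nonempty X with hX | ⟨⟨x₀⟩⟩
  · have : v = 0 := funext fun x => (hX.false x).elim
    rw [this]; exact (cobSpan σ τ).zero_mem
  · have hdec : v = ∑ x, v x • (Pi.single x 1 - Pi.single x₀ 1 : X → ℤ) := by
      funext y
      rw [Finset.sum_apply]
      simp only [Pi.smul_apply, Pi.sub_apply, smul_eq_mul, mul_sub, Finset.sum_sub_distrib]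
      rw [← Finset.sum_mul, hv, zero_mul, sub_zero]
      rw [Finset.sum_eq_single y]
      · simp
      · intro x _ hx
        rw [Pi.single_eq_of_ne (Ne.symm hx)]; simp
      · intro h; exact absurd (Finset.mem_univ y) h
    rw [hdec]
    refine (cobSpan σ τ).sum_mem fun x _ => ?_
    obtain ⟨w, hw, hwx⟩ := htrans x₀ x
    have := single_sub_mem_of_closure σ τ hw x₀
    rw [hwx] at this
    exact (cobSpan σ τ).zsmul_mem this _

end Aug

end Fermat.Agent.S16.TwistGroup
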