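/-
S16 helper library (helper8): THE LIFTING LEMMA for parabolic homomorphisms.

`exists_int_lift`: let `Γ ≤ SL(2,ℤ)` be of finite index with `-1 ∈ Γ`, `n ≥ 1`, and
`ψ : Γ → ZMod n` a homomorphism vanishing on every `γ ∈ Γ` with `(trace γ)² ≤ 4` (the elliptic and
parabolic elements and `±1`).  Then `ψ` is the reduction mod `n` of a homomorphism `φ : Γ → ℤ`
vanishing on all `γ` with `(trace γ)² = 4` (`IsParabolicHom Γ φ`).

Proof: Shapiro cocycle on `X = SL(2,ℤ) ⧸ Γ` with values in `ZMod n`; it is a coboundary along each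
of `S`, `ST`, `T` (`TwistGroup.exists_cob`); lift the three potentials to `ℤ`, correct the first two
by multiples of `n` (`TwistGroup.exists_decomp`) so that the `ℤ`-valued cocycle defined through
`PSL(2,ℤ) = C₂ * C₃` (`SL2Presentation.exists_hom`) is still a coboundary along `T`; restrict to `Γ`.
-/
import Mathlib
import Fermat.Prelude.Def_ModularCurve_PeriodMap
import Fermat.Agent.S16.SL2Presentation
import Fermat.Agent.S16.TwistGroup
import Fermat.Agent.S16.ParabolicConj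

set_option autoImplicit false

namespace Fermat.Agent.S16.LiftHom

open Matrix Matrix.SpecialLinearGroup ModularGroup
open scoped MatrixGroups
open Fermat.Agent.S16.TwistGroup

/-! ### The Shapiro cocycle of a homomorphism on a subgroup -/

section Shapiro

variable {G : Type*} [Group G] (Γ : Subgroup G) {A : Type*} [AddCommGroup A]

/-- A set-theoretic section of `G → G ⧸ Γ`. -/
noncomputable def sec (x : G ⧸ Γ) : G := Quotient.out x

theorem mk_sec (x : G ⧸ Γ) : ((sec Γ x : G) : G ⧸ Γ) = x := QuotientGroup.out_eq' x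

theorem smul_eq_mk (g : G) (x : G ⧸ Γ) : g • x = ((g * sec Γ x : G) : G ⧸ Γ) := by
  conv_lhs => rw [← mk_sec Γ x]
  rfl

theorem kmem (g : G) (x : G ⧸ Γ) : (sec Γ (g • x))⁻¹ * (g * sec Γ x) ∈ Γ := by
  rw [← QuotientGroup.eq, mk_sec, smul_eq_mk]

/-- The `Γ`-component of `g` at the coset `x`. -/
noncomputable def kk (g : G) (x : G ⧸ Γ) : Γ := ⟨(sec Γ (g • x))⁻¹ * (g * sec Γ x), kmem Γ g x⟩

theorem coe_kk (g : G) (x : G ⧸ Γ) : (kk Γ g x : G) = (sec Γ (g • x))⁻¹ * (g * sec Γ x) := rfl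

theorem kk_mul (g h : G) (x : G ⧸ Γ) : kk Γ (g * h) x = kk Γ g (h • x) * kk Γ h x := by
  apply Subtype.ext
  rw [Subgroup.coe_mul, coe_kk, coe_kk, coe_kk, mul_smul]
  group

/-- The Shapiro cocycle. -/
noncomputable def coc (ψ : Additive Γ →+ A) (g : G) (x : G ⧸ Γ) : A :=
  ψ (Additive.ofMul (kk Γ g x))

theorem coc_mul (ψ : Additive Γ →+ A) (g h : G) (x : G ⧸ Γ) :
    coc Γ ψ (g * h) x = coc Γ ψ h x + coc Γ ψ g (h • x) := by
  unfold coc
  rw [kk_mul, ofMul_mul, map_add, add_comm]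

/-- The Shapiro cocycle as a homomorphism to the twisted permutation group. -/
noncomputable def cocHom (ψ : Additive Γ →+ A) : G →* Tw (G ⧸ Γ) A :=
  MonoidHom.mk' (fun g => ⟨MulAction.toPerm g, coc Γ ψ g⟩) (fun g h => by
    apply Tw.ext
    · show MulAction.toPerm (g * h) = MulAction.toPerm g * MulAction.toPerm h
      exact map_mul (MulAction.toPermHom G (G ⧸ Γ)) g h
    · funext x
      show coc Γ ψ (g * h) x = coc Γ ψ h x + coc Γ ψ g (MulAction.toPerm h x)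
      exact coc_mul Γ ψ g h x)

@[simp] theorem cocHom_perm (ψ : Additive Γ →+ A) (g : G) :
    (cocHom Γ ψ g).perm = MulAction.toPerm g := rfl

@[simp] theorem cocHom_fn (ψ : Additive Γ →+ A) (g : G) (x : G ⧸ Γ) :
    (cocHom Γ ψ g).fn x = coc Γ ψ g x := rfl

theorem coc_pow (ψ : Additive Γ →+ A) (g : G) (k : ℕ) (x : G ⧸ Γ) :
    ∑ i ∈ Finset.range k, coc Γ ψ g ((MulAction.toPerm g ^ i) x) = coc Γ ψ (g ^ k) x := by
  induction k with
  | zero =>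
    have h := coc_mul Γ ψ 1 1 x
    rw [one_mul, one_smul] at h
    have h0 : coc Γ ψ 1 x = 0 := by simpa using h
    simp [h0]
  | succ k ih =>
    rw [Finset.sum_range_succ, ih, pow_succ', coc_mul]
    congr 1
    have : (MulAction.toPerm g ^ k : Equiv.Perm (G ⧸ Γ)) = MulAction.toPerm (g ^ k) :=
      (map_pow (MulAction.toPermHom G (G ⧸ Γ)) g k).symm
    rw [this]; rfl

/-- The base coset. -/
def base : G ⧸ Γ := ((1 : G) : G ⧸ Γ)

theorem smul_base {γ : G} (hγ : γ ∈ Γ) : γ • base Γ = base Γ := by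
  show ((γ * 1 : G) : G ⧸ Γ) = ((1 : G) : G ⧸ Γ)
  rw [QuotientGroup.eq]
  simpa using hγ

theorem sec_base_mem : sec Γ (base Γ) ∈ Γ := by
  have h := mk_sec Γ (base Γ)
  have := (QuotientGroup.eq (s := Γ) (a := sec Γ (base Γ)) (b := 1)).mp h
  simpa using Γ.inv_mem this

theorem coc_base (ψ : Additive Γ →+ A) (γ : Γ) : coc Γ ψ (γ : G) (base Γ) = ψ (Additive.ofMul γ) := by
  unfold coc
  set s : Γ := ⟨sec Γ (base Γ), sec_base_mem Γ⟩ with hs
  have hk : kk Γ (γ : G) (base Γ) = s⁻¹ * (γ * s) := by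
    apply Subtype.ext
    rw [coe_kk, smul_base Γ γ.2]
    rfl
  rw [hk, ofMul_mul, ofMul_mul, map_add, map_add, ofMul_inv, map_neg]
  abel

end Shapiro

/-! ### Traces of powers of the generators -/

section Traces

theorem trace_S_pow (k : ℕ) : ((S ^ k : SL(2, ℤ)) : Matrix (Fin 2) (Fin 2) ℤ).trace ^ 2 ≤ 4 := by
  have h4 : (S : SL(2, ℤ)) ^ 4 = 1 := by decide
  rw [← Nat.div_add_mod k 4, pow_add, pow_mul, h4, one_pow, one_mul]
  have hlt : k % 4 < 4 := Nat.mod_lt _ (by norm_num)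
  interval_cases (k % 4) <;> decide

theorem trace_ST_pow (k : ℕ) :
    (((S * T) ^ k : SL(2, ℤ)) : Matrix (Fin 2) (Fin 2) ℤ).trace ^ 2 ≤ 4 := by
  have h6 : (S * T : SL(2, ℤ)) ^ 6 = 1 := by decide
  rw [← Nat.div_add_mod k 6, pow_add, pow_mul, h6, one_pow, one_mul]
  have hlt : k % 6 < 6 := Nat.mod_lt _ (by norm_num)
  interval_cases (k % 6) <;> decide

theorem trace_T_pow (k : ℕ) : ((T ^ k : SL(2, ℤ)) : Matrix (Fin 2) (Fin 2) ℤ).trace ^ 2 ≤ 4 := by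
  have h := coe_T_zpow (k : ℤ)
  rw [zpow_natCast] at h
  rw [h, Matrix.trace_fin_two_of]
  norm_num

theorem trace_conj (g s : SL(2, ℤ)) :
    ((s⁻¹ * (g * s) : SL(2, ℤ)) : Matrix (Fin 2) (Fin 2) ℤ).trace =
      (g : Matrix (Fin 2) (Fin 2) ℤ).trace := by
  have h1 : ((s⁻¹ * (g * s) : SL(2, ℤ)) : Matrix (Fin 2) (Fin 2) ℤ) =
      (s⁻¹ : SL(2, ℤ)).1 * (g.1 * s.1) := by
    simp
  have h2 : (s : Matrix (Fin 2) (Fin 2) ℤ) * ((s⁻¹ : SL(2, ℤ)) : Matrix (Fin 2) (Fin 2) ℤ) = 1 := by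
    simp [Matrix.mul_adjugate]
  rw [h1, Matrix.trace_mul_comm, Matrix.mul_assoc, h2, Matrix.mul_one]

end Traces


/-! ### The lifting lemma -/

section Main

variable (Γ : Subgroup SL(2, ℤ))

theorem toPerm_neg_one (hneg : (-1 : SL(2, ℤ)) ∈ Γ) :
    (MulAction.toPerm (-1 : SL(2, ℤ)) : Equiv.Perm (SL(2, ℤ) ⧸ Γ)) = 1 := by
  ext x
  induction x using QuotientGroup.induction_on with
  | H g =>
    show (((-1 : SL(2, ℤ)) * g : SL(2, ℤ)) : SL(2, ℤ) ⧸ Γ) = (g : SL(2, ℤ) ⧸ Γ)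
    rw [QuotientGroup.eq]
    have h1 : ((-1 : SL(2, ℤ)))⁻¹ = -1 := by decide
    have : ((-1 : SL(2, ℤ)) * g)⁻¹ * g = -1 := by
      rw [_root_.mul_inv_rev, h1, mul_assoc, neg_one_mul, mul_neg, inv_mul_cancel]
    rw [this]; exact hneg

theorem coc_inv {A : Type*} [AddCommGroup A] (ψ : Additive Γ →+ A) (g : SL(2, ℤ))
    (y : SL(2, ℤ) ⧸ Γ) : coc Γ ψ g⁻¹ y = - coc Γ ψ g (g⁻¹ • y) := by
  have h := coc_mul Γ ψ g g⁻¹ y
  have h1 := coc_mul Γ ψ 1 1 y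
  rw [one_mul, one_smul] at h1
  have h0 : coc Γ ψ 1 y = 0 := by simpa using h1
  rw [mul_inv_cancel, h0] at h
  exact eq_neg_of_add_eq_zero_left h.symm

theorem coc_cycle_zero {A : Type*} [AddCommGroup A] (ψ : Additive Γ →+ A)
    (hψ : ∀ γ : Γ, ((γ : SL(2, ℤ)) : Matrix (Fin 2) (Fin 2) ℤ).trace ^ 2 ≤ 4 →
      ψ (Additive.ofMul γ) = 0)
    (g : SL(2, ℤ)) (hg : ∀ k : ℕ, ((g ^ k : SL(2, ℤ)) : Matrix (Fin 2) (Fin 2) ℤ).trace ^ 2 ≤ 4)
    (x : SL(2, ℤ) ⧸ Γ) (k : ℕ)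
    (hx : (MulAction.toPerm g ^ k : Equiv.Perm (SL(2, ℤ) ⧸ Γ)) x = x) :
    ∑ i ∈ Finset.range k, coc Γ ψ g ((MulAction.toPerm g ^ i) x) = 0 := by
  rw [coc_pow]
  have hx' : g ^ k • x = x := by
    have : (MulAction.toPerm g ^ k : Equiv.Perm (SL(2, ℤ) ⧸ Γ)) = MulAction.toPerm (g ^ k) :=
      (map_pow (MulAction.toPermHom SL(2, ℤ) (SL(2, ℤ) ⧸ Γ)) g k).symm
    rw [this] at hx; exact hx
  unfold coc
  apply hψ
  rw [coe_kk, hx', trace_conj]
  exact hg k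

theorem toPerm_mem_closure (g : SL(2, ℤ)) :
    (MulAction.toPerm g : Equiv.Perm (SL(2, ℤ) ⧸ Γ)) ∈
      Subgroup.closure ({MulAction.toPerm (S : SL(2, ℤ)), MulAction.toPerm (S * T : SL(2, ℤ))} :
        Set (Equiv.Perm (SL(2, ℤ) ⧸ Γ))) := by
  set C := Subgroup.closure ({MulAction.toPerm (S : SL(2, ℤ)),
    MulAction.toPerm (S * T : SL(2, ℤ))} : Set (Equiv.Perm (SL(2, ℤ) ⧸ Γ))) with hC
  have hS : (MulAction.toPerm (S : SL(2, ℤ)) : Equiv.Perm (SL(2, ℤ) ⧸ Γ)) ∈ C :=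
    Subgroup.subset_closure (Set.mem_insert _ _)
  have hU : (MulAction.toPerm (S * T : SL(2, ℤ)) : Equiv.Perm (SL(2, ℤ) ⧸ Γ)) ∈ C :=
    Subgroup.subset_closure (Set.mem_insert_of_mem _ rfl)
  have hT : (MulAction.toPerm (T : SL(2, ℤ)) : Equiv.Perm (SL(2, ℤ) ⧸ Γ)) ∈ C := by
    have e : (MulAction.toPerm (T : SL(2, ℤ)) : Equiv.Perm (SL(2, ℤ) ⧸ Γ)) =
        (MulAction.toPerm (S : SL(2, ℤ)))⁻¹ * MulAction.toPerm (S * T : SL(2, ℤ)) := by
      have := map_mul (MulAction.toPermHom SL(2, ℤ) (SL(2, ℤ) ⧸ Γ)) S T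
      simp only [MulAction.toPermHom_apply] at this
      rw [this, inv_mul_cancel_left]
    rw [e]; exact C.mul_mem (C.inv_mem hS) hU
  have hle : (⊤ : Subgroup SL(2, ℤ)) ≤ C.comap (MulAction.toPermHom SL(2, ℤ) (SL(2, ℤ) ⧸ Γ)) := by
    rw [← SpecialLinearGroup.SL2Z_generators, Subgroup.closure_le]
    rintro x (rfl | rfl)
    · exact hS
    · exact hT
  exact hle (Subgroup.mem_top g)

/-- **The lifting lemma.** -/
theorem exists_int_lift [Γ.FiniteIndex] (hneg : (-1 : SL(2, ℤ)) ∈ Γ) (n : ℕ) [NeZero n]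
    (ψ : Additive Γ →+ ZMod n)
    (hψ : ∀ γ : Γ, ((γ : SL(2, ℤ)) : Matrix (Fin 2) (Fin 2) ℤ).trace ^ 2 ≤ 4 →
      ψ (Additive.ofMul γ) = 0) :
    ∃ φ : Additive Γ →+ ℤ, ModularCurve.Period.IsParabolicHom Γ φ ∧
      ∀ γ : Additive Γ, ((φ γ : ℤ) : ZMod n) = ψ γ := by
  classical
  have : Finite (SL(2, ℤ) ⧸ Γ) := Subgroup.finite_quotient_of_finiteIndex
  let _ : Fintype (SL(2, ℤ) ⧸ Γ) := Fintype.ofFinite _
  -- the three permutations
  obtain ⟨pS, hpS⟩ : ∃ p : Equiv.Perm (SL(2, ℤ) ⧸ Γ), p = MulAction.toPerm (S : SL(2, ℤ)) :=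
    ⟨_, rfl⟩
  obtain ⟨pU, hpU⟩ : ∃ p : Equiv.Perm (SL(2, ℤ) ⧸ Γ), p = MulAction.toPerm (S * T : SL(2, ℤ)) :=
    ⟨_, rfl⟩
  obtain ⟨pT, hpT⟩ : ∃ p : Equiv.Perm (SL(2, ℤ) ⧸ Γ), p = MulAction.toPerm (T : SL(2, ℤ)) :=
    ⟨_, rfl⟩
  have hUT : pU = pS * pT := by
    rw [hpU, hpS, hpT]
    exact map_mul (MulAction.toPermHom SL(2, ℤ) (SL(2, ℤ) ⧸ Γ)) S T
  have hS2 : pS ^ 2 = 1 := by
    rw [hpS]
    have := map_pow (MulAction.toPermHom SL(2, ℤ) (SL(2, ℤ) ⧸ Γ)) S 2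
    simp only [MulAction.toPermHom_apply] at this
    rw [← this, SL2Presentation.S_sq, toPerm_neg_one Γ hneg]
  have hU3 : pU ^ 3 = 1 := by
    rw [hpU]
    have := map_pow (MulAction.toPermHom SL(2, ℤ) (SL(2, ℤ) ⧸ Γ)) (S * T) 3
    simp only [MulAction.toPermHom_apply] at this
    rw [← this, SL2Presentation.ST_cube, toPerm_neg_one Γ hneg]
  -- potentials mod n
  obtain ⟨gS0, hgS0⟩ := exists_cob pS (coc Γ ψ S) (fun x k hx => by
    rw [hpS] at hx ⊢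
    exact coc_cycle_zero Γ ψ hψ S trace_S_pow x k hx)
  obtain ⟨gU0, hgU0⟩ := exists_cob pU (coc Γ ψ (S * T)) (fun x k hx => by
    rw [hpU] at hx ⊢
    exact coc_cycle_zero Γ ψ hψ (S * T) trace_ST_pow x k hx)
  obtain ⟨gT0, hgT0⟩ := exists_cob pT (coc Γ ψ T) (fun x k hx => by
    rw [hpT] at hx ⊢
    exact coc_cycle_zero Γ ψ hψ T trace_T_pow x k hx)
  -- integer lifts
  have hL : ∀ a : ZMod n, (((ZMod.cast a : ℤ)) : ZMod n) = a := fun a => ZMod.intCast_zmod_cast a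
  obtain ⟨gS, hgS⟩ : ∃ g : SL(2, ℤ) ⧸ Γ → ℤ, ∀ x, ((g x : ℤ) : ZMod n) = gS0 x :=
    ⟨fun x => ZMod.cast (gS0 x), fun x => hL _⟩
  obtain ⟨gU, hgU⟩ : ∃ g : SL(2, ℤ) ⧸ Γ → ℤ, ∀ x, ((g x : ℤ) : ZMod n) = gU0 x :=
    ⟨fun x => ZMod.cast (gU0 x), fun x => hL _⟩
  obtain ⟨gT, hgT⟩ : ∃ g : SL(2, ℤ) ⧸ Γ → ℤ, ∀ x, ((g x : ℤ) : ZMod n) = gT0 x :=
    ⟨fun x => ZMod.cast (gT0 x), fun x => hL _⟩
  -- the cocycle at `T`
  have hcT : ∀ x, coc Γ ψ T x = coc Γ ψ (S * T) x - coc Γ ψ S (pT x) := by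
    intro x
    have e : (T : SL(2, ℤ)) = S⁻¹ * (S * T) := by group
    conv_lhs => rw [e]
    rw [coc_mul, coc_inv, sub_eq_add_neg]
    congr 3
    rw [hpT, ← mul_smul, inv_mul_cancel_left]; rfl
  -- the defect `v`
  have hdiv : ∀ x, (n : ℤ) ∣
      ((gU (pU x) - gU x) - (gS (pS (pT x)) - gS (pT x))) - (gT (pT x) - gT x) := by
    intro x
    rw [← ZMod.intCast_zmod_eq_zero_iff_dvd]
    push_cast
    rw [hgU, hgU, hgS, hgS, hgT, hgT, ← hgU0, ← hgS0, ← hgT0, hcT]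
    ring
  choose v hv using hdiv
  have hvsum : ∑ x, v x = 0 := by
    have hn : (n : ℤ) ≠ 0 := by exact_mod_cast NeZero.ne n
    have h1 : (n : ℤ) * ∑ x, v x = 0 := by
      rw [Finset.mul_sum]
      simp only [← hv]
      simp only [Finset.sum_sub_distrib]
      have e1 : ∑ x, gU (pU x) = ∑ x, gU x := Equiv.sum_comp pU gU
      have e2 : ∑ x, gS (pS (pT x)) = ∑ x, gS x :=
        (Equiv.sum_comp pT (fun y => gS (pS y))).trans (Equiv.sum_comp pS gS)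
      have e3 : ∑ x, gS (pT x) = ∑ x, gS x := Equiv.sum_comp pT gS
      have e4 : ∑ x, gT (pT x) = ∑ x, gT x := Equiv.sum_comp pT gT
      rw [e1, e2, e3, e4]; ring
    exact (mul_eq_zero.mp h1).resolve_left hn
  -- decompose `v`
  have htrans : ∀ x y : SL(2, ℤ) ⧸ Γ,
      ∃ w ∈ Subgroup.closure ({pS, pU} : Set (Equiv.Perm (SL(2, ℤ) ⧸ Γ))), w x = y := by
    intro x y
    obtain ⟨g, hg⟩ := MulAction.exists_smul_eq SL(2, ℤ) x y
    refine ⟨MulAction.toPerm g, ?_, hg⟩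
    rw [hpS, hpU]
    exact toPerm_mem_closure Γ g
  obtain ⟨m₁, m₂, hm⟩ := exists_decomp pS pU htrans v hvsum
  -- corrected potentials
  obtain ⟨gS', hgS'⟩ : ∃ g : SL(2, ℤ) ⧸ Γ → ℤ, ∀ x, g x = gS x + n * m₁ x := ⟨_, fun _ => rfl⟩
  obtain ⟨gU', hgU'⟩ : ∃ g : SL(2, ℤ) ⧸ Γ → ℤ, ∀ x, g x = gU x - n * m₂ x := ⟨_, fun _ => rfl⟩
  obtain ⟨gT', hgT'⟩ : ∃ g : SL(2, ℤ) ⧸ Γ → ℤ, ∀ x, g x = gT x - n * (m₁ (pS x) - m₁ x) :=
    ⟨_, fun _ => rfl⟩
  -- the integral cocycle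
  have ha : Tw.cob pS gS' ^ 2 = 1 := by rw [Tw.cob_pow, hS2, Tw.cob_one]
  have hb : Tw.cob pU gU' ^ 3 = 1 := by rw [Tw.cob_pow, hU3, Tw.cob_one]
  obtain ⟨ρ, hρS, hρU, hρneg, hρT⟩ :=
    SL2Presentation.exists_hom_neg_one (Tw.cob pS gS') (Tw.cob pU gU') ha hb
  have hρT' : ρ T = Tw.cob pT gT' := by
    rw [hρT]
    apply Tw.ext
    · rw [Tw.mul_perm, Tw.inv_perm, Tw.cob_perm, Tw.cob_perm, Tw.cob_perm, hUT, inv_mul_cancel_left]
    · funext x
      have e : pS⁻¹ (pU x) = pT x := by rw [hUT]; simp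
      have e' : pS (pT x) = pU x := by rw [hUT]; rfl
      simp only [Tw.mul_fn, Tw.inv_fn, Tw.cob_perm, Tw.cob_fn, e, e']
      have h1 := hv x
      have h2 := hm x
      have h3 := hm (pT x)
      rw [e'] at h1
      rw [hgS', hgS', hgU', hgU', hgT', hgT', e']
      have hSS : pS (pU x) = pT x := by
        have : pS (pS (pT x)) = pT x := by
          have := congrArg (fun q : Equiv.Perm (SL(2, ℤ) ⧸ Γ) => q (pT x)) hS2
          simpa [pow_two] using this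
        rw [← e']; exact this
      linear_combination h1 + (n : ℤ) * h2
  -- permutation part
  have hperm : ∀ g : SL(2, ℤ), (ρ g).perm = MulAction.toPerm g := by
    have : (Tw.permHom).comp ρ = MulAction.toPermHom SL(2, ℤ) (SL(2, ℤ) ⧸ Γ) := by
      apply SL2Presentation.hom_ext
      · rw [MonoidHom.comp_apply, hρS, Tw.permHom_apply, Tw.cob_perm, hpS]; rfl
      · rw [MonoidHom.comp_apply, hρU, Tw.permHom_apply, Tw.cob_perm, hpU]; rfl
    intro g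
    exact congrArg (fun f : SL(2, ℤ) →* Equiv.Perm (SL(2, ℤ) ⧸ Γ) => f g) this
  -- reduction mod n
  have hred : ∀ (g : SL(2, ℤ)) (x : SL(2, ℤ) ⧸ Γ), (((ρ g).fn x : ℤ) : ZMod n) = coc Γ ψ g x := by
    have : (Tw.map (Int.castAddHom (ZMod n))).comp ρ = cocHom Γ ψ := by
      apply SL2Presentation.hom_ext
      · rw [MonoidHom.comp_apply, hρS]
        apply Tw.ext
        · rw [Tw.map_perm, Tw.cob_perm, cocHom_perm, hpS]
        · funext x
          rw [Tw.map_fn, Tw.cob_fn, cocHom_fn, hgS0, hgS', hgS']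
          simp [hgS]
      · rw [MonoidHom.comp_apply, hρU]
        apply Tw.ext
        · rw [Tw.map_perm, Tw.cob_perm, cocHom_perm, hpU]
        · funext x
          rw [Tw.map_fn, Tw.cob_fn, cocHom_fn, hgU0, hgU', hgU']
          simp [hgU]
    intro g x
    have h := congrArg (fun f : SL(2, ℤ) →* Tw (SL(2, ℤ) ⧸ Γ) (ZMod n) => (f g).fn x) this
    simpa using h
  -- the homomorphism
  have hfix : ∀ γ : Γ, (ρ (γ : SL(2, ℤ))).perm (base Γ) = base Γ := by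
    intro γ
    rw [hperm]
    exact smul_base Γ γ.2
  let φ : Additive Γ →+ ℤ := AddMonoidHom.mk'
    (fun γ => (ρ ((Additive.toMul γ : Γ) : SL(2, ℤ))).fn (base Γ)) (fun γ γ' => by
      show (ρ (((Additive.toMul γ * Additive.toMul γ' : Γ)) : SL(2, ℤ))).fn (base Γ) = _
      rw [Subgroup.coe_mul, map_mul, Tw.mul_fn, hfix, add_comm])
  refine ⟨φ, ?_, ?_⟩
  · -- parabolic
    intro γ htr
    show (ρ (γ : SL(2, ℤ))).fn (base Γ) = 0
    obtain ⟨g, k, hk⟩ := ParabolicConj.exists_conj_T_zpow (γ : SL(2, ℤ)) htr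
    have hργ : ρ (γ : SL(2, ℤ)) = ρ g * Tw.cob (pT ^ k) gT' * (ρ g)⁻¹ := by
      rcases hk with hk | hk
      · rw [hk, map_mul, map_mul, map_zpow, map_inv, hρT', Tw.cob_zpow]
      · rw [hk, ← neg_one_mul, map_mul, hρneg, one_mul, map_mul, map_mul, map_zpow, map_inv, hρT',
          Tw.cob_zpow]
    have hfixγ := hfix γ
    rw [hργ] at hfixγ ⊢
    rw [Tw.conj_fn]
    have hz : (pT ^ k) ((ρ g).perm⁻¹ (base Γ)) = (ρ g).perm⁻¹ (base Γ) := by
      have h1 : (ρ g).perm ((pT ^ k) ((ρ g).perm⁻¹ (base Γ))) = base Γ := by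
        simpa using hfixγ
      have h2 := congrArg (fun y => (ρ g).perm⁻¹ y) h1
      simpa using h2
    rw [Tw.cob_perm, Tw.cob_fn, hz]
    ring
  · -- reduction
    intro γ
    show (((ρ ((Additive.toMul γ : Γ) : SL(2, ℤ))).fn (base Γ) : ℤ) : ZMod n) = ψ γ
    rw [hred, coc_base]
    rfl

end Main

/-! ### Consumer forms for `Γ₀(N)` -/

section Gamma0

open CongruenceSubgroup

theorem neg_one_mem_Gamma0 (N : ℕ) : (-1 : SL(2, ℤ)) ∈ Gamma0 N := by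
  rw [Gamma0_mem]
  simp

/-- Lifting lemma for `Γ₀(N)`, trace form. -/
theorem exists_int_lift_Gamma0 (N : ℕ) [NeZero N] (n : ℕ) [NeZero n]
    (ψ : Additive (Gamma0 N) →+ ZMod n)
    (hψ : ∀ γ : Gamma0 N, ((γ : SL(2, ℤ)) : Matrix (Fin 2) (Fin 2) ℤ).trace ^ 2 ≤ 4 →
      ψ (Additive.ofMul γ) = 0) :
    ∃ φ : Additive (Gamma0 N) →+ ℤ, ModularCurve.Period.IsParabolicHom (Gamma0 N) φ ∧
      ∀ γ : Additive (Gamma0 N), ((φ γ : ℤ) : ZMod n) = ψ γ :=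
  exists_int_lift (Gamma0 N) (neg_one_mem_Gamma0 N) n ψ hψ

/-- Cayley–Hamilton for `2 × 2` integer matrices of determinant `1`. -/
theorem sq_eq_of_det_one (M : Matrix (Fin 2) (Fin 2) ℤ) (hdet : M.det = 1) :
    M * M = M.trace • M - 1 := by
  rw [Matrix.det_fin_two] at hdet
  ext i j
  fin_cases i <;> fin_cases j <;>
    simp only [Matrix.mul_apply, Fin.sum_univ_two, Matrix.trace_fin_two, Matrix.sub_apply,
      Matrix.smul_apply, smul_eq_mul, Fin.zero_eta, Fin.mk_one, Matrix.one_apply_eq, ne_eq,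
      zero_ne_one, one_ne_zero, not_false_eq_true, Matrix.one_apply_ne, sub_zero] <;>
    first | ring1 | linear_combination hdet | linear_combination (-1 : ℤ) * hdet

/-- An element of `SL(2,ℤ)` with `|trace| ≤ 1` has order dividing `12`. -/
theorem pow_twelve_eq_one_of_trace (g : SL(2, ℤ))
    (h : (g : Matrix (Fin 2) (Fin 2) ℤ).trace ^ 2 < 4) : g ^ 12 = 1 := by
  have hCH := sq_eq_of_det_one (g : Matrix (Fin 2) (Fin 2) ℤ) g.det_coe
  obtain ⟨t, ht⟩ : ∃ t : ℤ, t = (g : Matrix (Fin 2) (Fin 2) ℤ).trace := ⟨_, rfl⟩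
  rw [← ht] at h hCH
  have ht3 : t = 0 ∨ t = 1 ∨ t = -1 := by
    have h1 : t < 2 := by nlinarith
    have h2 : -2 < t := by nlinarith
    omega
  obtain ⟨M, hM⟩ : ∃ M : Matrix (Fin 2) (Fin 2) ℤ, M = (g : Matrix (Fin 2) (Fin 2) ℤ) := ⟨_, rfl⟩
  rw [← hM] at hCH
  have hsq : M ^ 2 = t • M - 1 := by rw [pow_two]; exact hCH
  have hM12 : M ^ 12 = 1 := by
    rcases ht3 with h0 | h1 | h1
    · rw [h0, zero_smul, zero_sub] at hsq
      have : M ^ 12 = (M ^ 2) ^ 6 := by rw [← pow_mul]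
      rw [this, hsq]
      exact Even.neg_one_pow (by decide)
    · rw [h1, one_smul] at hsq
      have h3 : M ^ 3 = -1 := by
        have : M ^ 3 = M ^ 2 * M := by rw [pow_succ]
        rw [this, hsq, sub_mul, one_mul, ← pow_two, hsq]
        abel
      have : M ^ 12 = (M ^ 3) ^ 4 := by rw [← pow_mul]
      rw [this, h3]
      exact Even.neg_one_pow (by decide)
    · rw [h1, neg_one_smul] at hsq
      have h3 : M ^ 3 = 1 := by
        have : M ^ 3 = M ^ 2 * M := by rw [pow_succ]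
        rw [this, hsq, sub_mul, one_mul, neg_mul, ← pow_two, hsq]
        abel
      have : M ^ 12 = (M ^ 3) ^ 4 := by rw [← pow_mul]
      rw [this, h3]
      simp
  apply Subtype.ext
  simp [← hM, hM12]

/-- Lifting lemma for `Γ₀(N)`, in the form "parabolic and kills the elements of finite order". -/
theorem exists_int_lift_Gamma0' (N : ℕ) [NeZero N] (n : ℕ) [NeZero n]
    (ψ : Additive (Gamma0 N) →+ ZMod n)
    (hpar : ModularCurve.Period.IsParabolicHom (Gamma0 N) ψ)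
    (htors : ∀ g : Gamma0 N, IsOfFinOrder g → ψ (Additive.ofMul g) = 0) :
    ∃ φ : Additive (Gamma0 N) →+ ℤ, ModularCurve.Period.IsParabolicHom (Gamma0 N) φ ∧
      ∀ γ : Additive (Gamma0 N), ((φ γ : ℤ) : ZMod n) = ψ γ := by
  refine exists_int_lift_Gamma0 N n ψ fun γ hγ => ?_
  rcases eq_or_lt_of_le hγ with h | h
  · exact hpar γ h
  · apply htors
    rw [isOfFinOrder_iff_pow_eq_one]
    refine ⟨12, by norm_num, ?_⟩
    apply Subtype.ext
    rw [Subgroup.coe_pow, Subgroup.coe_one]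
    exact pow_twelve_eq_one_of_trace (γ : SL(2, ℤ)) h

end Gamma0

end Fermat.Agent.S16.LiftHom
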