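/-
S16, lower bound, block (P2): coset-formula Hecke operators on `Hom(Γ₀(N), A)` and the
Shimura character.

* `CosetSystem G I`: a finite family of integer matrices `al i` (nonzero determinant) which is
  stable under right multiplication by `G` up to left `G`-multiples, and pairwise inequivalent
  under left multiplication by `G`.  It yields, for `g : G`, a permutation `perm g` of `I` and
  elements `fac g i : G` with `al i * g = fac g i * al (perm g i)`.
* `CosetSystem.heckeHom`: `(heckeHom φ) g = ∑ i, φ (fac g i)`.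
* `cosetT N l` (index `Option (Fin l)`, `none ↦ !![l,0;0,1]`, `some j ↦ !![1,j;0,l]`) for a prime
  `l ∤ N`, and `cosetU N q` (index `Fin q`, `j ↦ !![1,j;0,q]`) for a prime `q ∣ N`, both for
  `Γ₀(N)`.
* `shimura χ = χ ∘ (d mod N)` and its eigen-properties.
-/
import Mathlib
import Fermat.Prelude.Def_ModularCurve_PeriodMap

set_option autoImplicit false

namespace Fermat.Agent.S16.HeckeHom

open scoped MatrixGroups
open Matrix CongruenceSubgroup

/-- The integer matrix underlying an element of a subgroup of `SL(2, ℤ)`. -/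
def mat {G : Subgroup SL(2, ℤ)} (g : G) : Matrix (Fin 2) (Fin 2) ℤ :=
  ((g : SL(2, ℤ)) : Matrix (Fin 2) (Fin 2) ℤ)

section mat

variable {G : Subgroup SL(2, ℤ)}

theorem mat_one : mat (1 : G) = 1 := by
  simp [mat]

theorem mat_mul (g h : G) : mat (g * h) = mat g * mat h := by
  simp [mat]

theorem mat_inv_mul (g : G) : mat g⁻¹ * mat g = 1 := by
  rw [← mat_mul, inv_mul_cancel, mat_one]

theorem mat_mul_inv (g : G) : mat g * mat g⁻¹ = 1 := by
  rw [← mat_mul, mul_inv_cancel, mat_one]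

theorem mat_det (g : G) : (mat g).det = 1 := (g : SL(2, ℤ)).2

theorem mat_injective : Function.Injective (mat : G → Matrix (Fin 2) (Fin 2) ℤ) := by
  intro g h hgh
  exact Subtype.ext (Subtype.ext hgh)

end mat

/-- Right cancellation of an integer matrix with nonzero determinant. -/
theorem mul_right_cancel_of_det_ne_zero {A B M : Matrix (Fin 2) (Fin 2) ℤ} (hM : M.det ≠ 0)
    (h : A * M = B * M) : A = B := by
  have h1 : A * M * M.adjugate = B * M * M.adjugate := by rw [h]
  rw [Matrix.mul_assoc, Matrix.mul_assoc, Matrix.mul_adjugate] at h1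
  ext i j
  have h2 := congrFun (congrFun h1 i) j
  simp only [Matrix.mul_smul, Matrix.mul_one, Matrix.smul_apply, smul_eq_mul] at h2
  exact mul_left_cancel₀ hM h2

/-- A Hecke coset system for the subgroup `G`. -/
structure CosetSystem (G : Subgroup SL(2, ℤ)) (I : Type) [Fintype I] [DecidableEq I] where
  /-- the coset representatives -/
  al : I → Matrix (Fin 2) (Fin 2) ℤ
  det_ne : ∀ i, (al i).det ≠ 0
  ex : ∀ (g : G) (i : I), ∃ (i' : I) (g' : G), al i * mat g = mat g' * al i'
  uniq : ∀ (i i' : I) (g : G), al i = mat g * al i' → i = i'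

namespace CosetSystem

variable {G : Subgroup SL(2, ℤ)} {I : Type} [Fintype I] [DecidableEq I] (C : CosetSystem G I)

/-- The index permutation induced by right multiplication with `g`. -/
noncomputable def perm (g : G) (i : I) : I := (C.ex g i).choose

/-- The `G`-factor in `al i * g = fac g i * al (perm g i)`. -/
noncomputable def fac (g : G) (i : I) : G := (C.ex g i).choose_spec.choose

theorem spec (g : G) (i : I) : C.al i * mat g = mat (C.fac g i) * C.al (C.perm g i) :=
  (C.ex g i).choose_spec.choose_spec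

theorem eq_of_spec {g g' : G} {i i' : I} (h : C.al i * mat g = mat g' * C.al i') :
    i' = C.perm g i ∧ g' = C.fac g i := by
  have h1 : mat (C.fac g i) * C.al (C.perm g i) = mat g' * C.al i' := by rw [← C.spec, h]
  have h2 : C.al (C.perm g i) = mat ((C.fac g i)⁻¹ * g') * C.al i' := by
    rw [mat_mul, Matrix.mul_assoc, ← h1, ← Matrix.mul_assoc, mat_inv_mul, Matrix.one_mul]
  have h3 : C.perm g i = i' := C.uniq _ _ _ h2
  refine ⟨h3.symm, ?_⟩
  rw [h3] at h1
  exact (mat_injective (mul_right_cancel_of_det_ne_zero (C.det_ne i') h1)).symm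

theorem perm_one (i : I) : C.perm 1 i = i := by
  have h : C.al i * mat (1 : G) = mat (1 : G) * C.al i := by
    rw [mat_one, Matrix.mul_one, Matrix.one_mul]
  exact (C.eq_of_spec h).1.symm

theorem fac_one (i : I) : C.fac 1 i = 1 := by
  have h : C.al i * mat (1 : G) = mat (1 : G) * C.al i := by
    rw [mat_one, Matrix.mul_one, Matrix.one_mul]
  exact (C.eq_of_spec h).2.symm

theorem spec_mul (g h : G) (i : I) :
    C.al i * mat (g * h) =
      mat (C.fac g i * C.fac h (C.perm g i)) * C.al (C.perm h (C.perm g i)) := by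
  rw [mat_mul, ← Matrix.mul_assoc, C.spec g i, Matrix.mul_assoc, C.spec h (C.perm g i),
    ← Matrix.mul_assoc, ← mat_mul]

theorem perm_mul (g h : G) (i : I) : C.perm (g * h) i = C.perm h (C.perm g i) :=
  (C.eq_of_spec (C.spec_mul g h i)).1.symm

theorem fac_mul (g h : G) (i : I) : C.fac (g * h) i = C.fac g i * C.fac h (C.perm g i) :=
  (C.eq_of_spec (C.spec_mul g h i)).2.symm

theorem perm_inv_perm (g : G) (i : I) : C.perm g⁻¹ (C.perm g i) = i := by
  rw [← C.perm_mul, mul_inv_cancel, C.perm_one]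

theorem perm_perm_inv (g : G) (i : I) : C.perm g (C.perm g⁻¹ i) = i := by
  rw [← C.perm_mul, inv_mul_cancel, C.perm_one]

/-- `perm g` as an equivalence. -/
noncomputable def permEquiv (g : G) : I ≃ I where
  toFun := C.perm g
  invFun := C.perm g⁻¹
  left_inv := C.perm_inv_perm g
  right_inv := C.perm_perm_inv g

@[simp] theorem permEquiv_apply (g : G) (i : I) : C.permEquiv g i = C.perm g i := rfl

theorem perm_bijective (g : G) : Function.Bijective (C.perm g) := (C.permEquiv g).bijective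

variable {A : Type*} [AddCommGroup A]

/-- The coset-formula Hecke operator on `Hom(G, A)`. -/
noncomputable def heckeHom (φ : Additive G →+ A) : Additive G →+ A where
  toFun γ := ∑ i, φ (Additive.ofMul (C.fac (Additive.toMul γ) i))
  map_zero' := by
    show ∑ i, φ (Additive.ofMul (C.fac (1 : G) i)) = 0
    simp only [C.fac_one, ofMul_one, map_zero, Finset.sum_const_zero]
  map_add' γ δ := by
    show ∑ i, φ (Additive.ofMul (C.fac (Additive.toMul γ * Additive.toMul δ) i)) =
      ∑ i, φ (Additive.ofMul (C.fac (Additive.toMul γ) i)) +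
        ∑ i, φ (Additive.ofMul (C.fac (Additive.toMul δ) i))
    simp only [C.fac_mul, ofMul_mul, map_add, Finset.sum_add_distrib]
    congr 1
    exact (C.permEquiv (Additive.toMul γ)).sum_comp
      (fun i => φ (Additive.ofMul (C.fac (Additive.toMul δ) i)))

theorem heckeHom_apply (φ : Additive G →+ A) (g : G) :
    C.heckeHom φ (Additive.ofMul g) = ∑ i, φ (Additive.ofMul (C.fac g i)) := rfl

theorem heckeHom_add (φ ψ : Additive G →+ A) :
    C.heckeHom (φ + ψ) = C.heckeHom φ + C.heckeHom ψ := by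
  refine AddMonoidHom.ext fun g => ?_
  show ∑ i, (φ + ψ) (Additive.ofMul (C.fac (Additive.toMul g) i)) =
    ∑ i, φ (Additive.ofMul (C.fac (Additive.toMul g) i)) +
      ∑ i, ψ (Additive.ofMul (C.fac (Additive.toMul g) i))
  simp only [AddMonoidHom.add_apply, Finset.sum_add_distrib]

theorem heckeHom_zero : C.heckeHom (0 : Additive G →+ A) = 0 := by
  refine AddMonoidHom.ext fun g => ?_
  show ∑ i, (0 : Additive G →+ A) (Additive.ofMul (C.fac (Additive.toMul g) i)) = 0
  simp only [AddMonoidHom.zero_apply, Finset.sum_const_zero]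

theorem heckeHom_neg (φ : Additive G →+ A) : C.heckeHom (-φ) = -C.heckeHom φ := by
  refine AddMonoidHom.ext fun g => ?_
  show ∑ i, (-φ) (Additive.ofMul (C.fac (Additive.toMul g) i)) =
    -∑ i, φ (Additive.ofMul (C.fac (Additive.toMul g) i))
  simp only [AddMonoidHom.neg_apply, Finset.sum_neg_distrib]

theorem heckeHom_sub (φ ψ : Additive G →+ A) :
    C.heckeHom (φ - ψ) = C.heckeHom φ - C.heckeHom ψ := by
  rw [sub_eq_add_neg, heckeHom_add, heckeHom_neg, sub_eq_add_neg]

theorem heckeHom_nsmul (n : ℕ) (φ : Additive G →+ A) :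
    C.heckeHom (n • φ) = n • C.heckeHom φ := by
  refine AddMonoidHom.ext fun g => ?_
  show ∑ i, (n • φ) (Additive.ofMul (C.fac (Additive.toMul g) i)) =
    n • ∑ i, φ (Additive.ofMul (C.fac (Additive.toMul g) i))
  simp only [AddMonoidHom.coe_smul, Pi.smul_apply, Finset.smul_sum]

theorem heckeHom_zsmul (n : ℤ) (φ : Additive G →+ A) :
    C.heckeHom (n • φ) = n • C.heckeHom φ := by
  refine AddMonoidHom.ext fun g => ?_
  show ∑ i, (n • φ) (Additive.ofMul (C.fac (Additive.toMul g) i)) =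
    n • ∑ i, φ (Additive.ofMul (C.fac (Additive.toMul g) i))
  simp only [AddMonoidHom.coe_smul, Pi.smul_apply, Finset.smul_sum]

/-- Naturality in the coefficient group. -/
theorem heckeHom_comp {B : Type*} [AddCommGroup B] (f : A →+ B) (φ : Additive G →+ A) :
    C.heckeHom (f.comp φ) = f.comp (C.heckeHom φ) := by
  refine AddMonoidHom.ext fun g => ?_
  show ∑ i, (f.comp φ) (Additive.ofMul (C.fac (Additive.toMul g) i)) =
    f (∑ i, φ (Additive.ofMul (C.fac (Additive.toMul g) i)))
  simp only [AddMonoidHom.coe_comp, Function.comp_apply, map_sum]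

/-- `heckeHom` as an additive endomorphism of `Hom(G, A)`. -/
noncomputable def heckeHomAdd : (Additive G →+ A) →+ (Additive G →+ A) where
  toFun := C.heckeHom
  map_zero' := C.heckeHom_zero
  map_add' := C.heckeHom_add

@[simp] theorem heckeHomAdd_apply (φ : Additive G →+ A) : C.heckeHomAdd φ = C.heckeHom φ := rfl

end CosetSystem

section Gamma0

variable (N : ℕ)

/-- Build an element of `SL(2, ℤ)` from its entries. -/
def mkSL (a b c d : ℤ) (hdet : a * d - b * c = 1) : SL(2, ℤ) :=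
  ⟨!![a, b; c, d], by rw [Matrix.det_fin_two_of]; exact hdet⟩

theorem mkSL_mem (a b c d : ℤ) (hdet : a * d - b * c = 1) (hc : (N : ℤ) ∣ c) :
    mkSL a b c d hdet ∈ Gamma0 N := by
  rw [Gamma0_mem]
  show (((!![a, b; c, d] : Matrix (Fin 2) (Fin 2) ℤ) 1 0 : ℤ) : ZMod N) = 0
  simpa using (ZMod.intCast_zmod_eq_zero_iff_dvd c N).mpr hc

/-- Build an element of `Γ₀(N)` from its entries. -/
def mkGamma0 (a b c d : ℤ) (hdet : a * d - b * c = 1) (hc : (N : ℤ) ∣ c) : Gamma0 N :=
  ⟨mkSL a b c d hdet, mkSL_mem N a b c d hdet hc⟩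

theorem mat_mkGamma0 (a b c d : ℤ) (hdet : a * d - b * c = 1) (hc : (N : ℤ) ∣ c) :
    mat (mkGamma0 N a b c d hdet hc) = !![a, b; c, d] := rfl

theorem dvd_mat_one_zero (g : Gamma0 N) : (N : ℤ) ∣ mat g 1 0 := by
  have h := Gamma0_mem.mp g.2
  exact (ZMod.intCast_zmod_eq_zero_iff_dvd _ N).mp h

theorem mat_det' (g : Gamma0 N) : mat g 0 0 * mat g 1 1 - mat g 0 1 * mat g 1 0 = 1 := by
  have h := mat_det g
  rwa [Matrix.det_fin_two] at h

end Gamma0

section Decomp

/-- Representatives for `T_l`: `none ↦ !![l,0;0,1]`, `some j ↦ !![1,j;0,l]`. -/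
def alT (l : ℕ) : Option (Fin l) → Matrix (Fin 2) (Fin 2) ℤ
  | none => !![(l : ℤ), 0; 0, 1]
  | some j => !![1, ((j : ℕ) : ℤ); 0, (l : ℤ)]

/-- Representatives for `U_q`: `j ↦ !![1,j;0,q]`. -/
def alU (q : ℕ) (j : Fin q) : Matrix (Fin 2) (Fin 2) ℤ := !![1, ((j : ℕ) : ℤ); 0, (q : ℤ)]

theorem det_alT (l : ℕ) (i : Option (Fin l)) : (alT l i).det = l := by
  cases i <;> simp [alT, Matrix.det_fin_two_of]

theorem det_alU (q : ℕ) (j : Fin q) : (alU q j).det = q := by
  simp [alU, Matrix.det_fin_two_of]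

theorem exists_some_decomp (N l : ℕ) [hl : Fact l.Prime] (M : Matrix (Fin 2) (Fin 2) ℤ)
    (hdet : M.det = l) (hN : (N : ℤ) ∣ M 1 0)
    (h : ¬ ((l : ℤ) ∣ M 0 0 ∧ (l : ℤ) ∣ M 1 0)) :
    ∃ (j : Fin l) (g : Gamma0 N), M = mat g * !![1, ((j : ℕ) : ℤ); 0, (l : ℤ)] := by
  set a := M 0 0 with ha
  set b := M 0 1 with hb
  set c := M 1 0 with hc
  set d := M 1 1 with hd
  have hM : M = !![a, b; c, d] := Matrix.eta_fin_two M
  have hdet' : a * d - b * c = l := by
    rw [← hdet, Matrix.det_fin_two]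
  have hl0 : (l : ℤ) ≠ 0 := by exact_mod_cast hl.out.ne_zero
  -- the relation in the field `ZMod l`
  have hrel : (a : ZMod l) * (d : ZMod l) = (b : ZMod l) * (c : ZMod l) := by
    have h1 : ((a * d - b * c : ℤ) : ZMod l) = 0 := by
      rw [hdet']; simp
    push_cast at h1
    exact sub_eq_zero.mp h1
  have hzero : ∀ x : ℤ, (x : ZMod l) = 0 ↔ (l : ℤ) ∣ x := fun x =>
    ZMod.intCast_zmod_eq_zero_iff_dvd x l
  obtain ⟨t, ht1, ht2⟩ : ∃ t : ZMod l, (b : ZMod l) = t * a ∧ (d : ZMod l) = t * c := by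
    by_cases ha0 : (a : ZMod l) = 0
    · have hc0 : (c : ZMod l) ≠ 0 := fun hc0 => h ⟨(hzero a).mp ha0, (hzero c).mp hc0⟩
      refine ⟨(d : ZMod l) / c, ?_, ?_⟩
      · rw [ha0, mul_zero]
        have h2 : (b : ZMod l) * c = 0 := by rw [← hrel, ha0, zero_mul]
        exact (mul_eq_zero.mp h2).resolve_right hc0
      · field_simp
    · refine ⟨(b : ZMod l) / a, ?_, ?_⟩
      · field_simp
      · field_simp
        rw [mul_comm, hrel]
  have : NeZero l := ⟨hl.out.ne_zero⟩
  let j : Fin l := ⟨t.val, ZMod.val_lt t⟩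
  have hj : ((j : ℕ) : ZMod l) = t := by
    show ((t.val : ℕ) : ZMod l) = t
    exact ZMod.natCast_zmod_val t
  have hb' : (l : ℤ) ∣ b - ((j : ℕ) : ℤ) * a := by
    rw [← hzero]; push_cast; rw [hj, ht1]; ring
  have hd' : (l : ℤ) ∣ d - ((j : ℕ) : ℤ) * c := by
    rw [← hzero]; push_cast; rw [hj, ht2]; ring
  obtain ⟨b', hb'⟩ := hb'
  obtain ⟨d', hd'⟩ := hd'
  have hdet1 : a * d' - b' * c = 1 := by
    have : (l : ℤ) * (a * d' - b' * c) = l * 1 := by
      have e1 : (l : ℤ) * d' = d - ((j : ℕ) : ℤ) * c := hd'.symm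
      have e2 : (l : ℤ) * b' = b - ((j : ℕ) : ℤ) * a := hb'.symm
      calc (l : ℤ) * (a * d' - b' * c) = a * ((l : ℤ) * d') - ((l : ℤ) * b') * c := by ring
        _ = a * (d - ((j : ℕ) : ℤ) * c) - (b - ((j : ℕ) : ℤ) * a) * c := by rw [e1, e2]
        _ = a * d - b * c := by ring
        _ = l * 1 := by rw [hdet', mul_one]
    exact mul_left_cancel₀ hl0 this
  refine ⟨j, mkGamma0 N a b' c d' hdet1 hN, ?_⟩
  rw [mat_mkGamma0, hM]
  ext r s
  fin_cases r <;> fin_cases s <;> simp [Matrix.mul_apply, Fin.sum_univ_two] <;> linarith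

theorem exists_decompT (N l : ℕ) [hl : Fact l.Prime] (hlN : ¬ l ∣ N)
    (M : Matrix (Fin 2) (Fin 2) ℤ) (hdet : M.det = l) (hN : (N : ℤ) ∣ M 1 0) :
    ∃ (i : Option (Fin l)) (g : Gamma0 N), M = mat g * alT l i := by
  by_cases h : (l : ℤ) ∣ M 0 0 ∧ (l : ℤ) ∣ M 1 0
  · obtain ⟨⟨a', ha'⟩, ⟨c', hc'⟩⟩ := h
    have hM : M = !![M 0 0, M 0 1; M 1 0, M 1 1] := Matrix.eta_fin_two M
    have hl0 : (l : ℤ) ≠ 0 := by exact_mod_cast hl.out.ne_zero
    have hdet' : M 0 0 * M 1 1 - M 0 1 * M 1 0 = l := by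
      rw [← hdet, Matrix.det_fin_two]
    have hdet1 : a' * M 1 1 - M 0 1 * c' = 1 := by
      have : (l : ℤ) * (a' * M 1 1 - M 0 1 * c') = l * 1 := by
        calc (l : ℤ) * (a' * M 1 1 - M 0 1 * c')
            = ((l : ℤ) * a') * M 1 1 - M 0 1 * ((l : ℤ) * c') := by ring
          _ = l * 1 := by rw [← ha', ← hc', hdet', mul_one]
      exact mul_left_cancel₀ hl0 this
    have hNc' : (N : ℤ) ∣ c' := by
      have hcop : IsCoprime (N : ℤ) (l : ℤ) := by
        rw [Int.isCoprime_iff_gcd_eq_one, Int.gcd_natCast_natCast]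
        exact (Nat.coprime_comm.mp ((Nat.Prime.coprime_iff_not_dvd hl.out).mpr hlN))
      rw [hc'] at hN
      exact hcop.dvd_of_dvd_mul_left hN
    refine ⟨none, mkGamma0 N a' (M 0 1) c' (M 1 1) hdet1 hNc', ?_⟩
    rw [mat_mkGamma0]
    conv_lhs => rw [hM]
    ext r s
    fin_cases r <;> fin_cases s <;> simp [alT, Matrix.mul_apply, Fin.sum_univ_two, ha', hc'] <;>
      ring
  · obtain ⟨j, g, hg⟩ := exists_some_decomp N l M hdet hN h
    exact ⟨some j, g, hg⟩

theorem alT_uniq (N l : ℕ) (hl : 2 ≤ l) (i i' : Option (Fin l)) (g : Gamma0 N)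
    (h : alT l i = mat g * alT l i') : i = i' := by
  have hg : mat g = !![mat g 0 0, mat g 0 1; mat g 1 0, mat g 1 1] := Matrix.eta_fin_two _
  have hdet := mat_det' N g
  have h00 := congrFun (congrFun h 0) 0
  have h01 := congrFun (congrFun h 0) 1
  have h10 := congrFun (congrFun h 1) 0
  have h11 := congrFun (congrFun h 1) 1
  have hl' : (2 : ℤ) ≤ l := by exact_mod_cast hl
  rcases i with _ | j <;> rcases i' with _ | j'
  · rfl
  · exfalso
    simp [alT, Matrix.mul_apply, Fin.sum_univ_two] at h00 h10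
    -- l = g00, 0 = g10 ; det: g00 * g11 = 1
    rw [← h10, mul_zero, sub_zero, ← h00] at hdet
    have := Int.eq_one_or_neg_one_of_mul_eq_one hdet
    omega
  · exfalso
    simp [alT, Matrix.mul_apply, Fin.sum_univ_two] at h00 h10
    -- 1 = g00 * l
    have := Int.eq_one_or_neg_one_of_mul_eq_one' h00.symm
    omega
  · simp [alT, Matrix.mul_apply, Fin.sum_univ_two] at h00 h01 h10 h11
    -- g00 = 1, g10 = 0, j = j' + g01 * l
    congr 1
    apply Fin.ext
    have hj := j.2
    have hj' := j'.2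
    rw [← h00] at h01
    have h2 : ((j : ℕ) : ℤ) - ((j' : ℕ) : ℤ) = mat g 0 1 * l := by linarith
    have h3 : (l : ℤ) ∣ ((j : ℕ) : ℤ) - ((j' : ℕ) : ℤ) := ⟨mat g 0 1, by rw [h2]; ring⟩
    have h4 : |((j : ℕ) : ℤ) - ((j' : ℕ) : ℤ)| < l := by
      rw [abs_lt]; constructor <;> omega
    have h5 := Int.eq_zero_of_abs_lt_dvd h3 h4
    omega

theorem alU_uniq (N q : ℕ) (j j' : Fin q) (g : Gamma0 N)
    (h : alU q j = mat g * alU q j') : j = j' := by
  have h00 := congrFun (congrFun h 0) 0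
  have h01 := congrFun (congrFun h 0) 1
  simp [alU, Matrix.mul_apply, Fin.sum_univ_two] at h00 h01
  apply Fin.ext
  have hj := j.2
  have hj' := j'.2
  rw [← h00] at h01
  have h2 : ((j : ℕ) : ℤ) - ((j' : ℕ) : ℤ) = mat g 0 1 * q := by linarith
  have h3 : (q : ℤ) ∣ ((j : ℕ) : ℤ) - ((j' : ℕ) : ℤ) := ⟨mat g 0 1, by rw [h2]; ring⟩
  have h4 : |((j : ℕ) : ℤ) - ((j' : ℕ) : ℤ)| < q := by
    rw [abs_lt]; constructor <;> omega
  have h5 := Int.eq_zero_of_abs_lt_dvd h3 h4
  omega

/-- The coset system of `T_l` on `Γ₀(N)`, `l` a prime not dividing `N`. -/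
def cosetT (N l : ℕ) [hl : Fact l.Prime] (hlN : ¬ l ∣ N) :
    CosetSystem (Gamma0 N) (Option (Fin l)) where
  al := alT l
  det_ne i := by
    rw [det_alT]; exact_mod_cast hl.out.ne_zero
  ex g i := by
    have hdet : (alT l i * mat g).det = l := by
      rw [Matrix.det_mul, det_alT, mat_det, mul_one]
    have hN : (N : ℤ) ∣ (alT l i * mat g) 1 0 := by
      have hg := dvd_mat_one_zero N g
      cases i with
      | none => simpa [alT, Matrix.mul_apply, Fin.sum_univ_two] using hg
      | some j =>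
        simp only [alT, Matrix.mul_apply, Fin.sum_univ_two]
        simpa using Dvd.dvd.mul_left hg _
    obtain ⟨i', g', h⟩ := exists_decompT N l hlN _ hdet hN
    exact ⟨i', g', h⟩
  uniq i i' g h := alT_uniq N l hl.out.two_le i i' g h

/-- The coset system of `U_q` on `Γ₀(N)`, `q` a prime dividing `N`. -/
def cosetU (N q : ℕ) [hq : Fact q.Prime] (hqN : q ∣ N) :
    CosetSystem (Gamma0 N) (Fin q) where
  al := alU q
  det_ne j := by
    rw [det_alU]; exact_mod_cast hq.out.ne_zero
  ex g j := by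
    have hdet : (alU q j * mat g).det = q := by
      rw [Matrix.det_mul, det_alU, mat_det, mul_one]
    have hg := dvd_mat_one_zero N g
    have hqg : (q : ℤ) ∣ mat g 1 0 := dvd_trans (by exact_mod_cast hqN) hg
    have hN : (N : ℤ) ∣ (alU q j * mat g) 1 0 := by
      simp only [alU, Matrix.mul_apply, Fin.sum_univ_two]
      simpa using Dvd.dvd.mul_left hg _
    have h00 : ¬ ((q : ℤ) ∣ (alU q j * mat g) 0 0 ∧ (q : ℤ) ∣ (alU q j * mat g) 1 0) := by
      rintro ⟨h1, -⟩
      have e : (alU q j * mat g) 0 0 = mat g 0 0 + ((j : ℕ) : ℤ) * mat g 1 0 := by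
        simp [alU, Matrix.mul_apply, Fin.sum_univ_two]
      rw [e] at h1
      have h2 : (q : ℤ) ∣ mat g 0 0 := by
        have := dvd_sub h1 (Dvd.dvd.mul_left hqg (((j : ℕ) : ℤ)))
        simpa using this
      have h3 : (q : ℤ) ∣ 1 := by
        rw [← mat_det' N g]
        exact dvd_sub (Dvd.dvd.mul_right h2 _) (Dvd.dvd.mul_left hqg _)
      have h4 : (q : ℤ) = 1 ∨ (q : ℤ) = -1 := Int.isUnit_iff.mp (isUnit_of_dvd_one h3)
      have := hq.out.two_le
      omega
    obtain ⟨j', g', h⟩ := exists_some_decomp N q _ hdet hN h00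
    exact ⟨j', g', h⟩
  uniq j j' g h := alU_uniq N q j j' g h

@[simp] theorem cosetT_al (N l : ℕ) [Fact l.Prime] (hlN : ¬ l ∣ N) :
    (cosetT N l hlN).al = alT l := rfl

@[simp] theorem cosetU_al (N q : ℕ) [Fact q.Prime] (hqN : q ∣ N) :
    (cosetU N q hqN).al = alU q := rfl

end Decomp

section Shimura

variable (N : ℕ) {A : Type*} [AddCommGroup A]

/-- The lower right entry mod `N`, as a homomorphism `Γ₀(N) → (ℤ/N)ˣ`. -/
noncomputable def dUnit : Gamma0 N →* (ZMod N)ˣ := (Gamma0Map N).toHomUnits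

theorem dUnit_val (g : Gamma0 N) : ((dUnit N g : (ZMod N)ˣ) : ZMod N) = ((mat g 1 1 : ℤ) : ZMod N) :=
  rfl

/-- The Shimura character attached to `χ : (ℤ/N)ˣ → A`. -/
noncomputable def shimura (χ : Additive (ZMod N)ˣ →+ A) : Additive (Gamma0 N) →+ A :=
  χ.comp (MonoidHom.toAdditive (dUnit N))

theorem shimura_apply (χ : Additive (ZMod N)ˣ →+ A) (g : Gamma0 N) :
    shimura N χ (Additive.ofMul g) = χ (Additive.ofMul (dUnit N g)) := rfl

theorem cast_mat_one_zero (g : Gamma0 N) : ((mat g 1 0 : ℤ) : ZMod N) = 0 :=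
  Gamma0_mem.mp g.2

theorem cast_a_mul_d (g : Gamma0 N) :
    ((mat g 0 0 : ℤ) : ZMod N) * ((mat g 1 1 : ℤ) : ZMod N) = 1 := by
  have h := congrArg (fun x : ℤ => (x : ZMod N)) (mat_det' N g)
  simp only [Int.cast_sub, Int.cast_mul, Int.cast_one, cast_mat_one_zero, mul_zero, sub_zero] at h
  exact h

/-- Two elements of `Γ₀(N)` with the same upper left entry mod `N` have the same `dUnit`. -/
theorem dUnit_eq_of_a_eq (g h : Gamma0 N)
    (hgh : ((mat g 0 0 : ℤ) : ZMod N) = ((mat h 0 0 : ℤ) : ZMod N)) : dUnit N g = dUnit N h := by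
  apply Units.ext
  rw [dUnit_val, dUnit_val]
  have h1 := cast_a_mul_d N g
  have h2 := cast_a_mul_d N h
  calc ((mat g 1 1 : ℤ) : ZMod N)
      = ((mat g 1 1 : ℤ) : ZMod N) * (((mat h 0 0 : ℤ) : ZMod N) * ((mat h 1 1 : ℤ) : ZMod N)) := by
        rw [h2, mul_one]
    _ = (((mat g 0 0 : ℤ) : ZMod N) * ((mat g 1 1 : ℤ) : ZMod N)) * ((mat h 1 1 : ℤ) : ZMod N) := by
        rw [← hgh]; ring
    _ = ((mat h 1 1 : ℤ) : ZMod N) := by rw [h1, one_mul]

/-- `U_q` eigen-relation of the Shimura character. -/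
theorem heckeHom_cosetU_shimura (q : ℕ) [Fact q.Prime] (hqN : q ∣ N)
    (χ : Additive (ZMod N)ˣ →+ A) :
    (cosetU N q hqN).heckeHom (shimura N χ) = q • shimura N χ := by
  refine AddMonoidHom.ext fun γ => ?_
  obtain ⟨g, rfl⟩ : ∃ g : Gamma0 N, Additive.ofMul g = γ := ⟨Additive.toMul γ, rfl⟩
  rw [CosetSystem.heckeHom_apply, AddMonoidHom.coe_smul, Pi.smul_apply]
  have key : ∀ j : Fin q, dUnit N ((cosetU N q hqN).fac g j) = dUnit N g := by
    intro j
    apply dUnit_eq_of_a_eq
    have hs := (cosetU N q hqN).spec g j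
    have h00 := congrFun (congrFun hs 0) 0
    simp only [cosetU_al, alU, Matrix.mul_apply, Fin.sum_univ_two] at h00
    simp at h00
    -- h00 : g00 + j * g10 = fac00
    have := congrArg (fun x : ℤ => (x : ZMod N)) h00
    simp only [Int.cast_add, Int.cast_mul, cast_mat_one_zero, mul_zero, add_zero] at this
    exact this.symm
  simp only [shimura_apply, key, Finset.sum_const, Finset.card_univ, Fintype.card_fin]

/-- The lower right entry of `alT l i` as a unit mod `N`. -/
noncomputable def ddU (l : ℕ) (hlN : Nat.Coprime l N) : Option (Fin l) → (ZMod N)ˣ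
  | none => 1
  | some _ => ZMod.unitOfCoprime l hlN

theorem ddU_val (l : ℕ) (hlN : Nat.Coprime l N) (i : Option (Fin l)) :
    ((ddU N l hlN i : (ZMod N)ˣ) : ZMod N) = ((alT l i 1 1 : ℤ) : ZMod N) := by
  cases i <;> simp [ddU, alT]

/-- `T_l` eigen-relation of the Shimura character. -/
theorem heckeHom_cosetT_shimura (l : ℕ) [hl : Fact l.Prime] (hlN : ¬ l ∣ N)
    (χ : Additive (ZMod N)ˣ →+ A) :
    (cosetT N l hlN).heckeHom (shimura N χ) = (l + 1) • shimura N χ := by
  have hcop : Nat.Coprime l N := (Nat.Prime.coprime_iff_not_dvd hl.out).mpr hlN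
  refine AddMonoidHom.ext fun γ => ?_
  obtain ⟨g, rfl⟩ : ∃ g : Gamma0 N, Additive.ofMul g = γ := ⟨Additive.toMul γ, rfl⟩
  rw [CosetSystem.heckeHom_apply, AddMonoidHom.coe_smul, Pi.smul_apply]
  set C := cosetT N l hlN with hC
  have key : ∀ i : Option (Fin l),
      ddU N l hcop i * dUnit N g = dUnit N (C.fac g i) * ddU N l hcop (C.perm g i) := by
    intro i
    apply Units.ext
    rw [Units.val_mul, Units.val_mul, ddU_val, ddU_val, dUnit_val, dUnit_val]
    have hs := C.spec g i
    have h11 := congrFun (congrFun hs 1) 1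
    simp only [hC, cosetT_al, Matrix.mul_apply, Fin.sum_univ_two] at h11
    have h10 : alT l i 1 0 = 0 := by cases i <;> simp [alT]
    rw [h10, zero_mul, zero_add] at h11
    have := congrArg (fun x : ℤ => (x : ZMod N)) h11
    simp only [Int.cast_add, Int.cast_mul, cast_mat_one_zero, zero_mul, zero_add] at this
    exact this
  have key2 : ∀ i : Option (Fin l),
      shimura N χ (Additive.ofMul (C.fac g i)) =
        χ (Additive.ofMul (dUnit N g)) + (χ (Additive.ofMul (ddU N l hcop i)) -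
          χ (Additive.ofMul (ddU N l hcop (C.perm g i)))) := by
    intro i
    have h := congrArg (fun u : (ZMod N)ˣ => χ (Additive.ofMul u)) (key i)
    simp only [ofMul_mul, map_add] at h
    rw [shimura_apply]
    have h' : χ (Additive.ofMul (dUnit N (C.fac g i))) =
        χ (Additive.ofMul (ddU N l hcop i)) + χ (Additive.ofMul (dUnit N g)) -
          χ (Additive.ofMul (ddU N l hcop (C.perm g i))) := eq_sub_of_add_eq h.symm
    rw [h']; abel
  simp only [key2, Finset.sum_add_distrib, Finset.sum_sub_distrib, Finset.sum_const,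
    Finset.card_univ, Fintype.card_option, Fintype.card_fin]
  have hperm : ∑ i, χ (Additive.ofMul (ddU N l hcop (C.perm g i))) =
      ∑ i, χ (Additive.ofMul (ddU N l hcop i)) :=
    (C.permEquiv g).sum_comp (fun i => χ (Additive.ofMul (ddU N l hcop i)))
  rw [hperm, sub_self, add_zero, shimura_apply]

end Shimura

end Fermat.Agent.S16.HeckeHom
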