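import Mathlib
import Fermat.Agent.S21.PeriodBasics
import Fermat.Agent.S16.HeckeHom
import Fermat.Prelude.Def_ModularForm_HeckeOperatorForms

/-!
# S16, lower bound (A-psi), piece (P3): Hecke-equivariance of the period map

`periodMap N (T_ℓ f) = (cosetT N ℓ _).heckeHom (periodMap N f)` for a prime `ℓ ∤ N`, and
`periodMap N (U_p f) = (cosetU N p _).heckeHom (periodMap N f)` for a prime `p ∣ N`, where `cosetT`,
`cosetU`, `heckeHom` are those of `Fermat/Agent/S16/HeckeHom.lean` (helper67, block (P2)).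
-/

set_option autoImplicit false

open Complex Filter UpperHalfPlane CongruenceSubgroup
open scoped Topology MatrixGroups ModularForm

noncomputable section

namespace Fermat.Agent.S16.PeriodHecke

open Fermat.Agent.S21.PeriodBasics Fermat.Agent.S16.HeckeHom
open ModularCurve ModularCurve.Period

variable {N : ℕ}

/-! ### the abstract change of variables -/

/-- The coset identity on the upper half plane. -/
theorem gl_smul_smul {I : Type} [Fintype I] [DecidableEq I] (C : CosetSystem (Gamma0 N) I) (gl : I → GL (Fin 2) ℝ)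
    (hgl : ∀ i, ((gl i : GL (Fin 2) ℝ) : Matrix (Fin 2) (Fin 2) ℝ) =
      (C.al i).map (algebraMap ℤ ℝ))
    (γ : Gamma0 N) (i : I) (z : ℍ) :
    gl i • ((γ : SL(2, ℤ)) • z) = (C.fac γ i : SL(2, ℤ)) • (gl (C.perm γ i) • z) := by
  have key : gl i * Matrix.SpecialLinearGroup.mapGL ℝ (γ : SL(2, ℤ)) =
      Matrix.SpecialLinearGroup.mapGL ℝ (C.fac γ i : SL(2, ℤ)) * gl (C.perm γ i) := by
    apply Units.ext
    rw [Units.val_mul, Units.val_mul]
    change (gl i : Matrix (Fin 2) (Fin 2) ℝ) *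
        ((Matrix.SpecialLinearGroup.mapGL ℝ (γ : SL(2, ℤ)) : GL (Fin 2) ℝ) :
          Matrix (Fin 2) (Fin 2) ℝ) =
      ((Matrix.SpecialLinearGroup.mapGL ℝ (C.fac γ i : SL(2, ℤ)) : GL (Fin 2) ℝ) :
          Matrix (Fin 2) (Fin 2) ℝ) * (gl (C.perm γ i) : Matrix (Fin 2) (Fin 2) ℝ)
    rw [hgl, hgl, Matrix.SpecialLinearGroup.mapGL_coe_matrix,
      Matrix.SpecialLinearGroup.mapGL_coe_matrix]
    change (C.al i).map (algebraMap ℤ ℝ) *
        (((γ : SL(2, ℤ)) : Matrix (Fin 2) (Fin 2) ℤ)).map (algebraMap ℤ ℝ) =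
      (((C.fac γ i : SL(2, ℤ)) : Matrix (Fin 2) (Fin 2) ℤ)).map (algebraMap ℤ ℝ) *
        (C.al (C.perm γ i)).map (algebraMap ℤ ℝ)
    rw [← Matrix.map_mul, ← Matrix.map_mul]
    exact congrArg (fun M : Matrix (Fin 2) (Fin 2) ℤ => M.map (algebraMap ℤ ℝ)) (C.spec γ i)
  calc gl i • ((γ : SL(2, ℤ)) • z)
      = gl i • (Matrix.SpecialLinearGroup.mapGL ℝ (γ : SL(2, ℤ)) • z) := rfl
    _ = (gl i * Matrix.SpecialLinearGroup.mapGL ℝ (γ : SL(2, ℤ))) • z := (mul_smul _ _ _).symm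
    _ = (Matrix.SpecialLinearGroup.mapGL ℝ (C.fac γ i : SL(2, ℤ)) * gl (C.perm γ i)) • z := by
        rw [key]
    _ = Matrix.SpecialLinearGroup.mapGL ℝ (C.fac γ i : SL(2, ℤ)) • (gl (C.perm γ i) • z) :=
        mul_smul _ _ _
    _ = (C.fac γ i : SL(2, ℤ)) • (gl (C.perm γ i) • z) := rfl

/-- The change of variables: periods of `z ↦ ∑ i, F (gl i • z)`. -/
theorem sum_primF_smul_sub [NeZero N] {I : Type} [Fintype I] [DecidableEq I] (C : CosetSystem (Gamma0 N) I) (gl : I → GL (Fin 2) ℝ)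
    (hgl : ∀ i, ((gl i : GL (Fin 2) ℝ) : Matrix (Fin 2) (Fin 2) ℝ) =
      (C.al i).map (algebraMap ℤ ℝ))
    (f : CuspForm (Gamma0 N) 2) (γ : Gamma0 N) (z : ℍ) :
    (∑ i, primF f (gl i • ((γ : SL(2, ℤ)) • z))) - ∑ i, primF f (gl i • z) =
      C.heckeHom (periodMap N f) (Additive.ofMul γ) := by
  rw [CosetSystem.heckeHom_apply]
  have h1 : ∀ i, primF f (gl i • ((γ : SL(2, ℤ)) • z)) =
      periodMap N f (Additive.ofMul (C.fac γ i)) + primF f (gl (C.perm γ i) • z) := by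
    intro i
    rw [gl_smul_smul C gl hgl γ i z, ← primF_smul_sub_eq_periodMap f (C.fac γ i)
      (gl (C.perm γ i) • z)]
    ring
  simp only [h1, Finset.sum_add_distrib]
  have h2 : ∑ i, primF f (gl (C.perm γ i) • z) = ∑ k, primF f (gl k • z) :=
    Equiv.sum_comp (C.permEquiv γ) (fun k => primF f (gl k • z))
  rw [h2]
  ring

/-- If `primF g = ∑ i, primF f ∘ (gl i • ·)` then the periods of `g` are given by the coset
formula. -/
theorem periodMap_eq_heckeHom [NeZero N] {I : Type} [Fintype I] [DecidableEq I] (C : CosetSystem (Gamma0 N) I) (gl : I → GL (Fin 2) ℝ)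
    (hgl : ∀ i, ((gl i : GL (Fin 2) ℝ) : Matrix (Fin 2) (Fin 2) ℝ) =
      (C.al i).map (algebraMap ℤ ℝ))
    (f g : CuspForm (Gamma0 N) 2) (hg : ∀ z : ℍ, primF g z = ∑ i, primF f (gl i • z)) :
    periodMap N g = C.heckeHom (periodMap N f) := by
  refine AddMonoidHom.ext fun γ' => ?_
  have hγ : γ' = Additive.ofMul (Additive.toMul γ') := rfl
  rw [hγ, periodMap_apply, hg, hg,
    sum_primF_smul_sub C gl hgl f (Additive.toMul γ') UpperHalfPlane.I]


/-! ### affine substitutions in the primitive -/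

theorem im_smul_affine (α : GL (Fin 2) ℝ) (a b : ℝ)
    (hcoe : ∀ z : ℍ, ((α • z : ℍ) : ℂ) = a * z + b) (z : ℍ) : (α • z).im = a * z.im := by
  have h := congrArg Complex.im (hcoe z)
  simpa using h

theorem tendsto_smul_atImInfty_affine (α : GL (Fin 2) ℝ) (a b : ℝ) (ha : 0 < a)
    (hcoe : ∀ z : ℍ, ((α • z : ℍ) : ℂ) = a * z + b) :
    Tendsto (fun z : ℍ => α • z) atImInfty atImInfty := by
  rw [atImInfty, tendsto_comap_iff]
  have : (UpperHalfPlane.im ∘ fun z : ℍ => α • z) = fun z : ℍ => a * z.im := by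
    funext z
    exact im_smul_affine α a b hcoe z
  rw [this]
  exact Tendsto.const_mul_atTop ha tendsto_comap

theorem hasDerivAt_primF_affine [NeZero N] (f : CuspForm (Gamma0 N) 2) (α : GL (Fin 2) ℝ)
    (a b : ℝ) (ha : 0 < a) (hcoe : ∀ z : ℍ, ((α • z : ℍ) : ℂ) = a * z + b) (τ : ℍ) :
    HasDerivAt (fun u : ℂ => primF f (α • ofComplex u)) ((a : ℂ) * f (α • τ)) (τ : ℂ) := by
  have hL : HasDerivAt (fun u : ℂ => (a : ℂ) * u + b) (a : ℂ) (τ : ℂ) := by
    simpa using ((hasDerivAt_id (τ : ℂ)).const_mul (a : ℂ)).add_const (b : ℂ)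
  have hF := hasDerivAt_primF f (α • τ)
  rw [hcoe τ] at hF
  have hcomp := hF.comp (τ : ℂ) hL
  rw [mul_comm] at hcomp
  refine hcomp.congr_of_eventuallyEq ?_
  have hU : IsOpen {z : ℂ | 0 < z.im} := isOpen_lt continuous_const Complex.continuous_im
  filter_upwards [hU.mem_nhds τ.im_pos] with u hu
  have him : 0 < ((a : ℂ) * u + b).im := by
    simp only [add_im, mul_im, ofReal_re, ofReal_im, zero_mul, add_zero]
    exact mul_pos ha hu
  simp only [Function.comp_apply]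
  congr 1
  apply UpperHalfPlane.ext
  rw [hcoe, ofComplex_apply_of_im_pos hu, ofComplex_apply_of_im_pos him]

/-- Uniqueness of the primitive gives the formula for `primF g`. -/
theorem primF_eq_sum_affine [NeZero N] (f g : CuspForm (Gamma0 N) 2) {ι : Type*} [Fintype ι]
    (gl : ι → GL (Fin 2) ℝ) (a b : ι → ℝ) (ha : ∀ i, 0 < a i)
    (hcoe : ∀ i (z : ℍ), ((gl i • z : ℍ) : ℂ) = a i * z + b i)
    (hg : ∀ τ : ℍ, g τ = ∑ i, (a i : ℂ) * f (gl i • τ)) (z : ℍ) :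
    primF g z = ∑ i, primF f (gl i • z) := by
  have hd : ∀ τ : ℍ, HasDerivAt ((fun z : ℍ => ∑ i, primF f (gl i • z)) ∘ ofComplex) (g τ) ↑τ := by
    intro τ
    rw [hg τ]
    have := HasDerivAt.sum (u := Finset.univ) (fun i _ =>
      hasDerivAt_primF_affine f (gl i) (a i) (b i) (ha i) (hcoe i) τ)
    refine this.congr_of_eventuallyEq (Filter.Eventually.of_forall fun u => ?_)
    simp [Function.comp_apply]
  have h0 : Tendsto (fun z : ℍ => ∑ i, primF f (gl i • z)) atImInfty (𝓝 0) := by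
    have : Tendsto (fun z : ℍ => ∑ i, primF f (gl i • z)) atImInfty (𝓝 (∑ _i : ι, (0 : ℂ))) :=
      tendsto_finsetSum _ fun i _ =>
        (tendsto_primF f).comp (tendsto_smul_atImInfty_affine (gl i) (a i) (b i) (ha i) (hcoe i))
    simpa using this
  have := eq_primF_of_hasDerivAt g hd h0
  exact (congrFun this z).symm


/-! ### the operators `T_ℓ` and `U_p` -/

open ModularForm in
/-- `GL(2, ℝ)` representatives for `T_ℓ` (the Prelude's matrices). -/
def glT (ℓ : ℕ) : Option (Fin ℓ) → GL (Fin 2) ℝ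
  | some j => heckeMatrix ℓ j
  | none => heckeDiagMatrix ℓ

/-- slopes of the affine maps -/
def aT (ℓ : ℕ) : Option (Fin ℓ) → ℝ
  | some _ => (ℓ : ℝ)⁻¹
  | none => ℓ

/-- translations of the affine maps -/
def bT (ℓ : ℕ) : Option (Fin ℓ) → ℝ
  | some j => ((j : ℕ) : ℝ) / ℓ
  | none => 0

theorem coe_heckeMatrix_eq (ℓ : ℕ) (hℓ : ℓ ≠ 0) (j : ℕ) :
    ((ModularForm.heckeMatrix ℓ j : GL (Fin 2) ℝ) : Matrix (Fin 2) (Fin 2) ℝ) =
      (!![1, (j : ℤ); 0, (ℓ : ℤ)] : Matrix (Fin 2) (Fin 2) ℤ).map (algebraMap ℤ ℝ) := by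
  rw [ModularForm.val_heckeMatrix hℓ]
  ext r s
  fin_cases r <;> fin_cases s <;> simp

theorem coe_heckeDiagMatrix_eq (ℓ : ℕ) (hℓ : ℓ ≠ 0) :
    ((ModularForm.heckeDiagMatrix ℓ : GL (Fin 2) ℝ) : Matrix (Fin 2) (Fin 2) ℝ) =
      (!![(ℓ : ℤ), 0; 0, 1] : Matrix (Fin 2) (Fin 2) ℤ).map (algebraMap ℤ ℝ) := by
  rw [ModularForm.val_heckeDiagMatrix hℓ]
  ext r s
  fin_cases r <;> fin_cases s <;> simp

theorem glT_coe (ℓ : ℕ) (hℓ : ℓ ≠ 0) (i : Option (Fin ℓ)) :
    ((glT ℓ i : GL (Fin 2) ℝ) : Matrix (Fin 2) (Fin 2) ℝ) = (alT ℓ i).map (algebraMap ℤ ℝ) := by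
  cases i with
  | some j => exact coe_heckeMatrix_eq ℓ hℓ j
  | none => exact coe_heckeDiagMatrix_eq ℓ hℓ

theorem aT_pos (ℓ : ℕ) (hℓ : ℓ ≠ 0) (i : Option (Fin ℓ)) : 0 < aT ℓ i := by
  have : (0 : ℝ) < ℓ := by exact_mod_cast Nat.pos_of_ne_zero hℓ
  cases i with
  | some j => exact inv_pos.mpr this
  | none => exact this

theorem glT_smul_coe (ℓ : ℕ) (hℓ : ℓ ≠ 0) (i : Option (Fin ℓ)) (z : ℍ) :
    ((glT ℓ i • z : ℍ) : ℂ) = aT ℓ i * z + bT ℓ i := by
  have hℓ' : (ℓ : ℂ) ≠ 0 := by exact_mod_cast hℓ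
  cases i with
  | some j =>
    show ((ModularForm.heckeMatrix ℓ j • z : ℍ) : ℂ) = _
    rw [ModularForm.coe_heckeMatrix_smul hℓ]
    simp only [aT, bT]
    push_cast
    field_simp
  | none =>
    show ((ModularForm.heckeDiagMatrix ℓ • z : ℍ) : ℂ) = _
    rw [ModularForm.coe_heckeDiagMatrix_smul hℓ]
    simp [aT, bT]

/-- **Hecke-equivariance of the period map, `T_ℓ`.** -/
theorem periodMap_heckeT (N ℓ : ℕ) [NeZero N] [hℓ : Fact ℓ.Prime] (hℓN : ¬ ℓ ∣ N)
    (f : CuspForm (Gamma0 N) 2) :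
    periodMap N (CuspForm.heckeTLin 2 hℓ.out hℓN f) =
      (cosetT N ℓ hℓN).heckeHom (periodMap N f) := by
  have hℓ0 : ℓ ≠ 0 := hℓ.out.ne_zero
  refine periodMap_eq_heckeHom (cosetT N ℓ hℓN) (glT ℓ) (glT_coe ℓ hℓ0) f _ (fun z => ?_)
  refine primF_eq_sum_affine f _ (glT ℓ) (aT ℓ) (bT ℓ) (aT_pos ℓ hℓ0) (glT_smul_coe ℓ hℓ0)
    (fun τ => ?_) z
  rw [CuspForm.heckeTLin_apply_apply, ModularForm.heckeT_apply 2 hℓ0, Fintype.sum_option,
    Finset.sum_range, Finset.mul_sum]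
  simp only [glT, aT]
  push_cast
  rw [zpow_one, add_comm]

/-- **Hecke-equivariance of the period map, `U_p`.** -/
theorem periodMap_heckeU (N p : ℕ) [NeZero N] [hp : Fact p.Prime] (hpN : p ∣ N)
    (f : CuspForm (Gamma0 N) 2) :
    periodMap N (CuspForm.heckeULin 2 hpN f) = (cosetU N p hpN).heckeHom (periodMap N f) := by
  have hp0 : p ≠ 0 := hp.out.ne_zero
  have hp' : (0 : ℝ) < p := by exact_mod_cast Nat.pos_of_ne_zero hp0
  refine periodMap_eq_heckeHom (cosetU N p hpN) (fun j : Fin p => ModularForm.heckeMatrix p j)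
    (fun j => coe_heckeMatrix_eq p hp0 (j : ℕ)) f _ (fun z => ?_)
  refine primF_eq_sum_affine f _ (fun j : Fin p => ModularForm.heckeMatrix p j)
    (fun _ => (p : ℝ)⁻¹) (fun j => ((j : ℕ) : ℝ) / p) (fun _ => inv_pos.mpr hp')
    (fun j z => glT_smul_coe p hp0 (some j) z) (fun τ => ?_) z
  rw [CuspForm.heckeULin_apply_apply, ModularForm.heckeU_apply 2 hp0, Finset.sum_range,
    Finset.mul_sum]
  push_cast
  rfl

end Fermat.Agent.S16.PeriodHecke
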