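import Mathlib
import Fermat.Agent.S16.PeriodHecke

/-!
# S16, lower bound (A-psi), piece (P3'): the coset-formula Hecke operators commute with the
character involution, and the period map of pairs is Hecke-equivariant

* `heckeHom_comp_twist`: abstract statement for a coset system and an involutive twist;
* `heckeHom_charInvolution_T/U`: `C.heckeHom (charInvolution N R A φ) = charInvolution N R A (C.heckeHom φ)`;
* `periodHomPair_heckeT/U`: `periodHomPair N (T f, T g) = (cosetT N ℓ _).heckeHom (periodHomPair N (f, g))`.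
-/

set_option autoImplicit false

open Complex Filter UpperHalfPlane CongruenceSubgroup
open scoped Topology MatrixGroups ModularForm

noncomputable section

namespace Fermat.Agent.S16.PeriodHeckePair

open Fermat.Agent.S21.PeriodBasics Fermat.Agent.S16.HeckeHom Fermat.Agent.S16.PeriodHecke
open ModularCurve ModularCurve.Period

/-! ### the abstract twist lemma -/

section abstract

variable {G : Subgroup SL(2, ℤ)} {I : Type} [Fintype I] [DecidableEq I] (C : CosetSystem G I)
  (θ : G →* G) (Θ : Matrix (Fin 2) (Fin 2) ℤ → Matrix (Fin 2) (Fin 2) ℤ)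
  (hΘmul : ∀ A B, Θ (A * B) = Θ A * Θ B) (hΘΘ : ∀ A, Θ (Θ A) = A)
  (hΘmat : ∀ g : G, Θ (mat g) = mat (θ g))
  (t : I → G) (σ : I → I) (hσ : ∀ i, Θ (C.al i) = mat (t i) * C.al (σ i))

include hΘmul hΘΘ hΘmat hσ

theorem twist_sigma_sigma (i : I) : σ (σ i) = i := by
  have h : C.al i = mat (θ (t i) * t (σ i)) * C.al (σ (σ i)) := by
    calc C.al i = Θ (Θ (C.al i)) := (hΘΘ _).symm
      _ = Θ (mat (t i) * C.al (σ i)) := by rw [hσ i]
      _ = mat (θ (t i)) * (mat (t (σ i)) * C.al (σ (σ i))) := by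
          rw [hΘmul, hΘmat, hσ (σ i)]
      _ = mat (θ (t i) * t (σ i)) * C.al (σ (σ i)) := by
          rw [mat_mul, Matrix.mul_assoc]
  exact (C.uniq _ _ _ h).symm

theorem twist_spec (g : G) (i : I) :
    C.al (σ i) * mat (θ g) =
      mat ((t i)⁻¹ * θ (C.fac g i) * t (C.perm g i)) * C.al (σ (C.perm g i)) := by
  have h1 : Θ (C.al i * mat g) = Θ (mat (C.fac g i) * C.al (C.perm g i)) := by rw [C.spec g i]
  rw [hΘmul, hΘmul, hΘmat, hΘmat, hσ i, hσ (C.perm g i)] at h1
  calc C.al (σ i) * mat (θ g)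
      = mat (t i)⁻¹ * (mat (t i) * C.al (σ i) * mat (θ g)) := by
        rw [← Matrix.mul_assoc, ← Matrix.mul_assoc, mat_inv_mul, Matrix.one_mul]
    _ = mat (t i)⁻¹ * (mat (θ (C.fac g i)) * (mat (t (C.perm g i)) * C.al (σ (C.perm g i)))) := by
        rw [h1]
    _ = _ := by
        rw [mat_mul, mat_mul]
        simp only [Matrix.mul_assoc]

theorem twist_perm (g : G) (i : I) : C.perm (θ g) (σ i) = σ (C.perm g i) :=
  ((C.eq_of_spec (twist_spec C θ Θ hΘmul hΘΘ hΘmat t σ hσ g i)).1).symm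

theorem twist_fac (g : G) (i : I) :
    C.fac (θ g) (σ i) = (t i)⁻¹ * θ (C.fac g i) * t (C.perm g i) :=
  ((C.eq_of_spec (twist_spec C θ Θ hΘmul hΘΘ hΘmat t σ hσ g i)).2).symm

/-- The Hecke operator of a coset system commutes with composition by an involutive twist. -/
theorem heckeHom_comp_twist {A : Type*} [AddCommGroup A] (φ : Additive G →+ A) :
    C.heckeHom (φ.comp (MonoidHom.toAdditive θ)) =
      (C.heckeHom φ).comp (MonoidHom.toAdditive θ) := by
  refine AddMonoidHom.ext fun γ' => ?_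
  have hγ : γ' = Additive.ofMul (Additive.toMul γ') := rfl
  set g : G := Additive.toMul γ' with hg
  rw [hγ, AddMonoidHom.comp_apply]
  change C.heckeHom (φ.comp (MonoidHom.toAdditive θ)) (Additive.ofMul g) =
    C.heckeHom φ (Additive.ofMul (θ g))
  rw [CosetSystem.heckeHom_apply, CosetSystem.heckeHom_apply]
  let e : I ≃ I := ⟨σ, σ, twist_sigma_sigma C θ Θ hΘmul hΘΘ hΘmat t σ hσ,
    twist_sigma_sigma C θ Θ hΘmul hΘΘ hΘmat t σ hσ⟩
  have h1 : ∑ k, φ (Additive.ofMul (C.fac (θ g) k)) =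
      ∑ i, φ (Additive.ofMul (C.fac (θ g) (σ i))) :=
    (Equiv.sum_comp e (fun k => φ (Additive.ofMul (C.fac (θ g) k)))).symm
  rw [h1]
  have h2 : ∀ i, φ (Additive.ofMul (C.fac (θ g) (σ i))) =
      φ (Additive.ofMul (θ (C.fac g i))) +
        (φ (Additive.ofMul (t (C.perm g i))) - φ (Additive.ofMul (t i))) := by
    intro i
    rw [twist_fac C θ Θ hΘmul hΘΘ hΘmat t σ hσ g i, ofMul_mul, ofMul_mul, ofMul_inv, map_add,
      map_add, map_neg]
    abel
  simp only [h2, Finset.sum_add_distrib, Finset.sum_sub_distrib]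
  have h3 : ∑ i, φ (Additive.ofMul (t (C.perm g i))) = ∑ i, φ (Additive.ofMul (t i)) :=
    Equiv.sum_comp (C.permEquiv g) (fun k => φ (Additive.ofMul (t k)))
  rw [h3, sub_self, add_zero]
  rfl

end abstract

/-! ### instantiation with the `j`-conjugation -/

section jConj

variable (N : ℕ)

theorem jConjMat_mat (g : Gamma0 N) : jConjMat (mat g) = mat (jConjGamma0 N g) := rfl

theorem exists_twist_T (ℓ : ℕ) [hℓ : Fact ℓ.Prime] (hℓN : ¬ ℓ ∣ N) (i : Option (Fin ℓ)) :
    ∃ (g : Gamma0 N) (i' : Option (Fin ℓ)),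
      jConjMat ((cosetT N ℓ hℓN).al i) = mat g * (cosetT N ℓ hℓN).al i' := by
  have hdet : (jConjMat (alT ℓ i)).det = ℓ := by rw [jConjMat_det, det_alT]
  have hN : (N : ℤ) ∣ (jConjMat (alT ℓ i)) 1 0 := by
    rw [jConjMat_apply_one_zero]
    cases i <;> simp [alT]
  obtain ⟨i', g, h⟩ := exists_decompT N ℓ hℓN _ hdet hN
  exact ⟨g, i', h⟩

theorem exists_twist_U (p : ℕ) [hp : Fact p.Prime] (hpN : p ∣ N) (j : Fin p) :
    ∃ (g : Gamma0 N) (j' : Fin p),
      jConjMat ((cosetU N p hpN).al j) = mat g * (cosetU N p hpN).al j' := by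
  have hdet : (jConjMat (alU p j)).det = p := by rw [jConjMat_det, det_alU]
  have hN : (N : ℤ) ∣ (jConjMat (alU p j)) 1 0 := by
    rw [jConjMat_apply_one_zero]
    simp [alU]
  have h00 : ¬ ((p : ℤ) ∣ (jConjMat (alU p j)) 0 0 ∧ (p : ℤ) ∣ (jConjMat (alU p j)) 1 0) := by
    rintro ⟨h1, -⟩
    rw [jConjMat_apply_zero_zero] at h1
    have e : alU p j 0 0 = 1 := by simp [alU]
    rw [e] at h1
    have h4 : (p : ℤ) = 1 ∨ (p : ℤ) = -1 := Int.isUnit_iff.mp (isUnit_of_dvd_one h1)
    have := hp.out.two_le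
    omega
  obtain ⟨j', g, h⟩ := exists_some_decomp N p _ hdet hN h00
  exact ⟨g, j', h⟩

variable {A : Type*} [AddCommGroup A]

/-- `T_ℓ` on homomorphisms commutes with the character involution. -/
theorem heckeHom_charInvolution_T (R : Type*) [Semiring R] [Module R A]
    (ℓ : ℕ) [hℓ : Fact ℓ.Prime] (hℓN : ¬ ℓ ∣ N) (φ : Additive (Gamma0 N) →+ A) :
    (cosetT N ℓ hℓN).heckeHom (charInvolution N R A φ) =
      charInvolution N R A ((cosetT N ℓ hℓN).heckeHom φ) := by
  choose t σ hσ using exists_twist_T N ℓ hℓN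
  exact heckeHom_comp_twist (cosetT N ℓ hℓN) (jConjGamma0 N) jConjMat jConjMat_mul
    jConjMat_jConjMat (jConjMat_mat N) t σ hσ φ

/-- `U_p` on homomorphisms commutes with the character involution. -/
theorem heckeHom_charInvolution_U (R : Type*) [Semiring R] [Module R A]
    (p : ℕ) [hp : Fact p.Prime] (hpN : p ∣ N) (φ : Additive (Gamma0 N) →+ A) :
    (cosetU N p hpN).heckeHom (charInvolution N R A φ) =
      charInvolution N R A ((cosetU N p hpN).heckeHom φ) := by
  choose t σ hσ using exists_twist_U N p hpN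
  exact heckeHom_comp_twist (cosetU N p hpN) (jConjGamma0 N) jConjMat jConjMat_mul
    jConjMat_jConjMat (jConjMat_mat N) t σ hσ φ

end jConj

/-! ### the period map of pairs is Hecke-equivariant -/

section pair

variable (N : ℕ) [NeZero N]

theorem periodHomPair_heckeT (ℓ : ℕ) [hℓ : Fact ℓ.Prime] (hℓN : ¬ ℓ ∣ N)
    (f g : CuspForm (Gamma0 N) 2) :
    periodHomPair N (CuspForm.heckeTLin 2 hℓ.out hℓN f, CuspForm.heckeTLin 2 hℓ.out hℓN g) =
      (cosetT N ℓ hℓN).heckeHom (periodHomPair N (f, g)) := by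
  rw [periodHomPair_apply, periodHomPair_apply, periodMap_heckeT, periodMap_heckeT,
    CosetSystem.heckeHom_add, CosetSystem.heckeHom_add, CosetSystem.heckeHom_sub,
    heckeHom_charInvolution_T, heckeHom_charInvolution_T]

theorem periodHomPair_heckeU (p : ℕ) [hp : Fact p.Prime] (hpN : p ∣ N)
    (f g : CuspForm (Gamma0 N) 2) :
    periodHomPair N (CuspForm.heckeULin 2 hpN f, CuspForm.heckeULin 2 hpN g) =
      (cosetU N p hpN).heckeHom (periodHomPair N (f, g)) := by
  rw [periodHomPair_apply, periodHomPair_apply, periodMap_heckeU, periodMap_heckeU,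
    CosetSystem.heckeHom_add, CosetSystem.heckeHom_add, CosetSystem.heckeHom_sub,
    heckeHom_charInvolution_U, heckeHom_charInvolution_U]

end pair

end Fermat.Agent.S16.PeriodHeckePair
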