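/-
S16, lower bound, block (P2), second part: properties of the Shimura character of `Γ₀(p)`.

* `shimura_eq_zero_of_trace_sq_le`: for `p` prime and `χ` killing the 12-torsion of `(ℤ/p)ˣ`, the
  Shimura character `shimura p χ` vanishes on every `g ∈ Γ₀(p)` with `(trace g)² ≤ 4`
  (parabolic and elliptic elements, `±1`).
* `dUnit_surjective`: `Γ₀(N) → (ℤ/N)ˣ`, `g ↦ d mod N`, is onto.
* `exists_chi`: a surjective `χ : (ℤ/p)ˣ → ℤ/n`, `n = eisensteinNumerator p`, killing the 12-torsion.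
* `exists_shimura`: the resulting character `ψ : Γ₀(p) → ℤ/n` with all the properties used in the
  lower bound.
-/
import Mathlib
import Fermat.Agent.S16.HeckeHom
import Fermat.Prelude.Def_ModularCurve_ModularUnit

set_option autoImplicit false

namespace Fermat.Agent.S16.ShimuraProps

open scoped MatrixGroups
open Matrix CongruenceSubgroup
open Fermat.Agent.S16.HeckeHom

section Trace

variable (p : ℕ) [hp : Fact p.Prime] {A : Type*} [AddCommGroup A]

/-- If `(trace g)² ≤ 4` then `d^12 = 1` in `(ℤ/p)ˣ`. -/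
theorem dUnit_pow_twelve (g : Gamma0 p)
    (ht : (mat g).trace ^ 2 ≤ 4) : dUnit p g ^ 12 = 1 := by
  apply Units.ext
  rw [Units.val_pow_eq_pow_val, dUnit_val, Units.val_one]
  set a : ZMod p := ((mat g 0 0 : ℤ) : ZMod p) with ha
  set d : ZMod p := ((mat g 1 1 : ℤ) : ZMod p) with hd
  have had : a * d = 1 := cast_a_mul_d p g
  set t : ℤ := mat g 0 0 + mat g 1 1 with htdef
  have htr : (mat g).trace = t := Matrix.trace_fin_two _
  rw [htr] at ht
  have hcast : (t : ZMod p) = a + d := by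
    rw [htdef]; push_cast; rfl
  -- the quadratic relation d² - t d + 1 = 0
  have hq : d ^ 2 - (t : ZMod p) * d + 1 = 0 := by
    rw [hcast]
    linear_combination (-1 : ZMod p) * had
  have h1 : -2 ≤ t := by nlinarith
  have h2 : t ≤ 2 := by nlinarith
  interval_cases t
  · -- t = -2 : (d + 1)^2 = 0
    have h3 : (d + 1) ^ 2 = 0 := by
      push_cast at hq; linear_combination hq
    have h4 : d + 1 = 0 := pow_eq_zero_iff (two_ne_zero) |>.mp h3
    have h5 : d = -1 := eq_neg_of_add_eq_zero_left h4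
    rw [h5]; norm_num
  · -- t = -1 : d^2 + d + 1 = 0, d^3 = 1
    have h3 : d ^ 3 = 1 := by
      push_cast at hq; linear_combination (d - 1) * hq
    calc d ^ 12 = (d ^ 3) ^ 4 := by ring
      _ = 1 := by rw [h3, one_pow]
  · -- t = 0 : d^2 = -1
    have h3 : d ^ 2 = -1 := by
      push_cast at hq; linear_combination hq
    calc d ^ 12 = (d ^ 2) ^ 6 := by ring
      _ = 1 := by rw [h3]; norm_num
  · -- t = 1 : d^2 - d + 1 = 0, d^3 = -1
    have h3 : d ^ 3 = -1 := by
      push_cast at hq; linear_combination (d + 1) * hq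
    calc d ^ 12 = (d ^ 3) ^ 4 := by ring
      _ = 1 := by rw [h3]; norm_num
  · -- t = 2 : (d - 1)^2 = 0
    have h3 : (d - 1) ^ 2 = 0 := by
      push_cast at hq; linear_combination hq
    have h4 : d - 1 = 0 := pow_eq_zero_iff (two_ne_zero) |>.mp h3
    have h5 : d = 1 := sub_eq_zero.mp h4
    rw [h5]; norm_num

/-- The Shimura character kills every element with `(trace)² ≤ 4`, if `χ` kills 12-torsion. -/
theorem shimura_eq_zero_of_trace_sq_le (χ : Additive (ZMod p)ˣ →+ A)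
    (hχ : ∀ x : (ZMod p)ˣ, x ^ 12 = 1 → χ (Additive.ofMul x) = 0) (g : Gamma0 p)
    (ht : (mat g).trace ^ 2 ≤ 4) : shimura p χ (Additive.ofMul g) = 0 := by
  rw [shimura_apply]
  exact hχ _ (dUnit_pow_twelve p g ht)

/-- In particular the Shimura character is a parabolic homomorphism. -/
theorem shimura_isParabolicHom (χ : Additive (ZMod p)ˣ →+ A)
    (hχ : ∀ x : (ZMod p)ˣ, x ^ 12 = 1 → χ (Additive.ofMul x) = 0) :
    ModularCurve.Period.IsParabolicHom (Gamma0 p) (shimura p χ) := by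
  intro g hg
  refine shimura_eq_zero_of_trace_sq_le p χ hχ g ?_
  show (mat g).trace ^ 2 ≤ 4
  exact le_of_eq hg

end Trace

section Surj

/-- `g ↦ d mod N` maps `Γ₀(N)` onto `(ℤ/N)ˣ`. -/
theorem dUnit_surjective (N : ℕ) [NeZero N] : Function.Surjective (dUnit N) := by
  intro u
  have hcop : Nat.Coprime (u : ZMod N).val N := ZMod.val_coe_unit_coprime u
  have hcop' : IsCoprime (((u : ZMod N).val : ℕ) : ℤ) (N : ℤ) := Nat.isCoprime_iff_coprime.mpr hcop
  obtain ⟨x, y, hxy⟩ := hcop'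
  refine ⟨mkGamma0 N x (-y) N (((u : ZMod N).val : ℕ) : ℤ) (by linarith) (dvd_refl _), ?_⟩
  apply Units.ext
  rw [dUnit_val, mat_mkGamma0]
  simp

end Surj

section Chi

variable (p : ℕ) [hp : Fact p.Prime]

open ModularCurve

/-- Arithmetic: `(p-1) ∣ 12 k` implies `n ∣ k` for `n = (p-1)/gcd(p-1,12)`. -/
theorem eisensteinNumerator_dvd_of_dvd_twelve_mul (m : ℕ) (k : ℤ) (h : (m : ℤ) ∣ 12 * k) :
    ((m / Nat.gcd m 12 : ℕ) : ℤ) ∣ k := by
  set ν := Nat.gcd m 12 with hν
  have hνpos : 0 < ν := Nat.gcd_pos_of_pos_right _ (by norm_num)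
  obtain ⟨n, hn⟩ : ν ∣ m := Nat.gcd_dvd_left m 12
  obtain ⟨w, hw⟩ : ν ∣ 12 := Nat.gcd_dvd_right m 12
  have hdiv : m / ν = n := by rw [hn]; exact Nat.mul_div_cancel_left n hνpos
  rw [hdiv]
  have hcop : Nat.Coprime n w := by
    have h1 := Nat.coprime_div_gcd_div_gcd (m := m) (n := 12) hνpos
    rw [← hν, hdiv] at h1
    have h2 : 12 / ν = w := by rw [hw]; exact Nat.mul_div_cancel_left w hνpos
    rwa [h2] at h1
  have h1 : ((ν : ℤ) * n) ∣ (ν : ℤ) * (w * k) := by
    have : ((m : ℕ) : ℤ) = (ν : ℤ) * n := by rw [hn]; push_cast; ring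
    rw [← this]
    have h12 : (12 : ℤ) = (ν : ℤ) * w := by exact_mod_cast hw
    calc (m : ℤ) ∣ 12 * k := h
      _ = (ν : ℤ) * (w * k) := by rw [h12]; ring
  have hν0 : (ν : ℤ) ≠ 0 := by exact_mod_cast hνpos.ne'
  have h2 : (n : ℤ) ∣ (w : ℤ) * k := (mul_dvd_mul_iff_left hν0).mp h1
  have hcop' : IsCoprime (n : ℤ) (w : ℤ) := Nat.isCoprime_iff_coprime.mpr hcop
  exact hcop'.dvd_of_dvd_mul_left h2

/-- A character of `(ℤ/p)ˣ` onto `ℤ/n`, `n = eisensteinNumerator p`, killing the 12-torsion. -/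
theorem exists_chi : ∃ χ : Additive (ZMod p)ˣ →+ ZMod (eisensteinNumerator p),
    Function.Surjective χ ∧ ∀ x : (ZMod p)ˣ, x ^ 12 = 1 → χ (Additive.ofMul x) = 0 := by
  set n := eisensteinNumerator p with hn
  obtain ⟨g₀, hg₀⟩ := IsCyclic.exists_generator (α := (ZMod p)ˣ)
  have hord : orderOf g₀ = p - 1 := by
    rw [orderOf_eq_card_of_forall_mem_zpowers hg₀, Nat.card_eq_fintype_card, ZMod.card_units]
  have hg' : orderOf (Multiplicative.ofAdd (1 : ZMod n)) ∣ orderOf g₀ := by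
    rw [orderOf_ofAdd_eq_addOrderOf, ZMod.addOrderOf_one, hord]
    exact eisensteinNumerator_dvd p
  set χm : (ZMod p)ˣ →* Multiplicative (ZMod n) := monoidHomOfForallMemZpowers hg₀ hg' with hχm
  have hgen : χm g₀ = Multiplicative.ofAdd 1 := monoidHomOfForallMemZpowers_apply_gen hg₀ hg'
  have hval : ∀ k : ℤ, MonoidHom.toAdditiveLeft χm (Additive.ofMul (g₀ ^ k)) = (k : ZMod n) := by
    intro k
    show Multiplicative.toAdd (χm (g₀ ^ k)) = (k : ZMod n)
    rw [map_zpow, hgen, toAdd_zpow, toAdd_ofAdd]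
    simp
  refine ⟨MonoidHom.toAdditiveLeft χm, ?_, ?_⟩
  · intro y
    refine ⟨Additive.ofMul (g₀ ^ (y.cast : ℤ)), ?_⟩
    rw [hval]
    simp
  · intro x hx
    obtain ⟨k, rfl⟩ := Subgroup.mem_zpowers_iff.mp (hg₀ x)
    rw [hval, ZMod.intCast_zmod_eq_zero_iff_dvd]
    have h1 : g₀ ^ (k * 12) = 1 := by
      rw [_root_.zpow_mul]; exact_mod_cast hx
    have h2 : ((p - 1 : ℕ) : ℤ) ∣ 12 * k := by
      rw [← hord, mul_comm]
      exact orderOf_dvd_iff_zpow_eq_one.mpr h1
    exact eisensteinNumerator_dvd_of_dvd_twelve_mul (p - 1) k h2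

/-- The Shimura character `ψ : Γ₀(p) → ℤ/n` with the properties used in the lower bound. -/
theorem exists_shimura : ∃ ψ : Additive (Gamma0 p) →+ ZMod (eisensteinNumerator p),
    Function.Surjective ψ ∧
    (∀ g : Gamma0 p, (mat g).trace ^ 2 ≤ 4 → ψ (Additive.ofMul g) = 0) ∧
    (∀ (l : ℕ) [Fact l.Prime] (hlp : ¬ l ∣ p),
        (cosetT p l hlp).heckeHom ψ = (l + 1) • ψ) ∧
    (cosetU p p (dvd_refl p)).heckeHom ψ = ψ := by
  obtain ⟨χ, hsurj, hχ⟩ := exists_chi p
  have : NeZero p := ⟨hp.out.ne_zero⟩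
  refine ⟨shimura p χ, ?_, ?_, ?_, ?_⟩
  · intro y
    obtain ⟨x, rfl⟩ := hsurj y
    obtain ⟨g, hg⟩ := dUnit_surjective p (Additive.toMul x)
    exact ⟨Additive.ofMul g, by rw [shimura_apply, hg]; rfl⟩
  · exact fun g hg => shimura_eq_zero_of_trace_sq_le p χ hχ g hg
  · intro l _ hlp
    exact heckeHom_cosetT_shimura p l hlp χ
  · rw [heckeHom_cosetU_shimura p p (dvd_refl p) χ]
    refine AddMonoidHom.ext fun g => ?_
    rw [AddMonoidHom.coe_smul, Pi.smul_apply, nsmul_eq_mul]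
    have h1 : ((p : ℕ) : ZMod (eisensteinNumerator p)) = 1 := by
      have hdvd : eisensteinNumerator p ∣ p - 1 := eisensteinNumerator_dvd p
      have hp1 : 1 ≤ p := hp.out.one_lt.le
      have h2 : ((p - 1 : ℕ) : ZMod (eisensteinNumerator p)) = 0 :=
        (ZMod.natCast_eq_zero_iff _ _).mpr hdvd
      rw [Nat.cast_sub hp1] at h2
      simpa using sub_eq_zero.mp h2
    rw [h1, one_mul]

end Chi

end Fermat.Agent.S16.ShimuraProps
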