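/-
S16, lower bound via the Shimura character (line A-psi), block (P4): the final algebra.

`LowerStatement` (every Hecke relation on cusp forms of level `p` vanishes modulo
`n = eisensteinNumerator p` at the Eisenstein system) from

* (P3)  Hecke-equivariance of the period map (`PeriodHeckeT`, `PeriodHeckeU`),
* the compatibility of the coset-formula Hecke operators with `charInvolution`
  (`InvolT`, `InvolU`),
* the lift of a `ℤ/n`-valued character killing `trace² ≤ 4` to a `ℤ`-valued parabolic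
  homomorphism (`LiftStatement`),
* S21 (Eichler–Shimura) and S23 (integral structure), both landed.
-/
import Fermat.Agent.S16.Interfaces2
import Fermat.Agent.S16.ShimuraProps
import Fermat.Agent.S21
import Fermat.Agent.S21.PeriodBasics
import Fermat.Agent.S23
import Fermat.Agent.S16.PeriodHeckePair

set_option autoImplicit false
set_option linter.unusedSectionVars false
set_option linter.style.haveILetI false

namespace Fermat.Agent.S16.LowerPsi

open scoped MatrixGroups
open ModularCurve ModularCurve.Period CuspForm CongruenceSubgroup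
open Fermat.Agent.S16.HeckeHom Fermat.Agent.S16.Interfaces

/-- (P3), `T_l`-part: Hecke-equivariance of the period map. -/
def PeriodHeckeT : Prop :=
  ∀ (N : ℕ) [NeZero N] (l : ℕ) [hl : Fact l.Prime] (hlN : ¬ l ∣ N)
    (f : CuspForm (Gamma0 N) 2),
    periodMap N (CuspForm.heckeTLin 2 hl.out hlN f) = (cosetT N l hlN).heckeHom (periodMap N f)

/-- (P3), `U_q`-part: Hecke-equivariance of the period map. -/
def PeriodHeckeU : Prop :=
  ∀ (N : ℕ) [NeZero N] (q : ℕ) [Fact q.Prime] (hqN : q ∣ N)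
    (f : CuspForm (Gamma0 N) 2),
    periodMap N (CuspForm.heckeULin 2 hqN f) = (cosetU N q hqN).heckeHom (periodMap N f)

/-- The `T_l` coset operator commutes with `charInvolution`. -/
def InvolT : Prop :=
  ∀ (N : ℕ) (l : ℕ) [Fact l.Prime] (hlN : ¬ l ∣ N) (φ : Additive (Gamma0 N) →+ ℂ),
    (cosetT N l hlN).heckeHom (charInvolution N ℂ ℂ φ) =
      charInvolution N ℂ ℂ ((cosetT N l hlN).heckeHom φ)

/-- The `U_q` coset operator commutes with `charInvolution`. -/
def InvolU : Prop :=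
  ∀ (N : ℕ) (q : ℕ) [Fact q.Prime] (hqN : q ∣ N) (φ : Additive (Gamma0 N) →+ ℂ),
    (cosetU N q hqN).heckeHom (charInvolution N ℂ ℂ φ) =
      charInvolution N ℂ ℂ ((cosetU N q hqN).heckeHom φ)

/-- Lifting `ℤ/n`-valued characters killing `trace² ≤ 4` to `ℤ`-valued parabolic homs. -/
def LiftStatement : Prop :=
  ∀ (p : ℕ) [Fact p.Prime] (n : ℕ) [NeZero n] (ψ : Additive (Gamma0 p) →+ ZMod n),
    (∀ g : Gamma0 p, (mat g).trace ^ 2 ≤ 4 → ψ (Additive.ofMul g) = 0) →
      ∃ φ : Additive (Gamma0 p) →+ ℤ, IsParabolicHom (Gamma0 p) φ ∧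
        ∀ γ, ((φ γ : ℤ) : ZMod n) = ψ γ

section Main

variable (p : ℕ) [hp : Fact p.Prime]

/-- The coset-formula operator attached to the prime `ℓ` at level `p`. -/
noncomputable def tau {A : Type*} [AddCommGroup A] (ℓ : Nat.Primes)
    (φ : Additive (Gamma0 p) →+ A) : Additive (Gamma0 p) →+ A :=
  haveI : Fact (ℓ : ℕ).Prime := ⟨ℓ.2⟩
  if h : (ℓ : ℕ) ∣ p then (cosetU p ℓ h).heckeHom φ else (cosetT p ℓ h).heckeHom φ

theorem tau_add {A : Type*} [AddCommGroup A] (ℓ : Nat.Primes)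
    (φ ψ : Additive (Gamma0 p) →+ A) : tau p ℓ (φ + ψ) = tau p ℓ φ + tau p ℓ ψ := by
  unfold tau
  split_ifs <;> exact CosetSystem.heckeHom_add _ _ _

theorem tau_sub {A : Type*} [AddCommGroup A] (ℓ : Nat.Primes)
    (φ ψ : Additive (Gamma0 p) →+ A) : tau p ℓ (φ - ψ) = tau p ℓ φ - tau p ℓ ψ := by
  unfold tau
  split_ifs <;> exact CosetSystem.heckeHom_sub _ _ _

theorem tau_zsmul {A : Type*} [AddCommGroup A] (ℓ : Nat.Primes) (m : ℤ)
    (φ : Additive (Gamma0 p) →+ A) : tau p ℓ (m • φ) = m • tau p ℓ φ := by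
  unfold tau
  split_ifs <;> exact CosetSystem.heckeHom_zsmul _ _ _

theorem tau_comp {A B : Type*} [AddCommGroup A] [AddCommGroup B] (ℓ : Nat.Primes) (f : A →+ B)
    (φ : Additive (Gamma0 p) →+ A) : tau p ℓ (f.comp φ) = f.comp (tau p ℓ φ) := by
  unfold tau
  split_ifs <;> exact CosetSystem.heckeHom_comp _ _ _

/-- `tau ℓ φ γ` is a finite sum of values of `φ`. -/
theorem tau_apply_mem {A : Type*} [AddCommGroup A] (ℓ : Nat.Primes)
    (φ : Additive (Gamma0 p) →+ A) (S : AddSubgroup A) (hφ : ∀ γ, φ γ ∈ S) (γ : Additive (Gamma0 p)) :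
    tau p ℓ φ γ ∈ S := by
  haveI : Fact (ℓ : ℕ).Prime := ⟨ℓ.2⟩
  unfold tau
  split_ifs with h
  · show ∑ i, φ (Additive.ofMul ((cosetU p ℓ h).fac (Additive.toMul γ) i)) ∈ S
    exact AddSubgroup.sum_mem _ fun i _ => hφ _
  · show ∑ i, φ (Additive.ofMul ((cosetT p ℓ h).fac (Additive.toMul γ) i)) ∈ S
    exact AddSubgroup.sum_mem _ fun i _ => hφ _

end Main

section Main2

variable (p : ℕ) [hp : Fact p.Prime] [NeZero p]

/-- The subgroup of integers inside `ℂ`. -/
def intSub : AddSubgroup ℂ := (Int.castAddHom ℂ).range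

theorem mem_intSub {z : ℂ} : z ∈ intSub ↔ ∃ m : ℤ, (m : ℂ) = z := Iff.rfl

/-- Integer-valued homomorphisms. -/
def IsInt (φ : Additive (Gamma0 p) →+ ℂ) : Prop := ∀ γ, φ γ ∈ intSub

theorem IsInt.add {φ ψ : Additive (Gamma0 p) →+ ℂ} (h1 : IsInt p φ) (h2 : IsInt p ψ) :
    IsInt p (φ + ψ) := fun γ => intSub.add_mem (h1 γ) (h2 γ)

theorem IsInt.zsmul {φ : Additive (Gamma0 p) →+ ℂ} (m : ℤ) (h1 : IsInt p φ) :
    IsInt p (m • φ) := fun γ => intSub.zsmul_mem (h1 γ) m

theorem IsInt.tau {φ : Additive (Gamma0 p) →+ ℂ} (ℓ : Nat.Primes) (h1 : IsInt p φ) :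
    IsInt p (tau p ℓ φ) := fun γ => tau_apply_mem p ℓ φ intSub h1 γ

/-- The endomorphism of `S₂(Γ₀(p))` attached to `Q : HeckeAlg`. -/
noncomputable def tQ (Q : HeckeAlg) : Module.End ℂ (CuspForm (Gamma0 p) 2) :=
  ((heckeEvalForms p 2 Q : heckeAlgebra p 2 ∅) : Module.End ℂ (CuspForm (Gamma0 p) 2))

theorem tQ_add (Q Q' : HeckeAlg) : tQ p (Q + Q') = tQ p Q + tQ p Q' := by
  unfold tQ; rw [map_add]; rfl

theorem tQ_mul (Q Q' : HeckeAlg) : tQ p (Q * Q') = tQ p Q * tQ p Q' := by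
  unfold tQ; rw [map_mul]; rfl

theorem tQ_C (a : ℤ) : tQ p (MvPolynomial.C a) = a • (1 : Module.End ℂ (CuspForm (Gamma0 p) 2)) := by
  unfold tQ
  rw [heckeEvalForms_C, Subalgebra.coe_algebraMap, Algebra.algebraMap_eq_smul_one]

theorem tQ_X_of_dvd (ℓ : Nat.Primes) (h : (ℓ : ℕ) ∣ p) :
    tQ p (MvPolynomial.X ℓ) = CuspForm.heckeULin 2 h := by
  unfold tQ
  have := heckeEvalForms_heckeGen_of_dvd (N := p) (k := 2) (q := ℓ) h
  rw [heckeGen] at this
  rw [this]; rfl

theorem tQ_X_of_not_dvd (ℓ : Nat.Primes) (h : ¬ (ℓ : ℕ) ∣ p) :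
    tQ p (MvPolynomial.X ℓ) = CuspForm.heckeTLin 2 ℓ.2 h := by
  unfold tQ
  have := heckeEvalForms_heckeGen_of_not_dvd (N := p) (k := 2) (ℓ := ℓ) h
  rw [heckeGen] at this
  rw [this]; rfl

/-- The diagonal action on pairs of cusp forms. -/
noncomputable def dQ (Q : HeckeAlg) :
    (CuspForm (Gamma0 p) 2 × CuspForm (Gamma0 p) 2) →ₗ[ℂ]
      (CuspForm (Gamma0 p) 2 × CuspForm (Gamma0 p) 2) :=
  LinearMap.prodMap (tQ p Q) (tQ p Q)

theorem dQ_add (Q Q' : HeckeAlg) (v) : dQ p (Q + Q') v = dQ p Q v + dQ p Q' v := by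
  unfold dQ; rw [tQ_add]; rfl

theorem dQ_mul (Q Q' : HeckeAlg) (v) : dQ p (Q * Q') v = dQ p Q (dQ p Q' v) := by
  unfold dQ; rw [tQ_mul]; rfl

theorem dQ_C (a : ℤ) (v) : dQ p (MvPolynomial.C a) v = a • v := by
  unfold dQ; rw [tQ_C]
  ext <;> simp

/-- Generator formula: on the image of `periodHomPair`, `X ℓ` acts as `tau ℓ`. -/
theorem periodHomPair_dQ_X (hT : PeriodHeckeT) (hU : PeriodHeckeU) (hiT : InvolT) (hiU : InvolU)
    (ℓ : Nat.Primes) (v : CuspForm (Gamma0 p) 2 × CuspForm (Gamma0 p) 2) :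
    periodHomPair p (dQ p (MvPolynomial.X ℓ) v) = tau p ℓ (periodHomPair p v) := by
  obtain ⟨pml, hpml, hB⟩ := periodHomPair_def p (Fermat.Agent.S21.PeriodBasics.existsPeriodMapLinear p)
  haveI : Fact (ℓ : ℕ).Prime := ⟨ℓ.2⟩
  obtain ⟨f, g⟩ := v
  have hBv : ∀ f g : CuspForm (Gamma0 p) 2, periodHomPair p (f, g) =
      (pml f + charInvolution p ℂ ℂ (pml f)) + (pml g - charInvolution p ℂ ℂ (pml g)) := by
    intro f g
    rw [hB]
    simp only [LinearMap.coprod_apply, LinearMap.comp_apply, LinearMap.add_apply,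
      LinearMap.sub_apply, LinearMap.id_apply]
  -- the key commutation for `pml`
  have key : ∀ f : CuspForm (Gamma0 p) 2,
      pml (tQ p (MvPolynomial.X ℓ) f) = tau p ℓ (pml f) ∧
      charInvolution p ℂ ℂ (tau p ℓ (pml f)) =
        tau p ℓ (charInvolution p ℂ ℂ (pml f)) := by
    intro f
    by_cases h : (ℓ : ℕ) ∣ p
    · have h1 : pml (tQ p (MvPolynomial.X ℓ) f) = tau p ℓ (pml f) := by
        rw [tQ_X_of_dvd p ℓ h, hpml, hpml, hU p ℓ h f]
        unfold tau; rw [dif_pos h]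
      refine ⟨h1, ?_⟩
      unfold tau; rw [dif_pos h, dif_pos h]
      exact (hiU p ℓ h _).symm
    · have h1 : pml (tQ p (MvPolynomial.X ℓ) f) = tau p ℓ (pml f) := by
        rw [tQ_X_of_not_dvd p ℓ h, hpml, hpml, hT p ℓ h f]
        unfold tau; rw [dif_neg h]
      refine ⟨h1, ?_⟩
      unfold tau; rw [dif_neg h, dif_neg h]
      exact (hiT p ℓ h _).symm
  show periodHomPair p (tQ p (MvPolynomial.X ℓ) f, tQ p (MvPolynomial.X ℓ) g) = _
  rw [hBv, hBv, (key f).1, (key f).2, (key g).1, (key g).2, tau_add, tau_add, tau_sub]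

/-- `v` has an integer-valued period pair. -/
def IsIntV (v : CuspForm (Gamma0 p) 2 × CuspForm (Gamma0 p) 2) : Prop :=
  IsInt p (periodHomPair p v)

theorem isIntV_zero : IsIntV p 0 := by
  intro γ
  rw [map_zero]
  exact intSub.zero_mem

/-- The eigen-hypothesis modulo `n` on `v`. -/
def IsEigenMod (n : ℕ) (v : CuspForm (Gamma0 p) 2 × CuspForm (Gamma0 p) 2) : Prop :=
  ∀ ℓ : Nat.Primes, ∃ w, IsIntV p w ∧
    tau p ℓ (periodHomPair p v) - (eisensteinSystem p ℓ) • periodHomPair p v =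
      (n : ℤ) • periodHomPair p w

theorem ev_C (a : ℤ) : ev p (MvPolynomial.C a) = a := by
  simp [ev]

theorem ev_mul_X (Q : HeckeAlg) (ℓ : Nat.Primes) :
    ev p (Q * MvPolynomial.X ℓ) = ev p Q * eisensteinSystem p ℓ := by
  simp [ev]

theorem alg_aux {M : Type*} [AddCommGroup M] (e evQ n : ℤ) (b bw c : M) :
    e • (evQ • b + n • bw) + n • c - (evQ * e) • b = n • (e • bw + c) := by
  module

/-- The main induction. -/
theorem induction_claim (hT : PeriodHeckeT) (hU : PeriodHeckeU) (hiT : InvolT) (hiU : InvolU)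
    (hinj : Function.Injective (periodHomPair p)) (n : ℕ) (Q : HeckeAlg) :
    (∀ v, IsIntV p v → IsIntV p (dQ p Q v)) ∧
    (∀ v, IsIntV p v → IsEigenMod p n v →
      ∃ w, IsIntV p w ∧
        periodHomPair p (dQ p Q v) - (ev p Q) • periodHomPair p v = (n : ℤ) • periodHomPair p w) := by
  induction Q using MvPolynomial.induction_on with
  | C a =>
    refine ⟨fun v hv => ?_, fun v hv _ => ⟨0, isIntV_zero p, ?_⟩⟩
    · rw [dQ_C]
      show IsInt p (periodHomPair p (a • v))
      rw [map_zsmul]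
      exact IsInt.zsmul p a hv
    · rw [dQ_C, ev_C, map_zsmul, sub_self, map_zero, smul_zero]
  | add Q Q' ih ih' =>
    refine ⟨fun v hv => ?_, fun v hv he => ?_⟩
    · rw [dQ_add]
      show IsInt p (periodHomPair p (dQ p Q v + dQ p Q' v))
      rw [map_add]
      exact IsInt.add p (ih.1 v hv) (ih'.1 v hv)
    · obtain ⟨w, hw, hwe⟩ := ih.2 v hv he
      obtain ⟨w', hw', hwe'⟩ := ih'.2 v hv he
      refine ⟨w + w', ?_, ?_⟩
      · show IsInt p (periodHomPair p (w + w'))
        rw [map_add]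
        exact IsInt.add p hw hw'
      · rw [dQ_add, map_add, map_add, map_add, add_smul, smul_add, ← hwe, ← hwe']
        abel
  | mul_X Q ℓ ih =>
    have hgen := periodHomPair_dQ_X p hT hU hiT hiU ℓ
    refine ⟨fun v hv => ?_, fun v hv he => ?_⟩
    · rw [dQ_mul]
      refine ih.1 _ ?_
      show IsInt p (periodHomPair p (dQ p (MvPolynomial.X ℓ) v))
      rw [hgen]
      exact IsInt.tau p ℓ hv
    · obtain ⟨wl, hwl, hwle⟩ := he ℓ
      obtain ⟨w', hw', hwe'⟩ := ih.2 v hv he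
      -- v' = e • v + n • wl
      have hv' : dQ p (MvPolynomial.X ℓ) v = (eisensteinSystem p ℓ) • v + (n : ℤ) • wl := by
        apply hinj
        rw [hgen, map_add, map_zsmul, map_zsmul, ← hwle]
        abel
      refine ⟨(eisensteinSystem p ℓ) • w' + dQ p Q wl, ?_, ?_⟩
      · show IsInt p (periodHomPair p ((eisensteinSystem p ℓ) • w' + dQ p Q wl))
        rw [map_add, map_zsmul]
        exact IsInt.add p (IsInt.zsmul p _ hw') (ih.1 wl hwl)
      · rw [dQ_mul, hv', map_add, map_zsmul, map_zsmul, map_add, map_zsmul, map_zsmul,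
          map_add, map_zsmul, ev_mul_X]
        have e1 : periodHomPair p (dQ p Q v) =
            (ev p Q) • periodHomPair p v + (n : ℤ) • periodHomPair p w' := by
          rw [← hwe']; abel
        rw [e1]
        exact alg_aux _ _ _ _ _ _

end Main2

section Final

open Fermat.Agent.S16.ShimuraProps

/-- The Shimura character with its `tau`-eigenproperties. -/
theorem exists_shimura_tau (p : ℕ) [hp : Fact p.Prime] :
    ∃ ψ : Additive (Gamma0 p) →+ ZMod (eisensteinNumerator p),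
      Function.Surjective ψ ∧
      (∀ g : Gamma0 p, (mat g).trace ^ 2 ≤ 4 → ψ (Additive.ofMul g) = 0) ∧
      ∀ ℓ : Nat.Primes, tau p ℓ ψ = (eisensteinSystem p ℓ) • ψ := by
  obtain ⟨χ, hsurj, hχ⟩ := exists_chi p
  have : NeZero p := ⟨hp.out.ne_zero⟩
  refine ⟨shimura p χ, ?_, ?_, ?_⟩
  · intro y
    obtain ⟨x, rfl⟩ := hsurj y
    obtain ⟨g, hg⟩ := dUnit_surjective p (Additive.toMul x)
    exact ⟨Additive.ofMul g, by rw [shimura_apply, hg]; rfl⟩
  · exact fun g hg => shimura_eq_zero_of_trace_sq_le p χ hχ g hg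
  · intro ℓ
    haveI : Fact (ℓ : ℕ).Prime := ⟨ℓ.2⟩
    unfold tau
    by_cases h : (ℓ : ℕ) ∣ p
    · rw [dif_pos h, heckeHom_cosetU_shimura p ℓ h χ, eisensteinSystem_of_dvd h, one_smul]
      have hlp : (ℓ : ℕ) = p := (Nat.prime_dvd_prime_iff_eq ℓ.2 hp.out).mp h
      refine AddMonoidHom.ext fun g => ?_
      rw [AddMonoidHom.coe_smul, Pi.smul_apply, nsmul_eq_mul, hlp]
      have h1 : ((p : ℕ) : ZMod (eisensteinNumerator p)) = 1 := by
        have hdvd : eisensteinNumerator p ∣ p - 1 := eisensteinNumerator_dvd p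
        have hp1 : 1 ≤ p := hp.out.one_lt.le
        have h2 : ((p - 1 : ℕ) : ZMod (eisensteinNumerator p)) = 0 :=
          (ZMod.natCast_eq_zero_iff _ _).mpr hdvd
        rw [Nat.cast_sub hp1] at h2
        simpa using sub_eq_zero.mp h2
      rw [h1, one_mul]
    · rw [dif_neg h, heckeHom_cosetT_shimura p ℓ h χ, eisensteinSystem_of_not_dvd h]
      refine AddMonoidHom.ext fun g => ?_
      simp only [AddMonoidHom.coe_smul, Pi.smul_apply]
      rw [nsmul_eq_mul, zsmul_eq_mul]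
      push_cast
      ring

/-- **Lower bound** (A-psi line): `LowerStatement` from the analytic and group-theoretic inputs. -/
theorem lowerStatement_of (hT : PeriodHeckeT) (hU : PeriodHeckeU) (hiT : InvolT) (hiU : InvolU)
    (hL : LiftStatement) : LowerStatement := by
  intro p hp _ h5 P hP
  set n := eisensteinNumerator p with hn
  have hnpos : 0 < n := by
    rw [hn, eisensteinNumerator]
    have hp1 : 0 < p - 1 := by omega
    exact Nat.div_pos (Nat.le_of_dvd hp1 (Nat.gcd_dvd_left _ _)) (Nat.gcd_pos_of_pos_left _ hp1)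
  haveI : NeZero n := ⟨hnpos.ne'⟩
  have hn0 : (n : ℂ) ≠ 0 := by exact_mod_cast hnpos.ne'
  obtain ⟨ψ, hsurj, hkill, heigψ⟩ := exists_shimura_tau p
  obtain ⟨φ, hφpar, hφψ⟩ := hL p n ψ hkill
  obtain ⟨hinj, hrange⟩ := Fermat.Agent.S21.result p
  -- the complexification of `φ`
  set φC : Additive (Gamma0 p) →+ ℂ := (Int.castAddHom ℂ).comp φ with hφC
  have hφC_par : φC ∈ parabolicHoms ℂ (Gamma0 p) ℂ := by
    intro γ hγ
    show ((φ (Additive.ofMul γ) : ℤ) : ℂ) = 0
    rw [hφpar γ hγ, Int.cast_zero]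
  rw [← hrange] at hφC_par
  obtain ⟨v, hv⟩ := hφC_par
  have hvint : IsIntV p v := by
    intro γ
    rw [hv]
    exact ⟨φ γ, rfl⟩
  have hcastψ : (Int.castAddHom (ZMod n)).comp φ = ψ := AddMonoidHom.ext hφψ
  -- the eigen-hypothesis
  have heig : IsEigenMod p n v := by
    intro ℓ
    set e := eisensteinSystem p ℓ with he
    set δ : Additive (Gamma0 p) →+ ℤ := tau p ℓ φ - e • φ with hδ
    have hδn : ∀ γ, (n : ℤ) ∣ δ γ := by
      intro γ
      rw [← ZMod.intCast_zmod_eq_zero_iff_dvd]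
      have h2 : (Int.castAddHom (ZMod n)).comp δ = 0 := by
        rw [hδ, AddMonoidHom.comp_sub, ← tau_comp, hcastψ, heigψ ℓ]
        refine AddMonoidHom.ext fun γ => ?_
        simp only [AddMonoidHom.sub_apply, AddMonoidHom.coe_comp, Function.comp_apply,
          AddMonoidHom.coe_smul, Pi.smul_apply, map_zsmul, AddMonoidHom.zero_apply]
        rw [← hcastψ]
        simp only [AddMonoidHom.coe_comp, Function.comp_apply, Int.coe_castAddHom]
        exact sub_self _
      exact congrArg (fun f : Additive (Gamma0 p) →+ ZMod n => f γ) h2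
    have hδC : (Int.castAddHom ℂ).comp δ =
        tau p ℓ (periodHomPair p v) - e • periodHomPair p v := by
      rw [hδ, AddMonoidHom.comp_sub, ← tau_comp, hv]
      congr 1
      refine AddMonoidHom.ext fun γ => ?_
      simp [hφC]
    have hgen := periodHomPair_dQ_X p hT hU hiT hiU ℓ v
    refine ⟨(n : ℂ)⁻¹ • (dQ p (MvPolynomial.X ℓ) v - e • v), ?_, ?_⟩
    · intro γ
      rw [map_smul, map_sub, map_zsmul, hgen, ← hδC]
      obtain ⟨m, hm⟩ := hδn γ
      refine ⟨m, ?_⟩
      show (m : ℂ) = (n : ℂ)⁻¹ • ((δ γ : ℤ) : ℂ)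
      rw [hm]
      push_cast
      rw [smul_eq_mul]
      field_simp
    · rw [map_smul, map_sub, map_zsmul, hgen]
      rw [← Int.cast_smul_eq_zsmul ℂ (n : ℤ), smul_smul]
      push_cast
      rw [mul_inv_cancel₀ hn0, one_smul]
  obtain ⟨w, hwint, hw⟩ :=
    (induction_claim p hT hU hiT hiU hinj n P).2 v hvint heig
  -- `P` acts as zero on cusp forms
  have hP0 : tQ p P = 0 := by
    have hbij := latticeRestrictHom_bijective p ∅ (Fermat.Agent.S23.result p)
    have h1 : latticeRestrictHom p ∅ (heckeEvalForms p 2 P) = 0 := hP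
    have h2 : heckeEvalForms p 2 P = 0 := by
      apply hbij.1
      rw [h1, map_zero]
    unfold tQ
    rw [h2]; rfl
  have hzero : periodHomPair p (dQ p P v) = 0 := by
    unfold dQ
    rw [hP0]
    simp
  rw [hzero, zero_sub, hv] at hw
  -- evaluate at an element with `ψ = 1`
  obtain ⟨γ₁, hγ₁⟩ := hsurj 1
  obtain ⟨m, hm⟩ := hwint γ₁
  have hw1 := congrArg (fun f : Additive (Gamma0 p) →+ ℂ => f γ₁) hw
  simp only [AddMonoidHom.neg_apply, AddMonoidHom.coe_smul, Pi.smul_apply] at hw1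
  rw [← hm] at hw1
  have hw2 : -(ev p P * φ γ₁) = (n : ℤ) * m := by
    have : ((-(ev p P * φ γ₁) : ℤ) : ℂ) = (((n : ℤ) * m : ℤ) : ℂ) := by
      push_cast
      simpa [hφC, zsmul_eq_mul] using hw1
    exact_mod_cast this
  rw [← ZMod.intCast_zmod_eq_zero_iff_dvd]
  have hw3 := congrArg (fun z : ℤ => (z : ZMod n)) hw2
  simp only [Int.cast_neg, Int.cast_mul, Int.cast_natCast, ZMod.natCast_self, zero_mul] at hw3
  have hφ1 : ((φ γ₁ : ℤ) : ZMod n) = 1 := by rw [hφψ, hγ₁]
  rw [hφ1, mul_one, neg_eq_zero] at hw3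
  exact hw3

theorem periodHeckeT : PeriodHeckeT := fun N _ l _ hlN f =>
  Fermat.Agent.S16.PeriodHecke.periodMap_heckeT N l hlN f

theorem periodHeckeU : PeriodHeckeU := fun N _ q _ hqN f =>
  Fermat.Agent.S16.PeriodHecke.periodMap_heckeU N q hqN f

theorem involT : InvolT := fun N l _ hlN φ =>
  Fermat.Agent.S16.PeriodHeckePair.heckeHom_charInvolution_T N ℂ l hlN φ

theorem involU : InvolU := fun N q _ hqN φ =>
  Fermat.Agent.S16.PeriodHeckePair.heckeHom_charInvolution_U N ℂ q hqN φ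

/-- **Lower bound** (A-psi line): everything is closed except the lift of the Shimura
character. -/
theorem lowerStatement_of_lift (hL : LiftStatement) : LowerStatement :=
  lowerStatement_of periodHeckeT periodHeckeU involT involU hL

end Final

end Fermat.Agent.S16.LowerPsi
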