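/-
S16, lower bound (A-psi line), CLOSED: `Interfaces.LowerStatement` from
`LowerPsi.lowerStatement_of_lift` (helper67) and `LiftHom.exists_int_lift_Gamma0` (helper8).
-/
import Fermat.Agent.S16.LowerPsi
import Fermat.Agent.S16.LiftHom

set_option autoImplicit false

namespace Fermat.Agent.S16.LowerPsiFinal

open CongruenceSubgroup

/-- The lift of `ℤ/n`-valued characters of `Γ₀(p)` killing `trace² ≤ 4`. -/
theorem liftStatement : Fermat.Agent.S16.LowerPsi.LiftStatement := by
  intro p hp n _ ψ hψ
  have : NeZero p := ⟨hp.out.ne_zero⟩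
  exact Fermat.Agent.S16.LiftHom.exists_int_lift_Gamma0 p n ψ hψ

/-- **The lower bound of S16**: every Hecke relation on cusp forms of prime level `p ≥ 5` vanishes
modulo `eisensteinNumerator p` at the Eisenstein system. -/
theorem lowerStatement : Fermat.Agent.S16.Interfaces.LowerStatement :=
  Fermat.Agent.S16.LowerPsi.lowerStatement_of_lift liftStatement

end Fermat.Agent.S16.LowerPsiFinal
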