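import Mathlib
import Fermat.Prelude.Def_CuspForm_HeckeLocal
import Fermat.Prelude.Def_CuspForm_HeckeEvalForms
import Fermat.Prelude.Def_HeckeGalois_EichlerShimura
import Fermat.Prelude.Def_ModularCurve_ModularUnit
import Fermat.Prelude.Def_ModularCurve_GenusNumerics
import Fermat.Agent.S21.Reduction

/-!
# S16: the trivial levels `p ∈ {2, 3, 5, 7, 13}`

For these primes `genusFormula p = 0`, hence `S₂(Γ₀(p)) = 0` (upper bound of `S21/Reduction`), the
integral lattice is trivial, the Hecke algebra acting on it is the zero ring and the quotient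
by the image of the Eisenstein ideal has exactly one element, which is `eisensteinNumerator p`.
-/

set_option autoImplicit false

open ModularCurve CuspForm CongruenceSubgroup

namespace Fermat.Agent.S16.SmallLevels

lemma dedekindPsi_prime {p : ℕ} (hp : p.Prime) : dedekindPsi p = p + 1 := by
  rw [dedekindPsi, hp.divisors, Finset.sum_filter, Finset.sum_pair hp.one_lt.ne]
  simp [hp.squarefree, Nat.div_self hp.pos]

lemma cuspCount_prime {p : ℕ} (hp : p.Prime) : cuspCount p = 2 := by
  rw [cuspCount, hp.divisors, Finset.sum_pair hp.one_lt.ne]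
  simp [Nat.div_self hp.pos]

lemma genusFormula_prime {p : ℕ} (hp : p.Prime) :
    genusFormula p = ((p : ℚ) + 1) / 12 - (nuTwo p : ℚ) / 4 - (nuThree p : ℚ) / 3 := by
  rw [genusFormula, dedekindPsi_prime hp, cuspCount_prime hp]
  push_cast
  ring

lemma nuTwo_two : nuTwo 2 = 1 := by rw [nuTwo, Nat.card_eq_fintype_card]; decide
lemma nuThree_two : nuThree 2 = 0 := by rw [nuThree, Nat.card_eq_fintype_card]; decide
lemma nuTwo_three : nuTwo 3 = 0 := by rw [nuTwo, Nat.card_eq_fintype_card]; decide
lemma nuThree_three : nuThree 3 = 1 := by rw [nuThree, Nat.card_eq_fintype_card]; decide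
lemma nuTwo_five : nuTwo 5 = 2 := by rw [nuTwo, Nat.card_eq_fintype_card]; decide
lemma nuThree_five : nuThree 5 = 0 := by rw [nuThree, Nat.card_eq_fintype_card]; decide
lemma nuTwo_seven : nuTwo 7 = 0 := by rw [nuTwo, Nat.card_eq_fintype_card]; decide
lemma nuThree_seven : nuThree 7 = 2 := by rw [nuThree, Nat.card_eq_fintype_card]; decide
lemma nuTwo_thirteen : nuTwo 13 = 2 := by rw [nuTwo, Nat.card_eq_fintype_card]; decide
lemma nuThree_thirteen : nuThree 13 = 2 := by rw [nuThree, Nat.card_eq_fintype_card]; decide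

/-- The genus formula vanishes at the five primes `2, 3, 5, 7, 13`. -/
theorem genusFormula_eq_zero {p : ℕ} (hp : p = 2 ∨ p = 3 ∨ p = 5 ∨ p = 7 ∨ p = 13) :
    genusFormula p = 0 := by
  rcases hp with rfl | rfl | rfl | rfl | rfl
  · rw [genusFormula_prime Nat.prime_two, nuTwo_two, nuThree_two]; norm_num
  · rw [genusFormula_prime Nat.prime_three, nuTwo_three, nuThree_three]; norm_num
  · rw [genusFormula_prime Nat.prime_five, nuTwo_five, nuThree_five]; norm_num
  · rw [genusFormula_prime (by norm_num : Nat.Prime 7), nuTwo_seven, nuThree_seven]; norm_num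
  · rw [genusFormula_prime (by norm_num : Nat.Prime 13), nuTwo_thirteen, nuThree_thirteen]
    norm_num

/-- `S₂(Γ₀(N))` is trivial as soon as the genus formula vanishes. -/
theorem subsingleton_cuspForm_of_genusFormula_eq_zero (N : ℕ) [NeZero N]
    (h : genusFormula N = 0) : Subsingleton (CuspForm (Gamma0 N) 2) := by
  have := Fermat.Agent.S21.Reduction.cuspForm_finite N
  have hle := Fermat.Agent.S21.Reduction.finrank_cuspForm_le N
  rw [h] at hle
  have h0 : Module.finrank ℂ (CuspForm (Gamma0 N) 2) = 0 := by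
    have : (Module.finrank ℂ (CuspForm (Gamma0 N) 2) : ℚ) ≤ 0 := hle
    exact_mod_cast le_antisymm (by exact_mod_cast this) (Nat.zero_le _)
  exact Module.finrank_zero_iff.mp h0

/-- If `S₂(Γ₀(N))` is trivial, so is the Hecke algebra acting on the integral lattice. -/
theorem subsingleton_heckeLatticeAlgebra (N : ℕ) [NeZero N] (S : Set ℕ)
    [Subsingleton (CuspForm (Gamma0 N) 2)] : Subsingleton ↥(heckeLatticeAlgebra N S) := by
  have : Subsingleton ↥(intLattice N 2) :=
    ⟨fun a b => Subtype.ext (Subsingleton.elim _ _)⟩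
  have : Subsingleton (Module.End ℤ ↥(intLattice N 2)) :=
    ⟨fun a b => LinearMap.ext fun x => Subsingleton.elim _ _⟩
  exact ⟨fun a b => Subtype.ext (Subsingleton.elim _ _)⟩

/-- The frozen conclusion of S16 with right-hand side `1`, whenever `S₂(Γ₀(p)) = 0`. -/
theorem natCard_quotient_eq_one (p : ℕ) [NeZero p] [Subsingleton (CuspForm (Gamma0 p) 2)]
    (I : Ideal ↥(heckeLatticeAlgebra p ∅)) :
    Nat.card (↥(heckeLatticeAlgebra p ∅) ⧸ I) = 1 := by
  have := subsingleton_heckeLatticeAlgebra p ∅
  have : Subsingleton (↥(heckeLatticeAlgebra p ∅) ⧸ I) :=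
    ⟨fun a b => by
      obtain ⟨a, rfl⟩ := Ideal.Quotient.mk_surjective a
      obtain ⟨b, rfl⟩ := Ideal.Quotient.mk_surjective b
      rw [Subsingleton.elim a b]⟩
  exact Nat.card_unique

lemma eisensteinNumerator_small {p : ℕ} (hp : p = 2 ∨ p = 3 ∨ p = 5 ∨ p = 7 ∨ p = 13) :
    eisensteinNumerator p = 1 := by
  rcases hp with rfl | rfl | rfl | rfl | rfl <;> decide

/-- **S16 at the levels `2, 3, 5, 7, 13`** (literally the frozen statement for these `p`). -/
theorem small (p : ℕ) [Fact p.Prime] (hp : p = 2 ∨ p = 3 ∨ p = 5 ∨ p = 7 ∨ p = 13) :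
    Nat.card (↥(heckeLatticeAlgebra p ∅) ⧸
        Ideal.map ((latticeRestrictHom p ∅).toRingHom.comp (heckeEvalForms p 2))
          (eisensteinIdeal p)) =
      eisensteinNumerator p := by
  haveI : NeZero p := ⟨(Fact.out : p.Prime).ne_zero⟩
  have := subsingleton_cuspForm_of_genusFormula_eq_zero p (genusFormula_eq_zero hp)
  rw [eisensteinNumerator_small hp]
  exact natCard_quotient_eq_one p _

end Fermat.Agent.S16.SmallLevels
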