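import Fermat.Agent.S16.Interfaces2
import Fermat.Agent.S16.SmallLevels

/-!
# S16: block (SMALL) of `Interfaces2` — the frozen statement for `p = 2, 3`
-/

set_option autoImplicit false

open ModularCurve CuspForm

namespace Fermat.Agent.S16.SmallInst

/-- Block (SMALL): the frozen S16 for the primes `p < 5`. -/
theorem smallStatement : Fermat.Agent.S16.Interfaces.SmallStatement := by
  intro p _ h5
  have hp : p.Prime := Fact.out
  have h2 : 2 ≤ p := hp.two_le
  refine Fermat.Agent.S16.SmallLevels.small p ?_
  interval_cases p
  · exact Or.inl rfl
  · exact Or.inr (Or.inl rfl)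
  · exact absurd hp (by norm_num)

end Fermat.Agent.S16.SmallInst
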