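import Mathlib
import Fermat.Agent.S24.JQExpansion
import Fermat.Agent.S23.LevelOneIntegral

/-!
# S16 prep (helper28): the level-one basis theorem over a coefficient ring, and its reduction
modulo `ℓ ∈ {2, 3}`

Input (v) of the S16 gap closures (#1212 / #1218 / #1235): a level-one modular form of weight `K`
whose `q`-expansion has coefficients in a subring `A ⊆ ℂ` is an `A`-combination of the forms
`E₄ ^ a * E₆ ^ b * Δ ^ c` (`4 a + 6 b + 12 c = K`); hence, if `240 = 504 = 0` in a quotient `k` of
`A` (`ℓ = 2, 3`), its reduction is a polynomial of degree `≤ K / 12` in `Δ̄ = q ∏ (1 - qⁿ)²⁴`.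

Main exports (namespace `Fermat.Agent.S16.LevelOneModL`):
* `eisenstein6 : PowerSeries ℤ`, `qExpansion_E6 : qExpansion 1 E₆ = eisenstein6.map _`;
* `deltaZ : PowerSeries ℤ := X * dedekindEtaUnit`, `qExpansion_discriminant' `;
* `eisMono w : PowerSeries ℤ` (a fixed monomial `E₄ ^ a * E₆ ^ b` of weight `w`);
* `Expansion K G` (inductive predicate: `G = ∑_c λ_c * eisMono (K - 12 c) * Δ ^ c`, `12 c ≤ K`);
* `expansion_of_qExpansion` : the basis theorem;
* `Expansion.exists_poly` : the reduction, `G.map π = aeval Δ_k P`, `P.coeff n = 0` for `K < 12 n`;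
* `exists_poly_delta_of_qExpansion` : both combined;
* `deltaZ_identity : 1728 * deltaZ = eisenstein4 ^ 3 - eisenstein6 ^ 2` (over `ℤ`);
* `Expansion.exists_isobaric`, `exists_isobaric_of_qExpansion` : if `1728 * u = 1` in `A`, then
  `G = aeval (eisPoint A) P` with `P : MvPolynomial (Fin 2) A` isobaric of weight `K.toNat` for
  the weights `wt = ![4, 6]` (`eisPoint A = ![E₄, E₆]` over `A`).
-/

set_option autoImplicit false

namespace Fermat.Agent.S16.LevelOneModL

open UpperHalfPlane ModularForm ModularFormClass MatrixGroups EisensteinSeries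
open Fermat.Agent.S24.JQExpansion

noncomputable section

/-! ### The integer series `E₆`, `Δ` -/

/-- `E₆ = 1 - 504 ∑ σ₅(n) qⁿ` as an integer power series. -/
def eisenstein6 : PowerSeries ℤ :=
  PowerSeries.mk fun n => if n = 0 then 1 else -504 * ∑ d ∈ n.divisors, (d : ℤ) ^ 5

@[simp]
theorem constantCoeff_eisenstein6 : PowerSeries.constantCoeff eisenstein6 = 1 := by
  rw [← PowerSeries.coeff_zero_eq_constantCoeff]
  simp [eisenstein6]

theorem bernoulli_six : bernoulli 6 = 1 / 42 := by
  rw [bernoulli_eq_bernoulli'_of_ne_one (by norm_num), bernoulli'_def]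
  have h2 : Nat.choose 6 2 = 15 := by decide
  have h3 : Nat.choose 6 3 = 20 := by decide
  have h4 : Nat.choose 6 4 = 15 := by decide
  have h5 : bernoulli' 5 = 0 := by
    rw [bernoulli'_def]
    have c2 : Nat.choose 5 2 = 10 := by decide
    have c3 : Nat.choose 5 3 = 10 := by decide
    have c4 : Nat.choose 5 4 = 5 := by decide
    norm_num [Finset.sum_range_succ, c2, c3, c4]
  norm_num [Finset.sum_range_succ, h2, h3, h4, h5]

theorem qExpansion_E6 :
    qExpansion 1 E₆ = eisenstein6.map (Int.castRingHom ℂ) := by
  ext m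
  rw [EisensteinSeries.E_qExpansion_coeff (by norm_num) (by decide) m]
  simp only [eisenstein6, PowerSeries.coeff_map, PowerSeries.coeff_mk]
  split_ifs with h
  · simp
  · rw [bernoulli_six]
    simp [ArithmeticFunction.sigma_apply]
    norm_num

/-- `Δ = q ∏ (1 - qⁿ)²⁴` as an integer power series. -/
def deltaZ : PowerSeries ℤ := PowerSeries.X * ModularCurve.dedekindEtaUnit

theorem qExpansion_discriminant' :
    qExpansion 1 ModularForm.discriminant = deltaZ.map (Int.castRingHom ℂ) := by
  rw [qExpansion_discriminant, deltaZ, map_mul, PowerSeries.map_X]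

/-! ### Monomials in `E₄`, `E₆` of a given weight -/

/-- A fixed monomial `E₄ ^ a * E₆ ^ b` of weight `w` (`w` even, `w ≠ 2`). -/
def eisMono (w : ℕ) : PowerSeries ℤ :=
  if w % 4 = 0 then ModularCurve.eisenstein4 ^ (w / 4)
  else ModularCurve.eisenstein4 ^ ((w - 6) / 4) * eisenstein6

@[simp]
theorem eisMono_zero : eisMono 0 = 1 := by
  simp [eisMono]

theorem constantCoeff_eisMono (w : ℕ) : PowerSeries.constantCoeff (eisMono w) = 1 := by
  unfold eisMono
  split_ifs <;> simp

theorem exists_form_eisMono (k : ℕ) (hk : Even k) (hk4 : 4 ≤ k) :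
    ∃ M : ModularForm 𝒮ℒ (k : ℤ), qExpansion 1 M = (eisMono k).map (Int.castRingHom ℂ) := by
  by_cases h4 : k % 4 = 0
  · have hw : ((k / 4 : ℕ) : ℤ) * 4 = (k : ℤ) := by omega
    refine ⟨ModularForm.mcast hw (E₄.pow (k / 4)), ?_⟩
    rw [ModularForm.qExpansion_mcast, ModularForm.qExpansion_pow one_pos one_mem_strictPeriods_SL,
      qExpansion_E4, eisMono, if_pos h4, map_pow]
  · have hk2 : k % 4 = 2 := by
      obtain ⟨j, hj⟩ := hk
      omega
    have hw : ((((k - 6) / 4 : ℕ) : ℤ) * 4 + 6) = (k : ℤ) := by omega
    refine ⟨ModularForm.mcast hw ((E₄.pow ((k - 6) / 4)).mul E₆), ?_⟩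
    rw [ModularForm.qExpansion_mcast, ModularForm.qExpansion_mul one_pos one_mem_strictPeriods_SL,
      ModularForm.qExpansion_pow one_pos one_mem_strictPeriods_SL,
      qExpansion_E4, qExpansion_E6, eisMono, if_neg h4, map_mul, map_pow]

/-! ### The expansion predicate -/

section Expansion

variable {A : Type*} [CommRing A]

/-- `Expansion K G`: the power series `G` over `A` is
`∑_{c, 12 c ≤ K} λ_c * eisMono (K - 12 c) * Δ ^ c` with `λ_c ∈ A`. -/
inductive Expansion : ℤ → PowerSeries A → Prop
  | zero (K : ℤ) : Expansion K 0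
  | step (K : ℤ) (hK : 0 ≤ K) (a : A) (hw : a = 0 ∨ (Even K ∧ K ≠ 2)) (H : PowerSeries A)
      (h : Expansion (K - 12) H) :
      Expansion K (PowerSeries.C a * (eisMono K.toNat).map (Int.castRingHom A) +
        deltaZ.map (Int.castRingHom A) * H)

theorem map_injective_of_injective {B : Type*} [CommRing B] (ι : A →+* B)
    (hι : Function.Injective ι) : Function.Injective (PowerSeries.map ι) := by
  intro G H h
  ext n
  apply hι
  have := congrArg (PowerSeries.coeff n) h
  simpa using this

/-- **Level-one basis theorem over a coefficient ring.** -/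
theorem expansion_of_qExpansion (ι : A →+* ℂ) (hι : Function.Injective ι) :
    ∀ (n : ℕ) (K : ℤ), K.toNat = n → ∀ (g : ModularForm 𝒮ℒ K) (G : PowerSeries A),
      G.map ι = qExpansion 1 g → Expansion K G := by
  have hinj := map_injective_of_injective ι hι
  have hzero : ∀ (K : ℤ) (g : ModularForm 𝒮ℒ K) (G : PowerSeries A), g = 0 →
      G.map ι = qExpansion 1 g → Expansion K G := by
    intro K g G hg hG
    have h0 : qExpansion 1 g = 0 :=
      (ModularForm.qExpansion_eq_zero_iff one_pos one_mem_strictPeriods_SL g).mpr hg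
    have : G = 0 := hinj (by rw [hG, h0, map_zero])
    rw [this]
    exact Expansion.zero K
  intro n
  induction n using Nat.strong_induction_on with
  | _ n ih =>
  intro K hKn
  rcases lt_or_ge K 0 with hneg | hnonneg
  · intro g G hG
    exact hzero K g G
      (rank_zero_iff_forall_zero.mp (levelOne_neg_weight_rank_zero hneg) g) hG
  rcases Int.even_or_odd K with heven | hodd
  swap
  · intro g G hG
    exact hzero K g G (levelOne_odd_weight_eq_zero hodd g) hG
  obtain ⟨k, rfl⟩ := Int.eq_ofNat_of_zero_le hnonneg
  have heven' : Even k := by exact_mod_cast heven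
  rcases Nat.lt_or_ge k 3 with hlt | hge
  · have hk02 : k = 0 ∨ k = 2 := by
      obtain ⟨j, hj⟩ := heven'
      omega
    rcases hk02 with rfl | rfl
    · -- weight 0: constants
      intro g G hG
      obtain ⟨c, hc⟩ := levelOne_weight_zero_const g
      have hg : g = c • (1 : ModularForm 𝒮ℒ 0) := by
        ext z
        simp [hc]
      have hq : qExpansion 1 g = PowerSeries.C c := by
        rw [hg, FunLike.coe_smul, ModularForm.qExpansion_smul one_pos one_mem_strictPeriods_SL,
          ModularForm.qExpansion_one]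
        ext m
        simp [PowerSeries.coeff_C, PowerSeries.coeff_one]
      have hGC : G = PowerSeries.C (PowerSeries.coeff 0 G) := by
        ext m
        apply hι
        have := congrArg (PowerSeries.coeff m) hG
        rw [hq, PowerSeries.coeff_map] at this
        rw [this, PowerSeries.coeff_C, PowerSeries.coeff_C]
        split_ifs with hm
        · subst hm
          have h0 := congrArg (PowerSeries.coeff 0) hG
          rw [hq, PowerSeries.coeff_map, PowerSeries.coeff_C, if_pos rfl] at h0
          exact h0.symm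
        · simp
      have := Expansion.step (A := A) (0 : ℤ) le_rfl (PowerSeries.coeff 0 G)
        (Or.inr ⟨Even.zero, by norm_num⟩) 0 (Expansion.zero _)
      simp only [Int.toNat_zero, eisMono_zero, map_one, mul_one, mul_zero, add_zero] at this
      rw [hGC]
      exact this
    · intro g G hG
      exact hzero _ g G
        (rank_zero_iff_forall_zero.mp levelOne_weight_two_rank_zero g) hG
  · -- k ≥ 4 even
    intro g G hG
    have hk4 : 4 ≤ k := by
      obtain ⟨j, hj⟩ := heven'
      omega
    obtain ⟨M, hM⟩ := exists_form_eisMono k heven' hk4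
    set a₀ : A := PowerSeries.coeff 0 G with ha₀
    set f0 : ModularForm 𝒮ℒ (k : ℤ) := g - (ι a₀) • M with hf0
    set G' : PowerSeries A :=
      G - PowerSeries.C a₀ * (eisMono k).map (Int.castRingHom A) with hG'
    have hcast : ∀ P : PowerSeries ℤ,
        (P.map (Int.castRingHom A)).map ι = P.map (Int.castRingHom ℂ) := by
      intro P
      ext m
      simp
    have hqf0 : qExpansion 1 f0 = G'.map ι := by
      rw [hf0, FunLike.coe_sub, ModularForm.qExpansion_sub one_pos one_mem_strictPeriods_SL,
        FunLike.coe_smul, ModularForm.qExpansion_smul one_pos one_mem_strictPeriods_SL, hM, hG',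
        map_sub, map_mul, hG, hcast, PowerSeries.map_C]
      congr 1
      ext m
      simp [PowerSeries.coeff_C_mul]
    have h0 : (qExpansion 1 f0).coeff 0 = 0 := by
      rw [hqf0, PowerSeries.coeff_map, hG', map_sub, PowerSeries.coeff_C_mul,
        PowerSeries.coeff_map]
      simp [ha₀, PowerSeries.coeff_zero_eq_constantCoeff_apply, constantCoeff_eisMono]
    set h : ModularForm 𝒮ℒ ((k : ℤ) - 12) :=
      CuspForm.discriminantEquiv (toCuspForm f0 h0) with hh
    have hf0eq : (⇑f0 : ℍ → ℂ) = ⇑(CuspForm.discriminant : CuspForm 𝒮ℒ 12) * ⇑h := by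
      ext z
      rw [Pi.mul_apply, hh, CuspForm.coe_discriminant, discriminant_mul_discriminantEquiv_apply,
        toCuspForm_apply]
    have hqmul : qExpansion 1 f0 =
        deltaZ.map (Int.castRingHom ℂ) * qExpansion 1 h := by
      rw [hf0eq, ModularForm.qExpansion_mul_coe one_pos one_mem_strictPeriods_SL,
        ← qExpansion_discriminant']
      rfl
    -- divide by `Δ` over `A`
    set etaInv : PowerSeries A := ModularCurve.dedekindEtaUnitInv.map (Int.castRingHom A)
      with hetaInv
    set eta : PowerSeries A := ModularCurve.dedekindEtaUnit.map (Int.castRingHom A) with heta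
    have hee : eta * etaInv = 1 := by
      rw [heta, hetaInv, ← map_mul, ModularCurve.dedekindEtaUnit_mul_inv, map_one]
    have hXq : (etaInv * G').map ι = PowerSeries.X * qExpansion 1 h := by
      have h1 : G'.map ι = (PowerSeries.X * eta).map ι * qExpansion 1 h := by
        rw [← hqf0, hqmul, deltaZ, heta, map_mul, map_mul, hcast, PowerSeries.map_X,
          PowerSeries.map_X]
      rw [map_mul, h1, map_mul, ← mul_assoc, ← mul_assoc, ← map_mul, ← map_mul,
        show etaInv * PowerSeries.X * eta = PowerSeries.X by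
          rw [mul_comm etaInv, mul_assoc, mul_comm etaInv, hee, mul_one], PowerSeries.map_X]
    have hcc : PowerSeries.constantCoeff (etaInv * G') = 0 := by
      apply hι
      have := congrArg (PowerSeries.coeff 0) hXq
      rw [PowerSeries.coeff_map, PowerSeries.coeff_zero_eq_constantCoeff_apply] at this
      rw [this, map_zero, PowerSeries.coeff_zero_eq_constantCoeff_apply, map_mul,
        PowerSeries.constantCoeff_X, zero_mul]
    obtain ⟨H, hH⟩ := PowerSeries.X_dvd_iff.mpr hcc
    have hHq : H.map ι = qExpansion 1 h := by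
      have : PowerSeries.X * H.map ι = PowerSeries.X * qExpansion 1 h := by
        rw [← hXq, hH, map_mul, PowerSeries.map_X]
      exact mul_left_cancel₀ PowerSeries.X_ne_zero this
    have hlt : ((k : ℤ) - 12).toNat < n := by
      have : ((k : ℤ)).toNat = n := hKn
      omega
    have hExpH : Expansion ((k : ℤ) - 12) H := ih _ hlt _ rfl h H hHq
    have hGeq : G = PowerSeries.C a₀ * (eisMono ((k : ℤ)).toNat).map (Int.castRingHom A) +
        deltaZ.map (Int.castRingHom A) * H := by
      have h2 : G' = deltaZ.map (Int.castRingHom A) * H := by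
        calc G' = eta * etaInv * G' := by rw [hee, one_mul]
          _ = eta * (PowerSeries.X * H) := by rw [mul_assoc, hH]
          _ = deltaZ.map (Int.castRingHom A) * H := by
              rw [deltaZ, map_mul, PowerSeries.map_X, ← heta]; ring
      rw [Int.toNat_natCast, ← h2, hG']
      ring
    rw [hGeq]
    exact Expansion.step _ (Int.natCast_nonneg k) a₀ (Or.inr ⟨heven, by omega⟩) H hExpH

/-- **Reduction of an expansion modulo `ℓ ∈ {2, 3}`** (`240 = 504 = 0` in `k`): a polynomial in
`Δ̄` of degree `≤ K / 12`. -/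
theorem Expansion.exists_poly {k : Type*} [CommRing k] (π : A →+* k)
    (h240 : (240 : k) = 0) (h504 : (504 : k) = 0) {K : ℤ} {G : PowerSeries A}
    (h : Expansion K G) :
    ∃ P : Polynomial k, (∀ n : ℕ, K < 12 * (n : ℤ) → P.coeff n = 0) ∧
      G.map π = Polynomial.aeval (deltaZ.map (Int.castRingHom k)) P := by
  have hcast : ∀ P : PowerSeries ℤ,
      (P.map (Int.castRingHom A)).map π = P.map (Int.castRingHom k) := by
    intro P
    ext m
    simp
  have hE4 : ModularCurve.eisenstein4.map (Int.castRingHom k) = 1 := by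
    ext m
    simp only [ModularCurve.eisenstein4, PowerSeries.coeff_map, PowerSeries.coeff_mk,
      PowerSeries.coeff_one]
    split_ifs with hm
    · simp
    · rw [map_mul, show (Int.castRingHom k) 240 = (240 : k) by simp, h240, zero_mul]
  have hE6 : eisenstein6.map (Int.castRingHom k) = 1 := by
    ext m
    simp only [eisenstein6, PowerSeries.coeff_map, PowerSeries.coeff_mk, PowerSeries.coeff_one]
    split_ifs with hm
    · simp
    · rw [map_mul, map_neg, show (Int.castRingHom k) 504 = (504 : k) by simp, h504, neg_zero,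
        zero_mul]
  have hmono : ∀ w, (eisMono w).map (Int.castRingHom k) = 1 := by
    intro w
    unfold eisMono
    split_ifs
    · rw [map_pow, hE4, one_pow]
    · rw [map_mul, map_pow, hE4, hE6, one_pow, one_mul]
  induction h with
  | zero K => exact ⟨0, fun _ _ => by simp, by simp⟩
  | step K hK a _ H _ ih =>
    obtain ⟨P', hP', hHP'⟩ := ih
    refine ⟨Polynomial.C (π a) + Polynomial.X * P', ?_, ?_⟩
    · intro n hn
      rcases n with _ | m
      · exfalso
        simp at hn
        omega
      · rw [Polynomial.coeff_add, Polynomial.coeff_C_succ, Polynomial.coeff_X_mul, zero_add]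
        apply hP'
        push_cast at hn
        omega
    · rw [map_add, map_mul, map_mul, hcast, hcast, hmono, mul_one, PowerSeries.map_C, hHP',
        map_add, map_mul, Polynomial.aeval_C, Polynomial.aeval_X]
      rfl

/-- The basis theorem and the reduction combined. -/
theorem exists_poly_delta_of_qExpansion (ι : A →+* ℂ) (hι : Function.Injective ι)
    {k : Type*} [CommRing k] (π : A →+* k) (h240 : (240 : k) = 0) (h504 : (504 : k) = 0)
    {K : ℤ} (g : ModularForm 𝒮ℒ K) (G : PowerSeries A) (hG : G.map ι = qExpansion 1 g) :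
    ∃ P : Polynomial k, (∀ n : ℕ, K < 12 * (n : ℤ) → P.coeff n = 0) ∧
      G.map π = Polynomial.aeval (deltaZ.map (Int.castRingHom k)) P :=
  (expansion_of_qExpansion ι hι _ K rfl g G hG).exists_poly π h240 h504

/-! ### The isobaric-polynomial form (when `1728` is invertible) -/

/-- `qExpansion 1 Δ = (E₄³ - E₆²) / 1728` over `ℤ`: `1728 Δ = E₄³ - E₆²`. -/
theorem deltaZ_identity :
    (1728 : PowerSeries ℤ) * deltaZ = ModularCurve.eisenstein4 ^ 3 - eisenstein6 ^ 2 := by
  apply map_injective_of_injective (Int.castRingHom ℂ) Int.cast_injective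
  have h := Fermat.Agent.S23.LevelOneIntegral.discriminant_qExpansion_eq
  have h' : qExpansion 1 ModularForm.discriminant =
      ((1 / 1728 : ℚ) : ℂ) • (qExpansion 1 E₄ ^ 3 - qExpansion 1 E₆ ^ 2) := h
  rw [qExpansion_discriminant', qExpansion_E4, qExpansion_E6] at h'
  rw [map_mul, map_sub, map_pow, map_pow, h']
  ext m
  rw [show (PowerSeries.map (Int.castRingHom ℂ)) (1728 : PowerSeries ℤ) =
    PowerSeries.C (1728 : ℂ) by
      rw [show (1728 : PowerSeries ℤ) = PowerSeries.C (1728 : ℤ) by simp, PowerSeries.map_C]
      simp, PowerSeries.coeff_C_mul, PowerSeries.coeff_smul, smul_eq_mul]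
  push_cast
  ring

/-- The weight vector `(4, 6)` of `(E₄, E₆)`. -/
def wt : Fin 2 → ℕ := ![4, 6]

variable (A) in
/-- `eisMono w` as a polynomial in `X 0 = E₄`, `X 1 = E₆`. -/
def eisMonoPoly (w : ℕ) : MvPolynomial (Fin 2) A :=
  if w % 4 = 0 then MvPolynomial.X 0 ^ (w / 4)
  else MvPolynomial.X 0 ^ ((w - 6) / 4) * MvPolynomial.X 1

variable (A) in
/-- The evaluation point `(E₄, E₆)` over `A`. -/
def eisPoint : Fin 2 → PowerSeries A :=
  ![ModularCurve.eisenstein4.map (Int.castRingHom A), eisenstein6.map (Int.castRingHom A)]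

theorem aeval_eisMonoPoly (w : ℕ) :
    MvPolynomial.aeval (eisPoint A) (eisMonoPoly A w) = (eisMono w).map (Int.castRingHom A) := by
  unfold eisMonoPoly eisMono
  split_ifs
  · simp [eisPoint]
  · simp [eisPoint]

theorem eisMonoPoly_isWeightedHomogeneous (w : ℕ) (hw : Even w) (hw2 : w ≠ 2) :
    MvPolynomial.IsWeightedHomogeneous wt (eisMonoPoly A w) w := by
  unfold eisMonoPoly
  obtain ⟨j, hj⟩ := hw
  split_ifs with h4
  · have := (MvPolynomial.isWeightedHomogeneous_X A wt 0).pow (w / 4)
    have e : (w / 4) • wt 0 = w := by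
      simp only [wt, Matrix.cons_val_zero, smul_eq_mul]
      omega
    rwa [e] at this
  · have := ((MvPolynomial.isWeightedHomogeneous_X A wt 0).pow ((w - 6) / 4)).mul
      (MvPolynomial.isWeightedHomogeneous_X A wt 1)
    have e : ((w - 6) / 4) • wt 0 + wt 1 = w := by
      simp only [wt, Matrix.cons_val_zero, Matrix.cons_val_one, smul_eq_mul]
      omega
    rwa [e] at this

theorem Expansion.eq_zero_of_neg {K : ℤ} {G : PowerSeries A} (h : Expansion K G) (hK : K < 0) :
    G = 0 := by
  cases h with
  | zero => rfl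
  | step _ hK' _ _ _ _ => omega

/-- **Isobaric form.** If `1728` is invertible in `A`, an expansion of weight `K` is an isobaric
polynomial of weight `K` in `(E₄, E₆)` over `A`. -/
theorem Expansion.exists_isobaric (u : A) (hu : (1728 : A) * u = 1) {K : ℤ} {G : PowerSeries A}
    (h : Expansion K G) :
    ∃ P : MvPolynomial (Fin 2) A, P.IsWeightedHomogeneous wt K.toNat ∧
      G = MvPolynomial.aeval (eisPoint A) P := by
  have hΔ : deltaZ.map (Int.castRingHom A) =
      MvPolynomial.aeval (eisPoint A)
        (MvPolynomial.C u * (MvPolynomial.X 0 ^ 3 - MvPolynomial.X 1 ^ 2)) := by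
    have h1 := congrArg (PowerSeries.map (Int.castRingHom A)) deltaZ_identity
    rw [map_mul, map_sub, map_pow, map_pow] at h1
    have h2 : (PowerSeries.map (Int.castRingHom A)) (1728 : PowerSeries ℤ) =
        PowerSeries.C (1728 : A) := by
      rw [show (1728 : PowerSeries ℤ) = PowerSeries.C (1728 : ℤ) by simp, PowerSeries.map_C]
      simp
    rw [h2] at h1
    simp only [map_mul, map_sub, map_pow, MvPolynomial.aeval_C, MvPolynomial.aeval_X, eisPoint,
      Matrix.cons_val_zero, Matrix.cons_val_one]
    rw [← h1, ← mul_assoc, ← PowerSeries.C_eq_algebraMap, ← map_mul, mul_comm u, hu, map_one,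
      one_mul]
  have hΔw : MvPolynomial.IsWeightedHomogeneous wt
      (MvPolynomial.C u * (MvPolynomial.X 0 ^ 3 - MvPolynomial.X 1 ^ 2) :
        MvPolynomial (Fin 2) A) 12 := by
    apply MvPolynomial.IsWeightedHomogeneous.C_mul
    apply MvPolynomial.IsWeightedHomogeneous.sub
    · have := (MvPolynomial.isWeightedHomogeneous_X A wt 0).pow 3
      simpa [wt] using this
    · have := (MvPolynomial.isWeightedHomogeneous_X A wt 1).pow 2
      simpa [wt] using this
  induction h with
  | zero K => exact ⟨0, MvPolynomial.isWeightedHomogeneous_zero _ _ _, by simp⟩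
  | step K hK a hw H hH ih =>
    obtain ⟨P', hP', hHP'⟩ := ih
    have hfirst : MvPolynomial.IsWeightedHomogeneous wt
        (MvPolynomial.C a * eisMonoPoly A K.toNat) K.toNat := by
      rcases hw with rfl | ⟨hev, h2⟩
      · rw [map_zero, zero_mul]
        exact MvPolynomial.isWeightedHomogeneous_zero _ _ _
      · apply MvPolynomial.IsWeightedHomogeneous.C_mul
        apply eisMonoPoly_isWeightedHomogeneous
        · obtain ⟨j, hj⟩ := hev
          exact ⟨j.toNat, by omega⟩
        · omega
    rcases lt_or_ge K 12 with hlt | hge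
    · have hH0 : H = 0 := hH.eq_zero_of_neg (by omega)
      refine ⟨MvPolynomial.C a * eisMonoPoly A K.toNat, hfirst, ?_⟩
      rw [hH0, mul_zero, add_zero, map_mul, aeval_eisMonoPoly, MvPolynomial.aeval_C,
        ← PowerSeries.C_eq_algebraMap]
    · refine ⟨MvPolynomial.C a * eisMonoPoly A K.toNat +
        MvPolynomial.C u * (MvPolynomial.X 0 ^ 3 - MvPolynomial.X 1 ^ 2) * P', ?_, ?_⟩
      · apply hfirst.add
        have := hΔw.mul hP'
        have e : 12 + (K - 12).toNat = K.toNat := by omega
        rwa [e] at this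
      · rw [map_add, map_mul, aeval_eisMonoPoly, MvPolynomial.aeval_C,
          ← PowerSeries.C_eq_algebraMap, map_mul _ (_ * _) P', ← hΔ, ← hHP']

/-- The basis theorem in isobaric form: a level-one form whose `q`-expansion has coefficients in
`A ⊆ ℂ` (with `1728` invertible in `A`) is an isobaric `A`-polynomial in `E₄`, `E₆`. -/
theorem exists_isobaric_of_qExpansion (ι : A →+* ℂ) (hι : Function.Injective ι)
    (u : A) (hu : (1728 : A) * u = 1)
    {K : ℤ} (g : ModularForm 𝒮ℒ K) (G : PowerSeries A) (hG : G.map ι = qExpansion 1 g) :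
    ∃ P : MvPolynomial (Fin 2) A, P.IsWeightedHomogeneous wt K.toNat ∧
      G = MvPolynomial.aeval (eisPoint A) P :=
  (expansion_of_qExpansion ι hι _ K rfl g G hG).exists_isobaric u hu

end Expansion

end

end Fermat.Agent.S16.LevelOneModL
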