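import Mathlib

/-!
# S16, block SwD (algebra): the weight theorem of Swinnerton-Dyer / Serre, abstract form

Pure algebra over a field `F`.  `ev : F[Q,R] → F⟦q⟧` sends `Q ↦ e4`, `R ↦ e6`; the power series
`e2, e4, e6` satisfy Ramanujan's differential equations.  If `A` is isobaric of weight `l - 1`
(`l = char F ≥ 5`) with `ev A = 1` and `g` is isobaric of weight `k` with `ev g` a nonzero
constant, then `l - 1 ∣ k`.
-/

set_option autoImplicit false

namespace Fermat.Agent.S16.SwDAlg

open MvPolynomial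

noncomputable section

/-- weights of `Q = X 0` and `R = X 1`. -/
def wt : Fin 2 → ℕ := ![4, 6]

@[simp] lemma wt_zero : wt 0 = 4 := rfl
@[simp] lemma wt_one : wt 1 = 6 := rfl

variable {F : Type*} [Field F]

/-- `θ = q d/dq` on power series. -/
def theta : Derivation F (PowerSeries F) (PowerSeries F) :=
  (PowerSeries.X : PowerSeries F) • PowerSeries.derivative F

lemma theta_apply (f : PowerSeries F) :
    theta f = PowerSeries.X * PowerSeries.derivative F f := rfl

lemma coeff_theta (f : PowerSeries F) (n : ℕ) :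
    PowerSeries.coeff n (theta f) = (n : F) * PowerSeries.coeff n f := by
  rw [theta_apply]
  cases n with
  | zero => simp
  | succ m =>
    rw [PowerSeries.coeff_succ_X_mul, PowerSeries.coeff_derivative]
    push_cast
    ring

/-- Swinnerton-Dyer's derivation `∂ = 12 θ - k P` on polynomials: `∂Q = -4R`, `∂R = -6Q²`. -/
def dd : Derivation F (MvPolynomial (Fin 2) F) (MvPolynomial (Fin 2) F) :=
  mkDerivation F ![-4 * X 1, -6 * X 0 ^ 2]

/-- The Euler derivation: `Q ↦ 4Q`, `R ↦ 6R`. -/
def ee : Derivation F (MvPolynomial (Fin 2) F) (MvPolynomial (Fin 2) F) :=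
  mkDerivation F ![4 * X 0, 6 * X 1]

@[simp] lemma dd_X0 : dd (X 0 : MvPolynomial (Fin 2) F) = -4 * X 1 := by
  simp [dd, mkDerivation_X]
@[simp] lemma dd_X1 : dd (X 1 : MvPolynomial (Fin 2) F) = -6 * X 0 ^ 2 := by
  simp [dd, mkDerivation_X]
@[simp] lemma ee_X0 : ee (X 0 : MvPolynomial (Fin 2) F) = 4 * X 0 := by
  simp [ee, mkDerivation_X]
@[simp] lemma ee_X1 : ee (X 1 : MvPolynomial (Fin 2) F) = 6 * X 1 := by
  simp [ee, mkDerivation_X]

/-! ### Isobaric polynomials -/

/-- `f` is isobaric of weight `k` (weights `4, 6`). -/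
abbrev Iso (f : MvPolynomial (Fin 2) F) (k : ℕ) : Prop := IsWeightedHomogeneous wt f k

lemma monomial_fin2 (d : Fin 2 →₀ ℕ) (r : F) :
    monomial d r = C r * X 0 ^ d 0 * X 1 ^ d 1 := by
  rw [MvPolynomial.monomial_eq, Finsupp.prod_fintype _ _ (fun i => pow_zero _),
    Fin.prod_univ_two, mul_assoc]

lemma weight_fin2 (d : Fin 2 →₀ ℕ) : Finsupp.weight wt d = d 0 * 4 + d 1 * 6 := by
  simp [Finsupp.weight_apply, Finsupp.sum_fintype, Fin.sum_univ_two]

lemma iso_X0 : Iso (X 0 : MvPolynomial (Fin 2) F) 4 := isWeightedHomogeneous_X F wt 0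
lemma iso_X1 : Iso (X 1 : MvPolynomial (Fin 2) F) 6 := isWeightedHomogeneous_X F wt 1

lemma iso_X0_pow (a : ℕ) : Iso ((X 0 : MvPolynomial (Fin 2) F) ^ a) (4 * a) := by
  have := (iso_X0 (F := F)).pow a
  simpa [mul_comm] using this

lemma iso_X1_pow (b : ℕ) : Iso ((X 1 : MvPolynomial (Fin 2) F) ^ b) (6 * b) := by
  have := (iso_X1 (F := F)).pow b
  simpa [mul_comm] using this

lemma iso_congr {f : MvPolynomial (Fin 2) F} {k k' : ℕ} (h : Iso f k) (e : k = k') : Iso f k' :=
  e ▸ h

lemma deriv_C_mul (δ : Derivation F (MvPolynomial (Fin 2) F) (MvPolynomial (Fin 2) F)) (r : F)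
    (m : MvPolynomial (Fin 2) F) : δ (C r * m) = C r * δ m := by
  rw [Derivation.leibniz]
  have : δ (C r) = 0 := by rw [← MvPolynomial.algebraMap_eq]; exact δ.map_algebraMap r
  rw [this]; simp

/-- A derivation raising the weight of the generators by `s` raises all weights by `s`. -/
theorem iso_derivation (δ : Derivation F (MvPolynomial (Fin 2) F) (MvPolynomial (Fin 2) F))
    (s : ℕ) (h0 : Iso (δ (X 0)) (4 + s)) (h1 : Iso (δ (X 1)) (6 + s))
    {f : MvPolynomial (Fin 2) F} {k : ℕ} (hf : Iso f k) : Iso (δ f) (k + s) := by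
  have hp0 : ∀ a : ℕ, Iso (δ ((X 0 : MvPolynomial (Fin 2) F) ^ a)) (4 * a + s) := by
    intro a
    induction a with
    | zero => simp [isWeightedHomogeneous_zero]
    | succ a ih =>
      rw [pow_succ, Derivation.leibniz]
      simp only [smul_eq_mul]
      refine IsWeightedHomogeneous.add ?_ ?_
      · exact iso_congr ((iso_X0_pow a).mul h0) (by ring)
      · exact iso_congr (iso_X0.mul ih) (by ring)
  have hp1 : ∀ b : ℕ, Iso (δ ((X 1 : MvPolynomial (Fin 2) F) ^ b)) (6 * b + s) := by
    intro b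
    induction b with
    | zero => simp [isWeightedHomogeneous_zero]
    | succ b ih =>
      rw [pow_succ, Derivation.leibniz]
      simp only [smul_eq_mul]
      refine IsWeightedHomogeneous.add ?_ ?_
      · exact iso_congr ((iso_X1_pow b).mul h1) (by ring)
      · exact iso_congr (iso_X1.mul ih) (by ring)
  induction hf using IsWeightedHomogeneous.induction_on with
  | zero => simp [isWeightedHomogeneous_zero]
  | add p q hp hq ihp ihq => rw [map_add]; exact ihp.add ihq
  | monomial d r hr =>
    rw [weight_fin2] at hr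
    rw [monomial_fin2, mul_assoc, deriv_C_mul, Derivation.leibniz]
    simp only [smul_eq_mul]
    refine IsWeightedHomogeneous.C_mul (IsWeightedHomogeneous.add ?_ ?_) r
    · exact iso_congr ((iso_X0_pow (d 0)).mul (hp1 (d 1))) (by rw [← hr]; ring)
    · exact iso_congr ((iso_X1_pow (d 1)).mul (hp0 (d 0))) (by rw [← hr]; ring)

lemma iso_dd {f : MvPolynomial (Fin 2) F} {k : ℕ} (hf : Iso f k) : Iso (dd f) (k + 2) := by
  refine iso_derivation dd 2 ?_ ?_ hf
  · rw [dd_X0]
    have : (-4 * X 1 : MvPolynomial (Fin 2) F) = C (-4) * X 1 := by rw [map_neg, map_ofNat]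
    rw [this]; exact iso_X1.C_mul _
  · rw [dd_X1]
    have : (-6 * X 0 ^ 2 : MvPolynomial (Fin 2) F) = C (-6) * X 0 ^ 2 := by
      rw [map_neg, map_ofNat]
    rw [this]; exact (iso_X0_pow 2).C_mul _

/-- Euler's relation. -/
theorem euler {f : MvPolynomial (Fin 2) F} {k : ℕ} (hf : Iso f k) : ee f = C (k : F) * f := by
  have hp0 : ∀ a : ℕ, ee ((X 0 : MvPolynomial (Fin 2) F) ^ a) = C ((4 * a : ℕ) : F) * X 0 ^ a := by
    intro a
    induction a with
    | zero => simp
    | succ a ih =>
      rw [pow_succ, Derivation.leibniz, ih, ee_X0]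
      simp only [smul_eq_mul, Nat.cast_mul, Nat.cast_ofNat, Nat.cast_add, Nat.cast_one, map_mul,
        map_add, map_ofNat, map_one, map_natCast]
      ring
  have hp1 : ∀ b : ℕ, ee ((X 1 : MvPolynomial (Fin 2) F) ^ b) = C ((6 * b : ℕ) : F) * X 1 ^ b := by
    intro b
    induction b with
    | zero => simp
    | succ b ih =>
      rw [pow_succ, Derivation.leibniz, ih, ee_X1]
      simp only [smul_eq_mul, Nat.cast_mul, Nat.cast_ofNat, Nat.cast_add, Nat.cast_one, map_mul,
        map_add, map_ofNat, map_one, map_natCast]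
      ring
  induction hf using IsWeightedHomogeneous.induction_on with
  | zero => simp
  | add p q hp hq ihp ihq => rw [map_add, ihp, ihq]; ring
  | monomial d r hr =>
    rw [weight_fin2] at hr
    rw [monomial_fin2, mul_assoc, deriv_C_mul, Derivation.leibniz, hp0, hp1, ← hr]
    simp only [smul_eq_mul, Nat.cast_mul, Nat.cast_ofNat, Nat.cast_add, map_mul, map_add,
      map_ofNat, map_natCast]
    ring

/-- Ramanujan data: three power series with constant term `1` satisfying Ramanujan's ODEs, and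
`e4³ - e6²` of exact order one. -/
structure Ram (F : Type*) [Field F] where
  e2 : PowerSeries F
  e4 : PowerSeries F
  e6 : PowerSeries F
  c2 : PowerSeries.constantCoeff e2 = 1
  c4 : PowerSeries.constantCoeff e4 = 1
  c6 : PowerSeries.constantCoeff e6 = 1
  r2 : 12 * theta e2 = e2 ^ 2 - e4
  r4 : 3 * theta e4 = e2 * e4 - e6
  r6 : 2 * theta e6 = e2 * e6 - e4 ^ 2
  disc : PowerSeries.coeff 1 (e4 ^ 3 - e6 ^ 2) ≠ 0

namespace Ram

variable (D : Ram F)

/-- evaluation `Q ↦ e4`, `R ↦ e6`. -/
def ev : MvPolynomial (Fin 2) F →ₐ[F] PowerSeries F := aeval ![D.e4, D.e6]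

@[simp] lemma ev_X0 : D.ev (X 0) = D.e4 := by simp [ev]
@[simp] lemma ev_X1 : D.ev (X 1) = D.e6 := by simp [ev]
@[simp] lemma ev_C (a : F) : D.ev (C a) = PowerSeries.C a := by
  simp [ev]

/-- The general differentiation formula: `12 θ (ev f) = ev (∂ f) + e2 · ev (E f)`. -/
theorem theta_ev (f : MvPolynomial (Fin 2) F) :
    12 * theta (D.ev f) = D.ev (dd f) + D.e2 * D.ev (ee f) := by
  induction f using MvPolynomial.induction_on with
  | C a =>
    have h1 : theta (PowerSeries.C a : PowerSeries F) = 0 := by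
      rw [theta_apply, PowerSeries.derivative_C, mul_zero]
    have h2 : dd (C a : MvPolynomial (Fin 2) F) = 0 := by
      rw [← MvPolynomial.algebraMap_eq]; exact dd.map_algebraMap a
    have h3 : ee (C a : MvPolynomial (Fin 2) F) = 0 := by
      rw [← MvPolynomial.algebraMap_eq]; exact ee.map_algebraMap a
    rw [ev_C, h1, h2, h3]; simp
  | add p q hp hq =>
    simp only [map_add, mul_add]
    rw [hp, hq]; ring
  | mul_X p i hp =>
    have h4 := D.r4
    have h6 := D.r6
    fin_cases i
    · have e1 : dd (p * X 0) = p * (-4 * X 1) + X 0 * dd p := by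
        rw [Derivation.leibniz, dd_X0]; simp only [smul_eq_mul]
      have e2 : ee (p * X 0) = p * (4 * X 0) + X 0 * ee p := by
        rw [Derivation.leibniz, ee_X0]; simp only [smul_eq_mul]
      have e3 : theta (D.ev p * D.e4) = D.ev p * theta D.e4 + D.e4 * theta (D.ev p) := by
        rw [Derivation.leibniz]; simp only [smul_eq_mul]
      simp only [Fin.zero_eta]
      rw [e1, e2]
      simp only [map_add, map_mul, map_neg, ev_X0, ev_X1, map_ofNat]
      rw [e3]
      linear_combination D.e4 * hp + 4 * D.ev p * h4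
    · have e1 : dd (p * X 1) = p * (-6 * X 0 ^ 2) + X 1 * dd p := by
        rw [Derivation.leibniz, dd_X1]; simp only [smul_eq_mul]
      have e2 : ee (p * X 1) = p * (6 * X 1) + X 1 * ee p := by
        rw [Derivation.leibniz, ee_X1]; simp only [smul_eq_mul]
      have e3 : theta (D.ev p * D.e6) = D.ev p * theta D.e6 + D.e6 * theta (D.ev p) := by
        rw [Derivation.leibniz]; simp only [smul_eq_mul]
      simp only [Fin.mk_one]
      rw [e1, e2]
      simp only [map_add, map_mul, map_neg, ev_X0, ev_X1, map_ofNat, map_pow]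
      rw [e3]
      linear_combination D.e6 * hp + 6 * D.ev p * h6

/-- The differentiation formula for isobaric polynomials. -/
theorem theta_ev_iso {f : MvPolynomial (Fin 2) F} {k : ℕ} (hf : Iso f k) :
    12 * theta (D.ev f) = D.ev (dd f) + (k : PowerSeries F) * D.e2 * D.ev f := by
  rw [D.theta_ev, euler hf, map_mul, ev_C, map_natCast]
  ring

/-! ### Injectivity of `ev` on isobaric polynomials of a fixed weight -/

/-- canonical exponents of the reference monomial of weight `k`. -/
def bk (k : ℕ) : ℕ := (k / 2) % 2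
def ak (k : ℕ) : ℕ := (k - 6 * bk k) / 4

lemma ak_bk_of_le_one {a b k : ℕ} (h : a * 4 + b * 6 = k) (hb : b ≤ 1) : ak k = a ∧ bk k = b := by
  have hbk : bk k = b := by
    unfold bk
    omega
  refine ⟨?_, hbk⟩
  unfold ak
  rw [hbk]
  omega

/-- Every isobaric polynomial is a multiple of the reference monomial modulo `Q³ - R²`. -/
theorem decomp {f : MvPolynomial (Fin 2) F} {k : ℕ} (hf : Iso f k) :
    ∃ (c : F) (f' : MvPolynomial (Fin 2) F),
      f = C c * X 0 ^ ak k * X 1 ^ bk k + (X 0 ^ 3 - X 1 ^ 2) * f' ∧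
      (k < 12 → f' = 0) ∧ (12 ≤ k → Iso f' (k - 12)) := by
  -- monomials
  have hmono : ∀ (b a : ℕ), a * 4 + b * 6 = k →
      ∃ (f' : MvPolynomial (Fin 2) F),
        (X 0 : MvPolynomial (Fin 2) F) ^ a * X 1 ^ b
          = X 0 ^ ak k * X 1 ^ bk k + (X 0 ^ 3 - X 1 ^ 2) * f' ∧
        (k < 12 → f' = 0) ∧ (12 ≤ k → Iso f' (k - 12)) := by
    intro b
    induction b using Nat.strong_induction_on with
    | _ b ih =>
      intro a hab
      by_cases hb : b ≤ 1
      · obtain ⟨h1, h2⟩ := ak_bk_of_le_one hab hb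
        exact ⟨0, by rw [h1, h2]; ring, fun _ => rfl, fun _ => isWeightedHomogeneous_zero F wt _⟩
      · rw [not_le] at hb
        obtain ⟨b', rfl⟩ : ∃ b', b = b' + 2 := ⟨b - 2, by omega⟩
        obtain ⟨f', hf1, hf2, hf3⟩ := ih b' (by omega) (a + 3) (by omega)
        refine ⟨f' - X 0 ^ a * X 1 ^ b', ?_, fun h => by omega, fun h => ?_⟩
        · have : (X 0 : MvPolynomial (Fin 2) F) ^ a * X 1 ^ (b' + 2)
              = X 0 ^ (a + 3) * X 1 ^ b' - (X 0 ^ 3 - X 1 ^ 2) * (X 0 ^ a * X 1 ^ b') := by ring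
          rw [this, hf1]; ring
        · refine (hf3 h).sub ?_
          exact iso_congr ((iso_X0_pow a).mul (iso_X1_pow b')) (by omega)
  induction hf using IsWeightedHomogeneous.induction_on with
  | zero => exact ⟨0, 0, by simp, fun _ => rfl, fun _ => isWeightedHomogeneous_zero F wt _⟩
  | add p q hp hq ihp ihq =>
    obtain ⟨c1, f1, h1, h2, h3⟩ := ihp
    obtain ⟨c2, f2, g1, g2, g3⟩ := ihq
    refine ⟨c1 + c2, f1 + f2, ?_, fun h => by rw [h2 h, g2 h, add_zero],
      fun h => (h3 h).add (g3 h)⟩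
    rw [h1, g1, map_add]; ring
  | monomial d r hr =>
    rw [weight_fin2] at hr
    obtain ⟨f', hf1, hf2, hf3⟩ := hmono (d 1) (d 0) hr
    refine ⟨r, C r * f', ?_, fun h => by rw [hf2 h, mul_zero], fun h => (hf3 h).C_mul r⟩
    rw [monomial_fin2, mul_assoc, hf1]; ring

lemma constantCoeff_ev_disc :
    PowerSeries.constantCoeff (D.e4 ^ 3 - D.e6 ^ 2) = 0 := by
  simp [D.c4, D.c6]

lemma ev_disc_ne_zero : D.e4 ^ 3 - D.e6 ^ 2 ≠ 0 := by
  intro h
  apply D.disc
  rw [h]; simp

/-- **Injectivity of `ev` in a fixed weight.** -/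
theorem ev_injective_iso : ∀ (k : ℕ) {f : MvPolynomial (Fin 2) F}, Iso f k → D.ev f = 0 → f = 0 := by
  intro k
  induction k using Nat.strong_induction_on with
  | _ k ih =>
    intro f hf hev
    obtain ⟨c, f', h1, h2, h3⟩ := decomp hf
    have hev' : PowerSeries.C c * D.e4 ^ ak k * D.e6 ^ bk k
        + (D.e4 ^ 3 - D.e6 ^ 2) * D.ev f' = 0 := by
      rw [← hev, h1]
      simp only [map_add, map_mul, map_pow, map_sub, ev_C, ev_X0, ev_X1]
    have hc : c = 0 := by
      have := congrArg PowerSeries.constantCoeff hev'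
      simpa [D.c4, D.c6] using this
    rw [hc, map_zero, zero_mul, zero_mul, zero_add] at hev'
    have hf' : D.ev f' = 0 := (mul_eq_zero.mp hev').resolve_left D.ev_disc_ne_zero
    have hf'0 : f' = 0 := by
      by_cases hk : k < 12
      · exact h2 hk
      · rw [not_lt] at hk
        exact ih (k - 12) (by omega) (h3 hk) hf'
    rw [h1, hc, hf'0]; simp

/-- Two isobaric polynomials of the same weight with the same `ev` are equal. -/
theorem eq_of_ev_eq {k : ℕ} {f g : MvPolynomial (Fin 2) F} (hf : Iso f k) (hg : Iso g k)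
    (h : D.ev f = D.ev g) : f = g := by
  have := D.ev_injective_iso k (hf.sub hg) (by rw [map_sub, h, sub_self])
  exact sub_eq_zero.mp this

end Ram

/-! ### Generalities on derivations and weights -/

theorem deriv_pow_mul {P : Type*} [CommRing P] [Algebra F P] (δ : Derivation F P P) (p w : P)
    (m : ℕ) :
    δ (p ^ (m + 2) * w) = p ^ (m + 1) * (((m : P) + 2) * δ p * w + p * δ w) := by
  simp only [Derivation.leibniz, Derivation.leibniz_pow, smul_eq_mul, nsmul_eq_mul]
  have : m + 2 - 1 = m + 1 := by omega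
  rw [this]
  push_cast
  ring

theorem deriv_deriv_pow_mul {P : Type*} [CommRing P] [Algebra F P] (δ : Derivation F P P)
    (p w : P) (m : ℕ) :
    δ (δ (p ^ (m + 2) * w)) = p ^ m * (((m : P) + 2) * ((m : P) + 1) * δ p ^ 2 * w
      + p * (((m : P) + 2) * δ (δ p) * w + 2 * ((m : P) + 2) * δ p * δ w + p * δ (δ w))) := by
  rw [deriv_pow_mul]
  have h2 : δ (2 : P) = 0 := by
    have := δ.map_natCast 2
    simpa using this
  simp only [Derivation.leibniz, Derivation.leibniz_pow, smul_eq_mul, nsmul_eq_mul, map_add,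
    Derivation.map_natCast, h2]
  have : m + 1 - 1 = m := by omega
  rw [this]
  push_cast
  ring

/-- If every prime factor of `a` divides its own derivative, then `a ∣ δ a`. -/
theorem dvd_deriv_of_forall_prime {P : Type*} [CommRing P] [IsDomain P]
    [UniqueFactorizationMonoid P] [Algebra F P] (δ : Derivation F P P) (a : P)
    (h : ∀ π : P, Prime π → π ∣ a → π ∣ δ π) : a ∣ δ a := by
  induction a using UniqueFactorizationMonoid.induction_on_prime with
  | h₁ => simp
  | h₂ x hx => exact hx.dvd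
  | h₃ a p ha hp ih =>
    have h1 : a ∣ δ a := ih fun π hπ hd => h π hπ (Dvd.dvd.mul_left hd p)
    have h2 : p ∣ δ p := h p hp (dvd_mul_right p a)
    rw [Derivation.leibniz]
    simp only [smul_eq_mul]
    refine dvd_add (mul_dvd_mul_left p h1) ?_
    rw [mul_comm p a]
    exact mul_dvd_mul_left a h2

/-- The component of weight `a + m` of `A * L` for `A` isobaric of weight `a`. -/
theorem component_mul {A L : MvPolynomial (Fin 2) F} {a : ℕ} (hA : Iso A a) (m : ℕ) :
    weightedHomogeneousComponent wt (a + m) (A * L)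
      = A * weightedHomogeneousComponent wt m L := by
  classical
  ext d
  rw [coeff_weightedHomogeneousComponent, coeff_mul, coeff_mul]
  split_ifs with hd
  · refine Finset.sum_congr rfl fun x hx => ?_
    rw [coeff_weightedHomogeneousComponent]
    by_cases hx0 : coeff x.1 A = 0
    · rw [hx0, zero_mul, zero_mul]
    · have hw : Finsupp.weight wt x.1 = a := hA hx0
      have hsum : x.1 + x.2 = d := Finset.HasAntidiagonal.mem_antidiagonal.mp hx
      have : Finsupp.weight wt x.2 = m := by
        have h := congrArg (Finsupp.weight wt) hsum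
        rw [map_add, hw, hd] at h
        omega
      rw [if_pos this]
  · symm
    refine Finset.sum_eq_zero fun x hx => ?_
    rw [coeff_weightedHomogeneousComponent]
    by_cases hx0 : coeff x.1 A = 0
    · rw [hx0, zero_mul]
    · have hw : Finsupp.weight wt x.1 = a := hA hx0
      have hsum : x.1 + x.2 = d := Finset.HasAntidiagonal.mem_antidiagonal.mp hx
      have : Finsupp.weight wt x.2 ≠ m := by
        intro h2
        apply hd
        rw [← hsum, map_add, hw, h2]
      rw [if_neg this, mul_zero]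

/-- There is no nonzero isobaric polynomial of weight `2`. -/
theorem iso_two_eq_zero {L : MvPolynomial (Fin 2) F} (hL : Iso L 2) : L = 0 := by
  refine hL.eq_zero_of_no_monomials ?_
  intro d hd
  rw [weight_fin2] at hd
  omega

/-- If `A` is isobaric of weight `a`, `B` of weight `a + 2` and `A ∣ B`, then `B = 0`. -/
theorem eq_zero_of_dvd_of_iso {A B : MvPolynomial (Fin 2) F} {a : ℕ} (hA : Iso A a)
    (hB : Iso B (a + 2)) (h : A ∣ B) : B = 0 := by
  obtain ⟨L, rfl⟩ := h
  have h1 := component_mul (L := L) hA 2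
  rw [hB.weightedHomogeneousComponent_same] at h1
  rw [h1, iso_two_eq_zero (weightedHomogeneousComponent_isWeightedHomogeneous 2 L), mul_zero]

lemma totalDegree_le_of_iso {A : MvPolynomial (Fin 2) F} {a : ℕ} (hA : Iso A a) :
    A.totalDegree ≤ a := by
  refine Finset.sup_le fun d hd => ?_
  have h := hA (mem_support_iff.mp hd)
  rw [weight_fin2] at h
  rw [Finsupp.sum_fintype _ _ (fun _ => rfl), Fin.sum_univ_two]
  omega

lemma totalDegree_pow_eq (p : MvPolynomial (Fin 2) F) (hp : p ≠ 0) (n : ℕ) :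
    (p ^ n).totalDegree = n * p.totalDegree := by
  induction n with
  | zero => simp
  | succ n ih =>
    rw [pow_succ, totalDegree_mul_of_isDomain (pow_ne_zero n hp) hp, ih]
    ring

lemma one_le_totalDegree_of_prime {p : MvPolynomial (Fin 2) F} (hp : Prime p) :
    1 ≤ p.totalDegree := by
  by_contra h
  have h0 : p.totalDegree = 0 := by omega
  rw [totalDegree_eq_zero_iff_eq_C] at h0
  apply hp.not_isUnit
  rw [h0]
  have : coeff 0 p ≠ 0 := by
    intro hc
    apply hp.ne_zero
    rw [h0, hc, map_zero]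
  exact (isUnit_iff_ne_zero.mpr this).map C

/-! ### The main theorem -/

section Main

variable (l : ℕ) [CharP F l]

lemma natCast_ne_zero_of_lt {n : ℕ} (h0 : 0 < n) (hn : n < l) : (n : F) ≠ 0 := by
  intro h
  have := (CharP.cast_eq_zero_iff F l n).mp h
  exact absurd (Nat.le_of_dvd h0 this) (by omega)

variable (D : Ram F)

/-- **The weight theorem, abstract form.** -/
theorem weight_dvd (hl : 5 ≤ l) {A : MvPolynomial (Fin 2) F} (hA : Iso A (l - 1))
    (hAev : D.ev A = 1) {g : MvPolynomial (Fin 2) F} {k : ℕ} (hg : Iso g k) {c : F} (hc : c ≠ 0)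
    (hgev : D.ev g = PowerSeries.C c) : (l - 1) ∣ k := by
  have hl0 : ((l : ℕ) : F) = 0 := CharP.cast_eq_zero F l
  have hcast1 : (((l - 1 : ℕ)) : PowerSeries F) = -1 := by
    have h : ((l - 1 : ℕ) : F) = -1 := by
      rw [Nat.cast_sub (by omega), hl0]; simp
    rw [← map_natCast (PowerSeries.C (R := F)), h]; simp
  have hcast2 : (((l - 1 + 2 : ℕ)) : PowerSeries F) = 1 := by
    have h : ((l - 1 + 2 : ℕ) : F) = 1 := by
      have h' : l - 1 + 2 = l + 1 := by omega
      rw [h', Nat.cast_add, hl0]; simp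
    rw [← map_natCast (PowerSeries.C (R := F)), h]; simp
  have hA0 : A ≠ 0 := by
    intro h; rw [h, map_zero] at hAev; exact zero_ne_one hAev
  -- Step A: `ev (∂A) = e2`
  have hB : D.ev (dd A) = D.e2 := by
    have h := D.theta_ev_iso hA
    rw [hAev, hcast1] at h
    have h1 : theta (1 : PowerSeries F) = 0 := Derivation.map_one_eq_zero _
    rw [h1] at h
    linear_combination -h
  -- Step B: `∂²A = -Q A`
  have hC : dd (dd A) = -(X 0) * A := by
    refine D.eq_of_ev_eq (k := l - 1 + 2 + 2) (iso_dd (iso_dd hA)) ?_ ?_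
    · exact iso_congr ((iso_X0.neg).mul hA) (by omega)
    · have h := D.theta_ev_iso (iso_dd hA)
      rw [hB, hcast2] at h
      rw [map_mul, map_neg, D.ev_X0, hAev]
      linear_combination -h + D.r2
  -- Step C: a prime factor of `A` not dividing its derivative
  obtain ⟨π, hπ, hπA, hπd⟩ : ∃ π : MvPolynomial (Fin 2) F, Prime π ∧ π ∣ A ∧ ¬ π ∣ dd π := by
    by_contra hne
    have hdiv : A ∣ dd A := dvd_deriv_of_forall_prime dd A fun π hπ hd =>
      by_contra fun h => hne ⟨π, hπ, hd, h⟩
    have h0 : dd A = 0 := eq_zero_of_dvd_of_iso hA (iso_dd hA) hdiv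
    rw [h0, map_zero] at hB
    have := congrArg PowerSeries.constantCoeff hB
    rw [D.c2, map_zero] at this
    exact zero_ne_one this
  -- Step D: `π² ∤ A`
  have hD : ¬ π ^ 2 ∣ A := by
    intro h2
    have hfin : FiniteMultiplicity π A := FiniteMultiplicity.of_not_isUnit hπ.not_isUnit hA0
    obtain ⟨w, hw, hnd⟩ := hfin.exists_eq_pow_mul_and_not_dvd
    have ha2 : 2 ≤ multiplicity π A := hfin.le_multiplicity_of_pow_dvd h2
    obtain ⟨m, hm⟩ : ∃ m, multiplicity π A = m + 2 := ⟨multiplicity π A - 2, by omega⟩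
    rw [hm] at hw
    have hw0 : w ≠ 0 := by
      rintro rfl; rw [mul_zero] at hw; exact hA0 hw
    have hdeg : m + 2 ≤ l - 1 := by
      have h1 := totalDegree_le_of_iso hA
      rw [hw, totalDegree_mul_of_isDomain (pow_ne_zero _ hπ.ne_zero) hw0,
        totalDegree_pow_eq _ hπ.ne_zero] at h1
      have h3 := one_le_totalDegree_of_prime hπ
      nlinarith
    rw [hw, deriv_deriv_pow_mul] at hC
    have hC' : ((m : MvPolynomial (Fin 2) F) + 2) * ((m : MvPolynomial (Fin 2) F) + 1)
          * dd π ^ 2 * w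
        + π * (((m : MvPolynomial (Fin 2) F) + 2) * dd (dd π) * w
          + 2 * ((m : MvPolynomial (Fin 2) F) + 2) * dd π * dd w + π * dd (dd w))
        = -(X 0) * π ^ 2 * w := by
      apply mul_left_cancel₀ (pow_ne_zero m hπ.ne_zero)
      rw [hC]; ring
    have hdvd : π ∣ (((m : MvPolynomial (Fin 2) F) + 2) * ((m : MvPolynomial (Fin 2) F) + 1))
        * (dd π ^ 2 * w) := by
      refine ⟨-(X 0) * π * w - (((m : MvPolynomial (Fin 2) F) + 2) * dd (dd π) * w
          + 2 * ((m : MvPolynomial (Fin 2) F) + 2) * dd π * dd w + π * dd (dd w)), ?_⟩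
      linear_combination hC'
    have hunit : IsUnit (((m : MvPolynomial (Fin 2) F) + 2) * ((m : MvPolynomial (Fin 2) F) + 1)) := by
      have e : ((m : MvPolynomial (Fin 2) F) + 2) * ((m : MvPolynomial (Fin 2) F) + 1)
          = C ((((m + 2 : ℕ) : F)) * (((m + 1 : ℕ) : F))) := by
        simp only [Nat.cast_add, Nat.cast_ofNat, Nat.cast_one, map_mul, map_add, map_natCast,
          map_ofNat, map_one]
      rw [e]
      refine (isUnit_iff_ne_zero.mpr (mul_ne_zero ?_ ?_)).map C
      · exact natCast_ne_zero_of_lt l (by omega) (by omega)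
      · exact natCast_ne_zero_of_lt l (by omega) (by omega)
    rw [hunit.dvd_mul_left] at hdvd
    rcases hπ.dvd_or_dvd hdvd with h | h
    · exact hπd (hπ.dvd_of_dvd_pow h)
    · exact hnd h
  -- Step E: compare multiplicities
  have hg0 : g ≠ 0 := by
    intro h; rw [h, map_zero] at hgev
    exact hc (by simpa using congrArg PowerSeries.constantCoeff hgev.symm)
  have hEq : g ^ (l - 1) = C (c ^ (l - 1)) * A ^ k := by
    refine D.eq_of_ev_eq (k := (l - 1) * k) ?_ ?_ ?_
    · exact iso_congr (hg.pow (l - 1)) (by simp)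
    · exact iso_congr ((hA.pow k).C_mul _) (by simp [mul_comm])
    · simp only [map_pow, map_mul, hgev, hAev, D.ev_C, one_pow, mul_one]
  have h1 : emultiplicity π A = 1 := by
    have : emultiplicity π A = ((1 : ℕ) : ℕ∞) :=
      emultiplicity_eq_coe.mpr ⟨by simpa using hπA, by simpa using hD⟩
    simpa using this
  have hfg : FiniteMultiplicity π g := FiniteMultiplicity.of_not_isUnit hπ.not_isUnit hg0
  have hu : IsUnit (C (c ^ (l - 1)) : MvPolynomial (Fin 2) F) :=
    (isUnit_iff_ne_zero.mpr (pow_ne_zero _ hc)).map C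
  have h2 := congrArg (emultiplicity π) hEq
  rw [emultiplicity_pow hπ, emultiplicity_mul hπ, emultiplicity_pow hπ, h1,
    emultiplicity_of_isUnit_right hπ.not_isUnit hu, hfg.emultiplicity_eq_multiplicity] at h2
  have h3 : (l - 1) * multiplicity π g = k := by
    have : ((l - 1 : ℕ) : ℕ∞) * (multiplicity π g : ℕ∞) = (k : ℕ∞) := by
      rw [h2]; simp
    exact_mod_cast this
  exact ⟨multiplicity π g, h3.symm⟩

end Main

end

end Fermat.Agent.S16.SwDAlg
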