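import Mathlib

/-!
# S16, block SwD: the Hasse invariant `E_{l-1} ≡ 1 mod l`

From Mathlib's von Staudt–Clausen theorem: `2(l-1)/B_{l-1} ∈ l ℤ_(l)`, hence the `q`-expansion of
the level-one Eisenstein series `E_{l-1}` has coefficients in every subring `R ⊆ ℂ` containing the
inverses of the integers prime to `l`, and reduces to `1` under every `φ : R →+* κ`, `char κ = l`.
-/

set_option autoImplicit false

namespace Fermat.Agent.S16.SwDHasse

open Finset

theorem den_sum_dvd_prod (T : Finset ℕ) (hT : ∀ p ∈ T, p ≠ 0) :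
    (∑ p ∈ T, (1 : ℚ) / p).den ∣ ∏ p ∈ T, p := by
  classical
  induction T using Finset.induction_on with
  | empty => simp
  | insert p T hp ih =>
    rw [Finset.sum_insert hp, Finset.prod_insert hp]
    have h1 := Rat.add_den_dvd ((1 : ℚ) / p) (∑ q ∈ T, (1 : ℚ) / q)
    have h2 : ((1 : ℚ) / p).den = p := by simp [hT p (mem_insert_self _ _)]
    rw [h2] at h1
    exact h1.trans (Nat.mul_dvd_mul_left p (ih fun q hq => hT q (mem_insert_of_mem hq)))

/-- `l B_{l-1} ≡ -1 mod l ℤ_(l)`. -/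
theorem prime_mul_bernoulli (l : ℕ) [hl : Fact l.Prime] (h5 : 5 ≤ l) :
    ∃ (a : ℤ) (b : ℕ), ¬ l ∣ b ∧ b ≠ 0 ∧
      (l : ℚ) * bernoulli (l - 1) = -1 + l * ((a : ℚ) / b) := by
  classical
  have hodd : Odd l := hl.out.odd_of_ne_two (by omega)
  obtain ⟨k0, hk0⟩ := hodd
  have hk : l - 1 = 2 * k0 := by omega
  obtain ⟨N, hN⟩ := Bernoulli.vonStaudt_clausen k0
  set S := (range (2 * k0 + 2)).filter fun p => p.Prime ∧ (p - 1) ∣ 2 * k0 with hS
  have hlS : l ∈ S := by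
    rw [hS, mem_filter, mem_range]
    exact ⟨by omega, hl.out, by rw [← hk]⟩
  set T := S.erase l with hT
  set s : ℚ := ∑ p ∈ T, (1 : ℚ) / p with hs
  have hsum : ∑ p ∈ S, (1 : ℚ) / p = 1 / l + s := by
    rw [hs, hT, ← Finset.add_sum_erase S _ hlS]
  have hTprime : ∀ p ∈ T, p.Prime ∧ p ≠ l := by
    intro p hp
    rw [hT, mem_erase, hS, mem_filter] at hp
    exact ⟨hp.2.2.1, hp.1⟩
  have hden : ¬ l ∣ s.den := by
    intro hdvd
    have h1 := hdvd.trans (den_sum_dvd_prod T fun p hp => (hTprime p hp).1.ne_zero)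
    obtain ⟨p, hp, hlp⟩ := (Prime.dvd_finsetProd_iff hl.out.prime _).mp h1
    have := (Nat.prime_dvd_prime_iff_eq hl.out (hTprime p hp).1).mp hlp
    exact (hTprime p hp).2 this.symm
  refine ⟨N * s.den - s.num, s.den, hden, s.den_ne_zero, ?_⟩
  have hl0 : (l : ℚ) ≠ 0 := Nat.cast_ne_zero.mpr hl.out.ne_zero
  have hd0 : (s.den : ℚ) ≠ 0 := Nat.cast_ne_zero.mpr s.den_ne_zero
  have hsnd : s = (s.num : ℚ) / s.den := (Rat.num_div_den s).symm
  rw [hk]
  rw [hsum] at hN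
  have hB : bernoulli (2 * k0) = N - 1 / l - s := by linarith
  rw [hB]
  have key : ∀ (n : ℤ) (d : ℕ) (t : ℚ), (d : ℚ) ≠ 0 → t = (n : ℚ) / d →
      (l : ℚ) * (N - 1 / l - t) = -1 + l * (((N * d - n : ℤ) : ℚ) / d) := by
    intro n d t hd ht
    rw [ht]
    push_cast
    field_simp
    ring
  exact key s.num s.den s hd0 hsnd

/-- `2(l-1)/B_{l-1} = l · u / v` with `l ∤ v`. -/
theorem two_mul_div_bernoulli (l : ℕ) [hl : Fact l.Prime] (h5 : 5 ≤ l) :
    ∃ (u : ℤ) (v : ℕ), ¬ l ∣ v ∧ v ≠ 0 ∧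
      (2 * ((l - 1 : ℕ) : ℚ) / bernoulli (l - 1)) = l * ((u : ℚ) / v) := by
  obtain ⟨a, b, hb, hb0, h⟩ := prime_mul_bernoulli l h5
  have hl0 : (l : ℚ) ≠ 0 := Nat.cast_ne_zero.mpr hl.out.ne_zero
  have hbq : (b : ℚ) ≠ 0 := Nat.cast_ne_zero.mpr hb0
  set w : ℤ := l * a - b with hw
  have hwl : ¬ (l : ℤ) ∣ w := by
    intro hd
    have : (l : ℤ) ∣ (b : ℤ) := by
      have h1 : (l : ℤ) ∣ l * a := dvd_mul_right _ _
      have := dvd_sub h1 hd
      rwa [hw, sub_sub_cancel] at this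
    exact hb (by exact_mod_cast this)
  have hw0 : w ≠ 0 := fun h0 => hwl (h0 ▸ dvd_zero _)
  have hwq : (w : ℚ) ≠ 0 := Int.cast_ne_zero.mpr hw0
  have hB : bernoulli (l - 1) = (w : ℚ) / (l * b) := by
    have : (l : ℚ) * bernoulli (l - 1) = (w : ℚ) / b := by
      rw [h, hw]; push_cast; field_simp; ring
    field_simp
    field_simp at this
    linarith
  have hnat : ¬ l ∣ w.natAbs := by
    intro hd
    exact hwl (Int.natCast_dvd.mpr hd)
  have hnat0 : w.natAbs ≠ 0 := Int.natAbs_ne_zero.mpr hw0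
  rcases le_or_gt 0 w with hpos | hneg
  · refine ⟨2 * ((l - 1 : ℕ) : ℤ) * b, w.natAbs, hnat, hnat0, ?_⟩
    have hcast : ((w.natAbs : ℕ) : ℚ) = (w : ℚ) := by
      rw [Nat.cast_natAbs, abs_of_nonneg hpos]
    rw [hB, hcast]
    push_cast
    field_simp
  · refine ⟨-(2 * ((l - 1 : ℕ) : ℤ) * b), w.natAbs, hnat, hnat0, ?_⟩
    have hcast : ((w.natAbs : ℕ) : ℚ) = -(w : ℚ) := by
      rw [Nat.cast_natAbs, abs_of_neg hneg]; push_cast; ring
    rw [hB, hcast]
    push_cast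
    field_simp

open UpperHalfPlane ModularForm ModularFormClass MatrixGroups EisensteinSeries
open scoped ArithmeticFunction.sigma

/-- The `q`-expansion of `E_{l-1}`: constant term `1`, all other coefficients in `l ℤ_(l)`. -/
theorem hasse_coeff (l : ℕ) [Fact l.Prime] (h5 : 5 ≤ l) (hk : 3 ≤ l - 1) :
    ∃ (u : ℤ) (v : ℕ), ¬ l ∣ v ∧ v ≠ 0 ∧ ∀ m : ℕ,
      (qExpansion 1 (E hk)).coeff m =
        if m = 0 then 1 else (l : ℂ) * ((u : ℂ) / v) * (σ (l - 2) m : ℂ) := by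
  have hodd : Odd l := (Fact.out : l.Prime).odd_of_ne_two (by omega)
  have hk2 : Even (l - 1) := by
    obtain ⟨j, hj⟩ := hodd
    exact ⟨j, by omega⟩
  obtain ⟨u, v, hv, hv0, h⟩ := two_mul_div_bernoulli l h5
  refine ⟨-u, v, hv, hv0, fun m => ?_⟩
  rw [EisensteinSeries.E_qExpansion_coeff hk hk2 m]
  have hC : (2 * ((l - 1 : ℕ) : ℂ) / (bernoulli (l - 1) : ℂ)) = (l : ℂ) * ((u : ℂ) / v) := by
    have := congrArg (fun x : ℚ => (x : ℂ)) h
    simpa using this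
  have e : l - 1 - 1 = l - 2 := by omega
  split_ifs with hm
  · rfl
  · rw [hC, e]
    push_cast
    ring

end Fermat.Agent.S16.SwDHasse
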