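import Mathlib
import Fermat.Agent.S16.SwDAlg
import Fermat.Agent.S16.SwDHasse
import Fermat.Agent.S16.LevelOneModL
import Fermat.Agent.S16.RamanujanSeries

/-!
# S16, block SwD: the Swinnerton-Dyer weight theorem for level-one forms

Instantiation of the algebraic core `SwDAlg.weight_dvd` with the Ramanujan series
(`RamanujanSeries`), the level-one basis theorem (`LevelOneModL.exists_isobaric_of_qExpansion`)
and the Hasse invariant `E_{ℓ-1} ≡ 1` (`SwDHasse.hasse_coeff`).

Main export: `swd` — literally the `SwDStatement` of the (UP5) sub-interface: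
a level-one form of weight `k` whose `q`-expansion has coefficients in a subring `R ⊆ ℂ`
containing the inverses of the integers prime to `ℓ ≥ 5`, and which reduces to a nonzero constant
under `φ : R →+* κ` (`char κ = ℓ`), has `(ℓ - 1) ∣ k`.
-/

set_option autoImplicit false

namespace Fermat.Agent.S16.SwDInst

open UpperHalfPlane ModularForm ModularFormClass MatrixGroups EisensteinSeries
open scoped ArithmeticFunction.sigma

open Fermat.Agent.S16

/-! ### Bridges between the integer series -/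

theorem eisenstein4_eq_Qz : ModularCurve.eisenstein4 = RamanujanSeries.Qz := by
  ext n
  simp only [ModularCurve.eisenstein4, RamanujanSeries.Qz, PowerSeries.coeff_mk]
  split_ifs with h
  · rfl
  · rw [ArithmeticFunction.sigma_apply]
    push_cast
    rfl

theorem eisenstein6_eq_Rz : LevelOneModL.eisenstein6 = RamanujanSeries.Rz := by
  ext n
  simp only [LevelOneModL.eisenstein6, RamanujanSeries.Rz, PowerSeries.coeff_mk]
  split_ifs with h
  · rfl
  · rw [ArithmeticFunction.sigma_apply]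
    push_cast
    rfl

theorem eisPoint_eq (A : Type*) [CommRing A] :
    LevelOneModL.eisPoint A = ![RamanujanSeries.QA A, RamanujanSeries.RA A] := by
  rw [LevelOneModL.eisPoint, eisenstein4_eq_Qz, eisenstein6_eq_Rz]
  rfl

/-! ### The Ramanujan datum over a field where `1728 ≠ 0` -/

/-- The Ramanujan datum `(P, Q, R)` over a field `κ` in which `1728 ≠ 0`. -/
noncomputable def ramOf (κ : Type*) [Field κ] (h1728 : (1728 : κ) ≠ 0) : SwDAlg.Ram κ where
  e2 := RamanujanSeries.PA κ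
  e4 := RamanujanSeries.QA κ
  e6 := RamanujanSeries.RA κ
  c2 := RamanujanSeries.constantCoeff_PA κ
  c4 := RamanujanSeries.constantCoeff_QA κ
  c6 := RamanujanSeries.constantCoeff_RA κ
  r2 := RamanujanSeries.ramanujan_PA κ
  r4 := RamanujanSeries.ramanujan_QA κ
  r6 := RamanujanSeries.ramanujan_RA κ
  disc := by
    rw [RamanujanSeries.coeff_one_QA_cube_sub_RA_sq]
    exact h1728

theorem ramOf_ev (κ : Type*) [Field κ] (h1728 : (1728 : κ) ≠ 0) (P : MvPolynomial (Fin 2) κ) :
    (ramOf κ h1728).ev P = MvPolynomial.aeval (LevelOneModL.eisPoint κ) P := by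
  rw [eisPoint_eq]
  rfl

/-! ### Base change of polynomials -/

theorem isWeightedHomogeneous_map {A B : Type*} [CommRing A] [CommRing B] (φ : A →+* B)
    {w : Fin 2 → ℕ} {P : MvPolynomial (Fin 2) A} {n : ℕ}
    (hP : MvPolynomial.IsWeightedHomogeneous w P n) :
    MvPolynomial.IsWeightedHomogeneous w (MvPolynomial.map φ P) n := by
  intro d hd
  apply hP
  intro h0
  apply hd
  rw [MvPolynomial.coeff_map, h0, map_zero]

theorem map_eisPoint {A B : Type*} [CommRing A] [CommRing B] (φ : A →+* B) (i : Fin 2) :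
    PowerSeries.map φ (LevelOneModL.eisPoint A i) = LevelOneModL.eisPoint B i := by
  have key : ∀ s : PowerSeries ℤ, PowerSeries.map φ (PowerSeries.map (Int.castRingHom A) s) =
      PowerSeries.map (Int.castRingHom B) s := by
    intro s
    ext n
    simp
  fin_cases i
  · simpa [LevelOneModL.eisPoint] using key _
  · simpa [LevelOneModL.eisPoint] using key _

theorem map_aeval_eisPoint {A B : Type*} [CommRing A] [CommRing B] (φ : A →+* B)
    (P : MvPolynomial (Fin 2) A) :
    PowerSeries.map φ (MvPolynomial.aeval (LevelOneModL.eisPoint A) P) =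
      MvPolynomial.aeval (LevelOneModL.eisPoint B) (MvPolynomial.map φ P) := by
  rw [MvPolynomial.map_aeval, MvPolynomial.aeval_def, MvPolynomial.eval₂_map,
    MvPolynomial.coe_eval₂Hom]
  congr 1
  · ext a n
    simp
  · funext i
    exact map_eisPoint φ i

/-! ### Arithmetic of `1728` -/

theorem not_dvd_1728 (ℓ : ℕ) [hl : Fact ℓ.Prime] (h5 : 5 ≤ ℓ) : ¬ ℓ ∣ 1728 := by
  intro h2
  have h3 : ℓ ∣ 2 ^ 6 * 3 ^ 3 := by norm_num; exact h2
  rcases (Nat.Prime.dvd_mul hl.out).mp h3 with h4 | h4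
  · have := Nat.le_of_dvd (by norm_num) (hl.out.dvd_of_dvd_pow h4)
    omega
  · have := Nat.le_of_dvd (by norm_num) (hl.out.dvd_of_dvd_pow h4)
    omega

theorem cast_1728_ne_zero (ℓ : ℕ) [Fact ℓ.Prime] (h5 : 5 ≤ ℓ) (κ : Type*) [Field κ] [CharP κ ℓ] :
    (1728 : κ) ≠ 0 := by
  intro h
  have h1 : ((1728 : ℕ) : κ) = 0 := by exact_mod_cast h
  exact not_dvd_1728 ℓ h5 ((CharP.cast_eq_zero_iff κ ℓ 1728).mp h1)

/-! ### The Swinnerton-Dyer weight theorem -/

/-- **Swinnerton-Dyer.** Let `ℓ ≥ 5` be a prime, `R ⊆ ℂ` a subring containing the inverses of the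
integers prime to `ℓ`, `φ : R →+* κ` a homomorphism to a field of characteristic `ℓ`. If a level-one
modular form `f` of weight `k` has `q`-expansion `A ∈ R⟦q⟧` with `φ(A)` a nonzero constant, then
`(ℓ - 1) ∣ k`. (Literally the `SwDStatement` of the (UP5) sub-interface.) -/
theorem swd : ∀ (ℓ : ℕ) [Fact ℓ.Prime], 5 ≤ ℓ → ∀ (R : Subring ℂ),
    (∀ n : ℕ, ¬ ℓ ∣ n → (n : ℂ)⁻¹ ∈ R) →
    ∀ (κ : Type) [Field κ] [CharP κ ℓ] (φ : R →+* κ) (k : ℕ) (f : ModularForm 𝒮ℒ (k : ℤ))
      (A : PowerSeries R), (∀ n, ((A.coeff n : R) : ℂ) = (qExpansion 1 f).coeff n) →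
      ∀ c : κ, c ≠ 0 → A.map φ = PowerSeries.C c → (ℓ - 1) ∣ k := by
  intro ℓ _ h5 R hR κ _ _ φ k f A hA c hc hAc
  have h1728 : (1728 : κ) ≠ 0 := cast_1728_ne_zero ℓ h5 κ
  have hι : Function.Injective R.subtype := Subtype.coe_injective
  -- the inverse of `1728` in `R`
  have hu_mem : ((1728 : ℕ) : ℂ)⁻¹ ∈ R := hR 1728 (not_dvd_1728 ℓ h5)
  obtain ⟨u, hu⟩ : ∃ u : R, (1728 : R) * u = 1 := by
    refine ⟨⟨((1728 : ℕ) : ℂ)⁻¹, hu_mem⟩, ?_⟩
    apply Subtype.ext
    have e : ((1728 : R) : ℂ) = 1728 := map_ofNat R.subtype 1728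
    show ((1728 : R) : ℂ) * ((1728 : ℕ) : ℂ)⁻¹ = 1
    rw [e]
    norm_num
  -- the form `f`
  have hG : A.map R.subtype = qExpansion 1 f := by
    ext n
    rw [PowerSeries.coeff_map]
    exact hA n
  obtain ⟨P, hP, hAP⟩ := LevelOneModL.exists_isobaric_of_qExpansion R.subtype hι u hu f A hG
  -- the Hasse invariant `E_{ℓ-1}`
  have hk : 3 ≤ ℓ - 1 := by omega
  obtain ⟨u', v, hv, hv0, hcoef⟩ := SwDHasse.hasse_coeff ℓ h5 hk
  obtain ⟨vinv, hvinv⟩ : ∃ w : R, (w : ℂ) = (v : ℂ)⁻¹ := ⟨⟨(v : ℂ)⁻¹, hR v hv⟩, rfl⟩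
  set H : PowerSeries R := PowerSeries.mk fun m =>
    if m = 0 then 1 else (ℓ : R) * ((u' : R) * vinv) * ((σ (ℓ - 2) m : ℕ) : R) with hHdef
  have hH : H.map R.subtype = qExpansion 1 (E hk) := by
    ext m
    rw [PowerSeries.coeff_map, hcoef m, hHdef, PowerSeries.coeff_mk]
    split_ifs
    · simp
    · simp [hvinv, div_eq_mul_inv]
  obtain ⟨PE, hPE, hHPE⟩ :=
    LevelOneModL.exists_isobaric_of_qExpansion R.subtype hι u hu (E hk) H hH
  have hHφ : H.map φ = 1 := by
    ext m
    rw [PowerSeries.coeff_map, hHdef, PowerSeries.coeff_mk, PowerSeries.coeff_one]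
    split_ifs
    · simp
    · rw [map_mul, map_mul, map_natCast, CharP.cast_eq_zero κ ℓ]
      simp
  -- reduce everything modulo `φ`
  have hPiso : SwDAlg.Iso (MvPolynomial.map φ P) k := by
    have := isWeightedHomogeneous_map φ hP
    rw [Int.toNat_natCast] at this
    exact this
  have hPEiso : SwDAlg.Iso (MvPolynomial.map φ PE) (ℓ - 1) := by
    have := isWeightedHomogeneous_map φ hPE
    rw [Int.toNat_natCast] at this
    exact this
  have hPev : (ramOf κ h1728).ev (MvPolynomial.map φ P) = PowerSeries.C c := by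
    rw [ramOf_ev, ← map_aeval_eisPoint, ← hAP, hAc]
  have hPEev : (ramOf κ h1728).ev (MvPolynomial.map φ PE) = 1 := by
    rw [ramOf_ev, ← map_aeval_eisPoint, ← hHPE, hHφ]
  exact SwDAlg.weight_dvd ℓ (ramOf κ h1728) h5 hPEiso hPEev hPiso hc hPev

end Fermat.Agent.S16.SwDInst
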