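import Fermat.Agent.S16.UpperL5
import Fermat.Agent.S16.EsymmInst
import Fermat.Agent.S16.SwDInst

/-!
# S16: the block (UP5) is closed

`Interfaces.Upper5Statement` from `UpperL5.upper5_of` (helper71), `EsymmInst.esymmStatement`
and the Swinnerton-Dyer weight theorem `SwDInst.swd`.
-/

set_option autoImplicit false

namespace Fermat.Agent.S16.Upper5Closed

/-- The Swinnerton-Dyer statement of the (UP5) sub-interface. -/
theorem swDStatement : UpperL5.SwDStatement := SwDInst.swd

/-- **(UP5)**: the upper bound on the congruence modulus for primes `ℓ ≥ 5`. -/
theorem upper5Statement : Interfaces.Upper5Statement :=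
  UpperL5.upper5_of EsymmInst.esymmStatement swDStatement

end Fermat.Agent.S16.Upper5Closed
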