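import Fermat.Agent.S16.Interfaces2

/-!
# S16, block (UPasm): `UpperStatement` from the five case statements
-/

set_option autoImplicit false

open ModularCurve CuspForm CongruenceSubgroup ModularFormClass

namespace Fermat.Agent.S16.UpperAsm

open Fermat.Agent.S16.Interfaces

theorem isLInt_int_mul {ℓ : ℕ} {z : ℂ} (m : ℤ) (hz : IsLInt ℓ z) : IsLInt ℓ ((m : ℂ) * z) := by
  obtain ⟨a, b, hb, hab⟩ := hz
  refine ⟨m * a, b, hb, ?_⟩
  push_cast
  rw [mul_assoc, hab]

theorem isOneMod_mono {p ℓ r r' : ℕ} (h : r' ≤ r) {F : ModularForm (Gamma0 p) 2}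
    (hF : IsOneMod p ℓ r F) : IsOneMod p ℓ r' F := by
  refine ⟨hF.1, fun j hj => ?_⟩
  obtain ⟨z, hz, hzj⟩ := hF.2 j hj
  refine ⟨((ℓ ^ (r - r') : ℕ) : ℤ) * z, ?_, ?_⟩
  · exact isLInt_int_mul _ hz
  · rw [hzj]
    have : r = r' + (r - r') := by omega
    conv_lhs => rw [this, pow_add]
    push_cast
    ring

theorem gcd_mod (a : ℕ) : Nat.gcd a 12 = Nat.gcd (a % 12) 12 := by
  rw [Nat.gcd_comm, Nat.gcd_rec, Nat.gcd_comm]

/-- (UPasm). -/
theorem upper (h5 : Upper5Statement) (h3a : Upper3aStatement) (h3b : Upper3bStatement)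
    (h2a : Upper2aStatement) (h2b : Upper2bStatement) : UpperStatement := by
  intro p _ hp5 ℓ _ r F hF
  have hp : p.Prime := Fact.out
  have hℓ : ℓ.Prime := Fact.out
  by_cases hℓ5 : 5 ≤ ℓ
  · -- r = 0
    rcases Nat.eq_zero_or_pos r with rfl | hr
    · simp
    · exact absurd (isOneMod_mono hr hF) (h5 p hp5 ℓ hℓ5 F)
  · have hℓlt : ℓ < 5 := not_le.1 hℓ5
    have hℓ23 : ℓ = 2 ∨ ℓ = 3 := by
      have h2 := hℓ.two_le
      interval_cases ℓ
      · left; rfl
      · right; rfl
      · exact absurd hℓ (by decide)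
    have hg := gcd_mod (p - 1)
    have hpodd : p % 2 = 1 := by
      rcases hp.eq_two_or_odd with h | h
      · omega
      · exact h
    have hp3 : p % 3 ≠ 0 := by
      intro h
      have : 3 ∣ p := Nat.dvd_of_mod_eq_zero h
      have := (Nat.prime_dvd_prime_iff_eq (by norm_num) hp).1 this
      omega
    rcases hℓ23 with rfl | rfl
    · -- ℓ = 2
      have h4 : p % 4 = 1 ∨ p % 4 = 3 := by omega
      rcases h4 with h4 | h4
      · by_cases hr : 2 ≤ r
        · exact absurd (isOneMod_mono hr hF) (h2a p hp5 h4 F)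
        · have hr' : r ≤ 1 := by omega
          have hdvd : 2 ^ 1 ∣ 24 / Nat.gcd (p - 1) 12 := by
            rw [hg]
            have : (p - 1) % 12 = 0 ∨ (p - 1) % 12 = 4 ∨ (p - 1) % 12 = 8 := by omega
            rcases this with h | h | h <;> rw [h] <;> decide
          exact (pow_dvd_pow 2 hr').trans hdvd
      · by_cases hr : 3 ≤ r
        · exact absurd (isOneMod_mono hr hF) (h2b p hp5 h4 F)
        · have hr' : r ≤ 2 := by omega
          have hdvd : 2 ^ 2 ∣ 24 / Nat.gcd (p - 1) 12 := by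
            rw [hg]
            have : (p - 1) % 12 = 2 ∨ (p - 1) % 12 = 6 ∨ (p - 1) % 12 = 10 := by omega
            rcases this with h | h | h <;> rw [h] <;> decide
          exact (pow_dvd_pow 2 hr').trans hdvd
    · -- ℓ = 3
      have h3 : p % 3 = 1 ∨ p % 3 = 2 := by omega
      rcases h3 with h3 | h3
      · rcases Nat.eq_zero_or_pos r with rfl | hr
        · simp
        · exact absurd (isOneMod_mono hr hF) (h3a p hp5 h3 F)
      · by_cases hr : 2 ≤ r
        · exact absurd (isOneMod_mono hr hF) (h3b p hp5 h3 F)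
        · have hr' : r ≤ 1 := by omega
          have hdvd : 3 ^ 1 ∣ 24 / Nat.gcd (p - 1) 12 := by
            rw [hg]
            have : (p - 1) % 12 = 4 ∨ (p - 1) % 12 = 10 := by omega
            rcases this with h | h <;> rw [h] <;> decide
          exact (pow_dvd_pow 3 hr').trans hdvd

end Fermat.Agent.S16.UpperAsm
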