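import Fermat.Agent.S16.Reduction2
import Fermat.Agent.S16.Bridge
import Fermat.Agent.S16.UpperAsm
import Fermat.Agent.S16.EisBridge
import Fermat.Agent.S16.SmallInst
import Fermat.Agent.S16.DualityB
import Fermat.Agent.S16.UpperL5
import Fermat.Agent.S16.EsymmInst
import Fermat.Agent.S16.Easy23Glue
import Fermat.Agent.S16.LowerPsiFinal
import Fermat.Agent.S16.Upper5Closed
import Fermat.Agent.S16.G3Main

/-!
# S16: assembly with the landed blocks plugged in (dry run)

Open inputs are hypotheses; closed ones are instantiated. When all are closed, `S16.lean` is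
`Assembly.index_of_open_blocks ...`.
-/

set_option autoImplicit false

open ModularCurve CuspForm

namespace Fermat.Agent.S16.Assembly

open Fermat.Agent.S16.Interfaces

/-- (EIS) closed: Mazur's Eisenstein series from `E2Level` / `EisBridge`. -/
theorem eisStatement : EisStatement := by
  intro p _
  have : NeZero p := ⟨(Fact.out : p.Prime).ne_zero⟩
  refine ⟨EisBridge.eisM p, EisBridge.qCoeff_eisM_zero p, fun j hj => ?_⟩
  exact EisBridge.qCoeff_eisM_pos p (by omega)

/-- The frozen S16 from the blocks that are still open. -/
theorem index_of_open_blocks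
    (h5 : Upper5Statement) (h3a : Upper3aStatement) (h3b : Upper3bStatement)
    (h2a : Upper2aStatement) (h2b : Upper2bStatement) (hL : LowerStatement)
    (p : ℕ) [Fact p.Prime] :
    Nat.card (↥(heckeLatticeAlgebra p ∅) ⧸
        Ideal.map ((latticeRestrictHom p ∅).toRingHom.comp (heckeEvalForms p 2))
          (eisensteinIdeal p)) =
      eisensteinNumerator p :=
  Reduction.index_of_blocks2 SmallInst.smallStatement DualityB.dualityStatement
    (Bridge.congruenceBound eisStatement (UpperAsm.upper h5 h3a h3b h2a h2b)) hL p

/-- (UP5) from the Swinnerton-Dyer statement alone (`EsymmInst.esymmStatement` plugged in). -/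
theorem upper5_of_swd (hS : UpperL5.SwDStatement) : Upper5Statement :=
  UpperL5.upper5_of EsymmInst.esymmStatement hS

/-- The frozen S16 from the blocks that are still open, second form: (UP5) replaced by its only
open input `UpperL5.SwDStatement`. -/
theorem index_of_open_blocks_swd
    (hS : UpperL5.SwDStatement) (h3a : Upper3aStatement) (h3b : Upper3bStatement)
    (h2a : Upper2aStatement) (h2b : Upper2bStatement) (hL : LowerStatement)
    (p : ℕ) [Fact p.Prime] :
    Nat.card (↥(heckeLatticeAlgebra p ∅) ⧸
        Ideal.map ((latticeRestrictHom p ∅).toRingHom.comp (heckeEvalForms p 2))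
          (eisensteinIdeal p)) =
      eisensteinNumerator p :=
  index_of_open_blocks (upper5_of_swd hS) h3a h3b h2a h2b hL p

/-- The frozen S16 from the four blocks still open at 17:50Z: (SwD), (UP3b), (UP2b), (LOW).
(UP3a), (UP2a) are `Easy23Glue.upper3a`, `Easy23Glue.upper2a` (helper82). -/
theorem index_of_four_blocks
    (hS : UpperL5.SwDStatement) (h3b : Upper3bStatement) (h2b : Upper2bStatement)
    (hL : LowerStatement) (p : ℕ) [Fact p.Prime] :
    Nat.card (↥(heckeLatticeAlgebra p ∅) ⧸
        Ideal.map ((latticeRestrictHom p ∅).toRingHom.comp (heckeEvalForms p 2))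
          (eisensteinIdeal p)) =
      eisensteinNumerator p :=
  index_of_open_blocks_swd hS Easy23Glue.upper3a h3b Easy23Glue.upper2a h2b hL p

/-- The frozen S16 from the three blocks still open at 18:00Z: (SwD), (UP3b), (UP2b).
(LOW) is `LowerPsiFinal.lowerStatement` (helper67 `LowerPsi` + helper8 `LiftHom`). -/
theorem index_of_three_blocks
    (hS : UpperL5.SwDStatement) (h3b : Upper3bStatement) (h2b : Upper2bStatement)
    (p : ℕ) [Fact p.Prime] :
    Nat.card (↥(heckeLatticeAlgebra p ∅) ⧸
        Ideal.map ((latticeRestrictHom p ∅).toRingHom.comp (heckeEvalForms p 2))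
          (eisensteinIdeal p)) =
      eisensteinNumerator p :=
  index_of_four_blocks hS h3b h2b LowerPsiFinal.lowerStatement p

/-- The frozen S16 from the single block still open at 18:30Z: (UP2b).
(UP5) is `Upper5Closed.swDStatement` (helper12), (UP3b) is `G3Main.upper3b` (helper90). -/
theorem index_of_upper2b (h2b : Upper2bStatement) (p : ℕ) [Fact p.Prime] :
    Nat.card (↥(heckeLatticeAlgebra p ∅) ⧸
        Ideal.map ((latticeRestrictHom p ∅).toRingHom.comp (heckeEvalForms p 2))
          (eisensteinIdeal p)) =
      eisensteinNumerator p :=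
  index_of_three_blocks Upper5Closed.swDStatement G3Main.upper3b h2b p

end Fermat.Agent.S16.Assembly
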