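import Mathlib

/-!
# S16, auxiliary-level route (G2)/(G3): the integer `q`-series

Pure power-series file (Mathlib only).  `S k = ∑ σ_k(n) qⁿ`, and the `q`-expansions of the
auxiliary forms of level `3` (`A3q`, `T3q`, `U3q`) and level `2` (`A2q`, `B2q`), together with
the elementary termwise congruences between divisor sums that the route needs.
-/

set_option autoImplicit false

open PowerSeries
open scoped ArithmeticFunction.sigma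

namespace Fermat.Agent.S16.AuxSeries

/-- `S k = ∑_{n ≥ 1} σ_k(n) qⁿ` (note `σ k 0 = 0`). -/
def S (k : ℕ) : PowerSeries ℤ := PowerSeries.mk fun n => ((σ k n : ℕ) : ℤ)

@[simp] theorem coeff_S (k n : ℕ) : coeff n (S k) = ((σ k n : ℕ) : ℤ) := by
  simp [S]

theorem coeff_zero_S (k : ℕ) : coeff 0 (S k) = 0 := by simp

theorem coeff_one_S (k : ℕ) : coeff 1 (S k) = 1 := by simp

/-- `V d f = f(q^d)`. -/
noncomputable abbrev V (d : ℕ) [NeZero d] : PowerSeries ℤ →ₐ[ℤ] PowerSeries ℤ :=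
  PowerSeries.expand d (NeZero.ne d)

/-- `q`-expansion of `A = (3 E₂(3z) - E₂(z))/2` on `Γ₀(3)`. -/
noncomputable def A3q : PowerSeries ℤ := 1 + C (12 : ℤ) * (S 1 - C (3 : ℤ) * V 3 (S 1))

/-- `q`-expansion of `t = (E₄(z) - E₄(3z))/240` on `Γ₀(3)`. -/
noncomputable def T3q : PowerSeries ℤ := S 3 - V 3 (S 3)

/-- `q`-expansion of `(E₆(3z) - E₆(z))/504` on `Γ₀(3)`. -/
noncomputable def U3q : PowerSeries ℤ := S 5 - V 3 (S 5)

/-- `q`-expansion of `A' = 2 E₂(2z) - E₂(z)` on `Γ₀(2)`. -/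
noncomputable def A2q : PowerSeries ℤ := 1 + C (24 : ℤ) * (S 1 - C (2 : ℤ) * V 2 (S 1))

/-- `q`-expansion of `B' = (E₄(z) - E₄(2z))/240` on `Γ₀(2)`. -/
noncomputable def B2q : PowerSeries ℤ := S 3 - V 2 (S 3)

/-- Termwise congruence between divisor power sums. -/
theorem exists_S_sub_S (m : ℤ) (a b : ℕ) (h : ∀ d : ℕ, m ∣ ((d : ℤ) ^ a - (d : ℤ) ^ b)) :
    ∃ W : PowerSeries ℤ, S a - S b = C m * W := by
  have key : ∀ n : ℕ, m ∣ (((σ a n : ℕ) : ℤ) - ((σ b n : ℕ) : ℤ)) := by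
    intro n
    rw [ArithmeticFunction.sigma_apply, ArithmeticFunction.sigma_apply]
    push_cast
    rw [← Finset.sum_sub_distrib]
    exact Finset.dvd_sum fun d _ => h d
  choose w hw using key
  refine ⟨PowerSeries.mk w, ?_⟩
  ext n
  rw [map_sub, coeff_S, coeff_S, coeff_C_mul, coeff_mk, hw n]

theorem two_dvd_pow_sub_pow (a b : ℕ) (ha : a ≠ 0) (hb : b ≠ 0) (d : ℕ) :
    (2 : ℤ) ∣ ((d : ℤ) ^ a - (d : ℤ) ^ b) := by
  rcases Int.even_or_odd (d : ℤ) with hd | hd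
  · exact (Even.sub ((Int.even_pow' ha).mpr hd) ((Int.even_pow' hb).mpr hd)).two_dvd
  · exact (Odd.sub_odd (hd.pow) (hd.pow)).two_dvd

/-- `σ_a ≡ σ_b mod 2` for `a, b ≥ 1`. -/
theorem exists_S_sub_S_two (a b : ℕ) (ha : a ≠ 0) (hb : b ≠ 0) :
    ∃ W : PowerSeries ℤ, S a - S b = C (2 : ℤ) * W :=
  exists_S_sub_S 2 a b (two_dvd_pow_sub_pow a b ha hb)

theorem four_dvd_pow_five_sub_pow_three (d : ℕ) : (4 : ℤ) ∣ ((d : ℤ) ^ 5 - (d : ℤ) ^ 3) := by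
  have h : ((d : ℤ) ^ 5 - (d : ℤ) ^ 3) = (d : ℤ) ^ 3 * ((d : ℤ) ^ 2 - 1) := by ring
  rw [h]
  rcases Int.even_or_odd' (d : ℤ) with ⟨c, hc | hc⟩
  · rw [hc]
    exact ⟨2 * c ^ 3 * ((2 * c) ^ 2 - 1), by ring⟩
  · rw [hc]
    exact ⟨(2 * c + 1) ^ 3 * (c ^ 2 + c), by ring⟩

/-- `σ₅ ≡ σ₃ mod 4`. -/
theorem exists_S5_sub_S3 : ∃ W : PowerSeries ℤ, S 5 - S 3 = C (4 : ℤ) * W :=
  exists_S_sub_S 4 5 3 four_dvd_pow_five_sub_pow_three

theorem three_dvd_pow_sub (a : ℕ) (d : ℕ) :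
    (3 : ℤ) ∣ ((d : ℤ) ^ (2 * a + 1) - (d : ℤ) ^ 1) := by
  induction a with
  | zero => simp
  | succ a ih =>
    have h : ((d : ℤ) ^ (2 * (a + 1) + 1) - (d : ℤ) ^ 1)
        = (d : ℤ) ^ 2 * ((d : ℤ) ^ (2 * a + 1) - (d : ℤ) ^ 1) + ((d : ℤ) ^ 3 - (d : ℤ)) := by ring
    rw [h]
    refine dvd_add (Dvd.dvd.mul_left ih _) ?_
    have h3 : ((d : ℤ) ^ 3 - (d : ℤ)) = ((d : ℤ) - 1) * (d : ℤ) * ((d : ℤ) + 1) := by ring
    rw [h3]
    have := Int.emod_emod_of_dvd (d : ℤ) (dvd_refl (3 : ℤ))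
    have h0 : (d : ℤ) % 3 = 0 ∨ (d : ℤ) % 3 = 1 ∨ (d : ℤ) % 3 = 2 := by omega
    rcases h0 with h0 | h0 | h0
    · exact Dvd.dvd.mul_right (Dvd.dvd.mul_left (Int.dvd_of_emod_eq_zero h0) _) _
    · refine Dvd.dvd.mul_right (Dvd.dvd.mul_right ?_ _) _
      exact Int.dvd_of_emod_eq_zero (by omega)
    · refine Dvd.dvd.mul_left ?_ _
      exact Int.dvd_of_emod_eq_zero (by omega)

/-- `σ_{2a+1} ≡ σ₁ mod 3`. -/
theorem exists_S_odd_sub_S1 (a : ℕ) : ∃ W : PowerSeries ℤ, S (2 * a + 1) - S 1 = C (3 : ℤ) * W :=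
  exists_S_sub_S 3 (2 * a + 1) 1 (three_dvd_pow_sub a)

end Fermat.Agent.S16.AuxSeries
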