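import Mathlib
import Fermat.Agent.S16.AuxSeries
import Fermat.Agent.S16.E2Level
import Fermat.Agent.S28.Haupt3.Sturm3

/-!
# S16, auxiliary level 3: the forms `A3, T3, U3, C3` on `Γ₀(3)` and their integer `q`-expansions

* `A3 = (3 E₂(3z) - E₂(z))/2` (weight 2), `qExpansion 1 A3 = ι A3q`;
* `T3 = (E₄(z) - E₄(3z))/240` (weight 4), `qExpansion 1 T3 = ι T3q`;
* `U3 = (E₆(3z) - E₆(z))/504` (weight 6), `qExpansion 1 U3 = ι U3q`;
* `C3 = (U3 - A3 T3)/12` (weight 6), `3 • qExpansion 1 C3 = ι C3q4` with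
  `U3q - A3q * T3q = 4 * C3q4`, `C3q4 = 3 q² + ⋯`;
* `A3q = 1 + 4 T3q + 8 W`.
-/

set_option autoImplicit false

open UpperHalfPlane ModularFormClass ModularForm EisensteinSeries
open scoped MatrixGroups ArithmeticFunction.sigma

noncomputable section

namespace Fermat.Agent.S16.Aux3Forms

open Fermat.Agent.S24 Fermat.Agent.S24.LevelForms CongruenceSubgroup
open Fermat.Agent.S28.Haupt3 Fermat.Agent.S28.Haupt3.ScaleQExp
open Fermat.Agent.S16.AuxSeries Fermat.Agent.S16.E2Level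
open PowerSeries

/-- The coefficient embedding `ℤ⟦X⟧ → ℂ⟦X⟧`. -/
abbrev ι : PowerSeries ℤ →+* PowerSeries ℂ := PowerSeries.map (Int.castRingHom ℂ)

local notation "hΓ3" => ScaleQExp.one_mem_strictPeriods 3

/-- `A = (3 E₂(3z) - E₂(z))/2` on `Γ₀(3)`. -/
def A3 : ModularForm (E2Level.G0 3) 2 := (1 / 2 : ℂ) • E2lvl 3

/-- `t = (E₄(z) - E₄(3z))/240` on `Γ₀(3)`. -/
def T3 : ModularForm (E2Level.G0 3) 4 := (1 / 240 : ℂ) • (Sturm3.e4 - Sturm3.e4')

/-- `(E₆(3z) - E₆(z))/504` on `Γ₀(3)`. -/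
def U3 : ModularForm (E2Level.G0 3) 6 :=
  (1 / 504 : ℂ) • (scaleForm 3 3 dvd_rfl E₆ - scaleForm 3 1 (one_dvd 3) E₆)

/-- `C = (U3 - A3 T3)/12` on `Γ₀(3)`. -/
def C3 : ModularForm (E2Level.G0 3) 6 :=
  (1 / 12 : ℂ) • (U3 - ModularForm.mcast (by norm_num) (A3.mul T3))

/-! ### Coefficients of the integer series -/

theorem coeff_V (d : ℕ) [NeZero d] (f : PowerSeries ℤ) (m : ℕ) :
    coeff m (V d f) = if d ∣ m then coeff (m / d) f else 0 := by
  rw [PowerSeries.coeff_expand]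

theorem coeff_A3q (m : ℕ) :
    coeff m A3q = (if m = 0 then 1 else 0) +
      12 * (((σ 1 m : ℕ) : ℤ) - 3 * (if 3 ∣ m then ((σ 1 (m / 3) : ℕ) : ℤ) else 0)) := by
  rw [A3q, map_add, coeff_one, coeff_C_mul, map_sub, coeff_C_mul, coeff_V, coeff_S]
  split_ifs <;> simp

theorem coeff_T3q (m : ℕ) :
    coeff m T3q = ((σ 3 m : ℕ) : ℤ) - (if 3 ∣ m then ((σ 3 (m / 3) : ℕ) : ℤ) else 0) := by
  rw [T3q, map_sub, coeff_V, coeff_S]
  split_ifs <;> simp

theorem coeff_U3q (m : ℕ) :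
    coeff m U3q = ((σ 5 m : ℕ) : ℤ) - (if 3 ∣ m then ((σ 5 (m / 3) : ℕ) : ℤ) else 0) := by
  rw [U3q, map_sub, coeff_V, coeff_S]
  split_ifs <;> simp

/-! ### `q`-expansions -/

theorem qExpansion_A3 : qExpansion 1 A3 = ι A3q := by
  rw [A3, FunLike.coe_smul, ModularForm.qExpansion_smul one_pos hΓ3]
  ext m
  rw [PowerSeries.coeff_smul, qExpansion_E2lvl_coeff, coeff_map, coeff_A3q]
  by_cases hm : m = 0
  · subst hm
    rw [cE_zero]
    simp
    norm_num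
  · by_cases h3 : 3 ∣ m
    · rw [cE_of_dvd 3 hm h3]
      simp [hm, h3]
      ring
    · rw [cE_of_not_dvd 3 hm h3]
      simp [hm, h3]
      ring

theorem coeff_eisenstein4 (m : ℕ) :
    coeff m ModularCurve.eisenstein4 = if m = 0 then 1 else 240 * ((σ 3 m : ℕ) : ℤ) := by
  rw [ModularCurve.eisenstein4, coeff_mk, ArithmeticFunction.sigma_apply]
  push_cast
  rfl

theorem qExpansion_T3 : qExpansion 1 T3 = ι T3q := by
  rw [T3, FunLike.coe_smul, ModularForm.qExpansion_smul one_pos hΓ3, FunLike.coe_sub,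
    ModularForm.qExpansion_sub one_pos hΓ3, Sturm3.qExpansion_e4, Sturm3.qExpansion_e4']
  ext m
  rw [PowerSeries.coeff_smul, map_sub, coeff_map, coeff_map, coeff_map, coeff_T3q, Sturm3.E',
    Sturm3.E, PowerSeries.coeff_expand, coeff_eisenstein4]
  by_cases hm : m = 0
  · subst hm
    simp [coeff_eisenstein4]
  · by_cases h3 : 3 ∣ m
    · have hm3 : m / 3 ≠ 0 := by
        obtain ⟨k, rfl⟩ := h3
        rw [Nat.mul_div_cancel_left _ (by norm_num : 0 < 3)]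
        rintro rfl
        exact hm rfl
      simp [hm, h3, hm3, coeff_eisenstein4]
      ring
    · simp [hm, h3]

theorem coeff_qExpansion_E6 (m : ℕ) :
    (qExpansion 1 E₆).coeff m = if m = 0 then 1 else -504 * ((σ 5 m : ℕ) : ℂ) := by
  rw [EisensteinSeries.E_qExpansion_coeff (by norm_num) (by decide) m]
  split_ifs with h
  · rfl
  · have hb : bernoulli 6 = 1 / 42 := by decide +kernel
    rw [hb]
    norm_num

theorem qExpansion_U3 : qExpansion 1 U3 = ι U3q := by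
  rw [U3, FunLike.coe_smul, ModularForm.qExpansion_smul one_pos hΓ3, FunLike.coe_sub,
    ModularForm.qExpansion_sub one_pos hΓ3, qExpansion_scaleForm, qExpansion_scaleForm,
    expand_one_apply]
  ext m
  rw [PowerSeries.coeff_smul, map_sub, PowerSeries.coeff_expand, coeff_map, coeff_U3q,
    coeff_qExpansion_E6]
  by_cases hm : m = 0
  · subst hm
    simp [coeff_qExpansion_E6]
  · by_cases h3 : 3 ∣ m
    · have hm3 : m / 3 ≠ 0 := by
        obtain ⟨k, rfl⟩ := h3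
        rw [Nat.mul_div_cancel_left _ (by norm_num : 0 < 3)]
        rintro rfl
        exact hm rfl
      simp [hm, h3, hm3, coeff_qExpansion_E6]
      ring
    · simp [hm, h3, coeff_qExpansion_E6]

/-! ### The integer series `C3q4` -/

/-- `(S 5 - S 3)/4`. -/
def W53 : PowerSeries ℤ :=
  PowerSeries.mk fun n => (((σ 5 n : ℕ) : ℤ) - ((σ 3 n : ℕ) : ℤ)) / 4

theorem S5_sub_S3 : S 5 - S 3 = C (4 : ℤ) * W53 := by
  obtain ⟨W, hW⟩ := exists_S5_sub_S3
  rw [hW]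
  congr 1
  ext n
  have h := congrArg (coeff n) hW
  rw [map_sub, coeff_S, coeff_S, coeff_C_mul] at h
  rw [W53, coeff_mk, h, Int.mul_ediv_cancel_left _ (by norm_num : (4 : ℤ) ≠ 0)]

theorem V_C (d : ℕ) [NeZero d] (a : ℤ) : V d (C a) = C a :=
  PowerSeries.expand_C d (NeZero.ne d) a

/-- `(U3q - A3q * T3q)/4`. -/
def C3q4 : PowerSeries ℤ :=
  W53 - V 3 W53 - C (3 : ℤ) * ((S 1 - C (3 : ℤ) * V 3 (S 1)) * T3q)

theorem C3q4_spec : U3q - A3q * T3q = C (4 : ℤ) * C3q4 := by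
  have h5 : S 5 = S 3 + C (4 : ℤ) * W53 := by rw [← S5_sub_S3]; ring
  have h12 : C (12 : ℤ) = C (4 : ℤ) * C (3 : ℤ) := by rw [← map_mul]; norm_num
  rw [U3q, A3q, C3q4, T3q, h5, map_add, map_mul, V_C, h12]
  ring

theorem sigma_two (k : ℕ) : (σ k 2 : ℕ) = 1 + 2 ^ k := by
  have h2 : Nat.divisors 2 = {1, 2} := by decide
  rw [ArithmeticFunction.sigma_apply, h2]
  simp

theorem coeff_zero_A3q : coeff 0 A3q = 1 := by
  rw [coeff_A3q]; simp

theorem coeff_zero_T3q : coeff 0 T3q = 0 := by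
  rw [coeff_T3q]; simp

theorem coeff_one_T3q : coeff 1 T3q = 1 := by
  rw [coeff_T3q]; simp

theorem coeff_two_T3q : coeff 2 T3q = 9 := by
  rw [coeff_T3q, sigma_two]; norm_num

/-- The series `S 1 - 3 V₃ (S 1) = (A3q - 1)/12`. -/
theorem coeff_aux (m : ℕ) : coeff m (S 1 - C (3 : ℤ) * V 3 (S 1)) =
    ((σ 1 m : ℕ) : ℤ) - 3 * (if 3 ∣ m then ((σ 1 (m / 3) : ℕ) : ℤ) else 0) := by
  rw [map_sub, coeff_C_mul, coeff_V, coeff_S]
  split_ifs <;> simp

theorem coeff_W53 (m : ℕ) : coeff m W53 = (((σ 5 m : ℕ) : ℤ) - ((σ 3 m : ℕ) : ℤ)) / 4 := by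
  rw [W53, coeff_mk]

theorem coeff_aux_zero : coeff 0 (S 1 - C (3 : ℤ) * V 3 (S 1)) = 0 := by
  rw [coeff_aux]; simp

theorem coeff_aux_one : coeff 1 (S 1 - C (3 : ℤ) * V 3 (S 1)) = 1 := by
  rw [coeff_aux]; simp

theorem coeff_zero_C3q4 : coeff 0 C3q4 = 0 := by
  rw [C3q4, map_sub, map_sub, coeff_C_mul, coeff_V, coeff_W53, coeff_mul,
    Finset.Nat.sum_antidiagonal_eq_sum_range_succ_mk, Finset.sum_range_one,
    coeff_aux_zero, coeff_zero_T3q]
  simp

theorem coeff_one_C3q4 : coeff 1 C3q4 = 0 := by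
  rw [C3q4, map_sub, map_sub, coeff_C_mul, coeff_V, coeff_W53, coeff_mul,
    Finset.Nat.sum_antidiagonal_eq_sum_range_succ_mk, Finset.sum_range_succ,
    Finset.sum_range_one, coeff_aux_zero, coeff_zero_T3q]
  simp

theorem coeff_two_C3q4 : coeff 2 C3q4 = 3 := by
  rw [C3q4, map_sub, map_sub, coeff_C_mul, coeff_V, coeff_W53, coeff_mul,
    Finset.Nat.sum_antidiagonal_eq_sum_range_succ_mk, Finset.sum_range_succ,
    Finset.sum_range_succ, Finset.sum_range_one, coeff_aux_zero, coeff_zero_T3q]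
  simp only [Nat.sub_zero, mul_zero, zero_mul, zero_add, add_zero]
  rw [show (2 - 1 : ℕ) = 1 from rfl, coeff_aux_one, coeff_one_T3q, sigma_two, sigma_two]
  norm_num

/-! ### The form `C3` -/

theorem qExpansion_C3 : (3 : ℂ) • qExpansion 1 C3 = ι C3q4 := by
  have h1 : qExpansion 1 (ModularForm.mcast (by norm_num : (2 : ℤ) + 4 = 6) (A3.mul T3)) =
      ι (A3q * T3q) := by
    rw [ModularForm.qExpansion_mcast, ModularForm.qExpansion_mul one_pos hΓ3, qExpansion_A3,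
      qExpansion_T3, map_mul]
  have h2 : ι (U3q - A3q * T3q) = (4 : ℂ) • ι C3q4 := by
    rw [C3q4_spec, map_mul, PowerSeries.smul_eq_C_mul, ι, PowerSeries.map_C]
    simp
  rw [C3, FunLike.coe_smul, ModularForm.qExpansion_smul one_pos hΓ3, FunLike.coe_sub,
    ModularForm.qExpansion_sub one_pos hΓ3, qExpansion_U3]
  erw [h1]
  rw [← map_sub, h2, smul_smul, smul_smul]
  norm_num

/-! ### `A3q ≡ 1 + 4 T3q mod 8` -/

theorem exists_A3q_eq : ∃ W : PowerSeries ℤ, A3q = 1 + C (4 : ℤ) * T3q + C (8 : ℤ) * W := by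
  obtain ⟨W', hW'⟩ := exists_S_sub_S_two 3 1 (by norm_num) (by norm_num)
  have h3 : S 3 = S 1 + C (2 : ℤ) * W' := by rw [← hW']; ring
  refine ⟨S 1 - W' + V 3 W' - C (4 : ℤ) * V 3 (S 1), ?_⟩
  rw [A3q, T3q, h3, map_add, map_mul, V_C]
  simp only [map_ofNat]
  ring

end Fermat.Agent.S16.Aux3Forms
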