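import Mathlib

/-!
# S16, auxiliary-level route: the ring of `ℓ`-integral algebraic numbers

`LInt ℓ : Subring ℂ` is the set of `z` such that `n z` is an algebraic integer for some natural
number `n` prime to `ℓ`.  It contains the algebraic integers (roots of unity), the inverses of the
integers prime to `ℓ`, and `ℓ` is not a unit in it, so there is a maximal ideal containing `ℓ`;
the residue field has characteristic `ℓ`.  (Mathlib only.)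
-/

set_option autoImplicit false

namespace Fermat.Agent.S16.AuxRing

variable (ℓ : ℕ) [hℓ : Fact ℓ.Prime]

/-- The `ℓ`-integral algebraic numbers. -/
def LInt : Subring ℂ where
  carrier := {z | ∃ n : ℕ, ¬ ℓ ∣ n ∧ IsIntegral ℤ ((n : ℂ) * z)}
  mul_mem' := by
    rintro a b ⟨n, hn, ha⟩ ⟨m, hm, hb⟩
    refine ⟨n * m, fun h => ?_, ?_⟩
    · rcases (Nat.Prime.dvd_mul hℓ.out).mp h with h | h
      · exact hn h
      · exact hm h
    · have : ((n * m : ℕ) : ℂ) * (a * b) = ((n : ℂ) * a) * ((m : ℂ) * b) := by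
        push_cast; ring
      rw [this]
      exact ha.mul hb
  one_mem' := ⟨1, fun h => hℓ.out.one_lt.ne' (Nat.dvd_one.mp h), by simpa using isIntegral_one⟩
  add_mem' := by
    rintro a b ⟨n, hn, ha⟩ ⟨m, hm, hb⟩
    refine ⟨n * m, fun h => ?_, ?_⟩
    · rcases (Nat.Prime.dvd_mul hℓ.out).mp h with h | h
      · exact hn h
      · exact hm h
    · have : ((n * m : ℕ) : ℂ) * (a + b) = (m : ℂ) * ((n : ℂ) * a) + (n : ℂ) * ((m : ℂ) * b) := by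
        push_cast; ring
      rw [this]
      have hm' : IsIntegral ℤ ((m : ℂ)) := by
        simpa using (isIntegral_algebraMap (R := ℤ) (A := ℂ) (x := (m : ℤ)))
      have hn' : IsIntegral ℤ ((n : ℂ)) := by
        simpa using (isIntegral_algebraMap (R := ℤ) (A := ℂ) (x := (n : ℤ)))
      exact (hm'.mul ha).add (hn'.mul hb)
  zero_mem' := ⟨1, fun h => hℓ.out.one_lt.ne' (Nat.dvd_one.mp h), by simpa using isIntegral_zero⟩
  neg_mem' := by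
    rintro a ⟨n, hn, ha⟩
    refine ⟨n, hn, ?_⟩
    rw [mul_neg]
    exact ha.neg

theorem mem_LInt {z : ℂ} : z ∈ LInt ℓ ↔ ∃ n : ℕ, ¬ ℓ ∣ n ∧ IsIntegral ℤ ((n : ℂ) * z) := Iff.rfl

theorem mem_of_isIntegral {z : ℂ} (hz : IsIntegral ℤ z) : z ∈ LInt ℓ :=
  ⟨1, fun h => hℓ.out.one_lt.ne' (Nat.dvd_one.mp h), by simpa using hz⟩

theorem natCast_inv_mem {n : ℕ} (hn : ¬ ℓ ∣ n) : ((n : ℂ))⁻¹ ∈ LInt ℓ := by
  have hn0 : (n : ℂ) ≠ 0 := by
    rintro h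
    have : n = 0 := by exact_mod_cast h
    exact hn (this ▸ dvd_zero ℓ)
  exact ⟨n, hn, by rw [mul_inv_cancel₀ hn0]; exact isIntegral_one⟩

theorem mem_of_pow_eq_one {z : ℂ} {n : ℕ} (hn : 0 < n) (hz : z ^ n = 1) : z ∈ LInt ℓ :=
  mem_of_isIntegral ℓ (IsIntegral.of_pow hn (hz ▸ isIntegral_one))

/-- A rational number with denominator prime to `ℓ`, given as `z * b = a`. -/
theorem mem_of_mul_eq {z : ℂ} {a b : ℤ} (hb : ¬ (ℓ : ℤ) ∣ b) (h : z * (b : ℂ) = (a : ℂ)) :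
    z ∈ LInt ℓ := by
  refine ⟨b.natAbs, fun hd => hb (Int.natCast_dvd.mpr hd), ?_⟩
  have hcast : ((b.natAbs : ℕ) : ℂ) = ((|b| : ℤ) : ℂ) := by
    rw [← Int.natCast_natAbs]; push_cast; simp
  rw [hcast]
  rcases abs_choice b with hab | hab
  · rw [hab, mul_comm, h]
    exact isIntegral_algebraMap (R := ℤ) (x := a)
  · rw [hab]
    push_cast
    rw [neg_mul, mul_comm, h]
    exact (isIntegral_algebraMap (R := ℤ) (x := a)).neg

/-- `ℓ` is not a unit of `LInt ℓ`. -/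
theorem inv_not_mem : ((ℓ : ℂ))⁻¹ ∉ LInt ℓ := by
  rintro ⟨n, hn, hint⟩
  have h1 : IsIntegral ℤ (algebraMap ℚ ℂ ((n : ℚ) * (ℓ : ℚ)⁻¹)) := by
    have : algebraMap ℚ ℂ ((n : ℚ) * (ℓ : ℚ)⁻¹) = (n : ℂ) * ((ℓ : ℂ))⁻¹ := by simp
    rw [this]; exact hint
  have h2 : IsIntegral ℤ ((n : ℚ) * (ℓ : ℚ)⁻¹) :=
    (isIntegral_algebraMap_iff (algebraMap ℚ ℂ).injective).1 h1
  obtain ⟨k, hk⟩ := IsIntegrallyClosed.isIntegral_iff.1 h2
  have hℓ0 : (ℓ : ℚ) ≠ 0 := by exact_mod_cast hℓ.out.ne_zero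
  have hk' : (n : ℚ) = (k : ℚ) * (ℓ : ℚ) := by
    have : (algebraMap ℤ ℚ k) = (k : ℚ) := rfl
    rw [this] at hk
    rw [hk]; field_simp
  have hk'' : (n : ℤ) = k * (ℓ : ℤ) := by exact_mod_cast hk'
  exact hn (Int.natCast_dvd_natCast.mp ⟨k, by rw [hk'']; ring⟩)

/-- `ℓ` as an element of `LInt ℓ`. -/
def ell : LInt ℓ := ⟨(ℓ : ℂ), mem_of_isIntegral ℓ (by exact_mod_cast isIntegral_algebraMap (R := ℤ) (x := (ℓ : ℤ)))⟩

theorem natCast_eq (n : ℕ) : ((n : LInt ℓ) : ℂ) = (n : ℂ) := by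
  simp

theorem ell_eq : (ell ℓ : LInt ℓ) = (ℓ : LInt ℓ) := by
  apply Subtype.ext
  simp [ell]

theorem not_isUnit_ell : ¬ IsUnit ((ℓ : LInt ℓ)) := by
  rintro ⟨u, hu⟩
  apply inv_not_mem ℓ
  have h1 : ((u⁻¹ : (LInt ℓ)ˣ) : LInt ℓ) * (ℓ : LInt ℓ) = 1 := by
    rw [← hu]; exact u.inv_mul
  have h2 : (((u⁻¹ : (LInt ℓ)ˣ) : LInt ℓ) : ℂ) * (ℓ : ℂ) = 1 := by
    have := congrArg (Subtype.val) h1
    simpa using this
  have hℓ0 : (ℓ : ℂ) ≠ 0 := by exact_mod_cast hℓ.out.ne_zero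
  have h3 : ((ℓ : ℂ))⁻¹ = (((u⁻¹ : (LInt ℓ)ˣ) : LInt ℓ) : ℂ) := by
    exact (eq_inv_of_mul_eq_one_left h2).symm
  rw [h3]
  exact Subtype.mem _

/-- A maximal ideal of `LInt ℓ` containing `ℓ`. -/
theorem exists_maximal : ∃ 𝔪 : Ideal (LInt ℓ), 𝔪.IsMaximal ∧ (ℓ : LInt ℓ) ∈ 𝔪 := by
  have hne : Ideal.span {(ℓ : LInt ℓ)} ≠ ⊤ := by
    rw [Ne, Ideal.span_singleton_eq_top]
    exact not_isUnit_ell ℓ
  obtain ⟨𝔪, hmax, hle⟩ := Ideal.exists_le_maximal _ hne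
  exact ⟨𝔪, hmax, hle (Ideal.subset_span (Set.mem_singleton _))⟩

end Fermat.Agent.S16.AuxRing
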