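import Mathlib
import Fermat.Prelude.Thm_ModularForm_sturm_bound_Gamma0
import Fermat.Prelude.Thm_CongruenceSubgroup_one_mem_strictPeriods_Gamma0

/-!
# S16, auxiliary-level route: structure theorem by Sturm bound + triangular elimination

Let `R` be a subring of `ℂ`.  If on `Γ₀(N)`, weight `k`, we have forms `m j` (`j ≤ d`, `d` the Sturm
bound) whose `q`-expansions lie in `R⟦q⟧`, vanish below `qʲ` and have coefficient `1` at `qʲ`,
then every form of weight `k` with `q`-expansion in `R⟦q⟧` is an `R`-linear combination of the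
`m j` (on the level of `q`-expansions).
-/

set_option autoImplicit false

open UpperHalfPlane ModularFormClass ModularForm CongruenceSubgroup PowerSeries
open scoped MatrixGroups

noncomputable section

namespace Fermat.Agent.S16.AuxStruct

/-- `Γ₀(N)` as a subgroup of `GL(2, ℝ)`. -/
abbrev G0 (N : ℕ) : Subgroup (GL (Fin 2) ℝ) :=
  ((Gamma0 N : Subgroup SL(2, ℤ)) : Subgroup (GL (Fin 2) ℝ))

theorem one_mem_strictPeriods (N : ℕ) : (1 : ℝ) ∈ (G0 N).strictPeriods :=
  CongruenceSubgroup.one_mem_strictPeriods_Gamma0 N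

/-- The coefficient embedding `R⟦X⟧ → ℂ⟦X⟧`. -/
abbrev ιR (R : Subring ℂ) : PowerSeries R →+* PowerSeries ℂ := PowerSeries.map R.subtype

theorem ιR_injective (R : Subring ℂ) : Function.Injective (ιR R) := by
  intro a b h
  ext n
  have := congrArg (coeff n) h
  simpa [ιR] using this

theorem smul_ιR (R : Subring ℂ) (r : R) (f : PowerSeries R) :
    ((r : ℂ) • ιR R f) = ιR R (C r * f) := by
  rw [map_mul, ιR, PowerSeries.map_C, PowerSeries.smul_eq_C_mul]
  rfl

section combinators

variable {N : ℕ} {R : Subring ℂ} {k l : ℤ}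

theorem qe_mul {f : ModularForm (G0 N) k} {g : ModularForm (G0 N) l} {a b : PowerSeries R}
    (hf : qExpansion 1 f = ιR R a) (hg : qExpansion 1 g = ιR R b) :
    qExpansion 1 (f.mul g) = ιR R (a * b) := by
  rw [ModularForm.qExpansion_mul one_pos (one_mem_strictPeriods N), hf, hg, map_mul]

theorem qe_mcast {k' : ℤ} (h : k = k') {f : ModularForm (G0 N) k} {a : PowerSeries R}
    (hf : qExpansion 1 f = ιR R a) :
    qExpansion 1 (mcast h f : ModularForm (G0 N) k') = ιR R a := by
  rw [ModularForm.qExpansion_mcast, hf]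

theorem qe_smul (r : R) {f : ModularForm (G0 N) k} {a : PowerSeries R}
    (hf : qExpansion 1 f = ιR R a) :
    qExpansion 1 (((r : ℂ) • f : ModularForm (G0 N) k)) = ιR R (C r * a) := by
  rw [FunLike.coe_smul, ModularForm.qExpansion_smul one_pos (one_mem_strictPeriods N), hf,
    smul_ιR]

theorem qe_sub {f g : ModularForm (G0 N) k} {a b : PowerSeries R}
    (hf : qExpansion 1 f = ιR R a) (hg : qExpansion 1 g = ιR R b) :
    qExpansion 1 ((f - g : ModularForm (G0 N) k)) = ιR R (a - b) := by
  rw [FunLike.coe_sub, ModularForm.qExpansion_sub one_pos (one_mem_strictPeriods N), hf, hg,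
    map_sub]

theorem qe_one : qExpansion 1 (1 : ModularForm (G0 N) 0) = ιR R 1 := by
  rw [map_one]
  exact ModularForm.qExpansion_one

/-- Monomials: powers of a form, on the level of existence + `q`-expansion. -/
theorem exists_pow {f : ModularForm (G0 N) k} {a : PowerSeries R}
    (hf : qExpansion 1 f = ιR R a) (n : ℕ) :
    ∃ g : ModularForm (G0 N) (n * k), qExpansion 1 g = ιR R (a ^ n) := by
  induction n with
  | zero =>
    refine ⟨mcast (by simp) (1 : ModularForm (G0 N) 0), ?_⟩
    rw [pow_zero]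
    exact qe_mcast _ qe_one
  | succ n ih =>
    obtain ⟨g, hg⟩ := ih
    refine ⟨mcast (by push_cast; ring) (g.mul f), ?_⟩
    rw [pow_succ]
    exact qe_mcast _ (qe_mul hg hf)

end combinators

/-- **Triangular elimination + Sturm.** -/
theorem exists_coeffs {N : ℕ} (R : Subring ℂ) {k : ℤ} (d : ℕ)
    (hSturm : ∀ f : ModularForm (G0 N) k,
      (∀ n ≤ d, (qExpansion 1 f).coeff n = 0) → f = 0)
    (m : ℕ → ModularForm (G0 N) k) (μ : ℕ → PowerSeries R)
    (hm : ∀ j ≤ d, qExpansion 1 (m j) = ιR R (μ j))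
    (hμ0 : ∀ j ≤ d, ∀ n < j, coeff n (μ j) = 0)
    (hμ1 : ∀ j ≤ d, coeff j (μ j) = 1)
    (G : ModularForm (G0 N) k) (γ : PowerSeries R) (hG : qExpansion 1 G = ιR R γ) :
    ∃ c : ℕ → R, γ = ∑ j ∈ Finset.range (d + 1), C (c j) * μ j := by
  -- the inductive claim
  have key : ∀ i ≤ d + 1, ∃ (c : ℕ → R) (H : ModularForm (G0 N) k),
      qExpansion 1 H = ιR R (γ - ∑ j ∈ Finset.range i, C (c j) * μ j) ∧
      ∀ n < i, coeff n (γ - ∑ j ∈ Finset.range i, C (c j) * μ j) = 0 := by
    intro i
    induction i with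
    | zero =>
      intro _
      exact ⟨fun _ => 0, G, by simpa using hG, fun n hn => absurd hn (Nat.not_lt_zero n)⟩
    | succ i ih =>
      intro hi
      obtain ⟨c, H, hH, hvan⟩ := ih (by omega)
      have hid : i ≤ d := by omega
      set ρ : PowerSeries R := γ - ∑ j ∈ Finset.range i, C (c j) * μ j with hρ
      set r : R := coeff i ρ with hr
      have hsum : ∑ j ∈ Finset.range (i + 1), C (Function.update c i r j) * μ j
          = ∑ j ∈ Finset.range i, C (c j) * μ j + C r * μ i := by
        rw [Finset.sum_range_succ, Function.update_self]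
        congr 1
        refine Finset.sum_congr rfl fun j hj => ?_
        rw [Function.update_of_ne (Finset.mem_range.mp hj).ne]
      have hρ' : γ - ∑ j ∈ Finset.range (i + 1), C (Function.update c i r j) * μ j
          = ρ - C r * μ i := by
        rw [hsum, hρ]; ring
      refine ⟨Function.update c i r, H - (r : ℂ) • m i, ?_, ?_⟩
      · rw [hρ']
        exact qe_sub hH (qe_smul r (hm i hid))
      · intro n hn
        rw [hρ', map_sub, coeff_C_mul]
        rcases Nat.lt_succ_iff_lt_or_eq.mp hn with hlt | rfl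
        · rw [hvan n hlt, hμ0 i hid n hlt, mul_zero, sub_zero]
        · rw [hμ1 n hid, mul_one, hr, sub_self]
  obtain ⟨c, H, hH, hvan⟩ := key (d + 1) le_rfl
  refine ⟨c, ?_⟩
  have hH0 : H = 0 := by
    apply hSturm
    intro n hn
    rw [hH, ιR, coeff_map, hvan n (by omega), map_zero]
  have : ιR R (γ - ∑ j ∈ Finset.range (d + 1), C (c j) * μ j) = 0 := by
    rw [← hH, hH0]
    exact qExpansion_zero 1
  have h0 := ιR_injective R (this.trans (map_zero _).symm)
  exact sub_eq_zero.mp h0

end Fermat.Agent.S16.AuxStruct
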