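import Mathlib
import Fermat.Agent.S16.AuxStruct

/-!
# S16, auxiliary-level route: generic end-game lemmas

* `descend`: a power series `ν ∈ ℂ⟦q⟧` with `ν(v^p) ∈ R⟦v⟧` has coefficients in `R`.
* `expand_injective`.
* `aeval_injective`: a power series `t = q + …` over a domain is transcendental over the
  coefficient ring, in the strong form "`P ↦ P(t)` is injective".
-/

set_option autoImplicit false

open PowerSeries

noncomputable section

namespace Fermat.Agent.S16.AuxEnd

open Fermat.Agent.S16.AuxStruct

theorem expand_injective {S : Type*} [CommRing S] (p : ℕ) (hp : p ≠ 0) :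
    Function.Injective (PowerSeries.expand p hp : PowerSeries S → PowerSeries S) := by
  intro a b h
  ext n
  have := congrArg (coeff (p * n)) h
  rwa [coeff_expand_mul, coeff_expand_mul] at this

/-- Descent of coefficients along `q = v^p`. -/
theorem descend (R : Subring ℂ) (p : ℕ) (hp : p ≠ 0) (ν : PowerSeries ℂ) (Pi0 : PowerSeries R)
    (h : PowerSeries.expand p hp ν = ιR R Pi0) :
    ∃ νR : PowerSeries R, ν = ιR R νR ∧ PowerSeries.expand p hp νR = Pi0 := by
  refine ⟨PowerSeries.mk fun n => coeff (p * n) Pi0, ?_, ?_⟩
  · ext n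
    rw [ιR, coeff_map, coeff_mk]
    have := congrArg (coeff (p * n)) h
    rw [coeff_expand_mul, ιR, coeff_map] at this
    exact this
  · ext m
    rw [coeff_expand]
    split_ifs with hd
    · obtain ⟨q, rfl⟩ := hd
      rw [Nat.mul_div_cancel_left _ (Nat.pos_of_ne_zero hp), coeff_mk]
    · have := congrArg (coeff m) h
      rw [coeff_expand_of_not_dvd p hp _ hd, ιR, coeff_map] at this
      simpa using this

section transcendence

variable {κ : Type*} [CommRing κ]

theorem coeff_aeval_natTrailingDegree (t : PowerSeries κ) (h0 : coeff 0 t = 0)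
    (h1 : coeff 1 t = 1) (P : Polynomial κ) :
    coeff P.natTrailingDegree (Polynomial.aeval t P) = P.trailingCoeff := by
  have hX : (X : PowerSeries κ) ∣ t := by
    rw [X_dvd_iff]; simpa using h0
  obtain ⟨u, hu⟩ := hX
  have hu0 : coeff 0 u = 1 := by
    have := h1
    rw [hu, show (1 : ℕ) = 0 + 1 from rfl, coeff_succ_X_mul] at this
    exact this
  have hupow : ∀ i : ℕ, coeff 0 (u ^ i) = 1 := by
    intro i
    have h : constantCoeff (u ^ i) = 1 := by
      rw [map_pow]
      have : constantCoeff u = 1 := by simpa using hu0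
      rw [this, one_pow]
    simpa using h
  set m := P.natTrailingDegree with hm
  rw [Polynomial.aeval_eq_sum_range, map_sum]
  rw [Finset.sum_eq_single m]
  · rw [PowerSeries.coeff_smul, hu, mul_pow, coeff_X_pow_mul', if_pos le_rfl, Nat.sub_self,
      hupow, smul_eq_mul, mul_one]
    rfl
  · intro i _ hi
    rw [PowerSeries.coeff_smul]
    rcases lt_or_gt_of_ne hi with hlt | hgt
    · rw [Polynomial.coeff_eq_zero_of_lt_natTrailingDegree hlt, smul_eq_mul, zero_mul]
    · rw [hu, mul_pow, coeff_X_pow_mul', if_neg (by omega), smul_eq_mul, mul_zero]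
  · intro hnot
    exact absurd (Finset.mem_range.mpr (Nat.lt_succ_of_le
      (Polynomial.natTrailingDegree_le_natDegree P))) hnot

/-- `P ↦ P(t)` is injective for `t = q + …`. -/
theorem aeval_injective (t : PowerSeries κ) (h0 : coeff 0 t = 0) (h1 : coeff 1 t = 1) :
    Function.Injective (Polynomial.aeval t : Polynomial κ → PowerSeries κ) := by
  rw [injective_iff_map_eq_zero]
  intro P hP
  by_contra hne
  have := coeff_aeval_natTrailingDegree t h0 h1 P
  rw [hP, map_zero] at this
  exact (Polynomial.trailingCoeff_nonzero_iff_nonzero.mpr hne) this.symm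

end transcendence

end Fermat.Agent.S16.AuxEnd
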