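import Mathlib

/-!
# S16, auxiliary-level route: homogenised evaluation of `∏ (1 + aᵢ X)`

For `P = ∏_{i ∈ s} (1 + aᵢ X)` over a commutative ring, the homogenised alternating evaluation
`∑_m (-1)^m P_m y^(n-m)` (`n = |s|`) equals `∏ (y - aᵢ)`.  Pure algebra (Mathlib only).
-/

set_option autoImplicit false

open Polynomial

namespace Fermat.Agent.S16.AuxHom

variable {S : Type*} [CommRing S]

/-- `∑_{i+j=n} (-1)^i P_i y^j`. -/
def homEval (P : S[X]) (n : ℕ) (y : S) : S :=
  ∑ ij ∈ Finset.HasAntidiagonal.antidiagonal n, (-1) ^ ij.1 * P.coeff ij.1 * y ^ ij.2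

theorem homEval_eq_sum_range (P : S[X]) (n : ℕ) (y : S) :
    homEval P n y = ∑ m ∈ Finset.range (n + 1), (-1) ^ m * P.coeff m * y ^ (n - m) := by
  rw [homEval, Finset.Nat.sum_antidiagonal_eq_sum_range_succ_mk]

theorem homEval_one (y : S) : homEval (1 : S[X]) 0 y = 1 := by
  simp [homEval]

theorem coeff_linear_mul_zero (a : S) (P : S[X]) :
    ((1 + C a * X) * P).coeff 0 = P.coeff 0 := by
  rw [add_mul, one_mul, coeff_add, mul_assoc, coeff_C_mul, coeff_X_mul_zero, mul_zero, add_zero]

theorem coeff_linear_mul_succ (a : S) (P : S[X]) (m : ℕ) :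
    ((1 + C a * X) * P).coeff (m + 1) = P.coeff (m + 1) + a * P.coeff m := by
  rw [add_mul, one_mul, coeff_add, mul_assoc, coeff_C_mul, coeff_X_mul]

theorem homEval_linear_mul (P : S[X]) (n : ℕ) (hP : P.natDegree ≤ n) (a y : S) :
    homEval ((1 + C a * X) * P) (n + 1) y = (y - a) * homEval P n y := by
  have h1 : homEval ((1 + C a * X) * P) (n + 1) y
      = P.coeff 0 * y ^ (n + 1)
        + ∑ ij ∈ Finset.HasAntidiagonal.antidiagonal n,
            (-1) ^ (ij.1 + 1) * (P.coeff (ij.1 + 1) + a * P.coeff ij.1) * y ^ ij.2 := by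
    rw [homEval, Finset.Nat.sum_antidiagonal_succ]
    simp only [pow_zero, one_mul, coeff_linear_mul_zero, coeff_linear_mul_succ]
  have h2 : y * homEval P n y
      = P.coeff 0 * y ^ (n + 1)
        + ∑ ij ∈ Finset.HasAntidiagonal.antidiagonal n, (-1) ^ (ij.1 + 1) * P.coeff (ij.1 + 1) * y ^ ij.2 := by
    have h3 : homEval P (n + 1) y = P.coeff 0 * y ^ (n + 1)
        + ∑ ij ∈ Finset.HasAntidiagonal.antidiagonal n, (-1) ^ (ij.1 + 1) * P.coeff (ij.1 + 1) * y ^ ij.2 := by
      rw [homEval, Finset.Nat.sum_antidiagonal_succ]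
      simp only [pow_zero, one_mul]
    have h4 : homEval P (n + 1) y = y * homEval P n y := by
      rw [homEval, Finset.Nat.sum_antidiagonal_succ', homEval, Finset.mul_sum]
      have hz : P.coeff (n + 1) = 0 := coeff_eq_zero_of_natDegree_lt (by omega)
      simp only [hz, mul_zero, zero_mul, zero_add]
      refine Finset.sum_congr rfl fun ij _ => ?_
      ring
    rw [← h4, h3]
  rw [h1, sub_mul, h2, homEval, Finset.mul_sum, add_sub_assoc, ← Finset.sum_sub_distrib]
  congr 1
  refine Finset.sum_congr rfl fun ij _ => ?_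
  ring

theorem natDegree_prod_linear_le {ι : Type*} (s : Finset ι) (a : ι → S) :
    (∏ i ∈ s, (1 + C (a i) * X)).natDegree ≤ s.card := by
  refine (natDegree_prod_le _ _).trans ?_
  rw [Finset.card_eq_sum_ones]
  refine Finset.sum_le_sum fun i _ => ?_
  refine (natDegree_add_le _ _).trans ?_
  rw [natDegree_one]
  exact max_le (Nat.zero_le _) ((natDegree_C_mul_le _ _).trans natDegree_X_le)

/-- **Homogenised Vieta**. -/
theorem homEval_prod_linear {ι : Type*} [DecidableEq ι] (s : Finset ι) (a : ι → S) (y : S) :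
    homEval (∏ i ∈ s, (1 + C (a i) * X)) s.card y = ∏ i ∈ s, (y - a i) := by
  induction s using Finset.induction_on with
  | empty => simp [homEval_one]
  | insert i s hi ih =>
    rw [Finset.prod_insert hi, Finset.prod_insert hi, Finset.card_insert_of_notMem hi,
      homEval_linear_mul _ _ (natDegree_prod_linear_le s a), ih]

/-- The shape used for the conjugates: one distinguished factor and `p` others. -/
theorem homEval_linear_mul_prod (a0 : S) (p : ℕ) (a : ℕ → S) (y : S) :
    homEval ((1 + C a0 * X) * ∏ b ∈ Finset.range p, (1 + C (a b) * X)) (p + 1) y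
      = (y - a0) * ∏ b ∈ Finset.range p, (y - a b) := by
  have h := natDegree_prod_linear_le (Finset.range p) a
  rw [Finset.card_range] at h
  rw [homEval_linear_mul _ _ h]
  have h2 := homEval_prod_linear (Finset.range p) a y
  rw [Finset.card_range] at h2
  rw [h2]

end Fermat.Agent.S16.AuxHom
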