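import Mathlib
import Fermat.Agent.S16.NormLevelOne
import Fermat.Agent.S16.AuxStruct
import Fermat.Agent.S16.AuxHom

/-!
# S16, auxiliary-level route: the norm form `N_c = ∏ (c·A - F_i)` on `Γ₀(M)`

`F : ModularForm Γ₀(p) 2` (`p` prime), `A : ModularForm Γ₀(M) 2`, `c : ℂ`.  The product of
`c·A - F_i` over the `p + 1` `SL(2,ℤ)`-conjugates `F_i` of `F` equals
`∑_m (-1)^m e_m (cA)^(p+1-m)` with `e_m` the level-one symmetric functions of the conjugates
(`NormLevelOne.esymmForm`), hence is a modular form of weight `2(p+1)` on `Γ₀(M)`.  Its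
`q`-expansion `ν` satisfies, in `ℂ⟦v⟧` (`v = q^(1/p)`),
`ν(v^p) = (c·α(v^p) - a(v^p)) ∏_b (c·α(v^p) - g(ζ^b v))`.
-/

set_option autoImplicit false

open UpperHalfPlane ModularFormClass ModularForm CongruenceSubgroup PowerSeries
open scoped MatrixGroups

noncomputable section

namespace Fermat.Agent.S16.AuxNorm

open Fermat.Agent.S16.AuxStruct Fermat.Agent.S16.NormLevelOne Fermat.Agent.S16.AuxHom

theorem G0_le_SL (M : ℕ) : G0 M ≤ 𝒮ℒ := Subgroup.map_le_range _ _

/-- Restriction of a level-one form to `Γ₀(M)`. -/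
def restrictSL (M : ℕ) {k : ℤ} (g : ModularForm 𝒮ℒ k) : ModularForm (G0 M) k where
  toFun := g
  slash_action_eq' A hA := g.slash_action_eq' A (G0_le_SL M hA)
  holo' := g.holo'
  bdd_at_cusps' hc := g.bdd_at_cusps' (hc.mono (G0_le_SL M))

@[simp] theorem coe_restrictSL (M : ℕ) {k : ℤ} (g : ModularForm 𝒮ℒ k) :
    (restrictSL M g : ℍ → ℂ) = g := rfl

theorem qExpansion_restrictSL (M : ℕ) {k : ℤ} (g : ModularForm 𝒮ℒ k) :
    qExpansion 1 (restrictSL M g) = qExpansion 1 g := rfl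

section sums

variable {M : ℕ} {k : ℤ}

theorem exists_sum (s : Finset ℕ) (σ : ℕ → PowerSeries ℂ)
    (h : ∀ m ∈ s, ∃ f : ModularForm (G0 M) k, qExpansion 1 f = σ m) :
    ∃ f : ModularForm (G0 M) k, qExpansion 1 f = ∑ m ∈ s, σ m := by
  classical
  induction s using Finset.induction_on with
  | empty => exact ⟨0, by simpa using qExpansion_zero 1⟩
  | insert i s hi ih =>
    obtain ⟨f1, hf1⟩ := h i (Finset.mem_insert_self i s)
    obtain ⟨f2, hf2⟩ := ih fun m hm => h m (Finset.mem_insert_of_mem hm)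
    refine ⟨f1 + f2, ?_⟩
    rw [Finset.sum_insert hi, FunLike.coe_add,
      ModularForm.qExpansion_add one_pos (one_mem_strictPeriods M), hf1, hf2]

end sums

variable (p : ℕ) [hp : Fact p.Prime]

/-- The norm form, on the level of existence + `q`-expansion. -/
theorem exists_auxNorm (M : ℕ) (F : ModularForm (G0 p) 2) (A : ModularForm (G0 M) 2) (c : ℂ) :
    ∃ Nc : ModularForm (G0 M) (2 * ((p + 1 : ℕ) : ℤ)),
      qExpansion 1 Nc = ∑ m ∈ Finset.range (p + 1 + 1),
        (-1) ^ m * qExpansion 1 (esymmForm p F m) * (c • qExpansion 1 A) ^ (p + 1 - m) := by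
  apply exists_sum
  intro m hm
  have hm' : m ≤ p + 1 := Nat.lt_succ_iff.mp (Finset.mem_range.mp hm)
  have hw : (2 : ℤ) * (m : ℤ) + ((p + 1 - m : ℕ) : ℤ) * 2 = 2 * ((p + 1 : ℕ) : ℤ) := by
    have : ((p + 1 - m : ℕ) : ℤ) = ((p + 1 : ℕ) : ℤ) - (m : ℤ) := by omega
    rw [this]; ring
  refine ⟨((-1 : ℂ) ^ m) • mcast hw ((restrictSL M (esymmForm p F m)).mul ((c • A).pow (p + 1 - m))), ?_⟩
  rw [FunLike.coe_smul, ModularForm.qExpansion_smul one_pos (one_mem_strictPeriods M),
    ModularForm.qExpansion_mcast, ModularForm.qExpansion_mul one_pos (one_mem_strictPeriods M),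
    ModularForm.qExpansion_pow one_pos (one_mem_strictPeriods M), qExpansion_restrictSL,
    FunLike.coe_smul, ModularForm.qExpansion_smul one_pos (one_mem_strictPeriods M)]
  rw [PowerSeries.smul_eq_C_mul, map_pow, map_neg, map_one]
  ring

/-- **The expansion of the norm form** in `v = q^(1/p)`. -/
theorem exists_auxNorm_expand (M : ℕ) (F : ModularForm (G0 p) 2) (A : ModularForm (G0 M) 2)
    (c : ℂ) :
    ∃ Nc : ModularForm (G0 M) (2 * ((p + 1 : ℕ) : ℤ)),
      PowerSeries.expand p hp.out.ne_zero (qExpansion 1 Nc) =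
        (c • PowerSeries.expand p hp.out.ne_zero (qExpansion 1 A)
            - PowerSeries.expand p hp.out.ne_zero (qExpansion 1 F)) *
          ∏ b ∈ Finset.range p,
            (c • PowerSeries.expand p hp.out.ne_zero (qExpansion 1 A)
              - PowerSeries.rescale (zeta p ^ b)
                  (qExpansion (p : ℝ) ((F : ℍ → ℂ) ∣[(2 : ℤ)] ModularGroup.S))) := by
  obtain ⟨Nc, hNc⟩ := exists_auxNorm p M F A c
  refine ⟨Nc, ?_⟩
  rw [hNc, map_sum]
  have h1 := homEval_linear_mul_prod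
    (PowerSeries.expand p hp.out.ne_zero (qExpansion (1 : ℝ) (F : ℍ → ℂ))) p
    (fun b => PowerSeries.rescale (zeta p ^ b)
      (qExpansion (p : ℝ) ((F : ℍ → ℂ) ∣[(2 : ℤ)] ModularGroup.S)))
    (c • PowerSeries.expand p hp.out.ne_zero (qExpansion 1 A))
  rw [← symSeries_eq p F, homEval_eq_sum_range] at h1
  rw [← h1]
  refine Finset.sum_congr rfl fun m _ => ?_
  rw [coeff_symSeries, map_mul, map_mul, map_pow, map_pow, map_neg, map_one]
  congr 2
  rw [PowerSeries.smul_eq_C_mul, PowerSeries.smul_eq_C_mul, map_mul]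
  congr 1
  exact PowerSeries.expand_C p hp.out.ne_zero c

end Fermat.Agent.S16.AuxNorm
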