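import Mathlib
import Fermat.Agent.S16.AuxStruct
import Fermat.Agent.S24.Degree
import Fermat.Agent.S28.ModPolyCoset

/-!
# S16, auxiliary-level route: the structure theorems on `Γ₀(3)` and `Γ₀(2)`

* level `3`: forms `A` (wt 2, `1 + …`), `T` (wt 4, `q + …`), `Cf` (wt 6, `q² + …`) with `q`-expansions
  in `R⟦q⟧`: every form of weight `2w` with `q`-expansion in `R⟦q⟧` is an `R`-combination of the
  monomials `A^x T^b Cf^g` (`b = j % 2`, `g = j / 2`, `j ≤ 2w/3`); modulo an ideal `𝔪` with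
  `A ≡ 1` it is a polynomial of degree `≤ 2w/3` in `T mod 𝔪` (using `T² = A · Cf`).
* level `2`: forms `A` (wt 2, `1 + …`), `B` (wt 4, `q + …`): combination of `A^(w-2j) B^j`,
  `j ≤ w/2`; modulo `𝔪` with `A ≡ 1`: polynomial of degree `≤ w/2` in `B mod 𝔪`.
-/

set_option autoImplicit false

open UpperHalfPlane ModularFormClass ModularForm CongruenceSubgroup PowerSeries
open scoped MatrixGroups

noncomputable section

namespace Fermat.Agent.S16.AuxStruct

theorem index_Gamma0_prime (p : ℕ) [Fact p.Prime] : (Gamma0 p).index = p + 1 := by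
  have hp : p.Prime := Fact.out
  have : NeZero p := ⟨hp.ne_zero⟩
  rw [Fermat.Agent.S24.Degree.index_Gamma0, Fermat.Agent.S28.ModPolyCoset.dedekindPsi_prime hp]

/-- Sturm bound on `Γ₀(3)` in weight `2w`. -/
theorem sturm3 (w : ℕ) (f : ModularForm (G0 3) (2 * (w : ℤ)))
    (h : ∀ n ≤ 2 * w / 3, (qExpansion 1 f).coeff n = 0) : f = 0 := by
  haveI : Fact (Nat.Prime 3) := ⟨Nat.prime_three⟩
  apply ModularForm.sturm_bound_Gamma0 3
  intro n hn
  apply h
  rw [index_Gamma0_prime 3] at hn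
  have h1 : ((2 * (w : ℤ)) * ((3 + 1 : ℕ) : ℤ)).toNat = 8 * w := by
    push_cast
    omega
  rw [h1] at hn
  omega

/-- Sturm bound on `Γ₀(2)` in weight `2w`. -/
theorem sturm2 (w : ℕ) (f : ModularForm (G0 2) (2 * (w : ℤ)))
    (h : ∀ n ≤ w / 2, (qExpansion 1 f).coeff n = 0) : f = 0 := by
  haveI : Fact (Nat.Prime 2) := ⟨Nat.prime_two⟩
  apply ModularForm.sturm_bound_Gamma0 2
  intro n hn
  apply h
  rw [index_Gamma0_prime 2] at hn
  have h1 : ((2 * (w : ℤ)) * ((2 + 1 : ℕ) : ℤ)).toNat = 6 * w := by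
    push_cast
    omega
  rw [h1] at hn
  omega

section leading

variable {S : Type*} [CommRing S]

/-- Leading-term bookkeeping: `X^j * u` with `u(0) = 1`. -/
theorem coeff_X_pow_mul_lt (j : ℕ) (u : PowerSeries S) {n : ℕ} (hn : n < j) :
    coeff n (X ^ j * u) = 0 := by
  rw [coeff_X_pow_mul', if_neg (by omega)]

theorem coeff_X_pow_mul_self (j : ℕ) (u : PowerSeries S) (hu : coeff 0 u = 1) :
    coeff j (X ^ j * u) = 1 := by
  rw [coeff_X_pow_mul', if_pos le_rfl, Nat.sub_self, hu]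

theorem exists_eq_X_mul {t : PowerSeries S} (ht0 : coeff 0 t = 0) (ht1 : coeff 1 t = 1) :
    ∃ t' : PowerSeries S, t = X * t' ∧ coeff 0 t' = 1 := by
  have h : (X : PowerSeries S) ∣ t := by
    rw [X_dvd_iff]
    simpa using ht0
  obtain ⟨t', ht'⟩ := h
  refine ⟨t', ht', ?_⟩
  have := ht1
  rw [ht', show (1 : ℕ) = 0 + 1 from rfl, coeff_succ_X_mul] at this
  exact this

theorem exists_eq_X_sq_mul {c : PowerSeries S} (hc0 : coeff 0 c = 0) (hc1 : coeff 1 c = 0)
    (hc2 : coeff 2 c = 1) :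
    ∃ c' : PowerSeries S, c = X ^ 2 * c' ∧ coeff 0 c' = 1 := by
  have h : (X : PowerSeries S) ^ 2 ∣ c := by
    rw [X_pow_dvd_iff]
    intro m hm
    interval_cases m
    · exact hc0
    · exact hc1
  obtain ⟨c', hc'⟩ := h
  refine ⟨c', hc', ?_⟩
  have := hc2
  rw [hc', coeff_X_pow_mul', if_pos le_rfl, Nat.sub_self] at this
  exact this

theorem coeff_zero_pow {u : PowerSeries S} (hu : coeff 0 u = 1) (n : ℕ) :
    coeff 0 (u ^ n) = 1 := by
  have h : constantCoeff (u ^ n) = 1 := by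
    rw [map_pow]
    have : constantCoeff u = 1 := by simpa using hu
    rw [this, one_pow]
  simpa using h

theorem coeff_zero_mul {u v : PowerSeries S} (hu : coeff 0 u = 1) (hv : coeff 0 v = 1) :
    coeff 0 (u * v) = 1 := by
  have h : constantCoeff (u * v) = 1 := by
    rw [map_mul]
    have h1 : constantCoeff u = 1 := by simpa using hu
    have h2 : constantCoeff v = 1 := by simpa using hv
    rw [h1, h2, one_mul]
  simpa using h

end leading

/-! ### Level 3 -/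

section level3

variable (R : Subring ℂ)
  (A : ModularForm (G0 3) 2) (T : ModularForm (G0 3) 4) (Cf : ModularForm (G0 3) 6)
  (a t c : PowerSeries R)
  (hA : qExpansion 1 A = ιR R a) (hT : qExpansion 1 T = ιR R t) (hC : qExpansion 1 Cf = ιR R c)
  (ha0 : coeff 0 a = 1) (ht0 : coeff 0 t = 0) (ht1 : coeff 1 t = 1)
  (hc0 : coeff 0 c = 0) (hc1 : coeff 1 c = 0) (hc2 : coeff 2 c = 1)

/-- The monomial of index `j` in weight `2w`. -/
def mono3 (a t c : PowerSeries R) (w j : ℕ) : PowerSeries R :=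
  a ^ (w - 2 * (j % 2) - 3 * (j / 2)) * t ^ (j % 2) * c ^ (j / 2)

include hA hT hC in
theorem exists_mono3 (w j : ℕ) (hj : j ≤ 2 * w / 3) :
    ∃ f : ModularForm (G0 3) (2 * (w : ℤ)), qExpansion 1 f = ιR R (mono3 R a t c w j) := by
  obtain ⟨f1, hf1⟩ := exists_pow hA (w - 2 * (j % 2) - 3 * (j / 2))
  obtain ⟨f2, hf2⟩ := exists_pow hT (j % 2)
  obtain ⟨f3, hf3⟩ := exists_pow hC (j / 2)
  have hle : 2 * (j % 2) + 3 * (j / 2) ≤ w := by omega
  refine ⟨mcast ?_ ((f1.mul f2).mul f3), ?_⟩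
  · have : ((w - 2 * (j % 2) - 3 * (j / 2) : ℕ) : ℤ) = (w : ℤ) - 2 * ((j % 2 : ℕ) : ℤ)
        - 3 * ((j / 2 : ℕ) : ℤ) := by
      omega
    rw [this]
    ring
  · exact qe_mcast _ (qe_mul (qe_mul hf1 hf2) hf3)

include ha0 ht0 ht1 hc0 hc1 hc2 in
theorem mono3_leading (w j : ℕ) :
    (∀ n < j, coeff n (mono3 R a t c w j) = 0) ∧ coeff j (mono3 R a t c w j) = 1 := by
  obtain ⟨t', ht', ht'0⟩ := exists_eq_X_mul ht0 ht1
  obtain ⟨c', hc', hc'0⟩ := exists_eq_X_sq_mul hc0 hc1 hc2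
  have hform : mono3 R a t c w j
      = X ^ j * (a ^ (w - 2 * (j % 2) - 3 * (j / 2)) * t' ^ (j % 2) * c' ^ (j / 2)) := by
    have hX : (X : PowerSeries R) ^ j = X ^ (j % 2) * (X ^ 2) ^ (j / 2) := by
      rw [← pow_mul, ← pow_add]
      congr 1
      omega
    rw [mono3, ht', hc', hX, mul_pow, mul_pow]
    ring
  have hu : coeff 0 (a ^ (w - 2 * (j % 2) - 3 * (j / 2)) * t' ^ (j % 2) * c' ^ (j / 2)) = 1 :=
    coeff_zero_mul (coeff_zero_mul (coeff_zero_pow ha0 _) (coeff_zero_pow ht'0 _))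
      (coeff_zero_pow hc'0 _)
  rw [hform]
  exact ⟨fun n hn => coeff_X_pow_mul_lt j _ hn, coeff_X_pow_mul_self j _ hu⟩

include hA hT hC ha0 ht0 ht1 hc0 hc1 hc2 in
/-- **Structure theorem on `Γ₀(3)`** (char `0`, coefficients in `R`). -/
theorem struct3 (w : ℕ) (G : ModularForm (G0 3) (2 * (w : ℤ))) (γ : PowerSeries R)
    (hG : qExpansion 1 G = ιR R γ) :
    ∃ cf : ℕ → R, γ = ∑ j ∈ Finset.range (2 * w / 3 + 1), C (cf j) * mono3 R a t c w j := by
  have hex : ∀ j, ∃ f : ModularForm (G0 3) (2 * (w : ℤ)),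
      j ≤ 2 * w / 3 → qExpansion 1 f = ιR R (mono3 R a t c w j) := by
    intro j
    by_cases hj : j ≤ 2 * w / 3
    · obtain ⟨f, hf⟩ := exists_mono3 R A T Cf a t c hA hT hC w j hj
      exact ⟨f, fun _ => hf⟩
    · exact ⟨0, fun h => absurd h hj⟩
  choose m hm using hex
  exact exists_coeffs R (2 * w / 3) (sturm3 w) m (fun j => mono3 R a t c w j)
    (fun j hj => hm j hj)
    (fun j _ n hn => (mono3_leading R a t c ha0 ht0 ht1 hc0 hc1 hc2 w j).1 n hn)
    (fun j _ => (mono3_leading R a t c ha0 ht0 ht1 hc0 hc1 hc2 w j).2) G γ hG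

include hA hT hC ha0 ht0 ht1 hc0 hc1 hc2 in
/-- `T² = A · Cf` (Sturm bound in weight `8`). -/
theorem sq_eq_mul3 : t ^ 2 = a * c := by
  obtain ⟨t', ht', ht'0⟩ := exists_eq_X_mul ht0 ht1
  obtain ⟨c', hc', hc'0⟩ := exists_eq_X_sq_mul hc0 hc1 hc2
  have h8 : (4 : ℤ) + 4 = 2 * ((4 : ℕ) : ℤ) := by norm_num
  have h8' : (2 : ℤ) + 6 = 2 * ((4 : ℕ) : ℤ) := by norm_num
  set H : ModularForm (G0 3) (2 * ((4 : ℕ) : ℤ)) :=
    mcast h8 (T.mul T) - mcast h8' (A.mul Cf) with hH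
  have hq : qExpansion 1 H = ιR R (t * t - a * c) :=
    qe_sub (qe_mcast _ (qe_mul hT hT)) (qe_mcast _ (qe_mul hA hC))
  have hform : t * t - a * c = X ^ 2 * (t' * t' - a * c') := by
    rw [ht', hc']; ring
  have hu : coeff 0 (t' * t' - a * c') = 0 := by
    rw [map_sub, coeff_zero_mul ht'0 ht'0, coeff_zero_mul ha0 hc'0, sub_self]
  have hH0 : H = 0 := by
    apply sturm3 4
    intro n hn
    rw [hq, ιR, coeff_map, hform]
    have hn2 : n ≤ 2 := by omega
    rcases Nat.lt_or_ge n 2 with hlt | hge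
    · rw [coeff_X_pow_mul_lt 2 _ hlt, map_zero]
    · have : n = 2 := le_antisymm hn2 hge
      subst this
      rw [coeff_X_pow_mul', if_pos le_rfl, Nat.sub_self, hu, map_zero]
  have h0 : ιR R (t * t - a * c) = 0 := by
    rw [← hq, hH0]
    exact qExpansion_zero 1
  have := ιR_injective R (h0.trans (map_zero _).symm)
  rw [pow_two]
  exact sub_eq_zero.mp this

include hA hT hC ha0 ht0 ht1 hc0 hc1 hc2 in
/-- **Structure theorem on `Γ₀(3)` modulo an ideal** in which `A ≡ 1`: the reduction of every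
form of weight `2w` with `R`-integral `q`-expansion is a polynomial of degree `≤ 2w/3` in the
reduction of `T`. -/
theorem struct3_mod {κ : Type*} [CommRing κ] (φ : R →+* κ)
    (ha : PowerSeries.map φ a = 1)
    (w : ℕ) (G : ModularForm (G0 3) (2 * (w : ℤ))) (γ : PowerSeries R)
    (hG : qExpansion 1 G = ιR R γ) :
    ∃ P : Polynomial κ, P.natDegree ≤ 2 * w / 3 ∧
      PowerSeries.map φ γ = Polynomial.aeval (PowerSeries.map φ t) P := by
  obtain ⟨cf, hcf⟩ := struct3 R A T Cf a t c hA hT hC ha0 ht0 ht1 hc0 hc1 hc2 w G γ hG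
  have hsq := sq_eq_mul3 R A T Cf a t c hA hT hC ha0 ht0 ht1 hc0 hc1 hc2
  have hc : PowerSeries.map φ c = (PowerSeries.map φ t) ^ 2 := by
    rw [← map_pow, hsq, map_mul, ha, one_mul]
  refine ⟨∑ j ∈ Finset.range (2 * w / 3 + 1), Polynomial.C (φ (cf j)) * Polynomial.X ^ j, ?_, ?_⟩
  · refine (Polynomial.natDegree_sum_le _ _).trans ?_
    refine Finset.fold_max_le _ |>.mpr ⟨Nat.zero_le _, fun j hj => ?_⟩
    refine (Polynomial.natDegree_C_mul_X_pow_le _ _).trans ?_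
    exact Nat.lt_succ_iff.mp (Finset.mem_range.mp hj)
  · rw [hcf, map_sum, map_sum]
    refine Finset.sum_congr rfl fun j _ => ?_
    rw [map_mul, map_mul, Polynomial.aeval_C, map_pow, Polynomial.aeval_X, PowerSeries.map_C,
      mono3, map_mul, map_mul, map_pow, map_pow, map_pow, ha, one_pow, one_mul, hc, ← pow_mul,
      ← pow_add]
    have hj : j % 2 + 2 * (j / 2) = j := by omega
    rw [hj]
    rfl

end level3

/-! ### Level 2 -/

section level2

variable (R : Subring ℂ)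
  (A : ModularForm (G0 2) 2) (B : ModularForm (G0 2) 4)
  (a b : PowerSeries R)
  (hA : qExpansion 1 A = ιR R a) (hB : qExpansion 1 B = ιR R b)
  (ha0 : coeff 0 a = 1) (hb0 : coeff 0 b = 0) (hb1 : coeff 1 b = 1)

/-- The monomial of index `j` in weight `2w`. -/
def mono2 (a b : PowerSeries R) (w j : ℕ) : PowerSeries R := a ^ (w - 2 * j) * b ^ j

include hA hB in
theorem exists_mono2 (w j : ℕ) (hj : j ≤ w / 2) :
    ∃ f : ModularForm (G0 2) (2 * (w : ℤ)), qExpansion 1 f = ιR R (mono2 R a b w j) := by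
  obtain ⟨f1, hf1⟩ := exists_pow hA (w - 2 * j)
  obtain ⟨f2, hf2⟩ := exists_pow hB j
  have hle : 2 * j ≤ w := by omega
  refine ⟨mcast ?_ (f1.mul f2), ?_⟩
  · have : ((w - 2 * j : ℕ) : ℤ) = (w : ℤ) - 2 * (j : ℤ) := by omega
    rw [this]
    ring
  · exact qe_mcast _ (qe_mul hf1 hf2)

include ha0 hb0 hb1 in
theorem mono2_leading (w j : ℕ) :
    (∀ n < j, coeff n (mono2 R a b w j) = 0) ∧ coeff j (mono2 R a b w j) = 1 := by
  obtain ⟨b', hb', hb'0⟩ := exists_eq_X_mul hb0 hb1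
  have hform : mono2 R a b w j = X ^ j * (a ^ (w - 2 * j) * b' ^ j) := by
    rw [mono2, hb', mul_pow]
    ring
  have hu : coeff 0 (a ^ (w - 2 * j) * b' ^ j) = 1 :=
    coeff_zero_mul (coeff_zero_pow ha0 _) (coeff_zero_pow hb'0 _)
  rw [hform]
  exact ⟨fun n hn => coeff_X_pow_mul_lt j _ hn, coeff_X_pow_mul_self j _ hu⟩

include hA hB ha0 hb0 hb1 in
/-- **Structure theorem on `Γ₀(2)`** (char `0`, coefficients in `R`). -/
theorem struct2 (w : ℕ) (G : ModularForm (G0 2) (2 * (w : ℤ))) (γ : PowerSeries R)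
    (hG : qExpansion 1 G = ιR R γ) :
    ∃ cf : ℕ → R, γ = ∑ j ∈ Finset.range (w / 2 + 1), C (cf j) * mono2 R a b w j := by
  have hex : ∀ j, ∃ f : ModularForm (G0 2) (2 * (w : ℤ)),
      j ≤ w / 2 → qExpansion 1 f = ιR R (mono2 R a b w j) := by
    intro j
    by_cases hj : j ≤ w / 2
    · obtain ⟨f, hf⟩ := exists_mono2 R A B a b hA hB w j hj
      exact ⟨f, fun _ => hf⟩
    · exact ⟨0, fun h => absurd h hj⟩
  choose m hm using hex
  exact exists_coeffs R (w / 2) (sturm2 w) m (fun j => mono2 R a b w j)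
    (fun j hj => hm j hj)
    (fun j _ n hn => (mono2_leading R a b ha0 hb0 hb1 w j).1 n hn)
    (fun j _ => (mono2_leading R a b ha0 hb0 hb1 w j).2) G γ hG

include hA hB ha0 hb0 hb1 in
/-- **Structure theorem on `Γ₀(2)` modulo an ideal** in which `A ≡ 1`. -/
theorem struct2_mod {κ : Type*} [CommRing κ] (φ : R →+* κ)
    (ha : PowerSeries.map φ a = 1)
    (w : ℕ) (G : ModularForm (G0 2) (2 * (w : ℤ))) (γ : PowerSeries R)
    (hG : qExpansion 1 G = ιR R γ) :
    ∃ P : Polynomial κ, P.natDegree ≤ w / 2 ∧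
      PowerSeries.map φ γ = Polynomial.aeval (PowerSeries.map φ b) P := by
  obtain ⟨cf, hcf⟩ := struct2 R A B a b hA hB ha0 hb0 hb1 w G γ hG
  refine ⟨∑ j ∈ Finset.range (w / 2 + 1), Polynomial.C (φ (cf j)) * Polynomial.X ^ j, ?_, ?_⟩
  · refine (Polynomial.natDegree_sum_le _ _).trans ?_
    refine Finset.fold_max_le _ |>.mpr ⟨Nat.zero_le _, fun j hj => ?_⟩
    refine (Polynomial.natDegree_C_mul_X_pow_le _ _).trans ?_
    exact Nat.lt_succ_iff.mp (Finset.mem_range.mp hj)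
  · rw [hcf, map_sum, map_sum]
    refine Finset.sum_congr rfl fun j _ => ?_
    rw [map_mul, map_mul, Polynomial.aeval_C, map_pow, Polynomial.aeval_X, PowerSeries.map_C,
      mono2, map_mul, map_pow, map_pow, ha, one_pow, one_mul]
    rfl

end level2

end Fermat.Agent.S16.AuxStruct
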