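import Mathlib
import Fermat.Agent.S16.AuxStruct23
import Fermat.Agent.S16.AuxNorm
import Fermat.Agent.S16.AuxEnd

/-!
# S16 (G2), auxiliary-level route: the abstract core for `ℓ = 2`, `p ≡ 3 mod 4`

Data: a subring `R ⊆ ℂ` containing `ζ_p` and `1/p`, a prime ideal `𝔪 ∋ 2`; forms `A, T, Cf` on
`Γ₀(3)` with `q`-expansions `a, t, c ∈ R⟦q⟧`, `a = 1 + 4t + 8W`; a form `F` of weight 2 on `Γ₀(p)`
with `q`-expansion `1 + 8 f'` and other-cusp expansion `-(1/p)(1 + 8 g')`.  Conclusion: `False`.
-/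

set_option autoImplicit false

open UpperHalfPlane ModularFormClass ModularForm CongruenceSubgroup PowerSeries
open scoped MatrixGroups

noncomputable section

namespace Fermat.Agent.S16.G2Core

open Fermat.Agent.S16.AuxStruct Fermat.Agent.S16.AuxNorm Fermat.Agent.S16.AuxEnd
open Fermat.Agent.S16.NormLevelOne

theorem rescale_ιR (R : Subring ℂ) (z : R) (x : PowerSeries R) :
    PowerSeries.rescale (z : ℂ) (ιR R x) = ιR R (PowerSeries.rescale z x) := by
  ext n
  simp [ιR, PowerSeries.coeff_rescale]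

theorem expand_ιR (R : Subring ℂ) (p : ℕ) (hp : p ≠ 0) (x : PowerSeries R) :
    PowerSeries.expand p hp (ιR R x) = ιR R (PowerSeries.expand p hp x) :=
  (PowerSeries.map_expand p hp R.subtype x).symm

theorem rescale_C_eq {S : Type*} [CommRing S] (z r : S) :
    PowerSeries.rescale z (C r : PowerSeries S) = C r := by
  ext n
  rw [PowerSeries.coeff_rescale, PowerSeries.coeff_C]
  split_ifs with h
  · rw [h, pow_zero, one_mul]
  · rw [mul_zero]

section factors

variable {S : Type*} [CommRing S] (p : ℕ) (hp0 : p ≠ 0)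

theorem fac0 (a t W f' : PowerSeries S) (haW : a = 1 + C (4 : S) * t + C (8 : S) * W) :
    PowerSeries.expand p hp0 a - PowerSeries.expand p hp0 (1 + C (8 : S) * f')
      = C (4 : S) * PowerSeries.expand p hp0 (t + C (2 : S) * W - C (2 : S) * f') := by
  have e2 : (C (8 : S) : PowerSeries S) = C 4 * C 2 := by
    rw [← map_mul]; norm_num
  rw [haW]
  simp only [map_add, map_sub, map_mul, map_one, PowerSeries.expand_C]
  linear_combination (PowerSeries.expand p hp0 W - PowerSeries.expand p hp0 f') * e2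

theorem facb (a t W g' : PowerSeries S) (haW : a = 1 + C (4 : S) * t + C (8 : S) * W)
    (z pinv cst : S) (hcst4 : (4 : S) * cst = 1 + pinv) :
    PowerSeries.expand p hp0 a - PowerSeries.rescale z (C (-pinv) * (1 + C (8 : S) * g'))
      = C (4 : S) * (C cst + PowerSeries.expand p hp0 (t + C (2 : S) * W)
          + C (2 * pinv) * PowerSeries.rescale z g') := by
  have e1 : (C (4 : S) : PowerSeries S) * C cst = 1 + C pinv := by
    rw [← map_mul, hcst4, map_add, map_one]
  have e2 : (C (8 : S) : PowerSeries S) = C 4 * C 2 := by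
    rw [← map_mul]; norm_num
  have e4 : (C (-pinv) : PowerSeries S) = - C pinv := map_neg _ _
  rw [haW]
  simp only [map_add, map_mul, map_one, map_neg, PowerSeries.expand_C, rescale_C_eq, e4]
  linear_combination (-1 : PowerSeries S) * e1
    + (PowerSeries.expand p hp0 W + C pinv * PowerSeries.rescale z g') * e2

end factors

variable (p : ℕ) [hp : Fact p.Prime]

theorem core (hp4 : p % 4 = 3)
    (R : Subring ℂ) (𝔪 : Ideal R) [h𝔪 : 𝔪.IsPrime] (h2 : (2 : R) ∈ 𝔪)
    (ζ pinv : R) (hζ : (ζ : ℂ) = zeta p) (hpinv : (p : R) * pinv = 1)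
    (A : ModularForm (G0 3) 2) (T : ModularForm (G0 3) 4) (Cf : ModularForm (G0 3) 6)
    (a t c W : PowerSeries R)
    (hA : qExpansion 1 A = ιR R a) (hT : qExpansion 1 T = ιR R t)
    (hC : qExpansion 1 Cf = ιR R c)
    (ha0 : coeff 0 a = 1) (ht0 : coeff 0 t = 0) (ht1 : coeff 1 t = 1)
    (hc0 : coeff 0 c = 0) (hc1 : coeff 1 c = 0) (hc2 : coeff 2 c = 1)
    (haW : a = 1 + C (4 : R) * t + C (8 : R) * W)
    (F : ModularForm (G0 p) 2) (f' g' : PowerSeries R)
    (hF : qExpansion 1 F = ιR R (1 + C (8 : R) * f'))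
    (hg : qExpansion (p : ℝ) ((F : ℍ → ℂ) ∣[(2 : ℤ)] ModularGroup.S)
      = ιR R (C (-pinv) * (1 + C (8 : R) * g'))) : False := by
  have hp0 : p ≠ 0 := hp.out.ne_zero
  -- the constant `(p+1)/(4p)`
  obtain ⟨u, hu⟩ : ∃ u : ℕ, p + 1 = 4 * u := ⟨(p + 1) / 4, by omega⟩
  set cst : R := (u : R) * pinv with hcst
  have hcst4 : (4 : R) * cst = 1 + pinv := by
    have h1 : ((p + 1 : ℕ) : R) = ((4 * u : ℕ) : R) := by rw [hu]
    push_cast at h1
    calc (4 : R) * cst = (4 * (u : R)) * pinv := by rw [hcst]; ring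
      _ = ((p : R) + 1) * pinv := by rw [h1]
      _ = (p : R) * pinv + pinv := by ring
      _ = 1 + pinv := by rw [hpinv]
  -- the norm form
  obtain ⟨N, hN⟩ := exists_auxNorm_expand p 3 F A 1
  rw [one_smul] at hN
  set N' : ModularForm (G0 3) (2 * ((p + 1 : ℕ) : ℤ)) := (((1 / 4 : ℂ)) ^ (p + 1)) • N with hN'
  have hqN' : qExpansion 1 N' = C ((1 / 4 : ℂ) ^ (p + 1)) * qExpansion 1 N := by
    rw [hN', FunLike.coe_smul, ModularForm.qExpansion_smul one_pos (one_mem_strictPeriods 3),
      PowerSeries.smul_eq_C_mul]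
  -- the integral factors
  set ψ : PowerSeries R := t + C (2 : R) * W - C (2 : R) * f' with hψ
  set ψb : ℕ → PowerSeries R := fun b =>
    C cst + PowerSeries.expand p hp0 (t + C (2 : R) * W)
      + C (2 * pinv) * PowerSeries.rescale (ζ ^ b) g' with hψb
  have hfac0 : PowerSeries.expand p hp0 (qExpansion 1 A) - PowerSeries.expand p hp0 (qExpansion 1 F)
      = ιR R (C (4 : R) * PowerSeries.expand p hp0 ψ) := by
    rw [hA, hF, expand_ιR, expand_ιR, ← map_sub, fac0 p hp0 a t W f' haW]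
  have hfacb : ∀ b : ℕ, PowerSeries.expand p hp0 (qExpansion 1 A)
      - PowerSeries.rescale (zeta p ^ b)
          (qExpansion (p : ℝ) ((F : ℍ → ℂ) ∣[(2 : ℤ)] ModularGroup.S))
      = ιR R (C (4 : R) * ψb b) := by
    intro b
    have hζb : (zeta p ^ b : ℂ) = ((ζ ^ b : R) : ℂ) := by
      rw [← hζ]; simp
    rw [hA, hg, hζb, rescale_ιR, expand_ιR, ← map_sub,
      facb p hp0 a t W g' haW (ζ ^ b) pinv cst hcst4]
  have hC4 : ιR R (C (4 : R)) = C (4 : ℂ) := by
    rw [ιR, PowerSeries.map_C]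
    congr 1
  have hexpN' : PowerSeries.expand p hp0 (qExpansion 1 N')
      = ιR R (PowerSeries.expand p hp0 ψ * ∏ b ∈ Finset.range p, ψb b) := by
    rw [hqN', map_mul, PowerSeries.expand_C, hN, hfac0]
    rw [Finset.prod_congr rfl (fun b _ => hfacb b)]
    simp only [map_mul, map_prod, hC4]
    rw [Finset.prod_mul_distrib, Finset.prod_const, Finset.card_range]
    have h14 : (C ((1 / 4 : ℂ) ^ (p + 1)) : PowerSeries ℂ) * (C (4 : ℂ) * C (4 : ℂ) ^ p) = 1 := by
      rw [← map_pow, ← map_mul, ← map_mul, ← pow_succ']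
      rw [← mul_pow]
      norm_num
    linear_combination (ιR R (PowerSeries.expand p hp0 ψ) * ∏ b ∈ Finset.range p, ιR R (ψb b)) * h14
  -- descent
  obtain ⟨νR, hν1, hν2⟩ := descend R p hp0 (qExpansion 1 N') _ hexpN'
  -- reduction
  set φ : R →+* R ⧸ 𝔪 := Ideal.Quotient.mk 𝔪 with hφ
  have hφ2 : φ 2 = 0 := Ideal.Quotient.eq_zero_iff_mem.mpr h2
  have hφ4 : φ 4 = 0 := by
    have : (4 : R) = 2 * 2 := by norm_num
    rw [this, map_mul, hφ2, mul_zero]
  have hφ8 : φ 8 = 0 := by
    have : (8 : R) = 2 * 4 := by norm_num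
    rw [this, map_mul, hφ2, zero_mul]
  have hmapa : PowerSeries.map φ a = 1 := by
    rw [haW]
    simp only [map_add, map_mul, map_one, PowerSeries.map_C, hφ4, hφ8, map_zero, zero_mul,
      add_zero]
  obtain ⟨P, hPdeg, hP⟩ := struct3_mod R A T Cf a t c hA hT hC ha0 ht0 ht1 hc0 hc1 hc2 φ hmapa
    (p + 1) N' νR hν1
  set tb : PowerSeries (R ⧸ 𝔪) := PowerSeries.map φ t with htb
  have htb0 : coeff 0 tb = 0 := by rw [htb, coeff_map, ht0, map_zero]
  have htb1 : coeff 1 tb = 1 := by rw [htb, coeff_map, ht1, map_one]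
  have hmapψ : PowerSeries.map φ ψ = tb := by
    rw [hψ]
    simp only [map_add, map_sub, map_mul, PowerSeries.map_C, hφ2, map_zero, zero_mul, add_zero,
      sub_zero]
    rfl
  have hmapψb : ∀ b, PowerSeries.map φ (ψb b) = C (φ cst) + PowerSeries.expand p hp0 tb := by
    intro b
    rw [hψb]
    simp only [map_add, map_mul, PowerSeries.map_C, PowerSeries.map_expand, hφ2, map_zero,
      zero_mul, add_zero]
    rfl
  have hred : PowerSeries.map φ νR = tb * (tb + C (φ cst)) ^ p := by
    apply expand_injective p hp0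
    rw [← PowerSeries.map_expand, hν2, map_mul, map_prod, PowerSeries.map_expand, hmapψ,
      Finset.prod_congr rfl (fun b _ => hmapψb b), Finset.prod_const, Finset.card_range]
    simp only [map_mul, map_pow, map_add, PowerSeries.expand_C]
    ring
  -- transcendence
  have haev : Polynomial.aeval tb (Polynomial.X * (Polynomial.X + Polynomial.C (φ cst)) ^ p)
      = tb * (tb + C (φ cst)) ^ p := by
    simp only [map_mul, map_pow, map_add, Polynomial.aeval_X, Polynomial.aeval_C,
      PowerSeries.algebraMap_eq]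
  have hPeq : P = Polynomial.X * (Polynomial.X + Polynomial.C (φ cst)) ^ p := by
    apply aeval_injective tb htb0 htb1
    rw [← hP, hred, haev]
  have hdeg : P.natDegree = p + 1 := by
    rw [hPeq, Polynomial.natDegree_mul Polynomial.X_ne_zero
      (pow_ne_zero _ (Polynomial.X_add_C_ne_zero _)), Polynomial.natDegree_X,
      Polynomial.natDegree_pow, Polynomial.natDegree_X_add_C]
    ring
  rw [hdeg] at hPdeg
  omega

end Fermat.Agent.S16.G2Core
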