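import Mathlib
import Fermat.Agent.S16.Interfaces2
import Fermat.Agent.S16.G2Core
import Fermat.Agent.S16.AuxRing
import Fermat.Agent.S16.Aux3Forms
import Fermat.Agent.S16.NormLevelOneFricke

/-!
# S16 (G2), auxiliary-level route: `Upper2bStatement`

For a prime `p ≡ 3 mod 4` there is no weight-2 form of level `p` congruent to `1` modulo `8`
(with `2`-integral rational `q`-coefficients).  Instantiation of `G2Core.core` with
`R = LInt 2`, a maximal ideal over `2`, and the level-3 forms of `Aux3Forms`.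
-/

set_option autoImplicit false

open UpperHalfPlane ModularFormClass ModularForm CongruenceSubgroup PowerSeries
open scoped MatrixGroups

noncomputable section

namespace Fermat.Agent.S16.G2Aux

open Fermat.Agent.S16.AuxStruct Fermat.Agent.S16.AuxRing Fermat.Agent.S16.Aux3Forms
open Fermat.Agent.S16.AuxSeries Fermat.Agent.S16.Interfaces Fermat.Agent.S16.NormLevelOne

/-- Integer power series inside `R⟦X⟧`. -/
abbrev jR (R : Subring ℂ) : PowerSeries ℤ →+* PowerSeries R :=
  PowerSeries.map (Int.castRingHom R)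

theorem ιR_jR (R : Subring ℂ) (x : PowerSeries ℤ) :
    ιR R (jR R x) = PowerSeries.map (Int.castRingHom ℂ) x := by
  ext n
  simp [ιR, jR]

theorem jR_C (R : Subring ℂ) (n : ℤ) : jR R (C n) = C (n : R) := by
  rw [jR, PowerSeries.map_C]
  rfl

theorem zeta_pow (p : ℕ) (hp : p ≠ 0) : zeta p ^ p = 1 := by
  unfold zeta
  rw [← Complex.exp_nat_mul]
  have hp' : (p : ℂ) ≠ 0 := by exact_mod_cast hp
  have : (p : ℂ) * (2 * Real.pi * Complex.I / p) = 2 * Real.pi * Complex.I := by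
    field_simp
  rw [this, Complex.exp_two_pi_mul_I]

/-- The lift of the `q`-expansion of a form `≡ 1 mod ℓ^r` to `LInt ℓ`. -/
theorem exists_lift_of_isOneMod (ℓ : ℕ) [Fact ℓ.Prime] {p r : ℕ}
    {F : ModularForm (CongruenceSubgroup.Gamma0 p) 2} (hF : IsOneMod p ℓ r F) :
    ∃ f' : PowerSeries (LInt ℓ),
      qExpansion 1 F = ιR (LInt ℓ) (1 + C (((ℓ : ℕ) : LInt ℓ) ^ r) * f') := by
  classical
  have h2 := hF.2
  choose! z hz hze using h2
  have hmem : ∀ j, 1 ≤ j → z j ∈ LInt ℓ := by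
    intro j hj
    obtain ⟨a, b, hb, hab⟩ := hz j hj
    exact mem_of_mul_eq ℓ hb hab
  refine ⟨PowerSeries.mk fun j => if hj : 1 ≤ j then ⟨z j, hmem j hj⟩ else 0, ?_⟩
  ext n
  rw [ιR, coeff_map, map_add, coeff_C_mul, coeff_mk]
  rcases Nat.eq_zero_or_pos n with rfl | hn
  · rw [dif_neg (by norm_num), mul_zero, add_zero]
    have := hF.1
    rw [ModularFormClass.qCoeff] at this
    rw [this]
    simp
  · have hn' : 1 ≤ n := hn
    have := hze n hn'
    rw [ModularFormClass.qCoeff] at this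
    rw [dif_pos hn', this, coeff_one, if_neg (by omega), zero_add]
    simp

variable (p : ℕ) [hp : Fact p.Prime]

theorem upper2b_of_prime (hp4 : p % 4 = 3) : NoOneMod p 2 3 := by
  intro F hF
  have : Fact (Nat.Prime 2) := ⟨Nat.prime_two⟩
  have hp0 : p ≠ 0 := hp.out.ne_zero
  have h2p : ¬ 2 ∣ p := by omega
  -- ring data
  obtain ⟨𝔪, hmax, h2mem⟩ := exists_maximal 2
  have : 𝔪.IsPrime := hmax.isPrime
  have h2 : (2 : LInt 2) ∈ 𝔪 := by
    have : ((2 : ℕ) : LInt 2) = 2 := by norm_num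
    rwa [this] at h2mem
  set ζ : LInt 2 := ⟨zeta p, mem_of_pow_eq_one 2 hp.out.pos (zeta_pow p hp0)⟩ with hζdef
  set pinv : LInt 2 := ⟨((p : ℂ))⁻¹, natCast_inv_mem 2 h2p⟩ with hpinvdef
  have hpinv : (p : LInt 2) * pinv = 1 := by
    apply Subtype.ext
    have hp' : (p : ℂ) ≠ 0 := by exact_mod_cast hp0
    simp [hpinvdef, mul_inv_cancel₀ hp']
  set third : LInt 2 := ⟨((3 : ℕ) : ℂ)⁻¹, natCast_inv_mem 2 (by norm_num)⟩ with hthird
  have h3third : (3 : LInt 2) * third = 1 := by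
    apply Subtype.ext
    have e3 : ((3 : LInt 2) : ℂ) = 3 := rfl
    show ((3 : LInt 2) : ℂ) * (((3 : ℕ) : ℂ))⁻¹ = 1
    rw [e3]
    norm_num
  -- level 3 data
  obtain ⟨W0, hW0⟩ := exists_A3q_eq
  have hA : qExpansion 1 A3 = ιR (LInt 2) (jR (LInt 2) A3q) := by
    rw [ιR_jR]; exact qExpansion_A3
  have hT : qExpansion 1 T3 = ιR (LInt 2) (jR (LInt 2) T3q) := by
    rw [ιR_jR]; exact qExpansion_T3
  have hC : qExpansion 1 C3 = ιR (LInt 2) (C third * jR (LInt 2) C3q4) := by
    rw [map_mul, ιR_jR, ← qExpansion_C3, PowerSeries.smul_eq_C_mul, ← mul_assoc]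
    have : ιR (LInt 2) (C third) * C (3 : ℂ) = 1 := by
      rw [ιR, PowerSeries.map_C, ← map_mul]
      have : (LInt 2).subtype third * (3 : ℂ) = 1 := by
        simp [hthird]
      rw [this, map_one]
    rw [this, one_mul]
  have ha0 : coeff 0 (jR (LInt 2) A3q) = 1 := by
    rw [jR, coeff_map, coeff_zero_A3q]; simp
  have ht0 : coeff 0 (jR (LInt 2) T3q) = 0 := by
    rw [jR, coeff_map, coeff_zero_T3q]; simp
  have ht1 : coeff 1 (jR (LInt 2) T3q) = 1 := by
    rw [jR, coeff_map, coeff_one_T3q]; simp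
  have hc0 : coeff 0 (C third * jR (LInt 2) C3q4) = 0 := by
    rw [coeff_C_mul, jR, coeff_map, coeff_zero_C3q4]; simp
  have hc1 : coeff 1 (C third * jR (LInt 2) C3q4) = 0 := by
    rw [coeff_C_mul, jR, coeff_map, coeff_one_C3q4]; simp
  have hc2 : coeff 2 (C third * jR (LInt 2) C3q4) = 1 := by
    rw [coeff_C_mul, jR, coeff_map, coeff_two_C3q4]
    rw [mul_comm]
    simpa using h3third
  have haW : jR (LInt 2) A3q
      = 1 + C (4 : LInt 2) * jR (LInt 2) T3q + C (8 : LInt 2) * jR (LInt 2) W0 := by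
    rw [hW0, map_add, map_add, map_one, map_mul, map_mul, jR_C, jR_C]
    norm_num
  -- the form F
  obtain ⟨f', hf'⟩ := exists_lift_of_isOneMod 2 hF
  have h8 : (((2 : ℕ) : LInt 2) ^ 3) = 8 := by norm_num
  rw [h8] at hf'
  set g' : PowerSeries (LInt 2) := PowerSeries.mk fun n => coeff (n * p) f' with hg'
  have hg : qExpansion (p : ℝ) ((F : ℍ → ℂ) ∣[(2 : ℤ)] ModularGroup.S)
      = ιR (LInt 2) (C (-pinv) * (1 + C (8 : LInt 2) * g')) := by
    ext n
    rw [Fermat.Agent.S16.NormLevelOneFricke.coeff_qExpansion_slash_S p F n]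
    have hF' : qExpansion (1 : ℝ) (F : ℍ → ℂ) = ιR (LInt 2) (1 + C (8 : LInt 2) * f') := hf'
    rw [hF']
    have hval : ((pinv : LInt 2) : ℂ) = ((p : ℂ))⁻¹ := rfl
    have hnp : (n * p = 0) ↔ n = 0 := by
      constructor
      · intro h
        rcases Nat.mul_eq_zero.mp h with h | h
        · exact h
        · exact absurd h hp0
      · intro h; rw [h, zero_mul]
    have key : coeff n (C (-pinv) * (1 + C (8 : LInt 2) * g'))
        = -pinv * ((if n = 0 then 1 else 0) + 8 * coeff (n * p) f') := by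
      rw [coeff_C_mul, map_add, coeff_C_mul, hg', coeff_mk, coeff_one]
    have key2 : coeff (n * p) (1 + C (8 : LInt 2) * f')
        = ((if n = 0 then 1 else 0) + 8 * coeff (n * p) f') := by
      rw [map_add, coeff_C_mul, coeff_one]
      by_cases hn : n = 0
      · rw [if_pos hn, if_pos (hnp.mpr hn)]
      · rw [if_neg hn, if_neg (fun h => hn (hnp.mp h))]
    rw [ιR, coeff_map, coeff_map, key, key2]
    rw [map_mul, map_neg]
    show -(((p : ℂ))⁻¹ * _) = -((pinv : LInt 2) : ℂ) * _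
    rw [hval]
    ring
  exact Fermat.Agent.S16.G2Core.core p hp4 (LInt 2) 𝔪 h2 ζ pinv rfl hpinv A3 T3 C3
    (jR (LInt 2) A3q) (jR (LInt 2) T3q) (C third * jR (LInt 2) C3q4) (jR (LInt 2) W0)
    hA hT hC ha0 ht0 ht1 hc0 hc1 hc2 haW F f' g' hf' hg

/-- **(UP2b)** via the auxiliary level `3`. -/
theorem upper2bStatement : Upper2bStatement := fun p _ _ hp4 => upper2b_of_prime p hp4

end Fermat.Agent.S16.G2Aux
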