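import Mathlib
import Fermat.Agent.S16.AuxSeries
import Fermat.Agent.S16.E2Level
import Fermat.Agent.S16.DivisorCongr
import Fermat.Agent.S28.Haupt2Sturm

/-!
# S16, auxiliary level 2: the forms `A2, B2` on `Γ₀(2)`, the two `Δ`-identities and the
Artin–Schreier relation modulo `3`  (backup copy of lemma row 128, helper75)

* `A2 = 2 E₂(2z) - E₂(z)` (weight 2), `qExpansion 1 A2 = ι A2q`;
* `B2 = (E₄(z) - E₄(2z))/240` (weight 4), `qExpansion 1 B2 = ι B2q`;
* `D1 = B2q * (A2q ^ 2 - 64 * B2q) ^ 2`, `D2 = B2q ^ 2 * (A2q ^ 2 - 64 * B2q)` in `ℤ⟦X⟧`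
  (`D1 = q ∏ (1 - qⁿ)²⁴`, `D2 = D1(q²)`), by the Sturm bound on `Γ₀(2)` in weight `12`;
* `τ ^ 3 - τ = β - β ^ 2` in `𝔽₃⟦X⟧`, `τ = -red (S 1 - 2 V₂ (S 1))`, `β = red B2q`;
* `A2q = 1 + 3 * (8 * (S 1 - 2 V₂ (S 1)))`.
-/

set_option autoImplicit false

open UpperHalfPlane ModularFormClass ModularForm EisensteinSeries
open scoped MatrixGroups ArithmeticFunction.sigma

noncomputable section

namespace Fermat.Agent.S16.Aux2FormsB

open Fermat.Agent.S24 Fermat.Agent.S24.LevelForms CongruenceSubgroup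
open Fermat.Agent.S28 Fermat.Agent.S28.Haupt2Coeff
open Fermat.Agent.S16.AuxSeries Fermat.Agent.S16.E2Level
open PowerSeries

/-- The coefficient embedding `ℤ⟦X⟧ → ℂ⟦X⟧`. -/
abbrev ι : PowerSeries ℤ →+* PowerSeries ℂ := PowerSeries.map (Int.castRingHom ℂ)

local notation "hΓ2" => Haupt2Sturm.one_mem_strictPeriods

/-- `A' = 2 E₂(2z) - E₂(z)` on `Γ₀(2)`. -/
def A2 : ModularForm (E2Level.G0 2) 2 := E2lvl 2

/-- `B' = (E₄(z) - E₄(2z))/240` on `Γ₀(2)`. -/
def B2 : ModularForm (E2Level.G0 2) 4 := (1 / 240 : ℂ) • (Haupt2Sturm.e4 - Haupt2Sturm.e4')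

/-! ### Coefficients of the integer series -/

theorem coeff_V (d : ℕ) [NeZero d] (f : PowerSeries ℤ) (m : ℕ) :
    coeff m (V d f) = if d ∣ m then coeff (m / d) f else 0 := by
  rw [PowerSeries.coeff_expand]

theorem coeff_A2q (m : ℕ) :
    coeff m A2q = (if m = 0 then 1 else 0) +
      24 * (((σ 1 m : ℕ) : ℤ) - 2 * (if 2 ∣ m then ((σ 1 (m / 2) : ℕ) : ℤ) else 0)) := by
  rw [A2q, map_add, coeff_one, coeff_C_mul, map_sub, coeff_C_mul, coeff_V, coeff_S]
  split_ifs <;> simp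

theorem coeff_B2q (m : ℕ) :
    coeff m B2q = ((σ 3 m : ℕ) : ℤ) - (if 2 ∣ m then ((σ 3 (m / 2) : ℕ) : ℤ) else 0) := by
  rw [B2q, map_sub, coeff_V, coeff_S]
  split_ifs <;> simp

/-! ### `q`-expansions -/

theorem qExpansion_A2 : qExpansion 1 A2 = ι A2q := by
  rw [A2]
  ext m
  rw [qExpansion_E2lvl_coeff, coeff_map, coeff_A2q]
  by_cases hm : m = 0
  · subst hm
    rw [cE_zero]
    simp
    norm_num
  · by_cases h2 : 2 ∣ m
    · rw [cE_of_dvd 2 hm h2]
      simp [hm, h2]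
    · rw [cE_of_not_dvd 2 hm h2]
      simp [hm, h2]

theorem coeff_eisenstein4 (m : ℕ) :
    coeff m ModularCurve.eisenstein4 = if m = 0 then 1 else 240 * ((σ 3 m : ℕ) : ℤ) := by
  rw [ModularCurve.eisenstein4, coeff_mk, ArithmeticFunction.sigma_apply]
  push_cast
  rfl

theorem qExpansion_B2 : qExpansion 1 B2 = ι B2q := by
  rw [B2, FunLike.coe_smul, ModularForm.qExpansion_smul one_pos hΓ2, FunLike.coe_sub,
    ModularForm.qExpansion_sub one_pos hΓ2, Haupt2Sturm.qExpansion_e4,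
    Haupt2Sturm.qExpansion_e4']
  ext m
  rw [PowerSeries.coeff_smul, map_sub, coeff_map, coeff_map, coeff_map, coeff_B2q,
    PowerSeries.coeff_expand, coeff_eisenstein4]
  by_cases hm : m = 0
  · subst hm
    simp [coeff_eisenstein4]
  · by_cases h2 : 2 ∣ m
    · have hm2 : m / 2 ≠ 0 := by
        obtain ⟨k, rfl⟩ := h2
        rw [Nat.mul_div_cancel_left _ (by norm_num : 0 < 2)]
        rintro rfl
        exact hm rfl
      simp [hm, h2, hm2, coeff_eisenstein4]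
      ring
    · simp [hm, h2]

/-! ### Sturm bound at level 2, weight 12 -/

/-- A modular form of weight `12` on `Γ₀(2)` whose first `5` coefficients vanish is zero. -/
lemma eq_zero_of_coeff12 (f : ModularForm (E2Level.G0 2) 12)
    (h : ∀ n : ℕ, n < 5 → (qExpansion 1 f).coeff n = 0) : f = 0 := by
  refine ModularForm.sturm_bound_Gamma0 2 f fun n hn => h n ?_
  have hidx := Fermat.Agent.S07.index_Gamma0_two_le
  have : ((12 : ℤ) * ((Gamma0 2).index : ℤ)).toNat / 12 ≤ 4 := by omega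
  omega

/-- Sturm + injectivity of `ℤ → ℂ`: two integral power series which are the `q`-expansions of
weight-`12` forms on `Γ₀(2)` and whose first `5` coefficients agree are equal. -/
lemma eq_of_forms12 (A B : ModularForm (E2Level.G0 2) 12) (L R : PowerSeries ℤ)
    (hA : qExpansion 1 A = ι L) (hB : qExpansion 1 B = ι R)
    (h : ∀ n : ℕ, n < 5 → coeff n L = coeff n R) : L = R := by
  have h0 : A - B = 0 := by
    refine eq_zero_of_coeff12 _ fun n hn => ?_
    rw [FunLike.coe_sub, ModularForm.qExpansion_sub one_pos hΓ2, hA, hB, map_sub, coeff_map,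
      coeff_map, h n hn, sub_self]
  have h1 : qExpansion 1 A = qExpansion 1 B := by rw [sub_eq_zero.mp h0]
  rw [hA, hB] at h1
  exact DivisorCongr.toC_injective h1

/-! ### The forms of weight 12 -/

/-- `A'² - 64 B'` (weight 4). -/
def Q2 : ModularForm (E2Level.G0 2) 4 :=
  ModularForm.mcast (by norm_num) (A2.mul A2) - (64 : ℂ) • B2

/-- The integer series of `Q2`. -/
def Q2q : PowerSeries ℤ := A2q ^ 2 - C (64 : ℤ) * B2q

theorem qExpansion_Q2 : qExpansion 1 Q2 = ι Q2q := by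
  have h1 : qExpansion 1 (ModularForm.mcast (by norm_num : (2 : ℤ) + 2 = 4) (A2.mul A2)) =
      ι (A2q * A2q) := by
    rw [ModularForm.qExpansion_mcast, ModularForm.qExpansion_mul one_pos hΓ2, qExpansion_A2,
      map_mul]
  have h2 : qExpansion 1 ((64 : ℂ) • B2) = ι (C (64 : ℤ) * B2q) := by
    rw [ModularForm.qExpansion_smul one_pos hΓ2, qExpansion_B2, map_mul,
      PowerSeries.smul_eq_C_mul, ι, PowerSeries.map_C]
    simp
  rw [Q2, FunLike.coe_sub, ModularForm.qExpansion_sub one_pos hΓ2]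
  erw [h1, h2]
  rw [Q2q, ← map_sub, pow_two]

/-- `B' (A'² - 64 B')²` (weight 12). -/
def R1 : ModularForm (E2Level.G0 2) 12 :=
  ModularForm.mcast (by norm_num) (B2.mul (Q2.mul Q2))

/-- `B'² (A'² - 64 B')` (weight 12). -/
def R2 : ModularForm (E2Level.G0 2) 12 :=
  ModularForm.mcast (by norm_num) ((B2.mul B2).mul Q2)

theorem qExpansion_R1 : qExpansion 1 R1 = ι (B2q * Q2q ^ 2) := by
  rw [R1, ModularForm.qExpansion_mcast, ModularForm.qExpansion_mul one_pos hΓ2,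
    ModularForm.qExpansion_mul one_pos hΓ2, qExpansion_B2, qExpansion_Q2, map_mul, map_pow,
    pow_two]

theorem qExpansion_R2 : qExpansion 1 R2 = ι (B2q ^ 2 * Q2q) := by
  rw [R2, ModularForm.qExpansion_mcast, ModularForm.qExpansion_mul one_pos hΓ2,
    ModularForm.qExpansion_mul one_pos hΓ2, qExpansion_B2, qExpansion_Q2, map_mul, map_pow,
    pow_two]

/-! ### The integer series `D1 = Δ(q)`, `D2 = Δ(q²)` -/

/-- `Δ(q) = q ∏ (1 - qⁿ)²⁴`. -/
def D1 : PowerSeries ℤ := X * ModularCurve.dedekindEtaUnit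

/-- `Δ(q²)`. -/
def D2 : PowerSeries ℤ := V 2 D1

theorem D1_eq_Δq : D1 = DivisorCongr.Δq := rfl

theorem qExpansion_d1 : qExpansion 1 Haupt2Sturm.d1 = ι D1 := by
  rw [Haupt2Sturm.qExpansion_d1, D1, ModularCurve.dedekindEtaUnit, map_mul, map_pow,
    PowerSeries.map_X]

theorem qExpansion_d2 : qExpansion 1 Haupt2Sturm.d2 = ι D2 := by
  rw [Haupt2Sturm.qExpansion_d2, D2, D1, ModularCurve.dedekindEtaUnit, map_mul, map_pow,
    PowerSeries.expand_X]
  simp only [map_mul, map_pow, PowerSeries.map_X]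

/-! ### Truncated coefficients -/

theorem approx_A2q : Approx A2q
    [1, 24, 24, 96, 24, 144, 96, 192, 24, 312, 144, 288, 96] := by
  have h : Approx A2q (ofFn13 fun n => (if n = 0 then 1 else 0) +
      24 * ((∑ d ∈ n.divisors, (d : ℤ)) -
        2 * (if 2 ∣ n then ∑ d ∈ (n / 2).divisors, (d : ℤ) else 0))) := by
    intro n hn
    rw [getD_ofFn13 _ hn, coeff_A2q, ArithmeticFunction.sigma_apply,
      ArithmeticFunction.sigma_apply]
    push_cast
    simp
  exact h.congr_list (by decide +kernel)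

theorem approx_B2q : Approx B2q
    [0, 1, 8, 28, 64, 126, 224, 344, 512, 757, 1008, 1332, 1792] := by
  have h : Approx B2q (ofFn13 fun n => (∑ d ∈ n.divisors, (d : ℤ) ^ 3) -
      (if 2 ∣ n then ∑ d ∈ (n / 2).divisors, (d : ℤ) ^ 3 else 0)) := by
    intro n hn
    rw [getD_ofFn13 _ hn, coeff_B2q, ArithmeticFunction.sigma_apply,
      ArithmeticFunction.sigma_apply]
    push_cast
    simp
  exact h.congr_list (by decide +kernel)

/-- The first `13` coefficients of `Δ`. -/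
def LΔ : List ℤ :=
  [0, 1, -24, 252, -1472, 4830, -6048, -16744, 84480, -113643, -115920, 534612, -370944]

/-- The first `13` coefficients of `Δ(q²)`. -/
def LΔ2 : List ℤ := [0, 0, 1, 0, -24, 0, 252, 0, -1472, 0, 4830, 0, -6048]

theorem Q2q_eq : Q2q = A2q ^ 2 + C (-64 : ℤ) * B2q := by
  rw [Q2q, map_neg]; ring

theorem approx_Q2q : Approx Q2q
    (addT (powT [1, 24, 24, 96, 24, 144, 96, 192, 24, 312, 144, 288, 96] 2)
      (mulT (constT (-64)) [0, 1, 8, 28, 64, 126, 224, 344, 512, 757, 1008, 1332, 1792])) := by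
  rw [Q2q_eq]
  exact (approx_A2q.pow 2).add ((approx_C (-64)).mul approx_B2q)

theorem approx_D1 : Approx D1 LΔ := by
  rw [D1, ModularCurve.dedekindEtaUnit]
  exact (approx_X.mul approx_P24).congr_list (by decide +kernel)

theorem approx_D2 : Approx D2 LΔ2 := by
  rw [D2, D1, ModularCurve.dedekindEtaUnit]
  exact (approx_X.mul approx_P24).expand2.congr_list (by decide +kernel)

theorem approx_R1q : Approx (B2q * Q2q ^ 2) LΔ :=
  (approx_B2q.mul (approx_Q2q.pow 2)).congr_list (by decide +kernel)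

theorem approx_R2q : Approx (B2q ^ 2 * Q2q) LΔ2 :=
  ((approx_B2q.pow 2).mul approx_Q2q).congr_list (by decide +kernel)

/-! ### The two `Δ`-identities -/

/-- `Δ(q) = B' (A'² - 64 B')²`. -/
theorem D1_eq : D1 = B2q * (A2q ^ 2 - C (64 : ℤ) * B2q) ^ 2 :=
  eq_of_forms12 Haupt2Sturm.d1 R1 _ _ qExpansion_d1 qExpansion_R1
    (fun _ hn => approx_D1.coeff_eq approx_R1q (by omega))

/-- `Δ(q²) = B'² (A'² - 64 B')`. -/
theorem D2_eq : D2 = B2q ^ 2 * (A2q ^ 2 - C (64 : ℤ) * B2q) :=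
  eq_of_forms12 Haupt2Sturm.d2 R2 _ _ qExpansion_d2 qExpansion_R2
    (fun _ hn => approx_D2.coeff_eq approx_R2q (by omega))


/-! ### Artin–Schreier modulo `3` -/

/-- Coefficientwise reduction modulo `3`. -/
abbrev red3 : PowerSeries ℤ →+* PowerSeries (ZMod 3) :=
  PowerSeries.map (Int.castRingHom (ZMod 3))

/-- `τ = (A' - 1)/3 mod 3` (recall `8 = -1`). -/
def τ : PowerSeries (ZMod 3) := - red3 (S 1 - C (2 : ℤ) * V 2 (S 1))

/-- `β = B' mod 3`. -/
def β : PowerSeries (ZMod 3) := red3 B2q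

theorem sig_eq_S (k : ℕ) : DivisorCongr.sig k = S k := by
  ext n
  rw [DivisorCongr.coeff_sig, coeff_S, ArithmeticFunction.sigma_apply]
  push_cast
  rfl

theorem three_eq_zero : (3 : PowerSeries (ZMod 3)) = 0 := by
  rw [← map_ofNat (C (R := ZMod 3)) 3]
  have : (OfNat.ofNat 3 : ZMod 3) = 0 := by decide
  rw [this, map_zero]

theorem red3_C_of_dvd {a : ℤ} (h : (3 : ℤ) ∣ a) : red3 (C a) = 0 :=
  DivisorCongr.red_C_of_dvd 3 (by exact_mod_cast h)

theorem red3_three_mul (f : PowerSeries ℤ) : red3 (3 * f) = 0 := by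
  rw [map_mul, ← map_ofNat (C (R := ℤ)) 3, red3_C_of_dvd (dvd_refl _), zero_mul]

theorem red3_A2q : red3 A2q = 1 := by
  rw [A2q, map_add, map_one, map_mul, red3_C_of_dvd (by norm_num), zero_mul, add_zero]

theorem red3_C64 : red3 (C (64 : ℤ)) = 1 := by
  rw [PowerSeries.map_C]
  have : (Int.castRingHom (ZMod 3)) 64 = 1 := by decide
  rw [this, map_one]

theorem red3_C2 : red3 (C (2 : ℤ)) = 2 := by
  rw [PowerSeries.map_C, map_ofNat, map_ofNat]

/-- `Δ(q) ≡ S - S³ mod 3` with `S = S 1`. -/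
theorem red3_D1 : red3 D1 = red3 (S 1) - red3 (S 1) ^ 3 := by
  have h := DivisorCongr.red_Δq_three
  rw [sig_eq_S] at h
  exact h

/-- `Δ(q²) ≡ S(q²) - S(q²)³ mod 3`. -/
theorem red3_D2 : red3 D2 = red3 (V 2 (S 1)) - red3 (V 2 (S 1)) ^ 3 := by
  obtain ⟨R, hR⟩ := DivisorCongr.Δq_mod_three
  rw [sig_eq_S] at hR
  have h2 : D2 = V 2 (S 1) - V 2 (S 1) ^ 3 + 3 * V 2 R := by
    rw [D2, D1_eq_Δq, hR, map_add, map_sub, map_pow, map_mul, map_ofNat]
  rw [h2, map_add, map_sub, map_pow, red3_three_mul, add_zero]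

theorem red3_D1' : red3 D1 = β * (1 - β) ^ 2 := by
  rw [D1_eq, map_mul, map_pow, map_sub, map_pow, map_mul, red3_A2q, red3_C64, one_pow, one_mul, β]

theorem red3_D2' : red3 D2 = β ^ 2 * (1 - β) := by
  rw [D2_eq, map_mul, map_pow, map_sub, map_pow, map_mul, red3_A2q, red3_C64, one_pow, one_mul, β]

/-- **The Artin–Schreier relation** `τ³ - τ = β - β²` in `𝔽₃⟦X⟧`. -/
theorem artinSchreier : τ ^ 3 - τ = β - β ^ 2 := by
  have h1 : red3 (S 1) - red3 (S 1) ^ 3 = β * (1 - β) ^ 2 := by rw [← red3_D1, red3_D1']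
  have h2 : red3 (V 2 (S 1)) - red3 (V 2 (S 1)) ^ 3 = β ^ 2 * (1 - β) := by
    rw [← red3_D2, red3_D2']
  have h3 := three_eq_zero
  rw [τ, map_sub, map_mul, red3_C2]
  set s := red3 (S 1)
  set s2 := red3 (V 2 (S 1))
  linear_combination h1 + h2 + (2 * s ^ 2 * s2 - 4 * s * s2 ^ 2 + 3 * s2 ^ 3 - s2) * h3

/-! ### `A2q ≡ 1 mod 3`, explicitly -/

theorem A2q_eq : A2q = 1 + C (3 : ℤ) * (C (8 : ℤ) * (S 1 - C (2 : ℤ) * V 2 (S 1))) := by
  have h24 : C (24 : ℤ) = C (3 : ℤ) * C (8 : ℤ) := by rw [← map_mul]; norm_num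
  rw [A2q, h24]
  ring

theorem coeff_zero_A2q : coeff 0 A2q = 1 := by
  rw [coeff_A2q]; simp

theorem coeff_zero_B2q : coeff 0 B2q = 0 := by
  rw [coeff_B2q]; simp

theorem coeff_one_B2q : coeff 1 B2q = 1 := by
  rw [coeff_B2q]; simp


end Fermat.Agent.S16.Aux2FormsB
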