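import Mathlib

/-!
# S16: elementary symmetric functions of the conjugates of a modular form

For subgroups `𝒢, ℋ` of `GL(2, ℝ)` with `𝒢 ⊓ ℋ` of finite index in `ℋ` and `f` a modular form of
weight `k` for `𝒢`, the `i`-th elementary symmetric function of the translates of `f` by coset
representatives of `ℋ ⧸ 𝒢 ⊓ ℋ` is a modular form of weight `k * i` for `ℋ`.  (`i = 1` is Mathlib's
trace, `i = [ℋ : 𝒢 ⊓ ℋ]` is Mathlib's norm.)
-/

set_option autoImplicit false

open UpperHalfPlane SlashInvariantForm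

open scoped ModularForm Topology Filter Manifold MatrixGroups

namespace Fermat.Agent.S16.EsymmForm

variable {𝒢 ℋ : Subgroup (GL (Fin 2) ℝ)} {F : Type*} (f : F) [FunLike F ℍ ℂ] {k : ℤ}

local notation "𝒬" => ℋ ⧸ (𝒢.subgroupOf ℋ)

section SIF

variable [SlashInvariantFormClass F 𝒢 k]

variable (ℋ) [𝒢.IsFiniteRelIndex ℋ]

/-- The underlying function of the `i`-th elementary symmetric function of the conjugates. -/
noncomputable def esymmFun (i : ℕ) : ℍ → ℂ :=
  let := Fintype.ofFinite 𝒬
  ∑ s ∈ Finset.powersetCard i (Finset.univ : Finset 𝒬), ∏ q ∈ s, quotientFunc f q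

lemma esymmFun_slash [ℋ.HasDetPlusMinusOne] (i : ℕ) {h : GL (Fin 2) ℝ} (hh : h ∈ ℋ) :
    esymmFun ℋ f i ∣[k * (i : ℤ)] h = esymmFun ℋ f i := by
  classical
  letI := Fintype.ofFinite 𝒬
  unfold esymmFun
  rw [SlashAction.sum_slash]
  let σ : 𝒬 ≃ 𝒬 := MulAction.toPerm ((⟨h, hh⟩ : ℋ)⁻¹)
  have key : ∀ s ∈ Finset.powersetCard i (Finset.univ : Finset 𝒬),
      (∏ q ∈ s, quotientFunc f q) ∣[k * (i : ℤ)] h = ∏ q ∈ s.map σ.toEmbedding, quotientFunc f q := by
    intro s hs
    have hcard : s.card = i := (Finset.mem_powersetCard.mp hs).2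
    rw [← hcard, ModularForm.prod_slash, Finset.prod_map]
    simp only [Subgroup.HasDetPlusMinusOne.abs_det hh, one_zpow, one_smul]
    refine Finset.prod_congr rfl fun q _ => ?_
    rw [quotientFunc_smul f hh q]
    rfl
  rw [Finset.sum_congr rfl key]
  refine Finset.sum_bij (fun s _ => s.map σ.toEmbedding) ?_ ?_ ?_ ?_
  · intro s hs
    rw [Finset.mem_powersetCard] at hs ⊢
    exact ⟨Finset.subset_univ _, by rw [Finset.card_map]; exact hs.2⟩
  · intro s _ t _ hst
    exact Finset.map_injective _ hst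
  · intro t ht
    refine ⟨t.map σ.symm.toEmbedding, ?_, ?_⟩
    · rw [Finset.mem_powersetCard] at ht ⊢
      exact ⟨Finset.subset_univ _, by rw [Finset.card_map]; exact ht.2⟩
    · ext x
      simp [Finset.mem_map]
  · intro s _
    rfl

/-- The `i`-th elementary symmetric function of the conjugates, as a slash-invariant form. -/
noncomputable def esymmSIF [ℋ.HasDetPlusMinusOne] (i : ℕ) : SlashInvariantForm ℋ (k * (i : ℤ)) where
  toFun := esymmFun ℋ f i
  slash_action_eq' h hh := esymmFun_slash ℋ f i hh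

end SIF

section MF

variable (ℋ) [𝒢.IsFiniteRelIndex ℋ] [ℋ.HasDetPlusMinusOne] [ModularFormClass F 𝒢 k]

lemma esymmFun_mdiff (i : ℕ) : MDiff (esymmFun ℋ f i) := by
  classical
  letI := Fintype.ofFinite 𝒬
  unfold esymmFun
  refine .sum fun s _ => ?_
  exact .prod (fun q _ => Quotient.inductionOn q fun r => (ModularForm.translate f r.val⁻¹).holo')

/-- The `i`-th elementary symmetric function of the conjugates of a modular form `f` for `𝒢` under
`ℋ`, as a modular form of weight `k * i` for `ℋ`. -/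
noncomputable def esymmMF (i : ℕ) : ModularForm ℋ (k * (i : ℤ)) where
  __ := esymmSIF ℋ f i
  holo' := esymmFun_mdiff ℋ f i
  bdd_at_cusps' h γ := by
    rintro rfl
    classical
    letI := Fintype.ofFinite 𝒬
    show IsBoundedAtImInfty ((esymmFun ℋ f i) ∣[k * (i : ℤ)] γ)
    unfold esymmFun
    rw [SlashAction.sum_slash]
    simp_rw [IsBoundedAtImInfty, Filter.BoundedAtFilter]
    refine Asymptotics.IsBigO.sum fun s hs => ?_
    have hcard : s.card = i := (Finset.mem_powersetCard.mp hs).2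
    rw [← hcard, ModularForm.prod_slash]
    apply Asymptotics.IsBigO.const_smul_left
    rw [show (1 : ℍ → ℝ) = (fun x ↦ ∏ (_i ∈ s), (1 : ℝ)) by ext; simp, Finset.prod_fn]
    refine .finsetProd fun q _ => ?_
    induction q using Quotient.inductionOn with
    | h r =>
      obtain ⟨r, hr⟩ := r
      refine (ModularForm.translate f _).bdd_at_cusps' ?_ γ rfl
      simpa using h.of_isFiniteRelIndex_conj hr

lemma coe_esymmMF (i : ℕ) : (⇑(esymmMF ℋ f i) : ℍ → ℂ) = esymmFun ℋ f i := rfl

lemma esymmFun_eq_of_equiv {ι : Type*} [Fintype ι] [DecidableEq ι] (e : ι ≃ 𝒬) (i : ℕ) :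
    esymmFun ℋ f i =
      ∑ s ∈ Finset.powersetCard i (Finset.univ : Finset ι), ∏ j ∈ s, quotientFunc f (e j) := by
  classical
  letI := Fintype.ofFinite 𝒬
  unfold esymmFun
  symm
  refine Finset.sum_bij (fun s _ => s.map e.toEmbedding) ?_ ?_ ?_ ?_
  · intro s hs
    rw [Finset.mem_powersetCard] at hs ⊢
    exact ⟨Finset.subset_univ _, by rw [Finset.card_map]; exact hs.2⟩
  · intro s _ t _ hst
    exact Finset.map_injective _ hst
  · intro t ht
    refine ⟨t.map e.symm.toEmbedding, ?_, ?_⟩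
    · rw [Finset.mem_powersetCard] at ht ⊢
      exact ⟨Finset.subset_univ _, by rw [Finset.card_map]; exact ht.2⟩
    · ext x
      simp
  · intro s _
    rw [Finset.prod_map]
    rfl

end MF

end Fermat.Agent.S16.EsymmForm
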