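import Mathlib

/-!
# S16: explicit coset representatives of `Γ₀(p)` in `SL₂(ℤ)`

For `p` prime, the `p + 1` left cosets of `Γ₀(p)` in `SL₂(ℤ)` are represented by `1` and
`(S T^b)⁻¹`, `b : ZMod p`.  In terms of Mathlib's `SlashInvariantForm.quotientFunc`, the conjugates
of a form `f` for `Γ₀(p)` are `f` and `f ∣[k] (S T^b)`.
-/

set_option autoImplicit false

open UpperHalfPlane SlashInvariantForm CongruenceSubgroup ModularGroup Matrix.SpecialLinearGroup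

open scoped ModularForm MatrixGroups

namespace Fermat.Agent.S16.Gamma0PCosets

variable (p : ℕ)

/-- Representatives: `none ↦ 1`, `some b ↦ (S T^b)⁻¹`. -/
noncomputable def rep : Option (ZMod p) → SL(2, ℤ)
  | none => 1
  | some b => (S * T ^ (b.val : ℤ))⁻¹

/-- The representatives as elements of `𝒮ℒ`. -/
noncomputable def repGL (o : Option (ZMod p)) : 𝒮ℒ := ⟨mapGL ℝ (rep p o), ⟨_, rfl⟩⟩

/-- `Γ₀(p)` as a subgroup of `GL(2, ℝ)`. -/
abbrev G0 (p : ℕ) : Subgroup (GL (Fin 2) ℝ) :=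
  ((Gamma0 p : Subgroup SL(2, ℤ)) : Subgroup (GL (Fin 2) ℝ))

/-- The coset space `SL₂(ℤ) / Γ₀(p)` (in Mathlib's `NormTrace` form). -/
abbrev Q0 (p : ℕ) : Type := 𝒮ℒ ⧸ ((G0 p).subgroupOf 𝒮ℒ)

/-- The map from `Option (ZMod p)` to the coset space. -/
noncomputable def cosetMap (o : Option (ZMod p)) : Q0 p := QuotientGroup.mk (repGL p o)

lemma mk_eq_mk_iff (g₁ g₂ : SL(2, ℤ)) :
    (QuotientGroup.mk (⟨mapGL ℝ g₁, ⟨_, rfl⟩⟩ : 𝒮ℒ) : Q0 p) =
      QuotientGroup.mk (⟨mapGL ℝ g₂, ⟨_, rfl⟩⟩ : 𝒮ℒ) ↔ g₁⁻¹ * g₂ ∈ Gamma0 p := by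
  rw [QuotientGroup.eq, Subgroup.mem_subgroupOf]
  have : ((⟨mapGL ℝ g₁, ⟨_, rfl⟩⟩ : 𝒮ℒ)⁻¹ * (⟨mapGL ℝ g₂, ⟨_, rfl⟩⟩ : 𝒮ℒ) : 𝒮ℒ).1 =
      mapGL ℝ (g₁⁻¹ * g₂) := by
    simp
  rw [this]
  exact Subgroup.mem_map_iff_mem mapGL_injective

lemma S_mul_T_zpow_coe (n : ℤ) : (S * T ^ n : SL(2, ℤ)).1 = !![0, -1; 1, n] := by
  rw [Matrix.SpecialLinearGroup.coe_mul, coe_T_zpow, coe_S]
  ext i j
  fin_cases i <;> fin_cases j <;> simp [Matrix.mul_apply, Fin.sum_univ_two]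

lemma S_mul_T_zpow_inv_coe (n : ℤ) : ((S * T ^ n)⁻¹ : SL(2, ℤ)).1 = !![n, 1; -1, 0] := by
  rw [Matrix.SpecialLinearGroup.coe_inv, S_mul_T_zpow_coe, Matrix.adjugate_fin_two_of]
  simp

variable [hp : Fact p.Prime]

lemma cosetMap_injective : Function.Injective (cosetMap p) := by
  have hp1 : (1 : ZMod p) ≠ 0 := one_ne_zero
  intro o₁ o₂ h
  unfold cosetMap repGL at h
  rw [mk_eq_mk_iff, Gamma0_mem] at h
  rcases o₁ with _ | b <;> rcases o₂ with _ | c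
  · rfl
  · exfalso
    simp only [rep, inv_one, one_mul] at h
    rw [S_mul_T_zpow_inv_coe] at h
    simp at h
  · exfalso
    simp only [rep, inv_inv, mul_one] at h
    rw [S_mul_T_zpow_coe] at h
    simp at h
  · simp only [rep, inv_inv] at h
    rw [Matrix.SpecialLinearGroup.coe_mul, S_mul_T_zpow_coe, S_mul_T_zpow_inv_coe] at h
    simp [Matrix.mul_apply, Fin.sum_univ_two] at h
    congr 1
    have := add_neg_eq_zero.mp h
    exact this.symm

lemma cosetMap_surjective : Function.Surjective (cosetMap p) := by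
  intro q
  induction q using QuotientGroup.induction_on with
  | H g =>
    obtain ⟨g, ⟨g₀, rfl⟩⟩ := g
    by_cases hc : ((g₀ 1 0 : ℤ) : ZMod p) = 0
    · refine ⟨none, ?_⟩
      unfold cosetMap repGL
      rw [mk_eq_mk_iff, Gamma0_mem]
      simpa [rep] using hc
    · refine ⟨some (-((g₀ 0 0 : ℤ) : ZMod p) / ((g₀ 1 0 : ℤ) : ZMod p)), ?_⟩
      unfold cosetMap repGL
      rw [mk_eq_mk_iff, Gamma0_mem]
      simp only [rep, inv_inv]
      rw [Matrix.SpecialLinearGroup.coe_mul, S_mul_T_zpow_coe]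
      simp [Matrix.mul_apply, Fin.sum_univ_two]
      field_simp
      ring

lemma cosetMap_bijective : Function.Bijective (cosetMap p) :=
  ⟨cosetMap_injective p, cosetMap_surjective p⟩

/-- `Option (ZMod p) ≃ SL₂(ℤ) / Γ₀(p)`. -/
noncomputable def cosetEquiv : Option (ZMod p) ≃ Q0 p :=
  Equiv.ofBijective _ (cosetMap_bijective p)

variable {F : Type*} (f : F) [FunLike F ℍ ℂ] {k : ℤ} [SlashInvariantFormClass F (G0 p) k]

lemma quotientFunc_cosetEquiv_none :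
    quotientFunc (ℋ := 𝒮ℒ) f (cosetEquiv p none) = (f : ℍ → ℂ) := by
  show quotientFunc f ⟦repGL p none⟧ = _
  rw [quotientFunc_mk]
  simp [repGL, rep]

lemma quotientFunc_cosetEquiv_some (b : ZMod p) :
    quotientFunc (ℋ := 𝒮ℒ) f (cosetEquiv p (some b)) =
      (f : ℍ → ℂ) ∣[k] (S * T ^ (b.val : ℤ) : SL(2, ℤ)) := by
  show quotientFunc f ⟦repGL p (some b)⟧ = _
  rw [quotientFunc_mk]
  simp only [repGL, rep, map_inv, inv_inv]
  rfl

end Fermat.Agent.S16.Gamma0PCosets
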