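import Mathlib
import Fermat.Agent.S16.EsymmForm
import Fermat.Agent.S16.Gamma0PCosets

/-!
# S16: `q`-expansions of the symmetric functions of the `SL₂(ℤ)`-conjugates of a form on `Γ₀(p)`

Let `p` be prime and `F` a modular form of weight `k` on `Γ₀(p)`.  The `p + 1` conjugates of `F`
under `SL₂(ℤ)` are `F` and `F ∣[k] S T^b` (`b` mod `p`).  If `G₀` is the `q`-expansion of `F` and
`G₁` is the expansion of `F ∣[k] S` in `x = q^{1/p}`, then the `i`-th elementary symmetric function
of the conjugates (a level one form of weight `k * i`, `esymmMF`) has `q`-expansion `Q` with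

`Q(x^p) = e_i (G₀(x^p), G₁(x), G₁(ζ x), …, G₁(ζ^{p-1} x))`,   `ζ = exp(2πi/p)`.

Everything is stated over a subring `A` of `ℂ` containing `ζ`, so that the identity can be pushed
forward along any ring homomorphism `A →+* κ` (reduction modulo a prime above `ℓ`).
-/

set_option autoImplicit false

open UpperHalfPlane SlashInvariantForm CongruenceSubgroup ModularGroup Matrix.SpecialLinearGroup
  Function

open scoped ModularForm MatrixGroups Topology Manifold

namespace Fermat.Agent.S16.ConjEsymm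

open Fermat.Agent.S16.EsymmForm Fermat.Agent.S16.Gamma0PCosets

local notation "𝕢" => Periodic.qParam

/-! ### The ring of functions with analytic cusp function of period `h` -/

section Nice

variable (h : ℝ)

lemma cuspFunction_zero_fun : cuspFunction h (0 : ℍ → ℂ) = 0 := by
  simpa [cuspFunction, Periodic.cuspFunction]
    using! (tendsto_const_nhds.mono_left nhdsWithin_le_nhds).limUnder_eq

lemma cuspFunction_one_fun : cuspFunction h (1 : ℍ → ℂ) = 1 := by
  ext q
  rcases eq_or_ne q 0 with rfl | hq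
  · simpa [cuspFunction, Periodic.cuspFunction] using! tendsto_const_nhds.limUnder_eq
  · simp [cuspFunction, Periodic.cuspFunction, hq]

/-- The subring of functions on `ℍ` whose cusp function of period `h` is analytic at `0`. -/
def niceSubring : Subring (ℍ → ℂ) where
  carrier := {f | AnalyticAt ℂ (cuspFunction h f) 0}
  mul_mem' := by
    intro f g hf hg
    simp only [Set.mem_setOf_eq] at hf hg ⊢
    rw [cuspFunction_mul hf.continuousAt hg.continuousAt]
    exact hf.mul hg
  one_mem' := by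
    simp only [Set.mem_setOf_eq]
    rw [cuspFunction_one_fun]
    exact analyticAt_const
  add_mem' := by
    intro f g hf hg
    simp only [Set.mem_setOf_eq] at hf hg ⊢
    rw [cuspFunction_add hf.continuousAt hg.continuousAt]
    exact hf.add hg
  zero_mem' := by
    simp only [Set.mem_setOf_eq]
    rw [cuspFunction_zero_fun]
    exact analyticAt_const
  neg_mem' := by
    intro f hf
    simp only [Set.mem_setOf_eq] at hf ⊢
    rw [cuspFunction_neg hf.continuousAt]
    exact hf.neg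

lemma mem_niceSubring {f : ℍ → ℂ} : f ∈ niceSubring h ↔ AnalyticAt ℂ (cuspFunction h f) 0 :=
  Iff.rfl

/-- `qExpansion h` as a ring homomorphism on `niceSubring h`. -/
noncomputable def qHom : niceSubring h →+* PowerSeries ℂ where
  toFun f := qExpansion h (f : ℍ → ℂ)
  map_one' := qExpansion_one h
  map_mul' f g := qExpansion_mul f.2 g.2
  map_zero' := qExpansion_zero h
  map_add' f g := qExpansion_add f.2 g.2

lemma qHom_mk (f : ℍ → ℂ) (hf : f ∈ niceSubring h) : qHom h ⟨f, hf⟩ = qExpansion h f := rfl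

/-- `qExpansion h` commutes with finite sums of finite products of nice functions. -/
lemma qExpansion_sum_prod {ι κ : Type*} (S : Finset κ) (t : κ → Finset ι) (f : ι → ℍ → ℂ)
    (hf : ∀ i, f i ∈ niceSubring h) :
    qExpansion h (∑ s ∈ S, ∏ j ∈ t s, f j) = ∑ s ∈ S, ∏ j ∈ t s, qExpansion h (f j) := by
  have h1 : (∑ s ∈ S, ∏ j ∈ t s, f j) =
      ((∑ s ∈ S, ∏ j ∈ t s, (⟨f j, hf j⟩ : niceSubring h) : niceSubring h) : ℍ → ℂ) := by
    simp
  rw [h1, ← qHom_mk h _ (SetLike.coe_mem _)]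
  simp only [Subtype.coe_eta, map_sum, map_prod]
  rfl

end Nice

/-! ### The conjugates of a form on `Γ₀(p)` -/

section Conj

lemma slash_T_zpow_apply (f : ℍ → ℂ) (k : ℤ) (n : ℤ) (z : ℍ) :
    (f ∣[k] (T ^ n : SL(2, ℤ))) z = f ((n : ℝ) +ᵥ z) := by
  rw [ModularForm.SL_slash_apply, modular_T_zpow_smul]
  have : denom (T ^ n : SL(2, ℤ)) z = 1 := by
    rw [ModularGroup.denom_apply, coe_T_zpow]
    simp
  rw [this]; simp

variable {p : ℕ} [NeZero p] {k : ℤ} (F : ModularForm (G0 p) k)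

lemma slash_eq_of_mem_Gamma0 {γ : SL(2, ℤ)} (hγ : γ ∈ Gamma0 p) :
    (⇑F : ℍ → ℂ) ∣[k] γ = ⇑F :=
  SlashInvariantForm.slash_action_eqn F (mapGL ℝ γ) (Subgroup.mem_map_of_mem _ hγ)

lemma S_T_zpow_S_inv_mem (n : ℤ) : S * T ^ ((p : ℤ) * n) * S⁻¹ ∈ Gamma0 p := by
  rw [Gamma0_mem, Matrix.SpecialLinearGroup.coe_mul, S_mul_T_zpow_coe,
    Matrix.SpecialLinearGroup.coe_inv, coe_S]
  simp [Matrix.mul_apply, Fin.sum_univ_two, Matrix.adjugate_fin_two_of]

/-- The conjugate `F ∣[k] S`. -/
noncomputable def FS : ℍ → ℂ := (⇑F : ℍ → ℂ) ∣[k] S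

lemma FS_vadd (n : ℤ) (z : ℍ) : FS F ((((p : ℤ) * n : ℤ) : ℝ) +ᵥ z) = FS F z := by
  rw [← slash_T_zpow_apply (FS F) k]
  unfold FS
  rw [← SlashAction.slash_mul]
  have : S * T ^ ((p : ℤ) * n) = (S * T ^ ((p : ℤ) * n) * S⁻¹) * S := by group
  rw [this, SlashAction.slash_mul, slash_eq_of_mem_Gamma0 F (S_T_zpow_S_inv_mem n)]

lemma FS_periodic : Periodic (FS F ∘ ofComplex) (p : ℝ) := by
  intro w
  by_cases! hw : 0 < Complex.im w
  · have : 0 < Complex.im (w + (p : ℝ)) := by simp [hw]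
    simp only [comp_apply, ofComplex_apply_of_im_pos this, ofComplex_apply_of_im_pos hw]
    have h1 := FS_vadd F 1 ⟨w, hw⟩
    rw [← h1]
    congr 1
    ext
    simp [add_comm]
  · have : Complex.im (w + (p : ℝ)) ≤ 0 := by simpa using hw
    rw [comp_apply, comp_apply, ofComplex_apply_of_im_nonpos this,
      ofComplex_apply_of_im_nonpos hw]

lemma slash_mdiff (g : SL(2, ℤ)) : MDiff ((⇑F : ℍ → ℂ) ∣[k] g) := by
  rw [ModularForm.SL_slash]
  exact (ModularFormClass.holo F).slash k _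

lemma slash_bdd (g : SL(2, ℤ)) : IsBoundedAtImInfty ((⇑F : ℍ → ℂ) ∣[k] g) :=
  ModularFormClass.bdd_at_infty_slash F g

/-- The conjugate `F ∣[k] S T^b`, `z ↦ (F ∣[k] S) (z + b)`. -/
noncomputable def FST (b : ℤ) : ℍ → ℂ := (⇑F : ℍ → ℂ) ∣[k] (S * T ^ b)

lemma FST_apply (b : ℤ) (z : ℍ) : FST F b z = FS F ((b : ℝ) +ᵥ z) := by
  unfold FST FS
  rw [SlashAction.slash_mul, slash_T_zpow_apply]

lemma FST_zero : FST F 0 = FS F := by
  unfold FST FS; simp

lemma FST_periodic (b : ℤ) : Periodic (FST F b ∘ ofComplex) (p : ℝ) := by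
  intro w
  by_cases! hw : 0 < Complex.im w
  · have : 0 < Complex.im (w + (p : ℝ)) := by simp [hw]
    simp only [comp_apply, ofComplex_apply_of_im_pos this, ofComplex_apply_of_im_pos hw]
    rw [FST_apply, FST_apply]
    have h1 := FS_vadd F 1 ((b : ℝ) +ᵥ ⟨w, hw⟩)
    rw [← h1]
    congr 1
    ext
    simp
    ring
  · have : Complex.im (w + (p : ℝ)) ≤ 0 := by simpa using hw
    rw [comp_apply, comp_apply, ofComplex_apply_of_im_nonpos this,
      ofComplex_apply_of_im_nonpos hw]

lemma FST_mem_nice (b : ℤ) : FST F b ∈ niceSubring (p : ℝ) :=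
  analyticAt_cuspFunction_zero (by exact_mod_cast Nat.pos_of_ne_zero (NeZero.ne p))
    (FST_periodic F b) (slash_mdiff F _) (slash_bdd F _)

lemma F_periodic : Periodic ((⇑F : ℍ → ℂ) ∘ ofComplex) (p : ℝ) := by
  have h1 : (1 : ℝ) ∈ (G0 p).strictPeriods := by simp [G0]
  have := SlashInvariantFormClass.periodic_comp_ofComplex F h1
  simpa using this.nat_mul p

lemma F_mem_nice : (⇑F : ℍ → ℂ) ∈ niceSubring (p : ℝ) :=
  analyticAt_cuspFunction_zero (by exact_mod_cast Nat.pos_of_ne_zero (NeZero.ne p))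
    (F_periodic F) (ModularFormClass.holo F) (ModularFormClass.bdd_at_infty F)

end Conj

/-! ### Comparison of `q`-expansions -/

section Expansions

variable (p : ℕ) [NeZero p]

lemma qParam_one_eq_pow (z : ℂ) : 𝕢 1 z = (𝕢 (p : ℝ) z) ^ p := by
  have hp : (p : ℂ) ≠ 0 := by exact_mod_cast NeZero.ne p
  simp only [Periodic.qParam]
  rw [← Complex.exp_nat_mul]
  congr 1
  push_cast
  field_simp

/-- `ζ = exp(2πi/p)`. -/
noncomputable def zetaC : ℂ := Complex.exp (2 * Real.pi * Complex.I / p)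

lemma zetaC_pow_p : zetaC p ^ p = 1 := by
  have hp : (p : ℂ) ≠ 0 := by exact_mod_cast NeZero.ne p
  unfold zetaC
  rw [← Complex.exp_nat_mul, mul_div_cancel₀ _ hp]
  exact Complex.exp_two_pi_mul_I

lemma qParam_vadd (b : ℕ) (z : ℍ) :
    𝕢 (p : ℝ) ((((b : ℤ) : ℝ) +ᵥ z : ℍ) : ℂ) = zetaC p ^ b * 𝕢 (p : ℝ) z := by
  simp only [Periodic.qParam, UpperHalfPlane.coe_vadd, zetaC]
  rw [← Complex.exp_nat_mul, ← Complex.exp_add]
  congr 1
  push_cast
  ring

/-- A bare function on `ℍ`, bundled so that Mathlib's `FunLike`-polymorphic lemmas apply. -/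
structure Fn where
  /-- the function -/
  toFun : ℍ → ℂ

instance : FunLike Fn ℍ ℂ where
  coe := Fn.toFun
  coe_injective := fun a b h => by cases a; cases b; congr

omit [NeZero p] in
lemma coeff_unique_fun {h : ℝ} {f : ℍ → ℂ} {c : ℕ → ℂ} (hh : 0 < h)
    (hfanalytic : AnalyticAt ℂ (cuspFunction h f) 0)
    (hf : ∀ τ : ℍ, HasSum (fun m ↦ c m • 𝕢 h τ ^ m) (f τ)) (m : ℕ) :
    c m = (qExpansion h f).coeff m :=
  UpperHalfPlane.qExpansion_coeff_unique (⟨f⟩ : Fn) hh hfanalytic hf m

lemma hasSum_expand (a : PowerSeries ℂ) (x y : ℂ) (hx : x ^ p = y) (v : ℂ)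
    (h1 : HasSum (fun m : ℕ => a.coeff m • y ^ m) v) :
    HasSum (fun n : ℕ => (a.expand p (NeZero.ne p)).coeff n • x ^ n) v := by
  have hinj : Function.Injective (fun m : ℕ => p * m) :=
    fun a b hab => Nat.eq_of_mul_eq_mul_left (Nat.pos_of_ne_zero (NeZero.ne p)) hab
  have hsupp : ∀ n ∉ Set.range (fun m : ℕ => p * m),
      (fun n : ℕ => (a.expand p (NeZero.ne p)).coeff n • x ^ n) n = 0 := by
    intro n hn
    have : ¬ p ∣ n := fun ⟨m, hm⟩ => hn ⟨m, hm.symm⟩
    simp [PowerSeries.coeff_expand_of_not_dvd p (NeZero.ne p) _ this]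
  refine (hinj.hasSum_iff hsupp).mp ?_
  have : ((fun n : ℕ => (a.expand p (NeZero.ne p)).coeff n • x ^ n) ∘
      fun m : ℕ => p * m) = fun m : ℕ => a.coeff m • y ^ m := by
    funext m
    simp only [comp_apply, PowerSeries.coeff_expand_mul]
    rw [← hx, ← pow_mul]
  rw [this]
  exact h1

/-- For a function of period `1`, the expansion in `q^{1/p}` is the expansion in `q`, expanded. -/
lemma qExpansion_eq_expand {f : ℍ → ℂ} (hper : Periodic (f ∘ ofComplex) (1 : ℝ)) (hhol : MDiff f)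
    (hbdd : IsBoundedAtImInfty f) :
    qExpansion (p : ℝ) f = (qExpansion 1 f).expand p (NeZero.ne p) := by
  have hp0 : (0 : ℝ) < p := by exact_mod_cast Nat.pos_of_ne_zero (NeZero.ne p)
  have hperp : Periodic (f ∘ ofComplex) (p : ℝ) := by simpa using hper.nat_mul p
  have han : AnalyticAt ℂ (cuspFunction (p : ℝ) f) 0 :=
    analyticAt_cuspFunction_zero hp0 hperp hhol hbdd
  have key : ∀ τ : ℍ, HasSum (fun n : ℕ => ((qExpansion 1 f).expand p
      (NeZero.ne p)).coeff n • 𝕢 (p : ℝ) τ ^ n) (f τ) := by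
    intro τ
    exact hasSum_expand p _ _ _ (qParam_one_eq_pow p τ).symm _
      (hasSum_qExpansion one_pos hper hhol hbdd τ)
  ext n
  exact (coeff_unique_fun hp0 han key n).symm

variable {p} {k : ℤ} (F : ModularForm (G0 p) k)

lemma qExpansion_F_eq_expand :
    qExpansion (p : ℝ) (⇑F : ℍ → ℂ) = (qExpansion 1 (⇑F : ℍ → ℂ)).expand p (NeZero.ne p) := by
  have h1 : (1 : ℝ) ∈ (G0 p).strictPeriods := by simp [G0]
  exact qExpansion_eq_expand p (SlashInvariantFormClass.periodic_comp_ofComplex F h1)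
    (ModularFormClass.holo F) (ModularFormClass.bdd_at_infty F)

lemma qExpansion_levelOne_eq_expand {k' : ℤ} (E : ModularForm 𝒮ℒ k') :
    qExpansion (p : ℝ) (⇑E : ℍ → ℂ) = (qExpansion 1 (⇑E : ℍ → ℂ)).expand p (NeZero.ne p) := by
  have h1 : (1 : ℝ) ∈ (𝒮ℒ).strictPeriods := by simp
  exact qExpansion_eq_expand p (SlashInvariantFormClass.periodic_comp_ofComplex E h1)
    (ModularFormClass.holo E) (ModularFormClass.bdd_at_infty E)

/-- The expansion of `F ∣[k] S T^b` is the expansion of `F ∣[k] S` rescaled by `ζ^b`. -/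
lemma qExpansion_FST (b : ℕ) :
    qExpansion (p : ℝ) (FST F (b : ℤ)) =
      PowerSeries.rescale (zetaC p ^ b) (qExpansion (p : ℝ) (FS F)) := by
  have hp0 : (0 : ℝ) < p := by exact_mod_cast Nat.pos_of_ne_zero (NeZero.ne p)
  have key : ∀ τ : ℍ, HasSum (fun n : ℕ =>
      (PowerSeries.rescale (zetaC p ^ b) (qExpansion (p : ℝ) (FS F))).coeff n • 𝕢 (p : ℝ) τ ^ n)
      (FST F (b : ℤ) τ) := by
    intro τ
    have h1 := hasSum_qExpansion hp0 (FS_periodic F) (slash_mdiff F S) (slash_bdd F S)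
      (((b : ℤ) : ℝ) +ᵥ τ)
    rw [FST_apply]
    have : (fun n : ℕ => (PowerSeries.rescale (zetaC p ^ b)
        (qExpansion (p : ℝ) (FS F))).coeff n • 𝕢 (p : ℝ) τ ^ n) =
        fun m : ℕ => (qExpansion (p : ℝ) (FS F)).coeff m •
          𝕢 (p : ℝ) ((((b : ℤ) : ℝ) +ᵥ τ : ℍ) : ℂ) ^ m := by
      funext m
      rw [PowerSeries.coeff_rescale, qParam_vadd, mul_pow]
      simp only [smul_eq_mul]
      ring
    rw [this]
    exact h1
  ext n
  exact (coeff_unique_fun hp0 (FST_mem_nice F b) key n).symm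

end Expansions

/-! ### The main theorem -/

section Main

variable {p : ℕ} [Fact p.Prime] [NeZero p] {k : ℤ} (F : ModularForm (G0 p) k)

/-- The `p + 1` conjugates of `F`, indexed by `Option (ZMod p)`. -/
noncomputable def conj : Option (ZMod p) → ℍ → ℂ
  | none => (⇑F : ℍ → ℂ)
  | some b => FST F ((b.val : ℕ) : ℤ)

lemma conj_mem_nice (o : Option (ZMod p)) : conj F o ∈ niceSubring (p : ℝ) := by
  cases o with
  | none => exact F_mem_nice F
  | some b => exact FST_mem_nice F _

lemma esymmFun_eq_conj (i : ℕ) :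
    esymmFun 𝒮ℒ F i =
      ∑ s ∈ Finset.powersetCard i (Finset.univ : Finset (Option (ZMod p))), ∏ o ∈ s, conj F o := by
  rw [esymmFun_eq_of_equiv 𝒮ℒ F (cosetEquiv p) i]
  refine Finset.sum_congr rfl fun s _ => Finset.prod_congr rfl fun o _ => ?_
  cases o with
  | none => exact quotientFunc_cosetEquiv_none p F
  | some b => exact quotientFunc_cosetEquiv_some p F b

/-- The expansions in `x = q^{1/p}` of the conjugates, in terms of the expansion `G₀` of `F` in `q`
and the expansion `G₁` of `F ∣[k] S` in `x`. -/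
noncomputable def conjPS {R : Type*} [CommRing R] (ζ : R) (G₀ G₁ : PowerSeries R) :
    Option (ZMod p) → PowerSeries R
  | none => G₀.expand p (NeZero.ne p)
  | some b => PowerSeries.rescale (ζ ^ b.val) G₁

lemma qExpansion_conj (o : Option (ZMod p)) :
    qExpansion (p : ℝ) (conj F o) =
      conjPS (zetaC p) (qExpansion 1 (⇑F : ℍ → ℂ)) (qExpansion (p : ℝ) (FS F)) o := by
  cases o with
  | none => exact qExpansion_F_eq_expand F
  | some b => exact qExpansion_FST F b.val

lemma map_conjPS {R R' : Type*} [CommRing R] [CommRing R'] (φ : R →+* R') (ζ : R)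
    (G₀ G₁ : PowerSeries R) (o : Option (ZMod p)) :
    (conjPS ζ G₀ G₁ o).map φ = conjPS (φ ζ) (G₀.map φ) (G₁.map φ) o := by
  cases o with
  | none => simp [conjPS]
  | some b =>
    simp only [conjPS]
    rw [← map_pow, PowerSeries.rescale_map]

/-- The `q`-expansion of `e_i` of the conjugates, expanded to a series in `x = q^{1/p}`. -/
theorem qExpansion_esymm_expand (i : ℕ) :
    (qExpansion 1 (⇑(esymmMF 𝒮ℒ F i) : ℍ → ℂ)).expand p (NeZero.ne p) =
      ∑ s ∈ Finset.powersetCard i (Finset.univ : Finset (Option (ZMod p))),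
        ∏ o ∈ s, conjPS (zetaC p) (qExpansion 1 (⇑F : ℍ → ℂ)) (qExpansion (p : ℝ) (FS F)) o := by
  rw [← qExpansion_levelOne_eq_expand, coe_esymmMF, esymmFun_eq_conj,
    qExpansion_sum_prod (p : ℝ) _ _ _ (conj_mem_nice F)]
  exact Finset.sum_congr rfl fun s _ => Finset.prod_congr rfl fun o _ => qExpansion_conj F o

/-- **Main theorem.**  Let `A` be a ring with an injective homomorphism `ι : A →+* ℂ` and
`ζ : A` with `ι ζ = exp(2πi/p)`.  If the `q`-expansion of `F` is (the image of) `G₀ : A⟦q⟧` and the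
`q^{1/p}`-expansion of `F ∣[k] S` is (the image of) `G₁ : A⟦x⟧`, then the `q`-expansion of the
`i`-th elementary symmetric function of the `p + 1` conjugates of `F` is (the image of) some
`Q : A⟦q⟧`, and `Q(x^p) = e_i(G₀(x^p), G₁(x), G₁(ζ x), …, G₁(ζ^{p-1} x))`. -/
theorem exists_qExpansion_esymm {A : Type*} [CommRing A] (ι : A →+* ℂ)
    (hι : Function.Injective ι) (ζ : A) (hζ : ι ζ = zetaC p) (G₀ G₁ : PowerSeries A)
    (h0 : qExpansion 1 (⇑F : ℍ → ℂ) = G₀.map ι)
    (h1 : qExpansion (p : ℝ) (FS F) = G₁.map ι) (i : ℕ) :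
    ∃ Q : PowerSeries A, qExpansion 1 (⇑(esymmMF 𝒮ℒ F i) : ℍ → ℂ) = Q.map ι ∧
      Q.expand p (NeZero.ne p) =
        ∑ s ∈ Finset.powersetCard i (Finset.univ : Finset (Option (ZMod p))),
          ∏ o ∈ s, conjPS ζ G₀ G₁ o := by
  set P : PowerSeries A :=
    ∑ s ∈ Finset.powersetCard i (Finset.univ : Finset (Option (ZMod p))),
      ∏ o ∈ s, conjPS ζ G₀ G₁ o with hP
  set E : PowerSeries ℂ := qExpansion 1 (⇑(esymmMF 𝒮ℒ F i) : ℍ → ℂ) with hE
  have hPE : P.map ι = E.expand p (NeZero.ne p) := by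
    rw [hE, qExpansion_esymm_expand, hP, map_sum]
    refine Finset.sum_congr rfl fun s _ => ?_
    rw [map_prod]
    refine Finset.prod_congr rfl fun o _ => ?_
    rw [map_conjPS, hζ, h0, h1]
  refine ⟨PowerSeries.mk fun n => P.coeff (p * n), ?_, ?_⟩
  · ext n
    rw [PowerSeries.coeff_map, PowerSeries.coeff_mk, ← PowerSeries.coeff_map, hPE,
      PowerSeries.coeff_expand_mul]
  · ext m
    rw [PowerSeries.coeff_expand]
    split_ifs with hm
    · obtain ⟨n, rfl⟩ := hm
      rw [PowerSeries.coeff_mk, Nat.mul_div_cancel_left _ (Nat.pos_of_ne_zero (NeZero.ne p))]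
    · apply hι
      rw [map_zero, ← PowerSeries.coeff_map, hPE, PowerSeries.coeff_expand_of_not_dvd _ _ _ hm]

/-- Push-forward of the main theorem along a ring homomorphism `φ : A →+* κ`. -/
theorem exists_qExpansion_esymm_map {A κ : Type*} [CommRing A] [CommRing κ] (ι : A →+* ℂ)
    (hι : Function.Injective ι) (ζ : A) (hζ : ι ζ = zetaC p) (G₀ G₁ : PowerSeries A)
    (h0 : qExpansion 1 (⇑F : ℍ → ℂ) = G₀.map ι)
    (h1 : qExpansion (p : ℝ) (FS F) = G₁.map ι) (φ : A →+* κ) (i : ℕ) :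
    ∃ Q : PowerSeries A, qExpansion 1 (⇑(esymmMF 𝒮ℒ F i) : ℍ → ℂ) = Q.map ι ∧
      (Q.map φ).expand p (NeZero.ne p) =
        ∑ s ∈ Finset.powersetCard i (Finset.univ : Finset (Option (ZMod p))),
          ∏ o ∈ s, conjPS (φ ζ) (G₀.map φ) (G₁.map φ) o := by
  obtain ⟨Q, hQ1, hQ2⟩ := exists_qExpansion_esymm F ι hι ζ hζ G₀ G₁ h0 h1 i
  refine ⟨Q, hQ1, ?_⟩
  rw [← PowerSeries.map_expand, hQ2, map_sum]
  refine Finset.sum_congr rfl fun s _ => ?_
  rw [map_prod]
  exact Finset.prod_congr rfl fun o _ => map_conjPS φ ζ G₀ G₁ o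

omit [Fact p.Prime] in
lemma expand_injective {R : Type*} [CommRing R] :
    Function.Injective (PowerSeries.expand (R := R) p (NeZero.ne p)) := by
  intro a b hab
  ext n
  have := congrArg (PowerSeries.coeff (p * n)) hab
  simpa [PowerSeries.coeff_expand_mul] using this

omit [Fact p.Prime] in
lemma rescale_expand_of_pow_eq_one {R : Type*} [CommRing R] (c : R) (hc : c ^ p = 1)
    (D : PowerSeries R) :
    PowerSeries.rescale c (D.expand p (NeZero.ne p)) = D.expand p (NeZero.ne p) := by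
  ext m
  rw [PowerSeries.coeff_rescale, PowerSeries.coeff_expand]
  split_ifs with hm
  · obtain ⟨n, rfl⟩ := hm
    rw [pow_mul, hc, one_pow, one_mul]
  · rw [mul_zero]

omit [Fact p.Prime] in
lemma card_option_zmod : Fintype.card (Option (ZMod p)) = p + 1 := by
  rw [Fintype.card_option, ZMod.card]

/-- **Norm case.**  If, after reduction along `φ : A →+* κ`, the `q^{1/p}`-expansion of
`F ∣[k] S` is a series `D₂(x^p)`, then the `q`-expansion of the norm of `F` (`= e_{p+1}` of the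
conjugates, a level one form of weight `k (p + 1)`) reduces to `G₀ · D₂^p`. -/
theorem exists_qExpansion_norm_map {A κ : Type*} [CommRing A] [CommRing κ] (ι : A →+* ℂ)
    (hι : Function.Injective ι) (ζ : A) (hζ : ι ζ = zetaC p) (G₀ G₁ : PowerSeries A)
    (h0 : qExpansion 1 (⇑F : ℍ → ℂ) = G₀.map ι)
    (h1 : qExpansion (p : ℝ) (FS F) = G₁.map ι) (φ : A →+* κ) (D₂ : PowerSeries κ)
    (hD : G₁.map φ = D₂.expand p (NeZero.ne p)) :
    ∃ Q : PowerSeries A, qExpansion 1 (⇑(esymmMF 𝒮ℒ F (p + 1)) : ℍ → ℂ) = Q.map ι ∧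
      Q.map φ = G₀.map φ * D₂ ^ p := by
  obtain ⟨Q, hQ1, hQ2⟩ := exists_qExpansion_esymm_map F ι hι ζ hζ G₀ G₁ h0 h1 φ (p + 1)
  refine ⟨Q, hQ1, expand_injective (p := p) ?_⟩
  have hζp : (φ ζ) ^ p = 1 := by
    rw [← map_pow]
    have : ζ ^ p = 1 := hι (by rw [map_pow, hζ, zetaC_pow_p, map_one])
    rw [this, map_one]
  rw [hQ2, ← card_option_zmod (p := p), ← Finset.card_univ, Finset.powersetCard_self,
    Finset.sum_singleton, Fintype.prod_option, map_mul, map_pow]
  congr 1
  have : ∀ b : ZMod p, conjPS (φ ζ) (G₀.map φ) (G₁.map φ) (some b) = D₂.expand p (NeZero.ne p) := by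
    intro b
    simp only [conjPS]
    rw [hD, rescale_expand_of_pow_eq_one _ (by rw [← pow_mul, mul_comm, pow_mul, hζp, one_pow])]
  rw [Finset.prod_congr rfl fun b _ => this b, Finset.prod_const, Finset.card_univ, ZMod.card]

/-- The `i`-th elementary symmetric polynomial in `p + 1` variables evaluated at
`(u, v, …, v)`. -/
noncomputable def esymmConst {κ : Type*} [CommRing κ] (p : ℕ) [NeZero p] (u v : κ) (i : ℕ) : κ :=
  ∑ s ∈ Finset.powersetCard i (Finset.univ : Finset (Option (ZMod p))),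
    ∏ o ∈ s, (Option.elim o u fun _ => v)

omit [Fact p.Prime] in
/-- Generating function: `(1 + u X) (1 + v X)^p = ∑_i e_i(u, v, …, v) X^i`. -/
lemma esymmConst_genFun {κ : Type*} [CommRing κ] (u v : κ) :
    (1 + Polynomial.C u * Polynomial.X) * (1 + Polynomial.C v * Polynomial.X) ^ p =
      ∑ i ∈ Finset.range (p + 2), Polynomial.C (esymmConst p u v i) * Polynomial.X ^ i := by
  classical
  have h1 : (1 + Polynomial.C u * Polynomial.X) * (1 + Polynomial.C v * Polynomial.X) ^ p =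
      ∏ o : Option (ZMod p),
        (1 + Polynomial.C (Option.elim o u fun _ => v) * (Polynomial.X : Polynomial κ)) := by
    rw [Fintype.prod_option]
    simp [Finset.prod_const, Finset.card_univ, ZMod.card]
  rw [h1, Finset.prod_one_add]
  have hmaps : ∀ t ∈ (Finset.univ : Finset (Option (ZMod p))).powerset,
      t.card ∈ Finset.range (p + 2) := by
    intro t _
    rw [Finset.mem_range]
    have := Finset.card_le_univ t
    rw [card_option_zmod] at this
    omega
  rw [← Finset.sum_fiberwise_of_maps_to hmaps]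
  refine Finset.sum_congr rfl fun i _ => ?_
  unfold esymmConst
  rw [map_sum, Finset.sum_mul, Finset.powersetCard_eq_filter]
  refine Finset.sum_congr rfl fun s hs => ?_
  rw [Finset.prod_mul_distrib, Finset.prod_const, (Finset.mem_filter.mp hs).2, map_prod]

omit [Fact p.Prime] in
lemma esymmConst_eq_coeff {κ : Type*} [CommRing κ] (u v : κ) (i : ℕ) :
    esymmConst p u v i =
      ((1 + Polynomial.C u * Polynomial.X) * (1 + Polynomial.C v * Polynomial.X) ^ p).coeff i := by
  classical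
  rw [esymmConst_genFun, Polynomial.finsetSum_coeff]
  simp only [Polynomial.coeff_C_mul_X_pow]
  by_cases hi : i ∈ Finset.range (p + 2)
  · rw [Finset.sum_eq_single i]
    · simp
    · intro j _ hji
      simp [hji.symm]
    · intro h; exact absurd hi h
  · rw [Finset.sum_eq_zero]
    · unfold esymmConst
      rw [Finset.powersetCard_eq_empty.mpr, Finset.sum_empty]
      rw [Finset.card_univ, card_option_zmod]
      rw [Finset.mem_range] at hi
      omega
    · intro j hj
      have : i ≠ j := fun h => hi (h ▸ hj)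
      simp [this]

/-- **Constant case.**  If, after reduction along `φ : A →+* κ`, `F` and `F ∣[k] S` have constant
expansions `u` and `v`, then `e_i` of the conjugates reduces to the constant
`e_i(u, v, …, v) = [X^i] (1 + u X) (1 + v X)^p`. -/
theorem exists_qExpansion_esymm_const {A κ : Type*} [CommRing A] [CommRing κ] (ι : A →+* ℂ)
    (hι : Function.Injective ι) (ζ : A) (hζ : ι ζ = zetaC p) (G₀ G₁ : PowerSeries A)
    (h0 : qExpansion 1 (⇑F : ℍ → ℂ) = G₀.map ι)
    (h1 : qExpansion (p : ℝ) (FS F) = G₁.map ι) (φ : A →+* κ) (u v : κ)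
    (hu : G₀.map φ = PowerSeries.C u) (hv : G₁.map φ = PowerSeries.C v) (i : ℕ) :
    ∃ Q : PowerSeries A, qExpansion 1 (⇑(esymmMF 𝒮ℒ F i) : ℍ → ℂ) = Q.map ι ∧
      Q.map φ = PowerSeries.C (esymmConst p u v i) := by
  obtain ⟨Q, hQ1, hQ2⟩ := exists_qExpansion_esymm_map F ι hι ζ hζ G₀ G₁ h0 h1 φ i
  refine ⟨Q, hQ1, expand_injective (p := p) ?_⟩
  rw [hQ2, PowerSeries.expand_C, esymmConst, map_sum]
  refine Finset.sum_congr rfl fun s _ => ?_
  rw [map_prod]
  refine Finset.prod_congr rfl fun o _ => ?_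
  cases o with
  | none => simp [conjPS, hu, PowerSeries.expand_C]
  | some b =>
    simp only [conjPS, hv, Option.elim]
    ext n
    rw [PowerSeries.coeff_rescale, PowerSeries.coeff_C]
    split_ifs with hn
    · simp [hn]
    · simp

end Main

end Fermat.Agent.S16.ConjEsymm
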