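import Mathlib
import Fermat.Agent.S16.ConjEsymm

/-!
# S16: `ConjEsymm` with the conjugate `F ∣[k] S` given as `z ↦ c * Ht (z / p)`

In all applications the conjugate `F ∣[k] S` of a form `F` on `Γ₀(p)` is known pointwise as
`(F ∣[k] S) z = c * Ht w` for `w = z / p`, where `Ht` is a function with an ordinary `q`-expansion
(a form on `Γ₀(p)`: `U_p F`, a Serre derivative, …).  This file converts that information into the
width-`p` expansion consumed by `ConjEsymm`, and restates the corollaries.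
-/

set_option autoImplicit false

open UpperHalfPlane SlashInvariantForm CongruenceSubgroup ModularGroup Matrix.SpecialLinearGroup
  Function

open scoped ModularForm MatrixGroups Topology Manifold

namespace Fermat.Agent.S16.ConjEsymmDiv

open Fermat.Agent.S16.EsymmForm Fermat.Agent.S16.Gamma0PCosets Fermat.Agent.S16.ConjEsymm

local notation "𝕢" => Periodic.qParam

variable {p : ℕ} [NeZero p] {k : ℤ} (F : ModularForm (G0 p) k)

omit [NeZero p] in
lemma qParam_div (z w : ℂ) (hw : w = z / p) : 𝕢 1 w = 𝕢 (p : ℝ) z := by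
  simp only [Periodic.qParam, hw]
  congr 1
  push_cast
  ring

/-- If `(F ∣[k] S) z = c * Ht w` whenever `w = z / p`, and `Ht` has an ordinary `q`-expansion, then
the width-`p` expansion of `F ∣[k] S` is `c • qExpansion 1 Ht` (as a power series in `q^{1/p}`). -/
theorem qExpansion_FS_of_div (Ht : ℍ → ℂ) (c : ℂ)
    (hper : Periodic (Ht ∘ ofComplex) (1 : ℝ)) (hhol : MDiff Ht) (hbdd : IsBoundedAtImInfty Ht)
    (h : ∀ z w : ℍ, (w : ℂ) = (z : ℂ) / p → FS F z = c * Ht w) :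
    qExpansion (p : ℝ) (FS F) = c • qExpansion 1 Ht := by
  have hp0 : (0 : ℝ) < p := by exact_mod_cast Nat.pos_of_ne_zero (NeZero.ne p)
  have hpc : (0 : ℝ) < (p : ℝ)⁻¹ := inv_pos.mpr hp0
  have han : AnalyticAt ℂ (cuspFunction (p : ℝ) (FS F)) 0 := by
    have := FST_mem_nice F 0
    rwa [FST_zero] at this
  have key : ∀ τ : ℍ, HasSum (fun n : ℕ => (c • qExpansion 1 Ht).coeff n • 𝕢 (p : ℝ) τ ^ n)
      (FS F τ) := by
    intro τ
    -- the point `w = τ / p`
    have him : 0 < ((τ : ℂ) / p).im := by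
      have : ((τ : ℂ) / p).im = τ.im / p := by
        rw [Complex.div_natCast_im]
        rfl
      rw [this]
      exact div_pos τ.im_pos hp0
    let w : ℍ := ⟨(τ : ℂ) / p, him⟩
    have hw : (w : ℂ) = (τ : ℂ) / p := rfl
    rw [h τ w hw]
    have h1 := (hasSum_qExpansion one_pos hper hhol hbdd w).mul_left c
    have : (fun n : ℕ => (c • qExpansion 1 Ht).coeff n • 𝕢 (p : ℝ) τ ^ n) =
        fun n : ℕ => c * ((qExpansion 1 Ht).coeff n • 𝕢 1 (w : ℂ) ^ n) := by
      funext n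
      rw [qParam_div (τ : ℂ) (w : ℂ) hw]
      simp only [PowerSeries.coeff_smul, smul_eq_mul]
      ring
    rw [this]
    exact h1
  ext n
  exact (coeff_unique_fun hp0 han key n).symm

section Main

variable [Fact p.Prime]

/-- `ConjEsymm.exists_qExpansion_esymm_map` with `F ∣[k] S` given as `z ↦ c * Ht (z / p)`:
`G₁` is the `q`-expansion of `Ht` and `c = ι cA`. -/
theorem exists_qExpansion_esymm_map_of_div {A κ : Type*} [CommRing A] [CommRing κ] (ι : A →+* ℂ)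
    (hι : Function.Injective ι) (ζ : A) (hζ : ι ζ = zetaC p) (G₀ G₁ : PowerSeries A) (cA : A)
    (Ht : ℍ → ℂ) (hper : Periodic (Ht ∘ ofComplex) (1 : ℝ)) (hhol : MDiff Ht)
    (hbdd : IsBoundedAtImInfty Ht)
    (h : ∀ z w : ℍ, (w : ℂ) = (z : ℂ) / p → FS F z = ι cA * Ht w)
    (h0 : qExpansion 1 (⇑F : ℍ → ℂ) = G₀.map ι) (h1 : qExpansion 1 Ht = G₁.map ι)
    (φ : A →+* κ) (i : ℕ) :
    ∃ Q : PowerSeries A, qExpansion 1 (⇑(esymmMF 𝒮ℒ F i) : ℍ → ℂ) = Q.map ι ∧
      (Q.map φ).expand p (NeZero.ne p) =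
        ∑ s ∈ Finset.powersetCard i (Finset.univ : Finset (Option (ZMod p))),
          ∏ o ∈ s, conjPS (φ ζ) (G₀.map φ) ((cA • G₁).map φ) o := by
  refine exists_qExpansion_esymm_map F ι hι ζ hζ G₀ (cA • G₁) h0 ?_ φ i
  rw [qExpansion_FS_of_div F Ht (ι cA) hper hhol hbdd h, h1]
  ext n
  simp [PowerSeries.coeff_smul]

/-- **Norm case** with `F ∣[k] S` given as `z ↦ c * Ht (z / p)`: if `c • qExp Ht` reduces to
`D₂(q^p)` then the norm of `F` reduces to `qExp F · D₂^p`. -/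
theorem exists_qExpansion_norm_map_of_div {A κ : Type*} [CommRing A] [CommRing κ] (ι : A →+* ℂ)
    (hι : Function.Injective ι) (ζ : A) (hζ : ι ζ = zetaC p) (G₀ G₁ : PowerSeries A) (cA : A)
    (Ht : ℍ → ℂ) (hper : Periodic (Ht ∘ ofComplex) (1 : ℝ)) (hhol : MDiff Ht)
    (hbdd : IsBoundedAtImInfty Ht)
    (h : ∀ z w : ℍ, (w : ℂ) = (z : ℂ) / p → FS F z = ι cA * Ht w)
    (h0 : qExpansion 1 (⇑F : ℍ → ℂ) = G₀.map ι) (h1 : qExpansion 1 Ht = G₁.map ι)
    (φ : A →+* κ) (D₂ : PowerSeries κ)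
    (hD : φ cA • G₁.map φ = D₂.expand p (NeZero.ne p)) :
    ∃ Q : PowerSeries A, qExpansion 1 (⇑(esymmMF 𝒮ℒ F (p + 1)) : ℍ → ℂ) = Q.map ι ∧
      Q.map φ = G₀.map φ * D₂ ^ p := by
  refine exists_qExpansion_norm_map F ι hι ζ hζ G₀ (cA • G₁) h0 ?_ φ D₂ ?_
  · rw [qExpansion_FS_of_div F Ht (ι cA) hper hhol hbdd h, h1]
    ext n
    simp [PowerSeries.coeff_smul]
  · rw [← hD]
    ext n
    simp [PowerSeries.coeff_smul]

/-- **Constant case** with `F ∣[k] S` given as `z ↦ c * Ht (z / p)`. -/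
theorem exists_qExpansion_esymm_const_of_div {A κ : Type*} [CommRing A] [CommRing κ] (ι : A →+* ℂ)
    (hι : Function.Injective ι) (ζ : A) (hζ : ι ζ = zetaC p) (G₀ G₁ : PowerSeries A) (cA : A)
    (Ht : ℍ → ℂ) (hper : Periodic (Ht ∘ ofComplex) (1 : ℝ)) (hhol : MDiff Ht)
    (hbdd : IsBoundedAtImInfty Ht)
    (h : ∀ z w : ℍ, (w : ℂ) = (z : ℂ) / p → FS F z = ι cA * Ht w)
    (h0 : qExpansion 1 (⇑F : ℍ → ℂ) = G₀.map ι) (h1 : qExpansion 1 Ht = G₁.map ι)
    (φ : A →+* κ) (u v : κ) (hu : G₀.map φ = PowerSeries.C u)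
    (hv : G₁.map φ = PowerSeries.C v) (i : ℕ) :
    ∃ Q : PowerSeries A, qExpansion 1 (⇑(esymmMF 𝒮ℒ F i) : ℍ → ℂ) = Q.map ι ∧
      Q.map φ = PowerSeries.C (esymmConst p u (φ cA * v) i) := by
  refine exists_qExpansion_esymm_const F ι hι ζ hζ G₀ (cA • G₁) h0 ?_ φ u (φ cA * v) hu ?_ i
  · rw [qExpansion_FS_of_div F Ht (ι cA) hper hhol hbdd h, h1]
    ext n
    simp [PowerSeries.coeff_smul]
  · ext n
    have := congrArg (PowerSeries.coeff n) hv
    rw [PowerSeries.coeff_map, PowerSeries.coeff_C] at this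
    rw [PowerSeries.coeff_map, PowerSeries.coeff_smul, smul_eq_mul, φ.map_mul, this,
      PowerSeries.coeff_C]
    split_ifs <;> simp

end Main

end Fermat.Agent.S16.ConjEsymmDiv
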