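import Mathlib

/-!
# `PSL(2,ℤ) = C₂ * C₃`, in the form of a universal property of `SL(2,ℤ)`

For any group `K` and `s r : K` with `s ^ 2 = 1`, `r ^ 3 = 1` there is a homomorphism
`SL(2,ℤ) →* K` with `S ↦ s` and `S * T ↦ r`.  Proof: ping-pong on the upper half plane.
-/

set_option autoImplicit false

open scoped MatrixGroups
open UpperHalfPlane ModularGroup

namespace Fermat.Agent.S16.PSL2Free

/-- The homomorphism from the cyclic group `ZMod n` (multiplicative notation) sending the
generator to an element `g` with `g ^ n = 1`. -/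
noncomputable def cyc {K : Type*} [Group K] (n : ℕ) (g : K) (hg : g ^ n = 1) :
    Multiplicative (ZMod n) →* K :=
  AddMonoidHom.toMultiplicativeLeft
    (ZMod.lift n ⟨zmultiplesHom (Additive K) (Additive.ofMul g), by
      show (n : ℤ) • Additive.ofMul g = 0
      rw [natCast_zsmul, ← ofMul_pow, hg]; rfl⟩)

theorem cyc_apply {K : Type*} [Group K] (n : ℕ) (g : K) (hg : g ^ n = 1) (k : ℤ) :
    cyc n g hg (Multiplicative.ofAdd (k : ZMod n)) = g ^ k := by
  show Additive.toMul (ZMod.lift n _ (k : ZMod n)) = g ^ k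
  rw [ZMod.lift_coe]
  show Additive.toMul (k • Additive.ofMul g) = g ^ k
  rw [← ofMul_zpow]; rfl

theorem cyc_one {K : Type*} [Group K] (n : ℕ) (g : K) (hg : g ^ n = 1) :
    cyc n g hg (Multiplicative.ofAdd (1 : ZMod n)) = g := by
  have := cyc_apply n g hg 1
  simpa using this

theorem cyc_surj_rep {n : ℕ} (x : Multiplicative (ZMod n)) :
    ∃ k : ℤ, x = Multiplicative.ofAdd (k : ZMod n) := by
  obtain ⟨k, hk⟩ := ZMod.intCast_surjective (Multiplicative.toAdd x)
  exact ⟨k, by rw [hk]; rfl⟩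

end Fermat.Agent.S16.PSL2Free

namespace Fermat.Agent.S16.PSL2Free

open Matrix

theorem S_sq : (S : SL(2,ℤ)) ^ 2 = -1 := by
  apply Subtype.ext
  simp only [SpecialLinearGroup.coe_neg]
  ext i j; fin_cases i <;> fin_cases j <;> simp [pow_two]

theorem ST_cube : (S * T : SL(2,ℤ)) ^ 3 = -1 := by
  apply Subtype.ext
  simp only [SpecialLinearGroup.coe_neg]
  ext i j; fin_cases i <;> fin_cases j <;> simp [pow_succ]

/-- The action of `SL(2,ℤ)` on the upper half plane, as a homomorphism to permutations. -/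
noncomputable def rho : SL(2,ℤ) →* Equiv.Perm ℍ := MulAction.toPermHom SL(2,ℤ) ℍ

theorem rho_apply (g : SL(2,ℤ)) (z : ℍ) : rho g z = g • z := rfl

theorem rho_neg_one : rho (-1) = 1 := by
  ext1 z
  rw [rho_apply, ModularGroup.SL_neg_smul, one_smul]; rfl

theorem rho_S_sq : rho S ^ 2 = 1 := by rw [← map_pow, S_sq, rho_neg_one]

theorem rho_ST_cube : rho (S * T) ^ 3 = 1 := by rw [← map_pow, ST_cube, rho_neg_one]

theorem coe_S_smul (z : ℍ) : (↑(S • z) : ℂ) = -(z : ℂ)⁻¹ := by
  rw [modular_S_smul]; simp [inv_neg]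

theorem coe_T_smul (z : ℍ) : (↑(T • z) : ℂ) = (z : ℂ) + 1 := by
  rw [modular_T_smul, coe_vadd]; simp [add_comm]

theorem re_S_smul (z : ℍ) : (S • z).re = - z.re / Complex.normSq (z : ℂ) := by
  show (↑(S • z) : ℂ).re = _
  rw [coe_S_smul, Complex.neg_re, Complex.inv_re]
  simp [neg_div]

theorem re_T_smul (z : ℍ) : (T • z).re = z.re + 1 := by
  show (↑(T • z) : ℂ).re = _
  rw [coe_T_smul]; simp

theorem normSq_pos (z : ℍ) : 0 < Complex.normSq (z : ℂ) :=
  Complex.normSq_pos.mpr z.ne_zero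

theorem re_S_smul_pos {z : ℍ} (h : z.re < 0) : 0 < (S • z).re := by
  rw [re_S_smul]
  exact div_pos (by linarith) (normSq_pos z)

theorem re_S_smul_neg {z : ℍ} (h : 0 < z.re) : (S • z).re < 0 := by
  rw [re_S_smul]
  exact div_neg_of_neg_of_pos (by linarith) (normSq_pos z)

theorem re_ST_smul_neg {z : ℍ} (h : 0 < z.re) : ((S * T) • z).re < 0 := by
  rw [mul_smul]
  apply re_S_smul_neg
  rw [re_T_smul]; linarith

theorem re_ST_sq_smul_neg {z : ℍ} (h : 0 < z.re) : ((S * T) ^ 2 • z).re < 0 := by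
  have h2 : (↑((S * T : SL(2,ℤ)) ^ 2 • z) : ℂ) = -1 - (z : ℂ)⁻¹ := by
    rw [pow_two, mul_smul, mul_smul, mul_smul, coe_S_smul, coe_T_smul, coe_S_smul, coe_T_smul]
    have hz : (z : ℂ) ≠ 0 := z.ne_zero
    have hz1 : (z : ℂ) + 1 ≠ 0 := by
      have := (T • z).ne_zero
      rwa [coe_T_smul] at this
    have e1 : -((z : ℂ) + 1)⁻¹ + 1 = (z : ℂ) * ((z : ℂ) + 1)⁻¹ := by
      field_simp; ring
    rw [e1, mul_inv, inv_inv]
    field_simp
    ring
  show (↑((S * T : SL(2,ℤ)) ^ 2 • z) : ℂ).re < 0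
  rw [h2, Complex.sub_re, Complex.inv_re]
  have : 0 < z.re / Complex.normSq (z : ℂ) := div_pos h (normSq_pos z)
  simp only [Complex.neg_re, Complex.one_re]
  have h3 : (z : ℂ).re = z.re := rfl
  rw [h3]; linarith

end Fermat.Agent.S16.PSL2Free

namespace Fermat.Agent.S16.PSL2Free

open Monoid

/-- orders of the two free factors -/
def ord (b : Bool) : ℕ := cond b 2 3

/-- the two cyclic factors -/
abbrev Fac (b : Bool) : Type := Multiplicative (ZMod (ord b))

/-- generators of the two cyclic factors, as permutations of `ℍ` -/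
noncomputable def genPerm (b : Bool) : Equiv.Perm ℍ := cond b (rho S) (rho (S * T))

theorem genPerm_pow (b : Bool) : genPerm b ^ ord b = 1 := by
  cases b
  · exact rho_ST_cube
  · exact rho_S_sq

/-- the generator of a factor -/
def gen (b : Bool) : Fac b := Multiplicative.ofAdd (1 : ZMod (ord b))

noncomputable def facHom (b : Bool) : Fac b →* Equiv.Perm ℍ := cyc (ord b) (genPerm b) (genPerm_pow b)

theorem facHom_gen (b : Bool) : facHom b (gen b) = genPerm b := cyc_one _ _ _

/-- the ping-pong sets -/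
def pp (b : Bool) : Set ℍ := cond b {z | 0 < z.re} {z | z.re < 0}

theorem fac_true_cases : ∀ h : Fac true, h ≠ 1 → h = gen true := by
  show ∀ h : Multiplicative (ZMod 2), h ≠ 1 → h = Multiplicative.ofAdd (1 : ZMod 2)
  decide

theorem fac_false_cases : ∀ h : Fac false, h ≠ 1 → h = gen false ∨ h = gen false ^ 2 := by
  show ∀ h : Multiplicative (ZMod 3), h ≠ 1 → h = Multiplicative.ofAdd (1 : ZMod 3) ∨
    h = Multiplicative.ofAdd (1 : ZMod 3) ^ 2
  decide

theorem theta_injective : Function.Injective (CoprodI.lift facHom) := by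
  refine CoprodI.lift_injective_of_ping_pong facHom ?_ pp ?_ ?_ ?_
  · right
    refine ⟨false, ?_⟩
    show (3 : Cardinal) ≤ Cardinal.mk (Multiplicative (ZMod 3))
    rw [Cardinal.mk_fintype]
    norm_num [ZMod.card]
  · intro b
    cases b
    · refine ⟨⟨(-1 : ℂ) + Complex.I, by simp⟩, ?_⟩
      show (⟨(-1 : ℂ) + Complex.I, _⟩ : ℍ).re < 0
      simp [UpperHalfPlane.re]
    · refine ⟨⟨(1 : ℂ) + Complex.I, by simp⟩, ?_⟩
      show 0 < (⟨(1 : ℂ) + Complex.I, _⟩ : ℍ).re
      simp [UpperHalfPlane.re]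
  · intro i j hij
    cases i <;> cases j
    · exact absurd rfl hij
    · refine Set.disjoint_left.mpr ?_
      intro z (hz : z.re < 0) (hz' : 0 < z.re)
      linarith
    · refine Set.disjoint_left.mpr ?_
      intro z (hz : 0 < z.re) (hz' : z.re < 0)
      linarith
    · exact absurd rfl hij
  · intro i j hij
    cases i <;> cases j
    · exact absurd rfl hij
    · -- i = false (C₃), j = true
      intro h hh
      rcases fac_false_cases h hh with rfl | rfl
      · rw [facHom_gen]
        rintro _ ⟨z, (hz : 0 < z.re), rfl⟩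
        exact re_ST_smul_neg hz
      · rw [map_pow, facHom_gen]
        rintro _ ⟨z, (hz : 0 < z.re), rfl⟩
        show ((rho (S * T) ^ 2) z).re < 0
        rw [← map_pow]
        exact re_ST_sq_smul_neg hz
    · intro h hh
      rw [fac_true_cases h hh, facHom_gen]
      rintro _ ⟨z, (hz : z.re < 0), rfl⟩
      exact re_S_smul_pos hz
    · exact absurd rfl hij

end Fermat.Agent.S16.PSL2Free

namespace Fermat.Agent.S16.PSL2Free

open Monoid

/-- the injective homomorphism `C₂ * C₃ → Perm ℍ` -/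
noncomputable def theta : CoprodI Fac →* Equiv.Perm ℍ := CoprodI.lift facHom

theorem theta_of_gen (b : Bool) : theta (CoprodI.of (gen b)) = genPerm b := by
  rw [theta, CoprodI.lift_of, facHom_gen]

theorem rho_range_le : (rho).range ≤ theta.range := by
  rw [MonoidHom.range_eq_map, ← _root_.SpecialLinearGroup.SL2Z_generators, MonoidHom.map_closure,
    Subgroup.closure_le]
  rintro _ ⟨g, hg, rfl⟩
  rcases hg with rfl | rfl
  · exact ⟨CoprodI.of (gen true), theta_of_gen true⟩
  · refine ⟨(CoprodI.of (gen true))⁻¹ * CoprodI.of (gen false), ?_⟩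
    rw [map_mul, map_inv, theta_of_gen, theta_of_gen]
    show (rho S)⁻¹ * rho (S * T) = rho T
    rw [map_mul, inv_mul_cancel_left]

/-- the homomorphism `SL(2,ℤ) → C₂ * C₃` (quotient by `±1`) -/
noncomputable def sigma : SL(2,ℤ) →* CoprodI Fac :=
  (MonoidHom.ofInjective theta_injective).symm.toMonoidHom.comp
    (rho.codRestrict theta.range fun g => rho_range_le ⟨g, rfl⟩)

theorem theta_sigma (g : SL(2,ℤ)) : theta (sigma g) = rho g := by
  have := (MonoidHom.ofInjective theta_injective).apply_symm_apply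
    (rho.codRestrict theta.range (fun g => rho_range_le ⟨g, rfl⟩) g)
  exact congrArg Subtype.val this

theorem sigma_S : sigma S = CoprodI.of (gen true) :=
  theta_injective (by
    show theta (sigma S) = theta _
    rw [theta_sigma]; exact (theta_of_gen true).symm)

theorem sigma_ST : sigma (S * T) = CoprodI.of (gen false) :=
  theta_injective (by
    show theta (sigma (S * T)) = theta _
    rw [theta_sigma]; exact (theta_of_gen false).symm)

/-- **Universal property of `PSL(2,ℤ) = C₂ * C₃`.** -/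
theorem exists_hom {K : Type*} [Group K] (s r : K) (hs : s ^ 2 = 1) (hr : r ^ 3 = 1) :
    ∃ Ψ : SL(2,ℤ) →* K, Ψ S = s ∧ Ψ (S * T) = r := by
  have hg : ∀ b : Bool, (cond b s r) ^ ord b = 1 := by
    intro b; cases b
    · exact hr
    · exact hs
  refine ⟨(CoprodI.lift fun b => cyc (ord b) (cond b s r) (hg b)).comp sigma, ?_, ?_⟩
  · rw [MonoidHom.comp_apply, sigma_S, CoprodI.lift_of]
    exact cyc_one _ _ _
  · rw [MonoidHom.comp_apply, sigma_ST, CoprodI.lift_of]
    exact cyc_one _ _ _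

/-- A homomorphism out of `SL(2,ℤ)` is determined by its values on `S` and `S * T`. -/
theorem hom_ext {K : Type*} [Group K] {Ψ₁ Ψ₂ : SL(2,ℤ) →* K} (hS : Ψ₁ S = Ψ₂ S)
    (hST : Ψ₁ (S * T) = Ψ₂ (S * T)) : Ψ₁ = Ψ₂ := by
  have hT : Ψ₁ T = Ψ₂ T := by
    have h1 : Ψ₁ T = (Ψ₁ S)⁻¹ * Ψ₁ (S * T) := by rw [map_mul, inv_mul_cancel_left]
    have h2 : Ψ₂ T = (Ψ₂ S)⁻¹ * Ψ₂ (S * T) := by rw [map_mul, inv_mul_cancel_left]
    rw [h1, h2, hS, hST]
  have : Subgroup.closure ({S, T} : Set SL(2,ℤ)) ≤ Ψ₁.eqLocus Ψ₂ := by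
    rw [Subgroup.closure_le]
    rintro g (rfl | rfl)
    · exact hS
    · exact hT
  rw [_root_.SpecialLinearGroup.SL2Z_generators] at this
  exact MonoidHom.ext fun g => this (Subgroup.mem_top g)

end Fermat.Agent.S16.PSL2Free
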