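import Mathlib
import Fermat.Agent.S16.PSL2Free

/-!
# Crossed homomorphisms of `SL(2,ℤ)` with values in functions on a `SL(2,ℤ)`-set

* `coc` : Shapiro's cocycle attached to a homomorphism `φ : Γ → A` (any abelian group `A`);
* `exists_crossed` : on `SL(2,ℤ)` (acting on `X` through `PSL(2,ℤ)`) a crossed homomorphism with
  prescribed values `ũ` on `S` and `ṽ` on `S * T` exists as soon as `ũ + S·ũ = 0` and
  `ṽ + R·ṽ + R²·ṽ = 0`;
* `crossed_ext` : a crossed homomorphism is determined by its values on `S` and `S * T`.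
-/

set_option autoImplicit false

open scoped MatrixGroups
open ModularGroup

namespace Fermat.Agent.S16.Crossed

/-! ### Shapiro's cocycle with general coefficients -/

section Cocycle

variable {G : Type*} [Group G] (Γ : Subgroup G) {A : Type*} [AddCommGroup A]

/-- A fixed section of `G → G ⧸ Γ`. -/
noncomputable def sec (g : G) : G := (QuotientGroup.mk g : G ⧸ Γ).out

theorem sec_inv_mul_mem (g : G) : (sec Γ g)⁻¹ * g ∈ Γ := by
  rw [← QuotientGroup.eq]
  exact QuotientGroup.out_eq' _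

theorem sec_mul_of_mem (g : G) {γ : G} (hγ : γ ∈ Γ) : sec Γ (g * γ) = sec Γ g := by
  unfold sec
  congr 1
  rw [QuotientGroup.eq]
  simpa [mul_assoc] using Γ.inv_mem hγ

/-- The `φ`-equivariant function `F (g γ) = F g + φ γ`. -/
noncomputable def equiF (φ : Additive Γ →+ A) (g : G) : A :=
  φ (Additive.ofMul ⟨(sec Γ g)⁻¹ * g, sec_inv_mul_mem Γ g⟩)

theorem equiF_mul_of_mem (φ : Additive Γ →+ A) (g : G) {γ : G} (hγ : γ ∈ Γ) :
    equiF Γ φ (g * γ) = equiF Γ φ g + φ (Additive.ofMul ⟨γ, hγ⟩) := by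
  unfold equiF
  rw [← map_add]
  congr 1
  apply Subtype.ext
  show (sec Γ (g * γ))⁻¹ * (g * γ) = (sec Γ g)⁻¹ * g * γ
  rw [sec_mul_of_mem Γ g hγ, mul_assoc]

/-- The Shapiro cocycle `c_g : G ⧸ Γ → A` attached to `φ`. -/
noncomputable def coc (φ : Additive Γ →+ A) (g : G) : (G ⧸ Γ) → A :=
  fun x => equiF Γ φ (g * x.out) - equiF Γ φ x.out

theorem coc_mk (φ : Additive Γ →+ A) (g r : G) :
    coc Γ φ g (r : G ⧸ Γ) = equiF Γ φ (g * r) - equiF Γ φ r := by
  obtain ⟨γ, hγ⟩ := QuotientGroup.mk_out_eq_mul Γ r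
  unfold coc
  rw [hγ, ← mul_assoc, equiF_mul_of_mem Γ φ (g * r) γ.2, equiF_mul_of_mem Γ φ r γ.2]
  abel

theorem coc_mul (φ : Additive Γ →+ A) (g h : G) (x : G ⧸ Γ) :
    coc Γ φ (g * h) x = coc Γ φ g (h • x) + coc Γ φ h x := by
  induction x using QuotientGroup.induction_on with
  | H r =>
    have : h • (r : G ⧸ Γ) = ((h * r : G) : G ⧸ Γ) := rfl
    rw [this, coc_mk, coc_mk, coc_mk, mul_assoc]
    abel

theorem coc_of_conj_mem (φ : Additive Γ →+ A) (g r : G) (h : r⁻¹ * g * r ∈ Γ) :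
    coc Γ φ g (r : G ⧸ Γ) = φ (Additive.ofMul ⟨r⁻¹ * g * r, h⟩) := by
  rw [coc_mk]
  have : g * r = r * (r⁻¹ * g * r) := by group
  rw [this, equiF_mul_of_mem Γ φ r h]
  abel

theorem coc_of_mem (φ : Additive Γ →+ A) {γ : G} (hγ : γ ∈ Γ) :
    coc Γ φ γ ((1 : G) : G ⧸ Γ) = φ (Additive.ofMul ⟨γ, hγ⟩) := by
  have h' : (1 : G)⁻¹ * γ * 1 ∈ Γ := by simpa using hγ
  rw [coc_of_conj_mem Γ φ γ 1 h']
  congr 2
  apply Subtype.ext
  simp

end Cocycle

/-! ### Crossed homomorphisms -/

section CrossedGen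

variable {G X A : Type*} [Group G] [MulAction G X] [AddCommGroup A]

/-- `c : G → X → A` is a crossed homomorphism. -/
def IsCrossed (c : G → X → A) : Prop := ∀ g h x, c (g * h) x = c g (h • x) + c h x

theorem IsCrossed.one {c : G → X → A} (hc : IsCrossed c) (x : X) : c 1 x = 0 := by
  have := hc 1 1 x
  simp only [mul_one, one_smul] at this
  have h2 : c 1 x + 0 = c 1 x + c 1 x := by rw [add_zero]; exact this
  exact (add_left_cancel h2).symm

theorem IsCrossed.inv {c : G → X → A} (hc : IsCrossed c) (g : G) (x : X) :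
    c g⁻¹ x = - c g (g⁻¹ • x) := by
  have := hc g g⁻¹ x
  rw [mul_inv_cancel, hc.one] at this
  exact eq_neg_of_add_eq_zero_right this.symm

theorem IsCrossed.pow {c : G → X → A} (hc : IsCrossed c) (g : G) (M : ℕ) (x : X) :
    c (g ^ M) x = ∑ i ∈ Finset.range M, c g (g ^ i • x) := by
  induction M with
  | zero => simp [hc.one]
  | succ n ih =>
    rw [pow_succ', hc, ih, Finset.sum_range_succ]
    abel

/-- conjugation formula: `c (δ σ δ⁻¹) x₀ = c σ (δ⁻¹ x₀)` if `σ` fixes `δ⁻¹ x₀`. -/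
theorem IsCrossed.conj {c : G → X → A} (hc : IsCrossed c) (δ σ : G) (x₀ : X)
    (hfix : σ • δ⁻¹ • x₀ = δ⁻¹ • x₀) : c (δ * σ * δ⁻¹) x₀ = c σ (δ⁻¹ • x₀) := by
  rw [hc, hc, hfix, hc.inv δ x₀]
  abel

/-- the permutation of `X × A` attached to `g` and `w`. -/
def mk (g : G) (w : X → A) : Equiv.Perm (X × A) where
  toFun z := (g • z.1, z.2 + w z.1)
  invFun z := (g⁻¹ • z.1, z.2 - w (g⁻¹ • z.1))
  left_inv z := by simp
  right_inv z := by simp

theorem mk_apply (g : G) (w : X → A) (z : X × A) : mk g w z = (g • z.1, z.2 + w z.1) := rfl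

theorem mk_mul (g h : G) (w w' : X → A) :
    mk g w * mk h w' = mk (g * h) (fun x => w (h • x) + w' x) := by
  ext z
  · simp [mk_apply, mul_smul]
  · simp only [Equiv.Perm.coe_mul, Function.comp_apply, mk_apply]
    abel

theorem mk_injective (g : G) {w w' : X → A} (h : mk g w = mk g w') : w = w' := by
  funext x
  have := congrArg (fun e => (e (x, (0 : A))).2) h
  simpa [mk_apply] using this

theorem mk_one_of_trivial (g : G) (hg : ∀ x : X, g • x = x) : mk g (0 : X → A) = 1 := by
  ext z <;> simp [mk_apply, hg]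

/-- a crossed homomorphism gives a homomorphism to `Perm (X × A)` -/
def toPerm {c : G → X → A} (hc : IsCrossed c) : G →* Equiv.Perm (X × A) where
  toFun g := mk g (c g)
  map_one' := by
    have : c 1 = 0 := funext fun x => hc.one x
    rw [this]; exact mk_one_of_trivial 1 (fun x => one_smul _ x)
  map_mul' g h := by
    rw [mk_mul]
    congr 1
    funext x
    exact hc g h x

end CrossedGen

/-! ### `SL(2,ℤ)` -/

section SL2

open PSL2Free

variable {X A : Type*} [MulAction SL(2,ℤ) X] [AddCommGroup A]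

/-- A crossed homomorphism on `SL(2,ℤ)` is determined by its values on `S` and `S * T`. -/
theorem crossed_ext {c c' : SL(2,ℤ) → X → A} (hc : IsCrossed c) (hc' : IsCrossed c')
    (hS : c S = c' S) (hR : c (S * T) = c' (S * T)) : c = c' := by
  have : toPerm hc = toPerm hc' := by
    apply hom_ext
    · show mk S (c S) = mk S (c' S)
      rw [hS]
    · show mk (S * T) (c (S * T)) = mk (S * T) (c' (S * T))
      rw [hR]
  funext g
  have h2 : mk g (c g) = mk g (c' g) := DFunLike.congr_fun this g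
  exact mk_injective g h2

/-- Existence of a crossed homomorphism with prescribed values on the generators. -/
theorem exists_crossed (hneg : ∀ x : X, (-1 : SL(2,ℤ)) • x = x) (u v : X → A)
    (hu : ∀ x, u (S • x) + u x = 0)
    (hv : ∀ x, v ((S * T) • (S * T) • x) + v ((S * T) • x) + v x = 0) :
    ∃ c : SL(2,ℤ) → X → A, IsCrossed c ∧ c S = u ∧ c (S * T) = v := by
  have hS2 : mk (S : SL(2,ℤ)) u ^ 2 = 1 := by
    rw [pow_two, mk_mul, ← pow_two, S_sq]
    have : (fun x => u (S • x) + u x) = (0 : X → A) := funext hu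
    rw [this]
    exact mk_one_of_trivial _ hneg
  have hR3 : mk (S * T : SL(2,ℤ)) v ^ 3 = 1 := by
    rw [pow_succ, pow_two, mk_mul, mk_mul, ← pow_two, ← pow_succ, ST_cube]
    have : (fun x => (fun x => v ((S * T) • x) + v x) ((S * T) • x) + v x) = (0 : X → A) := by
      funext x
      simpa [add_assoc] using hv x
    rw [this]
    exact mk_one_of_trivial _ hneg
  obtain ⟨Ψ, hΨS, hΨR⟩ := exists_hom _ _ hS2 hR3
  -- every `Ψ g` has the form `mk g w`
  have key : ∀ g : SL(2,ℤ), ∃ w : X → A, Ψ g = mk g w := by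
    let K : Subgroup SL(2,ℤ) :=
      { carrier := {g | ∃ w : X → A, Ψ g = mk g w}
        one_mem' := ⟨0, by rw [map_one]; exact (mk_one_of_trivial 1 (fun x => one_smul _ x)).symm⟩
        mul_mem' := by
          rintro g h ⟨w, hw⟩ ⟨w', hw'⟩
          exact ⟨_, by rw [map_mul, hw, hw', mk_mul]⟩
        inv_mem' := by
          rintro g ⟨w, hw⟩
          refine ⟨fun x => - w (g⁻¹ • x), ?_⟩
          rw [map_inv, hw, inv_eq_iff_mul_eq_one, mk_mul, mul_inv_cancel]
          have : (fun x => w (g⁻¹ • x) + -w (g⁻¹ • x)) = (0 : X → A) := by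
            funext x; simp
          rw [this]
          exact mk_one_of_trivial 1 (fun x => one_smul _ x) }
    have hK : K = ⊤ := by
      rw [eq_top_iff, ← _root_.SpecialLinearGroup.SL2Z_generators, Subgroup.closure_le]
      have hSK : (S : SL(2,ℤ)) ∈ K := ⟨u, hΨS⟩
      have hRK : (S * T : SL(2,ℤ)) ∈ K := ⟨v, hΨR⟩
      rintro g (rfl | rfl)
      · exact hSK
      · have : (T : SL(2,ℤ)) = S⁻¹ * (S * T) := by group
        rw [this]
        exact K.mul_mem (K.inv_mem hSK) hRK
    intro g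
    have : g ∈ K := by rw [hK]; trivial
    exact this
  choose c hc using key
  refine ⟨c, ?_, ?_, ?_⟩
  · intro g h x
    have h1 : mk (g * h) (c (g * h)) = mk (g * h) (fun x => c g (h • x) + c h x) := by
      rw [← hc, map_mul, hc g, hc h, mk_mul]
    exact congrFun (mk_injective _ h1) x
  · exact mk_injective S (by rw [← hc, hΨS])
  · exact mk_injective (S * T) (by rw [← hc, hΨR])

end SL2

end Fermat.Agent.S16.Crossed
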