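import Mathlib
import Fermat.Agent.S20.CuspVanish
import Fermat.Prelude.Def_FLTPrelim_Modularity
import Fermat.Prelude.Thm_CongruenceSubgroup_one_mem_strictPeriods_Gamma0

/-!
# S16, piece P3.cuspCriterion: the cusp criterion at prime level

For `p` prime, a weight-2 modular form `H` on `Γ₀(p)` whose `q`-expansion at `∞` has vanishing
constant term is a cusp form (`exists_cuspForm`).

Proof.  `Γ₀(p)` has two cusps, `∞` and `0`; by the coset decomposition
`SL(2,ℤ) = Γ₀(p) ⊔ ⋃_b Γ₀(p) S T^b` (`exists_decomp`) every translate `H ∣ g` tends at `i∞` either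
to `a₀ = valueAtInfty H` (if `g ∈ Γ₀(p)`) or to `c₀ = valueAtInfty (H ∣ S)` (otherwise).  The trace of
`H` to level one is a weight-2 form of level one, hence zero
(`ModularForm.levelOne_weight_two_rank_zero`); taking limits at `i∞` in
`0 = ∑_{q ∈ SL(2,ℤ)/Γ₀(p)} H ∣ q⁻¹` gives `0 = a₀ + p · c₀` (we only use: `0 = a₀ + m · c₀` with
`m ≥ 1` the number of nontrivial cosets).  So `a₀ = 0` forces `c₀ = 0`, i.e. `H` vanishes at all
cusps.
-/

set_option autoImplicit false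

open UpperHalfPlane ModularForm ModularFormClass MatrixGroups SlashInvariantForm CongruenceSubgroup Filter Function
open scoped Manifold Topology Pointwise

namespace Fermat.Agent.S16.CuspCriterion

/-- A function on `ℍ` that is holomorphic, bounded at `i∞` and periodic has a limit at `i∞`. -/
theorem tendsto_valueAtInfty {f : ℍ → ℂ} {h : ℝ} (hh : 0 < h)
    (hper : Periodic (f ∘ ofComplex) h) (hhol : MDiff f) (hbdd : IsBoundedAtImInfty f) :
    Tendsto f atImInfty (𝓝 (valueAtInfty f)) := by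
  have h1 := exp_decay_sub_atImInfty hh hper hhol hbdd
  have h2 : Tendsto (fun τ : ℍ => Real.exp (-2 * Real.pi * τ.im / h)) atImInfty (𝓝 0) := by
    have : Tendsto (fun τ : ℍ => τ.im) atImInfty atTop := tendsto_comap
    have h3 : Tendsto (fun y : ℝ => -2 * Real.pi * y / h) atTop atBot := by
      have hc : (-2 * Real.pi / h) < 0 := by
        apply div_neg_of_neg_of_pos _ hh
        nlinarith [Real.pi_pos]
      have := (tendsto_id (α := ℝ) (x := atTop)).const_mul_atTop_of_neg hc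
      refine this.congr (fun y => ?_)
      simp only [id]
      ring
    exact (Real.tendsto_exp_atBot.comp h3).comp this
  have h4 := h1.trans_tendsto h2
  have h5 : Tendsto (fun τ => (f τ - valueAtInfty f) + valueAtInfty f) atImInfty
      (𝓝 (0 + valueAtInfty f)) := h4.add tendsto_const_nhds
  simpa using h5

theorem isBoundedAtImInfty_slash {Γ : Subgroup (GL (Fin 2) ℝ)} [Γ.IsArithmetic] {k : ℤ}
    (H : ModularForm Γ k) (g : SL(2, ℤ)) : IsBoundedAtImInfty (⇑H ∣[k] g) := by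
  have hc' : IsCusp (Matrix.SpecialLinearGroup.mapGL ℝ g • OnePoint.infty) 𝒮ℒ :=
    isCusp_SL2Z_iff'.mpr ⟨g, rfl⟩
  have hc : IsCusp (Matrix.SpecialLinearGroup.mapGL ℝ g • OnePoint.infty) Γ :=
    (Subgroup.IsArithmetic.isCusp_iff_isCusp_SL2Z Γ).mpr hc'
  have := ModularFormClass.bdd_at_cusps H hc
  rw [OnePoint.isBoundedAt_iff_forall_SL2Z hc'] at this
  exact this g rfl

open Matrix.SpecialLinearGroup in
theorem conj_T_pow_mem (p : ℕ) (g : SL(2, ℤ)) :
    g * ModularGroup.T ^ (p : ℤ) * g⁻¹ ∈ Gamma0 p := by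
  have h1 : ModularGroup.T ^ (p : ℤ) ∈ Gamma p := ModularGroup_T_pow_mem_Gamma p p dvd_rfl
  have h2 : g * ModularGroup.T ^ (p : ℤ) * g⁻¹ ∈ Gamma p := (Gamma_normal p).conj_mem _ h1 g
  rw [Gamma_mem] at h2
  rw [Gamma0_mem]
  exact h2.2.2.1

open Matrix.SpecialLinearGroup in
theorem upperRightHom_intCast (m : ℤ) :
    Matrix.GeneralLinearGroup.upperRightHom ((m : ℤ) : ℝ) = mapGL ℝ (ModularGroup.T ^ m) := by
  apply Units.ext
  rw [mapGL_coe_matrix, map_apply_coe, ModularGroup.coe_T_zpow]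
  ext i j
  fin_cases i <;> fin_cases j <;> simp

open Matrix.SpecialLinearGroup ConjAct in
theorem periodic_slash {p : ℕ} [NeZero p] {k : ℤ}
    (H : ModularForm ((Gamma0 p : Subgroup SL(2, ℤ)) : Subgroup (GL (Fin 2) ℝ)) k) (g : SL(2, ℤ)) :
    Periodic ((⇑H ∣[k] g) ∘ ofComplex) (((p : ℕ) : ℝ) : ℂ) := by
  have key : ((p : ℕ) : ℝ) ∈ (toConjAct (mapGL ℝ g)⁻¹ •
      ((Gamma0 p : Subgroup SL(2, ℤ)) : Subgroup (GL (Fin 2) ℝ))).strictPeriods := by
    rw [Subgroup.mem_strictPeriods_iff, Subgroup.mem_pointwise_smul_iff_inv_smul_mem]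
    have : ((p : ℕ) : ℝ) = (((p : ℤ)) : ℝ) := by push_cast; rfl
    rw [this, upperRightHom_intCast]
    rw [← map_inv, inv_inv, ConjAct.toConjAct_smul, ← map_inv, ← map_mul, ← map_mul]
    exact Subgroup.mem_map_of_mem _ (conj_T_pow_mem p g)
  have := SlashInvariantFormClass.periodic_comp_ofComplex (ModularForm.translate H (mapGL ℝ g)) key
  have e : (⇑H ∣[k] g) = ⇑(ModularForm.translate H (mapGL ℝ g)) := by
    rw [ModularForm.coe_translate]; rfl
  rw [e]
  exact this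

/-- slash by `T ^ b` is translation by `b`. -/
theorem slash_T_zpow_apply (F : ℍ → ℂ) (k : ℤ) (b : ℤ) (z : ℍ) :
    (F ∣[k] (ModularGroup.T ^ b)) z = F ((b : ℝ) +ᵥ z) := by
  rw [SL_slash_apply, modular_T_zpow_smul]
  have : denom ((ModularGroup.T ^ b : SL(2, ℤ)) : GL (Fin 2) ℝ) z = 1 := by
    rw [ModularGroup.denom_apply, ModularGroup.coe_T_zpow]
    simp
  rw [this]
  simp

theorem tendsto_vadd_atImInfty (b : ℝ) : Tendsto (fun z : ℍ => b +ᵥ z) atImInfty atImInfty := by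
  rw [atImInfty, tendsto_comap_iff]
  have : (im ∘ fun z : ℍ => b +ᵥ z) = im := by
    funext z
    simp
  rw [this]
  exact tendsto_comap

theorem tendsto_slash_T_zpow {F : ℍ → ℂ} {c : ℂ} (k : ℤ) (b : ℤ)
    (hF : Tendsto F atImInfty (𝓝 c)) : Tendsto (F ∣[k] (ModularGroup.T ^ b)) atImInfty (𝓝 c) := by
  have : (F ∣[k] (ModularGroup.T ^ b)) = F ∘ (fun z : ℍ => (b : ℝ) +ᵥ z) := by
    funext z
    rw [slash_T_zpow_apply]
    rfl
  rw [this]
  exact hF.comp (tendsto_vadd_atImInfty _)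

/-- coset decomposition: `SL(2,ℤ) = Γ₀(p) ⊔ ⋃_b Γ₀(p) S T^b` for `p` prime. -/
theorem exists_decomp {p : ℕ} [Fact p.Prime] (g : SL(2, ℤ)) (hg : g ∉ Gamma0 p) :
    ∃ γ ∈ Gamma0 p, ∃ b : ℤ, g = γ * ModularGroup.S * ModularGroup.T ^ b := by
  rw [Gamma0_mem] at hg
  set c : ZMod p := ((g 1 0 : ℤ) : ZMod p) with hc
  set d : ZMod p := ((g 1 1 : ℤ) : ZMod p) with hd
  let b : ℤ := ((d / c : ZMod p).val : ℤ)
  refine ⟨g * (ModularGroup.T ^ b)⁻¹ * ModularGroup.S⁻¹, ?_, b, by group⟩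
  rw [Gamma0_mem]
  have hb : ((b : ℤ) : ZMod p) = d / c := by
    simp [b]
  have h1 : ((g * (ModularGroup.T ^ b)⁻¹ * ModularGroup.S⁻¹ : SL(2, ℤ)) 1 0 : ℤ) =
      g 1 0 * b - g 1 1 := by
    rw [← zpow_neg, ModularGroup.S_inv]
    simp [ModularGroup.coe_T_zpow, Matrix.mul_apply, Fin.sum_univ_two]
    ring
  rw [h1]
  push_cast
  rw [hb, ← hc, ← hd, mul_div_cancel₀ _ hg, sub_self]

section Main

variable {p : ℕ} [Fact p.Prime]


local notation "𝒬" => 𝒮ℒ ⧸ (Subgroup.subgroupOf ((Gamma0 p : Subgroup SL(2, ℤ)) : Subgroup (GL (Fin 2) ℝ)) 𝒮ℒ)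

noncomputable local instance : Fintype 𝒬 := Fintype.ofFinite _

theorem neZero_of_prime : NeZero p := ⟨(Fact.out : p.Prime).ne_zero⟩

variable (H : ModularForm ((Gamma0 p : Subgroup SL(2, ℤ)) : Subgroup (GL (Fin 2) ℝ)) 2)

omit [Fact p.Prime] in
theorem slash_eq_of_mem {g : SL(2, ℤ)} (hg : g ∈ Gamma0 p) : ⇑H ∣[(2 : ℤ)] g = ⇑H :=
  SlashInvariantFormClass.slash_action_eq H _ (Subgroup.mem_map_of_mem _ hg)

theorem tendsto_slash (g : SL(2, ℤ)) :
    Tendsto (⇑H ∣[(2 : ℤ)] g) atImInfty (𝓝 (valueAtInfty (⇑H ∣[(2 : ℤ)] g))) := by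
  have : NeZero p := neZero_of_prime
  have hp : (0 : ℝ) < ((p : ℕ) : ℝ) := by
    have := (Fact.out : p.Prime).pos
    exact_mod_cast this
  exact tendsto_valueAtInfty hp (periodic_slash H g)
    (MDifferentiable.slash (ModularFormClass.holo H) 2 _) (isBoundedAtImInfty_slash H g)

theorem tendsto_slash_of_not_mem {g : SL(2, ℤ)} (hg : g ∉ Gamma0 p) :
    Tendsto (⇑H ∣[(2 : ℤ)] g) atImInfty (𝓝 (valueAtInfty (⇑H ∣[(2 : ℤ)] ModularGroup.S))) := by
  obtain ⟨γ, hγ, b, rfl⟩ := exists_decomp g hg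
  rw [SlashAction.slash_mul, SlashAction.slash_mul, slash_eq_of_mem H hγ]
  exact tendsto_slash_T_zpow 2 b (tendsto_slash H ModularGroup.S)

theorem trace_eq_zero : ModularForm.trace 𝒮ℒ H = 0 := by
  have := ModularForm.levelOne_weight_two_rank_zero
  rw [rank_zero_iff_forall_zero] at this
  exact this _

theorem sum_quotientFunc : ∑ q : 𝒬, quotientFunc H q = 0 := by
  rw [← ModularForm.coe_trace, trace_eq_zero]
  rfl


omit [Fact p.Prime] in
open Matrix.SpecialLinearGroup in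
/-- the class of `mapGL g` in `𝒬` is trivial iff `g ∈ Γ₀(p)`. -/
theorem mk_eq_one_iff (r : 𝒮ℒ) (g : SL(2, ℤ)) (hg : mapGL ℝ g = r.val) :
    ((r : 𝒮ℒ) : 𝒬) = ((1 : 𝒮ℒ) : 𝒬) ↔ g ∈ Gamma0 p := by
  rw [QuotientGroup.eq, mul_one, Subgroup.mem_subgroupOf, Subgroup.coe_inv, ← hg, ← map_inv,
    Subgroup.mem_map_iff_mem mapGL_injective, inv_mem_iff]

open Matrix.SpecialLinearGroup in
open scoped Classical in
/-- each coset function has a limit at `i∞`: the constant term of `H` for the trivial coset, the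
constant term of `H ∣ S` otherwise. -/
theorem tendsto_quotientFunc (q : 𝒬) :
    Tendsto (quotientFunc H q) atImInfty
      (𝓝 (if q = ((1 : 𝒮ℒ) : 𝒬) then valueAtInfty ⇑H
        else valueAtInfty (⇑H ∣[(2 : ℤ)] ModularGroup.S))) := by
  induction q using Quotient.inductionOn with
  | h r =>
    obtain ⟨g, hg⟩ := r.2
    rw [quotientFunc_mk]
    have e : (⇑H ∣[(2 : ℤ)] (r.val)⁻¹) = ⇑H ∣[(2 : ℤ)] (g⁻¹ : SL(2, ℤ)) := by
      rw [SL_slash, ← hg, ← map_inv]
      rfl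
    rw [e]
    have hiff := mk_eq_one_iff (p := p) r g hg
    by_cases hmem : g ∈ Gamma0 p
    · have h1 : (⟦r⟧ : 𝒬) = ((1 : 𝒮ℒ) : 𝒬) := hiff.mpr hmem
      rw [if_pos h1, slash_eq_of_mem H (inv_mem hmem)]
      have := tendsto_slash H 1
      simpa using this
    · have h1 : ¬ (⟦r⟧ : 𝒬) = ((1 : 𝒮ℒ) : 𝒬) := fun h => hmem (hiff.mp h)
      rw [if_neg h1]
      exact tendsto_slash_of_not_mem H (fun h => hmem (by simpa using inv_mem h))

open Matrix.SpecialLinearGroup in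
theorem S_not_mem : ModularGroup.S ∉ Gamma0 p := by
  rw [Gamma0_mem]
  have hp := (Fact.out : p.Prime).one_lt
  have : Fact (1 < p) := ⟨hp⟩
  simp [ModularGroup.S]

open Matrix.SpecialLinearGroup in
/-- **Key step**: if the constant term of `H` at `∞` vanishes, so does the one at the cusp `0`. -/
theorem valueAtInfty_slash_S (h0 : valueAtInfty ⇑H = 0) :
    valueAtInfty (⇑H ∣[(2 : ℤ)] ModularGroup.S) = 0 := by
  classical
  set c := valueAtInfty (⇑H ∣[(2 : ℤ)] ModularGroup.S) with hc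
  have hsum : Tendsto (fun z => ∑ q : 𝒬, quotientFunc H q z) atImInfty
      (𝓝 (∑ q : 𝒬, if q = ((1 : 𝒮ℒ) : 𝒬) then valueAtInfty ⇑H else c)) :=
    tendsto_finsetSum _ (fun q _ => tendsto_quotientFunc H q)
  have hzero : (fun z => ∑ q : 𝒬, quotientFunc H q z) = fun _ => (0 : ℂ) := by
    funext z
    have := congrFun (sum_quotientFunc H) z
    simpa [Finset.sum_apply] using this
  rw [hzero] at hsum
  have hlim := tendsto_nhds_unique hsum tendsto_const_nhds
  rw [h0, Finset.sum_ite, Finset.sum_const_zero, zero_add, Finset.sum_const, smul_eq_zero] at hlim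
  rcases hlim with hcard | hc0
  · exfalso
    rw [Finset.card_eq_zero] at hcard
    let s : 𝒮ℒ := ⟨mapGL ℝ ModularGroup.S, ⟨ModularGroup.S, rfl⟩⟩
    have hs : ((s : 𝒮ℒ) : 𝒬) ∈ Finset.filter (fun q : 𝒬 => ¬ q = ((1 : 𝒮ℒ) : 𝒬)) Finset.univ := by
      rw [Finset.mem_filter]
      refine ⟨Finset.mem_univ _, fun h => ?_⟩
      exact S_not_mem (p := p) ((mk_eq_one_iff (p := p) s ModularGroup.S rfl).mp h)
    rw [hcard] at hs
    simp at hs
  · exact hc0

theorem isZeroAtImInfty_slash (h0 : valueAtInfty ⇑H = 0) (g : SL(2, ℤ)) :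
    IsZeroAtImInfty (⇑H ∣[(2 : ℤ)] g) := by
  unfold IsZeroAtImInfty ZeroAtFilter
  by_cases hg : g ∈ Gamma0 p
  · rw [slash_eq_of_mem H hg]
    have := tendsto_slash H 1
    simp only [SlashAction.slash_one] at this
    rwa [h0] at this
  · have := tendsto_slash_of_not_mem H hg
    rwa [valueAtInfty_slash_S H h0] at this

/-- **Cusp criterion, `valueAtInfty` form.** -/
theorem exists_cuspForm_of_valueAtInfty (h0 : valueAtInfty ⇑H = 0) :
    ∃ f : CuspForm ((Gamma0 p : Subgroup SL(2, ℤ)) : Subgroup (GL (Fin 2) ℝ)) 2, ⇑f = ⇑H :=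
  ⟨Fermat.Agent.S20.CuspVanish.cuspFormOfZero p 2 ⇑H (ModularFormClass.holo H)
    (fun _ hγ => slash_eq_of_mem H hγ) (isZeroAtImInfty_slash H h0), rfl⟩

omit [Fact p.Prime] in
theorem qCoeff_zero_eq_valueAtInfty : ModularFormClass.qCoeff H 0 = valueAtInfty ⇑H := by
  rw [ModularFormClass.qCoeff]
  exact UpperHalfPlane.qExpansion_coeff_zero one_pos
    (ModularFormClass.analyticAt_cuspFunction_zero H one_pos
      (CongruenceSubgroup.one_mem_strictPeriods_Gamma0 p))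
    (SlashInvariantFormClass.periodic_comp_ofComplex H
      (CongruenceSubgroup.one_mem_strictPeriods_Gamma0 p))

/-- **Cusp criterion**: a weight-2 modular form of prime level `p` whose `q`-expansion at `∞` has
vanishing constant term is a cusp form. -/
theorem exists_cuspForm (h0 : ModularFormClass.qCoeff H 0 = 0) :
    ∃ f : CuspForm (Gamma0 p) 2, (⇑f : ℍ → ℂ) = ⇑H :=
  exists_cuspForm_of_valueAtInfty H (by rwa [← qCoeff_zero_eq_valueAtInfty])

end Main

end Fermat.Agent.S16.CuspCriterion
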