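/-
S16 (CUSP), backup path B (helper44): a weight-2 form of prime level whose constant term at `∞`
vanishes is a cusp form.  Literal export: `cuspCriterionStatement : Interfaces.CuspCriterionStatement`.

Proof: every `γ ∈ SL₂(ℤ)` has the same bottom row mod `p` (projectively) as `1` or as some `S T^b`;
`g ∣ 1 = g` vanishes at `i∞` because `a₀(g) = 0`, and `(g ∣ S T^b)(τ) = -(1/p) (U_p g)((τ+b)/p)`
(`FrickeTraceB`) vanishes at `i∞` because `a₀(U_p g) = a₀(g) = 0`.
-/
import Mathlib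
import Fermat.Prelude.Def_FLTPrelim_Modularity
import Fermat.Prelude.Thm_ModularFormClass_qCoeff_heckeU
import Fermat.Prelude.Thm_CongruenceSubgroup_one_mem_strictPeriods_Gamma0
import Fermat.Agent.S16.FrickeTraceB
import Fermat.Agent.S16.NormLevelOne
import Fermat.Agent.S16.Interfaces2
import Fermat.Agent.S20.CuspVanish

set_option autoImplicit false

open UpperHalfPlane ModularForm MatrixGroups CongruenceSubgroup Filter Topology
open Fermat.Agent.S28.ModPolyCoset

namespace Fermat.Agent.S16.CuspCriterionB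

variable (p : ℕ) [Fact p.Prime]

omit [Fact p.Prime] in
/-- A form on `Γ₀(p)` whose constant `q`-coefficient vanishes tends to `0` at `i∞`. -/
theorem isZeroAtImInfty_of_qCoeff_zero {k : ℤ} (G : ModularForm (GammaP p) k)
    (h0 : ModularFormClass.qCoeff G 0 = 0) : IsZeroAtImInfty (G : ℍ → ℂ) := by
  have hΓ : (1 : ℝ) ∈ (GammaP p).strictPeriods := CongruenceSubgroup.one_mem_strictPeriods_Gamma0 p
  have han := ModularFormClass.analyticAt_cuspFunction_zero G one_pos hΓ
  have hper := SlashInvariantFormClass.periodic_comp_ofComplex G hΓ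
  have hc : cuspFunction 1 G 0 = 0 := by
    have h1 := qExpansion_coeff (h := 1) (G : ℍ → ℂ) 0
    rw [ModularFormClass.qCoeff] at h0
    rw [h0] at h1
    simpa using h1.symm
  have hcomp : (cuspFunction 1 G ∘ fun τ : ℍ ↦ Function.Periodic.qParam 1 τ) = G := by
    funext τ
    simpa using eq_cuspFunction τ one_ne_zero hper
  have ht := han.continuousAt.tendsto.comp (qParam_tendsto_atImInfty one_pos)
  rw [hcomp, hc] at ht
  exact ht

/-- `τ ↦ (τ + b)/p` tends to `i∞`. -/
theorem tendsto_heckeMatrix_smul (b : ℕ) :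
    Tendsto (fun τ : ℍ => heckeMatrix p b • τ) atImInfty atImInfty := by
  have hp : p ≠ 0 := (Fact.out : p.Prime).ne_zero
  have hp' : (0 : ℝ) < p := by exact_mod_cast Nat.pos_of_ne_zero hp
  rw [atImInfty, tendsto_comap_iff]
  have him : (UpperHalfPlane.im ∘ fun τ : ℍ => heckeMatrix p b • τ) = fun τ : ℍ => τ.im / p := by
    funext τ
    show (heckeMatrix p b • τ).im = _
    rw [← UpperHalfPlane.coe_im, ModularForm.coe_heckeMatrix_smul hp]
    have : (((τ : ℂ) + (b : ℂ)) / (p : ℂ)) = (((τ : ℂ) + (b : ℝ)) / ((p : ℝ) : ℂ)) := by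
      push_cast; rfl
    rw [this, Complex.div_ofReal_im]
    simp
  rw [him]
  exact Filter.Tendsto.atTop_div_const hp' tendsto_comap

/-- The constant coefficient of `U_p G` equals that of `G`. -/
theorem qCoeff_heckeUForm_zero (G : ModularForm (GammaP p) 2) :
    ModularFormClass.qCoeff (FrickeTraceB.heckeUForm p G) 0 = ModularFormClass.qCoeff G 0 := by
  have hp : p ≠ 0 := (Fact.out : p.Prime).ne_zero
  have hΓ : (1 : ℝ) ∈ (GammaP p).strictPeriods := CongruenceSubgroup.one_mem_strictPeriods_Gamma0 p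
  have h := ModularFormClass.qCoeff_heckeU G hΓ hp 0
  rw [← FrickeTraceB.coe_heckeUForm] at h
  rw [h]
  simp [ModularForm.coeffHeckeU]

/-- Every `SL₂(ℤ)`-translate of `G` vanishes at `i∞` when `a₀(G) = 0`. -/
theorem isZeroAtImInfty_slash (G : ModularForm (GammaP p) 2)
    (h0 : ModularFormClass.qCoeff G 0 = 0) (γ : SL(2, ℤ)) :
    IsZeroAtImInfty ((G : ℍ → ℂ) ∣[(2 : ℤ)] γ) := by
  have hp : p ≠ 0 := (Fact.out : p.Prime).ne_zero
  by_cases hc : (p : ℤ) ∣ γ 1 0
  · -- same coset as `1`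
    have h1 : (G : ℍ → ℂ) ∣[(2 : ℤ)] γ = (G : ℍ → ℂ) ∣[(2 : ℤ)] (1 : SL(2, ℤ)) := by
      refine NormLevelOne.slash_eq_of_row p G γ 1 ?_
      simpa using hc
    rw [h1, SlashAction.slash_one]
    exact isZeroAtImInfty_of_qCoeff_zero p G h0
  · -- same coset as `S T^b`
    have hcop : IsCoprime (γ 1 0) (p : ℤ) := by
      have hpr : Prime (p : ℤ) := Nat.prime_iff_prime_int.mp (Fact.out : p.Prime)
      exact (IsCoprime.symm ((Prime.coprime_iff_not_dvd hpr).mpr hc))
    obtain ⟨u, v, huv⟩ := hcop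
    -- `u * c + v * p = 1`; take `b ≡ u * d mod p`, `b ≥ 0`
    set d := γ 1 1 with hd
    set c := γ 1 0 with hcdef
    let b : ℕ := ((u * d) % (p : ℤ)).toNat
    have hb : ((b : ℕ) : ℤ) = (u * d) % (p : ℤ) := by
      apply Int.toNat_of_nonneg
      exact Int.emod_nonneg _ (by exact_mod_cast hp)
    have h1 : (G : ℍ → ℂ) ∣[(2 : ℤ)] γ =
        (G : ℍ → ℂ) ∣[(2 : ℤ)] (ModularGroup.S * ModularGroup.T ^ ((b : ℕ) : ℤ)) := by
      refine NormLevelOne.slash_eq_of_row p G γ _ ?_
      rw [(NormLevelOne.ST_row ((b : ℕ) : ℤ)).1, (NormLevelOne.ST_row ((b : ℕ) : ℤ)).2, hb]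
      -- `c * ((u d) % p) - d * 1 ≡ c u d - d = d (c u - 1) = - d v p`
      have h2 : (u * d) % (p : ℤ) = u * d - (p : ℤ) * ((u * d) / (p : ℤ)) := by
        have := Int.emod_add_mul_ediv (u * d) (p : ℤ)
        linarith
      rw [h2]
      refine ⟨-(d * v) - c * ((u * d) / (p : ℤ)), ?_⟩
      have : u * c = 1 - v * p := by linarith
      linear_combination d * this
    rw [h1]
    have hU0 : IsZeroAtImInfty (FrickeTraceB.heckeUForm p G : ℍ → ℂ) :=
      isZeroAtImInfty_of_qCoeff_zero p _ (by rw [qCoeff_heckeUForm_zero, h0])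
    have hfun : (G : ℍ → ℂ) ∣[(2 : ℤ)] (ModularGroup.S * ModularGroup.T ^ ((b : ℕ) : ℤ)) =
        fun τ => -((p : ℂ)⁻¹ * (FrickeTraceB.heckeUForm p G : ℍ → ℂ) (heckeMatrix p b • τ)) := by
      funext τ
      rw [FrickeTraceB.slash_S_T_eq, FrickeTraceB.coe_heckeUForm]
    rw [hfun]
    have ht : Tendsto (fun τ : ℍ => (FrickeTraceB.heckeUForm p G : ℍ → ℂ) (heckeMatrix p b • τ))
        atImInfty (𝓝 0) := hU0.comp (tendsto_heckeMatrix_smul p b)
    have := (ht.const_mul ((p : ℂ)⁻¹)).neg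
    simpa [IsZeroAtImInfty, ZeroAtFilter] using this

/-- **(CUSP)**: a weight-2 form of prime level with vanishing constant term is a cusp form. -/
theorem cuspCriterionStatement : Interfaces.CuspCriterionStatement := by
  intro p _ g h0
  have hp : p ≠ 0 := (Fact.out : p.Prime).ne_zero
  have : NeZero p := ⟨hp⟩
  refine ⟨Fermat.Agent.S20.CuspVanish.cuspFormOfZero p 2 (g : ℍ → ℂ) g.holo' ?_ ?_, fun z => rfl⟩
  · intro γ hγ
    exact NormLevelOne.slash_Gamma0 p g γ hγ
  · intro γ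
    exact isZeroAtImInfty_slash p g h0 γ

end Fermat.Agent.S16.CuspCriterionB
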