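import Fermat.Agent.S16.CuspCriterion
import Fermat.Agent.S16.EisBridge
import Fermat.Agent.S16.Interfaces2

/-!
# S16, piece P3.cuspCriterion: adapters

The cusp criterion of `Fermat.Agent.S16.CuspCriterion` in the exact shapes consumed by
`Fermat.Agent.S16.EisBridge` (`CuspCriterion p`, `CuspCriterionStatement`) and by
`Fermat.Agent.S16.Interfaces` (`CuspCriterionStatement`).
-/

set_option autoImplicit false

namespace Fermat.Agent.S16.CuspCriterionStatement

/-- The cusp criterion in the shape of `EisBridge.CuspCriterion`. -/
theorem eisBridge_cuspCriterion (p : ℕ) [Fact p.Prime] :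
    Fermat.Agent.S16.EisBridge.CuspCriterion p :=
  fun G hG => Fermat.Agent.S16.CuspCriterion.exists_cuspForm G hG

/-- The cusp criterion in the shape of `EisBridge.CuspCriterionStatement`. -/
theorem eisBridge_cuspCriterionStatement : Fermat.Agent.S16.EisBridge.CuspCriterionStatement :=
  fun p _ => eisBridge_cuspCriterion p

/-- The cusp criterion in the shape of `Interfaces.CuspCriterionStatement`. -/
theorem interfaces_cuspCriterionStatement : Fermat.Agent.S16.Interfaces.CuspCriterionStatement := by
  intro p _ g hg
  obtain ⟨f, hf⟩ := Fermat.Agent.S16.CuspCriterion.exists_cuspForm g hg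
  exact ⟨f, fun z => congrFun hf z⟩

end Fermat.Agent.S16.CuspCriterionStatement
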