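import Mathlib
import Fermat.Agent.S16.NormLevelOneAlg

/-!
# S16: the norm (top symmetric function) and the general-weight input shape

* `qExpansion_slash_S_of_eq`: if `(H ∣[k] S)(z) = c * Ht(z/p)` pointwise for a function `Ht` with a
  width-one `q`-expansion, then the expansion of `H ∣[k] S` in `v = q^(1/p)` is `c * Ht(v)`.
* `coeff_symSeries_top`, `normForm`: the norm `N(H) = H ∏_b H ∣[k] S T^b` as a level-one form of
  weight `k * (p + 1)` with `N(H)(v^p) = a(v^p) ∏_b g(ζ^b v)`.
* `esymmSeries_map_top`: if `g` reduces to a series in `v^p`, `g ≡ D(v^p)`, then `N(H) ≡ a * D^p`.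
-/

set_option autoImplicit false

open UpperHalfPlane ModularForm Complex MatrixGroups Polynomial CongruenceSubgroup
open scoped Real

noncomputable section

namespace Fermat.Agent.S16.NormLevelOneGen

open Fermat.Agent.S24.CuspExpansion
open Fermat.Agent.S16.NormLevelOne Fermat.Agent.S16.NormLevelOneAlg

variable (p : ℕ) [hp : Fact p.Prime] {k : ℤ}
variable (H : ModularForm ((Gamma0 p : Subgroup SL(2, ℤ)) : Subgroup (GL (Fin 2) ℝ)) k)

local instance neZero_p : NeZero p := ⟨hp.out.ne_zero⟩

/-- **Input shape for general weight**: if `(H ∣[k] S)(z) = c * Ht(w)` whenever `w = z / p`, with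
`Ht` of width one, then `qExpansion p (H ∣[k] S) = c • qExpansion 1 Ht` (as series in `v`). -/
theorem qExpansion_slash_S_of_eq (Ht : ℍ → ℂ) (hHt : HolAtCusp 1 Ht) (c : ℂ)
    (h : ∀ z w : ℍ, (w : ℂ) = (z : ℂ) / p → ((H : ℍ → ℂ) ∣[k] ModularGroup.S) z = c * Ht w) :
    qExpansion (p : ℝ) ((H : ℍ → ℂ) ∣[k] ModularGroup.S) =
      PowerSeries.C c * qExpansion (1 : ℝ) Ht := by
  have hp0 : p ≠ 0 := hp.out.ne_zero
  have hpc : (p : ℂ) ≠ 0 := by exact_mod_cast hp0
  set H' : ℍ → ℂ := (fun _ : ℍ => c) * Ht with hH'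
  have hH'1 : HolAtCusp 1 H' := (HolAtCusp.const _).mul hHt
  -- the point `z / p`
  let φ : ℍ → ℍ := fun τ => ⟨(τ : ℂ) / p, by
    have : ((τ : ℂ) / p).im = τ.im / p := by
      rw [Complex.div_natCast_im]
      rfl
    rw [this]
    exact div_pos τ.im_pos (by exact_mod_cast hp.out.pos)⟩
  have hφ : ∀ τ : ℍ, ((φ τ : ℍ) : ℂ) = (((1 : ℕ) : ℂ) * (τ : ℂ) + ((0 : ℤ) : ℂ)) / ((p : ℕ) : ℂ) := by
    intro τ
    show (τ : ℂ) / p = _
    push_cast
    ring
  have hfun : (H : ℍ → ℂ) ∣[k] ModularGroup.S = H' ∘ φ := by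
    funext τ
    rw [h τ (φ τ) rfl, Function.comp_apply, hH', Pi.mul_apply]
  have hS : HolAtCusp p ((H : ℍ → ℂ) ∣[k] ModularGroup.S) := holAtCusp_slash p H ModularGroup.S
  have hmul : qExpansion (1 : ℝ) H' = PowerSeries.C c * qExpansion (1 : ℝ) Ht := by
    have h1 := qExpansion_mul' (h := 1) (HolAtCusp.const c) hHt
    rw [qExpansion_const', Nat.cast_one] at h1
    exact h1
  ext n
  have key := (MerAtCusp.comp_affine (h₁ := 1) (h := p) (a := 1) (d := p) (e := 1) (b := 0)
    (φ := φ) hH'1.merAtCusp hp.out.pos one_pos (by ring) hφ).2 (n : ℤ)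
  rw [← hfun, cuspLaurent_of_holAtCusp hS, cuspLaurent_of_holAtCusp hH'1,
    HahnSeries.ofPowerSeries_apply_coeff] at key
  have hω : omega 0 p 1 = 1 := by simp [omega]
  simp only [Nat.cast_one, one_dvd, if_true, Int.ediv_one, hω, one_zpow, one_mul,
    HahnSeries.ofPowerSeries_apply_coeff] at key
  rw [key, hmul]

/-! ### The norm -/

omit hp in
lemma coeff_prod_one_add_card {R : Type*} [CommRing R] {ι : Type*} (s : Finset ι) (a : ι → R) :
    (∏ i ∈ s, (1 + C (a i) * X : Polynomial R)).coeff s.card = ∏ i ∈ s, a i := by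
  have h := Polynomial.coeff_prod_of_natDegree_le (R := R) (f := fun i => (1 + C (a i) * X)) s 1
    (fun i _ => by
      refine (natDegree_add_le _ _).trans ?_
      rw [natDegree_one]
      exact max_le (Nat.zero_le _) ((natDegree_C_mul_le _ _).trans natDegree_X_le))
  rw [mul_one] at h
  rw [h]
  refine Finset.prod_congr rfl fun i _ => ?_
  rw [coeff_add, coeff_C_mul, coeff_X_one, mul_one, coeff_one]
  simp

/-- The top coefficient of the model polynomial is the product. -/
lemma coeff_symModel_top {R : Type*} [CommRing R] (ζR : R) (A G : PowerSeries R) :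
    (symModel p ζR A G).coeff (p + 1) =
      PowerSeries.expand p hp.out.ne_zero A *
        ∏ b ∈ Finset.range p, PowerSeries.rescale (ζR ^ b) G := by
  classical
  unfold symModel
  have h := coeff_prod_one_add_card (R := PowerSeries R) (insert p (Finset.range p))
    (fun b => if b = p then PowerSeries.expand p hp.out.ne_zero A
      else PowerSeries.rescale (ζR ^ b) G)
  have hnot : p ∉ Finset.range p := by simp
  rw [Finset.card_insert_of_notMem hnot, Finset.card_range, Finset.prod_insert hnot,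
    Finset.prod_insert hnot, if_pos rfl] at h
  have e1 : ∀ b ∈ Finset.range p, (1 + C (if b = p then PowerSeries.expand p hp.out.ne_zero A
      else PowerSeries.rescale (ζR ^ b) G) * X : Polynomial (PowerSeries R)) =
      1 + C (PowerSeries.rescale (ζR ^ b) G) * X := by
    intro b hb
    rw [if_neg (Finset.mem_range.mp hb).ne]
  have e2 : ∀ b ∈ Finset.range p, (if b = p then PowerSeries.expand p hp.out.ne_zero A
      else PowerSeries.rescale (ζR ^ b) G) = PowerSeries.rescale (ζR ^ b) G := by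
    intro b hb
    rw [if_neg (Finset.mem_range.mp hb).ne]
  rw [Finset.prod_congr rfl e1, Finset.prod_congr rfl e2] at h
  exact h

/-- The norm of `H` as a level-one form of weight `k * (p + 1)`. -/
def normForm : ModularForm 𝒮ℒ (k * ((p + 1 : ℕ) : ℤ)) := esymmForm p H (p + 1)

/-- `N(H)(v^p) = a(v^p) ∏_b g(ζ^b v)`. -/
theorem expand_qExpansion_normForm :
    PowerSeries.expand p hp.out.ne_zero (qExpansion (1 : ℝ) (normForm p H)) =
      PowerSeries.expand p hp.out.ne_zero (qExpansion (1 : ℝ) (H : ℍ → ℂ)) *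
        ∏ b ∈ Finset.range p, PowerSeries.rescale (zeta p ^ b)
          (qExpansion (p : ℝ) ((H : ℍ → ℂ) ∣[k] ModularGroup.S)) := by
  have h1 := coeff_symSeries p H (p + 1)
  have h2 := symSeries_eq p H
  have h3 := coeff_symModel_top p (zeta p) (qExpansion (1 : ℝ) (H : ℍ → ℂ))
    (qExpansion (p : ℝ) ((H : ℍ → ℂ) ∣[k] ModularGroup.S))
  unfold symModel at h3
  rw [← h2, h1] at h3
  exact h3

section Reduction

variable {R : Type*} [CommRing R] {κ : Type*} [CommRing κ]

omit hp in
lemma rescale_expand_of_pow_eq_one (c : κ) (hc : c ^ p = 1) (hp0 : p ≠ 0) (D : PowerSeries κ) :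
    PowerSeries.rescale c (PowerSeries.expand p hp0 D) = PowerSeries.expand p hp0 D := by
  ext n
  rw [PowerSeries.coeff_rescale, PowerSeries.coeff_expand]
  split_ifs with h
  · obtain ⟨m, rfl⟩ := h
    rw [pow_mul, hc, one_pow, one_mul]
  · rw [mul_zero]

/-- **Reduction of the norm.** If `A ↦ Ā` and `G ↦ D(v^p)` under `φ` (and `φ ζ` is a `p`-th root of
unity), then `N ↦ Ā * D^p`. -/
theorem esymmSeries_map_top (φ : R →+* κ) (ζR : R) (A G : PowerSeries R) (D : PowerSeries κ)
    (hζ : φ ζR ^ p = 1) (hG : G.map φ = PowerSeries.expand p hp.out.ne_zero D) :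
    (esymmSeries p ζR A G (p + 1)).map φ = A.map φ * D ^ p := by
  have hp0 := hp.out.ne_zero
  have key : ((symModel p ζR A G).coeff (p + 1)).map φ =
      PowerSeries.expand p hp0 (A.map φ * D ^ p) := by
    rw [← Polynomial.coeff_map, symModel_map, coeff_symModel_top, hG, map_mul, map_pow]
    congr 1
    have : ∀ b ∈ Finset.range p, PowerSeries.rescale (φ ζR ^ b) (PowerSeries.expand p hp0 D) =
        PowerSeries.expand p hp0 D := by
      intro b _
      refine rescale_expand_of_pow_eq_one p _ ?_ hp0 D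
      rw [← pow_mul, mul_comm, pow_mul, hζ, one_pow]
    rw [Finset.prod_congr rfl this, Finset.prod_const, Finset.card_range]
  ext n
  rw [PowerSeries.coeff_map, esymmSeries, PowerSeries.coeff_mk, ← PowerSeries.coeff_map, key,
    PowerSeries.coeff_expand_mul]

end Reduction

end Fermat.Agent.S16.NormLevelOneGen
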