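/-
S16 piece `DeltaTheta` (helper97): `θ Δ = E₂ Δ` for the integral `q`-series
(`θ = q d/dq`), hence `24 ∣ (n - 1) τ(n)`, and its consequences modulo `2` and `3`.

Main exports (namespace `Fermat.Agent.S16.DeltaTheta`):
* `E2q : ℤ⟦X⟧ = 1 - 24 ∑ σ(n) Xⁿ`, `qExpansion_E2' : qExpansion 1 E2 = toC E2q`;
* `theta : ℤ⟦X⟧ → ℤ⟦X⟧` (coefficientwise multiplication by `n`), `theta_Δq : theta Δq = E2q * Δq`;
* `dvd_sub_one_mul_coeff_Δq : 24 ∣ (n - 1) * τ(n)`.
-/
import Fermat.Agent.S16.DivisorCongr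

set_option autoImplicit false

namespace Fermat.Agent.S16.DeltaTheta

section HasSumE2

open UpperHalfPlane ModularForm EisensteinSeries
open scoped ArithmeticFunction.sigma

/-- The coefficients of `E₂`. -/
noncomputable def cE2 (m : ℕ) : ℂ := if m = 0 then 1 else -24 * (σ 1 m : ℂ)

lemma hasSum_cE2 (τ : ℍ) :
    HasSum (fun m : ℕ => cE2 m • Function.Periodic.qParam 1 τ ^ m) (E2 τ) := by
  simpa only [Function.Periodic.qParam, Complex.ofReal_one, div_one, cE2] using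
    hasSum_qExpansion_E2 (z := τ)

end HasSumE2

open UpperHalfPlane hiding I
open PowerSeries ModularForm ModularFormClass MatrixGroups EisensteinSeries
open Complex Metric Filter Topology Derivative
open scoped Manifold
open Fermat.Agent.S24.JQExpansion Fermat.Agent.S24.JLocalOrder Fermat.Agent.S16.DivisorCongr
open scoped Nat Real ArithmeticFunction.sigma

local notation "𝕢" => Function.Periodic.qParam

/-- `E₂ = 1 - 24 ∑ σ(n) qⁿ`. -/
noncomputable def E2q : ℤ⟦X⟧ := 1 - C (24 : ℤ) * sig 1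

lemma analyticAt_cuspFunction_E2 : AnalyticAt ℂ (cuspFunction 1 E2) 0 :=
  analyticAt_cuspFunction_zero one_pos periodic_E2 E2_mdifferentiable isBoundedAtImInfty_E2

lemma tps_cuspFunction_E2 : tps (cuspFunction 1 E2) = PowerSeries.mk cE2 := by
  have H1 := UpperHalfPlane.hasFPowerSeriesOnBall_cuspFunction (f := E2) (c := cE2) one_pos
    analyticAt_cuspFunction_E2 hasSum_cE2
  have h2 := analyticAt_cuspFunction_E2.hasFPowerSeriesAt
  have h3 := H1.hasFPowerSeriesAt.eq_formalMultilinearSeries h2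
  ext m
  have := congr_arg (FormalMultilinearSeries.coeff · m) h3
  simp [FormalMultilinearSeries.coeff_ofScalars] at this
  simp [coeff_tps, this, div_eq_inv_mul]

lemma mk_cE2 : PowerSeries.mk cE2 = toC E2q := by
  ext m
  simp only [cE2, E2q, toC, map_sub, map_one, map_mul, map_C, coeff_one, coeff_C_mul, coeff_map,
    coeff_sig, coeff_mk]
  split_ifs with h0
  · subst h0; simp
  · simp [ArithmeticFunction.sigma_apply]

lemma qExpansion_E2' : qExpansion 1 E2 = toC E2q := by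
  rw [← mk_cE2, ← tps_cuspFunction_E2]; rfl

/-- Coefficientwise multiplication by `n`: `θ = q d/dq`. -/
noncomputable def theta (f : ℤ⟦X⟧) : ℤ⟦X⟧ := PowerSeries.mk fun n => (n : ℤ) * coeff n f

@[simp] lemma coeff_theta (f : ℤ⟦X⟧) (n : ℕ) : coeff n (theta f) = (n : ℤ) * coeff n f := by
  simp [theta]

lemma tps_deriv (G : ℂ → ℂ) : tps (deriv G) = d⁄dX ℂ (tps G) := by
  ext m
  rw [coeff_tps, PowerSeries.coeff_derivative, coeff_tps, iteratedDeriv_succ',
    Nat.factorial_succ]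
  push_cast
  have h1 : ((m ! : ℕ) : ℂ) ≠ 0 := by exact_mod_cast Nat.factorial_ne_zero m
  have h2 : ((m : ℂ) + 1) ≠ 0 := by exact_mod_cast Nat.succ_ne_zero m
  field_simp

/-! ### The differential equation `q G' = E₂ G` for `G = Δ` on the unit disc -/

/-- The cusp function of `Δ`. -/
noncomputable abbrev GΔ : ℂ → ℂ := cuspFunction 1 ModularForm.discriminant
/-- The cusp function of `E₂`. -/
noncomputable abbrev GE : ℂ → ℂ := cuspFunction 1 E2

lemma periodic_Δ : Function.Periodic (ModularForm.discriminant ∘ ofComplex) (1 : ℝ) :=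
  SlashInvariantFormClass.periodic_comp_ofComplex CuspForm.discriminant one_mem_strictPeriods_SL

lemma mdiff_Δ : MDiff ModularForm.discriminant := holo CuspForm.discriminant

lemma bdd_Δ : IsBoundedAtImInfty ModularForm.discriminant := by
  have : Fact (IsCusp OnePoint.infty 𝒮ℒ) :=
    ⟨Subgroup.isCusp_of_mem_strictPeriods one_pos one_mem_strictPeriods_SL⟩
  exact bdd_at_infty CuspForm.discriminant

lemma differentiableOn_GΔ : DifferentiableOn ℂ GΔ (ball 0 1) :=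
  differentiableOn_cuspFunction_ball one_pos periodic_Δ mdiff_Δ bdd_Δ

lemma differentiableOn_GE : DifferentiableOn ℂ GE (ball 0 1) :=
  differentiableOn_cuspFunction_ball one_pos periodic_E2 E2_mdifferentiable isBoundedAtImInfty_E2

lemma D_Δ (z : ℍ) : D ModularForm.discriminant z = E2 z * ModularForm.discriminant z := by
  rw [normalizedDerivOfComplex, (hasDerivAt_discriminant z).deriv]
  have : (2 * (π : ℂ) * I) ≠ 0 := two_pi_I_ne_zero
  field_simp

lemma GΔ_zero : GΔ 0 = 0 :=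
  CuspFormClass.cuspFunction_apply_zero CuspForm.discriminant one_pos one_mem_strictPeriods_SL

lemma ode_on_ball {q : ℂ} (hq : q ∈ ball (0 : ℂ) 1) : q * deriv GΔ q = GE q * GΔ q := by
  rcases eq_or_ne q 0 with rfl | hq0
  · rw [GΔ_zero]; simp
  · have hq1 : ‖q‖ < 1 := by simpa using hq
    have him := Function.Periodic.im_invQParam_pos_of_norm_lt_one one_pos hq1 hq0
    set z : ℍ := ⟨Function.Periodic.invQParam 1 q, him⟩ with hz
    have hqz : 𝕢 1 (z : ℂ) = q := Function.Periodic.qParam_right_inv one_ne_zero hq0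
    have h1 := D_eq_qParam_mul_deriv_cuspFunction periodic_Δ mdiff_Δ bdd_Δ z
    have h2 : GΔ (𝕢 1 z) = ModularForm.discriminant z := eq_cuspFunction z one_ne_zero periodic_Δ
    have h3 : GE (𝕢 1 z) = E2 z := eq_cuspFunction z one_ne_zero periodic_E2
    rw [D_Δ, hqz] at h1
    rw [hqz] at h2 h3
    rw [h2, h3, h1]

lemma tps_GΔ : tps GΔ = toC Δq := qExpansion_Δ'

lemma tps_GE : tps GE = toC E2q := qExpansion_E2'

/-- `θ Δ = E₂ Δ` over `ℂ`, in the form `X · d/dX`. -/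
lemma X_mul_derivative_toC_Δq : (X : ℂ⟦X⟧) * d⁄dX ℂ (toC Δq) = toC E2q * toC Δq := by
  have hG : AnalyticAt ℂ GΔ 0 :=
    analyticAt_of_differentiableOn_ball differentiableOn_GΔ
  have hE : AnalyticAt ℂ GE 0 :=
    analyticAt_of_differentiableOn_ball differentiableOn_GE
  have hcongr : (fun q : ℂ => q) * deriv GΔ =ᶠ[𝓝 0] GE * GΔ := by
    filter_upwards [ball_mem_nhds (0 : ℂ) one_pos] with q hq
    simpa using ode_on_ball hq
  have h := tps_congr hcongr
  rw [tps_mul (by fun_prop) hG.deriv, tps_id, tps_deriv, tps_mul hE hG, tps_GΔ, tps_GE] at h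
  exact h

/-- **`θ Δ = E₂ Δ`** as integral `q`-series. -/
theorem theta_Δq : theta Δq = E2q * Δq := by
  apply toC_injective
  rw [map_mul, ← X_mul_derivative_toC_Δq]
  ext n
  rw [toC, coeff_map, coeff_theta]
  rcases n with _ | n
  · simp
  · rw [coeff_succ_X_mul, PowerSeries.coeff_derivative, coeff_map]
    simp only [eq_intCast]
    push_cast
    ring

/-! ### Consequences for the coefficients `τ(n)` -/

/-- `24 ∣ (n - 1) τ(n)`. -/
theorem dvd_sub_one_mul_coeff_Δq (n : ℕ) : (24 : ℤ) ∣ ((n : ℤ) - 1) * coeff n Δq := by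
  have h := congrArg (coeff n) theta_Δq
  rw [coeff_theta, E2q, sub_mul, one_mul, map_sub, mul_assoc, coeff_C_mul] at h
  exact ⟨-coeff n (sig 1 * Δq), by linear_combination h⟩

lemma coeff_zero_Δq : coeff 0 Δq = 0 := by
  rw [Δq, coeff_zero_X_mul]

/-- If `τ(n)` is odd then `n ≡ 1 (mod 8)`. -/
theorem mod_eight_of_odd_coeff_Δq {n : ℕ} (h : ¬ (2 : ℤ) ∣ coeff n Δq) : n % 8 = 1 := by
  have h24 := dvd_sub_one_mul_coeff_Δq n
  have h8 : (8 : ℤ) ∣ ((n : ℤ) - 1) * coeff n Δq := Dvd.dvd.trans ⟨3, by norm_num⟩ h24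
  have hcop : IsCoprime (8 : ℤ) (coeff n Δq) := by
    have h2 : IsCoprime (2 : ℤ) (coeff n Δq) := (Int.prime_two.coprime_iff_not_dvd).2 h
    have := h2.pow_left (m := 3)
    norm_num at this
    exact this
  have h8' : (8 : ℤ) ∣ (n : ℤ) - 1 := hcop.dvd_of_dvd_mul_right h8
  omega

/-- If `3 ∤ τ(n)` then `n ≡ 1 (mod 3)`. -/
theorem mod_three_of_not_dvd_coeff_Δq {n : ℕ} (h : ¬ (3 : ℤ) ∣ coeff n Δq) : n % 3 = 1 := by
  have h24 := dvd_sub_one_mul_coeff_Δq n
  have h3 : (3 : ℤ) ∣ ((n : ℤ) - 1) * coeff n Δq := Dvd.dvd.trans ⟨8, by norm_num⟩ h24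
  have hcop : IsCoprime (3 : ℤ) (coeff n Δq) := (Int.prime_three.coprime_iff_not_dvd).2 h
  have h3' : (3 : ℤ) ∣ (n : ℤ) - 1 := hcop.dvd_of_dvd_mul_right h3
  omega

/-- `θ Δ ≡ Δ (mod 24)` coefficientwise. -/
theorem theta_Δq_mod (n : ℕ) : (24 : ℤ) ∣ coeff n (theta Δq) - coeff n Δq := by
  rw [coeff_theta]
  have := dvd_sub_one_mul_coeff_Δq n
  rwa [sub_mul, one_mul] at this

/-- `D₂ Δ ≡ 0 (mod 2)`, `D₂ = (θ² - θ)/2`: `C(n,2) τ(n)` is even. -/
theorem two_dvd_choose_two_mul_coeff_Δq (n : ℕ) : (2 : ℤ) ∣ (n.choose 2 : ℤ) * coeff n Δq := by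
  by_cases h : (2 : ℤ) ∣ coeff n Δq
  · exact Dvd.dvd.mul_left h _
  · have h8 := mod_eight_of_odd_coeff_Δq h
    refine Dvd.dvd.mul_right ?_ _
    rw [Nat.choose_two_right]
    obtain ⟨k, rfl⟩ : ∃ k, n = 8 * k + 1 := ⟨n / 8, by omega⟩
    have : (8 * k + 1) * (8 * k + 1 - 1) / 2 = 2 * (2 * k * (8 * k + 1)) := by
      rw [Nat.add_sub_cancel]
      have : (8 * k + 1) * (8 * k) = 2 * (2 * (2 * k * (8 * k + 1))) := by ring
      rw [this, Nat.mul_div_cancel_left _ (by norm_num)]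
    rw [this]
    exact ⟨(2 * k * (8 * k + 1) : ℕ), by push_cast; ring⟩

/-- `D₂ (V_p Δ) ≡ ((p-1)/2) V_p Δ (mod 2)` for odd `p`: `C(pn,2) τ(n) ≡ ((p-1)/2) τ(n)`. -/
theorem two_dvd_choose_two_mul_sub (p : ℕ) (hp : p % 2 = 1) (n : ℕ) :
    (2 : ℤ) ∣ (((p * n).choose 2 : ℤ) - ((p - 1) / 2 : ℕ)) * coeff n Δq := by
  by_cases h : (2 : ℤ) ∣ coeff n Δq
  · exact Dvd.dvd.mul_left h _
  · have h8 := mod_eight_of_odd_coeff_Δq h
    refine Dvd.dvd.mul_right ?_ _
    rw [Nat.choose_two_right]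
    obtain ⟨k, rfl⟩ : ∃ k, n = 8 * k + 1 := ⟨n / 8, by omega⟩
    obtain ⟨m, rfl⟩ : ∃ m, p = 2 * m + 1 := ⟨p / 2, by omega⟩
    have e1 : (2 * m + 1 - 1) / 2 = m := by omega
    have e2 : (2 * m + 1) * (8 * k + 1) * ((2 * m + 1) * (8 * k + 1) - 1) / 2
        = (2 * m + 1) * (8 * k + 1) * (m + 4 * k * (2 * m + 1)) := by
      have : (2 * m + 1) * (8 * k + 1) - 1 = 2 * (m + 4 * k * (2 * m + 1)) := by
        have : (2 * m + 1) * (8 * k + 1) = 2 * (m + 4 * k * (2 * m + 1)) + 1 := by ring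
        omega
      rw [this, ← mul_assoc, mul_comm _ 2, mul_assoc, Nat.mul_div_cancel_left _ (by norm_num)]
    rw [e1, e2]
    push_cast
    exact ⟨(m : ℤ) * (8 * k * m + 4 * k + m) + 2 * k * (2 * m + 1) * (2 * m + 1) * (8 * k + 1), by ring⟩

end Fermat.Agent.S16.DeltaTheta
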