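import Fermat.Agent.S16.EisBridge
import Fermat.Prelude.Def_ModularForm_HeckeOperator
import Fermat.Prelude.Thm_ModularFormClass_qCoeff_heckeU
import Fermat.Prelude.Thm_UpperHalfPlane_eq_of_forall_qCoeff_eq
import Fermat.Prelude.Thm_ModularForm_periodic_heckeU_comp_ofComplex
import Fermat.Prelude.Thm_ModularForm_mdifferentiable_heckeU
import Fermat.Prelude.Thm_ModularForm_isBoundedAtImInfty_heckeU

/-!
# S16: more on the Eisenstein series of level `N`

* `E2lvl_slash_S`: the expansion at the cusp `0`: `(E ∣[2] S)(z) = -(1/N) E(z/N)` (i.e. `E|W = -E`),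
  for every level `N ≥ 1`, directly from the transformation law of `E₂`.
* `heckeU_E2lvl`, `heckeU_eisM`: `U_p E = E` for prime `p` (Prelude `heckeU`).
* `eisOne p := (24/(p-1)) • eisM p = 1 + (24/(p-1)) ∑ σ'(j) q^j`, Mazur's `E` normalised to
  constant term `1` (`2 ≤ p`).
-/

set_option autoImplicit false

open UpperHalfPlane ModularForm EisensteinSeries MatrixGroups CongruenceSubgroup Filter
open scoped Manifold ArithmeticFunction.sigma

namespace Fermat.Agent.S16.E2LevelExtras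

open Fermat.Agent.S16.E2Level Fermat.Agent.S16.EisBridge Fermat.Agent.S16.Interfaces

/-! ### the cusp `0` -/

theorem denom_S' (z : ℍ) : denom ((ModularGroup.S : SL(2, ℤ)) : GL (Fin 2) ℝ) z = (z : ℂ) := by
  rw [denom_SL]
  simp [ModularGroup.S]

theorem D2_S (z : ℍ) : D2 ModularGroup.S z = 2 * (Real.pi : ℂ) * Complex.I / (z : ℂ) := by
  unfold D2
  rw [denom_S']
  simp [ModularGroup.S]

theorem coe_S_smul (z : ℍ) : ((ModularGroup.S • z : ℍ) : ℂ) = (-(z : ℂ))⁻¹ := by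
  rw [UpperHalfPlane.modular_S_smul]

/-- `E₂(-1/z) = z² E₂(z) + (12/(2πi)) z`, in Mathlib's normalisation. -/
theorem E2_S_smul (z : ℍ) :
    E2 (ModularGroup.S • z) =
      (z : ℂ) ^ 2 * E2 z - (1 / (2 * riemannZeta 2)) * (2 * (Real.pi : ℂ) * Complex.I) * z := by
  rw [E2_smul, denom_S', D2_S]
  have hz : (z : ℂ) ≠ 0 := ne_zero z
  field_simp

/-- **The expansion of `E2lvl N` at the cusp `0`**: `(E ∣[2] S)(z) = -(1/N) E(z/N)`. -/
theorem E2lvl_slash_S (N : ℕ) [NeZero N] (z w : ℍ) (hw : (w : ℂ) = (z : ℂ) / N) :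
    ((E2lvl N : ℍ → ℂ) ∣[(2 : ℤ)] ModularGroup.S) z = -((N : ℂ)⁻¹ * E2lvl N w) := by
  have hN : (N : ℂ) ≠ 0 := Nat.cast_ne_zero.2 (NeZero.ne N)
  have hz : (z : ℂ) ≠ 0 := ne_zero z
  have h1 : scaleN N (ModularGroup.S • z) = ModularGroup.S • w := by
    apply UpperHalfPlane.ext
    rw [coe_scaleN, coe_S_smul, coe_S_smul, hw]
    field_simp
  rw [SL_slash_apply, denom_S', E2lvl_apply, E2lvl_apply' N w z (by rw [hw]; field_simp), h1,
    E2_S_smul, E2_S_smul, hw]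
  field_simp
  ring

/-- the same for `S T^b`: `(E ∣[2] S T^b)(z) = -(1/N) E((z+b)/N)`. -/
theorem E2lvl_slash_S_T (N : ℕ) [NeZero N] (b : ℤ) (z w : ℍ)
    (hw : (w : ℂ) = ((z : ℂ) + b) / N) :
    ((E2lvl N : ℍ → ℂ) ∣[(2 : ℤ)] (ModularGroup.S * ModularGroup.T ^ b)) z =
      -((N : ℂ)⁻¹ * E2lvl N w) := by
  rw [SlashAction.slash_mul, SL_slash_apply]
  have hd : denom ((ModularGroup.T ^ b : SL(2, ℤ)) : GL (Fin 2) ℝ) z = 1 := by
    rw [denom_SL]
    simp [ModularGroup.coe_T_zpow]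
  rw [hd, one_zpow, mul_one]
  apply E2lvl_slash_S
  rw [hw, ModularGroup.coe_T_zpow_smul_eq]

/-! ### `U_p E = E` -/

theorem sigmaPrime_mul_self {p : ℕ} (hp : p.Prime) (n : ℕ) :
    sigmaPrime p (n * p) = sigmaPrime p n := by
  rcases Nat.eq_zero_or_pos n with rfl | hn
  · simp
  unfold sigmaPrime
  congr 1
  ext d
  simp only [Finset.mem_filter, Nat.mem_divisors]
  constructor
  · rintro ⟨⟨hd, _⟩, hpd⟩
    refine ⟨⟨?_, by omega⟩, hpd⟩
    have hcop : Nat.Coprime d p := ((Nat.Prime.coprime_iff_not_dvd hp).2 hpd).symm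
    exact hcop.dvd_of_dvd_mul_right hd
  · rintro ⟨⟨hd, _⟩, hpd⟩
    exact ⟨⟨hd.mul_right p, Nat.mul_ne_zero (by omega) hp.ne_zero⟩, hpd⟩

theorem cE_mul_self {p : ℕ} [NeZero p] (hp : p.Prime) (n : ℕ) : cE p (n * p) = cE p n := by
  rcases Nat.eq_zero_or_pos n with rfl | hn
  · simp
  rw [cE_eq_sigmaPrime p (Nat.mul_ne_zero (by omega) hp.ne_zero), cE_eq_sigmaPrime p (by omega),
    sigmaPrime_mul_self hp]

theorem periodic_E2lvl (N : ℕ) [NeZero N] :
    Function.Periodic ((E2lvl N : ℍ → ℂ) ∘ UpperHalfPlane.ofComplex) 1 := by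
  have := SlashInvariantFormClass.periodic_comp_ofComplex (E2lvl N) (one_mem_strictPeriods N)
  simpa using this

/-- **`U_p E = E`** for the Eisenstein series of prime level `p`. -/
theorem heckeU_E2lvl (p : ℕ) [NeZero p] (hp : p.Prime) :
    ModularForm.heckeU 2 p (E2lvl p : ℍ → ℂ) = (E2lvl p : ℍ → ℂ) := by
  have hper := periodic_E2lvl p
  have hhol : MDiff (E2lvl p : ℍ → ℂ) := ModularFormClass.holo (E2lvl p)
  have hbdd : IsBoundedAtImInfty (E2lvl p : ℍ → ℂ) := ModularFormClass.bdd_at_infty (E2lvl p)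
  refine UpperHalfPlane.eq_of_forall_qCoeff_eq
    (ModularForm.periodic_heckeU_comp_ofComplex hper 2 p)
    (ModularForm.mdifferentiable_heckeU hhol 2 p)
    (ModularForm.isBoundedAtImInfty_heckeU hbdd 2 p) hper hhol hbdd fun n => ?_
  rw [UpperHalfPlane.qCoeff_heckeU hper hhol hbdd 2 hp.ne_zero, ModularForm.coeffHeckeU_apply,
    ModularFormClass.qCoeff, ModularFormClass.qCoeff, qExpansion_E2lvl_coeff,
    qExpansion_E2lvl_coeff, cE_mul_self hp]

theorem heckeU_eisM (p : ℕ) [NeZero p] (hp : p.Prime) :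
    ModularForm.heckeU 2 p (eisM p : ℍ → ℂ) = (eisM p : ℍ → ℂ) := by
  rw [coe_eisM, ModularForm.heckeU_smul, heckeU_E2lvl p hp]

theorem eisM_slash_S (N : ℕ) [NeZero N] (z w : ℍ) (hw : (w : ℂ) = (z : ℂ) / N) :
    ((eisM N : ℍ → ℂ) ∣[(2 : ℤ)] ModularGroup.S) z = -((N : ℂ)⁻¹ * eisM N w) := by
  rw [coe_eisM, ModularForm.SL_smul_slash, Pi.smul_apply, Pi.smul_apply, E2lvl_slash_S N z w hw,
    smul_eq_mul, smul_eq_mul]
  ring

/-! ### the normalisation with constant term `1` -/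

/-- Mazur's Eisenstein series normalised to constant term `1`:
`1 + (24/(p-1)) ∑ σ'(j) q^j`. -/
noncomputable def eisOne (p : ℕ) [NeZero p] : ModularForm (CongruenceSubgroup.Gamma0 p) 2 :=
  ((24 : ℂ) / ((p : ℂ) - 1)) • eisM p

theorem coe_eisOne (p : ℕ) [NeZero p] :
    ⇑(eisOne p) = ((24 : ℂ) / ((p : ℂ) - 1)) • ⇑(eisM p) := rfl

theorem qCoeff_eisOne_zero (p : ℕ) [NeZero p] (hp : 2 ≤ p) :
    ModularFormClass.qCoeff (eisOne p) 0 = 1 := by
  have h1 : ((p : ℂ) - 1) ≠ 0 := by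
    have : ((p - 1 : ℕ) : ℂ) = (p : ℂ) - 1 := by
      rw [Nat.cast_sub (by omega : 1 ≤ p), Nat.cast_one]
    rw [← this]
    exact Nat.cast_ne_zero.2 (by omega)
  rw [eisOne, qCoeff_smul, qCoeff_eisM_zero]
  field_simp

theorem qCoeff_eisOne_pos (p : ℕ) [NeZero p] {m : ℕ} (hm : m ≠ 0) :
    ModularFormClass.qCoeff (eisOne p) m =
      (24 : ℂ) / ((p : ℂ) - 1) * (sigmaPrime p m : ℂ) := by
  rw [eisOne, qCoeff_smul, qCoeff_eisM_pos p hm]

theorem heckeU_eisOne (p : ℕ) [NeZero p] (hp : p.Prime) :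
    ModularForm.heckeU 2 p (eisOne p : ℍ → ℂ) = (eisOne p : ℍ → ℂ) := by
  rw [coe_eisOne, ModularForm.heckeU_smul, heckeU_eisM p hp]

theorem eisOne_slash_S (p : ℕ) [NeZero p] (z w : ℍ) (hw : (w : ℂ) = (z : ℂ) / p) :
    ((eisOne p : ℍ → ℂ) ∣[(2 : ℤ)] ModularGroup.S) z = -((p : ℂ)⁻¹ * eisOne p w) := by
  rw [coe_eisOne, ModularForm.SL_smul_slash, Pi.smul_apply, Pi.smul_apply, eisM_slash_S p z w hw,
    smul_eq_mul, smul_eq_mul]
  ring

end Fermat.Agent.S16.E2LevelExtras
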