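/-
S16 piece `SerreCoreInputs` (helper97): the `q`-series inputs of helper52's `SerreCore*` in the
exact shapes of `SerreCoreThree.three_contra` (and of the `ℓ = 2` analogue), instantiated at
`Sz = sig 1 = ∑ σ(n) qⁿ`, `Dz = Δq`, together with the adapters from the interface predicates
`IsLInt`, `IsOneMod` to `IntL ℓ`, and the `q`-expansion of the normalised Eisenstein series
`eisOne p` as `EpSeries`.
-/
import Fermat.Agent.S16.DeltaTheta
import Fermat.Agent.S16.SerreCoreThree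
import Fermat.Agent.S16.E2LevelExtras
import Fermat.Agent.S16.Interfaces2

set_option autoImplicit false

namespace Fermat.Agent.S16.SerreCoreInputs

open PowerSeries
open Fermat.Agent.S16.DivisorCongr Fermat.Agent.S16.DeltaTheta
open Fermat.Agent.S16.SerreCoreRing Fermat.Agent.S16.SerreCoreThree
open Fermat.Agent.S16.Interfaces

/-! ### The congruences for `S = ∑ σ(n) qⁿ` and `Δ` -/

theorem hSD3 : ∃ W : ℤ⟦X⟧, sig 1 ^ 3 - sig 1 + Δq = 3 * W := by
  obtain ⟨R, hR⟩ := Δq_mod_three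
  exact ⟨R, by rw [hR]; ring⟩

theorem hSD2 : ∃ W : ℤ⟦X⟧, sig 1 ^ 2 + sig 1 - Δq = 2 * W := by
  obtain ⟨R, hR⟩ := Δq_mod_two
  exact ⟨-R, by rw [hR]; ring⟩

theorem hSD2' : ∃ W : ℤ⟦X⟧, sig 1 ^ 2 + sig 1 + Δq = 2 * W := by
  obtain ⟨R, hR⟩ := Δq_mod_two
  exact ⟨sig 1 ^ 2 + sig 1 + R, by rw [hR]; ring⟩

/-- `θ Δ ≡ Δ (mod m)` for `m ∣ 24`, with helper52's `theta = X d/dX`. -/
theorem hθD (m : ℤ) (hm : m ∣ 24) :
    ∃ W : ℤ⟦X⟧, SerreCoreOps.theta Δq - Δq = C m * W := by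
  apply exists_eq_mul_of_forall_dvd
  intro n
  rw [map_sub, SerreCoreOps.coeff_theta]
  have h := (theta_Δq_mod n)
  rw [coeff_theta] at h
  exact hm.trans (by simpa using h)

theorem hθD3 : ∃ W : ℤ⟦X⟧, SerreCoreOps.theta Δq - Δq = 3 * W := by
  obtain ⟨W, hW⟩ := hθD 3 ⟨8, by norm_num⟩
  exact ⟨W, by rw [hW, map_ofNat]⟩

theorem hθD2 : ∃ W : ℤ⟦X⟧, SerreCoreOps.theta Δq - Δq = 2 * W := by
  obtain ⟨W, hW⟩ := hθD 2 ⟨12, by norm_num⟩
  exact ⟨W, by rw [hW, map_ofNat]⟩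

/-- `D₂ Δ ≡ 0 (mod 2)`. -/
theorem hD2two : ∃ W : ℤ⟦X⟧, SerreCoreOps.D2 Δq = 2 * W := by
  obtain ⟨W, hW⟩ := exists_eq_mul_of_forall_dvd 2 (SerreCoreOps.D2 Δq) (fun n => by
    rw [SerreCoreOps.coeff_D2]
    exact_mod_cast two_dvd_choose_two_mul_coeff_Δq n)
  exact ⟨W, by rw [hW, map_ofNat]⟩

theorem coeff_one_Δq : coeff 1 Δq = 1 := by
  rw [Δq, show (1 : ℕ) = 0 + 1 from rfl, coeff_succ_X_mul, coeff_zero_eq_constantCoeff_apply,
    ModularCurve.constantCoeff_dedekindEtaUnit]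

/-! ### Adapters from the interface predicates -/

theorem mem_IntL_of_isLInt (ℓ : ℕ) [hℓ : Fact ℓ.Prime] {z : ℂ} (hz : IsLInt ℓ z) : z ∈ IntL ℓ := by
  obtain ⟨a, b, hb, hab⟩ := hz
  have hb0 : (b : ℂ) ≠ 0 := by
    rw [Int.cast_ne_zero]
    rintro rfl
    exact hb (dvd_zero _)
  refine ⟨b.natAbs, fun h => hb (Int.natCast_dvd.2 h), ?_⟩
  have h1 : ((b.natAbs : ℕ) : ℂ) = (((b.natAbs : ℕ) : ℤ) : ℂ) := (Int.cast_natCast _).symm
  rcases Int.natAbs_eq b with hb' | hb'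
  · have : ((b.natAbs : ℕ) : ℂ) * z = (a : ℂ) := by
      rw [h1, ← hb', mul_comm]; exact hab
    rw [this]
    exact isIntegral_algebraMap (R := ℤ) (A := ℂ) (x := a)
  · have : ((b.natAbs : ℕ) : ℂ) * z = ((-a : ℤ) : ℂ) := by
      have hb'' : ((b.natAbs : ℤ) : ℂ) = -(b : ℂ) := by
        have : (b.natAbs : ℤ) = -b := by omega
        rw [this]; push_cast; rfl
      rw [h1, hb'']
      push_cast
      linear_combination -hab
    rw [this]
    exact isIntegral_algebraMap (R := ℤ) (A := ℂ) (x := -a)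

/-- The hypotheses `hf0`, `hf` of `three_contra` / the `ℓ = 2` analogue from `IsOneMod`. -/
theorem qExpansion_of_isOneMod (p ℓ r : ℕ) [Fact ℓ.Prime]
    (F : ModularForm (CongruenceSubgroup.Gamma0 p) 2) (hF : IsOneMod p ℓ r F) :
    coeff 0 (UpperHalfPlane.qExpansion 1 F) = 1 ∧
      ∀ n, 1 ≤ n → ∃ x ∈ IntL ℓ, coeff n (UpperHalfPlane.qExpansion 1 F) = ((ℓ : ℂ) ^ r) * x := by
  refine ⟨hF.1, fun n hn => ?_⟩
  obtain ⟨z, hz, hzn⟩ := hF.2 n hn
  exact ⟨z, mem_IntL_of_isLInt ℓ hz, hzn⟩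

/-! ### The normalised Eisenstein series of level `p` -/

open scoped ArithmeticFunction.sigma in
theorem coeff_toC_sig_one (n : ℕ) : coeff n (toC (sig 1)) = ((σ 1 n : ℕ) : ℂ) := by
  rw [toC, coeff_map, coeff_sig, ArithmeticFunction.sigma_one_apply]
  simp

open Fermat.Agent.S16.E2LevelExtras Fermat.Agent.S16.EisBridge in
/-- `q`-expansion of `eisOne p` in helper52's shape. -/
theorem qExpansion_eisOne (p : ℕ) [NeZero p] (hp2 : 2 ≤ p) :
    UpperHalfPlane.qExpansion 1 (eisOne p) = EpSeries p (NeZero.ne p) (toC (sig 1)) := by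
  ext n
  rcases Nat.eq_zero_or_pos n with rfl | hn
  · have h0 := qCoeff_eisOne_zero p hp2
    rw [ModularFormClass.qCoeff] at h0
    rw [h0, EpSeries, map_add, coeff_C_mul, map_sub, coeff_C_mul, coeff_toC_sig_one,
      coeff_zero_eq_constantCoeff_apply (expand p _ _), constantCoeff_expand,
      ← coeff_zero_eq_constantCoeff_apply, coeff_toC_sig_one]
    simp
  · have hn0 : n ≠ 0 := hn.ne'
    have h1 := qCoeff_eisOne_pos p hn0
    rw [ModularFormClass.qCoeff] at h1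
    rw [h1, EpSeries, map_add, coeff_C_mul, map_sub, coeff_C_mul, coeff_toC_sig_one,
      coeff_one, if_neg hn0, zero_add]
    congr 1
    by_cases hpn : p ∣ n
    · obtain ⟨m, rfl⟩ := hpn
      rw [coeff_expand_mul, coeff_toC_sig_one]
      have := sigmaPrime_of_dvd p (p * m) (Nat.pos_of_ne_zero (NeZero.ne p)) hn0 (dvd_mul_right _ _)
      rw [Nat.mul_div_cancel_left _ (Nat.pos_of_ne_zero (NeZero.ne p))] at this
      rw [← this]
      push_cast
      ring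
    · rw [coeff_expand_of_not_dvd p _ _ hpn, mul_zero, sub_zero, sigmaPrime_of_not_dvd p n hpn]

end Fermat.Agent.S16.SerreCoreInputs
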