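import Fermat.Agent.S16.SerreCoreThree

/-!
# S16, Serre-derivative closure of the gap `ℓ = 2`, `p ≡ 3 mod 4`: assembled algebraic core

Input: the `q`-expansion `f = 1 + 8 (2-integral)` of a weight-2 form `F` of level `p`.
`H8inf2` / `H8zero2` are the expansions (in `q`, resp. `t = q^(1/p)`) at the two cusps of
`H₈ = E₄ G₄ + F₈/4`, `G₄ = g² + g E`, `g = (F - E)/4`,
`F₈ = 2 ∂²G₄ - (1/3) E ∂G₄ - (4/9) E₄ G₄`; both are `2`-integral and reduce to `Δ(q)`.
Mathlib only.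
-/

set_option autoImplicit false

namespace Fermat.Agent.S16.SerreCoreTwo

open PowerSeries Fermat.Agent.S16.SerreCoreOps Fermat.Agent.S16.SerreCoreRing
  Fermat.Agent.S16.SerreCoreChar Fermat.Agent.S16.SerreCoreEnd Fermat.Agent.S16.SerreCoreThree

section Formula

variable {A B : Type*} [CommRing A] [CommRing B]

/-- `H₈ = E₄ G₄ + c₄ F₈` (`c₄ = 1/4`, `c₃ = 1/3`, `D = d θ`). -/
noncomputable def H8two (d c3 c4 : A) (g E E2 E4 : A⟦X⟧) : A⟦X⟧ :=
  E4 * G4two g E + C c4 * F8two d c3 (G4two g E) E2 E4 E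

end Formula

/-- expansion of `H₈` at `∞` (`ℓ = 2`); `S = ∑ σ(n) qⁿ`, `S3 = ∑ σ₃(n) qⁿ`. -/
noncomputable def H8inf2 (p : ℕ) (hp : p ≠ 0) (S S3 f : ℂ⟦X⟧) : ℂ⟦X⟧ :=
  H8two 1 (1 / 3) (1 / 4) (C (1 / 4 : ℂ) * (f - EpSeries p hp S)) (EpSeries p hp S)
    (1 - 24 * S) (1 + 240 * S3)

/-- expansion of `H₈ | S` in `t = q^(1/p)` (`ℓ = 2`). -/
noncomputable def H8zero2 (p : ℕ) (hp : p ≠ 0) (S S3 f : ℂ⟦X⟧) : ℂ⟦X⟧ :=
  H8two (1 / (p : ℂ)) (1 / 3) (1 / 4)
    (C (-(1 / (p : ℂ))) * (C (1 / 4 : ℂ) * (Up p f - EpSeries p hp S)))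
    (C (-(1 / (p : ℂ))) * EpSeries p hp S)
    (expand p hp (1 - 24 * S)) (expand p hp (1 + 240 * S3))

section Two

variable (p : ℕ) (hp : p ≠ 0) (hp4 : p % 4 = 3)
variable (Sz S3z Dz : ℤ⟦X⟧)

theorem two_Kl2 : (2 : Kl 2) = 0 := by
  have := natCast_Kl_eq_zero 2
  exact_mod_cast this

/-- One cusp of the `ℓ = 2` computation over `R = IntL 2`: from the reductions of the inputs to
the integrality and the reduction of `H₈`. -/
theorem two_cusp (hodd : Odd p) (d c3 : ↥(IntL 2)) (hc3 : 3 * c3 = 1) (hd : red 2 d = 1)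
    (Sb Db : (Kl 2)⟦X⟧) (hSD : Sb ^ 2 + Sb = Db) (hθD : theta Db = Db)
    (g E E2 E4 s s3 ε W : (↥(IntL 2))⟦X⟧)
    (hE2 : E2 = 1 - 24 * s) (hE4 : E4 = 1 + 240 * s3) (hE : E = 1 + 4 * ε)
    (hRam : 12 * (C d * theta E2) = E2 ^ 2 - E4)
    (hg : g.map (red 2) = Sb + expand p hp Sb)
    (hW : C d * theta (C d * theta (G4two g E)) - C d * theta (G4two g E) = 2 * W)
    (T : (Kl 2)⟦X⟧) (hWT : W.map (red 2) = T) :
    ∃ X : (↥(IntL 2))⟦X⟧, F8two d c3 (G4two g E) E2 E4 E = 4 * X ∧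
      (E4 * G4two g E + X).map (red 2) = Db + expand p hp Db + T := by
  have h2K : (2 : Kl 2) = 0 := two_Kl2
  have h2K' : (2 : (Kl 2)⟦X⟧) = 0 := by
    rw [← map_ofNat (C (R := Kl 2)) 2, h2K, map_zero]
  have hpK : ((p : ℕ) : Kl 2) = 1 := natCast_eq_one_of_odd h2K hodd
  have hEb : E.map (red 2) = 1 := by
    rw [hE, map_add, map_one, map_mul, map_ofNat]
    linear_combination (2 * ε.map (red 2)) * h2K'
  have hE2b : E2.map (red 2) = 1 := by
    rw [hE2, map_sub, map_one, map_mul, map_ofNat]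
    linear_combination (-12 * s.map (red 2)) * h2K'
  have hE4b : E4.map (red 2) = 1 := by
    rw [hE4, map_add, map_one, map_mul, map_ofNat]
    linear_combination (120 * s3.map (red 2)) * h2K'
  have hc3K : 3 * red 2 c3 = 1 := by
    have := congrArg (red 2) hc3
    simpa only [map_mul, map_ofNat, map_one] using this
  obtain ⟨hGb, hdGb⟩ := core2_G p hp h2K hpK Sb Db hSD hθD (g.map (red 2)) (E.map (red 2))
    (E2.map (red 2)) (red 2 c3) (red 2 d) hc3K hd hg hEb hE2b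
  have hdG0 : (serre4 d c3 (G4two g E) E2).map (red 2) = 0 := by
    rw [serre4_map, G4two_map]; exact hdGb
  obtain ⟨Z, hZ⟩ := exists_eq_mul_of_map_red_eq_zero 2 _ hdG0
  have hZ' : serre4 d c3 (G4two g E) E2 = 2 * Z := by
    rw [hZ]
    congr 1
  have key := F8two_eq_four_mul d c3 hc3 (G4two g E) E2 E4 E s s3 ε Z W hE2 hE4 hE hRam hZ' hW
  refine ⟨_, key, ?_⟩
  rw [map_add, map_mul, hE4b, G4two_map, hGb, map_sub, hWT, map_mul, map_ofNat]
  linear_combination (-(map (red 2)) ((-10 * s + C c3 * ε) * Z +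
    (C c3 * s + 20 * s ^ 2 + 35 * C c3 * s3) * G4two g E)) * h2K'

theorem H8two_map_of_four {d c3 : ↥(IntL 2)} {g E E2 E4 X : (↥(IntL 2))⟦X⟧}
    (hF : F8two d c3 (G4two g E) E2 E4 E = 4 * X) (d' c3' : ℂ) (g' E' E2' E4' : ℂ⟦X⟧)
    (hd : ((d : ↥(IntL 2)) : ℂ) = d') (hc3 : ((c3 : ↥(IntL 2)) : ℂ) = c3')
    (hg : g.map (IntL 2).subtype = g') (hE : E.map (IntL 2).subtype = E')
    (hE2 : E2.map (IntL 2).subtype = E2') (hE4 : E4.map (IntL 2).subtype = E4') :
    (E4 * G4two g E + X).map (IntL 2).subtype = H8two d' c3' (1 / 4) g' E' E2' E4' := by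
  have h1 := congrArg (PowerSeries.map (IntL 2).subtype) hF
  rw [F8two_map, G4two_map, hg, hE, hE2, hE4, map_mul, map_ofNat] at h1
  simp only [Subring.subtype_apply, hd, hc3] at h1
  have hC : (C (1 / 4 : ℂ)) * 4 = 1 := by
    rw [← map_ofNat (C (R := ℂ)) 4, ← map_mul]
    norm_num
  rw [H8two, h1, map_add, map_mul, hE4, G4two_map, hg, hE]
  linear_combination (-(X.map (IntL 2).subtype)) * hC

include hp4 in
theorem two_main
    (hSD : ∃ W : ℤ⟦X⟧, Sz ^ 2 + Sz - Dz = 2 * W) (hθD : ∃ W : ℤ⟦X⟧, theta Dz - Dz = 2 * W)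
    (hD2 : ∃ W : ℤ⟦X⟧, D2 Dz = 2 * W)
    (hRam : 12 * theta (1 - 24 * Sz) = (1 - 24 * Sz) ^ 2 - (1 + 240 * S3z))
    (f : ℂ⟦X⟧) (hf0 : coeff 0 f = 1) (hf : ∀ n, 1 ≤ n → ∃ x ∈ IntL 2, coeff n f = 8 * x) :
    ∃ hR hhatR : (↥(IntL 2))⟦X⟧,
      hR.map (IntL 2).subtype =
        H8inf2 p hp (Sz.map (Int.castRingHom ℂ)) (S3z.map (Int.castRingHom ℂ)) f ∧
      hhatR.map (IntL 2).subtype =
        H8zero2 p hp (Sz.map (Int.castRingHom ℂ)) (S3z.map (Int.castRingHom ℂ)) f ∧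
      hR.map (red 2) = Dz.map (Int.castRingHom (Kl 2)) ∧
      hhatR.map (red 2) = expand p hp (Dz.map (Int.castRingHom (Kl 2))) := by
  obtain ⟨f1, hf1⟩ := exists_lift_one_add 2 f 8 hf0 hf
  have hodd : Odd p := by rw [Nat.odd_iff]; omega
  -- constants in `IntL 2`
  have hp1C : (p : ℂ) - 1 ≠ 0 := by
    intro h
    have : (p : ℂ) = 1 := by linear_combination h
    have : p = 1 := by exact_mod_cast this
    omega
  have hpC : (p : ℂ) ≠ 0 := by exact_mod_cast hp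
  obtain ⟨m, hm⟩ : ∃ m, p = 2 * m + 1 := ⟨p / 2, by omega⟩
  obtain ⟨j, hj⟩ : ∃ j, p + 1 = 4 * j := ⟨(p + 1) / 4, by omega⟩
  have hmodd : Odd m := by rw [Nat.odd_iff]; omega
  have hmC : (p : ℂ) - 1 = 2 * (m : ℂ) := by rw [hm]; push_cast; ring
  obtain ⟨c, hc⟩ : ∃ c : ↥(IntL 2), (c : ℂ) = (6 : ℂ) / ((p : ℂ) - 1) := by
    have hm2 : ¬ 2 ∣ m := by rw [Nat.two_dvd_ne_zero]; omega
    have := intCast_div_natCast_mem_IntL 2 3 hm2
    refine ⟨⟨_, this⟩, ?_⟩
    have hm0 : (m : ℂ) ≠ 0 := by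
      intro h
      apply hp1C
      rw [hmC, h, mul_zero]
    rw [hmC]
    push_cast
    field_simp
    norm_num
  obtain ⟨c3, hc3⟩ : ∃ c : ↥(IntL 2), (c : ℂ) = 1 / 3 := by
    have := inv_natCast_mem_IntL 2 (by omega : ¬ 2 ∣ 3)
    exact ⟨⟨_, this⟩, by simp⟩
  obtain ⟨pinv, hpinv⟩ : ∃ c : ↥(IntL 2), (c : ℂ) = 1 / (p : ℂ) := by
    have := inv_natCast_mem_IntL 2 (by omega : ¬ 2 ∣ p)
    exact ⟨⟨_, this⟩, by rw [one_div]⟩
  have hcR : c * (m : ↥(IntL 2)) = 3 := by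
    apply Subtype.ext
    push_cast
    have hm0 : (m : ℂ) ≠ 0 := by
      intro h
      apply hp1C
      rw [hmC, h, mul_zero]
    rw [show ((3 : ↥(IntL 2)) : ℂ) = 3 from rfl, hc, hmC, div_mul_eq_mul_div,
      div_eq_iff (mul_ne_zero two_ne_zero hm0)]
    ring
  have hc3R : 3 * c3 = 1 := by
    apply Subtype.ext
    push_cast
    rw [hc3, show ((3 : ↥(IntL 2)) : ℂ) = 3 by rfl]
    norm_num
  have hpinvR : pinv * (p : ↥(IntL 2)) = 1 := by
    apply Subtype.ext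
    push_cast
    rw [hpinv, one_div, inv_mul_cancel₀ hpC]
  have hmR : (1 : ↥(IntL 2)) + 2 * (m : ↥(IntL 2)) = (p : ↥(IntL 2)) := by
    rw [hm]; push_cast; ring
  have hjR : (p : ↥(IntL 2)) + 1 = 4 * (j : ↥(IntL 2)) := by
    have := congrArg (Nat.cast (R := ↥(IntL 2))) hj
    push_cast at this
    exact this
  -- reductions of the constants
  have h2K : (2 : Kl 2) = 0 := two_Kl2
  have h2K' : (2 : (Kl 2)⟦X⟧) = 0 := by
    rw [← map_ofNat (C (R := Kl 2)) 2, h2K, map_zero]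
  have hpK : ((p : ℕ) : Kl 2) = 1 := natCast_eq_one_of_odd h2K hodd
  have hmK : ((m : ℕ) : Kl 2) = 1 := natCast_eq_one_of_odd h2K hmodd
  have hcK : red 2 c = 1 := by
    have := congrArg (red 2) hcR
    simp only [map_mul, map_natCast, map_ofNat] at this
    rw [hmK, mul_one] at this
    linear_combination this + h2K
  have hpinvK : red 2 pinv = 1 := by
    have := congrArg (red 2) hpinvR
    simp only [map_mul, map_natCast, map_one] at this
    rw [hpK, mul_one] at this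
    exact this
  -- the series over `IntL 2`
  set SR : (↥(IntL 2))⟦X⟧ := Sz.map (Int.castRingHom _) with hSR
  set S3R : (↥(IntL 2))⟦X⟧ := S3z.map (Int.castRingHom _) with hS3R
  set S'R : (↥(IntL 2))⟦X⟧ := SR - C (p : ↥(IntL 2)) * expand p hp SR with hS'R
  set εR : (↥(IntL 2))⟦X⟧ := C c * S'R with hεR
  set EpR : (↥(IntL 2))⟦X⟧ := 1 + 4 * εR with hEpR
  set gR : (↥(IntL 2))⟦X⟧ := C 2 * f1 - C c * S'R with hgR
  set gtR : (↥(IntL 2))⟦X⟧ := C 2 * Up p f1 - C c * S'R with hgtR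
  set E2R : (↥(IntL 2))⟦X⟧ := 1 - 24 * SR with hE2R
  set E4R : (↥(IntL 2))⟦X⟧ := 1 + 240 * S3R with hE4R
  set S : ℂ⟦X⟧ := Sz.map (Int.castRingHom ℂ) with hS
  set S3 : ℂ⟦X⟧ := S3z.map (Int.castRingHom ℂ) with hS3
  set Sb : (Kl 2)⟦X⟧ := Sz.map (Int.castRingHom (Kl 2)) with hSb
  set Db : (Kl 2)⟦X⟧ := Dz.map (Int.castRingHom (Kl 2)) with hDb
  -- images in `ℂ`
  have hSι : SR.map (IntL 2).subtype = S := map_intCast_series _ _
  have hS3ι : S3R.map (IntL 2).subtype = S3 := map_intCast_series _ _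
  have hS'ι : S'R.map (IntL 2).subtype = S - C (p : ℂ) * expand p hp S := by
    rw [hS'R, map_sub, map_mul, map_expand, hSι, map_C]
    simp
  have hC1 : (4 : ℂ⟦X⟧) * C ((6 : ℂ) / ((p : ℂ) - 1)) = C ((24 : ℂ) / ((p : ℂ) - 1)) := by
    rw [← map_ofNat (C (R := ℂ)) 4, ← map_mul]; congr 1; ring
  have hEpι : EpR.map (IntL 2).subtype = EpSeries p hp S := by
    rw [hEpR, hεR, EpSeries, map_add, map_one, map_mul, map_mul, hS'ι, map_C, map_ofNat,
      ← mul_assoc]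
    simp only [Subring.subtype_apply, hc]
    rw [hC1]
  have hE2ι : E2R.map (IntL 2).subtype = 1 - 24 * S := by
    rw [hE2R, map_sub, map_one, map_mul, hSι, map_ofNat]
  have hE4ι : E4R.map (IntL 2).subtype = 1 + 240 * S3 := by
    rw [hE4R, map_add, map_one, map_mul, hS3ι, map_ofNat]
  have hC2 : (C (1 / 4 : ℂ)) * C (8 : ℂ) = C 2 := by
    rw [← map_mul]; congr 1; norm_num
  have hC3 : (C (1 / 4 : ℂ)) * C ((24 : ℂ) / ((p : ℂ) - 1)) = C ((6 : ℂ) / ((p : ℂ) - 1)) := by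
    rw [← map_mul]; congr 1; ring
  have hgι : gR.map (IntL 2).subtype = C (1 / 4 : ℂ) * (f - EpSeries p hp S) := by
    rw [hgR, map_sub, map_mul, map_mul, hS'ι, map_C, map_C, hf1, EpSeries]
    simp only [Subring.subtype_apply, hc]
    rw [show ((2 : ↥(IntL 2)) : ℂ) = 2 by rfl]
    linear_combination (-(f1.map (IntL 2).subtype)) * hC2
      + (S - C (p : ℂ) * expand p hp S) * hC3
  have hUf : Up p f = 1 + C 8 * (Up p f1).map (IntL 2).subtype := by
    rw [hf1, Up_add, Up_one p hp, Up_C_mul, Up_map]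
  have hgtι : gtR.map (IntL 2).subtype = C (1 / 4 : ℂ) * (Up p f - EpSeries p hp S) := by
    rw [hgtR, map_sub, map_mul, map_mul, hS'ι, map_C, map_C, hUf, EpSeries]
    simp only [Subring.subtype_apply, hc]
    rw [show ((2 : ↥(IntL 2)) : ℂ) = 2 by rfl]
    linear_combination (-((Up p f1).map (IntL 2).subtype)) * hC2
      + (S - C (p : ℂ) * expand p hp S) * hC3
  -- reductions
  have hSDb : Sb ^ 2 + Sb = Db := by
    obtain ⟨W, hW⟩ := hSD
    have := congrArg (PowerSeries.map (Int.castRingHom (Kl 2))) hW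
    simp only [map_add, map_sub, map_pow, map_mul, map_ofNat] at this
    rw [← hSb, ← hDb, h2K', zero_mul] at this
    linear_combination this
  have hθDb : theta Db = Db := by
    obtain ⟨W, hW⟩ := hθD
    have := congrArg (PowerSeries.map (Int.castRingHom (Kl 2))) hW
    simp only [map_sub, map_mul, map_ofNat, theta_map] at this
    rw [← hDb, h2K', zero_mul] at this
    linear_combination this
  have hD2b : D2 Db = 0 := by
    obtain ⟨W, hW⟩ := hD2
    have := congrArg (PowerSeries.map (Int.castRingHom (Kl 2))) hW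
    simp only [map_mul, map_ofNat, D2_map] at this
    rw [← hDb, h2K', zero_mul] at this
    exact this
  obtain ⟨hW1, hW2⟩ := core2_W p hp hp4 h2K Db hθDb hD2b
  have hSRb : SR.map (red 2) = Sb := map_intCast_series _ _
  have hS'b : S'R.map (red 2) = Sb + expand p hp Sb - 2 * expand p hp Sb := by
    rw [hS'R, map_sub, map_mul, map_expand, hSRb, map_C, map_natCast, hpK, map_one]
    ring
  have hgb : gR.map (red 2) = Sb + expand p hp Sb := by
    rw [hgR, map_sub, map_mul, map_mul, hS'b, map_C, map_C, hcK, map_ofNat, h2K, map_zero,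
      map_one]
    linear_combination (-(Sb)) * h2K'
  have hgtb : gtR.map (red 2) = Sb + expand p hp Sb := by
    rw [hgtR, map_sub, map_mul, map_mul, hS'b, map_C, map_C, hcK, map_ofNat, h2K, map_zero,
      map_one]
    linear_combination (-(Sb)) * h2K'
  have hRamR : 12 * theta E2R = E2R ^ 2 - E4R := by
    have := congrArg (PowerSeries.map (Int.castRingHom ↥(IntL 2))) hRam
    simp only [map_add, map_sub, map_pow, map_mul, map_ofNat, map_one, ← theta_map] at this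
    simp only [theta_map, map_sub, map_one, map_mul, map_ofNat] at this
    exact this
  -- the cusp `∞`
  have hRam1 : 12 * (C (1 : ↥(IntL 2)) * theta E2R) = E2R ^ 2 - E4R := by
    rw [map_one, one_mul]; exact hRamR
  have hWinf : C (1 : ↥(IntL 2)) * theta (C (1 : ↥(IntL 2)) * theta (G4two gR EpR))
      - C (1 : ↥(IntL 2)) * theta (G4two gR EpR) = 2 * D2 (G4two gR EpR) := by
    rw [map_one, one_mul, one_mul, two_mul_D2]
  have hGinf : (G4two gR EpR).map (red 2) = Db + expand p hp Db := by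
    have hEb : EpR.map (red 2) = 1 := by
      rw [hEpR, map_add, map_one, map_mul, map_ofNat]
      linear_combination (2 * εR.map (red 2)) * h2K'
    rw [G4two_map, hgb, hEb]
    exact (core2_G p hp h2K hpK Sb Db hSDb hθDb _ _ 1 1 1 (by linear_combination h2K) rfl rfl
      rfl rfl).1
  obtain ⟨Xinf, hXinf, hXinfb⟩ := two_cusp p hp hodd 1 c3 hc3R (map_one _) Sb Db hSDb hθDb
    gR EpR E2R E4R SR S3R εR (D2 (G4two gR EpR)) rfl rfl rfl hRam1 hgb hWinf
    (expand p hp Db) (by rw [D2_map, hGinf, hW1])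
  -- the other cusp
  set ghR : (↥(IntL 2))⟦X⟧ := C (-pinv) * gtR with hghR
  set EhR : (↥(IntL 2))⟦X⟧ := C (-pinv) * EpR with hEhR
  set εh : (↥(IntL 2))⟦X⟧ := -(C (j : ↥(IntL 2)) * C pinv) - C pinv * εR with hεh
  have hpinvC : (C pinv : (↥(IntL 2))⟦X⟧) * C (p : ↥(IntL 2)) = 1 := by
    rw [← map_mul, hpinvR, map_one]
  have hjC : (C (p : ↥(IntL 2)) : (↥(IntL 2))⟦X⟧) + 1 = 4 * C (j : ↥(IntL 2)) := by
    rw [← map_one (C (R := ↥(IntL 2))), ← map_add, hjR, map_mul, map_ofNat]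
  have hmCC : (1 : (↥(IntL 2))⟦X⟧) + 2 * C (m : ↥(IntL 2)) = C (p : ↥(IntL 2)) := by
    rw [← hmR, map_add, map_one, map_mul, map_ofNat]
  have hEh : EhR = 1 + 4 * εh := by
    rw [hEhR, hεh, hEpR, map_neg]
    linear_combination hpinvC - C pinv * hjC
  have hE2h : expand p hp E2R = 1 - 24 * expand p hp SR := by
    rw [hE2R, map_sub, map_one, map_mul, map_ofNat]
  have hE4h : expand p hp E4R = 1 + 240 * expand p hp S3R := by
    rw [hE4R, map_add, map_one, map_mul, map_ofNat]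
  have hRamh : 12 * (C pinv * theta (expand p hp E2R)) = (expand p hp E2R) ^ 2 - expand p hp E4R := by
    rw [theta_expand, ← map_pow, ← map_sub, ← hRamR, map_mul, map_ofNat]
    linear_combination (12 * expand p hp (theta E2R)) * hpinvC
  have hghb : ghR.map (red 2) = Sb + expand p hp Sb := by
    rw [hghR, map_mul, hgtb, map_C, map_neg, hpinvK, map_neg, map_one]
    linear_combination (-(Sb + expand p hp Sb)) * h2K'
  set Wh : (↥(IntL 2))⟦X⟧ :=
    C (pinv ^ 2) * (D2 (G4two ghR EhR) - C (m : ↥(IntL 2)) * theta (G4two ghR EhR)) with hWh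
  have hWzero : C pinv * theta (C pinv * theta (G4two ghR EhR))
      - C pinv * theta (G4two ghR EhR) = 2 * Wh := by
    rw [hWh, theta_C_mul, map_pow]
    linear_combination (-(C pinv) ^ 2) * two_mul_D2 (G4two ghR EhR)
      + (theta (G4two ghR EhR) * C pinv) * hpinvC
      + (theta (G4two ghR EhR) * C pinv ^ 2) * hmCC
  have hGzero : (G4two ghR EhR).map (red 2) = Db + expand p hp Db := by
    have hEb : EhR.map (red 2) = 1 := by
      rw [hEh, map_add, map_one, map_mul, map_ofNat]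
      linear_combination (2 * εh.map (red 2)) * h2K'
    rw [G4two_map, hghb, hEb]
    exact (core2_G p hp h2K hpK Sb Db hSDb hθDb _ _ 1 1 1 (by linear_combination h2K) rfl rfl
      rfl rfl).1
  have hWhb : Wh.map (red 2) = Db := by
    rw [hWh, map_mul, map_C, map_pow, hpinvK, one_pow, map_one, one_mul, map_sub, D2_map,
      map_mul, theta_map, hGzero, map_C, map_natCast]
    have : (p - 1) / 2 = m := by omega
    rw [this] at hW2
    exact hW2
  obtain ⟨Xzero, hXzero, hXzerob⟩ := two_cusp p hp hodd pinv c3 hc3R hpinvK Sb Db hSDb hθDb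
    ghR EhR (expand p hp E2R) (expand p hp E4R) (expand p hp SR) (expand p hp S3R) εh Wh
    hE2h hE4h hEh hRamh hghb hWzero Db hWhb
  refine ⟨E4R * G4two gR EpR + Xinf, expand p hp E4R * G4two ghR EhR + Xzero, ?_, ?_, ?_, ?_⟩
  · rw [H8inf2]
    exact H8two_map_of_four hXinf 1 (1 / 3) _ _ _ _ rfl hc3 hgι hEpι hE2ι hE4ι
  · rw [H8zero2]
    refine H8two_map_of_four hXzero (1 / (p : ℂ)) (1 / 3) _ _ _ _ hpinv hc3 ?_ ?_ ?_ ?_
    · rw [hghR, map_mul, hgtι, map_C]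
      simp only [Subring.subtype_apply, Subring.coe_neg, hpinv]
    · rw [hEhR, map_mul, hEpι, map_C]
      simp only [Subring.subtype_apply, Subring.coe_neg, hpinv]
    · rw [map_expand, hE2ι]
    · rw [map_expand, hE4ι]
  · rw [hXinfb]
    linear_combination (expand p hp Db) * h2K'
  · rw [hXzerob]
    linear_combination Db * h2K'

include hp4 in
/-- `ℓ = 2`, `p ≡ 3 mod 4`: the norm of `H₈` cannot be a level-one form of weight `8 (p + 1)`. -/
theorem two_contra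
    (hSD : ∃ W : ℤ⟦X⟧, Sz ^ 2 + Sz - Dz = 2 * W) (hθD : ∃ W : ℤ⟦X⟧, theta Dz - Dz = 2 * W)
    (hD2 : ∃ W : ℤ⟦X⟧, D2 Dz = 2 * W)
    (hRam : 12 * theta (1 - 24 * Sz) = (1 - 24 * Sz) ^ 2 - (1 + 240 * S3z))
    (hD0 : coeff 0 Dz = 0) (hD1 : coeff 1 Dz = 1)
    (f : ℂ⟦X⟧) (hf0 : coeff 0 f = 1) (hf : ∀ n, 1 ≤ n → ∃ x ∈ IntL 2, coeff n f = 8 * x)
    (ζ : ℂ) (hζ : ζ ^ p = 1) (n : ℂ⟦X⟧)
    (hnorm : expand p hp n =
      expand p hp (H8inf2 p hp (Sz.map (Int.castRingHom ℂ)) (S3z.map (Int.castRingHom ℂ)) f) *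
      ∏ b ∈ Finset.range p, rescale (ζ ^ b)
        (H8zero2 p hp (Sz.map (Int.castRingHom ℂ)) (S3z.map (Int.castRingHom ℂ)) f))
    (hlevel : ∀ nR : (↥(IntL 2))⟦X⟧, nR.map (IntL 2).subtype = n →
      ∃ P : Polynomial (Kl 2), 12 * P.natDegree ≤ 8 * (p + 1) ∧
        nR.map (red 2) = Polynomial.aeval (Dz.map (Int.castRingHom (Kl 2))) P) : False := by
  obtain ⟨hR, hhatR, h1, h2, h3, h4⟩ :=
    two_main p hp hp4 Sz S3z Dz hSD hθD hD2 hRam f hf0 hf
  rw [← h1, ← h2] at hnorm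
  obtain ⟨nR, hn1, hn2⟩ := norm_reduction 2 p hp ζ hζ n hR hhatR hnorm _ h3 h4
  obtain ⟨P, hP, hnP⟩ := hlevel nR hn1
  have hc0 : constantCoeff (Dz.map (Int.castRingHom (Kl 2))) = 0 := by
    rw [← coeff_zero_eq_constantCoeff_apply, coeff_map, hD0, map_zero]
  have hc1 : coeff 1 (Dz.map (Int.castRingHom (Kl 2))) = 1 := by
    rw [coeff_map, hD1, map_one]
  exact aeval_ne_pow _ hc0 hc1 P (p + 1) (by omega) (hnP.symm.trans hn2)

end Two

end Fermat.Agent.S16.SerreCoreTwo
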