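import Mathlib

/-!
# S16, Serre-derivative closure of the `ℓ = 2, 3` gaps: formal operators on power series

`theta = X d/dX`, `D2` (coefficientwise `n.choose 2`), `Up` (coefficientwise `a_{pn}`), and their
interaction with `PowerSeries.map`, `PowerSeries.expand`, `PowerSeries.rescale`.
Mathlib only.
-/

set_option autoImplicit false

namespace Fermat.Agent.S16.SerreCoreOps

open PowerSeries

variable {A B : Type*} [CommRing A] [CommRing B]

/-- `θ = X d/dX`. -/
noncomputable def theta (f : A⟦X⟧) : A⟦X⟧ := X * d⁄dX A f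

theorem coeff_theta (f : A⟦X⟧) (n : ℕ) : coeff n (theta f) = (n : A) * coeff n f := by
  cases n with
  | zero => simp [theta]
  | succ n =>
    rw [theta, coeff_succ_X_mul, coeff_derivative]
    push_cast
    ring

theorem theta_add (f g : A⟦X⟧) : theta (f + g) = theta f + theta g := by
  simp only [theta, map_add, mul_add]

theorem theta_sub (f g : A⟦X⟧) : theta (f - g) = theta f - theta g := by
  simp only [theta, map_sub, mul_sub]

theorem theta_neg (f : A⟦X⟧) : theta (-f) = -theta f := by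
  simp only [theta, map_neg, mul_neg]

theorem theta_zero : theta (0 : A⟦X⟧) = 0 := by
  simp only [theta, map_zero, mul_zero]

theorem theta_mul (f g : A⟦X⟧) : theta (f * g) = theta f * g + f * theta g := by
  simp only [theta, Derivation.leibniz, smul_eq_mul]
  ring

theorem theta_C (a : A) : theta (C a : A⟦X⟧) = 0 := by
  simp only [theta, derivative_C, mul_zero]

theorem theta_one : theta (1 : A⟦X⟧) = 0 := by
  rw [← map_one (C (R := A)), theta_C]

theorem theta_C_mul (a : A) (f : A⟦X⟧) : theta (C a * f) = C a * theta f := by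
  rw [theta_mul, theta_C, zero_mul, zero_add]

theorem theta_map (φ : A →+* B) (f : A⟦X⟧) : (theta f).map φ = theta (f.map φ) := by
  ext n
  simp only [coeff_map, coeff_theta, map_mul, map_natCast]

theorem theta_expand (p : ℕ) (hp : p ≠ 0) (f : A⟦X⟧) :
    theta (expand p hp f) = C (p : A) * expand p hp (theta f) := by
  ext n
  rw [coeff_theta, coeff_C_mul]
  by_cases h : p ∣ n
  · obtain ⟨m, rfl⟩ := h
    rw [coeff_expand_mul, coeff_expand_mul, coeff_theta]
    push_cast
    ring
  · rw [coeff_expand_of_not_dvd p hp _ h, coeff_expand_of_not_dvd p hp _ h, mul_zero, mul_zero]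

/-- coefficientwise multiplication by `n.choose 2` (`= (θ² - θ)/2`). -/
noncomputable def D2 (f : A⟦X⟧) : A⟦X⟧ := PowerSeries.mk fun n => (n.choose 2 : A) * coeff n f

theorem coeff_D2 (f : A⟦X⟧) (n : ℕ) : coeff n (D2 f) = (n.choose 2 : A) * coeff n f := by
  rw [D2, coeff_mk]

theorem D2_add (f g : A⟦X⟧) : D2 (f + g) = D2 f + D2 g := by
  ext n
  simp only [coeff_D2, map_add, mul_add]

theorem D2_zero : D2 (0 : A⟦X⟧) = 0 := by
  ext n
  simp only [coeff_D2, map_zero, mul_zero]

theorem D2_map (φ : A →+* B) (f : A⟦X⟧) : (D2 f).map φ = D2 (f.map φ) := by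
  ext n
  simp only [coeff_map, coeff_D2, map_mul, map_natCast]

theorem two_mul_choose_two_add (n : ℕ) : 2 * n.choose 2 + n = n * n := by
  induction n with
  | zero => rfl
  | succ n ih =>
    rw [Nat.choose_succ_succ', Nat.choose_one_right]
    nlinarith [ih]

theorem two_mul_D2 (f : A⟦X⟧) : 2 * D2 f = theta (theta f) - theta f := by
  ext n
  have h2 : (2 : A⟦X⟧) = C (2 : A) := (map_ofNat (C (R := A)) 2).symm
  rw [h2, coeff_C_mul, coeff_D2, map_sub, coeff_theta, coeff_theta]
  have := congrArg (Nat.cast (R := A)) (two_mul_choose_two_add n)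
  push_cast at this
  linear_combination (coeff n f) * this

theorem choose_two_mul (p n : ℕ) :
    (p * n).choose 2 = p * p * n.choose 2 + p.choose 2 * n := by
  have h1 := congrArg (Nat.cast (R := ℤ)) (two_mul_choose_two_add (p * n))
  have h2 := congrArg (Nat.cast (R := ℤ)) (two_mul_choose_two_add n)
  have h3 := congrArg (Nat.cast (R := ℤ)) (two_mul_choose_two_add p)
  push_cast at h1 h2 h3
  apply Nat.cast_injective (R := ℤ)
  push_cast
  have : (2 : ℤ) * ((p * n).choose 2 : ℤ) =
      2 * ((p : ℤ) * p * (n.choose 2 : ℤ) + (p.choose 2 : ℤ) * n) := by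
    linear_combination h1 - (p : ℤ) * p * h2 - (n : ℤ) * h3
  exact mul_left_cancel₀ two_ne_zero this

theorem D2_expand (p : ℕ) (hp : p ≠ 0) (f : A⟦X⟧) :
    D2 (expand p hp f) =
      C ((p : A) * p) * expand p hp (D2 f) + C (p.choose 2 : A) * expand p hp (theta f) := by
  ext n
  rw [coeff_D2, map_add, coeff_C_mul, coeff_C_mul]
  by_cases h : p ∣ n
  · obtain ⟨m, rfl⟩ := h
    rw [coeff_expand_mul, coeff_expand_mul, coeff_expand_mul, coeff_D2, coeff_theta,
      choose_two_mul]
    push_cast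
    ring
  · rw [coeff_expand_of_not_dvd p hp _ h, coeff_expand_of_not_dvd p hp _ h,
      coeff_expand_of_not_dvd p hp _ h]
    ring

/-- `U_p`: coefficientwise `a_{pn}`. -/
noncomputable def Up (p : ℕ) (f : A⟦X⟧) : A⟦X⟧ := PowerSeries.mk fun n => coeff (p * n) f

theorem coeff_Up (p : ℕ) (f : A⟦X⟧) (n : ℕ) : coeff n (Up p f) = coeff (p * n) f := by
  rw [Up, coeff_mk]

theorem Up_add (p : ℕ) (f g : A⟦X⟧) : Up p (f + g) = Up p f + Up p g := by
  ext n
  simp only [coeff_Up, map_add]

theorem Up_sub (p : ℕ) (f g : A⟦X⟧) : Up p (f - g) = Up p f - Up p g := by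
  ext n
  simp only [coeff_Up, map_sub]

theorem Up_C_mul (p : ℕ) (a : A) (f : A⟦X⟧) : Up p (C a * f) = C a * Up p f := by
  ext n
  simp only [coeff_Up, coeff_C_mul]

theorem Up_one (p : ℕ) (hp : p ≠ 0) : Up p (1 : A⟦X⟧) = 1 := by
  ext n
  rw [coeff_Up, coeff_one, coeff_one]
  by_cases h : n = 0
  · simp [h]
  · simp [h, hp]

theorem Up_map (p : ℕ) (φ : A →+* B) (f : A⟦X⟧) : (Up p f).map φ = Up p (f.map φ) := by
  ext n
  simp only [coeff_map, coeff_Up]

theorem Up_expand (p : ℕ) (hp : p ≠ 0) (f : A⟦X⟧) : Up p (expand p hp f) = f := by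
  ext n
  rw [coeff_Up, coeff_expand_mul]

theorem expand_injective (p : ℕ) (hp : p ≠ 0) :
    Function.Injective (expand p hp : A⟦X⟧ → A⟦X⟧) := by
  intro f g h
  rw [← Up_expand p hp f, ← Up_expand p hp g, h]

theorem rescale_expand_of_pow_eq_one (p : ℕ) (hp : p ≠ 0) (a : A) (ha : a ^ p = 1) (f : A⟦X⟧) :
    rescale a (expand p hp f) = expand p hp f := by
  ext n
  rw [coeff_rescale]
  by_cases h : p ∣ n
  · obtain ⟨m, rfl⟩ := h
    rw [pow_mul, ha, one_pow, one_mul]
  · rw [coeff_expand_of_not_dvd p hp _ h, mul_zero]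

/-- lifting a series with coefficients in a subring -/
theorem exists_map_subtype_eq (R : Subring A) (f : A⟦X⟧) (hf : ∀ n, coeff n f ∈ R) :
    ∃ g : (↥R)⟦X⟧, g.map R.subtype = f :=
  ⟨PowerSeries.mk fun n => ⟨coeff n f, hf n⟩, by ext n; simp⟩

theorem map_subtype_injective (R : Subring A) :
    Function.Injective (PowerSeries.map R.subtype : (↥R)⟦X⟧ → A⟦X⟧) := by
  intro f g h
  ext n
  have := congrArg (coeff n) h
  simpa using this

end Fermat.Agent.S16.SerreCoreOps
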