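/-
S16 (Eisenstein ideal index), analytic support: `q`-expansions of Serre derivatives, of width `1`
and of width `p`, in the shapes consumed by `SerreCore*` (helper52 #1466 inputs (i), (ii)).
Owner: helper45.

All statements use `SerreCoreOps.theta = X * d⁄dX`, `PowerSeries.expand`, `PowerSeries.C` and
`E2q = 1 - 24 * toC (sig 1)` (`DivisorCongr.sig 1 = ∑ σ₁(n) Xⁿ` over `ℤ`).
-/
import Fermat.Agent.S16.SerreLevel
import Fermat.Agent.S16.SerreCoreOps
import Fermat.Agent.S16.DivisorCongr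
import Fermat.Prelude.Thm_UpperHalfPlane_qExpansion_coeff_nat_mul

set_option autoImplicit false

namespace Fermat.Agent.S16.SerreExpansion

open UpperHalfPlane hiding I
open ModularForm ModularFormClass MatrixGroups EisensteinSeries Complex Derivative
  Filter Topology CongruenceSubgroup SlashInvariantForm
open scoped Manifold Real
open Fermat.Agent.S24.JLocalOrder Fermat.Agent.S16.SerreLevel Fermat.Agent.S16.SerreCoreOps
  Fermat.Agent.S16.DivisorCongr
open PowerSeries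

local notation "𝕢" => Function.Periodic.qParam

/-! ### The `q`-expansion of `E₂` -/

/-- `E₂ = 1 - 24 ∑ σ₁(n) qⁿ` as a complex power series. -/
noncomputable def E2q : ℂ⟦X⟧ := 1 - 24 * toC (sig 1)

lemma coeff_E2q (m : ℕ) :
    coeff m E2q = if m = 0 then 1 else -24 * (ArithmeticFunction.sigma 1 m : ℂ) := by
  have h24 : (24 : ℂ⟦X⟧) = C (24 : ℂ) := (map_ofNat (C (R := ℂ)) 24).symm
  rw [E2q, h24, map_sub, coeff_C_mul, coeff_one, PowerSeries.coeff_map, coeff_sig]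
  split_ifs with h
  · subst h; simp
  · simp [ArithmeticFunction.sigma_apply]

/-- `qExpansion 1 E₂ = 1 - 24 * S`. -/
theorem qExpansion_E2 : qExpansion 1 E2 = E2q := by
  ext m
  rw [coeff_qExpansion_E2, coeff_E2q]

/-! ### Width `p` expansions of `1`-periodic functions -/

lemma periodic_natCast {G : ℍ → ℂ} (hper : Function.Periodic (G ∘ ofComplex) ((1 : ℝ) : ℂ))
    (p : ℕ) : Function.Periodic (G ∘ ofComplex) ((p : ℝ) : ℂ) := by
  have := hper.nat_mul p
  simpa using this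

/-- The width `p` expansion of a `1`-periodic function is the width `1` expansion in `X ^ p`. -/
theorem qExpansion_natCast_eq_expand {G : ℍ → ℂ}
    (hper : Function.Periodic (G ∘ ofComplex) ((1 : ℝ) : ℂ)) (hhol : MDiff G)
    (hbdd : IsBoundedAtImInfty G) (p : ℕ) (hp : p ≠ 0) :
    qExpansion (p : ℝ) G = expand p hp (qExpansion 1 G) := by
  ext n
  have := UpperHalfPlane.qExpansion_coeff_nat_mul one_pos hper hhol hbdd
    (Nat.pos_of_ne_zero hp) n
  rw [mul_one] at this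
  rw [this, coeff_expand]

/-- The width `p` expansion of `E₂`. -/
theorem qExpansion_natCast_E2 (p : ℕ) (hp : p ≠ 0) :
    qExpansion (p : ℝ) E2 = expand p hp E2q := by
  rw [qExpansion_natCast_eq_expand periodic_E2 E2_mdifferentiable isBoundedAtImInfty_E2 p hp,
    qExpansion_E2]

/-! ### `D` and the Serre derivative in width `p` -/

/-- Width `p` expansion of `D G`: `(1/p) θ`. -/
theorem qExpansion_natCast_D {G : ℍ → ℂ} {p : ℕ} (hp : p ≠ 0)
    (hper : Function.Periodic (G ∘ ofComplex) ((p : ℝ) : ℂ)) (hhol : MDiff G)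
    (hbdd : IsBoundedAtImInfty G) :
    qExpansion (p : ℝ) (D G) = C ((p : ℂ)⁻¹) * theta (qExpansion (p : ℝ) G) := by
  have hp0 : (0 : ℝ) < p := by exact_mod_cast Nat.pos_of_ne_zero hp
  ext n
  rw [coeff_qExpansion_D hp0 hper hhol hbdd, coeff_C_mul, coeff_theta]
  push_cast
  ring

/-- Width `1` expansion of `D G`: `θ`. -/
theorem qExpansion_one_D {G : ℍ → ℂ}
    (hper : Function.Periodic (G ∘ ofComplex) ((1 : ℝ) : ℂ)) (hhol : MDiff G)
    (hbdd : IsBoundedAtImInfty G) :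
    qExpansion 1 (D G) = theta (qExpansion 1 G) := by
  ext n
  rw [coeff_qExpansion_D one_pos hper hhol hbdd, coeff_theta]
  simp

/-- Width `p` expansion of a Serre derivative, for a `p`-periodic function:
`(1/p) θ X - (k/12) E₂(t^p) X`. -/
theorem qExpansion_natCast_serreDerivative {G : ℍ → ℂ} {p : ℕ} (hp : p ≠ 0)
    (hper : Function.Periodic (G ∘ ofComplex) ((p : ℝ) : ℂ)) (hhol : MDiff G)
    (hbdd : IsBoundedAtImInfty G) (k : ℂ) :
    qExpansion (p : ℝ) (serreDerivative k G) =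
      C ((p : ℂ)⁻¹) * theta (qExpansion (p : ℝ) G) -
        C (k * 12⁻¹) * (expand p hp E2q * qExpansion (p : ℝ) G) := by
  have hp0 : (0 : ℝ) < p := by exact_mod_cast Nat.pos_of_ne_zero hp
  have hanG : AnalyticAt ℂ (cuspFunction (p : ℝ) G) 0 :=
    analyticAt_cuspFunction_zero hp0 hper hhol hbdd
  have hanD := analyticAt_cuspFunction_D hp0 hper hhol hbdd
  have hanE : AnalyticAt ℂ (cuspFunction (p : ℝ) E2) 0 :=
    analyticAt_cuspFunction_zero hp0 (periodic_natCast periodic_E2 p) E2_mdifferentiable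
      isBoundedAtImInfty_E2
  have hanEG : AnalyticAt ℂ (cuspFunction (p : ℝ) (E2 * G)) 0 := by
    rw [cuspFunction_mul hanE.continuousAt hanG.continuousAt]
    exact hanE.mul hanG
  have h1 : serreDerivative k G = D G - (k * 12⁻¹) • (E2 * G) := by
    ext z
    simp [serreDerivative_apply, mul_assoc]
  have hanS : AnalyticAt ℂ (cuspFunction (p : ℝ) ((k * 12⁻¹) • (E2 * G))) 0 := by
    rw [cuspFunction_smul hanEG.continuousAt]
    exact hanEG.const_smul
  rw [h1, qExpansion_sub hanD hanS, qExpansion_smul hanEG, qExpansion_mul hanE hanG,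
    qExpansion_natCast_D hp hper hhol hbdd, qExpansion_natCast_E2 p hp, smul_eq_C_mul]

/-- Width `1` expansion of a Serre derivative, for a `1`-periodic function:
`θ g - (k/12) E₂ g`. -/
theorem qExpansion_one_serreDerivative {G : ℍ → ℂ}
    (hper : Function.Periodic (G ∘ ofComplex) ((1 : ℝ) : ℂ)) (hhol : MDiff G)
    (hbdd : IsBoundedAtImInfty G) (k : ℂ) :
    qExpansion 1 (serreDerivative k G) =
      theta (qExpansion 1 G) - C (k * 12⁻¹) * (E2q * qExpansion 1 G) := by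
  rw [qExpansion_serreDerivative hper hhol hbdd, qExpansion_one_D hper hhol hbdd, qExpansion_E2,
    smul_eq_C_mul]

/-! ### Level: conjugates of forms on a finite index subgroup -/

section Level

open ConjAct Pointwise Matrix Matrix.SpecialLinearGroup Matrix.GeneralLinearGroup

variable {Γ : Subgroup SL(2, ℤ)} [Γ.FiniteIndex] {k : ℤ}
  (F : ModularForm (Γ : Subgroup (GL (Fin 2) ℝ)) k)

omit [Γ.FiniteIndex] in
/-- If `γ Tⁿ γ⁻¹ ∈ Γ` then `F ∣[k] γ` is `n`-periodic. -/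
lemma periodic_slash_of_conj_mem {γ : SL(2, ℤ)} {n : ℕ}
    (hmem : γ * ModularGroup.T ^ n * γ⁻¹ ∈ Γ) :
    Function.Periodic (((F : ℍ → ℂ) ∣[k] γ) ∘ ofComplex) ((n : ℝ) : ℂ) := by
  have hmem' : (n : ℝ) ∈
      (toConjAct (mapGL ℝ γ)⁻¹ • (Γ : Subgroup (GL (Fin 2) ℝ))).strictPeriods := by
    rw [Subgroup.mem_strictPeriods_iff, map_inv, Subgroup.mem_inv_pointwise_smul_iff,
      toConjAct_smul]
    refine ⟨γ * ModularGroup.T ^ n * γ⁻¹, hmem, ?_⟩
    rw [map_mul, map_mul, map_inv, mapGL_T_pow]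
  exact SlashInvariantFormClass.periodic_comp_ofComplex
    (ModularForm.translate F (mapGL ℝ γ)) hmem'

/-- Each `SL(2, ℤ)`-translate of a modular form of finite index level is holomorphic. -/
lemma mdifferentiable_slash (γ : SL(2, ℤ)) : MDiff ((F : ℍ → ℂ) ∣[k] γ) :=
  (translate_data F γ).choose_spec.2.2.1

/-- Each `SL(2, ℤ)`-translate of a modular form of finite index level is bounded at `i∞`. -/
lemma isBoundedAtImInfty_slash (γ : SL(2, ℤ)) : IsBoundedAtImInfty ((F : ℍ → ℂ) ∣[k] γ) :=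
  (translate_data F γ).choose_spec.2.2.2

/-- **Width `p` expansion of a conjugate of the Serre derivative** (input (ii) of #1466):
with `X = qExpansion p (F ∣[k] γ)`,
`qExpansion p ((∂F) ∣[k+2] γ) = (1/p) θ X - (k/12) E₂(t^p) X`. -/
theorem qExpansion_natCast_serreLevel_slash {γ : SL(2, ℤ)} {p : ℕ} (hp : p ≠ 0)
    (hmem : γ * ModularGroup.T ^ p * γ⁻¹ ∈ Γ) :
    qExpansion (p : ℝ) ((serreLevel F : ℍ → ℂ) ∣[k + 2] γ) =
      C ((p : ℂ)⁻¹) * theta (qExpansion (p : ℝ) ((F : ℍ → ℂ) ∣[k] γ)) -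
        C ((k : ℂ) * 12⁻¹) * (expand p hp E2q * qExpansion (p : ℝ) ((F : ℍ → ℂ) ∣[k] γ)) := by
  rw [serreLevel_slash]
  exact qExpansion_natCast_serreDerivative hp (periodic_slash_of_conj_mem F hmem)
    (mdifferentiable_slash F γ) (isBoundedAtImInfty_slash F γ) k

/-- **Width `1` expansion of the Serre derivative** (input (i) of #1466):
`qExpansion 1 (∂F) = θ f - (k/12) E₂ f`. -/
theorem qExpansion_one_serreLevel
    (h1 : (1 : ℝ) ∈ (Γ : Subgroup (GL (Fin 2) ℝ)).strictPeriods) :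
    qExpansion 1 (serreLevel F) =
      theta (qExpansion 1 F) - C ((k : ℂ) * 12⁻¹) * (E2q * qExpansion 1 F) :=
  qExpansion_one_serreDerivative (SlashInvariantFormClass.periodic_comp_ofComplex F h1)
    (holo F) (ModularFormClass.bdd_at_infty F) k

end Level

/-! ### `Γ₀(p)` -/

section Gamma0

open ModularGroup

lemma S_T_pow_S_inv_coe (n : ℕ) : ((S * T ^ n * S⁻¹ : SL(2, ℤ)) : Matrix (Fin 2) (Fin 2) ℤ) =
    !![1, 0; -(n : ℤ), 1] := by
  have hT : ((T ^ n : SL(2, ℤ)) : Matrix (Fin 2) (Fin 2) ℤ) = !![1, (n : ℤ); 0, 1] := by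
    have := coe_T_zpow (n : ℤ)
    rwa [zpow_natCast] at this
  have hS : ((S⁻¹ : SL(2, ℤ)) : Matrix (Fin 2) (Fin 2) ℤ) = !![0, 1; -1, 0] := by
    rw [Matrix.SpecialLinearGroup.coe_inv, coe_S, Matrix.adjugate_fin_two_of]
    simp
  rw [Matrix.SpecialLinearGroup.coe_mul, Matrix.SpecialLinearGroup.coe_mul, hT, hS, coe_S]
  ext i j
  fin_cases i <;> fin_cases j <;> simp [Matrix.mul_apply, Fin.sum_univ_two]

/-- `S Tᵖ S⁻¹ ∈ Γ₀(p)`. -/
lemma S_T_pow_S_inv_mem (p : ℕ) : S * T ^ p * S⁻¹ ∈ Gamma0 p := by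
  rw [Gamma0_mem, S_T_pow_S_inv_coe]
  simp

/-- `(S Tᵇ) Tᵖ (S Tᵇ)⁻¹ ∈ Γ₀(p)`. -/
lemma S_T_conj_mem (p : ℕ) (b : ℤ) :
    (S * T ^ b) * T ^ p * (S * T ^ b)⁻¹ ∈ Gamma0 p := by
  have : (S * T ^ b) * T ^ p * (S * T ^ b)⁻¹ = S * T ^ p * S⁻¹ := by
    rw [mul_inv_rev, ← zpow_natCast T p]
    have hc : T ^ b * T ^ (p : ℤ) * (T ^ b)⁻¹ = T ^ (p : ℤ) := by
      rw [← zpow_add, ← zpow_neg, ← zpow_add]
      congr 1
      ring
    calc S * T ^ b * T ^ (p : ℤ) * ((T ^ b)⁻¹ * S⁻¹)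
        = S * (T ^ b * T ^ (p : ℤ) * (T ^ b)⁻¹) * S⁻¹ := by group
      _ = S * T ^ (p : ℤ) * S⁻¹ := by rw [hc]
  rw [this]
  exact S_T_pow_S_inv_mem p

variable (p : ℕ) [NeZero p] {k : ℤ}
  (F : ModularForm ((Gamma0 p : Subgroup SL(2, ℤ)) : Subgroup (GL (Fin 2) ℝ)) k)

omit [NeZero p] in
/-- `F ∣[k] (S Tᵇ)` is `p`-periodic for `F` on `Γ₀(p)`. -/
lemma periodic_slash_S_T (b : ℤ) :
    Function.Periodic (((F : ℍ → ℂ) ∣[k] (S * T ^ b)) ∘ ofComplex) ((p : ℝ) : ℂ) :=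
  periodic_slash_of_conj_mem F (S_T_conj_mem p b)

/-- The width `p` expansion of `(∂F) ∣ (S Tᵇ)` for `F` on `Γ₀(p)`. -/
theorem qExpansion_serreLevel_slash_S_T (b : ℤ) :
    qExpansion (p : ℝ) ((serreLevel F : ℍ → ℂ) ∣[k + 2] (S * T ^ b)) =
      C ((p : ℂ)⁻¹) * theta (qExpansion (p : ℝ) ((F : ℍ → ℂ) ∣[k] (S * T ^ b))) -
        C ((k : ℂ) * 12⁻¹) * (expand p (NeZero.ne p) E2q *
          qExpansion (p : ℝ) ((F : ℍ → ℂ) ∣[k] (S * T ^ b))) :=
  qExpansion_natCast_serreLevel_slash F (NeZero.ne p) (S_T_conj_mem p b)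

/-- The width `p` expansion of `(∂F) ∣ S` for `F` on `Γ₀(p)`. -/
theorem qExpansion_serreLevel_slash_S :
    qExpansion (p : ℝ) ((serreLevel F : ℍ → ℂ) ∣[k + 2] S) =
      C ((p : ℂ)⁻¹) * theta (qExpansion (p : ℝ) ((F : ℍ → ℂ) ∣[k] S)) -
        C ((k : ℂ) * 12⁻¹) * (expand p (NeZero.ne p) E2q *
          qExpansion (p : ℝ) ((F : ℍ → ℂ) ∣[k] S)) := by
  have := qExpansion_serreLevel_slash_S_T p F 0
  simpa using this

/-- The width `1` expansion of `∂F` for `F` on `Γ₀(p)`. -/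
theorem qExpansion_one_serreLevel_Gamma0 :
    qExpansion 1 (serreLevel F) =
      theta (qExpansion 1 F) - C ((k : ℂ) * 12⁻¹) * (E2q * qExpansion 1 F) :=
  qExpansion_one_serreLevel F (one_mem_strictPeriods_Gamma0' p)

end Gamma0

end Fermat.Agent.S16.SerreExpansion
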