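import Mathlib
import Fermat.Agent.S16.SerreExpansion
import Fermat.Agent.S16.NormLevelOneFricke
import Fermat.Agent.S16.NormLevelOneGen
import Fermat.Agent.S16.SerreCoreInputs
import Fermat.Agent.S16.SerreCoreTwo

/-!
# S16 (helper58): the two-cusp `q`-expansion calculus on `Γ₀(p)`

For a function `f : ℍ → ℂ` (in practice a polynomial in modular forms on `Γ₀(p)` and their Serre
derivatives) we record simultaneously

* its expansion `a` in `q` at `∞` (width `1`), and
* the expansion `b` of `f ∣[k] S` in `t = q^(1/p)` (width `p`),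

as the predicate `TwoExp p k f a b`.  The predicate is closed under `+`, `-`, `•`, `*` and the Serre
derivative, and holds for weight-`2` forms on `Γ₀(p)` (`b = -(1/p) U_p a`, from the Fricke/trace
relation), for `eisOne p`, and for level-one forms (`b = a(t^p)`).  All series are in the shapes
of `SerreCoreOps` (`theta`, `Up`, `PowerSeries.expand`), so that the expansions of `H₈` at both
cusps needed by `SerreCoreThree.three_contra` / `SerreCoreTwo.two_contra` come out by unfolding.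
-/

set_option autoImplicit false

open UpperHalfPlane hiding I
open ModularForm MatrixGroups Complex Derivative CongruenceSubgroup PowerSeries EisensteinSeries
open scoped Manifold

noncomputable section

namespace Fermat.Agent.S16.CuspZeroCalc

open Fermat.Agent.S24.CuspExpansion Fermat.Agent.S24.JLocalOrder
open Fermat.Agent.S16.SerreCoreOps Fermat.Agent.S16.SerreExpansion Fermat.Agent.S16.SerreLevel
open Fermat.Agent.S16.NormLevelOne

/-! ### `HolAtCusp` and the Serre derivative -/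

/-- The Serre derivative preserves "periodic, holomorphic, bounded at `i∞`". -/
theorem holAtCusp_serreDerivative {h : ℕ} [NeZero h] {G : ℍ → ℂ} (hG : HolAtCusp h G) (k : ℂ) :
    HolAtCusp h (serreDerivative k G) where
  per := by
    intro w
    have hD := periodic_D hG.per w
    have hE := periodic_natCast periodic_E2 h w
    have hGw := hG.per w
    simp only [Function.comp_apply, serreDerivative_apply] at hD hE hGw ⊢
    rw [hD, hE, hGw]
  hol := serreDerivative_mdifferentiable k hG.hol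
  bdd := serreDerivative_isBoundedAtImInfty_of_periodic (hpos h) hG.per hG.hol hG.bdd k

variable (p : ℕ) [hp : Fact p.Prime]

local instance neZero_p : NeZero p := ⟨hp.out.ne_zero⟩

/-- `f` has expansion `a` at `∞` (width `1`) and `f ∣[k] S` has expansion `b` in `t = q^(1/p)`
(width `p`). -/
structure TwoExp (k : ℤ) (f : ℍ → ℂ) (a b : ℂ⟦X⟧) : Prop where
  inf : HolAtCusp 1 f
  qinf : qExpansion (1 : ℝ) f = a
  zero : HolAtCusp p (f ∣[k] ModularGroup.S)
  qzero : qExpansion (p : ℝ) (f ∣[k] ModularGroup.S) = b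

namespace TwoExp

variable {p} {k l : ℤ} {f g : ℍ → ℂ} {a b a' b' : ℂ⟦X⟧}

theorem cast {k' : ℤ} (h : k = k') (hf : TwoExp p k f a b) : TwoExp p k' f a b := by
  subst h; exact hf

theorem congr {a₂ b₂ : ℂ⟦X⟧} (hf : TwoExp p k f a b) (ha : a = a₂) (hb : b = b₂) :
    TwoExp p k f a₂ b₂ := by
  subst ha hb; exact hf

theorem add (hf : TwoExp p k f a b) (hg : TwoExp p k g a' b') :
    TwoExp p k (f + g) (a + a') (b + b') where
  inf := hf.inf.add hg.inf
  qinf := by
    have := qExpansion_add' (h := 1) hf.inf hg.inf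
    rw [Nat.cast_one] at this
    rw [this, hf.qinf, hg.qinf]
  zero := by rw [SlashAction.add_slash]; exact hf.zero.add hg.zero
  qzero := by rw [SlashAction.add_slash, qExpansion_add' hf.zero hg.zero, hf.qzero, hg.qzero]

theorem neg (hf : TwoExp p k f a b) : TwoExp p k (-f) (-a) (-b) where
  inf := hf.inf.neg
  qinf := by
    have := qExpansion_neg' (h := 1) hf.inf
    rw [Nat.cast_one] at this
    rw [this, hf.qinf]
  zero := by rw [SlashAction.neg_slash]; exact hf.zero.neg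
  qzero := by rw [SlashAction.neg_slash, qExpansion_neg' hf.zero, hf.qzero]

theorem sub (hf : TwoExp p k f a b) (hg : TwoExp p k g a' b') :
    TwoExp p k (f - g) (a - a') (b - b') := by
  rw [sub_eq_add_neg, sub_eq_add_neg a, sub_eq_add_neg b]
  exact hf.add hg.neg

theorem mul (hf : TwoExp p k f a b) (hg : TwoExp p l g a' b') :
    TwoExp p (k + l) (f * g) (a * a') (b * b') where
  inf := hf.inf.mul hg.inf
  qinf := by
    have := qExpansion_mul' (h := 1) hf.inf hg.inf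
    rw [Nat.cast_one] at this
    rw [this, hf.qinf, hg.qinf]
  zero := by rw [mul_slash_SL2]; exact hf.zero.mul hg.zero
  qzero := by rw [mul_slash_SL2, qExpansion_mul' hf.zero hg.zero, hf.qzero, hg.qzero]

/-- constants have weight `0`. -/
theorem const (c : ℂ) : TwoExp p 0 (fun _ : ℍ => c) (C c) (C c) := by
  have hsl : (fun _ : ℍ => c) ∣[(0 : ℤ)] ModularGroup.S = fun _ : ℍ => c := by
    ext z
    rw [ModularForm.SL_slash_apply]
    simp
  refine ⟨HolAtCusp.const c, ?_, ?_, ?_⟩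
  · have := qExpansion_const' (h := 1) c
    rwa [Nat.cast_one] at this
  · rw [hsl]; exact HolAtCusp.const c
  · rw [hsl]; exact qExpansion_const' c

theorem smul (c : ℂ) (hf : TwoExp p k f a b) : TwoExp p k (c • f) (C c * a) (C c * b) := by
  have h := ((const (p := p) c).mul hf).cast (zero_add k)
  have e : (fun _ : ℍ => c) * f = c • f := by
    ext z; simp
  rwa [e] at h

theorem pow (hf : TwoExp p k f a b) (n : ℕ) : TwoExp p (n * k) (f ^ n) (a ^ n) (b ^ n) := by
  induction n with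
  | zero =>
    have h := const (p := p) 1
    simp only [Nat.cast_zero, zero_mul, pow_zero, map_one] at h ⊢
    exact h
  | succ n ih =>
    rw [pow_succ, pow_succ, pow_succ]
    refine (ih.mul hf).cast ?_
    push_cast
    ring

/-- The Serre derivative. -/
theorem serre (hf : TwoExp p k f a b) :
    TwoExp p (k + 2) (serreDerivative k f)
      (theta a - C ((k : ℂ) * 12⁻¹) * (E2q * a))
      (C ((p : ℂ)⁻¹) * theta b - C ((k : ℂ) * 12⁻¹) * (expand p hp.out.ne_zero E2q * b)) where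
  inf := holAtCusp_serreDerivative hf.inf k
  qinf := by
    have h1 := hf.inf.per
    rw [Nat.cast_one] at h1
    rw [qExpansion_one_serreDerivative h1 hf.inf.hol hf.inf.bdd, hf.qinf]
  zero := by
    rw [serreDerivative_slash_equivariant hf.inf.hol]
    exact holAtCusp_serreDerivative hf.zero k
  qzero := by
    rw [serreDerivative_slash_equivariant hf.inf.hol,
      qExpansion_natCast_serreDerivative hp.out.ne_zero hf.zero.per hf.zero.hol hf.zero.bdd,
      hf.qzero]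

end TwoExp

/-! ### Base cases -/

section Base

open Fermat.Agent.S16.FrickeTrace Fermat.Agent.S16.NormLevelOneFricke
open Fermat.Agent.S16.E2LevelExtras Fermat.Agent.S16.SerreCoreInputs
open Fermat.Agent.S16.DivisorCongr Fermat.Agent.S16.SerreCoreThree

variable (F : ModularForm ((Gamma0 p : Subgroup SL(2, ℤ)) : Subgroup (GL (Fin 2) ℝ)) 2)

/-- The expansion of `F ∣[2] S` in `t = q^(1/p)` is `-(1/p) U_p(f)(t)`. -/
theorem qExpansion_slash_S_form2 :
    qExpansion (p : ℝ) ((F : ℍ → ℂ) ∣[(2 : ℤ)] ModularGroup.S) =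
      C (-(1 / (p : ℂ))) * Up p (qExpansion (1 : ℝ) (F : ℍ → ℂ)) := by
  ext n
  rw [coeff_qExpansion_slash_S, coeff_C_mul, coeff_Up, mul_comm n p]
  ring

/-- A weight-`2` form on `Γ₀(p)`. -/
theorem twoExp_form2 :
    TwoExp p 2 (F : ℍ → ℂ) (qExpansion (1 : ℝ) (F : ℍ → ℂ))
      (C (-(1 / (p : ℂ))) * Up p (qExpansion (1 : ℝ) (F : ℍ → ℂ))) where
  inf := holAtCusp_one_F p F
  qinf := rfl
  zero := holAtCusp_slash p F ModularGroup.S
  qzero := qExpansion_slash_S_form2 p F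

/-- `U_p` on `q`-expansions of weight-`2` forms on `Γ₀(p)`. -/
theorem qExpansion_heckeU_form2 :
    qExpansion (1 : ℝ) (ModularForm.heckeU 2 p (F : ℍ → ℂ)) =
      Up p (qExpansion (1 : ℝ) (F : ℍ → ℂ)) := by
  ext n
  have hU := ModularFormClass.qCoeff_heckeU F (CongruenceSubgroup.one_mem_strictPeriods_Gamma0 p)
    hp.out.ne_zero n
  rw [ModularFormClass.qCoeff, ModularForm.coeffHeckeU_apply, ModularFormClass.qCoeff] at hU
  rw [hU, coeff_Up, mul_comm]

theorem qExpansion_heckeUForm :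
    qExpansion (1 : ℝ) (heckeUForm p F : ℍ → ℂ) = Up p (qExpansion (1 : ℝ) (F : ℍ → ℂ)) := by
  rw [coe_heckeUForm, qExpansion_heckeU_form2]

/-- `U_p E = E` on `q`-expansions. -/
theorem Up_qExpansion_eisOne :
    Up p (qExpansion (1 : ℝ) (eisOne p : ℍ → ℂ)) = qExpansion (1 : ℝ) (eisOne p : ℍ → ℂ) := by
  rw [← qExpansion_heckeU_form2, heckeU_eisOne p hp.out]

/-- The normalised Eisenstein series `E = eisOne p`. -/
theorem twoExp_eisOne :
    TwoExp p 2 (eisOne p : ℍ → ℂ) (EpSeries p hp.out.ne_zero (toC (sig 1)))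
      (C (-(1 / (p : ℂ))) * EpSeries p hp.out.ne_zero (toC (sig 1))) := by
  have h := twoExp_form2 p (eisOne p)
  rw [Up_qExpansion_eisOne] at h
  have hq : qExpansion (1 : ℝ) (eisOne p : ℍ → ℂ) = EpSeries p hp.out.ne_zero (toC (sig 1)) :=
    qExpansion_eisOne p hp.out.two_le
  rwa [hq] at h

end Base

section LevelOne

variable {k : ℤ} (E : ModularForm 𝒮ℒ k)

omit hp in
theorem holAtCusp_one_levelOne : HolAtCusp 1 (E : ℍ → ℂ) where
  per := by
    have := SlashInvariantFormClass.periodic_comp_ofComplex E one_mem_strictPeriods_SL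
    simpa using this
  hol := ModularFormClass.holo E
  bdd := ModularFormClass.bdd_at_infty E

omit hp in
theorem slash_S_levelOne : (E : ℍ → ℂ) ∣[k] ModularGroup.S = E := by
  rw [ModularForm.SL_slash]
  exact SlashInvariantFormClass.slash_action_eq E _ ⟨ModularGroup.S, rfl⟩

/-- A level-one form: the expansion at the other cusp is `a(t^p)`. -/
theorem twoExp_levelOne :
    TwoExp p k (E : ℍ → ℂ) (qExpansion (1 : ℝ) (E : ℍ → ℂ))
      (expand p hp.out.ne_zero (qExpansion (1 : ℝ) (E : ℍ → ℂ))) := by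
  have h1 := holAtCusp_one_levelOne E
  have hper : Function.Periodic ((E : ℍ → ℂ) ∘ ofComplex) ((1 : ℝ) : ℂ) := by
    have := h1.per
    rwa [Nat.cast_one] at this
  refine ⟨h1, rfl, ?_, ?_⟩
  · rw [slash_S_levelOne]
    exact ⟨periodic_natCast hper p, h1.hol, h1.bdd⟩
  · rw [slash_S_levelOne]
    exact qExpansion_natCast_eq_expand hper h1.hol h1.bdd p hp.out.ne_zero

end LevelOne

/-! ### The forms `H₈` of the `ℓ = 3` and `ℓ = 2` closures, at function level -/

section Concrete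

open Fermat.Agent.S16.E2LevelExtras Fermat.Agent.S16.DivisorCongr
open Fermat.Agent.S16.SerreCoreChar Fermat.Agent.S16.SerreCoreThree Fermat.Agent.S16.SerreCoreTwo

variable (F : ModularForm ((Gamma0 p : Subgroup SL(2, ℤ)) : Subgroup (GL (Fin 2) ℝ)) 2)

/-- `g = c (F - E)` (`c = 1/3`, `1/4`). -/
def gFun (c : ℂ) : ℍ → ℂ := c • ((F : ℍ → ℂ) - (eisOne p : ℍ → ℂ))

theorem twoExp_gFun (c : ℂ) :
    TwoExp p 2 (gFun p F c)
      (C c * (qExpansion (1 : ℝ) (F : ℍ → ℂ) - EpSeries p hp.out.ne_zero (toC (sig 1))))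
      (C (-(1 / (p : ℂ))) * (C c * (Up p (qExpansion (1 : ℝ) (F : ℍ → ℂ)) -
        EpSeries p hp.out.ne_zero (toC (sig 1))))) :=
  (((twoExp_form2 p F).sub (twoExp_eisOne p)).smul c).congr rfl (by ring)

/-- `G₆ = g³ - g E²` (`ℓ = 3`). -/
def G6Fun : ℍ → ℂ := gFun p F (1 / 3) ^ 3 - gFun p F (1 / 3) * (eisOne p : ℍ → ℂ) ^ 2

/-- `H₈ = ∂₆ G₆` (`ℓ = 3`). -/
def H8threeFun : ℍ → ℂ := serreDerivative 6 (G6Fun p F)

theorem toC_E2q : E2q = 1 - 24 * toC (sig 1) := rfl

/-- **`ℓ = 3`**: the expansions of `H₈` at the two cusps are `H8inf3` and `H8zero3`. -/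
theorem twoExp_H8three :
    TwoExp p 8 (H8threeFun p F)
      (H8inf3 p hp.out.ne_zero (toC (sig 1)) (qExpansion (1 : ℝ) (F : ℍ → ℂ)))
      (H8zero3 p hp.out.ne_zero (toC (sig 1)) (qExpansion (1 : ℝ) (F : ℍ → ℂ))) := by
  have hg := twoExp_gFun p F (1 / 3)
  have hE := twoExp_eisOne p
  have hG : TwoExp p 6 (G6Fun p F) _ _ :=
    ((hg.pow 3).cast (by norm_num : ((3 : ℕ) : ℤ) * 2 = 6)).sub
      ((hg.mul (hE.pow 2)).cast (by norm_num : (2 : ℤ) + ((2 : ℕ) : ℤ) * 2 = 6))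
  have hH := hG.serre
  have h12 : (((6 : ℤ) : ℂ)) * 12⁻¹ = 1 / 2 := by norm_num
  have h1p : ((p : ℂ))⁻¹ = 1 / (p : ℂ) := (one_div _).symm
  refine (hH.cast (by norm_num : (6 : ℤ) + 2 = 8)).congr ?_ ?_
  · rw [H8inf3, H8three, h12, map_one, one_mul, toC_E2q]
    ring
  · rw [H8zero3, H8three, h12, h1p, toC_E2q]
    ring

/-- `E₄` restricted: its two expansions in the shapes of `SerreCoreTwo`. -/
theorem twoExp_E4 :
    TwoExp p 4 (E₄ : ℍ → ℂ) (1 + 240 * toC (sig 3))
      (expand p hp.out.ne_zero (1 + 240 * toC (sig 3))) := by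
  have h := twoExp_levelOne p E₄
  have hq : qExpansion (1 : ℝ) (E₄ : ℍ → ℂ) = 1 + 240 * toC (sig 3) := by
    rw [qExpansion_E4', E4q, map_add, map_one, map_mul, map_C]
    congr 2
  rwa [hq] at h

/-- `F8two` with the Serre derivatives made explicit. -/
theorem F8two_eq (d : ℂ) (G E2 E4 E : ℂ⟦X⟧) :
    F8two d (1 / 3) G E2 E4 E =
      C 2 * (C d * theta (C d * theta G - C (1 / 3) * (E2 * G))
          - C (1 / 2) * (E2 * (C d * theta G - C (1 / 3) * (E2 * G))))
        - C (1 / 3) * (E * (C d * theta G - C (1 / 3) * (E2 * G)))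
        - C (4 / 9) * (E4 * G) := by
  have hX : serre4 d (1 / 3) G E2 = C d * theta G - C (1 / 3) * (E2 * G) := by
    rw [serre4]; ring
  have hC2 : (C (2 : ℂ) : ℂ⟦X⟧) = 2 := map_ofNat _ 2
  have hC12 : (C (1 / 2 : ℂ) : ℂ⟦X⟧) * 2 = 1 := by
    rw [← hC2, ← map_mul]; norm_num
  have hC49 : (C (4 / 9 : ℂ) : ℂ⟦X⟧) = 4 * C (1 / 3 : ℂ) ^ 2 := by
    rw [← map_pow, ← map_ofNat (C (R := ℂ)) 4, ← map_mul]; norm_num
  rw [F8two, hX, hC2, hC49]
  linear_combination (E2 * (C d * theta G - C (1 / 3) * (E2 * G))) * hC12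

/-- `G₄ = g² + g E` (`ℓ = 2`). -/
def G4Fun : ℍ → ℂ := gFun p F (1 / 4) ^ 2 + gFun p F (1 / 4) * (eisOne p : ℍ → ℂ)

/-- `F₈ = 2 ∂²G₄ - (1/3) E ∂G₄ - (4/9) E₄ G₄` (`ℓ = 2`). -/
def F8Fun : ℍ → ℂ :=
  (2 : ℂ) • serreDerivative 6 (serreDerivative 4 (G4Fun p F))
    - (1 / 3 : ℂ) • ((eisOne p : ℍ → ℂ) * serreDerivative 4 (G4Fun p F))
    - (4 / 9 : ℂ) • ((E₄ : ℍ → ℂ) * G4Fun p F)

/-- `H₈ = E₄ G₄ + F₈ / 4` (`ℓ = 2`). -/
def H8twoFun : ℍ → ℂ := (E₄ : ℍ → ℂ) * G4Fun p F + (1 / 4 : ℂ) • F8Fun p F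

/-- **`ℓ = 2`**: the expansions of `H₈` at the two cusps are `H8inf2` and `H8zero2`. -/
theorem twoExp_H8two :
    TwoExp p 8 (H8twoFun p F)
      (H8inf2 p hp.out.ne_zero (toC (sig 1)) (toC (sig 3)) (qExpansion (1 : ℝ) (F : ℍ → ℂ)))
      (H8zero2 p hp.out.ne_zero (toC (sig 1)) (toC (sig 3))
        (qExpansion (1 : ℝ) (F : ℍ → ℂ))) := by
  have hg := twoExp_gFun p F (1 / 4)
  have hE := twoExp_eisOne p
  have hE4 := twoExp_E4 p
  have hG : TwoExp p 4 (G4Fun p F) _ _ :=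
    ((hg.pow 2).cast (by norm_num : ((2 : ℕ) : ℤ) * 2 = 4)).add
      ((hg.mul hE).cast (by norm_num : (2 : ℤ) + 2 = 4))
  have hdG := (hG.serre).cast (by norm_num : (4 : ℤ) + 2 = 6)
  have hddG := (hdG.serre).cast (by norm_num : (6 : ℤ) + 2 = 8)
  have hF8 : TwoExp p 8 (F8Fun p F) _ _ :=
    ((hddG.smul 2).sub (((hE.mul hdG).cast (by norm_num : (2 : ℤ) + 6 = 8)).smul (1 / 3))).sub
      (((hE4.mul hG).cast (by norm_num : (4 : ℤ) + 4 = 8)).smul (4 / 9))
  have hH : TwoExp p 8 (H8twoFun p F) _ _ :=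
    ((hE4.mul hG).cast (by norm_num : (4 : ℤ) + 4 = 8)).add (hF8.smul (1 / 4))
  have h13 : (((4 : ℤ) : ℂ)) * 12⁻¹ = 1 / 3 := by norm_num
  have h12 : (((6 : ℤ) : ℂ)) * 12⁻¹ = 1 / 2 := by norm_num
  have h1p : ((p : ℂ))⁻¹ = 1 / (p : ℂ) := (one_div _).symm
  refine hH.congr ?_ ?_
  · rw [H8inf2, H8two, F8two_eq, G4two, h13, h12, toC_E2q]
    simp only [map_one, one_mul]
  · rw [H8zero2, H8two, F8two_eq, G4two, h13, h12, h1p, toC_E2q]

/-! ### The same functions as honest modular forms on `Γ₀(p)` -/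

/-- Restriction of a level-one form to `Γ₀(p)`. -/
def resLevelOne {k : ℤ} (E : ModularForm 𝒮ℒ k) :
    ModularForm ((Gamma0 p : Subgroup SL(2, ℤ)) : Subgroup (GL (Fin 2) ℝ)) k where
  toFun := E
  slash_action_eq' A hA := E.slash_action_eq' A (Subgroup.map_le_range _ _ hA)
  holo' := E.holo'
  bdd_at_cusps' hc := E.bdd_at_cusps' (hc.mono (Subgroup.map_le_range _ _))

omit hp in
@[simp] theorem coe_resLevelOne {k : ℤ} (E : ModularForm 𝒮ℒ k) :
    (resLevelOne p E : ℍ → ℂ) = E := rfl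

/-- `g = c (F - E)` as a modular form. -/
def gForm (c : ℂ) : ModularForm ((Gamma0 p : Subgroup SL(2, ℤ)) : Subgroup (GL (Fin 2) ℝ)) 2 :=
  c • (F - eisOne p)

theorem coe_gForm (c : ℂ) : (gForm p F c : ℍ → ℂ) = gFun p F c := rfl

/-- `G₆` as a modular form. -/
def G6Form : ModularForm ((Gamma0 p : Subgroup SL(2, ℤ)) : Subgroup (GL (Fin 2) ℝ)) 6 :=
  mcast (by norm_num : (2 : ℤ) + (2 + 2) = 6)
      ((gForm p F (1 / 3)).mul ((gForm p F (1 / 3)).mul (gForm p F (1 / 3))))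
    - mcast (by norm_num : (2 : ℤ) + (2 + 2) = 6)
      ((gForm p F (1 / 3)).mul ((eisOne p).mul (eisOne p)))

theorem coe_G6Form : (G6Form p F : ℍ → ℂ) = G6Fun p F := by
  ext z
  simp only [G6Form, G6Fun, FunLike.coe_sub, Pi.sub_apply, ModularForm.mcast_apply,
    ModularForm.coe_mul, Pi.mul_apply, Pi.pow_apply, coe_gForm]
  ring

/-- `H₈` (`ℓ = 3`) as a modular form of weight `8` on `Γ₀(p)`. -/
def H8threeForm : ModularForm ((Gamma0 p : Subgroup SL(2, ℤ)) : Subgroup (GL (Fin 2) ℝ)) 8 :=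
  mcast (by norm_num : (6 : ℤ) + 2 = 8) (serreLevel (G6Form p F))

theorem coe_H8threeForm : (H8threeForm p F : ℍ → ℂ) = H8threeFun p F := by
  ext z
  simp only [H8threeForm, H8threeFun, ModularForm.mcast_apply, serreLevel_apply, coe_G6Form]
  norm_num

/-- `G₄` as a modular form. -/
def G4Form : ModularForm ((Gamma0 p : Subgroup SL(2, ℤ)) : Subgroup (GL (Fin 2) ℝ)) 4 :=
  mcast (by norm_num : (2 : ℤ) + 2 = 4) ((gForm p F (1 / 4)).mul (gForm p F (1 / 4)))
    + mcast (by norm_num : (2 : ℤ) + 2 = 4) ((gForm p F (1 / 4)).mul (eisOne p))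

theorem coe_G4Form : (G4Form p F : ℍ → ℂ) = G4Fun p F := by
  ext z
  simp only [G4Form, G4Fun, FunLike.coe_add, Pi.add_apply, ModularForm.mcast_apply,
    ModularForm.coe_mul, Pi.mul_apply, Pi.pow_apply, coe_gForm]
  ring

/-- `∂G₄` as a modular form of weight `6`. -/
def dG4Form : ModularForm ((Gamma0 p : Subgroup SL(2, ℤ)) : Subgroup (GL (Fin 2) ℝ)) 6 :=
  mcast (by norm_num : (4 : ℤ) + 2 = 6) (serreLevel (G4Form p F))

theorem coe_dG4Form : (dG4Form p F : ℍ → ℂ) = serreDerivative 4 (G4Fun p F) := by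
  ext z
  simp only [dG4Form, ModularForm.mcast_apply, serreLevel_apply, coe_G4Form]
  norm_num

/-- `∂²G₄` as a modular form of weight `8`. -/
def ddG4Form : ModularForm ((Gamma0 p : Subgroup SL(2, ℤ)) : Subgroup (GL (Fin 2) ℝ)) 8 :=
  mcast (by norm_num : (6 : ℤ) + 2 = 8) (serreLevel (dG4Form p F))

theorem coe_ddG4Form :
    (ddG4Form p F : ℍ → ℂ) = serreDerivative 6 (serreDerivative 4 (G4Fun p F)) := by
  ext z
  simp only [ddG4Form, ModularForm.mcast_apply, serreLevel_apply, coe_dG4Form]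
  norm_num

/-- `H₈` (`ℓ = 2`) as a modular form of weight `8` on `Γ₀(p)`. -/
def H8twoForm : ModularForm ((Gamma0 p : Subgroup SL(2, ℤ)) : Subgroup (GL (Fin 2) ℝ)) 8 :=
  mcast (by norm_num : (4 : ℤ) + 4 = 8) ((resLevelOne p E₄).mul (G4Form p F))
    + (1 / 4 : ℂ) • ((2 : ℂ) • ddG4Form p F
        - (1 / 3 : ℂ) • mcast (by norm_num : (2 : ℤ) + 6 = 8) ((eisOne p).mul (dG4Form p F))
        - (4 / 9 : ℂ) • mcast (by norm_num : (4 : ℤ) + 4 = 8)
            ((resLevelOne p E₄).mul (G4Form p F)))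

theorem coe_H8twoForm : (H8twoForm p F : ℍ → ℂ) = H8twoFun p F := by
  ext z
  simp only [H8twoForm, H8twoFun, F8Fun, FunLike.coe_add, FunLike.coe_sub, Pi.add_apply,
    Pi.sub_apply, ModularForm.mcast_apply, ModularForm.coe_mul, Pi.mul_apply, FunLike.coe_smul,
    Pi.smul_apply, coe_resLevelOne, coe_G4Form, coe_dG4Form, coe_ddG4Form]

/-- **`ℓ = 3`, packaged**: `q`-expansion of `H₈` at `∞` and of `H₈ ∣[8] S` in `t = q^(1/p)`. -/
theorem qExpansion_H8threeForm :
    qExpansion (1 : ℝ) (H8threeForm p F : ℍ → ℂ) =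
        H8inf3 p hp.out.ne_zero (toC (sig 1)) (qExpansion (1 : ℝ) (F : ℍ → ℂ)) ∧
      qExpansion (p : ℝ) ((H8threeForm p F : ℍ → ℂ) ∣[(8 : ℤ)] ModularGroup.S) =
        H8zero3 p hp.out.ne_zero (toC (sig 1)) (qExpansion (1 : ℝ) (F : ℍ → ℂ)) := by
  rw [coe_H8threeForm]
  exact ⟨(twoExp_H8three p F).qinf, (twoExp_H8three p F).qzero⟩

/-- **`ℓ = 2`, packaged**. -/
theorem qExpansion_H8twoForm :
    qExpansion (1 : ℝ) (H8twoForm p F : ℍ → ℂ) =
        H8inf2 p hp.out.ne_zero (toC (sig 1)) (toC (sig 3)) (qExpansion (1 : ℝ) (F : ℍ → ℂ)) ∧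
      qExpansion (p : ℝ) ((H8twoForm p F : ℍ → ℂ) ∣[(8 : ℤ)] ModularGroup.S) =
        H8zero2 p hp.out.ne_zero (toC (sig 1)) (toC (sig 3))
          (qExpansion (1 : ℝ) (F : ℍ → ℂ)) := by
  rw [coe_H8twoForm]
  exact ⟨(twoExp_H8two p F).qinf, (twoExp_H8two p F).qzero⟩

end Concrete

end Fermat.Agent.S16.CuspZeroCalc
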