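import Fermat.Agent.S16.SerreCoreRing

/-!
# S16, Serre-derivative closure of the `ℓ = 2, 3` gaps: the norm and the final contradiction

* `aeval_ne_pow`: over a nontrivial ring, `Δ^N` is not a polynomial of degree `< N` in `Δ`
  (`Δ = q + …`).
* `norm_reduction`: if the period-`p` expansion of the norm is the product of the expansions of the
  `p + 1` conjugates, all of which reduce to `Δ(t^p)`, the norm has coefficients in `IntL ℓ` and
  reduces to `Δ^(p+1)`.
Mathlib only.
-/

set_option autoImplicit false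

namespace Fermat.Agent.S16.SerreCoreEnd

open PowerSeries Fermat.Agent.S16.SerreCoreOps Fermat.Agent.S16.SerreCoreRing

section End

variable {K : Type*} [CommRing K]

theorem coeff_pow_of_constantCoeff_eq_zero (D : K⟦X⟧) (h0 : constantCoeff D = 0)
    (h1 : coeff 1 D = 1) (i j : ℕ) :
    (j < i → coeff j (D ^ i) = 0) ∧ (j = i → coeff j (D ^ i) = 1) := by
  obtain ⟨w, rfl⟩ := X_dvd_iff.2 h0
  have hw : constantCoeff w = 1 := by
    have := coeff_succ_X_mul 0 w
    rw [zero_add, h1] at this
    rw [← coeff_zero_eq_constantCoeff_apply, ← this]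
  rw [mul_pow, coeff_X_pow_mul']
  constructor
  · intro h
    rw [if_neg (by omega)]
  · intro h
    rw [if_pos (by omega), h, Nat.sub_self, coeff_zero_eq_constantCoeff_apply, map_pow, hw, one_pow]

theorem aeval_injective_of_order_one (D : K⟦X⟧) (h0 : constantCoeff D = 0)
    (h1 : coeff 1 D = 1) (Q : Polynomial K) (hQ : Polynomial.aeval D Q = 0) : Q = 0 := by
  by_contra hne
  set j := Q.natTrailingDegree with hj
  have hcj : Q.coeff j ≠ 0 := by
    rw [hj]
    exact fun h => hne (Polynomial.trailingCoeff_eq_zero.1 h)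
  have hlt : ∀ i, i < j → Q.coeff i = 0 := fun i hi =>
    Polynomial.coeff_eq_zero_of_lt_natTrailingDegree hi
  have hsum := congrArg (coeff j) hQ
  rw [Polynomial.aeval_eq_sum_range, map_sum, map_zero] at hsum
  have hle : j ≤ Q.natDegree := Polynomial.natTrailingDegree_le_natDegree Q
  rw [Finset.sum_eq_single j] at hsum
  · rw [coeff_smul, (coeff_pow_of_constantCoeff_eq_zero D h0 h1 j j).2 rfl, smul_eq_mul,
      mul_one] at hsum
    exact hcj hsum
  · intro i _ hij
    rw [coeff_smul, smul_eq_mul]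
    rcases lt_or_gt_of_ne hij with h | h
    · rw [hlt i h, zero_mul]
    · rw [(coeff_pow_of_constantCoeff_eq_zero D h0 h1 i j).1 h, mul_zero]
  · intro h
    exact absurd (Finset.mem_range.2 (Nat.lt_succ_of_le hle)) h

/-- `Δ^N` is not a polynomial in `Δ` of degree `< N`. -/
theorem aeval_ne_pow [Nontrivial K] (D : K⟦X⟧) (h0 : constantCoeff D = 0) (h1 : coeff 1 D = 1)
    (P : Polynomial K) (N : ℕ) (hP : P.natDegree < N) : Polynomial.aeval D P ≠ D ^ N := by
  intro h
  have hQ : Polynomial.aeval D (Polynomial.X ^ N - P) = 0 := by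
    rw [map_sub, map_pow, Polynomial.aeval_X, h, sub_self]
  have := aeval_injective_of_order_one D h0 h1 _ hQ
  have hc := congrArg (fun Q => Polynomial.coeff Q N) this
  simp only [Polynomial.coeff_sub, Polynomial.coeff_X_pow, if_true, Polynomial.coeff_zero] at hc
  rw [Polynomial.coeff_eq_zero_of_natDegree_lt hP, sub_zero] at hc
  exact one_ne_zero hc

end End

section Norm

variable (ℓ : ℕ) [hℓ : Fact ℓ.Prime]

/-- The norm step. -/
theorem norm_reduction (p : ℕ) (hp : p ≠ 0) (ζ : ℂ) (hζ : ζ ^ p = 1)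
    (n : ℂ⟦X⟧) (hR hhatR : (↥(IntL ℓ))⟦X⟧)
    (hnorm : expand p hp n = expand p hp (hR.map (IntL ℓ).subtype) *
      ∏ b ∈ Finset.range p, rescale (ζ ^ b) (hhatR.map (IntL ℓ).subtype))
    (D : (Kl ℓ)⟦X⟧) (hD1 : hR.map (red ℓ) = D) (hD2 : hhatR.map (red ℓ) = expand p hp D) :
    ∃ nR : (↥(IntL ℓ))⟦X⟧, nR.map (IntL ℓ).subtype = n ∧ nR.map (red ℓ) = D ^ (p + 1) := by
  set ζR : ↥(IntL ℓ) := ⟨ζ, mem_IntL_of_pow_eq_one ℓ hp hζ⟩ with hζR
  have hζRp : ζR ^ p = 1 := by
    apply Subtype.ext
    simpa using hζ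
  set prodR : (↥(IntL ℓ))⟦X⟧ :=
    expand p hp hR * ∏ b ∈ Finset.range p, rescale (ζR ^ b) hhatR with hprodR
  have hprod : prodR.map (IntL ℓ).subtype = expand p hp n := by
    have hb : ∀ b ∈ Finset.range p, (rescale (ζR ^ b) hhatR).map (IntL ℓ).subtype =
        rescale (ζ ^ b) (hhatR.map (IntL ℓ).subtype) := by
      intro b _
      rw [← PowerSeries.rescale_map, map_pow]
      rfl
    rw [hnorm, hprodR, map_mul, map_prod, map_expand, Finset.prod_congr rfl hb]
  refine ⟨Up p prodR, ?_, ?_⟩
  · rw [Up_map, hprod, Up_expand]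
  · have h1 : prodR = expand p hp (Up p prodR) := by
      apply map_subtype_injective (IntL ℓ)
      rw [map_expand, Up_map, hprod, Up_expand]
    apply expand_injective p hp
    rw [← map_expand, ← h1, hprodR, map_mul, map_prod, map_expand, hD1, map_pow, pow_succ']
    congr 1
    have hb : ∀ b ∈ Finset.range p,
        (rescale (ζR ^ b) hhatR).map (red ℓ) = expand p hp D := by
      intro b _
      rw [← PowerSeries.rescale_map, hD2]
      apply rescale_expand_of_pow_eq_one
      rw [← map_pow, ← pow_mul, mul_comm, pow_mul, hζRp, one_pow, map_one]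
    rw [Finset.prod_congr rfl hb, Finset.prod_const, Finset.card_range]

end Norm

end Fermat.Agent.S16.SerreCoreEnd
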