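import Fermat.Agent.S16.SerreCoreChar
import Fermat.Agent.S16.SerreCoreEnd

/-!
# S16, Serre-derivative closure of the gap `ℓ = 3`, `p ≡ 2 mod 3`: assembled algebraic core

Input: the `q`-expansion `f = 1 + 9 (3-integral)` of a weight-2 form `F` of level `p`.
`H8inf3` / `H8zero3` are the expansions (in `q`, resp. `t = q^(1/p)`) at the two cusps of
`H₈ = ∂₆ (g³ - g E²)`, `g = (F - E)/3`; both are `3`-integral and reduce to `Δ(q)`.
Mathlib only.
-/

set_option autoImplicit false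

namespace Fermat.Agent.S16.SerreCoreThree

open PowerSeries Fermat.Agent.S16.SerreCoreOps Fermat.Agent.S16.SerreCoreRing
  Fermat.Agent.S16.SerreCoreChar Fermat.Agent.S16.SerreCoreEnd

/-- `E = 1 + (24/(p-1)) (S - p V_p S)`: the normalised Eisenstein series of level `p`
(`S = ∑ σ(n) qⁿ`). -/
noncomputable def EpSeries (p : ℕ) (hp : p ≠ 0) (S : ℂ⟦X⟧) : ℂ⟦X⟧ :=
  1 + C ((24 : ℂ) / ((p : ℂ) - 1)) * (S - C (p : ℂ) * expand p hp S)

/-- expansion of `H₈` at `∞` (`ℓ = 3`). -/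
noncomputable def H8inf3 (p : ℕ) (hp : p ≠ 0) (S f : ℂ⟦X⟧) : ℂ⟦X⟧ :=
  H8three 1 (1 / 2) (C (1 / 3 : ℂ) * (f - EpSeries p hp S)) (EpSeries p hp S) (1 - 24 * S)

/-- expansion of `H₈ | S` in `t = q^(1/p)` (`ℓ = 3`). -/
noncomputable def H8zero3 (p : ℕ) (hp : p ≠ 0) (S f : ℂ⟦X⟧) : ℂ⟦X⟧ :=
  H8three (1 / (p : ℂ)) (1 / 2)
    (C (-(1 / (p : ℂ))) * (C (1 / 3 : ℂ) * (Up p f - EpSeries p hp S)))
    (C (-(1 / (p : ℂ))) * EpSeries p hp S) (expand p hp (1 - 24 * S))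

/-- writing `f = 1 + m f₁` with `f₁` integral -/
theorem exists_lift_one_add (ℓ : ℕ) [Fact ℓ.Prime] (f : ℂ⟦X⟧) (m : ℂ) (hf0 : coeff 0 f = 1)
    (hf : ∀ n, 1 ≤ n → ∃ x ∈ IntL ℓ, coeff n f = m * x) :
    ∃ f1 : (↥(IntL ℓ))⟦X⟧, f = 1 + C m * f1.map (IntL ℓ).subtype := by
  have h : ∀ n, ∃ x : ↥(IntL ℓ), 1 ≤ n → coeff n f = m * (x : ℂ) := by
    intro n
    by_cases hn : 1 ≤ n
    · obtain ⟨x, hx, hx'⟩ := hf n hn
      exact ⟨⟨x, hx⟩, fun _ => hx'⟩
    · exact ⟨0, fun h => absurd h hn⟩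
  choose y hy using h
  refine ⟨PowerSeries.mk fun n => if n = 0 then 0 else y n, ?_⟩
  ext n
  rw [map_add, coeff_C_mul, coeff_map, coeff_mk, coeff_one]
  by_cases hn : n = 0
  · subst hn
    simp [hf0]
  · rw [if_neg hn, if_neg hn, zero_add, hy n (Nat.one_le_iff_ne_zero.2 hn)]
    rfl

section Three

variable (p : ℕ) (hp : p ≠ 0) (hp3 : p % 3 = 2)
variable (Sz Dz : ℤ⟦X⟧)

include hp3 in
theorem natCast_p_Kl3 : ((p : ℕ) : Kl 3) = -1 := by
  obtain ⟨j, hj⟩ : ∃ j, p = 3 * j + 2 := ⟨p / 3, by omega⟩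
  have h3 : ((3 : ℕ) : Kl 3) = 0 := natCast_Kl_eq_zero 3
  rw [hj]
  push_cast at h3 ⊢
  linear_combination ((j : Kl 3) + 1) * h3

theorem map_intCast_series {A B : Type*} [CommRing A] [CommRing B] (φ : A →+* B) (F : ℤ⟦X⟧) :
    (F.map (Int.castRingHom A)).map φ = F.map (Int.castRingHom B) := by
  ext n
  simp only [coeff_map, eq_intCast, map_intCast]

include hp3 in
theorem three_main
    (hSD : ∃ W : ℤ⟦X⟧, Sz ^ 3 - Sz + Dz = 3 * W) (hθD : ∃ W : ℤ⟦X⟧, theta Dz - Dz = 3 * W)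
    (f : ℂ⟦X⟧) (hf0 : coeff 0 f = 1) (hf : ∀ n, 1 ≤ n → ∃ x ∈ IntL 3, coeff n f = 9 * x) :
    ∃ hR hhatR : (↥(IntL 3))⟦X⟧,
      hR.map (IntL 3).subtype = H8inf3 p hp (Sz.map (Int.castRingHom ℂ)) f ∧
      hhatR.map (IntL 3).subtype = H8zero3 p hp (Sz.map (Int.castRingHom ℂ)) f ∧
      hR.map (red 3) = Dz.map (Int.castRingHom (Kl 3)) ∧
      hhatR.map (red 3) = expand p hp (Dz.map (Int.castRingHom (Kl 3))) := by
  obtain ⟨f1, hf1⟩ := exists_lift_one_add 3 f 9 hf0 hf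
  -- constants in `IntL 3`
  have hp1C : (p : ℂ) - 1 ≠ 0 := by
    intro h
    have : (p : ℂ) = 1 := by linear_combination h
    have : p = 1 := by exact_mod_cast this
    omega
  have hpC : (p : ℂ) ≠ 0 := by exact_mod_cast hp
  obtain ⟨c, hc⟩ : ∃ c : ↥(IntL 3), (c : ℂ) = (8 : ℂ) / ((p : ℂ) - 1) := by
    have hp1 : ¬ 3 ∣ (p - 1) := by omega
    have := intCast_div_natCast_mem_IntL 3 8 hp1
    rw [Nat.cast_sub (by omega : 1 ≤ p)] at this
    exact ⟨⟨_, this⟩, by push_cast; rfl⟩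
  obtain ⟨c2, hc2⟩ : ∃ c : ↥(IntL 3), (c : ℂ) = 1 / 2 := by
    have := inv_natCast_mem_IntL 3 (by omega : ¬ 3 ∣ 2)
    exact ⟨⟨_, this⟩, by simp⟩
  obtain ⟨pinv, hpinv⟩ : ∃ c : ↥(IntL 3), (c : ℂ) = 1 / (p : ℂ) := by
    have := inv_natCast_mem_IntL 3 (by omega : ¬ 3 ∣ p)
    exact ⟨⟨_, this⟩, by rw [one_div]⟩
  have hcR : c * ((p : ↥(IntL 3)) - 1) = 8 := by
    apply Subtype.ext
    push_cast
    rw [hc, div_mul_cancel₀ _ hp1C]
    rfl
  have hc2R : c2 + c2 = 1 := by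
    apply Subtype.ext
    push_cast
    rw [hc2]; norm_num
  have hpinvR : pinv * (p : ↥(IntL 3)) = 1 := by
    apply Subtype.ext
    push_cast
    rw [hpinv, one_div, inv_mul_cancel₀ hpC]
  -- the series over `IntL 3`
  set SR : (↥(IntL 3))⟦X⟧ := Sz.map (Int.castRingHom _) with hSR
  set S'R : (↥(IntL 3))⟦X⟧ := SR - C (p : ↥(IntL 3)) * expand p hp SR with hS'R
  set EpR : (↥(IntL 3))⟦X⟧ := 1 + C 3 * (C c * S'R) with hEpR
  set gR : (↥(IntL 3))⟦X⟧ := C 3 * f1 - C c * S'R with hgR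
  set gtR : (↥(IntL 3))⟦X⟧ := C 3 * Up p f1 - C c * S'R with hgtR
  set E2R : (↥(IntL 3))⟦X⟧ := 1 - 24 * SR with hE2R
  set S : ℂ⟦X⟧ := Sz.map (Int.castRingHom ℂ) with hS
  -- images in `ℂ`
  have hSι : SR.map (IntL 3).subtype = S := map_intCast_series _ _
  have hS'ι : S'R.map (IntL 3).subtype = S - C (p : ℂ) * expand p hp S := by
    rw [hS'R, map_sub, map_mul, map_expand, hSι, map_C]
    simp
  have hC1 : (C (3 : ℂ)) * C ((8 : ℂ) / ((p : ℂ) - 1)) = C ((24 : ℂ) / ((p : ℂ) - 1)) := by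
    rw [← map_mul]; congr 1; ring
  have hEpι : EpR.map (IntL 3).subtype = EpSeries p hp S := by
    rw [hEpR, EpSeries, map_add, map_one, map_mul, map_mul, hS'ι, map_C, map_C, ← mul_assoc]
    simp only [Subring.subtype_apply, hc]
    rw [show ((3 : ↥(IntL 3)) : ℂ) = 3 by push_cast; rfl, hC1]
  have hE2ι : E2R.map (IntL 3).subtype = 1 - 24 * S := by
    rw [hE2R, map_sub, map_one, map_mul, hSι, map_ofNat]
  have hC2 : (C (1 / 3 : ℂ)) * C (9 : ℂ) = C 3 := by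
    rw [← map_mul]; congr 1; norm_num
  have hC3 : (C (1 / 3 : ℂ)) * C ((24 : ℂ) / ((p : ℂ) - 1)) = C ((8 : ℂ) / ((p : ℂ) - 1)) := by
    rw [← map_mul]; congr 1; ring
  have hgι : gR.map (IntL 3).subtype = C (1 / 3 : ℂ) * (f - EpSeries p hp S) := by
    rw [hgR, map_sub, map_mul, map_mul, hS'ι, map_C, map_C, hf1, EpSeries]
    simp only [Subring.subtype_apply, hc]
    rw [show ((3 : ↥(IntL 3)) : ℂ) = 3 by push_cast; rfl]
    linear_combination (-(f1.map (IntL 3).subtype)) * hC2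
      + (S - C (p : ℂ) * expand p hp S) * hC3
  have hUf : Up p f = 1 + C 9 * (Up p f1).map (IntL 3).subtype := by
    rw [hf1, Up_add, Up_one p hp, Up_C_mul, Up_map]
  have hgtι : gtR.map (IntL 3).subtype = C (1 / 3 : ℂ) * (Up p f - EpSeries p hp S) := by
    rw [hgtR, map_sub, map_mul, map_mul, hS'ι, map_C, map_C, hUf, EpSeries]
    simp only [Subring.subtype_apply, hc]
    rw [show ((3 : ↥(IntL 3)) : ℂ) = 3 by push_cast; rfl]
    linear_combination (-((Up p f1).map (IntL 3).subtype)) * hC2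
      + (S - C (p : ℂ) * expand p hp S) * hC3
  -- reductions
  set Sb : (Kl 3)⟦X⟧ := Sz.map (Int.castRingHom (Kl 3)) with hSb
  set Db : (Kl 3)⟦X⟧ := Dz.map (Int.castRingHom (Kl 3)) with hDb
  have h3K : (3 : Kl 3) = 0 := by
    have := natCast_Kl_eq_zero 3
    exact_mod_cast this
  have h3K' : (3 : (Kl 3)⟦X⟧) = 0 := by
    rw [← map_ofNat (C (R := Kl 3)) 3, h3K, map_zero]
  have hpK : ((p : ℕ) : Kl 3) = -1 := natCast_p_Kl3 p hp3
  have hSDb : Sb ^ 3 - Sb = -Db := by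
    obtain ⟨W, hW⟩ := hSD
    have := congrArg (PowerSeries.map (Int.castRingHom (Kl 3))) hW
    simp only [map_add, map_sub, map_pow, map_mul, map_ofNat] at this
    rw [← hSb, ← hDb, h3K', zero_mul] at this
    linear_combination this
  have hθDb : theta Db = Db := by
    obtain ⟨W, hW⟩ := hθD
    have := congrArg (PowerSeries.map (Int.castRingHom (Kl 3))) hW
    simp only [map_sub, map_mul, map_ofNat, theta_map] at this
    rw [← hDb, h3K', zero_mul] at this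
    linear_combination this
  have hcK : red 3 c = -1 := by
    have := congrArg (red 3) hcR
    simp only [map_mul, map_sub, map_natCast, map_one, map_ofNat] at this
    rw [hpK] at this
    linear_combination this + (red 3 c + 3) * h3K
  have hc2K : 2 * red 3 c2 = 1 := by
    have := congrArg (red 3) hc2R
    simp only [map_add, map_one] at this
    linear_combination this
  have hpinvK : red 3 pinv = -1 := by
    have := congrArg (red 3) hpinvR
    simp only [map_mul, map_natCast, map_one] at this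
    rw [hpK] at this
    linear_combination (-1 : Kl 3) * this
  have hSRb : SR.map (red 3) = Sb := map_intCast_series _ _
  have hS'b : S'R.map (red 3) = Sb + expand p hp Sb := by
    rw [hS'R, map_sub, map_mul, map_expand, hSRb, map_C, map_natCast, hpK, map_neg, map_one]
    ring
  have hgb : gR.map (red 3) = Sb + expand p hp Sb := by
    rw [hgR, map_sub, map_mul, map_mul, hS'b, map_C, map_C, hcK, map_ofNat, h3K, map_zero,
      map_neg, map_one]
    ring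
  have hgtb : gtR.map (red 3) = Sb + expand p hp Sb := by
    rw [hgtR, map_sub, map_mul, map_mul, hS'b, map_C, map_C, hcK, map_ofNat, h3K, map_zero,
      map_neg, map_one]
    ring
  have hEpb : EpR.map (red 3) = 1 := by
    rw [hEpR, map_add, map_one, map_mul, map_C, map_ofNat, h3K, map_zero, zero_mul, add_zero]
  have hE2b : E2R.map (red 3) = 1 := by
    rw [hE2R, map_sub, map_one, map_mul, map_ofNat]
    linear_combination (-8 * SR.map (red 3)) * h3K'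
  refine ⟨H8three 1 c2 gR EpR E2R,
    H8three pinv c2 (C (-pinv) * gtR) (C (-pinv) * EpR) (expand p hp E2R), ?_, ?_, ?_, ?_⟩
  · rw [H8three_map, H8inf3, hgι, hEpι, hE2ι, map_one]
    simp only [Subring.subtype_apply, hc2]
  · rw [H8three_map, H8zero3, map_mul, map_mul, map_C, hgtι, hEpι, map_expand, hE2ι, map_neg]
    simp only [Subring.subtype_apply, hc2, hpinv]
  · rw [H8three_map, hgb, hEpb, hE2b]
    exact (core3 p hp h3K hpK Sb Db hSDb hθDb _ _ _ (red 3 c2) (red 3 1) hc2K rfl rfl rfl).1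
      (map_one _)
  · rw [H8three_map, map_mul, map_mul, map_C, hgtb, hEpb, map_expand, hE2b, map_neg, hpinvK,
      neg_neg, map_one, one_mul, one_mul, map_one]
    exact (core3 p hp h3K hpK Sb Db hSDb hθDb _ _ _ (red 3 c2) (-1) hc2K rfl rfl rfl).2 rfl

include hp3 in
/-- `ℓ = 3`, `p ≡ 2 mod 3`: the norm of `H₈` cannot be a level-one form of weight `8 (p + 1)`. -/
theorem three_contra
    (hSD : ∃ W : ℤ⟦X⟧, Sz ^ 3 - Sz + Dz = 3 * W) (hθD : ∃ W : ℤ⟦X⟧, theta Dz - Dz = 3 * W)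
    (hD0 : coeff 0 Dz = 0) (hD1 : coeff 1 Dz = 1)
    (f : ℂ⟦X⟧) (hf0 : coeff 0 f = 1) (hf : ∀ n, 1 ≤ n → ∃ x ∈ IntL 3, coeff n f = 9 * x)
    (ζ : ℂ) (hζ : ζ ^ p = 1) (n : ℂ⟦X⟧)
    (hnorm : expand p hp n = expand p hp (H8inf3 p hp (Sz.map (Int.castRingHom ℂ)) f) *
      ∏ b ∈ Finset.range p, rescale (ζ ^ b) (H8zero3 p hp (Sz.map (Int.castRingHom ℂ)) f))
    (hlevel : ∀ nR : (↥(IntL 3))⟦X⟧, nR.map (IntL 3).subtype = n →
      ∃ P : Polynomial (Kl 3), 12 * P.natDegree ≤ 8 * (p + 1) ∧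
        nR.map (red 3) = Polynomial.aeval (Dz.map (Int.castRingHom (Kl 3))) P) : False := by
  obtain ⟨hR, hhatR, h1, h2, h3, h4⟩ := three_main p hp hp3 Sz Dz hSD hθD f hf0 hf
  rw [← h1, ← h2] at hnorm
  obtain ⟨nR, hn1, hn2⟩ := norm_reduction 3 p hp ζ hζ n hR hhatR hnorm _ h3 h4
  obtain ⟨P, hP, hnP⟩ := hlevel nR hn1
  have hc0 : constantCoeff (Dz.map (Int.castRingHom (Kl 3))) = 0 := by
    rw [← coeff_zero_eq_constantCoeff_apply, coeff_map, hD0, map_zero]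
  have hc1 : coeff 1 (Dz.map (Int.castRingHom (Kl 3))) = 1 := by
    rw [coeff_map, hD1, map_one]
  exact aeval_ne_pow _ hc0 hc1 P (p + 1) (by omega) (hnP.symm.trans hn2)

end Three

end Fermat.Agent.S16.SerreCoreThree
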