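import Fermat.Agent.S16.E2LevelExtras
import Fermat.Agent.S16.FrickeTrace
import Fermat.Agent.S16.SerreCoreThree
import Fermat.Agent.S16.DeltaTheta
import Fermat.Agent.S16.SerreLevel
import Fermat.Prelude.Thm_ModularFormClass_qCoeff_heckeU

/-!
# S16, shared `q`-series identities for the `ℓ = 2, 3` instantiations

* (`qExpansion 1 (eisOne p) = EpSeries p hp (toC (sig 1))` is `SerreCoreInputs.qExpansion_eisOne`);
* `qExpansion_heckeUForm` : `qExpansion 1 (heckeUForm p F) = Up p (qExpansion 1 F)`;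
* thin `PowerSeries` wrappers for `sub`, `smul`, `mul` of forms of level `Γ₀(p)`.
-/

set_option autoImplicit false

open UpperHalfPlane ModularForm CongruenceSubgroup ModularFormClass PowerSeries MatrixGroups
  EisensteinSeries
open scoped ArithmeticFunction.sigma

namespace Fermat.Agent.S16.G23Series

open Fermat.Agent.S16.E2Level Fermat.Agent.S16.EisBridge Fermat.Agent.S16.E2LevelExtras
  Fermat.Agent.S16.Interfaces Fermat.Agent.S16.DivisorCongr Fermat.Agent.S16.SerreCoreOps
  Fermat.Agent.S16.SerreCoreThree Fermat.Agent.S16.FrickeTrace Fermat.Agent.S16.SerreLevel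
  Fermat.Agent.S16.DeltaTheta

/-- `1` is a strict period of `Γ₀(N)`. -/
theorem one_mem (N : ℕ) : (1 : ℝ) ∈ (G0 N).strictPeriods :=
  CongruenceSubgroup.one_mem_strictPeriods_Gamma0 N

/-- **(N2)** the `q`-expansion of `U_p F`. -/
theorem qExpansion_heckeUForm (p : ℕ) [Fact p.Prime] (F : ModularForm (G0 p) 2) :
    qExpansion 1 (heckeUForm p F) = Up p (qExpansion 1 F) := by
  have hp : p.Prime := Fact.out
  ext n
  rw [coeff_Up, coe_heckeUForm]
  have h := ModularFormClass.qCoeff_heckeU (k := 2) F (one_mem p) hp.ne_zero n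
  rw [ModularFormClass.qCoeff, ModularForm.coeffHeckeU_apply, ModularFormClass.qCoeff] at h
  rw [h, mul_comm]

/-! ### (N3) `PowerSeries` wrappers -/

section wrappers

variable {N : ℕ} {k k' : ℤ}

theorem qExpansion_sub' (F G : ModularForm (G0 N) k) :
    qExpansion 1 (⇑(F - G)) = qExpansion 1 F - qExpansion 1 G := by
  rw [FunLike.coe_sub]
  exact ModularForm.qExpansion_sub one_pos (one_mem N) F G

theorem qExpansion_add' (F G : ModularForm (G0 N) k) :
    qExpansion 1 (⇑(F + G)) = qExpansion 1 F + qExpansion 1 G := by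
  rw [FunLike.coe_add]
  exact ModularForm.qExpansion_add one_pos (one_mem N) F G

theorem qExpansion_neg' (F : ModularForm (G0 N) k) :
    qExpansion 1 (⇑(-F)) = -qExpansion 1 F := by
  rw [FunLike.coe_neg]
  exact ModularForm.qExpansion_neg one_pos (one_mem N) F

theorem qExpansion_smul' (c : ℂ) (F : ModularForm (G0 N) k) :
    qExpansion 1 (⇑(c • F)) = C c * qExpansion 1 F := by
  rw [FunLike.coe_smul, ModularForm.qExpansion_smul one_pos (one_mem N) c F]
  ext n
  rw [coeff_smul, coeff_C_mul, smul_eq_mul]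

theorem qExpansion_mul' (F : ModularForm (G0 N) k) (G : ModularForm (G0 N) k') :
    qExpansion 1 (⇑(F.mul G)) = qExpansion 1 F * qExpansion 1 G :=
  ModularForm.qExpansion_mul one_pos (one_mem N) F G

theorem qExpansion_mcast' {a b : ℤ} (h : a = b) (F : ModularForm (G0 N) a) :
    qExpansion 1 (⇑(ModularForm.mcast h F)) = qExpansion 1 F := rfl

end wrappers

/-! ### (N4) the Serre derivative -/

/-- **(N4)** `q`-expansion of the Serre derivative of a form of level `Γ₀(N)`, in `PowerSeries`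
form: `θ g - (k/12) E₂ g`. -/
theorem qExpansion_serreLevel' (N : ℕ) [NeZero N] {k : ℤ} (G : ModularForm (G0 N) k) :
    qExpansion 1 (⇑(serreLevel G)) =
      SerreCoreOps.theta (qExpansion 1 G) - C ((k : ℂ) / 12) * toC E2q * qExpansion 1 G := by
  ext n
  rw [coeff_qExpansion_serreLevel_Gamma0 N G n, map_sub, SerreCoreOps.coeff_theta, mul_assoc,
    mul_assoc (C ((k : ℂ) / 12)), coeff_C_mul, qExpansion_E2', div_eq_mul_inv, mul_assoc]

/-! ### (N5) level-one forms as forms of level `Γ₀(N)` -/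

/-- A level-one form viewed as a form on `Γ₀(N)`. -/
noncomputable def restrictG0 (N : ℕ) {k : ℤ} (f : ModularForm 𝒮ℒ k) : ModularForm (G0 N) k where
  toFun := f
  slash_action_eq' := fun γ hγ => f.slash_action_eq' γ (G0_le_SL N hγ)
  holo' := f.holo'
  bdd_at_cusps' := fun hc => f.bdd_at_cusps' (hc.mono (G0_le_SL N))

theorem coe_restrictG0 (N : ℕ) {k : ℤ} (f : ModularForm 𝒮ℒ k) :
    (⇑(restrictG0 N f) : ℍ → ℂ) = ⇑f := rfl

theorem qExpansion_restrictG0 (N : ℕ) {k : ℤ} (f : ModularForm 𝒮ℒ k) :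
    qExpansion 1 (⇑(restrictG0 N f)) = qExpansion 1 f := rfl

/-- **(N5)** `E₄` as a form of level `Γ₀(N)`. -/
noncomputable def E4p (N : ℕ) : ModularForm (G0 N) 4 := restrictG0 N E₄

theorem coe_E4p (N : ℕ) : (⇑(E4p N) : ℍ → ℂ) = ⇑E₄ := rfl

theorem qExpansion_E4p (N : ℕ) : qExpansion 1 (⇑(E4p N)) = toC E4q := qExpansion_E4'


/-! ### (N6) the level-`N` Eisenstein series `N E₂(N z) - E₂(z)` -/

theorem coeff_toC_E2q (m : ℕ) : coeff m (toC E2q) = aE2 m := by
  rw [← mk_cE2, coeff_mk]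
  rfl

/-- **(N6)** `qExpansion 1 (E2lvl N) = N · E₂(q^N) - E₂(q)`. -/
theorem qExpansion_E2lvl (N : ℕ) [NeZero N] :
    qExpansion 1 (⇑(E2lvl N)) = C (N : ℂ) * expand N (NeZero.ne N) (toC E2q) - toC E2q := by
  ext m
  rw [qExpansion_E2lvl_coeff, cE, map_sub, coeff_C_mul, coeff_toC_E2q, coeff_expand]
  split_ifs with h
  · rw [coeff_toC_E2q]
  · rw [mul_zero]

end Fermat.Agent.S16.G23Series
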