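import Fermat.Agent.S16.SerreScale
import Fermat.Agent.S16.G23Series
import Fermat.Agent.S24.CuspExpansion

/-!
# S16: the Serre derivative at the other cusp (generic step)

If `(X ∣[k] S)(z) = c · X₁(z / p)` then
`((∂ₖ X) ∣[k+2] S)(z) = (c / p) · K(z / p)` with the *companion*
`K = ∂ₖ X₁ - (k/12) · E2lvl p · X₁`, whose width-one `q`-expansion is
`θ x₁ - (k/12) · p · E₂(q^p) · x₁`.
-/

set_option autoImplicit false

open UpperHalfPlane ModularForm CongruenceSubgroup ModularFormClass PowerSeries MatrixGroups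
  EisensteinSeries Derivative
open scoped Manifold

namespace Fermat.Agent.S16.CuspZeroSerre

open Fermat.Agent.S16.E2Level Fermat.Agent.S16.SerreScale Fermat.Agent.S16.SerreLevel
  Fermat.Agent.S16.DivisorCongr Fermat.Agent.S16.DeltaTheta Fermat.Agent.S16.G23Series
  Fermat.Agent.S24.CuspExpansion Fermat.Agent.S16.E2LevelExtras

/-- The companion of the Serre derivative at the other cusp. -/
noncomputable def serreComp (p : ℕ) [NeZero p] (k : ℤ) (X1 : ℍ → ℂ) : ℍ → ℂ :=
  fun w => serreDerivative k X1 w - (k : ℂ) * 12⁻¹ * E2lvl p w * X1 w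

theorem serreComp_apply (p : ℕ) [NeZero p] (k : ℤ) (X1 : ℍ → ℂ) (w : ℍ) :
    serreComp p k X1 w = serreDerivative k X1 w - (k : ℂ) * 12⁻¹ * E2lvl p w * X1 w := rfl

theorem im_div_natCast_pos (N : ℕ) [NeZero N] {w : ℂ} (hw : 0 < w.im) :
    0 < (w / (N : ℂ)).im := by
  have h1 : (0 : ℝ) < N := by exact_mod_cast Nat.pos_of_ne_zero (NeZero.ne N)
  rw [show ((N : ℂ)) = (((N : ℝ)) : ℂ) by simp, Complex.div_ofReal_im]
  exact div_pos hw h1

/-- `z ↦ φ(z / N)` is holomorphic if `φ` is. -/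
theorem mdiff_comp_divN (N : ℕ) [NeZero N] {φ : ℍ → ℂ} (hφ : MDiff φ) :
    MDiff (fun w => φ (divN N w)) := by
  rw [UpperHalfPlane.mdifferentiable_iff] at hφ ⊢
  intro w hw
  have hw' : 0 < (w / (N : ℂ)).im := im_div_natCast_pos N hw
  have h1 : DifferentiableAt ℂ (φ ∘ ofComplex) (w / (N : ℂ)) :=
    (hφ _ hw').differentiableAt (isOpen_upperHalfPlaneSet.mem_nhds hw')
  have h2 : DifferentiableAt ℂ (fun v : ℂ => v / (N : ℂ)) w :=
    differentiableAt_id.div_const _
  have h3 : DifferentiableAt ℂ ((φ ∘ ofComplex) ∘ fun v : ℂ => v / (N : ℂ)) w := h1.comp w h2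
  refine (h3.congr_of_eventuallyEq ?_).differentiableWithinAt
  filter_upwards [isOpen_upperHalfPlaneSet.mem_nhds hw] with v hv
  have hv' : 0 < (v / (N : ℂ)).im := im_div_natCast_pos N hv
  simp only [Function.comp_apply]
  congr 1
  apply UpperHalfPlane.ext
  rw [coe_divN, ofComplex_apply_of_im_pos hv, ofComplex_apply_of_im_pos hv']

/-- **Slash step.** -/
theorem serre_slash_S_of_eq (p : ℕ) [NeZero p] (k : ℤ) {X X1 : ℍ → ℂ} (hX : MDiff X)
    (hX1 : MDiff X1) (c : ℂ)
    (h : ∀ z w : ℍ, (w : ℂ) = (z : ℂ) / p → (X ∣[k] ModularGroup.S) z = c * X1 w) :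
    ∀ z w : ℍ, (w : ℂ) = (z : ℂ) / p →
      ((serreDerivative k X) ∣[k + 2] ModularGroup.S) z = (c / p) * serreComp p k X1 w := by
  intro z w hw
  have hwz : w = divN p z := UpperHalfPlane.ext (by rw [hw, coe_divN])
  have hfun : X ∣[k] ModularGroup.S = c • fun v => X1 (divN p v) := by
    funext v
    rw [h v (divN p v) (coe_divN p v)]
    rfl
  have hmd : MDiff (fun v => X1 (divN p v)) := mdiff_comp_divN p hX1
  rw [serreDerivative_slash_equivariant hX, hfun, serreDerivative_smul _ _ _ hmd, Pi.smul_apply,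
    serreDerivative_comp_divN p k hX1 z, smul_eq_mul, serreComp_apply, ← hwz]
  ring

/-! ### The companion is holomorphic at the cusp, with the expected `q`-expansion -/

theorem holAtCusp_E2 : HolAtCusp 1 E2 where
  per := by simpa using Fermat.Agent.S24.JLocalOrder.periodic_E2
  hol := E2_mdifferentiable
  bdd := isBoundedAtImInfty_E2

theorem holAtCusp_E2lvl (N : ℕ) [NeZero N] : HolAtCusp 1 (⇑(E2lvl N)) where
  per := by simpa using periodic_E2lvl N
  hol := ModularFormClass.holo (E2lvl N)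
  bdd := ModularFormClass.bdd_at_infty (E2lvl N)

theorem holAtCusp_D {X1 : ℍ → ℂ} (h : HolAtCusp 1 X1) : HolAtCusp 1 (D X1) where
  per := by
    have := periodic_D (h := (1 : ℝ)) (by simpa using h.per)
    simpa using this
  hol := normalizedDerivOfComplex_mdifferentiable h.hol
  bdd := (D_isZeroAtImInfty_of_periodic one_pos (by simpa using h.per) h.hol h.bdd).boundedAtFilter

theorem serreDerivative_eq' (k : ℂ) (X1 : ℍ → ℂ) :
    serreDerivative k X1 = D X1 + -((fun _ : ℍ => k * 12⁻¹) * (E2 * X1)) := by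
  funext z
  simp only [serreDerivative_apply, Pi.add_apply, Pi.neg_apply, Pi.mul_apply]
  ring

theorem holAtCusp_serreDerivative {X1 : ℍ → ℂ} (h : HolAtCusp 1 X1) (k : ℂ) :
    HolAtCusp 1 (serreDerivative k X1) := by
  rw [serreDerivative_eq']
  exact (holAtCusp_D h).add (((HolAtCusp.const _).mul (holAtCusp_E2.mul h)).neg)

theorem serreComp_eq (p : ℕ) [NeZero p] (k : ℤ) (X1 : ℍ → ℂ) :
    serreComp p k X1 =
      serreDerivative k X1 + -((fun _ : ℍ => (k : ℂ) * 12⁻¹) * (⇑(E2lvl p) * X1)) := by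
  funext z
  simp only [serreComp_apply, Pi.add_apply, Pi.neg_apply, Pi.mul_apply]
  ring

theorem holAtCusp_serreComp (p : ℕ) [NeZero p] (k : ℤ) {X1 : ℍ → ℂ} (h : HolAtCusp 1 X1) :
    HolAtCusp 1 (serreComp p k X1) := by
  rw [serreComp_eq]
  exact (holAtCusp_serreDerivative h k).add
    (((HolAtCusp.const _).mul ((holAtCusp_E2lvl p).mul h)).neg)

/-- `q`-expansion of the Serre derivative of a width-one function. -/
theorem qExpansion_serreDerivative' {X1 : ℍ → ℂ} (h : HolAtCusp 1 X1) (k : ℂ) :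
    qExpansion 1 (serreDerivative k X1) =
      SerreCoreOps.theta (qExpansion 1 X1) - C (k / 12) * toC E2q * qExpansion 1 X1 := by
  have hper : Function.Periodic (X1 ∘ ofComplex) (1 : ℝ) := by simpa using h.per
  ext n
  rw [coeff_qExpansion_serreDerivative hper h.hol h.bdd k n, map_sub, SerreCoreOps.coeff_theta,
    mul_assoc (C (k / 12)), coeff_C_mul, qExpansion_E2', div_eq_mul_inv, mul_assoc]

/-- **`q`-expansion of the companion**: `θ x₁ - (k/12) · p · E₂(q^p) · x₁`. -/
theorem qExpansion_serreComp (p : ℕ) [NeZero p] (k : ℤ) {X1 : ℍ → ℂ} (h : HolAtCusp 1 X1) :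
    qExpansion 1 (serreComp p k X1) =
      SerreCoreOps.theta (qExpansion 1 X1) -
        C ((k : ℂ) / 12) * (C (p : ℂ) * expand p (NeZero.ne p) (toC E2q)) * qExpansion 1 X1 := by
  have h1 : HolAtCusp 1 ((fun _ : ℍ => (k : ℂ) * 12⁻¹) * (⇑(E2lvl p) * X1)) :=
    (HolAtCusp.const _).mul ((holAtCusp_E2lvl p).mul h)
  have e1 := qExpansion_add' (h := 1) (holAtCusp_serreDerivative h k) h1.neg
  have e2 := qExpansion_neg' (h := 1) h1
  have e3 := qExpansion_mul' (h := 1) (HolAtCusp.const ((k : ℂ) * 12⁻¹))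
    ((holAtCusp_E2lvl p).mul h)
  have e4 := qExpansion_mul' (h := 1) (holAtCusp_E2lvl p) h
  have e5 := qExpansion_const' (h := 1) ((k : ℂ) * 12⁻¹)
  simp only [Nat.cast_one] at e1 e2 e3 e4 e5
  rw [serreComp_eq, e1, e2, e3, e4, e5, qExpansion_serreDerivative' h, qExpansion_E2lvl,
    div_eq_mul_inv]
  ring

end Fermat.Agent.S16.CuspZeroSerre
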