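/-
S16 piece `G2Inst` (helper97): analytic instantiation of the Serre-derivative closure for
`ℓ = 2`, `p ≡ 3 mod 4` (no `F ≡ 1 mod 8`).  Part 1: the modular forms on `Γ₀(p)` and their
`q`-expansions at `∞`.
-/
import Fermat.Agent.S16.SerreCoreInputs
import Fermat.Agent.S16.SerreLevel
import Fermat.Agent.S28.Haupt3.ScaleQExp

set_option autoImplicit false

open UpperHalfPlane ModularForm CongruenceSubgroup
open scoped MatrixGroups

noncomputable section

namespace Fermat.Agent.S16.G2Inst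

open PowerSeries
open Fermat.Agent.S16.DivisorCongr Fermat.Agent.S16.DeltaTheta
open Fermat.Agent.S16.SerreCoreOps Fermat.Agent.S16.SerreCoreChar Fermat.Agent.S16.SerreCoreThree
open Fermat.Agent.S16.SerreLevel Fermat.Agent.S16.E2LevelExtras
open Fermat.Agent.S24.LevelForms Fermat.Agent.S28.Haupt3.ScaleQExp

/-! ### Generic `q`-expansion wrappers at level `Γ₀(N)` -/

section Wrappers

variable {N : ℕ} {k l : ℤ}

theorem qExp_add (f g : ModularForm (G0 N) k) :
    qExpansion 1 ⇑(f + g) = qExpansion 1 f + qExpansion 1 g := by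
  rw [FunLike.coe_add]
  exact ModularForm.qExpansion_add one_pos (one_mem_strictPeriods N) f g

theorem qExp_sub (f g : ModularForm (G0 N) k) :
    qExpansion 1 ⇑(f - g) = qExpansion 1 f - qExpansion 1 g := by
  rw [FunLike.coe_sub]
  exact ModularForm.qExpansion_sub one_pos (one_mem_strictPeriods N) f g

theorem qExp_smul (c : ℂ) (f : ModularForm (G0 N) k) :
    qExpansion 1 ⇑(c • f) = C c * qExpansion 1 f := by
  rw [FunLike.coe_smul, ModularForm.qExpansion_smul one_pos (one_mem_strictPeriods N) c f]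
  ext n
  simp

theorem qExp_mul (f : ModularForm (G0 N) k) (g : ModularForm (G0 N) l) :
    qExpansion 1 (f.mul g) = qExpansion 1 f * qExpansion 1 g :=
  ModularForm.qExpansion_mul one_pos (one_mem_strictPeriods N) f g

theorem qExp_mcast (h : k = l) (f : ModularForm (G0 N) k) :
    qExpansion 1 (ModularForm.mcast h f) = qExpansion 1 f := by
  rw [ModularForm.coe_mcast]

end Wrappers

/-- `q`-expansion of the Serre derivative at level `Γ₀(N)` in `θ`-form. -/
theorem qExp_serreLevel {N : ℕ} [NeZero N] {k : ℤ} (G : ModularForm (G0 N) k) :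
    qExpansion 1 (serreLevel G) =
      SerreCoreOps.theta (qExpansion 1 G) - C ((k : ℂ) / 12) * (toC E2q * qExpansion 1 G) := by
  ext n
  rw [coeff_qExpansion_serreLevel_Gamma0 N G n, map_sub, SerreCoreOps.coeff_theta, coeff_C_mul,
    qExpansion_E2']
  ring

section Forms

variable (p : ℕ) [hp : Fact p.Prime] (F : ModularForm (G0 p) 2)

local instance neZero_p : NeZero p := ⟨hp.out.ne_zero⟩

/-- the normalised Eisenstein series -/
def Ep : ModularForm (G0 p) 2 := eisOne p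

/-- `g = (F - E)/4` -/
def gF : ModularForm (G0 p) 2 := (1 / 4 : ℂ) • (F - Ep p)

/-- `G₄ = g² + g E` -/
def G4 : ModularForm (G0 p) 4 :=
  ModularForm.mcast (by norm_num) ((gF p F).mul (gF p F) + (gF p F).mul (Ep p))

/-- `∂G₄` (weight 6) -/
def dG4 : ModularForm (G0 p) 6 := ModularForm.mcast (by norm_num) (serreLevel (G4 p F))

/-- `∂²G₄` (weight 8) -/
def ddG4 : ModularForm (G0 p) 8 := ModularForm.mcast (by norm_num) (serreLevel (dG4 p F))

/-- `E₄` on `Γ₀(p)` -/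
def E4p : ModularForm (G0 p) 4 := scaleForm p 1 (one_dvd p) E₄

/-- `F₈ = 2 ∂²G₄ - (1/3) E ∂G₄ - (4/9) E₄ G₄` -/
def F8 : ModularForm (G0 p) 8 :=
  (2 : ℂ) • ddG4 p F - (1 / 3 : ℂ) • ModularForm.mcast (by norm_num) ((Ep p).mul (dG4 p F))
    - (4 / 9 : ℂ) • ModularForm.mcast (by norm_num) ((E4p p).mul (G4 p F))

/-- `H₈ = E₄ G₄ + F₈/4` -/
def H8 : ModularForm (G0 p) 8 :=
  ModularForm.mcast (by norm_num) ((E4p p).mul (G4 p F)) + (1 / 4 : ℂ) • F8 p F

/-! ### `q`-expansions at `∞` -/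

/-- `S = ∑ σ(n) qⁿ` over `ℂ`. -/
abbrev Sc : ℂ⟦X⟧ := toC (sig 1)
/-- `∑ σ₃(n) qⁿ` over `ℂ`. -/
abbrev S3c : ℂ⟦X⟧ := toC (sig 3)

theorem toC_E2q : toC E2q = 1 - 24 * Sc := by
  rw [E2q, map_sub, map_one, map_mul, toC, PowerSeries.map_C, eq_intCast, Int.cast_ofNat,
    map_ofNat]

theorem toC_E4q : toC E4q = 1 + 240 * S3c := by
  rw [E4q, map_add, map_one, map_mul, toC, PowerSeries.map_C, eq_intCast, Int.cast_ofNat,
    map_ofNat]

include hp in
theorem two_le_p : 2 ≤ p := hp.out.two_le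

theorem qExp_Ep : qExpansion 1 (Ep p) = EpSeries p (NeZero.ne p) Sc :=
  SerreCoreInputs.qExpansion_eisOne p (two_le_p p)

theorem qExp_gF :
    qExpansion 1 (gF p F) = C (1 / 4 : ℂ) * (qExpansion 1 F - EpSeries p (NeZero.ne p) Sc) := by
  rw [gF, qExp_smul, qExp_sub, qExp_Ep]

theorem qExp_G4 :
    qExpansion 1 (G4 p F) =
      G4two (C (1 / 4 : ℂ) * (qExpansion 1 F - EpSeries p (NeZero.ne p) Sc))
        (EpSeries p (NeZero.ne p) Sc) := by
  rw [G4, qExp_mcast, qExp_add, qExp_mul, qExp_mul, qExp_gF, qExp_Ep, G4two]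
  ring

theorem qExp_dG4 :
    qExpansion 1 (dG4 p F) = serre4 1 (1 / 3) (qExpansion 1 (G4 p F)) (1 - 24 * Sc) := by
  rw [dG4, qExp_mcast, qExp_serreLevel, serre4, toC_E2q, map_one, one_mul]
  have : C (((4 : ℤ) : ℂ) / 12) = C (1 / 3 : ℂ) := by congr 1; norm_num
  rw [this]
  ring

theorem qExp_E4p : qExpansion 1 (E4p p) = 1 + 240 * S3c := by
  rw [E4p, qExpansion_scaleForm, PowerSeries.expand_one_apply, qExpansion_E4', toC_E4q]

theorem qExp_ddG4 :
    (2 : ℂ⟦X⟧) * qExpansion 1 (ddG4 p F) =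
      2 * SerreCoreOps.theta (qExpansion 1 (dG4 p F)) - (1 - 24 * Sc) * qExpansion 1 (dG4 p F) := by
  rw [ddG4, qExp_mcast, qExp_serreLevel, toC_E2q]
  have : C (((6 : ℤ) : ℂ) / 12) = C (1 / 2 : ℂ) := by congr 1; norm_num
  rw [this]
  have h2 : (2 : ℂ⟦X⟧) * C (1 / 2 : ℂ) = 1 := by
    rw [← map_ofNat (C (R := ℂ)) 2, ← map_mul]
    norm_num
  linear_combination (-(1 - 24 * Sc) * qExpansion 1 (dG4 p F)) * h2

theorem qExp_F8 :
    qExpansion 1 (F8 p F) =
      F8two 1 (1 / 3) (qExpansion 1 (G4 p F)) (1 - 24 * Sc) (1 + 240 * S3c)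
        (EpSeries p (NeZero.ne p) Sc) := by
  rw [F8, qExp_sub, qExp_sub, qExp_smul, qExp_smul, qExp_smul, qExp_mcast, qExp_mcast, qExp_mul,
    qExp_mul, qExp_Ep, qExp_E4p, F8two, ← qExp_dG4, map_one, one_mul]
  have h2 : C (2 : ℂ) = (2 : ℂ⟦X⟧) := map_ofNat _ 2
  have h49 : C (4 / 9 : ℂ) = 4 * C (1 / 3 : ℂ) ^ 2 := by
    rw [← map_pow, ← map_ofNat (C (R := ℂ)) 4, ← map_mul]
    congr 1; norm_num
  rw [h2, h49]
  linear_combination qExp_ddG4 p F

/-- **The `q`-expansion of `H₈` at `∞`** (shape of `SerreCoreTwo.H8inf2`). -/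
theorem qExp_H8 :
    qExpansion 1 (H8 p F) =
      (1 + 240 * S3c) * qExpansion 1 (G4 p F) + C (1 / 4 : ℂ) *
        F8two 1 (1 / 3) (qExpansion 1 (G4 p F)) (1 - 24 * Sc) (1 + 240 * S3c)
          (EpSeries p (NeZero.ne p) Sc) := by
  rw [H8, qExp_add, qExp_mcast, qExp_mul, qExp_smul, qExp_E4p, qExp_F8]

end Forms

end Fermat.Agent.S16.G2Inst
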