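import Fermat.Agent.S16.SerreCoreOps
import Fermat.Agent.S16.RamanujanSeries
import Fermat.Agent.S16.DivisorCongr

/-!
# S16: Ramanujan's identity `12 θ E₂ = E₂² - E₄` over `ℤ` in the shape of `SerreCoreTwo.two_contra`
(`Sz := DivisorCongr.sig 1`, `S3z := DivisorCongr.sig 3`, `theta := SerreCoreOps.theta`).
-/

set_option autoImplicit false

namespace Fermat.Agent.S16.SerreCoreRam

open PowerSeries
open Fermat.Agent.S16.DivisorCongr Fermat.Agent.S16.RamanujanSeries

theorem Pz_eq : Pz = 1 - 24 * sig 1 := by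
  ext n
  have h24 : (24 : ℤ⟦X⟧) = C (24 : ℤ) := (map_ofNat (C (R := ℤ)) 24).symm
  rw [coeff_Pz, map_sub, h24, coeff_C_mul, coeff_sig, coeff_one]
  by_cases hn : n = 0
  · subst hn; simp
  · rw [if_neg hn, if_neg hn, ArithmeticFunction.sigma_apply]
    push_cast
    ring

theorem Qz_eq : Qz = 1 + 240 * sig 3 := by
  ext n
  have h240 : (240 : ℤ⟦X⟧) = C (240 : ℤ) := (map_ofNat (C (R := ℤ)) 240).symm
  rw [coeff_Qz, map_add, h240, coeff_C_mul, coeff_sig, coeff_one]
  by_cases hn : n = 0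
  · subst hn; simp
  · rw [if_neg hn, if_neg hn, ArithmeticFunction.sigma_apply]
    push_cast
    ring

/-- Ramanujan's identity in the shape of `SerreCoreTwo.two_contra` (`hRam`). -/
theorem hRam :
    12 * SerreCoreOps.theta (1 - 24 * sig 1) = (1 - 24 * sig 1) ^ 2 - (1 + 240 * sig 3) := by
  have h := ramanujan_P
  rw [Pz_eq, Qz_eq] at h
  exact h

end Fermat.Agent.S16.SerreCoreRam
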