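/-
S16 piece `G2Asm` (helper97): final assembly of `Interfaces.Upper2bStatement` (`ℓ = 2`,
`p ≡ 3 mod 4`, no `F ≡ 1 mod 8`) from `SerreCoreTwo.two_contra`, the forms of `G2Inst`, the norm
(`NormLevelOneGen`), the level-one basis theorem (`LevelOneModL`) and the expansion of `H₈ ∣ S`
at the other cusp (`CuspZeroStatement`, supplied separately).
-/
import Fermat.Agent.S16.G2Inst
import Fermat.Agent.S16.SerreCoreTwo
import Fermat.Agent.S16.SerreCoreRam
import Fermat.Agent.S16.NormLevelOneGen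
import Fermat.Agent.S16.LevelOneModL

set_option autoImplicit false

open UpperHalfPlane ModularForm CongruenceSubgroup
open scoped MatrixGroups

noncomputable section

namespace Fermat.Agent.S16.G2Asm

open PowerSeries
open Fermat.Agent.S16.DivisorCongr Fermat.Agent.S16.DeltaTheta Fermat.Agent.S16.G2Inst
open Fermat.Agent.S16.SerreCoreOps Fermat.Agent.S16.SerreCoreChar Fermat.Agent.S16.SerreCoreThree
open Fermat.Agent.S16.SerreCoreTwo Fermat.Agent.S16.SerreCoreRing
open Fermat.Agent.S16.NormLevelOne Fermat.Agent.S16.NormLevelOneGen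
open Fermat.Agent.S28.Haupt3.ScaleQExp

variable (p : ℕ) [hp : Fact p.Prime] (F : ModularForm (G0 p) 2)

local instance neZero_p' : NeZero p := ⟨hp.out.ne_zero⟩

theorem qExp_H8_eq_H8inf2 :
    qExpansion 1 (H8 p F) = H8inf2 p (NeZero.ne p) Sc S3c (qExpansion 1 F) := by
  rw [qExp_H8, qExp_G4, H8inf2, H8two]

theorem zeta_pow_self : zeta p ^ p = 1 := by
  have hp0 : (p : ℂ) ≠ 0 := by exact_mod_cast hp.out.ne_zero
  rw [zeta, ← Complex.exp_nat_mul, mul_div_cancel₀ _ hp0, Complex.exp_two_pi_mul_I]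

/-- The expansion of `H₈ ∣ S` in `t = q^(1/p)`. -/
def CuspZeroStatement : Prop :=
  ∀ (p : ℕ) [Fact p.Prime] (F : ModularForm (G0 p) 2),
    qExpansion (p : ℝ) ((H8 p F : ℍ → ℂ) ∣[(8 : ℤ)] ModularGroup.S) =
      H8zero2 p (Nat.Prime.ne_zero Fact.out) Sc S3c (qExpansion 1 F)

/-- `hlevel` of `two_contra` for the norm form. -/
theorem hlevel_normForm (H : ModularForm (G0 p) 8) (nR : (↥(IntL 2))⟦X⟧)
    (hn : nR.map (IntL 2).subtype = qExpansion 1 (normForm p H)) :
    ∃ P : Polynomial (Kl 2), 12 * P.natDegree ≤ 8 * (p + 1) ∧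
      nR.map (SerreCoreRing.red 2) = Polynomial.aeval (Δq.map (Int.castRingHom (Kl 2))) P := by
  have h2 : (2 : Kl 2) = 0 := by
    have := natCast_Kl_eq_zero 2
    exact_mod_cast this
  have h240 : (240 : Kl 2) = 0 := by linear_combination (120 : Kl 2) * h2
  have h504 : (504 : Kl 2) = 0 := by linear_combination (252 : Kl 2) * h2
  obtain ⟨P, hP, hPn⟩ := LevelOneModL.exists_poly_delta_of_qExpansion (IntL 2).subtype
    Subtype.val_injective (SerreCoreRing.red 2) h240 h504 (normForm p H) nR hn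
  refine ⟨P, ?_, hPn⟩
  by_contra hlt
  have hlt := not_le.mp hlt
  have hne : P ≠ 0 := by
    rintro rfl
    simp at hlt
  have hc : P.coeff P.natDegree = 0 := by
    apply hP
    push_cast
    have : (8 * (p + 1) : ℕ) < 12 * P.natDegree := hlt
    exact_mod_cast this
  exact hne (Polynomial.leadingCoeff_eq_zero.1 hc)

theorem upper2b_of (h0 : CuspZeroStatement) : Interfaces.Upper2bStatement := by
  intro p _ _ hp4 F hF
  obtain ⟨hf0, hf⟩ := SerreCoreInputs.qExpansion_of_isOneMod p 2 3 F hF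
  have hf' : ∀ n, 1 ≤ n → ∃ x ∈ IntL 2, coeff n (qExpansion 1 F) = 8 * x := by
    intro n hn
    obtain ⟨x, hx, hxn⟩ := hf n hn
    exact ⟨x, hx, by rw [hxn]; norm_num⟩
  have hp0 : p ≠ 0 := Nat.Prime.ne_zero Fact.out
  refine two_contra p hp0 hp4 (sig 1) (sig 3) Δq SerreCoreInputs.hSD2 SerreCoreInputs.hθD2
    SerreCoreInputs.hD2two SerreCoreRam.hRam coeff_zero_Δq SerreCoreInputs.coeff_one_Δq
    (qExpansion 1 F) hf0 hf' (zeta p) (zeta_pow_self p) (qExpansion 1 (normForm p (H8 p F)))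
    ?_ (hlevel_normForm p (H8 p F))
  have h := expand_qExpansion_normForm p (H8 p F)
  rw [qExp_H8_eq_H8inf2, h0 p F] at h
  exact h

end Fermat.Agent.S16.G2Asm
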