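/-
S16 piece `CuspZeroTwo` (helper4): the expansion of `H₈ ∣ S` in `t = q^(1/p)` for `ℓ = 2`,
i.e. LITERALLY `G2Asm.CuspZeroStatement`, by the width-`p` route: `qExpansion p` is a ring
homomorphism on functions holomorphic at the cusp of width `p` (`S24.CuspExpansion`), the
conjugates `X ∣ S` of forms on `Γ₀(p)` are such functions (`NormLevelOne.holAtCusp_slash`), the
Serre derivative commutes with the slash action and acts on width-`p` expansions by
`(1/p) θ - (k/12) E₂(t^p)` (`SerreExpansion.qExpansion_serreLevel_slash_S`), and the expansions of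
`F ∣ S`, `E ∣ S` come from `FrickeTrace` / `E2LevelExtras.eisOne_slash_S`.
-/
import Fermat.Agent.S16.G2Asm
import Fermat.Agent.S16.SerreExpansion
import Fermat.Agent.S16.NormLevelOneFricke
import Fermat.Agent.S16.NormLevelOneGen

set_option autoImplicit false

open UpperHalfPlane ModularForm CongruenceSubgroup
open scoped MatrixGroups

noncomputable section

namespace Fermat.Agent.S16.CuspZeroTwo

open PowerSeries
open Fermat.Agent.S24.CuspExpansion
open Fermat.Agent.S16.DivisorCongr Fermat.Agent.S16.G2Inst Fermat.Agent.S16.G2Asm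
open Fermat.Agent.S16.SerreCoreOps Fermat.Agent.S16.SerreCoreChar Fermat.Agent.S16.SerreCoreThree
open Fermat.Agent.S16.SerreCoreTwo
open Fermat.Agent.S16.SerreLevel Fermat.Agent.S16.E2LevelExtras
open Fermat.Agent.S16.NormLevelOne Fermat.Agent.S16.NormLevelOneGen
open Fermat.Agent.S28.Haupt3.ScaleQExp

variable (p : ℕ) [hp : Fact p.Prime]

local instance neZero_p'' : NeZero p := ⟨hp.out.ne_zero⟩

/-- The width-`p` expansion of the conjugate `X ∣[k] S`. -/
def qS {k : ℤ} (X : ModularForm (G0 p) k) : ℂ⟦X⟧ :=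
  qExpansion (p : ℝ) ((X : ℍ → ℂ) ∣[k] ModularGroup.S)

theorem hol {k : ℤ} (X : ModularForm (G0 p) k) :
    HolAtCusp p ((X : ℍ → ℂ) ∣[k] ModularGroup.S) :=
  holAtCusp_slash p X ModularGroup.S

theorem qS_mul {k l : ℤ} (X : ModularForm (G0 p) k) (Y : ModularForm (G0 p) l) :
    qS p (X.mul Y) = qS p X * qS p Y := by
  unfold qS
  rw [ModularForm.coe_mul, ModularForm.mul_slash_SL2]
  exact qExpansion_mul' (hol p X) (hol p Y)

theorem qS_add {k : ℤ} (X Y : ModularForm (G0 p) k) :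
    qS p (X + Y) = qS p X + qS p Y := by
  unfold qS
  rw [FunLike.coe_add, SlashAction.add_slash]
  exact qExpansion_add' (hol p X) (hol p Y)

theorem qS_smul {k : ℤ} (c : ℂ) (X : ModularForm (G0 p) k) :
    qS p (c • X) = C c * qS p X := by
  unfold qS
  have h1 : ((c • X : ModularForm (G0 p) k) : ℍ → ℂ) ∣[k] ModularGroup.S =
      (fun _ : ℍ => c) * ((X : ℍ → ℂ) ∣[k] ModularGroup.S) := by
    rw [FunLike.coe_smul, ModularForm.SL_smul_slash]
    funext z
    simp [Pi.smul_apply, smul_eq_mul]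
  rw [h1, qExpansion_mul' (HolAtCusp.const c) (hol p X), qExpansion_const']

theorem qS_neg {k : ℤ} (X : ModularForm (G0 p) k) :
    qS p (-X) = -qS p X := by
  have : (-X : ModularForm (G0 p) k) = (-1 : ℂ) • X := by simp
  rw [this, qS_smul]
  simp

theorem qS_sub {k : ℤ} (X Y : ModularForm (G0 p) k) :
    qS p (X - Y) = qS p X - qS p Y := by
  rw [sub_eq_add_neg, qS_add, qS_neg, ← sub_eq_add_neg]

omit hp in
theorem qS_mcast {k l : ℤ} (h : k = l) (X : ModularForm (G0 p) k) :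
    qS p (ModularForm.mcast h X) = qS p X := by
  subst h
  rfl

theorem qS_serreLevel {k : ℤ} (X : ModularForm (G0 p) k) :
    qS p (serreLevel X) =
      C ((p : ℂ)⁻¹) * SerreCoreOps.theta (qS p X) -
        C ((k : ℂ) * 12⁻¹) * (expand p (NeZero.ne p) SerreExpansion.E2q * qS p X) :=
  SerreExpansion.qExpansion_serreLevel_slash_S p X

/-! ### The basic expansions at the other cusp -/

theorem qS_F (F : ModularForm (G0 p) 2) :
    qS p F = C (-(p : ℂ)⁻¹) * Up p (qExpansion 1 F) := by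
  ext n
  rw [qS, NormLevelOneFricke.coeff_qExpansion_slash_S p F n, coeff_C_mul, coeff_Up, mul_comm p n]
  ring

theorem qS_Ep : qS p (Ep p) = C (-(p : ℂ)⁻¹) * EpSeries p (NeZero.ne p) Sc := by
  rw [← qExp_Ep p]
  refine qExpansion_slash_S_of_eq p (Ep p) (Ep p : ℍ → ℂ) (holAtCusp_one_F p (Ep p)) _ ?_
  intro z w hw
  rw [Ep, eisOne_slash_S p z w hw]
  ring

omit hp in
theorem E4p_coe : (E4p p : ℍ → ℂ) = (E₄ : ℍ → ℂ) := by
  funext z
  rw [E4p, Fermat.Agent.S24.LevelForms.scaleForm_apply]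
  congr 1
  apply UpperHalfPlane.ext
  rw [Fermat.Agent.S24.coe_scaleH one_pos]
  simp

omit hp in
theorem E4p_slash_S : (E4p p : ℍ → ℂ) ∣[(4 : ℤ)] ModularGroup.S = (E4p p : ℍ → ℂ) := by
  rw [E4p_coe, ModularForm.SL_slash]
  exact SlashInvariantForm.slash_action_eqn E₄ _ ⟨ModularGroup.S, rfl⟩

theorem qS_E4p : qS p (E4p p) = expand p (NeZero.ne p) (1 + 240 * S3c) := by
  have h1 : HolAtCusp 1 (E4p p : ℍ → ℂ) := holAtCusp_one_F p (E4p p)
  have hp' : HolAtCusp p (E4p p : ℍ → ℂ) := by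
    have := hol p (E4p p)
    rwa [E4p_slash_S] at this
  unfold qS
  rw [E4p_slash_S, qExpansion_of_width_one h1 hp', Nat.cast_one, qExp_E4p]

/-! ### The expansion of `H₈ ∣ S` -/

section Main

variable (F : ModularForm (G0 p) 2)

theorem E2q_eq : SerreExpansion.E2q = 1 - 24 * Sc := rfl

theorem qS_gF :
    qS p (gF p F) = C (-(1 / (p : ℂ))) *
      (C (1 / 4 : ℂ) * (Up p (qExpansion 1 F) - EpSeries p (NeZero.ne p) Sc)) := by
  rw [gF, qS_smul, qS_sub, qS_F, qS_Ep]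
  simp only [one_div]
  ring

theorem qS_Ep' : qS p (Ep p) = C (-(1 / (p : ℂ))) * EpSeries p (NeZero.ne p) Sc := by
  rw [qS_Ep, one_div]

theorem qS_G4 :
    qS p (G4 p F) = G4two
      (C (-(1 / (p : ℂ))) *
        (C (1 / 4 : ℂ) * (Up p (qExpansion 1 F) - EpSeries p (NeZero.ne p) Sc)))
      (C (-(1 / (p : ℂ))) * EpSeries p (NeZero.ne p) Sc) := by
  rw [G4, qS_mcast, qS_add, qS_mul, qS_mul, qS_gF, qS_Ep', G4two]
  ring

theorem qS_dG4 :
    qS p (dG4 p F) = serre4 (1 / (p : ℂ)) (1 / 3) (qS p (G4 p F))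
      (expand p (NeZero.ne p) (1 - 24 * Sc)) := by
  rw [dG4, qS_mcast, qS_serreLevel, serre4, E2q_eq, one_div]
  have : C (((4 : ℤ) : ℂ) * 12⁻¹) = C (1 / 3 : ℂ) := by congr 1; norm_num
  rw [this]
  ring

theorem qS_ddG4 :
    (2 : ℂ⟦X⟧) * qS p (ddG4 p F) =
      2 * (C (1 / (p : ℂ)) * SerreCoreOps.theta (qS p (dG4 p F))) -
        expand p (NeZero.ne p) (1 - 24 * Sc) * qS p (dG4 p F) := by
  rw [ddG4, qS_mcast, qS_serreLevel, E2q_eq, one_div]
  have : C (((6 : ℤ) : ℂ) * 12⁻¹) = C (1 / 2 : ℂ) := by congr 1; norm_num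
  rw [this]
  have h2 : (2 : ℂ⟦X⟧) * C (1 / 2 : ℂ) = 1 := by
    rw [← map_ofNat (C (R := ℂ)) 2, ← map_mul]
    norm_num
  linear_combination
    (-(expand p (NeZero.ne p) (1 - 24 * Sc)) * qS p (dG4 p F)) * h2

theorem qS_F8 :
    qS p (F8 p F) =
      F8two (1 / (p : ℂ)) (1 / 3) (qS p (G4 p F)) (expand p (NeZero.ne p) (1 - 24 * Sc))
        (expand p (NeZero.ne p) (1 + 240 * S3c))
        (C (-(1 / (p : ℂ))) * EpSeries p (NeZero.ne p) Sc) := by
  rw [F8, qS_sub, qS_sub, qS_smul, qS_smul, qS_smul, qS_mcast, qS_mcast, qS_mul, qS_mul, qS_Ep',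
    qS_E4p, F8two, ← qS_dG4]
  have h2 : C (2 : ℂ) = (2 : ℂ⟦X⟧) := map_ofNat _ 2
  have h49 : C (4 / 9 : ℂ) = 4 * C (1 / 3 : ℂ) ^ 2 := by
    rw [← map_pow, ← map_ofNat (C (R := ℂ)) 4, ← map_mul]
    congr 1; norm_num
  rw [h2, h49]
  linear_combination qS_ddG4 p F

theorem qS_H8 :
    qS p (H8 p F) = H8zero2 p (NeZero.ne p) Sc S3c (qExpansion 1 F) := by
  rw [H8zero2, H8two, ← qS_G4, ← qS_F8, H8, qS_add, qS_mcast, qS_mul, qS_smul, qS_E4p]

end Main

/-- **The expansion of `H₈ ∣ S` at the other cusp** (`ℓ = 2`): literally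
`G2Asm.CuspZeroStatement`. -/
theorem cuspZeroStatement : CuspZeroStatement := by
  intro p _ F
  exact qS_H8 p F

/-- **`Upper2bStatement`** of `Interfaces2` (`ℓ = 2`, `p ≡ 3 mod 4`: no `F ≡ 1 mod 8`). -/
theorem upper2b : Interfaces.Upper2bStatement := upper2b_of cuspZeroStatement

end Fermat.Agent.S16.CuspZeroTwo
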