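/-
S16, block (A)/(P1): the `a₁`-duality between the Hecke algebra `T = heckeLatticeAlgebra p ∅` and
the lattice `L = intLattice p 2` (owner: helper61).

Main exports: `exists_heckePoly`, `pairing_injective`, `pairingT_injective`, `pairing_surjective`
(the pairing `L → Hom(T, ℤ)`, `f ↦ (t ↦ a₁(t f))`, is bijective).  The statement
`Interfaces.DualityStatement` is deduced in `DualityP1.lean`.
-/
import Mathlib
import Fermat.Prelude.Def_CuspForm_HeckeLocal
import Fermat.Prelude.Def_CuspForm_HeckeEvalForms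
import Fermat.Prelude.Def_HeckeGalois_EichlerShimura
import Fermat.Prelude.Thm_ModularFormClass_qCoeff_heckeT
import Fermat.Prelude.Thm_ModularFormClass_qCoeff_heckeU
import Fermat.Prelude.Thm_CongruenceSubgroup_one_mem_strictPeriods_Gamma0
import Fermat.Prelude.Sol.S_CuspForm_intLattice_fg

set_option autoImplicit false
set_option linter.unusedSectionVars false

open ModularCurve CuspForm CongruenceSubgroup ModularFormClass

namespace Fermat.Agent.S16.Duality

noncomputable section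

/-! ### The divisor sum `σ'(n) = ∑_{d ∣ n, p ∤ d} d` -/

/-- Sum of the divisors of `n` that are prime to `p`. -/
def sigmaP (p n : ℕ) : ℕ := ∑ d ∈ n.divisors, if p ∣ d then 0 else d

theorem sigmaP_one (p : ℕ) (hp : p ≠ 1) : sigmaP p 1 = 1 := by
  simp [sigmaP, Nat.dvd_one, hp]

/-- Splitting the divisors of `l * m` for a prime `l`. -/
theorem sum_divisors_prime_mul {M : Type*} [AddCommGroup M] {l : ℕ} (hl : l.Prime) {m : ℕ}
    (hm : m ≠ 0) (g : ℕ → M) :
    ∑ d ∈ (l * m).divisors, g d =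
      ∑ d ∈ m.divisors, g d + ∑ d ∈ m.divisors, g (l * d) -
        if l ∣ m then ∑ d ∈ (m / l).divisors, g (l * d) else 0 := by
  classical
  have hA : (l * m).divisors = m.divisors ∪ (m.divisors.image (l * ·)) := by
    ext d
    simp only [Nat.mem_divisors, Finset.mem_union, Finset.mem_image, ne_eq, mul_eq_zero,
      hl.ne_zero, hm, or_self, not_false_eq_true, and_true]
    constructor
    · intro hd
      by_cases hld : l ∣ d
      · obtain ⟨e, rfl⟩ := hld
        right
        exact ⟨e, (Nat.mul_dvd_mul_iff_left hl.pos).mp hd, rfl⟩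
      · left
        exact (Nat.Coprime.dvd_mul_left ((Nat.Prime.coprime_iff_not_dvd hl).mpr hld).symm).mp hd
    · rintro (hd | ⟨e, he, rfl⟩)
      · exact Dvd.dvd.mul_left hd l
      · exact Nat.mul_dvd_mul_left l he
  have hB : m.divisors ∩ (m.divisors.image (l * ·)) =
      if l ∣ m then (m / l).divisors.image (l * ·) else ∅ := by
    ext d
    split_ifs with hlm
    · simp only [Finset.mem_inter, Nat.mem_divisors, ne_eq, hm, not_false_eq_true, and_true,
        Finset.mem_image]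
      constructor
      · rintro ⟨hd, e, -, rfl⟩
        refine ⟨e, ⟨?_, ?_⟩, rfl⟩
        · obtain ⟨c, rfl⟩ := hlm
          rw [Nat.mul_div_cancel_left _ hl.pos]
          exact (Nat.mul_dvd_mul_iff_left hl.pos).mp hd
        · intro h0
          obtain ⟨c, rfl⟩ := hlm
          rw [Nat.mul_div_cancel_left _ hl.pos] at h0
          exact hm (by rw [h0, mul_zero])
      · rintro ⟨e, ⟨he, -⟩, rfl⟩
        obtain ⟨c, rfl⟩ := hlm
        rw [Nat.mul_div_cancel_left _ hl.pos] at he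
        exact ⟨Nat.mul_dvd_mul_left l he, e, (Dvd.dvd.mul_left he l), rfl⟩
    · simp only [Finset.mem_inter, Nat.mem_divisors, ne_eq, hm, not_false_eq_true, and_true,
        Finset.mem_image, Finset.notMem_empty, iff_false, not_and, not_exists]
      rintro hd e - rfl
      exact hlm (dvd_of_mul_right_dvd hd)
  have hinj : ∀ s : Finset ℕ, ∑ d ∈ s.image (l * ·), g d = ∑ d ∈ s, g (l * d) := by
    intro s
    rw [Finset.sum_image]
    intro a _ b _ hab
    exact Nat.eq_of_mul_eq_mul_left hl.pos hab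
  have := Finset.sum_union_inter (s₁ := m.divisors) (s₂ := m.divisors.image (l * ·)) (f := g)
  rw [← hA, hB, hinj] at this
  rw [eq_sub_iff_add_eq, ← this]
  congr 1
  split_ifs with hlm
  · rw [hinj]
  · rw [Finset.sum_empty]

theorem sigmaP_prime_mul {p l : ℕ} (hl : l.Prime) (hlp : l ≠ p) (hp : p.Prime) {m : ℕ}
    (hm : m ≠ 0) :
    (sigmaP p (l * m) : ℤ) =
      (1 + l) * sigmaP p m - if l ∣ m then (l : ℤ) * sigmaP p (m / l) else 0 := by
  have hpl : ∀ d : ℕ, p ∣ l * d ↔ p ∣ d := by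
    intro d
    rw [hp.dvd_mul]
    constructor
    · rintro (h | h)
      · exact absurd ((Nat.prime_dvd_prime_iff_eq hp hl).mp h).symm hlp
      · exact h
    · exact Or.inr
  have key : ∀ d : ℕ, ((if p ∣ l * d then 0 else (l * d : ℕ) : ℕ) : ℤ) =
      (l : ℤ) * ((if p ∣ d then 0 else d : ℕ) : ℤ) := by
    intro d
    by_cases hd : p ∣ d
    · rw [if_pos ((hpl d).mpr hd), if_pos hd]; simp
    · rw [if_neg (fun h => hd ((hpl d).mp h)), if_neg hd]; push_cast; ring
  have h := sum_divisors_prime_mul hl hm (fun d => ((if p ∣ d then 0 else d : ℕ) : ℤ))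
  simp only [sigmaP, Nat.cast_sum]
  rw [h]
  simp only [key, ← Finset.mul_sum]
  split_ifs <;> ring

theorem sigmaP_self_mul {p : ℕ} (hp : p.Prime) {m : ℕ} (hm : m ≠ 0) :
    sigmaP p (p * m) = sigmaP p m := by
  have key : ∀ d : ℕ, ((if p ∣ p * d then 0 else (p * d : ℕ) : ℕ) : ℤ) = 0 := by
    intro d
    simp
  have h := sum_divisors_prime_mul hp hm (fun d => ((if p ∣ d then 0 else d : ℕ) : ℤ))
  have : (sigmaP p (p * m) : ℤ) = sigmaP p m := by
    simp only [sigmaP, Nat.cast_sum]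
    rw [h]
    simp only [key, Finset.sum_const_zero]
    split_ifs <;> simp
  exact_mod_cast this

/-! ### A rank lemma -/

universe u v in
/-- A submodule of full rank has torsion quotient. -/
theorem exists_smul_mem_of_finrank_eq {A : Type u} {M : Type v} [CommRing A] [IsDomain A]
    [AddCommGroup M] [Module A M] [Module.Finite A M] [HasRankNullity.{v, u} A]
    (R : Submodule A M) (h : Module.finrank A R = Module.finrank A M) (x : M) :
    ∃ a : A, a ≠ 0 ∧ a • x ∈ R := by
  have h6 : Module.finrank A (M ⧸ R) = 0 := by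
    have := Submodule.finrank_quotient_add_finrank R
    omega
  have h7 : Module.IsTorsion A (M ⧸ R) := Module.finrank_eq_zero_iff_isTorsion.mp h6
  obtain ⟨a, ha⟩ := @h7 (Submodule.Quotient.mk x)
  refine ⟨(a : A), nonZeroDivisors.coe_ne_zero a, ?_⟩
  rw [← Submodule.Quotient.mk_eq_zero, Submodule.Quotient.mk_smul]
  exact ha

/-! ### Integral `q`-coefficients on the lattice -/

section Lattice

variable (N : ℕ)

theorem hΓ : (1 : ℝ) ∈ (Subgroup.map (Matrix.SpecialLinearGroup.mapGL ℝ) (Gamma0 N)).strictPeriods :=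
  CongruenceSubgroup.one_mem_strictPeriods_Gamma0 N

theorem exists_coeff (f : ↥(intLattice N 2)) (n : ℕ) : ∃ m : ℤ, qCoeff ⇑(f : CuspForm (Gamma0 N) 2) n = (m : ℂ) :=
  (P2MW.S_CuspForm_intLattice_fg.W3WsD.mem_intLattice_iff (f : CuspForm (Gamma0 N) 2)).mp f.2 n

/-- The `n`-th `q`-coefficient of an element of the lattice, as an integer. -/
def coeff (f : ↥(intLattice N 2)) (n : ℕ) : ℤ := Classical.choose (exists_coeff N f n)

theorem coeff_spec (f : ↥(intLattice N 2)) (n : ℕ) :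
    ((coeff N f n : ℤ) : ℂ) = qCoeff ⇑(f : CuspForm (Gamma0 N) 2) n :=
  (Classical.choose_spec (exists_coeff N f n)).symm

theorem coeff_add (f g : ↥(intLattice N 2)) (n : ℕ) : coeff N (f + g) n = coeff N f n + coeff N g n := by
  have : ((coeff N (f + g) n : ℤ) : ℂ) = ((coeff N f n + coeff N g n : ℤ) : ℂ) := by
    rw [Int.cast_add, coeff_spec, coeff_spec, coeff_spec, Submodule.coe_add,
      P2MW.S_CuspForm_intLattice_fg.W3WsD.qCoeff_add]
  exact_mod_cast this

theorem coeff_zsmul (c : ℤ) (f : ↥(intLattice N 2)) (n : ℕ) : coeff N (c • f) n = c * coeff N f n := by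
  have : ((coeff N (c • f) n : ℤ) : ℂ) = ((c * coeff N f n : ℤ) : ℂ) := by
    rw [Int.cast_mul, coeff_spec, coeff_spec, Submodule.coe_smul,
      P2MW.S_CuspForm_intLattice_fg.W3WsD.qCoeff_zsmul]
  exact_mod_cast this

/-- The `n`-th coefficient as a `ℤ`-linear form on the lattice. -/
def coeffHom (n : ℕ) : ↥(intLattice N 2) →ₗ[ℤ] ℤ where
  toFun f := coeff N f n
  map_add' f g := coeff_add N f g n
  map_smul' c f := by simp [coeff_zsmul]

@[simp] theorem coeffHom_apply (n : ℕ) (f : ↥(intLattice N 2)) : coeffHom N n f = coeff N f n := rfl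

variable [NeZero N]

theorem coeff_zero_index (f : ↥(intLattice N 2)) : coeff N f 0 = 0 := by
  have : ((coeff N f 0 : ℤ) : ℂ) = ((0 : ℤ) : ℂ) := by
    rw [coeff_spec, Int.cast_zero]
    exact CuspFormClass.qExpansion_coeff_zero (f : CuspForm (Gamma0 N) 2) one_pos (hΓ N)
  exact_mod_cast this

theorem eq_zero_of_coeff (f : ↥(intLattice N 2)) (h : ∀ n, coeff N f n = 0) : f = 0 := by
  apply Subtype.ext
  apply P2MW.S_CuspForm_intLattice_fg.W3WsD.trunc_injective N 2
  rw [Submodule.coe_zero, map_zero]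
  funext i
  show qCoeff ⇑(f : CuspForm (Gamma0 N) 2) i = 0
  rw [← coeff_spec, h, Int.cast_zero]

theorem ext_coeff {f g : ↥(intLattice N 2)} (h : ∀ n, coeff N f n = coeff N g n) : f = g := by
  rw [← sub_eq_zero]
  apply eq_zero_of_coeff
  intro n
  have := (coeffHom N n).map_sub f g
  simp only [coeffHom_apply] at this
  rw [this, h, sub_self]

/-- The lattice is saturated: a form all of whose coefficients are divisible by `k` is `k` times
an element of the lattice. -/
theorem exists_eq_zsmul_of_dvd_coeff (k : ℤ) (hk : k ≠ 0) (f : ↥(intLattice N 2)) (h : ∀ n, k ∣ coeff N f n) :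
    ∃ g : ↥(intLattice N 2), f = k • g := by
  have hkC : (k : ℂ) ≠ 0 := Int.cast_ne_zero.mpr hk
  set g0 : CuspForm (Gamma0 N) 2 := ((k : ℂ)⁻¹) • (f : CuspForm (Gamma0 N) 2) with hg0
  have hco : ∀ n, qCoeff ⇑g0 n = (k : ℂ)⁻¹ * qCoeff ⇑(f : CuspForm (Gamma0 N) 2) n := by
    intro n
    have h1 : ⇑g0 = (k : ℂ)⁻¹ • ⇑(f : CuspForm (Gamma0 N) 2) := by
      ext z
      simp [hg0]
    simp only [qCoeff, h1]
    rw [ModularForm.qExpansion_smul one_pos (hΓ N) _ (f : CuspForm (Gamma0 N) 2)]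
    simp
  have hg0mem : g0 ∈ intLattice N 2 := by
    rw [P2MW.S_CuspForm_intLattice_fg.W3WsD.mem_intLattice_iff]
    intro n
    obtain ⟨c, hc⟩ := h n
    refine ⟨c, ?_⟩
    rw [hco, ← coeff_spec, hc, Int.cast_mul]
    field_simp
  refine ⟨⟨g0, hg0mem⟩, Subtype.ext ?_⟩
  rw [Submodule.coe_smul]
  show (f : CuspForm (Gamma0 N) 2) = k • g0
  rw [hg0, ← Int.cast_smul_eq_zsmul ℂ, smul_smul, mul_inv_cancel₀ hkC, one_smul]

end Lattice

/-! ### The Hecke algebra acting on the lattice -/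

section Hecke

variable (p : ℕ) [Fact p.Prime]

/-- `p` as an element of `Nat.Primes`. -/
def primeP : Nat.Primes := ⟨p, Fact.out⟩

@[simp] theorem coe_primeP : ((primeP p : Nat.Primes) : ℕ) = p := rfl

/-- The ring homomorphism of the frozen statement S16: `ℤ[X_ℓ] → T`. -/
def rho : HeckeAlg →+* ↥(heckeLatticeAlgebra p ∅) :=
  (latticeRestrictHom p ∅).toRingHom.comp (heckeEvalForms p 2)

/-- The Eisenstein character `ℤ[X_ℓ] → ℤ`, `X_ℓ ↦ 1 + ℓ` (`ℓ ≠ p`), `X_p ↦ 1`. -/
def eps : HeckeAlg →ₐ[ℤ] ℤ := MvPolynomial.aeval (eisensteinSystem p)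

theorem mem_eisensteinIdeal_iff (P : HeckeAlg) : P ∈ eisensteinIdeal p ↔ eps p P = 0 :=
  mem_eigenIdeal_iff _ _

/-- The ideal of the frozen statement S16. -/
def eisIdeal : Ideal ↥(heckeLatticeAlgebra p ∅) :=
  Ideal.map ((latticeRestrictHom p ∅).toRingHom.comp (heckeEvalForms p 2)) (eisensteinIdeal p)

theorem eisIdeal_eq : eisIdeal p = Ideal.map (rho p) (eisensteinIdeal p) := rfl

/-- Action of (the image in `T` of) an element of the Hecke algebra on a lattice element. -/
theorem coe_latticeRestrictHom_apply (t : ↥(heckeAlgebra p 2 ∅)) (f : ↥(intLattice p 2)) :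
    (((latticeRestrictHom p ∅ t : ↥(heckeLatticeAlgebra p ∅)) : Module.End ℤ ↥(intLattice p 2)) f :
      CuspForm (Gamma0 p) 2) =
      (t : Module.End ℂ (CuspForm (Gamma0 p) 2)) (f : CuspForm (Gamma0 p) 2) := rfl

theorem rho_apply (P : HeckeAlg) (f : ↥(intLattice p 2)) :
    (((rho p P : ↥(heckeLatticeAlgebra p ∅)) : Module.End ℤ ↥(intLattice p 2)) f :
      CuspForm (Gamma0 p) 2) =
      ((heckeEvalForms p 2 P : ↥(heckeAlgebra p 2 ∅)) : Module.End ℂ (CuspForm (Gamma0 p) 2))
        (f : CuspForm (Gamma0 p) 2) := rfl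

theorem rho_mul_apply (P Q : HeckeAlg) (f : ↥(intLattice p 2)) :
    ((rho p (P * Q) : ↥(heckeLatticeAlgebra p ∅)) : Module.End ℤ ↥(intLattice p 2)) f =
      ((rho p P : ↥(heckeLatticeAlgebra p ∅)) : Module.End ℤ ↥(intLattice p 2))
        (((rho p Q : ↥(heckeLatticeAlgebra p ∅)) : Module.End ℤ ↥(intLattice p 2)) f) := by
  rw [map_mul]
  rfl

theorem rho_one_apply (f : ↥(intLattice p 2)) :
    ((rho p 1 : ↥(heckeLatticeAlgebra p ∅)) : Module.End ℤ ↥(intLattice p 2)) f = f := by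
  rw [map_one]
  rfl

theorem rho_C_apply (c : ℤ) (f : ↥(intLattice p 2)) :
    ((rho p (MvPolynomial.C c) : ↥(heckeLatticeAlgebra p ∅)) : Module.End ℤ ↥(intLattice p 2)) f =
      c • f := by
  have h1 : (MvPolynomial.C c : HeckeAlg) = (c : HeckeAlg) := eq_intCast MvPolynomial.C c
  rw [h1, map_intCast, SubringClass.coe_intCast, Module.End.intCast_apply]

theorem qCoeff_heckeTLin' {N : ℕ} {ℓ : ℕ} (hℓ : ℓ.Prime) (hℓN : ¬ ℓ ∣ N)
    (f : CuspForm (Gamma0 N) 2) (n : ℕ) :
    qCoeff ⇑(CuspForm.heckeTLin 2 hℓ hℓN f) n =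
      qCoeff ⇑f (n * ℓ) + if ℓ ∣ n then (ℓ : ℂ) * qCoeff ⇑f (n / ℓ) else 0 := by
  rw [CuspForm.coe_heckeTLin_apply, ModularFormClass.qCoeff_heckeT f (hΓ N) hℓ.ne_zero,
    ModularForm.coeffHeckeT_apply]
  norm_num

theorem qCoeff_heckeULin' {N : ℕ} [NeZero N] {q : ℕ} (hq : q.Prime) (hqN : q ∣ N)
    (f : CuspForm (Gamma0 N) 2) (n : ℕ) :
    qCoeff ⇑(CuspForm.heckeULin 2 hqN f) n = qCoeff ⇑f (n * q) := by
  rw [CuspForm.coe_heckeULin_apply, ModularFormClass.qCoeff_heckeU f (hΓ N) hq.ne_zero]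
  rfl

/-- `a_n(T_ℓ f) = a_{nℓ}(f) + ℓ a_{n/ℓ}(f)` for `ℓ ≠ p`. -/
theorem coeff_rho_heckeGen_of_ne (l : Nat.Primes) (hl : (l : ℕ) ≠ p) (f : ↥(intLattice p 2))
    (n : ℕ) :
    coeff p (((rho p (heckeGen l) : ↥(heckeLatticeAlgebra p ∅)) :
      Module.End ℤ ↥(intLattice p 2)) f) n =
      coeff p f (n * l) + if (l : ℕ) ∣ n then (l : ℤ) * coeff p f (n / l) else 0 := by
  have hlp : ¬ (l : ℕ) ∣ p := fun h =>
    hl ((Nat.prime_dvd_prime_iff_eq l.2 (Fact.out : p.Prime)).mp h)
  have : ((coeff p (((rho p (heckeGen l) : ↥(heckeLatticeAlgebra p ∅)) :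
      Module.End ℤ ↥(intLattice p 2)) f) n : ℤ) : ℂ) =
      ((coeff p f (n * l) + if (l : ℕ) ∣ n then (l : ℤ) * coeff p f (n / l) else 0 : ℤ) : ℂ) := by
    rw [coeff_spec, rho_apply, heckeEvalForms_heckeGen_of_not_dvd hlp, heckeAlgebra.coe_T,
      qCoeff_heckeTLin', Int.cast_add, coeff_spec]
    split_ifs
    · rw [Int.cast_mul, coeff_spec]; simp
    · simp
  exact_mod_cast this

/-- `a_n(U_p f) = a_{np}(f)`. -/
theorem coeff_rho_heckeGen_self (f : ↥(intLattice p 2)) (n : ℕ) :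
    coeff p (((rho p (heckeGen (primeP p)) : ↥(heckeLatticeAlgebra p ∅)) :
      Module.End ℤ ↥(intLattice p 2)) f) n = coeff p f (n * p) := by
  have hpp : ((primeP p : Nat.Primes) : ℕ) ∣ p := dvd_refl p
  have : ((coeff p (((rho p (heckeGen (primeP p)) : ↥(heckeLatticeAlgebra p ∅)) :
      Module.End ℤ ↥(intLattice p 2)) f) n : ℤ) : ℂ) = ((coeff p f (n * p) : ℤ) : ℂ) := by
    rw [coeff_spec, rho_apply, heckeEvalForms_heckeGen_of_dvd hpp, heckeAlgebra.coe_U, coeff_spec]
    exact qCoeff_heckeULin' (N := p) (primeP p).2 hpp (f : CuspForm (Gamma0 p) 2) n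
  exact_mod_cast this

theorem eps_heckeGen_of_ne (l : Nat.Primes) (hl : (l : ℕ) ≠ p) :
    eps p (heckeGen l) = 1 + (l : ℕ) := by
  have hlp : ¬ (l : ℕ) ∣ p := fun h =>
    hl ((Nat.prime_dvd_prime_iff_eq l.2 (Fact.out : p.Prime)).mp h)
  rw [eps, aeval_heckeGen, eisensteinSystem_of_not_dvd hlp]

theorem eps_heckeGen_self : eps p (heckeGen (primeP p)) = 1 := by
  rw [eps, aeval_heckeGen, eisensteinSystem_of_dvd (show ((primeP p : Nat.Primes) : ℕ) ∣ p from dvd_refl p)]

theorem heckeEvalForms_surjective : Function.Surjective (heckeEvalForms p 2) := by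
  rintro ⟨x, hx⟩
  suffices h : ∃ P : HeckeAlg,
      ((heckeEvalForms p 2 P : ↥(heckeAlgebra p 2 ∅)) :
        Module.End ℂ (CuspForm (Gamma0 p) 2)) = x by
    obtain ⟨P, hP⟩ := h
    exact ⟨P, Subtype.ext hP⟩
  induction hx using Algebra.adjoin_induction with
  | mem y hy =>
    rcases hy with ⟨ℓ, hℓ, hℓN, -, rfl⟩ | ⟨q, hqN, hq, -, rfl⟩
    · refine ⟨heckeGen ⟨ℓ, hℓ⟩, ?_⟩
      rw [heckeEvalForms_heckeGen_of_not_dvd (ℓ := ⟨ℓ, hℓ⟩) hℓN, heckeAlgebra.coe_T]
    · refine ⟨heckeGen ⟨q, hq⟩, ?_⟩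
      rw [heckeEvalForms_heckeGen_of_dvd (q := ⟨q, hq⟩) hqN, heckeAlgebra.coe_U]
  | algebraMap r =>
    refine ⟨MvPolynomial.C r, ?_⟩
    rw [heckeEvalForms_C]
    rfl
  | add x y _ _ hx hy =>
    obtain ⟨P, rfl⟩ := hx
    obtain ⟨Q, rfl⟩ := hy
    exact ⟨P + Q, by rw [map_add]; rfl⟩
  | mul x y _ _ hx hy =>
    obtain ⟨P, rfl⟩ := hx
    obtain ⟨Q, rfl⟩ := hy
    exact ⟨P * Q, by rw [map_mul]; rfl⟩

theorem rho_surjective : Function.Surjective (rho p) := by
  intro t
  obtain ⟨s, rfl⟩ := latticeRestrictHom_surjective p ∅ t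
  obtain ⟨P, rfl⟩ := heckeEvalForms_surjective p s
  exact ⟨P, rfl⟩

/-- The Hecke polynomials: for `n ≥ 1` there is `P_n ∈ ℤ[X_ℓ]` with `a_1(P_n f) = a_n(f)` for all
`f` in the lattice, and `ε(P_n) = σ'(n)`. -/
theorem exists_heckePoly (n : ℕ) (hn : 1 ≤ n) :
    ∃ P : HeckeAlg,
      (∀ f : ↥(intLattice p 2),
        coeff p (((rho p P : ↥(heckeLatticeAlgebra p ∅)) : Module.End ℤ ↥(intLattice p 2)) f) 1 =
          coeff p f n) ∧
      eps p P = sigmaP p n := by
  have hp : p.Prime := Fact.out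
  induction n using Nat.strong_induction_on with
  | _ n ih =>
    rcases Nat.lt_or_ge 1 n with hn1 | hn1
    swap
    · obtain rfl : n = 1 := le_antisymm hn1 hn
      refine ⟨1, fun f => by rw [rho_one_apply], ?_⟩
      rw [map_one, sigmaP_one p hp.ne_one, Nat.cast_one]
    · set l := n.minFac with hl
      have hlprime : l.Prime := Nat.minFac_prime (by omega)
      obtain ⟨m, hm⟩ : l ∣ n := Nat.minFac_dvd n
      have hm0 : m ≠ 0 := by
        rintro rfl
        omega
      have hm1 : 1 ≤ m := Nat.one_le_iff_ne_zero.mpr hm0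
      have hmn : m < n := by
        rw [hm]
        exact lt_mul_of_one_lt_left (Nat.pos_of_ne_zero hm0) hlprime.one_lt
      obtain ⟨Pm, hPm, hePm⟩ := ih m hmn hm1
      by_cases hlp : l = p
      · -- `l = p`: `P_n = P_m * X_p`
        refine ⟨Pm * heckeGen (primeP p), fun f => ?_, ?_⟩
        · rw [rho_mul_apply, hPm, coeff_rho_heckeGen_self, hm, hlp, mul_comm]
        · rw [map_mul, hePm, eps_heckeGen_self, mul_one, hm, hlp, sigmaP_self_mul hp hm0]
      · by_cases hlm : l ∣ m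
        · -- `l ≠ p`, `l ∣ m`: `P_n = P_m * X_l - l * P_{m/l}`
          have hml0 : m / l ≠ 0 := by
            obtain ⟨c, rfl⟩ := hlm
            rw [Nat.mul_div_cancel_left _ hlprime.pos]
            rintro rfl
            exact hm0 (mul_zero l)
          have hml1 : 1 ≤ m / l := Nat.one_le_iff_ne_zero.mpr hml0
          have hmln : m / l < n := lt_of_le_of_lt (Nat.div_le_self m l) hmn
          obtain ⟨Pml, hPml, hePml⟩ := ih (m / l) hmln hml1
          refine ⟨Pm * heckeGen ⟨l, hlprime⟩ - MvPolynomial.C (l : ℤ) * Pml, fun f => ?_, ?_⟩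
          · have hsub : ((rho p (Pm * heckeGen ⟨l, hlprime⟩ - MvPolynomial.C (l : ℤ) * Pml) :
                ↥(heckeLatticeAlgebra p ∅)) : Module.End ℤ ↥(intLattice p 2)) f =
                ((rho p (Pm * heckeGen ⟨l, hlprime⟩) : ↥(heckeLatticeAlgebra p ∅)) :
                  Module.End ℤ ↥(intLattice p 2)) f -
                ((rho p (MvPolynomial.C (l : ℤ) * Pml) : ↥(heckeLatticeAlgebra p ∅)) :
                  Module.End ℤ ↥(intLattice p 2)) f := by
              rw [map_sub]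
              rfl
            rw [hsub]
            have h1 := (coeffHom p 1).map_sub
              (((rho p (Pm * heckeGen ⟨l, hlprime⟩) : ↥(heckeLatticeAlgebra p ∅)) :
                  Module.End ℤ ↥(intLattice p 2)) f)
              (((rho p (MvPolynomial.C (l : ℤ) * Pml) : ↥(heckeLatticeAlgebra p ∅)) :
                  Module.End ℤ ↥(intLattice p 2)) f)
            simp only [coeffHom_apply] at h1
            rw [h1, rho_mul_apply, hPm, coeff_rho_heckeGen_of_ne p ⟨l, hlprime⟩ hlp, rho_mul_apply,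
              rho_C_apply, coeff_zsmul, hPml]
            simp only [if_pos hlm]
            rw [hm, mul_comm m l]
            ring
          · rw [map_sub, map_mul, map_mul, hePm, hePml, eps_heckeGen_of_ne p ⟨l, hlprime⟩ hlp, hm,
              sigmaP_prime_mul hlprime hlp hp hm0, if_pos hlm]
            simp only [eps, MvPolynomial.aeval_C]
            simp
            ring
        · -- `l ≠ p`, `l ∤ m`: `P_n = P_m * X_l`
          refine ⟨Pm * heckeGen ⟨l, hlprime⟩, fun f => ?_, ?_⟩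
          · rw [rho_mul_apply, hPm, coeff_rho_heckeGen_of_ne p ⟨l, hlprime⟩ hlp]
            simp only [if_neg hlm, add_zero]
            rw [hm, mul_comm m l]
          · rw [map_mul, hePm, eps_heckeGen_of_ne p ⟨l, hlprime⟩ hlp, hm,
              sigmaP_prime_mul hlprime hlp hp hm0, if_neg hlm]
            ring

/-! ### The `a₁`-pairing -/

theorem act_comm (s t : ↥(heckeLatticeAlgebra p ∅)) (f : ↥(intLattice p 2)) :
    (s : Module.End ℤ ↥(intLattice p 2)) ((t : Module.End ℤ ↥(intLattice p 2)) f) =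
      (t : Module.End ℤ ↥(intLattice p 2)) ((s : Module.End ℤ ↥(intLattice p 2)) f) := by
  have h : ((s * t : ↥(heckeLatticeAlgebra p ∅)) : Module.End ℤ ↥(intLattice p 2)) =
      ((t * s : ↥(heckeLatticeAlgebra p ∅)) : Module.End ℤ ↥(intLattice p 2)) := by
    rw [mul_comm]
  rw [Subalgebra.coe_mul, Subalgebra.coe_mul] at h
  exact LinearMap.congr_fun h f

theorem act_mul (s t : ↥(heckeLatticeAlgebra p ∅)) (f : ↥(intLattice p 2)) :
    ((s * t : ↥(heckeLatticeAlgebra p ∅)) : Module.End ℤ ↥(intLattice p 2)) f =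
      (s : Module.End ℤ ↥(intLattice p 2)) ((t : Module.End ℤ ↥(intLattice p 2)) f) := rfl

/-- The pairing `L × T → ℤ`, `(f, t) ↦ a₁(t f)`, as a linear map `L → Hom(T, ℤ)`. -/
def pairing : ↥(intLattice p 2) →ₗ[ℤ] (↥(heckeLatticeAlgebra p ∅) →ₗ[ℤ] ℤ) where
  toFun f :=
    { toFun := fun t => coeff p ((t : Module.End ℤ ↥(intLattice p 2)) f) 1
      map_add' := fun s t => by
        rw [Subalgebra.coe_add, LinearMap.add_apply, coeff_add]
      map_smul' := fun c t => by
        rw [Subalgebra.coe_smul, LinearMap.smul_apply, coeff_zsmul]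
        rfl }
  map_add' f g := by
    ext t
    simp only [LinearMap.coe_mk, AddHom.coe_mk, LinearMap.add_apply, map_add, coeff_add]
  map_smul' c f := by
    ext t
    simp only [LinearMap.coe_mk, AddHom.coe_mk, LinearMap.smul_apply, map_smul, coeff_zsmul,
      RingHom.id_apply, smul_eq_mul]

@[simp] theorem pairing_apply (f : ↥(intLattice p 2)) (t : ↥(heckeLatticeAlgebra p ∅)) :
    pairing p f t = coeff p ((t : Module.End ℤ ↥(intLattice p 2)) f) 1 := rfl

/-- `a_n(f)` is the pairing of `f` with the `n`-th Hecke element. -/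
theorem exists_heckeElt (n : ℕ) (hn : 1 ≤ n) :
    ∃ t : ↥(heckeLatticeAlgebra p ∅), (∀ f : ↥(intLattice p 2), pairing p f t = coeff p f n) ∧
      ∃ P : HeckeAlg, rho p P = t ∧ eps p P = sigmaP p n := by
  obtain ⟨P, hP, heP⟩ := exists_heckePoly p n hn
  exact ⟨rho p P, hP, P, rfl, heP⟩

theorem coeff_eq_zero_of_pairing (f : ↥(intLattice p 2))
    (h : ∀ t : ↥(heckeLatticeAlgebra p ∅), pairing p f t = 0) (n : ℕ) : coeff p f n = 0 := by
  rcases Nat.eq_zero_or_pos n with rfl | hn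
  · exact coeff_zero_index p f
  · obtain ⟨t, ht, -⟩ := exists_heckeElt p n hn
    rw [← ht f, h]

theorem pairing_injective : Function.Injective (pairing p) := by
  rw [← LinearMap.ker_eq_bot, LinearMap.ker_eq_bot']
  intro f hf
  apply eq_zero_of_coeff
  intro n
  apply coeff_eq_zero_of_pairing
  intro t
  rw [hf]
  rfl

/-- The transposed pairing `T → Hom(L, ℤ)`. -/
def pairingT : ↥(heckeLatticeAlgebra p ∅) →ₗ[ℤ] (↥(intLattice p 2) →ₗ[ℤ] ℤ) :=
  (pairing p).flip

theorem pairingT_injective : Function.Injective (pairingT p) := by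
  rw [← LinearMap.ker_eq_bot, LinearMap.ker_eq_bot']
  intro t ht
  apply Subtype.ext
  rw [ZeroMemClass.coe_zero]
  apply LinearMap.ext
  intro f
  rw [LinearMap.zero_apply]
  apply eq_zero_of_coeff
  intro n
  rcases Nat.eq_zero_or_pos n with rfl | hn
  · exact coeff_zero_index p _
  · obtain ⟨s, hs, -⟩ := exists_heckeElt p n hn
    rw [← hs, pairing_apply, act_comm]
    have := LinearMap.congr_fun ht ((s : Module.End ℤ ↥(intLattice p 2)) f)
    simpa [pairingT] using this

theorem finrank_range_pairing : Module.finrank ℤ ↥(LinearMap.range (pairing p)) =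
      Module.finrank ℤ (↥(heckeLatticeAlgebra p ∅) →ₗ[ℤ] ℤ) := by
  have := intLattice.moduleFinite p
  have := intLattice.moduleFree p
  have h1 : Module.finrank ℤ ↥(intLattice p 2) ≤
      Module.finrank ℤ (↥(heckeLatticeAlgebra p ∅) →ₗ[ℤ] ℤ) :=
    LinearMap.finrank_le_finrank_of_injective (pairing_injective p)
  have h2 : Module.finrank ℤ ↥(heckeLatticeAlgebra p ∅) ≤
      Module.finrank ℤ (↥(intLattice p 2) →ₗ[ℤ] ℤ) :=
    LinearMap.finrank_le_finrank_of_injective (pairingT_injective p)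
  have h3 : Module.finrank ℤ (↥(heckeLatticeAlgebra p ∅) →ₗ[ℤ] ℤ) =
      Module.finrank ℤ ↥(heckeLatticeAlgebra p ∅) := by
    rw [Module.finrank_linearMap, Module.finrank_self, mul_one]
  have h4 : Module.finrank ℤ (↥(intLattice p 2) →ₗ[ℤ] ℤ) = Module.finrank ℤ ↥(intLattice p 2) := by
    rw [Module.finrank_linearMap, Module.finrank_self, mul_one]
  rw [LinearMap.finrank_range_of_inj (pairing_injective p)]
  omega

theorem exists_pairing_eq_smul (φ : ↥(heckeLatticeAlgebra p ∅) →ₗ[ℤ] ℤ) :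
    ∃ a : ℤ, a ≠ 0 ∧ ∃ f : ↥(intLattice p 2), ∀ t, pairing p f t = a * φ t := by
  obtain ⟨a, ha0, f, hf⟩ :=
    exists_smul_mem_of_finrank_eq (LinearMap.range (pairing p)) (finrank_range_pairing p) φ
  refine ⟨a, ha0, f, fun t => ?_⟩
  rw [hf]
  rfl

theorem pairing_surjective : Function.Surjective (pairing p) := by
  intro φ
  obtain ⟨a, ha0, f, hf⟩ := exists_pairing_eq_smul p φ
  have hdiv : ∀ n, a ∣ coeff p f n := by
    intro n
    rcases Nat.eq_zero_or_pos n with rfl | hn
    · rw [coeff_zero_index]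
      exact dvd_zero a
    · obtain ⟨t, ht, -⟩ := exists_heckeElt p n hn
      rw [← ht f, hf]
      exact ⟨φ t, rfl⟩
  obtain ⟨g, rfl⟩ := exists_eq_zsmul_of_dvd_coeff p a ha0 f hdiv
  refine ⟨g, ?_⟩
  apply LinearMap.ext
  intro t
  have h6 := hf t
  rw [pairing_apply, map_zsmul, coeff_zsmul] at h6
  rw [pairing_apply]
  exact mul_left_cancel₀ ha0 h6

end Hecke

end

end Fermat.Agent.S16.Duality
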