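import Fermat.Agent.S16.Duality
import Fermat.Agent.S16.Interfaces
import Fermat.Agent.S16.PerfectPairing

/-!
# S16, block (P1): the duality statement of `Interfaces.lean`

`dualityStatement : Interfaces.DualityStatement`, from the perfect `a₁`-pairing of `Duality.lean`
and the lifting lemma of `PerfectPairing.lean`.
-/

set_option autoImplicit false

open ModularCurve CuspForm CongruenceSubgroup

namespace Fermat.Agent.S16.DualityP1

open Fermat.Agent.S16.Duality Fermat.Agent.S16.Interfaces

theorem sigmaPrime_eq_sigmaP (p j : ℕ) : sigmaPrime p j = sigmaP p j := by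
  unfold sigmaPrime sigmaP
  rw [Finset.sum_filter]
  apply Finset.sum_congr rfl
  intro d _
  by_cases h : p ∣ d <;> simp [h]

theorem phi_eq_rho (p : ℕ) [Fact p.Prime] [NeZero p] : phi p = rho p := rfl

theorem ev_apply (p : ℕ) [Fact p.Prime] (P : HeckeAlg) : ev p P = eps p P := rfl

theorem dualityStatement : DualityStatement := by
  intro p _ _ k h
  have := intLattice.moduleFinite p
  have := intLattice.moduleFree p
  obtain ⟨μ, hμ⟩ := PerfectPairing.exists_lift (rho p).toAddMonoidHom (rho_surjective p)
    (eps p).toRingHom.toAddMonoidHom (k : ℤ) (fun P hP => h P hP)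
  obtain ⟨f, hf⟩ := pairing_surjective p μ
  refine ⟨(f : CuspForm (Gamma0 p) 2), ?_, ?_⟩
  · intro j
    exact ⟨coeff p f j, (coeff_spec p f j).symm⟩
  · intro j hj
    obtain ⟨t, ht, P, hPt, hPe⟩ := exists_heckeElt p j hj
    have h1 : coeff p f j = μ t := by rw [← ht f, hf]
    obtain ⟨c, hc⟩ := hμ P
    have h2 : eps p P - μ t = (k : ℤ) * c := by
      rw [← hPt]
      exact hc
    refine ⟨-c, ?_⟩
    rw [← coeff_spec, h1, sigmaPrime_eq_sigmaP]
    have h3 : μ t = (sigmaP p j : ℤ) + (k : ℤ) * (-c) := by
      rw [← hPe]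
      linarith
    rw [h3]
    push_cast
    ring

end Fermat.Agent.S16.DualityP1
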