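/-
S16 / block (B)(ii)+(iv) ("easy residual cases" of the upper bound), pure q-series algebra.

For a prime level `p` and `F ∈ M_2(Γ0(p))` one has (trace to level one, `M_4(SL2 Z) = ℂ E_4`,
`F|W = -U_p F`) the identity of q-expansions

  `F^2 + p⁻¹ U_p((U_p F)^2) = c • E_4`,   and   `U_p (U_p F) = F`.

This file derives from these identities alone (as hypotheses on formal power series over an
arbitrary commutative ring `R` in which `p` is invertible):

* `no_one_mod_three`: if `p ≡ 1 mod 3`, `3` is regular and not a unit in `R`, there is no such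
  `F` with `F = 1 + 3 G`;
* `no_one_mod_four`: if `p ≡ 1 mod 4`, `2` is regular and not a unit in `R`, there is no such
  `F` with `F = 1 + 4 G`.

Mathlib only.
-/
import Mathlib

set_option autoImplicit false

namespace Fermat.Agent.S16.Easy23

open PowerSeries

variable {R : Type*} [CommRing R]

/-- The formal `U_p` operator on power series: `a_n(U_p f) = a_{pn}(f)`. -/
noncomputable def Up (p : ℕ) (f : R⟦X⟧) : R⟦X⟧ := PowerSeries.mk fun n => coeff (p * n) f

@[simp] theorem coeff_Up (p n : ℕ) (f : R⟦X⟧) : coeff n (Up p f) = coeff (p * n) f := by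
  simp [Up]

theorem Up_add (p : ℕ) (f g : R⟦X⟧) : Up p (f + g) = Up p f + Up p g := by
  ext n; simp

theorem Up_C_mul (p : ℕ) (a : R) (f : R⟦X⟧) : Up p (C a * f) = C a * Up p f := by
  ext n; simp

theorem Up_C {p : ℕ} (hp : p ≠ 0) (a : R) : Up p (C a : R⟦X⟧) = C a := by
  ext n; simp [coeff_C, hp]

theorem Up_map {S : Type*} [CommRing S] (φ : R →+* S) (p : ℕ) (f : R⟦X⟧) :
    Up p (map φ f) = map φ (Up p f) := by
  ext n; simp

/-- Squares in characteristic two: `(∑ aₙ qⁿ)² = ∑ aₙ² q²ⁿ`. -/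
theorem coeff_sq_of_two_eq_zero {S : Type*} [CommRing S] (h2 : (2 : S) = 0) (f : S⟦X⟧) (n : ℕ) :
    coeff n (f ^ 2) = if 2 ∣ n then (coeff (n / 2) f) ^ 2 else 0 := by
  rcases subsingleton_or_nontrivial S with hS | hS
  · exact Subsingleton.elim _ _
  have : CharP S 2 := CharTwo.of_one_ne_zero_of_two_eq_zero one_ne_zero h2
  have : ExpChar S 2 := ExpChar.prime Nat.prime_two
  have h := MvPowerSeries.map_frobenius_expand (σ := Unit) (R := S) 2 two_ne_zero (f := f)
  have h' : f ^ 2 = map (frobenius S 2) (expand 2 two_ne_zero f) := h.symm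
  rw [h', coeff_map, coeff_expand]
  split_ifs <;> simp [frobenius_def]


theorem Up_one {p : ℕ} (hp : p ≠ 0) : Up p (1 : R⟦X⟧) = 1 := by
  have := Up_C (R := R) hp 1
  simpa using this

/-! ### The case `l = 3`, `p ≡ 1 mod 3` -/

section three

variable {p : ℕ} {s : ℕ → R} {E4 : R⟦X⟧}

/-- One application of the trace identity: `F = 1 + 3G`, `F' = 1 + 3G'`, `U_p G' = G`,
`p F² + U_p(F'²) = c E_4` force `a_n(G) ≡ s(n) mod 3` for `n ≥ 1`. -/
theorem three_step (hp0 : p ≠ 0) (K : R) (hP : (p : R) = 3 * K + 1)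
    (h3 : ∀ x : R, 3 * x = 0 → x = 0)
    (hE4 : ∀ n, coeff n E4 = if n = 0 then 1 else 240 * s n)
    {F F' G G' : R⟦X⟧} (hF : F = 1 + C 3 * G) (hF' : F' = 1 + C 3 * G')
    (hUG : Up p G' = G) (c : R)
    (htr : C (p : R) * F ^ 2 + Up p (F' ^ 2) = C c * E4) {n : ℕ} (hn : n ≠ 0) :
    ∃ r : R, coeff n G - s n = 3 * r := by
  have e : F ^ 2 = 1 + C 6 * G + C 9 * G ^ 2 := by
    rw [hF]; simp only [map_ofNat]; ring
  have e' : F' ^ 2 = 1 + C 6 * G' + C 9 * G' ^ 2 := by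
    rw [hF']; simp only [map_ofNat]; ring
  have eU : Up p (F' ^ 2) = 1 + C 6 * G + C 9 * Up p (G' ^ 2) := by
    rw [e', Up_add, Up_add, Up_C_mul, Up_C_mul, Up_one hp0, hUG]
  rw [e, eU] at htr
  have E0 := congrArg (coeff 0) htr
  have En := congrArg (coeff n) htr
  simp only [map_add, coeff_C_mul, coeff_one, hE4, if_true, if_neg hn] at E0 En
  set g0 := coeff 0 G
  set gn := coeff n G
  set A1 := coeff n (G ^ 2)
  set A2 := coeff n (Up p (G' ^ 2))
  set B1 := coeff 0 (G ^ 2)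
  set B2 := coeff 0 (Up p (G' ^ 2))
  set P : R := (p : R)
  refine ⟨(-2 * K * gn - (P * A1 + A2) + 80 * K * s n + 160 * (3 * K + 2) * g0 * s n
      + 240 * s n * (P * B1 + B2)) - gn + 53 * s n, ?_⟩
  apply sub_eq_zero.mp
  apply h3
  apply h3
  linear_combination (3 : R) * En - (720 * s n) * E0
    + (-18 * gn + 720 * s n + 4320 * s n * g0) * hP

/-- **`l = 3`, `p ≡ 1 mod 3`.**  There is no `F = 1 + 3G` with `U_p² F = F` satisfying the two
trace identities `p F² + U_p((U_p F)²) = c E_4` and `p (U_p F)² + U_p(F²) = c' E_4`.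
Here `s` plays the role of `σ₃` (only `s 1 = 1` and `s p = 1 + p³` are used). -/
theorem no_one_mod_three (K : ℕ) (hpK : p = 3 * K + 1)
    (h3 : ∀ x : R, 3 * x = 0 → x = 0) (h3u : ¬ IsUnit (3 : R))
    (hs1 : s 1 = 1) (hsp : s p = 1 + (p : R) ^ 3)
    (hE4 : ∀ n, coeff n E4 = if n = 0 then 1 else 240 * s n)
    {F G : R⟦X⟧} (hF : F = 1 + C 3 * G) (hUU : Up p (Up p F) = F) (c c' : R)
    (htr : C (p : R) * F ^ 2 + Up p ((Up p F) ^ 2) = C c * E4)
    (htr' : C (p : R) * (Up p F) ^ 2 + Up p (F ^ 2) = C c' * E4) : False := by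
  have hp0 : p ≠ 0 := by omega
  have hP : (p : R) = 3 * (K : R) + 1 := by rw [hpK]; push_cast; ring
  have hF' : Up p F = 1 + C 3 * Up p G := by
    rw [hF, Up_add, Up_one hp0, Up_C_mul]
  have hUG : Up p (Up p G) = G := by
    have h1 : Up p (Up p F) = 1 + C 3 * Up p (Up p G) := by
      rw [hF', Up_add, Up_one hp0, Up_C_mul]
    rw [h1] at hUU
    ext n
    have := congrArg (coeff n) hUU
    rw [hF] at this
    simp only [map_add, coeff_C_mul] at this
    have h0 : 3 * (coeff n (Up p (Up p G)) - coeff n G) = 0 := by linear_combination this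
    exact sub_eq_zero.mp (h3 _ h0)
  obtain ⟨r, hr⟩ := three_step hp0 (K : R) hP h3 hE4 hF hF' hUG c htr (n := p) hp0
  obtain ⟨r', hr'⟩ := three_step hp0 (K : R) hP h3 hE4 hF' hF rfl c' htr' (n := 1) one_ne_zero
  rw [coeff_Up, mul_one] at hr'
  apply h3u
  refine IsUnit.of_mul_eq_one (r' - r - 9 * (K : R) ^ 3 - 9 * (K : R) ^ 2 - 3 * (K : R)) ?_
  rw [hs1] at hr'
  rw [hsp, hP] at hr
  linear_combination hr - hr'

end three


/-! ### The case `l = 2`, `p ≡ 1 mod 4` -/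

section two

variable {p : ℕ} {s : ℕ → R} {E4 : R⟦X⟧}

theorem coeff_zero_sq (G : R⟦X⟧) : coeff 0 (G ^ 2) = (coeff 0 G) ^ 2 := by
  simp [coeff_zero_eq_constantCoeff]

/-- Frobenius in characteristic two: if `p` is odd and `U_p G' = G` then
`a_n(G²) ≡ a_{pn}(G'²) mod 2`. -/
theorem sq_coeff_mod_two (M : ℕ) (hpM : p = 2 * M + 1) {G G' : R⟦X⟧} (hUG : Up p G' = G)
    (n : ℕ) : ∃ t : R, coeff n (G ^ 2) - coeff (p * n) (G' ^ 2) = 2 * t := by
  set π := Ideal.Quotient.mk (Ideal.span {(2 : R)}) with hπ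
  have h2S : (2 : R ⧸ Ideal.span {(2 : R)}) = 0 := by
    have : π 2 = 0 := Ideal.Quotient.eq_zero_iff_mem.mpr (Ideal.mem_span_singleton_self 2)
    exact (map_ofNat π 2).symm.trans this
  have key : π (coeff n (G ^ 2) - coeff (p * n) (G' ^ 2)) = 0 := by
    have e1 : ∀ (m : ℕ) (H : R⟦X⟧), π (coeff m (H ^ 2)) = coeff m ((map π H) ^ 2) := by
      intro m H; rw [← map_pow, coeff_map]
    rw [map_sub, e1, e1, coeff_sq_of_two_eq_zero h2S, coeff_sq_of_two_eq_zero h2S]
    by_cases hn : 2 ∣ n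
    · obtain ⟨m, rfl⟩ := hn
      have h1 : 2 ∣ p * (2 * m) := ⟨p * m, by ring⟩
      have h2 : p * (2 * m) / 2 = p * m := by
        rw [show p * (2 * m) = 2 * (p * m) by ring]; simp
      rw [if_pos (dvd_mul_right 2 m), if_pos h1, h2]
      have h3 : (2 * m) / 2 = m := by simp
      rw [h3, coeff_map, coeff_map, ← hUG, coeff_Up, sub_self]
    · have h1 : ¬ 2 ∣ p * n := by
        intro h
        rcases (Nat.Prime.dvd_mul Nat.prime_two).mp h with h | h
        · omega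
        · exact hn h
      rw [if_neg hn, if_neg h1, sub_self]
  rw [Ideal.Quotient.eq_zero_iff_mem, Ideal.mem_span_singleton] at key
  obtain ⟨t, ht⟩ := key
  exact ⟨t, ht⟩

theorem cancel_sixteen (h2 : ∀ x : R, 2 * x = 0 → x = 0) {x : R} (h : 16 * x = 0) : x = 0 := by
  apply h2; apply h2; apply h2; apply h2
  linear_combination h

theorem cancel_thirtytwo (h2 : ∀ x : R, 2 * x = 0 → x = 0) {x : R} (h : 32 * x = 0) : x = 0 := by
  apply h2; apply h2; apply h2; apply h2; apply h2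
  linear_combination h

/-- First application of the trace identity for `l = 2`: `F = a + 4G`, `F' = a + 4G'` with
`a` odd, `G`, `G'` without constant term, `U_p G' = G`, `p F² + U_p(F'²) = c E_4` force
`a_n(G) ≡ 0 mod 2` for `n ≥ 1`. -/
theorem two_step_a (K : ℕ) (hpK : p = 4 * K + 1)
    (h2 : ∀ x : R, 2 * x = 0 → x = 0)
    (hE4 : ∀ n, coeff n E4 = if n = 0 then 1 else 240 * s n)
    {a a' : R} (ha : a = 1 + 2 * a')
    {F F' G G' : R⟦X⟧} (hF : F = C a + C 4 * G) (hF' : F' = C a + C 4 * G')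
    (hG0 : coeff 0 G = 0) (hG0' : coeff 0 G' = 0)
    (hUG : Up p G' = G) (c : R)
    (htr : C (p : R) * F ^ 2 + Up p (F' ^ 2) = C c * E4) {n : ℕ} (hn : n ≠ 0) :
    ∃ r : R, coeff n G = 2 * r := by
  have hp0 : p ≠ 0 := by omega
  have hP : (p : R) = 4 * (K : R) + 1 := by rw [hpK]; push_cast; ring
  have e : F ^ 2 = C (a ^ 2) + C (8 * a) * G + C 16 * G ^ 2 := by
    rw [hF]; simp only [map_ofNat, map_mul, map_pow]; ring
  have e' : F' ^ 2 = C (a ^ 2) + C (8 * a) * G' + C 16 * G' ^ 2 := by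
    rw [hF']; simp only [map_ofNat, map_mul, map_pow]; ring
  have eU : Up p (F' ^ 2) = C (a ^ 2) + C (8 * a) * G + C 16 * Up p (G' ^ 2) := by
    rw [e', Up_add, Up_add, Up_C_mul, Up_C_mul, Up_C hp0, hUG]
  rw [e, eU] at htr
  have E0 := congrArg (coeff 0) htr
  have En := congrArg (coeff n) htr
  have hB2 : coeff 0 (Up p (G' ^ 2)) = 0 := by
    rw [coeff_Up, mul_zero, coeff_zero_sq, hG0']; ring
  simp only [map_add, coeff_C_mul, coeff_C, hE4, if_true, if_neg hn, coeff_zero_sq, hG0, hB2]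
    at E0 En
  obtain ⟨t, ht⟩ := sq_coeff_mod_two (2 * K) (by omega) hUG n
  rw [coeff_Up] at En
  set gn := coeff n G
  set A1 := coeff n (G ^ 2)
  set A2 := coeff (p * n) (G' ^ 2)
  set P : R := (p : R)
  have key : (2 * (K : R) + 1) * a * gn + (P * A1 + A2) - 30 * (2 * (K : R) + 1) * a ^ 2 * s n = 0 := by
    apply cancel_sixteen h2
    linear_combination En - (240 * s n) * E0 + (-8 * a * gn + 240 * a ^ 2 * s n) * hP
  refine ⟨-((K : R) + a' + 2 * K * a') * gn - (2 * (K : R) + 1) * A2 - (4 * (K : R) + 1) * t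
    + 15 * (2 * (K : R) + 1) * a ^ 2 * s n, ?_⟩
  linear_combination key - P * ht - (A2 + 2 * t) * hP - (2 * (K : R) + 1) * gn * ha

/-- Second application of the trace identity for `l = 2`: `F = a + 8G`, `F' = a + 8G'` with
`a` odd, `G`, `G'` without constant term, `U_p G' = G`, `p F² + U_p(F'²) = c E_4` force
`a_n(G) ≡ s(n) mod 2` for `n ≥ 1`. -/
theorem two_step_b (K : ℕ) (hpK : p = 4 * K + 1)
    (h2 : ∀ x : R, 2 * x = 0 → x = 0)
    (hE4 : ∀ n, coeff n E4 = if n = 0 then 1 else 240 * s n)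
    {a a' : R} (ha : a = 1 + 2 * a')
    {F F' G G' : R⟦X⟧} (hF : F = C a + C 8 * G) (hF' : F' = C a + C 8 * G')
    (hG0 : coeff 0 G = 0) (hG0' : coeff 0 G' = 0)
    (hUG : Up p G' = G) (c : R)
    (htr : C (p : R) * F ^ 2 + Up p (F' ^ 2) = C c * E4) {n : ℕ} (hn : n ≠ 0) :
    ∃ r : R, coeff n G - s n = 2 * r := by
  have hp0 : p ≠ 0 := by omega
  have hP : (p : R) = 4 * (K : R) + 1 := by rw [hpK]; push_cast; ring
  have e : F ^ 2 = C (a ^ 2) + C (16 * a) * G + C 64 * G ^ 2 := by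
    rw [hF]; simp only [map_ofNat, map_mul, map_pow]; ring
  have e' : F' ^ 2 = C (a ^ 2) + C (16 * a) * G' + C 64 * G' ^ 2 := by
    rw [hF']; simp only [map_ofNat, map_mul, map_pow]; ring
  have eU : Up p (F' ^ 2) = C (a ^ 2) + C (16 * a) * G + C 64 * Up p (G' ^ 2) := by
    rw [e', Up_add, Up_add, Up_C_mul, Up_C_mul, Up_C hp0, hUG]
  rw [e, eU] at htr
  have E0 := congrArg (coeff 0) htr
  have En := congrArg (coeff n) htr
  have hB2 : coeff 0 (Up p (G' ^ 2)) = 0 := by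
    rw [coeff_Up, mul_zero, coeff_zero_sq, hG0']; ring
  simp only [map_add, coeff_C_mul, coeff_C, hE4, if_true, if_neg hn, coeff_zero_sq, hG0, hB2]
    at E0 En
  set gn := coeff n G
  set A1 := coeff n (G ^ 2)
  set A2 := coeff n (Up p (G' ^ 2))
  set P : R := (p : R)
  have key : (2 * (K : R) + 1) * a * gn + 2 * (P * A1 + A2)
      - 15 * (2 * (K : R) + 1) * a ^ 2 * s n = 0 := by
    apply cancel_thirtytwo h2
    linear_combination En - (240 * s n) * E0 + (-16 * a * gn + 240 * a ^ 2 * s n) * hP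
  refine ⟨(15 * (K : R) + 7 + 30 * (2 * (K : R) + 1) * (a' + a' ^ 2)) * s n
    - ((K : R) + a' + 2 * K * a') * gn - (P * A1 + A2), ?_⟩
  linear_combination key + (-(2 * (K : R) + 1) * gn
    + 15 * (2 * (K : R) + 1) * (a + 1 + 2 * a') * s n) * ha

/-- **`l = 2`, `p ≡ 1 mod 4`.**  There is no `F = 1 + 4G` with `U_p² F = F` satisfying the two
trace identities `p F² + U_p((U_p F)²) = c E_4` and `p (U_p F)² + U_p(F²) = c' E_4`.
Here `s` plays the role of `σ₃` (only `s 1 = 1` and `s p = 1 + p³` are used). -/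
theorem no_one_mod_four (K : ℕ) (hpK : p = 4 * K + 1)
    (h2 : ∀ x : R, 2 * x = 0 → x = 0) (h2u : ¬ IsUnit (2 : R))
    (hs1 : s 1 = 1) (hsp : s p = 1 + (p : R) ^ 3)
    (hE4 : ∀ n, coeff n E4 = if n = 0 then 1 else 240 * s n)
    {F G : R⟦X⟧} (hF : F = 1 + C 4 * G) (hUU : Up p (Up p F) = F) (c c' : R)
    (htr : C (p : R) * F ^ 2 + Up p ((Up p F) ^ 2) = C c * E4)
    (htr' : C (p : R) * (Up p F) ^ 2 + Up p (F ^ 2) = C c' * E4) : False := by
  have hp0 : p ≠ 0 := by omega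
  obtain ⟨g0, hg0⟩ : ∃ g0 : R, g0 = coeff 0 G := ⟨_, rfl⟩
  obtain ⟨a, ha_def⟩ : ∃ a : R, a = 1 + 4 * g0 := ⟨_, rfl⟩
  have ha : a = 1 + 2 * (2 * g0) := by rw [ha_def]; ring
  obtain ⟨G1, hG1⟩ : ∃ G1 : R⟦X⟧, G1 = G - C g0 := ⟨_, rfl⟩
  have hG1_0 : coeff 0 G1 = 0 := by simp [hG1, hg0]
  have hF1 : F = C a + C 4 * G1 := by
    rw [hF, hG1, ha_def]; simp only [map_add, map_mul, map_one, map_ofNat]; ring
  have hF1' : Up p F = C a + C 4 * Up p G1 := by
    rw [hF1, Up_add, Up_C hp0, Up_C_mul]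
  have hG1'_0 : coeff 0 (Up p G1) = 0 := by rw [coeff_Up, mul_zero, hG1_0]
  have cancel4 : ∀ x : R, 4 * x = 0 → x = 0 :=
    fun x hx => h2 _ (h2 _ (by linear_combination hx))
  have hUG1 : Up p (Up p G1) = G1 := by
    have h1 : Up p (Up p F) = C a + C 4 * Up p (Up p G1) := by
      rw [hF1', Up_add, Up_C hp0, Up_C_mul]
    rw [h1] at hUU
    ext n
    have := congrArg (coeff n) hUU
    rw [hF1] at this
    simp only [map_add, coeff_C_mul] at this
    have h0 : 4 * (coeff n (Up p (Up p G1)) - coeff n G1) = 0 := by linear_combination this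
    exact sub_eq_zero.mp (cancel4 _ h0)
  have stepa : ∀ n, n ≠ 0 → ∃ r : R, coeff n G1 = 2 * r := fun n hn =>
    two_step_a K hpK h2 hE4 ha hF1 hF1' hG1_0 hG1'_0 hUG1 c htr hn
  obtain ⟨G2, hG2⟩ : ∃ G2 : R⟦X⟧, G2 = PowerSeries.mk fun n =>
      if h : n = 0 then 0 else Classical.choose (stepa n h) := ⟨_, rfl⟩
  have hG2_0 : coeff 0 G2 = 0 := by simp [hG2]
  have hG12 : G1 = C 2 * G2 := by
    ext n
    by_cases hn : n = 0
    · subst hn; rw [hG1_0, coeff_C_mul, hG2_0, mul_zero]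
    · rw [coeff_C_mul, hG2, coeff_mk, dif_neg hn]
      exact Classical.choose_spec (stepa n hn)
  have hF2 : F = C a + C 8 * G2 := by
    rw [hF1, hG12]; simp only [map_ofNat]; ring
  have hF2' : Up p F = C a + C 8 * Up p G2 := by
    rw [hF2, Up_add, Up_C hp0, Up_C_mul]
  have hG2'_0 : coeff 0 (Up p G2) = 0 := by rw [coeff_Up, mul_zero, hG2_0]
  have hUG2 : Up p (Up p G2) = G2 := by
    have h1 : Up p (Up p G1) = C 2 * Up p (Up p G2) := by rw [hG12, Up_C_mul, Up_C_mul]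
    rw [h1] at hUG1
    ext n
    have := congrArg (coeff n) hUG1
    rw [hG12] at this
    simp only [coeff_C_mul] at this
    have h0 : 2 * (coeff n (Up p (Up p G2)) - coeff n G2) = 0 := by linear_combination this
    exact sub_eq_zero.mp (h2 _ h0)
  obtain ⟨r, hr⟩ := two_step_b K hpK h2 hE4 ha hF2 hF2' hG2_0 hG2'_0 hUG2 c htr (n := p) hp0
  obtain ⟨r', hr'⟩ := two_step_b K hpK h2 hE4 ha hF2' hF2 hG2'_0 hG2_0 rfl c' htr' (n := 1)
    one_ne_zero
  rw [coeff_Up, mul_one, hs1] at hr'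
  have hP : (p : R) = 4 * (K : R) + 1 := by rw [hpK]; push_cast; ring
  rw [hsp, hP] at hr
  apply h2u
  refine IsUnit.of_mul_eq_one (r' - r - 32 * (K : R) ^ 3 - 24 * (K : R) ^ 2 - 6 * (K : R)) ?_
  linear_combination hr - hr'

end two

end Fermat.Agent.S16.Easy23
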