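import Fermat.Agent.S16.EisBridge
import Fermat.Agent.S16.Interfaces2

/-!
# S16: block (EIS) of `Interfaces2`

`eisStatement : Interfaces.EisStatement`, witnessed by `EisBridge.eisM p = (1/24) • E2lvl p`.
-/

set_option autoImplicit false

namespace Fermat.Agent.S16.EisInst

open Fermat.Agent.S16

/-- **Block (EIS)**: the Eisenstein series `(p-1)/24 + ∑ σ'(j) q^j` of level `p`. -/
theorem eisStatement : Interfaces.EisStatement := by
  intro p hp
  have : NeZero p := ⟨(Fact.out : p.Prime).ne_zero⟩
  exact ⟨EisBridge.eisM p, EisBridge.qCoeff_eisM_zero p,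
    fun j hj => EisBridge.qCoeff_eisM_pos p (by omega)⟩

end Fermat.Agent.S16.EisInst
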