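import Mathlib
import Fermat.Agent.S16.UpperL5
import Fermat.Agent.S16.NormLevelOneFricke

/-!
# S16: `UpperL5.EsymmStatement` from `NormLevelOne*` (helper4; adapter)
-/

set_option autoImplicit false

open UpperHalfPlane ModularForm ModularFormClass MatrixGroups Polynomial

noncomputable section

namespace Fermat.Agent.S16.EsymmInstB

open Fermat.Agent.S16.NormLevelOne Fermat.Agent.S16.NormLevelOneAlg
open Fermat.Agent.S16.NormLevelOneFricke

theorem esymmStatement : Fermat.Agent.S16.UpperL5.EsymmStatement := by
  intro p hp F i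
  have hw : (2 : ℤ) * ((i : ℕ) : ℤ) = ((2 * i : ℕ) : ℤ) := by push_cast; ring
  refine ⟨ModularForm.mcast hw (esymmForm p F i), ?_⟩
  intro R hζ a h ha hh
  set ζR : R := ⟨Complex.exp (2 * Real.pi * Complex.I / p), hζ⟩ with hζR
  have hι : Function.Injective R.subtype := Subtype.val_injective
  have hζ' : R.subtype ζR = zeta p := rfl
  have hA : a.map R.subtype = qExpansion (1 : ℝ) (F : ℍ → ℂ) := by
    ext n
    rw [PowerSeries.coeff_map]
    exact ha n
  have hG : h.map R.subtype =
      qExpansion (p : ℝ) ((F : ℍ → ℂ) ∣[(2 : ℤ)] ModularGroup.S) := by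
    ext n
    rw [PowerSeries.coeff_map, coeff_qExpansion_slash_S]
    have := hh n
    rw [ModularFormClass.qCoeff, mul_comm p n] at this
    rw [Subring.coe_subtype, this]
    ring
  have key := fun m => esymmSeries_map p F ζR a h hι hζ' hA hG m
  refine ⟨esymmSeries p ζR a h i, ?_, ?_⟩
  · intro n
    have := congrArg (fun s => PowerSeries.coeff n s) (key i).1
    simp only [PowerSeries.coeff_map, Subring.coe_subtype] at this
    rw [this]
    rfl
  · intro κ _ φ α β hα hβ
    exact esymmSeries_map_const p φ ζR a h α β hα hβ i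

end Fermat.Agent.S16.EsymmInstB
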