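import Mathlib
import Fermat.Prelude.Def_ModularForm_HeckeOperator
import Fermat.Prelude.Thm_ModularForm_isBoundedAtImInfty_heckeU
import Fermat.Prelude.Thm_ModularForm_isBoundedAtImInfty_heckeT
import Fermat.Prelude.Thm_ModularForm_mdifferentiable_heckeU

/-!
# S16 / W.fricke (function-level variant): trace from `Γ₀(p)` to level one, Fricke involution

For a holomorphic `F : ℍ → ℂ`, invariant of weight `2` under `Γ₀(p)` (`p` prime) and bounded at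
both cusps:

* `traceFun_eq_zero'` : `F + ∑_{x mod p} F|S T^x = 0` (there is no level one form of weight two);
* `fricke_eq` : `(F|S⁻¹)|diag(p,1) = -U_p F`;
* `slash_ST_eq` : `F|S T^b = -(U_p F)|(1 b; 0 p)`, i.e. `(F|S T^b)(τ) = -p⁻¹ (U_p F)((τ+b)/p)`;
* `heckeU_heckeU` : `U_p (U_p F) = F`.

The trace invariance statements (`traceFun_slash_S`, `traceFun_slash_T`) hold in any weight.
-/

set_option autoImplicit false
set_option linter.unusedSectionVars false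

open UpperHalfPlane ModularForm CongruenceSubgroup ModularGroup
open scoped MatrixGroups ModularForm Manifold

noncomputable section

namespace Fermat.Agent.S16.FrickeTraceFn

/-- A holomorphic function on `ℍ`, invariant of weight `k` under `S` and `T` and bounded at `i∞`,
as a level one modular form. -/
def levelOneOfST (k : ℤ) (G : ℍ → ℂ) (hol : MDiff G)
    (hS : G ∣[k] S = G) (hT : G ∣[k] T = G) (hbdd : IsBoundedAtImInfty G) :
    ModularForm 𝒮ℒ k where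
  toFun := G
  slash_action_eq' := by
    intro γ hγ
    obtain ⟨γ', rfl⟩ := hγ
    exact SlashInvariantForm.slash_action_generators_SL2Z hS hT γ'
  holo' := hol
  bdd_at_cusps' := by
    intro c hc
    rw [OnePoint.isBoundedAt_iff_forall_SL2Z hc]
    intro γ _
    rw [SlashInvariantForm.slash_action_generators_SL2Z hS hT γ]
    exact hbdd

/-- Weight two, level one: nothing. -/
theorem eq_zero_of_ST_weight_two (G : ℍ → ℂ) (hol : MDiff G)
    (hS : G ∣[(2 : ℤ)] S = G) (hT : G ∣[(2 : ℤ)] T = G) (hbdd : IsBoundedAtImInfty G) :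
    G = 0 := by
  have h := (rank_zero_iff_forall_zero (R := ℂ)).mp ModularForm.levelOne_weight_two_rank_zero
    (levelOneOfST 2 G hol hS hT hbdd)
  have h2 : ((levelOneOfST 2 G hol hS hT hbdd : ModularForm 𝒮ℒ 2) : ℍ → ℂ) = G := rfl
  rw [← h2, h]
  rfl

section Cosets

variable {p : ℕ} {k : ℤ} {F : ℍ → ℂ}

/-- Two elements of `SL(2,ℤ)` whose bottom rows are proportional modulo `p` give the same
translate of a `Γ₀(p)`-invariant function. -/
theorem slash_eq_of_bottom_row (hinv : ∀ γ ∈ Gamma0 p, F ∣[k] γ = F) (A B : SL(2, ℤ))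
    (h : (p : ℤ) ∣ A 1 0 * B 1 1 - A 1 1 * B 1 0) : F ∣[k] A = F ∣[k] B := by
  have hmem : A * B⁻¹ ∈ Gamma0 p := by
    rw [Gamma0_mem]
    have : (A * B⁻¹ : SL(2, ℤ)) 1 0 = A 1 0 * B 1 1 - A 1 1 * B 1 0 := by
      simp [Matrix.SpecialLinearGroup.coe_mul, Matrix.SpecialLinearGroup.coe_inv,
        Matrix.adjugate_fin_two, Matrix.mul_apply, Fin.sum_univ_two]
      ring
    rw [this]
    exact (ZMod.intCast_zmod_eq_zero_iff_dvd _ p).mpr h
  calc F ∣[k] A = F ∣[k] ((A * B⁻¹) * B) := by rw [inv_mul_cancel_right]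
    _ = (F ∣[k] (A * B⁻¹)) ∣[k] B := SlashAction.slash_mul k _ _ F
    _ = F ∣[k] B := by rw [hinv _ hmem]

theorem ST_one_zero (b : ℤ) : (S * T ^ b : SL(2, ℤ)) 1 0 = 1 := by
  simp [Matrix.SpecialLinearGroup.coe_mul, coe_S, coe_T_zpow, Matrix.mul_apply, Fin.sum_univ_two]

theorem ST_one_one (b : ℤ) : (S * T ^ b : SL(2, ℤ)) 1 1 = b := by
  simp [Matrix.SpecialLinearGroup.coe_mul, coe_S, coe_T_zpow, Matrix.mul_apply, Fin.sum_univ_two]

theorem STT_one_zero (b : ℤ) : (S * T ^ b * T : SL(2, ℤ)) 1 0 = 1 := by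
  simp [Matrix.SpecialLinearGroup.coe_mul, coe_S, coe_T, coe_T_zpow, Matrix.mul_apply,
    Fin.sum_univ_two]

theorem STT_one_one (b : ℤ) : (S * T ^ b * T : SL(2, ℤ)) 1 1 = b + 1 := by
  simp [Matrix.SpecialLinearGroup.coe_mul, coe_S, coe_T, coe_T_zpow, Matrix.mul_apply,
    Fin.sum_univ_two]
  ring

theorem STS_one_zero (b : ℤ) : (S * T ^ b * S : SL(2, ℤ)) 1 0 = b := by
  simp [Matrix.SpecialLinearGroup.coe_mul, coe_S, coe_T_zpow, Matrix.mul_apply, Fin.sum_univ_two]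

theorem STS_one_one (b : ℤ) : (S * T ^ b * S : SL(2, ℤ)) 1 1 = -1 := by
  simp [Matrix.SpecialLinearGroup.coe_mul, coe_S, coe_T_zpow, Matrix.mul_apply, Fin.sum_univ_two]

end Cosets

section Trace

variable {p : ℕ} [Fact p.Prime] {k : ℤ} {F : ℍ → ℂ}

/-- The translate of `F` by the coset representative `S T^x`, `x : ZMod p`. -/
def tr (p : ℕ) (k : ℤ) (F : ℍ → ℂ) (x : ZMod p) : ℍ → ℂ := F ∣[k] (S * T ^ (x.val : ℤ))

theorem dvd_of_cast_eq_zero {a : ℤ} (h : ((a : ℤ) : ZMod p) = 0) : (p : ℤ) ∣ a :=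
  (ZMod.intCast_zmod_eq_zero_iff_dvd a p).mp h

theorem slash_T (hinv : ∀ γ ∈ Gamma0 p, F ∣[k] γ = F) : F ∣[k] T = F := by
  apply hinv
  rw [Gamma0_mem]
  simp [coe_T]

theorem slash_S_eq_tr_zero : F ∣[k] S = tr p k F 0 := by
  simp [tr]

theorem tr_slash_T (hinv : ∀ γ ∈ Gamma0 p, F ∣[k] γ = F) (x : ZMod p) :
    (tr p k F x) ∣[k] T = tr p k F (x + 1) := by
  unfold tr
  rw [← SlashAction.slash_mul]
  apply slash_eq_of_bottom_row hinv
  rw [STT_one_zero, STT_one_one, ST_one_zero, ST_one_one]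
  apply dvd_of_cast_eq_zero
  push_cast
  rw [ZMod.natCast_zmod_val, ZMod.natCast_zmod_val]
  ring

theorem tr_zero_slash_S (hinv : ∀ γ ∈ Gamma0 p, F ∣[k] γ = F) :
    (tr p k F 0) ∣[k] S = F := by
  unfold tr
  rw [← SlashAction.slash_mul]
  have h1 : F ∣[k] (1 : SL(2, ℤ)) = F := SlashAction.slash_one k F
  conv_rhs => rw [← h1]
  apply slash_eq_of_bottom_row hinv
  rw [STS_one_zero, STS_one_one]
  apply dvd_of_cast_eq_zero
  simp

theorem tr_slash_S (hinv : ∀ γ ∈ Gamma0 p, F ∣[k] γ = F) {x : ZMod p} (hx : x ≠ 0) :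
    (tr p k F x) ∣[k] S = tr p k F (-x⁻¹) := by
  unfold tr
  rw [← SlashAction.slash_mul]
  apply slash_eq_of_bottom_row hinv
  rw [STS_one_zero, STS_one_one, ST_one_zero, ST_one_one]
  apply dvd_of_cast_eq_zero
  push_cast
  rw [ZMod.natCast_zmod_val, ZMod.natCast_zmod_val]
  field_simp
  ring

/-- The trace of `F` from `Γ₀(p)` to `SL(2,ℤ)`, as a function. -/
def traceFun (p : ℕ) [Fact p.Prime] (k : ℤ) (F : ℍ → ℂ) : ℍ → ℂ := F + ∑ x : ZMod p, tr p k F x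

theorem traceFun_slash_T (hinv : ∀ γ ∈ Gamma0 p, F ∣[k] γ = F) :
    (traceFun p k F) ∣[k] T = traceFun p k F := by
  unfold traceFun
  rw [SlashAction.add_slash, SlashAction.sum_slash, slash_T hinv]
  congr 1
  simp_rw [tr_slash_T hinv]
  exact Equiv.sum_comp (Equiv.addRight (1 : ZMod p)) (tr p k F)

theorem traceFun_slash_S (hinv : ∀ γ ∈ Gamma0 p, F ∣[k] γ = F) :
    (traceFun p k F) ∣[k] S = traceFun p k F := by
  classical
  unfold traceFun
  rw [SlashAction.add_slash, SlashAction.sum_slash, slash_S_eq_tr_zero (p := p)]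
  rw [← Finset.add_sum_erase Finset.univ _ (Finset.mem_univ (0 : ZMod p)),
    ← Finset.add_sum_erase Finset.univ (tr p k F) (Finset.mem_univ (0 : ZMod p)),
    tr_zero_slash_S hinv]
  have : ∑ x ∈ Finset.univ.erase (0 : ZMod p), (tr p k F x) ∣[k] S =
      ∑ x ∈ Finset.univ.erase (0 : ZMod p), tr p k F x := by
    have h1 : ∑ x ∈ Finset.univ.erase (0 : ZMod p), (tr p k F x) ∣[k] S =
        ∑ x ∈ Finset.univ.erase (0 : ZMod p), tr p k F (-x⁻¹) :=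
      Finset.sum_congr rfl fun x hx => tr_slash_S hinv (Finset.ne_of_mem_erase hx)
    rw [h1]
    refine Finset.sum_bij' (fun x _ => -x⁻¹) (fun x _ => -x⁻¹) ?_ ?_ ?_ ?_ ?_
    · intro x hx
      have := Finset.ne_of_mem_erase hx
      simp [this]
    · intro x hx
      have := Finset.ne_of_mem_erase hx
      simp [this]
    · intro x hx
      simp
    · intro x hx
      simp
    · intro x hx
      rfl
  rw [this]
  abel

end Trace

section Vanish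

variable {p : ℕ} [Fact p.Prime] {k : ℤ} {F : ℍ → ℂ}

theorem mdiff_slash_SL (hol : MDiff F) (g : SL(2, ℤ)) : MDiff (F ∣[k] g) := by
  rw [ModularForm.SL_slash]
  exact hol.slash k _

theorem mdiff_tr (hol : MDiff F) (x : ZMod p) : MDiff (tr p k F x) := mdiff_slash_SL hol _

theorem mdiff_traceFun (hol : MDiff F) : MDiff (traceFun p k F) := by
  unfold traceFun
  exact hol.add (MDifferentiable.sum fun x _ => mdiff_tr hol x)

theorem isBoundedAtImInfty_traceFun (hbdd : ∀ g : SL(2, ℤ), IsBoundedAtImInfty (F ∣[k] g)) :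
    IsBoundedAtImInfty (traceFun p k F) := by
  unfold traceFun
  have h1 : IsBoundedAtImInfty F := by simpa using hbdd 1
  have h2 : ∀ s : Finset (ZMod p), IsBoundedAtImInfty (∑ x ∈ s, tr p k F x) := by
    classical
    intro s
    induction s using Finset.induction_on with
    | empty =>
      rw [Finset.sum_empty]
      exact Filter.const_boundedAtFilter atImInfty (0 : ℂ)
    | insert a s ha ih =>
      rw [Finset.sum_insert ha]
      exact (hbdd _).add ih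
  exact h1.add (h2 _)

/-- **Trace formula in weight two**: the trace of a weight two form of level `Γ₀(p)` to level one
vanishes. -/
theorem traceFun_eq_zero (hol : MDiff F) (hinv : ∀ γ ∈ Gamma0 p, F ∣[(2 : ℤ)] γ = F)
    (hbdd : ∀ g : SL(2, ℤ), IsBoundedAtImInfty (F ∣[(2 : ℤ)] g)) : traceFun p 2 F = 0 :=
  eq_zero_of_ST_weight_two _ (mdiff_traceFun hol) (traceFun_slash_S hinv) (traceFun_slash_T hinv)
    (isBoundedAtImInfty_traceFun hbdd)

end Vanish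

section Matrices

theorem coe_GL_apply (A : SL(2, ℤ)) (i j : Fin 2) :
    ((A : GL (Fin 2) ℝ) : Matrix (Fin 2) (Fin 2) ℝ) i j = ((A i j : ℤ) : ℝ) := by
  simp

theorem Sinv_entries : ((S⁻¹ : SL(2, ℤ)) : Matrix (Fin 2) (Fin 2) ℤ) = !![0, 1; -1, 0] := by
  rw [Matrix.SpecialLinearGroup.coe_inv, coe_S, Matrix.adjugate_fin_two]
  simp

theorem ST_entries (b : ℤ) :
    ((S * T ^ b : SL(2, ℤ)) : Matrix (Fin 2) (Fin 2) ℤ) = !![0, -1; 1, b] := by
  rw [Matrix.SpecialLinearGroup.coe_mul, coe_S, coe_T_zpow]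
  ext i j
  fin_cases i <;> fin_cases j <;> simp [Matrix.mul_apply, Fin.sum_univ_two]

/-- `S⁻¹ · diag(p,1) · S T^b = (1 b; 0 p)`. -/
theorem Sinv_mul_diag_mul_ST {p : ℕ} (hp : p ≠ 0) (b : ℕ) :
    ((S⁻¹ : SL(2, ℤ)) : GL (Fin 2) ℝ) * heckeDiagMatrix p *
      ((S * T ^ (b : ℤ) : SL(2, ℤ)) : GL (Fin 2) ℝ) = heckeMatrix p b := by
  apply Matrix.GeneralLinearGroup.ext
  intro i j
  rw [Matrix.GeneralLinearGroup.coe_mul, Matrix.GeneralLinearGroup.coe_mul,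
    val_heckeDiagMatrix hp, val_heckeMatrix hp]
  simp only [Matrix.mul_apply, Fin.sum_univ_two, coe_GL_apply, Sinv_entries, ST_entries]
  fin_cases i <;> fin_cases j <;> simp

/-- The conjugate of `γ ∈ Γ₀(p)` by `S⁻¹ · diag(p,1)`. -/
def conjGamma (p : ℕ) (γ : SL(2, ℤ)) (c' : ℤ) (hc : γ 1 0 = p * c') : SL(2, ℤ) :=
  ⟨!![γ 1 1, -c'; -(p * γ 0 1), γ 0 0], by
    have h := γ.det_coe
    rw [Matrix.det_fin_two] at h
    rw [Matrix.det_fin_two_of]
    rw [hc] at h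
    linarith⟩

theorem conjGamma_mem (p : ℕ) (γ : SL(2, ℤ)) (c' : ℤ) (hc : γ 1 0 = p * c') :
    conjGamma p γ c' hc ∈ Gamma0 p := by
  rw [Gamma0_mem]
  simp [conjGamma]

theorem Sinv_mul_diag_mul_gamma {p : ℕ} (hp : p ≠ 0) (γ : SL(2, ℤ)) (c' : ℤ)
    (hc : γ 1 0 = p * c') :
    ((S⁻¹ : SL(2, ℤ)) : GL (Fin 2) ℝ) * heckeDiagMatrix p * (γ : GL (Fin 2) ℝ) =
      (conjGamma p γ c' hc : GL (Fin 2) ℝ) * ((S⁻¹ : SL(2, ℤ)) : GL (Fin 2) ℝ) *
        heckeDiagMatrix p := by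
  apply Matrix.GeneralLinearGroup.ext
  intro i j
  simp only [Matrix.GeneralLinearGroup.coe_mul, val_heckeDiagMatrix hp]
  simp only [Matrix.mul_apply, Fin.sum_univ_two, coe_GL_apply, Sinv_entries]
  fin_cases i <;> fin_cases j <;> simp [conjGamma, hc] <;> ring

end Matrices

section Fricke

variable {p : ℕ} [Fact p.Prime] {F : ℍ → ℂ}

theorem p_ne_zero : p ≠ 0 := (Fact.out : p.Prime).ne_zero

/-- Variant of the trace formula with the minimal boundedness hypotheses. -/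
theorem traceFun_eq_zero' (hol : MDiff F) (hinv : ∀ γ ∈ Gamma0 p, F ∣[(2 : ℤ)] γ = F)
    (hb1 : IsBoundedAtImInfty F) (hb2 : IsBoundedAtImInfty (∑ x : ZMod p, tr p 2 F x)) :
    traceFun p 2 F = 0 :=
  eq_zero_of_ST_weight_two _ (mdiff_traceFun hol) (traceFun_slash_S hinv) (traceFun_slash_T hinv)
    (hb1.add hb2)

/-- The Fricke transform `F|S⁻¹|diag(p,1)` of `F` (weight two). -/
def fricke (p : ℕ) (F : ℍ → ℂ) : ℍ → ℂ :=
  (F ∣[(2 : ℤ)] (S⁻¹ : SL(2, ℤ))) ∣[(2 : ℤ)] heckeDiagMatrix p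

theorem mdiff_fricke (hol : MDiff F) : MDiff (fricke p F) :=
  (mdiff_slash_SL hol _).slash 2 _

theorem isBoundedAtImInfty_slash_diag {g : ℍ → ℂ} (hg : IsBoundedAtImInfty g) (k : ℤ) (p : ℕ) :
    IsBoundedAtImInfty (g ∣[k] heckeDiagMatrix p) := by
  have h : g ∣[k] heckeDiagMatrix p = heckeT k p g - heckeU k p g := by
    rw [heckeT_eq_heckeU_add]; abel
  rw [h]
  exact (ModularForm.isBoundedAtImInfty_heckeT hg k p).sub
    (ModularForm.isBoundedAtImInfty_heckeU hg k p)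

theorem isBoundedAtImInfty_fricke (hbS : IsBoundedAtImInfty (F ∣[(2 : ℤ)] (S⁻¹ : SL(2, ℤ)))) :
    IsBoundedAtImInfty (fricke p F) :=
  isBoundedAtImInfty_slash_diag hbS 2 p

theorem fricke_slash_gamma (hinv : ∀ γ ∈ Gamma0 p, F ∣[(2 : ℤ)] γ = F) (γ : SL(2, ℤ))
    (hγ : γ ∈ Gamma0 p) : (fricke p F) ∣[(2 : ℤ)] γ = fricke p F := by
  have hdvd : (p : ℤ) ∣ γ 1 0 := by
    rw [Gamma0_mem] at hγ
    exact (ZMod.intCast_zmod_eq_zero_iff_dvd _ p).mp hγ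
  obtain ⟨c', hc⟩ := hdvd
  have key := Sinv_mul_diag_mul_gamma (p_ne_zero (p := p)) γ c' hc
  unfold fricke
  show ((F ∣[(2 : ℤ)] ((S⁻¹ : SL(2, ℤ)) : GL (Fin 2) ℝ)) ∣[(2 : ℤ)] heckeDiagMatrix p)
    ∣[(2 : ℤ)] (γ : GL (Fin 2) ℝ) = _
  rw [← SlashAction.slash_mul, ← SlashAction.slash_mul, ← mul_assoc, key, SlashAction.slash_mul,
    SlashAction.slash_mul]
  have : F ∣[(2 : ℤ)] (conjGamma p γ c' hc : GL (Fin 2) ℝ) = F :=
    hinv _ (conjGamma_mem p γ c' hc)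
  rw [this]
  rfl

theorem fricke_slash_ST (b : ℕ) :
    (fricke p F) ∣[(2 : ℤ)] (S * T ^ (b : ℤ) : SL(2, ℤ)) = F ∣[(2 : ℤ)] heckeMatrix p b := by
  unfold fricke
  show ((F ∣[(2 : ℤ)] ((S⁻¹ : SL(2, ℤ)) : GL (Fin 2) ℝ)) ∣[(2 : ℤ)] heckeDiagMatrix p)
    ∣[(2 : ℤ)] ((S * T ^ (b : ℤ) : SL(2, ℤ)) : GL (Fin 2) ℝ) = _
  rw [← SlashAction.slash_mul, ← SlashAction.slash_mul, ← mul_assoc,
    Sinv_mul_diag_mul_ST (p_ne_zero (p := p)) b]

theorem sum_tr_fricke : ∑ x : ZMod p, tr p 2 (fricke p F) x = heckeU 2 p F := by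
  have : NeZero p := ⟨p_ne_zero⟩
  rw [heckeU_def]
  have h1 : ∀ x : ZMod p, tr p 2 (fricke p F) x = F ∣[(2 : ℤ)] heckeMatrix p x.val :=
    fun x => fricke_slash_ST x.val
  simp_rw [h1]
  refine Finset.sum_bij (fun x _ => x.val) ?_ ?_ ?_ ?_
  · intro x _
    exact Finset.mem_range.mpr (ZMod.val_lt x)
  · intro x _ y _ h
    exact ZMod.val_injective p h
  · intro j hj
    refine ⟨(j : ZMod p), Finset.mem_univ _, ?_⟩
    exact ZMod.val_cast_of_lt (Finset.mem_range.mp hj)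
  · intro x _
    rfl

/-- **Fricke involution in weight two and prime level**: `F|W_p = -U_p F`. -/
theorem fricke_eq (hol : MDiff F) (hinv : ∀ γ ∈ Gamma0 p, F ∣[(2 : ℤ)] γ = F)
    (hbF : IsBoundedAtImInfty F)
    (hbS : IsBoundedAtImInfty (F ∣[(2 : ℤ)] (S⁻¹ : SL(2, ℤ)))) :
    fricke p F = -heckeU 2 p F := by
  have h := traceFun_eq_zero' (mdiff_fricke hol) (fricke_slash_gamma hinv)
    (isBoundedAtImInfty_fricke hbS)
    (by rw [sum_tr_fricke]; exact ModularForm.isBoundedAtImInfty_heckeU hbF 2 p)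
  unfold traceFun at h
  rw [sum_tr_fricke] at h
  exact eq_neg_of_add_eq_zero_left h

end Fricke

section Conjugates

variable {p : ℕ} [Fact p.Prime] {F : ℍ → ℂ}

theorem diag_smul_heckeMatrix_zero_smul (τ : ℍ) :
    heckeDiagMatrix p • (heckeMatrix p 0 • τ) = τ := by
  have hp : p ≠ 0 := p_ne_zero
  have hp' : (p : ℂ) ≠ 0 := by exact_mod_cast hp
  apply UpperHalfPlane.ext
  rw [coe_heckeDiagMatrix_smul hp, coe_heckeMatrix_smul hp]
  push_cast
  field_simp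
  ring

theorem SinvT_entries (b : ℤ) :
    ((S⁻¹ * T ^ b : SL(2, ℤ)) : Matrix (Fin 2) (Fin 2) ℤ) = !![0, 1; -1, -b] := by
  rw [Matrix.SpecialLinearGroup.coe_mul, Sinv_entries, coe_T_zpow]
  ext i j
  fin_cases i <;> fin_cases j <;> simp [Matrix.mul_apply, Fin.sum_univ_two]

theorem heckeMatrix_zero_mul_T (b : ℕ) :
    heckeMatrix p 0 * ((T ^ (b : ℤ) : SL(2, ℤ)) : GL (Fin 2) ℝ) = heckeMatrix p b := by
  have hp : p ≠ 0 := p_ne_zero
  apply Matrix.GeneralLinearGroup.ext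
  intro i j
  rw [Matrix.GeneralLinearGroup.coe_mul, val_heckeMatrix hp, val_heckeMatrix hp]
  simp only [Matrix.mul_apply, Fin.sum_univ_two, coe_GL_apply, coe_T_zpow]
  fin_cases i <;> fin_cases j <;> simp

/-- `F|S⁻¹ = -(U_p F)|(1 0; 0 p)`, i.e. `(F|S⁻¹)(τ) = -p⁻¹ (U_p F)(τ/p)`. -/
theorem slash_Sinv_eq (hol : MDiff F) (hinv : ∀ γ ∈ Gamma0 p, F ∣[(2 : ℤ)] γ = F)
    (hbF : IsBoundedAtImInfty F)
    (hbS : IsBoundedAtImInfty (F ∣[(2 : ℤ)] (S⁻¹ : SL(2, ℤ)))) :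
    F ∣[(2 : ℤ)] (S⁻¹ : SL(2, ℤ)) = -((heckeU 2 p F) ∣[(2 : ℤ)] heckeMatrix p 0) := by
  have hp : p ≠ 0 := p_ne_zero
  have hp' : (p : ℂ) ≠ 0 := by exact_mod_cast hp
  funext τ
  have h1 := congrFun (fricke_eq hol hinv hbF hbS) (heckeMatrix p 0 • τ)
  unfold fricke at h1
  rw [slash_heckeDiagMatrix_apply 2 hp, diag_smul_heckeMatrix_zero_smul] at h1
  rw [Pi.neg_apply, slash_heckeMatrix_apply 2 hp]
  rw [Pi.neg_apply] at h1
  have h2 : ((p : ℂ) ^ ((2 : ℤ) - 1)) = p := by norm_num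
  rw [h2] at h1
  field_simp
  linear_combination h1

theorem slash_S_eq_slash_Sinv (hinv : ∀ γ ∈ Gamma0 p, F ∣[(2 : ℤ)] γ = F) :
    F ∣[(2 : ℤ)] S = F ∣[(2 : ℤ)] (S⁻¹ : SL(2, ℤ)) := by
  apply slash_eq_of_bottom_row hinv
  have h1 : (S : SL(2, ℤ)) 1 0 = 1 := by simp [coe_S]
  have h2 : (S : SL(2, ℤ)) 1 1 = 0 := by simp [coe_S]
  have h3 : ((S⁻¹ : SL(2, ℤ)) : Matrix (Fin 2) (Fin 2) ℤ) 1 0 = -1 := by
    rw [Sinv_entries]; rfl
  have h4 : ((S⁻¹ : SL(2, ℤ)) : Matrix (Fin 2) (Fin 2) ℤ) 1 1 = 0 := by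
    rw [Sinv_entries]; rfl
  rw [h1, h2, h3, h4]
  simp

/-- The conjugates of `F`: `F|S T^b = -(U_p F)|(1 b; 0 p)`, i.e.
`(F|S T^b)(τ) = -p⁻¹ (U_p F)((τ + b)/p)`. -/
theorem slash_ST_eq (hol : MDiff F) (hinv : ∀ γ ∈ Gamma0 p, F ∣[(2 : ℤ)] γ = F)
    (hbF : IsBoundedAtImInfty F)
    (hbS : IsBoundedAtImInfty (F ∣[(2 : ℤ)] (S⁻¹ : SL(2, ℤ)))) (b : ℕ) :
    F ∣[(2 : ℤ)] (S * T ^ (b : ℤ) : SL(2, ℤ)) =
      -((heckeU 2 p F) ∣[(2 : ℤ)] heckeMatrix p b) := by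
  have h1 : F ∣[(2 : ℤ)] (S * T ^ (b : ℤ) : SL(2, ℤ)) =
      F ∣[(2 : ℤ)] (S⁻¹ * T ^ (b : ℤ) : SL(2, ℤ)) := by
    apply slash_eq_of_bottom_row hinv
    rw [ST_one_zero, ST_one_one]
    have h3 : ((S⁻¹ * T ^ (b : ℤ) : SL(2, ℤ)) : Matrix (Fin 2) (Fin 2) ℤ) 1 0 = -1 := by
      rw [SinvT_entries]; rfl
    have h4 : ((S⁻¹ * T ^ (b : ℤ) : SL(2, ℤ)) : Matrix (Fin 2) (Fin 2) ℤ) 1 1 = -(b : ℤ) := by
      rw [SinvT_entries]; rfl
    rw [h3, h4]
    simp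
  rw [h1, SlashAction.slash_mul, slash_Sinv_eq hol hinv hbF hbS, SlashAction.neg_slash]
  congr 1
  show ((heckeU 2 p F) ∣[(2 : ℤ)] heckeMatrix p 0) ∣[(2 : ℤ)]
    ((T ^ (b : ℤ) : SL(2, ℤ)) : GL (Fin 2) ℝ) = _
  rw [← SlashAction.slash_mul, heckeMatrix_zero_mul_T]

theorem tr_eq (hol : MDiff F) (hinv : ∀ γ ∈ Gamma0 p, F ∣[(2 : ℤ)] γ = F)
    (hbF : IsBoundedAtImInfty F)
    (hbS : IsBoundedAtImInfty (F ∣[(2 : ℤ)] (S⁻¹ : SL(2, ℤ)))) (x : ZMod p) :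
    tr p 2 F x = -((heckeU 2 p F) ∣[(2 : ℤ)] heckeMatrix p x.val) :=
  slash_ST_eq hol hinv hbF hbS x.val

theorem sum_tr_eq (hol : MDiff F) (hinv : ∀ γ ∈ Gamma0 p, F ∣[(2 : ℤ)] γ = F)
    (hbF : IsBoundedAtImInfty F)
    (hbS : IsBoundedAtImInfty (F ∣[(2 : ℤ)] (S⁻¹ : SL(2, ℤ)))) :
    ∑ x : ZMod p, tr p 2 F x = -heckeU 2 p (heckeU 2 p F) := by
  have : NeZero p := ⟨p_ne_zero⟩
  simp_rw [tr_eq hol hinv hbF hbS]
  rw [Finset.sum_neg_distrib, heckeU_def 2 p (heckeU 2 p F)]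
  congr 1
  refine Finset.sum_bij (fun x _ => x.val) ?_ ?_ ?_ ?_
  · intro x _
    exact Finset.mem_range.mpr (ZMod.val_lt x)
  · intro x _ y _ h
    exact ZMod.val_injective p h
  · intro j hj
    refine ⟨(j : ZMod p), Finset.mem_univ _, ?_⟩
    exact ZMod.val_cast_of_lt (Finset.mem_range.mp hj)
  · intro x _
    rfl

/-- `U_p² = 1` on weight two forms of level `Γ₀(p)`. -/
theorem heckeU_heckeU (hol : MDiff F) (hinv : ∀ γ ∈ Gamma0 p, F ∣[(2 : ℤ)] γ = F)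
    (hbF : IsBoundedAtImInfty F)
    (hbS : IsBoundedAtImInfty (F ∣[(2 : ℤ)] (S⁻¹ : SL(2, ℤ)))) :
    heckeU 2 p (heckeU 2 p F) = F := by
  have hs := sum_tr_eq hol hinv hbF hbS
  have h := traceFun_eq_zero' hol hinv hbF (by
    rw [hs]
    exact (ModularForm.isBoundedAtImInfty_heckeU
      (ModularForm.isBoundedAtImInfty_heckeU hbF 2 p) 2 p).neg)
  unfold traceFun at h
  rw [hs] at h
  exact (sub_eq_zero.mp (by rw [← h]; abel)).symm

end Conjugates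

section Forms

variable {p : ℕ} [Fact p.Prime] {k : ℤ}

theorem form_hinv (F : ModularForm (Gamma0 p) k) :
    ∀ γ ∈ Gamma0 p, (F : ℍ → ℂ) ∣[k] γ = F := by
  intro γ hγ
  exact SlashInvariantFormClass.slash_action_eq F _ (Subgroup.mem_map_of_mem _ hγ)

theorem form_mdiff (F : ModularForm (Gamma0 p) k) : MDiff (F : ℍ → ℂ) := ModularFormClass.holo F

theorem form_bdd (F : ModularForm (Gamma0 p) k) (g : SL(2, ℤ)) :
    IsBoundedAtImInfty ((F : ℍ → ℂ) ∣[k] g) :=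
  ModularFormClass.bdd_at_infty_slash F g

/-- The trace of `F ∈ M_k(Γ₀(p))` to level one, as a modular form: `F + ∑_{x mod p} F|S T^x`. -/
def traceForm (F : ModularForm (Gamma0 p) k) : ModularForm 𝒮ℒ k :=
  levelOneOfST k (traceFun p k F) (mdiff_traceFun (form_mdiff F)) (traceFun_slash_S (form_hinv F))
    (traceFun_slash_T (form_hinv F)) (isBoundedAtImInfty_traceFun (form_bdd F))

theorem coe_traceForm (F : ModularForm (Gamma0 p) k) :
    ((traceForm F : ModularForm 𝒮ℒ k) : ℍ → ℂ) = traceFun p k F := rfl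

theorem sum_tr_eq_sum_range (F : ℍ → ℂ) :
    ∑ x : ZMod p, tr p k F x = ∑ b ∈ Finset.range p, F ∣[k] (S * T ^ (b : ℤ)) := by
  have : NeZero p := ⟨p_ne_zero⟩
  refine Finset.sum_bij (fun x _ => x.val) ?_ ?_ ?_ ?_
  · intro x _
    exact Finset.mem_range.mpr (ZMod.val_lt x)
  · intro x _ y _ h
    exact ZMod.val_injective p h
  · intro j hj
    refine ⟨(j : ZMod p), Finset.mem_univ _, ?_⟩
    exact ZMod.val_cast_of_lt (Finset.mem_range.mp hj)
  · intro x _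
    rfl

/-- Explicit form of the trace: `Tr F = F + ∑_{b < p} F|S T^b`. -/
theorem coe_traceForm' (F : ModularForm (Gamma0 p) k) :
    ((traceForm F : ModularForm 𝒮ℒ k) : ℍ → ℂ) =
      (F : ℍ → ℂ) + ∑ b ∈ Finset.range p, (F : ℍ → ℂ) ∣[k] (S * T ^ (b : ℤ)) := by
  rw [coe_traceForm, traceFun, sum_tr_eq_sum_range]

theorem traceForm_apply (F : ModularForm (Gamma0 p) k) (τ : ℍ) :
    (traceForm F : ModularForm 𝒮ℒ k) τ =
      F τ + ∑ b ∈ Finset.range p, ((F : ℍ → ℂ) ∣[k] (S * T ^ (b : ℤ))) τ := by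
  have := congrFun (coe_traceForm' F) τ
  simpa using this

/-- Weight two: the conjugates of a form of level `Γ₀(p)`. -/
theorem form_slash_ST_eq (F : ModularForm (Gamma0 p) 2) (b : ℕ) :
    (F : ℍ → ℂ) ∣[(2 : ℤ)] (S * T ^ (b : ℤ) : SL(2, ℤ)) =
      -((heckeU 2 p F) ∣[(2 : ℤ)] heckeMatrix p b) :=
  slash_ST_eq (form_mdiff F) (form_hinv F) (by simpa using form_bdd F 1) (form_bdd F _) b

theorem form_heckeU_heckeU (F : ModularForm (Gamma0 p) 2) :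
    heckeU 2 p (heckeU 2 p F) = F :=
  heckeU_heckeU (form_mdiff F) (form_hinv F) (by simpa using form_bdd F 1) (form_bdd F _)

theorem form_fricke_eq (F : ModularForm (Gamma0 p) 2) :
    fricke p F = -heckeU 2 p F :=
  fricke_eq (form_mdiff F) (form_hinv F) (by simpa using form_bdd F 1) (form_bdd F _)

theorem form_traceFun_eq_zero (F : ModularForm (Gamma0 p) 2) : traceFun p 2 F = 0 :=
  traceFun_eq_zero (form_mdiff F) (form_hinv F) (form_bdd F)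

end Forms

end Fermat.Agent.S16.FrickeTraceFn
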