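import Fermat.Agent.S16.SerreCoreOps

/-!
# S16, Serre-derivative closure of the `ℓ = 2, 3` gaps: the coefficient ring

`IntL ℓ ⊂ ℂ`: algebraic numbers `x` such that `m x` is an algebraic integer for some `m` prime to
`ℓ`.  It contains `ℤ_(ℓ)` and all roots of unity, and `ℓ` is not a unit in it, so
`Kl ℓ := IntL ℓ ⧸ (ℓ)` is a nontrivial ring in which `ℓ = 0`.  Mathlib only.
-/

set_option autoImplicit false

namespace Fermat.Agent.S16.SerreCoreRing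

open PowerSeries Fermat.Agent.S16.SerreCoreOps

/-- Algebraic numbers which are integral at `ℓ`. -/
def IntL (ℓ : ℕ) [hℓ : Fact ℓ.Prime] : Subring ℂ where
  carrier := {x | ∃ m : ℕ, ¬ ℓ ∣ m ∧ IsIntegral ℤ ((m : ℂ) * x)}
  mul_mem' := by
    rintro x y ⟨m, hm, hx⟩ ⟨n, hn, hy⟩
    refine ⟨m * n, fun h => ?_, ?_⟩
    · rcases (Nat.Prime.dvd_mul hℓ.out).1 h with h | h
      exacts [hm h, hn h]
    · have : ((m * n : ℕ) : ℂ) * (x * y) = ((m : ℂ) * x) * ((n : ℂ) * y) := by push_cast; ring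
      rw [this]
      exact hx.mul hy
  one_mem' := ⟨1, fun h => hℓ.out.one_lt.ne' (Nat.dvd_one.1 h), by simpa using isIntegral_one⟩
  add_mem' := by
    rintro x y ⟨m, hm, hx⟩ ⟨n, hn, hy⟩
    refine ⟨m * n, fun h => ?_, ?_⟩
    · rcases (Nat.Prime.dvd_mul hℓ.out).1 h with h | h
      exacts [hm h, hn h]
    · have : ((m * n : ℕ) : ℂ) * (x + y) = ((n : ℤ) : ℂ) * ((m : ℂ) * x) + ((m : ℤ) : ℂ) * ((n : ℂ) * y) := by
        push_cast; ring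
      rw [this]
      exact ((isIntegral_algebraMap (R := ℤ) (A := ℂ) (x := (n : ℤ))).mul hx).add
        ((isIntegral_algebraMap (R := ℤ) (A := ℂ) (x := (m : ℤ))).mul hy)
  zero_mem' := ⟨1, fun h => hℓ.out.one_lt.ne' (Nat.dvd_one.1 h), by simpa using isIntegral_zero⟩
  neg_mem' := by
    rintro x ⟨m, hm, hx⟩
    refine ⟨m, hm, ?_⟩
    rw [mul_neg]
    exact hx.neg

variable (ℓ : ℕ) [hℓ : Fact ℓ.Prime]

theorem mem_IntL_iff (x : ℂ) :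
    x ∈ IntL ℓ ↔ ∃ m : ℕ, ¬ ℓ ∣ m ∧ IsIntegral ℤ ((m : ℂ) * x) := Iff.rfl

theorem mem_IntL_of_isIntegral {x : ℂ} (hx : IsIntegral ℤ x) : x ∈ IntL ℓ :=
  ⟨1, fun h => hℓ.out.one_lt.ne' (Nat.dvd_one.1 h), by simpa using hx⟩

theorem inv_natCast_mem_IntL {m : ℕ} (hm : ¬ ℓ ∣ m) : ((m : ℂ))⁻¹ ∈ IntL ℓ := by
  refine ⟨m, hm, ?_⟩
  have hm0 : (m : ℂ) ≠ 0 := by
    rw [Nat.cast_ne_zero]
    rintro rfl
    exact hm (dvd_zero _)
  rw [mul_inv_cancel₀ hm0]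
  exact isIntegral_one

theorem intCast_div_natCast_mem_IntL (a : ℤ) {m : ℕ} (hm : ¬ ℓ ∣ m) :
    (a : ℂ) / (m : ℂ) ∈ IntL ℓ := by
  rw [div_eq_mul_inv]
  exact (IntL ℓ).mul_mem (intCast_mem _ a) (inv_natCast_mem_IntL ℓ hm)

theorem ratCast_mem_IntL (r : ℚ) (hr : ¬ ℓ ∣ r.den) : (r : ℂ) ∈ IntL ℓ := by
  have : (r : ℂ) = (r.num : ℂ) / (r.den : ℂ) := by
    rw [Rat.cast_def]
  rw [this]
  exact intCast_div_natCast_mem_IntL ℓ _ hr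

theorem mem_IntL_of_pow_eq_one {ζ : ℂ} {n : ℕ} (hn : n ≠ 0) (hζ : ζ ^ n = 1) : ζ ∈ IntL ℓ := by
  apply mem_IntL_of_isIntegral
  exact IsIntegral.of_pow (Nat.pos_of_ne_zero hn) (by rw [hζ]; exact isIntegral_one)

theorem inv_prime_notMem_IntL : ((ℓ : ℂ))⁻¹ ∉ IntL ℓ := by
  rintro ⟨m, hm, hx⟩
  have h1 : (m : ℂ) * ((ℓ : ℂ))⁻¹ = algebraMap ℚ ℂ ((m : ℚ) / (ℓ : ℚ)) := by
    simp [div_eq_mul_inv]
  rw [h1, isIntegral_algebraMap_iff (algebraMap ℚ ℂ).injective] at hx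
  obtain ⟨y, hy⟩ := IsIntegrallyClosed.isIntegral_iff.1 hx
  have hℓ0 : (ℓ : ℚ) ≠ 0 := by exact_mod_cast hℓ.out.ne_zero
  have h2 : (m : ℚ) = (y : ℚ) * (ℓ : ℚ) := by
    have : (y : ℚ) = (m : ℚ) / (ℓ : ℚ) := by simpa using hy
    rw [this, div_mul_cancel₀ _ hℓ0]
  have h3 : (m : ℤ) = y * (ℓ : ℤ) := by exact_mod_cast h2
  apply hm
  have : (ℓ : ℤ) ∣ (m : ℤ) := ⟨y, by rw [h3, mul_comm]⟩
  exact_mod_cast this

/-- The residue ring `IntL ℓ ⧸ (ℓ)`. -/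
abbrev Kl : Type := ↥(IntL ℓ) ⧸ Ideal.span {((ℓ : ℕ) : ↥(IntL ℓ))}

/-- Reduction modulo `ℓ`. -/
noncomputable abbrev red : ↥(IntL ℓ) →+* Kl ℓ := Ideal.Quotient.mk _

theorem natCast_Kl_eq_zero : ((ℓ : ℕ) : Kl ℓ) = 0 := by
  have : ((ℓ : ℕ) : Kl ℓ) = red ℓ ((ℓ : ℕ) : ↥(IntL ℓ)) := by simp
  rw [this]
  exact Ideal.Quotient.eq_zero_iff_mem.2 (Ideal.mem_span_singleton_self _)

instance Kl_nontrivial : Nontrivial (Kl ℓ) := by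
  apply Ideal.Quotient.nontrivial_iff.2
  intro h
  have h1 : (1 : ↥(IntL ℓ)) ∈ Ideal.span {((ℓ : ℕ) : ↥(IntL ℓ))} := by
    rw [h]; exact Submodule.mem_top
  obtain ⟨x, hx⟩ := Ideal.mem_span_singleton'.1 h1
  apply inv_prime_notMem_IntL ℓ
  have hx' : (x : ℂ) * (ℓ : ℂ) = 1 := by
    have := congrArg (Subtype.val) hx
    simpa using this
  have hℓ0 : (ℓ : ℂ) ≠ 0 := by exact_mod_cast hℓ.out.ne_zero
  have : ((ℓ : ℂ))⁻¹ = (x : ℂ) := by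
    exact (eq_inv_of_mul_eq_one_left hx').symm
  rw [this]
  exact x.2

/-- A series over `IntL ℓ` reducing to `0` is divisible by `ℓ`. -/
theorem exists_eq_mul_of_map_red_eq_zero (f : (↥(IntL ℓ))⟦X⟧) (hf : f.map (red ℓ) = 0) :
    ∃ g : (↥(IntL ℓ))⟦X⟧, f = C ((ℓ : ℕ) : ↥(IntL ℓ)) * g := by
  have h : ∀ n, ∃ y : ↥(IntL ℓ), coeff n f = ((ℓ : ℕ) : ↥(IntL ℓ)) * y := by
    intro n
    have h0 : red ℓ (coeff n f) = 0 := by
      rw [← coeff_map, hf, map_zero]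
    have := Ideal.Quotient.eq_zero_iff_mem.1 h0
    obtain ⟨y, hy⟩ := Ideal.mem_span_singleton'.1 this
    exact ⟨y, by rw [← hy, mul_comm]⟩
  choose y hy using h
  refine ⟨PowerSeries.mk y, ?_⟩
  ext n
  rw [coeff_C_mul, coeff_mk, hy]

end Fermat.Agent.S16.SerreCoreRing
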