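import Mathlib
import Fermat.Agent.S16.NormLevelOneGen
import Fermat.Agent.S16.LevelOneModL
import Fermat.Agent.S16.SerreCoreRing
import Fermat.Agent.S16.DivisorCongr

/-!
# S16, gaps `ℓ = 2, 3`: the form-independent glue between the norm to level one and the
algebraic cores `SerreCoreThree.three_contra` / `SerreCoreTwo.two_contra`

For `H : ModularForm (Gamma0 p) k` (in the cores `k = 8`) and `n := qExpansion 1 (normForm p H)`:

* `zeta_pow` : `zeta p ^ p = 1`;
* `hnorm` / `hnorm_of_eq` : the hypothesis `hnorm` of the cores, from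
  `NormLevelOneGen.expand_qExpansion_normForm`, with the expansion of `H ∣ S` in `t = q^(1/p)`
  replaced by `C c * qExpansion 1 Kt` (when `(H ∣ S)(z) = c * Kt(z/p)`) or by any given series;
* `hlevel` : the hypothesis `hlevel` of the cores, from
  `LevelOneModL.exists_poly_delta_of_qExpansion` with `A := IntL ℓ`, `ι := subtype`,
  `π := red ℓ` (`ℓ ∈ {2, 3}`), `Dz := DivisorCongr.Δq`.
-/

set_option autoImplicit false

open UpperHalfPlane ModularForm Complex MatrixGroups CongruenceSubgroup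
open scoped Real

noncomputable section

namespace Fermat.Agent.S16.G2GlueB

open Fermat.Agent.S24.CuspExpansion
open Fermat.Agent.S16.NormLevelOne Fermat.Agent.S16.NormLevelOneAlg
  Fermat.Agent.S16.NormLevelOneGen Fermat.Agent.S16.SerreCoreRing

variable (p : ℕ) [hp : Fact p.Prime] {k : ℤ}
variable (H : ModularForm ((Gamma0 p : Subgroup SL(2, ℤ)) : Subgroup (GL (Fin 2) ℝ)) k)

/-- `ζ_p ^ p = 1`. -/
theorem zeta_pow : zeta p ^ p = 1 := by
  have hpc : (p : ℂ) ≠ 0 := by exact_mod_cast hp.out.ne_zero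
  unfold zeta
  rw [← Complex.exp_nat_mul, mul_div_cancel₀ _ hpc]
  exact Complex.exp_two_pi_mul_I

/-- `hnorm` with arbitrary names for the two expansions. -/
theorem hnorm_of_eq (A B : PowerSeries ℂ)
    (hA : qExpansion (1 : ℝ) (H : ℍ → ℂ) = A)
    (hB : qExpansion (p : ℝ) ((H : ℍ → ℂ) ∣[k] ModularGroup.S) = B) :
    PowerSeries.expand p hp.out.ne_zero (qExpansion (1 : ℝ) (normForm p H)) =
      PowerSeries.expand p hp.out.ne_zero A *
        ∏ b ∈ Finset.range p, PowerSeries.rescale (zeta p ^ b) B := by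
  rw [← hA, ← hB]
  exact expand_qExpansion_normForm p H

/-- `hnorm` from the pointwise description `(H ∣ S)(z) = c * Kt(z/p)` of the other cusp. -/
theorem hnorm (A B : PowerSeries ℂ) (Kt : ℍ → ℂ) (hKt : HolAtCusp 1 Kt) (c : ℂ)
    (h : ∀ z w : ℍ, (w : ℂ) = (z : ℂ) / p →
      ((H : ℍ → ℂ) ∣[k] ModularGroup.S) z = c * Kt w)
    (hA : qExpansion (1 : ℝ) (H : ℍ → ℂ) = A)
    (hB : PowerSeries.C c * qExpansion (1 : ℝ) Kt = B) :
    PowerSeries.expand p hp.out.ne_zero (qExpansion (1 : ℝ) (normForm p H)) =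
      PowerSeries.expand p hp.out.ne_zero A *
        ∏ b ∈ Finset.range p, PowerSeries.rescale (zeta p ^ b) B :=
  hnorm_of_eq p H A B hA ((qExpansion_slash_S_of_eq p H Kt hKt c h).trans hB)

/-- `240 = 0` and `504 = 0` in `Kl ℓ` for `ℓ ∈ {2, 3}`. -/
theorem cast_240_504 (ℓ : ℕ) [Fact ℓ.Prime] (hℓ : ℓ = 2 ∨ ℓ = 3) :
    (240 : Kl ℓ) = 0 ∧ (504 : Kl ℓ) = 0 := by
  have h0 := natCast_Kl_eq_zero (ℓ := ℓ)
  have key : ∀ m : ℕ, ℓ ∣ m → ((m : ℕ) : Kl ℓ) = 0 := by
    rintro m ⟨d, rfl⟩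
    rw [Nat.cast_mul, h0, zero_mul]
  have h240 : ℓ ∣ 240 := by rcases hℓ with rfl | rfl <;> norm_num
  have h504 : ℓ ∣ 504 := by rcases hℓ with rfl | rfl <;> norm_num
  exact ⟨by simpa using key 240 h240, by simpa using key 504 h504⟩

/-- `hlevel` of the cores, for an arbitrary level-one form of weight `K`. -/
theorem hlevel_of_levelOne (ℓ : ℕ) [Fact ℓ.Prime] (hℓ : ℓ = 2 ∨ ℓ = 3) {K : ℕ}
    (g : ModularForm 𝒮ℒ (K : ℤ)) :
    ∀ nR : PowerSeries ↥(IntL ℓ), nR.map (IntL ℓ).subtype = qExpansion (1 : ℝ) g →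
      ∃ P : Polynomial (Kl ℓ), 12 * P.natDegree ≤ K ∧
        nR.map (red ℓ) =
          Polynomial.aeval
            ((Fermat.Agent.S16.DivisorCongr.Δq).map (Int.castRingHom (Kl ℓ))) P := by
  intro nR hnR
  obtain ⟨h240, h504⟩ := cast_240_504 ℓ hℓ
  obtain ⟨P, hP, hnP⟩ := Fermat.Agent.S16.LevelOneModL.exists_poly_delta_of_qExpansion
    (IntL ℓ).subtype Subtype.val_injective (red ℓ) h240 h504 g nR hnR
  refine ⟨P, ?_, hnP⟩
  by_contra hlt
  rw [not_le] at hlt
  have hc : P.coeff P.natDegree = 0 := hP P.natDegree (by exact_mod_cast hlt)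
  have hP0 : P = 0 := by
    by_contra hne
    exact (Polynomial.leadingCoeff_ne_zero.2 hne) hc
  rw [hP0, Polynomial.natDegree_zero] at hlt
  omega

/-- `hlevel` of the cores for `n := qExpansion 1 (normForm p H)`, `H` of weight `8`. -/
theorem hlevel (ℓ : ℕ) [Fact ℓ.Prime] (hℓ : ℓ = 2 ∨ ℓ = 3)
    (H8 : ModularForm ((Gamma0 p : Subgroup SL(2, ℤ)) : Subgroup (GL (Fin 2) ℝ)) 8) :
    ∀ nR : PowerSeries ↥(IntL ℓ),
      nR.map (IntL ℓ).subtype = qExpansion (1 : ℝ) (normForm p H8) →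
      ∃ P : Polynomial (Kl ℓ), 12 * P.natDegree ≤ 8 * (p + 1) ∧
        nR.map (red ℓ) =
          Polynomial.aeval
            ((Fermat.Agent.S16.DivisorCongr.Δq).map (Int.castRingHom (Kl ℓ))) P := by
  have hK : (8 : ℤ) * ((p + 1 : ℕ) : ℤ) = ((8 * (p + 1) : ℕ) : ℤ) := by push_cast; ring
  intro nR hnR
  have h := hlevel_of_levelOne ℓ hℓ (K := 8 * (p + 1)) (ModularForm.mcast hK (normForm p H8)) nR
    (by rw [hnR]; rfl)
  exact h

end Fermat.Agent.S16.G2GlueB
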