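/-
S16 piece `G2Zero` (helper97): the expansion of `H₈ ∣ S` at the other cusp, in `t = q^(1/p)`
(`G2Asm.CuspZeroStatement`), and hence `Interfaces.Upper2bStatement`.
-/
import Fermat.Agent.S16.G2Asm
import Fermat.Agent.S16.SerreExpansion
import Fermat.Agent.S16.NormLevelOneFricke

set_option autoImplicit false

open UpperHalfPlane ModularForm CongruenceSubgroup
open scoped MatrixGroups Manifold

noncomputable section

namespace Fermat.Agent.S16.G2Zero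

open PowerSeries
open Fermat.Agent.S16.DivisorCongr Fermat.Agent.S16.G2Inst
open Fermat.Agent.S16.SerreCoreOps Fermat.Agent.S16.SerreCoreChar Fermat.Agent.S16.SerreCoreThree
open Fermat.Agent.S16.SerreCoreTwo
open Fermat.Agent.S16.SerreLevel Fermat.Agent.S16.E2LevelExtras
open Fermat.Agent.S24.LevelForms Fermat.Agent.S28.Haupt3.ScaleQExp

local notation "Sm" => ModularGroup.S

/-! ### Width `p` calculus -/

section An

variable (p : ℕ)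

/-- analyticity of the cusp function of width `p` at `0` -/
def An (φ : ℍ → ℂ) : Prop := AnalyticAt ℂ (cuspFunction (p : ℝ) φ) 0

variable {p} {φ ψ : ℍ → ℂ}

theorem An.add (h1 : An p φ) (h2 : An p ψ) : An p (φ + ψ) := by
  unfold An at *
  rw [cuspFunction_add h1.continuousAt h2.continuousAt]
  exact h1.add h2

theorem An.sub (h1 : An p φ) (h2 : An p ψ) : An p (φ - ψ) := by
  unfold An at *
  rw [cuspFunction_sub h1.continuousAt h2.continuousAt]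
  exact h1.sub h2

theorem An.mul (h1 : An p φ) (h2 : An p ψ) : An p (φ * ψ) := by
  unfold An at *
  rw [cuspFunction_mul h1.continuousAt h2.continuousAt]
  exact h1.mul h2

theorem An.smul (c : ℂ) (h1 : An p φ) : An p (c • φ) := by
  unfold An at *
  rw [cuspFunction_smul h1.continuousAt]
  exact h1.const_smul

theorem qE_add (h1 : An p φ) (h2 : An p ψ) :
    qExpansion (p : ℝ) (φ + ψ) = qExpansion (p : ℝ) φ + qExpansion (p : ℝ) ψ :=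
  UpperHalfPlane.qExpansion_add h1 h2

theorem qE_sub (h1 : An p φ) (h2 : An p ψ) :
    qExpansion (p : ℝ) (φ - ψ) = qExpansion (p : ℝ) φ - qExpansion (p : ℝ) ψ :=
  UpperHalfPlane.qExpansion_sub h1 h2

theorem qE_mul (h1 : An p φ) (h2 : An p ψ) :
    qExpansion (p : ℝ) (φ * ψ) = qExpansion (p : ℝ) φ * qExpansion (p : ℝ) ψ :=
  UpperHalfPlane.qExpansion_mul h1 h2

theorem qE_smul (c : ℂ) (h1 : An p φ) :
    qExpansion (p : ℝ) (c • φ) = C c * qExpansion (p : ℝ) φ := by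
  rw [UpperHalfPlane.qExpansion_smul h1, smul_eq_C_mul]

theorem slash_mul' (k1 k2 k : ℤ) (h : k1 + k2 = k) (φ ψ : ℍ → ℂ) :
    (φ * ψ) ∣[k] Sm = φ ∣[k1] Sm * ψ ∣[k2] Sm := by
  subst h
  exact mul_slash_SL2 k1 k2 Sm φ ψ

theorem slash_sub' (k : ℤ) (φ ψ : ℍ → ℂ) :
    (φ - ψ) ∣[k] Sm = φ ∣[k] Sm - ψ ∣[k] Sm := by
  rw [sub_eq_add_neg, SlashAction.add_slash, SlashAction.neg_slash, ← sub_eq_add_neg]

end An

section Forms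

variable (p : ℕ) [hp : Fact p.Prime] (F : ModularForm (G0 p) 2)

local instance neZero_p'' : NeZero p := ⟨hp.out.ne_zero⟩

theorem An_slash {k : ℤ} (G : ModularForm (G0 p) k) : An p ((G : ℍ → ℂ) ∣[k] Sm) := by
  have hp0 : (0 : ℝ) < p := by exact_mod_cast hp.out.pos
  have hper := SerreExpansion.periodic_slash_S_T p G 0
  rw [zpow_zero, mul_one] at hper
  exact analyticAt_cuspFunction_zero hp0 hper (SerreExpansion.mdifferentiable_slash G Sm)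
    (SerreExpansion.isBoundedAtImInfty_slash G Sm)

/-! ### the basic conjugates -/

theorem qE_F : qExpansion (p : ℝ) ((F : ℍ → ℂ) ∣[(2 : ℤ)] Sm) =
    C (-(1 / (p : ℂ))) * Up p (qExpansion 1 F) := by
  ext n
  rw [NormLevelOneFricke.coeff_qExpansion_slash_S, coeff_C_mul, coeff_Up, mul_comm n p]
  ring

theorem qE_Ep : qExpansion (p : ℝ) ((Ep p : ℍ → ℂ) ∣[(2 : ℤ)] Sm) =
    C (-(1 / (p : ℂ))) * EpSeries p (NeZero.ne p) Sc := by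
  have h := NormLevelOneGen.qExpansion_slash_S_of_eq p (Ep p) (Ep p : ℍ → ℂ)
    (NormLevelOne.holAtCusp_one_F p (Ep p)) (-(1 / (p : ℂ))) ?_
  · rw [h, qExp_Ep]
  · intro z w hw
    rw [Ep, eisOne_slash_S p z w hw]
    ring

omit hp in
theorem E4p_coe : (E4p p : ℍ → ℂ) = (E₄ : ℍ → ℂ) := by
  funext z
  rw [E4p, scaleForm_apply, Fermat.Agent.S24.scaleH_one]

theorem qE_E4p : qExpansion (p : ℝ) ((E4p p : ℍ → ℂ) ∣[(4 : ℤ)] Sm) =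
    expand p (NeZero.ne p) (1 + 240 * S3c) := by
  have hS : ((E₄ : ℍ → ℂ) ∣[(4 : ℤ)] Sm) = (E₄ : ℍ → ℂ) := by
    have := SlashInvariantForm.slash_action_eqn E₄ (Sm : GL (Fin 2) ℝ) ⟨Sm, rfl⟩
    exact this
  rw [E4p_coe, hS, SerreExpansion.qExpansion_natCast_eq_expand
    (SlashInvariantFormClass.periodic_comp_ofComplex E₄ _root_.one_mem_strictPeriods_SL)
    (ModularFormClass.holo E₄) (ModularFormClass.bdd_at_infty E₄) p (NeZero.ne p),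
    qExpansion_E4', toC_E4q]

/-! ### conjugates of the derived forms -/

theorem sl_gF : (gF p F : ℍ → ℂ) ∣[(2 : ℤ)] Sm =
    (1 / 4 : ℂ) • ((F : ℍ → ℂ) ∣[(2 : ℤ)] Sm - (Ep p : ℍ → ℂ) ∣[(2 : ℤ)] Sm) := by
  have h : (gF p F : ℍ → ℂ) = (1 / 4 : ℂ) • ((F : ℍ → ℂ) - (Ep p : ℍ → ℂ)) := rfl
  rw [h, SL_smul_slash, slash_sub']

/-- `ĝ` -/
abbrev ghat (f : ℂ⟦X⟧) : ℂ⟦X⟧ :=
  C (-(1 / (p : ℂ))) * (C (1 / 4 : ℂ) * (Up p f - EpSeries p (NeZero.ne p) Sc))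

/-- `Ê` -/
abbrev Ehat : ℂ⟦X⟧ := C (-(1 / (p : ℂ))) * EpSeries p (NeZero.ne p) Sc

theorem qE_gF : qExpansion (p : ℝ) ((gF p F : ℍ → ℂ) ∣[(2 : ℤ)] Sm) =
    ghat p (qExpansion 1 F) := by
  rw [sl_gF, qE_smul _ ((An_slash p F).sub (An_slash p (Ep p))),
    qE_sub (An_slash p F) (An_slash p (Ep p)), qE_F, qE_Ep]
  ring

theorem sl_G4 : (G4 p F : ℍ → ℂ) ∣[(4 : ℤ)] Sm =
    (gF p F : ℍ → ℂ) ∣[(2 : ℤ)] Sm * (gF p F : ℍ → ℂ) ∣[(2 : ℤ)] Sm +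
      (gF p F : ℍ → ℂ) ∣[(2 : ℤ)] Sm * (Ep p : ℍ → ℂ) ∣[(2 : ℤ)] Sm := by
  have h : (G4 p F : ℍ → ℂ) =
      (gF p F : ℍ → ℂ) * (gF p F : ℍ → ℂ) + (gF p F : ℍ → ℂ) * (Ep p : ℍ → ℂ) := rfl
  rw [h, SlashAction.add_slash, slash_mul' 2 2 4 (by norm_num), slash_mul' 2 2 4 (by norm_num)]

theorem qE_G4 : qExpansion (p : ℝ) ((G4 p F : ℍ → ℂ) ∣[(4 : ℤ)] Sm) =
    G4two (ghat p (qExpansion 1 F)) (Ehat p) := by
  rw [sl_G4, qE_add ((An_slash p (gF p F)).mul (An_slash p (gF p F)))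
    ((An_slash p (gF p F)).mul (An_slash p (Ep p))),
    qE_mul (An_slash p (gF p F)) (An_slash p (gF p F)),
    qE_mul (An_slash p (gF p F)) (An_slash p (Ep p)), qE_gF, qE_Ep, G4two]
  ring

theorem qE_dG4 : qExpansion (p : ℝ) ((dG4 p F : ℍ → ℂ) ∣[(6 : ℤ)] Sm) =
    serre4 (1 / (p : ℂ)) (1 / 3) (qExpansion (p : ℝ) ((G4 p F : ℍ → ℂ) ∣[(4 : ℤ)] Sm))
      (expand p (NeZero.ne p) (1 - 24 * Sc)) := by
  have h := SerreExpansion.qExpansion_serreLevel_slash_S p (G4 p F)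
  have h' : (dG4 p F : ℍ → ℂ) ∣[(6 : ℤ)] Sm =
      (serreLevel (G4 p F) : ℍ → ℂ) ∣[(4 : ℤ) + 2] Sm := rfl
  rw [h', h, serre4, SerreExpansion.E2q]
  have h1 : C (((4 : ℤ) : ℂ) * 12⁻¹) = C (1 / 3 : ℂ) := by congr 1; norm_num
  rw [h1, one_div (p : ℂ)]
  ring

theorem qE_ddG4 :
    (2 : ℂ⟦X⟧) * qExpansion (p : ℝ) ((ddG4 p F : ℍ → ℂ) ∣[(8 : ℤ)] Sm) =
      2 * (C (1 / (p : ℂ)) * SerreCoreOps.theta
        (qExpansion (p : ℝ) ((dG4 p F : ℍ → ℂ) ∣[(6 : ℤ)] Sm))) -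
      expand p (NeZero.ne p) (1 - 24 * Sc) *
        qExpansion (p : ℝ) ((dG4 p F : ℍ → ℂ) ∣[(6 : ℤ)] Sm) := by
  have h := SerreExpansion.qExpansion_serreLevel_slash_S p (dG4 p F)
  have h' : (ddG4 p F : ℍ → ℂ) ∣[(8 : ℤ)] Sm =
      (serreLevel (dG4 p F) : ℍ → ℂ) ∣[(6 : ℤ) + 2] Sm := rfl
  rw [h', h, SerreExpansion.E2q]
  have h1 : C (((6 : ℤ) : ℂ) * 12⁻¹) = C (1 / 2 : ℂ) := by congr 1; norm_num
  have h2 : (2 : ℂ⟦X⟧) * C (1 / 2 : ℂ) = 1 := by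
    rw [← map_ofNat (C (R := ℂ)) 2, ← map_mul]
    norm_num
  rw [h1, one_div (p : ℂ)]
  linear_combination (-(expand p (NeZero.ne p) (1 - 24 * Sc)) *
    qExpansion (p : ℝ) ((dG4 p F : ℍ → ℂ) ∣[(6 : ℤ)] Sm)) * h2

theorem sl_F8 : (F8 p F : ℍ → ℂ) ∣[(8 : ℤ)] Sm =
    (2 : ℂ) • (ddG4 p F : ℍ → ℂ) ∣[(8 : ℤ)] Sm -
      (1 / 3 : ℂ) • ((Ep p : ℍ → ℂ) ∣[(2 : ℤ)] Sm * (dG4 p F : ℍ → ℂ) ∣[(6 : ℤ)] Sm) -
      (4 / 9 : ℂ) • ((E4p p : ℍ → ℂ) ∣[(4 : ℤ)] Sm * (G4 p F : ℍ → ℂ) ∣[(4 : ℤ)] Sm) := by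
  have h : (F8 p F : ℍ → ℂ) = (2 : ℂ) • (ddG4 p F : ℍ → ℂ) -
      (1 / 3 : ℂ) • ((Ep p : ℍ → ℂ) * (dG4 p F : ℍ → ℂ)) -
      (4 / 9 : ℂ) • ((E4p p : ℍ → ℂ) * (G4 p F : ℍ → ℂ)) := rfl
  rw [h, slash_sub', slash_sub', SL_smul_slash, SL_smul_slash, SL_smul_slash,
    slash_mul' 2 6 8 (by norm_num), slash_mul' 4 4 8 (by norm_num)]

theorem qE_F8 : qExpansion (p : ℝ) ((F8 p F : ℍ → ℂ) ∣[(8 : ℤ)] Sm) =
    F8two (1 / (p : ℂ)) (1 / 3) (qExpansion (p : ℝ) ((G4 p F : ℍ → ℂ) ∣[(4 : ℤ)] Sm))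
      (expand p (NeZero.ne p) (1 - 24 * Sc)) (expand p (NeZero.ne p) (1 + 240 * S3c))
      (Ehat p) := by
  have a1 := An_slash p (ddG4 p F)
  have a2 := An_slash p (Ep p)
  have a3 := An_slash p (dG4 p F)
  have a4 := An_slash p (E4p p)
  have a5 := An_slash p (G4 p F)
  rw [sl_F8, qE_sub ((a1.smul 2).sub ((a2.mul a3).smul (1 / 3))) ((a4.mul a5).smul (4 / 9)),
    qE_sub (a1.smul 2) ((a2.mul a3).smul (1 / 3)), qE_smul _ a1, qE_smul _ (a2.mul a3),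
    qE_smul _ (a4.mul a5), qE_mul a2 a3, qE_mul a4 a5, qE_Ep, qE_E4p, F8two, ← qE_dG4]
  have h2 : C (2 : ℂ) = (2 : ℂ⟦X⟧) := map_ofNat _ 2
  have h49 : C (4 / 9 : ℂ) = 4 * C (1 / 3 : ℂ) ^ 2 := by
    rw [← map_pow, ← map_ofNat (C (R := ℂ)) 4, ← map_mul]
    congr 1; norm_num
  rw [h2, h49]
  linear_combination qE_ddG4 p F

theorem sl_H8 : (H8 p F : ℍ → ℂ) ∣[(8 : ℤ)] Sm =
    (E4p p : ℍ → ℂ) ∣[(4 : ℤ)] Sm * (G4 p F : ℍ → ℂ) ∣[(4 : ℤ)] Sm +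
      (1 / 4 : ℂ) • (F8 p F : ℍ → ℂ) ∣[(8 : ℤ)] Sm := by
  have h : (H8 p F : ℍ → ℂ) = (E4p p : ℍ → ℂ) * (G4 p F : ℍ → ℂ) +
      (1 / 4 : ℂ) • (F8 p F : ℍ → ℂ) := rfl
  rw [h, SlashAction.add_slash, SL_smul_slash, slash_mul' 4 4 8 (by norm_num)]

/-- **The expansion of `H₈ ∣ S` in `t = q^(1/p)`.** -/
theorem qE_H8 : qExpansion (p : ℝ) ((H8 p F : ℍ → ℂ) ∣[(8 : ℤ)] Sm) =
    H8zero2 p (NeZero.ne p) Sc S3c (qExpansion 1 F) := by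
  have a4 := An_slash p (E4p p)
  have a5 := An_slash p (G4 p F)
  have a6 := An_slash p (F8 p F)
  rw [sl_H8, qE_add (a4.mul a5) (a6.smul (1 / 4)), qE_mul a4 a5, qE_smul _ a6, qE_F8, qE_E4p,
    qE_G4, H8zero2, H8two]

end Forms

theorem cuspZero : G2Asm.CuspZeroStatement := by
  intro p _ F
  exact qE_H8 p F

/-- **`ℓ = 2`, `p ≡ 3 mod 4`: there is no `F ≡ 1 mod 8`.** -/
theorem upper2b : Interfaces.Upper2bStatement := G2Asm.upper2b_of cuspZero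

end Fermat.Agent.S16.G2Zero
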