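import Fermat.Agent.S16.G2Asm
import Fermat.Agent.S16.SerreExpansion
import Fermat.Agent.S16.NormLevelOneFricke
import Fermat.Agent.S16.NormLevelOneGen
import Fermat.Agent.S16.E2LevelExtras

/-!
# S16, `ℓ = 2`: the expansion of `H₈ ∣ S` at the other cusp (`G2Asm.CuspZeroStatement`)

Generic width-`p` calculus for `qS X := qExpansion p (X ∣[k] S)`, `X` a modular form on `Γ₀(p)`
(sums, scalar multiples, products, weight casts, Serre derivative; base cases `F` of weight `2`,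
the Eisenstein series `eisOne p`, and `E₄`), then the chain `g, G₄, ∂G₄, ∂²G₄, F₈, H₈` of
`G2Inst` at the cusp `0`.
-/

set_option autoImplicit false

open UpperHalfPlane ModularForm CongruenceSubgroup
open scoped MatrixGroups

noncomputable section

namespace Fermat.Agent.S16.G2ZeroB

open PowerSeries
open Fermat.Agent.S16.DivisorCongr Fermat.Agent.S16.DeltaTheta Fermat.Agent.S16.G2Inst
open Fermat.Agent.S16.SerreCoreOps Fermat.Agent.S16.SerreCoreChar Fermat.Agent.S16.SerreCoreThree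
open Fermat.Agent.S16.SerreCoreTwo
open Fermat.Agent.S16.SerreLevel Fermat.Agent.S16.E2LevelExtras
open Fermat.Agent.S16.NormLevelOne Fermat.Agent.S16.NormLevelOneGen
open Fermat.Agent.S24.CuspExpansion
open Fermat.Agent.S28.Haupt3.ScaleQExp

variable (p : ℕ) [hp : Fact p.Prime]

local instance neZero_p'' : NeZero p := ⟨hp.out.ne_zero⟩

/-! ### Generic width-`p` calculus -/

section Generic

variable {k l : ℤ}

/-- the function `X ∣[k] S` -/
def sl (X : ModularForm (G0 p) k) : ℍ → ℂ := (X : ℍ → ℂ) ∣[k] ModularGroup.S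

/-- the expansion of `X ∣[k] S` in `t = q^(1/p)` -/
def qS (X : ModularForm (G0 p) k) : ℂ⟦X⟧ := qExpansion (p : ℝ) (sl p X)

theorem holS (X : ModularForm (G0 p) k) : HolAtCusp p (sl p X) :=
  holAtCusp_slash p X ModularGroup.S

theorem sl_add (f g : ModularForm (G0 p) k) : sl p (f + g) = sl p f + sl p g := by
  unfold sl
  rw [ModularForm.coe_add, SlashAction.add_slash]

theorem sl_sub (f g : ModularForm (G0 p) k) : sl p (f - g) = sl p f + -sl p g := by
  unfold sl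
  rw [ModularForm.coe_sub, sub_eq_add_neg, SlashAction.add_slash, SlashAction.neg_slash]

theorem sl_smul (c : ℂ) (f : ModularForm (G0 p) k) :
    sl p (c • f) = (fun _ : ℍ => c) * sl p f := by
  unfold sl
  rw [ModularForm.coe_smul, ModularForm.SL_smul_slash]
  funext z
  simp

theorem sl_mul (f : ModularForm (G0 p) k) (g : ModularForm (G0 p) l) :
    sl p (f.mul g) = sl p f * sl p g := by
  unfold sl
  rw [ModularForm.coe_mul, ModularForm.mul_slash_SL2]

theorem sl_mcast (h : k = l) (f : ModularForm (G0 p) k) :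
    sl p (ModularForm.mcast h f) = sl p f := by
  subst h
  rfl

theorem qS_add (f g : ModularForm (G0 p) k) : qS p (f + g) = qS p f + qS p g := by
  unfold qS
  rw [sl_add, qExpansion_add' (holS p f) (holS p g)]

theorem qS_sub (f g : ModularForm (G0 p) k) : qS p (f - g) = qS p f - qS p g := by
  unfold qS
  rw [sl_sub, qExpansion_add' (holS p f) (holS p g).neg, qExpansion_neg' (holS p g),
    sub_eq_add_neg]

theorem qS_smul (c : ℂ) (f : ModularForm (G0 p) k) : qS p (c • f) = C c * qS p f := by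
  unfold qS
  rw [sl_smul, qExpansion_mul' (HolAtCusp.const c) (holS p f), qExpansion_const']

theorem qS_mul (f : ModularForm (G0 p) k) (g : ModularForm (G0 p) l) :
    qS p (f.mul g) = qS p f * qS p g := by
  unfold qS
  rw [sl_mul, qExpansion_mul' (holS p f) (holS p g)]

theorem qS_mcast (h : k = l) (f : ModularForm (G0 p) k) :
    qS p (ModularForm.mcast h f) = qS p f := by
  unfold qS
  rw [sl_mcast]

/-- Serre derivative at the cusp `0`: `(1/p) θ X - (k/12) E₂(t^p) X`. -/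
theorem qS_serreLevel (G : ModularForm (G0 p) k) :
    qS p (serreLevel G) =
      C ((p : ℂ)⁻¹) * SerreCoreOps.theta (qS p G) -
        C ((k : ℂ) * 12⁻¹) * (expand p (NeZero.ne p) (1 - 24 * Sc) * qS p G) := by
  have h := SerreExpansion.qExpansion_serreLevel_slash_S p G
  unfold qS sl
  rw [h, SerreExpansion.E2q]

end Generic

/-! ### Base cases -/

section Base

/-- `F ∣ S` for `F` of weight `2`: `-(1/p) U_p f`. -/
theorem qS_F (F : ModularForm (G0 p) 2) :
    qS p F = C (-(1 / (p : ℂ))) * Up p (qExpansion 1 F) := by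
  ext n
  unfold qS sl
  rw [Fermat.Agent.S16.NormLevelOneFricke.coeff_qExpansion_slash_S p F n, coeff_C_mul, coeff_Up,
    mul_comm n p]
  ring

/-- `E ∣ S = -(1/p) E(z/p)`. -/
theorem qS_Ep : qS p (Ep p) = C (-(1 / (p : ℂ))) * EpSeries p (NeZero.ne p) Sc := by
  unfold qS sl
  have h := qExpansion_slash_S_of_eq p (Ep p) (⇑(Ep p)) (holAtCusp_one_F p (Ep p)) (-(p : ℂ)⁻¹)
    (fun z w hw => by
      have := eisOne_slash_S p z w hw
      rw [Ep, this]
      ring)
  rw [h, qExp_Ep, one_div]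

/-- `E₄ ∣ S = E₄`, expanded in `t`: `E₄(t^p)`. -/
theorem qS_E4p : qS p (E4p p) = expand p (NeZero.ne p) (1 + 240 * S3c) := by
  unfold qS sl
  have hcoe : (⇑(E4p p) : ℍ → ℂ) = ⇑E₄ := by
    funext z
    rw [E4p, Fermat.Agent.S24.LevelForms.scaleForm_apply, Fermat.Agent.S24.scaleH_one]
  have hS : (⇑E₄ : ℍ → ℂ) ∣[(4 : ℤ)] ModularGroup.S = ⇑E₄ :=
    SlashInvariantForm.slash_action_eqn E₄ _ ⟨ModularGroup.S, rfl⟩
  rw [hcoe, hS]
  rw [SerreExpansion.qExpansion_natCast_eq_expand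
    (SlashInvariantFormClass.periodic_comp_ofComplex E₄
      _root_.one_mem_strictPeriods_SL)
    (ModularFormClass.holo E₄) (ModularFormClass.bdd_at_infty E₄) p (NeZero.ne p),
    qExpansion_E4', toC_E4q]

end Base

/-! ### The chain `g, G₄, ∂G₄, ∂²G₄, F₈, H₈` at the cusp `0` -/

section Chain

variable (F : ModularForm (G0 p) 2)

/-- the expansion of `g ∣ S` -/
abbrev gz : ℂ⟦X⟧ :=
  C (-(1 / (p : ℂ))) * (C (1 / 4 : ℂ) * (Up p (qExpansion 1 F) - EpSeries p (NeZero.ne p) Sc))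

/-- the expansion of `E ∣ S` -/
abbrev Ez : ℂ⟦X⟧ := C (-(1 / (p : ℂ))) * EpSeries p (NeZero.ne p) Sc

/-- `E₂(t^p)` -/
abbrev E2z : ℂ⟦X⟧ := expand p (NeZero.ne p) (1 - 24 * Sc)

/-- `E₄(t^p)` -/
abbrev E4z : ℂ⟦X⟧ := expand p (NeZero.ne p) (1 + 240 * S3c)

theorem qS_gF : qS p (gF p F) = gz p F := by
  rw [gF, qS_smul, qS_sub, qS_F, qS_Ep]
  ring

theorem qS_G4 : qS p (G4 p F) = G4two (gz p F) (Ez p) := by
  rw [G4, qS_mcast, qS_add, qS_mul, qS_mul, qS_gF, qS_Ep, G4two]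
  ring

theorem qS_dG4 :
    qS p (dG4 p F) = serre4 (1 / (p : ℂ)) (1 / 3) (qS p (G4 p F)) (E2z p) := by
  rw [dG4, qS_mcast, qS_serreLevel, serre4]
  have h1 : C (((4 : ℤ) : ℂ) * 12⁻¹) = C (1 / 3 : ℂ) := by congr 1; norm_num
  have h2 : C ((p : ℂ)⁻¹) = C (1 / (p : ℂ)) := by rw [one_div]
  rw [h1, h2]
  ring

theorem qS_ddG4 :
    (2 : ℂ⟦X⟧) * qS p (ddG4 p F) =
      2 * (C (1 / (p : ℂ)) * SerreCoreOps.theta (qS p (dG4 p F))) - E2z p * qS p (dG4 p F) := by
  rw [ddG4, qS_mcast, qS_serreLevel]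
  have h1 : C (((6 : ℤ) : ℂ) * 12⁻¹) = C (1 / 2 : ℂ) := by congr 1; norm_num
  have h2 : C ((p : ℂ)⁻¹) = C (1 / (p : ℂ)) := by rw [one_div]
  rw [h1, h2]
  have h3 : (2 : ℂ⟦X⟧) * C (1 / 2 : ℂ) = 1 := by
    rw [← map_ofNat (C (R := ℂ)) 2, ← map_mul]
    norm_num
  linear_combination (-(E2z p) * qS p (dG4 p F)) * h3

theorem qS_F8 :
    qS p (F8 p F) =
      F8two (1 / (p : ℂ)) (1 / 3) (qS p (G4 p F)) (E2z p) (E4z p) (Ez p) := by
  rw [F8, qS_sub, qS_sub, qS_smul, qS_smul, qS_smul, qS_mcast, qS_mcast, qS_mul,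
    qS_mul, qS_Ep, qS_E4p, F8two, ← qS_dG4]
  have h2 : C (2 : ℂ) = (2 : ℂ⟦X⟧) := map_ofNat _ 2
  have h49 : C (4 / 9 : ℂ) = 4 * C (1 / 3 : ℂ) ^ 2 := by
    rw [← map_pow, ← map_ofNat (C (R := ℂ)) 4, ← map_mul]
    congr 1; norm_num
  rw [h2, h49]
  linear_combination qS_ddG4 p F

/-- **The expansion of `H₈ ∣ S` in `t = q^(1/p)`** (shape of `SerreCoreTwo.H8zero2`). -/
theorem qS_H8 :
    qS p (H8 p F) = H8zero2 p (NeZero.ne p) Sc S3c (qExpansion 1 F) := by
  rw [H8, qS_add, qS_mcast, qS_mul, qS_smul, qS_E4p, qS_F8, qS_G4, H8zero2, H8two]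

end Chain

/-- **`CuspZeroStatement`**: the expansion of `H₈ ∣ S` at the cusp `0`. -/
theorem cuspZeroStatement : Fermat.Agent.S16.G2Asm.CuspZeroStatement :=
  fun p _ F => qS_H8 p F

/-- **(UP2b)** `ℓ = 2`, `p ≡ 3 mod 4`: no `F ≡ 1 mod 8`. -/
theorem upper2b : Fermat.Agent.S16.Interfaces.Upper2bStatement :=
  Fermat.Agent.S16.G2Asm.upper2b_of cuspZeroStatement

end Fermat.Agent.S16.G2ZeroB
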