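/-
S16, piece G23.inst.B3 (helper20): ANALYTIC INSTANTIATION of helper52's `SerreCoreThree.three_contra`
= the case `ℓ = 3`, `p ≡ 2 mod 3` of the upper bound: `upper3b : Interfaces.Upper3bStatement`
(no weight-2 form of level `p` is `≡ 1 mod 9`).

Route = helper52 #1235 (G3) in helper90's #1371 form.  For `F ≡ 1 mod 9`: `g = (F - E)/3`,
`G₆ = g³ - g E²`, `H₈ = ∂₆ G₆` (`SerreLevel.serreLevel`).  At `∞` the expansion of `H₈` is
`H8inf3`; at the cusp `0`, `(g ∣ S)(z) = -(1/p) g₁(z/p)` (`FrickeTrace.slash_S_eq`,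
`E2LevelExtras.eisOne_slash_S`), so `(H₈ ∣ S)(z) = p⁻¹ K(z/p)` for a genuine width-one `K`
(`SerreScale.serreDerivative_comp_divN`), whose expansion is `H8zero3`.  The norm of `H₈`
(`NormLevelOneGen.normForm`) is a level-one form of weight `8(p+1)`; `LevelOneModL` gives the
polynomial-in-`Δ` shape and `three_contra` the contradiction.
-/
import Fermat.Agent.S16.SerreCoreThree
import Fermat.Agent.S16.NormLevelOneGen
import Fermat.Agent.S16.LevelOneModL
import Fermat.Agent.S16.DeltaTheta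
import Fermat.Agent.S16.E2LevelExtras
import Fermat.Agent.S16.FrickeTrace
import Fermat.Agent.S16.SerreLevel
import Fermat.Agent.S16.SerreScale
import Fermat.Agent.S16.Interfaces2

set_option autoImplicit false

namespace Fermat.Agent.S16.G3InstB

open UpperHalfPlane hiding I
open ModularForm ModularFormClass MatrixGroups EisensteinSeries Complex Derivative
  Filter Topology CongruenceSubgroup SlashInvariantForm PowerSeries
open Fermat.Agent.S24.CuspExpansion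
open Fermat.Agent.S16.SerreCoreOps Fermat.Agent.S16.SerreCoreRing Fermat.Agent.S16.SerreCoreChar
  Fermat.Agent.S16.SerreCoreThree
open Fermat.Agent.S16.DivisorCongr Fermat.Agent.S16.E2Level Fermat.Agent.S16.E2LevelExtras
  Fermat.Agent.S16.EisBridge Fermat.Agent.S16.SerreScale
open scoped Manifold Real

/-- `S = ∑ σ(n) qⁿ` over `ℂ`. -/
noncomputable def Sc : ℂ⟦X⟧ := (sig 1).map (Int.castRingHom ℂ)

theorem qExpansion_E2_eq : qExpansion 1 E2 = 1 - 24 * Sc := by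
  rw [Fermat.Agent.S16.DeltaTheta.qExpansion_E2', Fermat.Agent.S16.DeltaTheta.E2q]
  simp only [toC, Sc, map_sub, map_one, map_mul, PowerSeries.map_C]
  rw [show (Int.castRingHom ℂ) 24 = 24 by simp, map_ofNat]

/-- `a³ - a b²` on functions. -/
def G6fun (a b : ℍ → ℂ) : ℍ → ℂ := a ^ 3 - a * b ^ 2

theorem G6fun_eq (a b : ℍ → ℂ) : G6fun a b = a * a * a + -(a * (b * b)) := by
  unfold G6fun
  ring

theorem holAtCusp_G6fun {h : ℕ} [NeZero h] {a b : ℍ → ℂ} (ha : HolAtCusp h a)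
    (hb : HolAtCusp h b) : HolAtCusp h (G6fun a b) := by
  rw [G6fun_eq]
  exact ((ha.mul ha).mul ha).add (ha.mul (hb.mul hb)).neg

theorem qExpansion_G6fun {h : ℕ} [NeZero h] {a b : ℍ → ℂ} (ha : HolAtCusp h a)
    (hb : HolAtCusp h b) :
    qExpansion (h : ℝ) (G6fun a b) =
      qExpansion (h : ℝ) a ^ 3 - qExpansion (h : ℝ) a * qExpansion (h : ℝ) b ^ 2 := by
  rw [G6fun_eq, qExpansion_add' ((ha.mul ha).mul ha) (ha.mul (hb.mul hb)).neg,
    qExpansion_neg' (ha.mul (hb.mul hb)), qExpansion_mul' (ha.mul ha) ha, qExpansion_mul' ha ha,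
    qExpansion_mul' ha (hb.mul hb), qExpansion_mul' hb hb]
  ring

theorem periodic_one_of_holAtCusp {G : ℍ → ℂ} (hG : HolAtCusp 1 G) :
    Function.Periodic (G ∘ ofComplex) (1 : ℝ) := by
  have := hG.per
  rwa [Nat.cast_one] at this

/-- `qExpansion 1 (D G) = θ (qExpansion 1 G)`. -/
theorem qExpansion_D_eq_theta {G : ℍ → ℂ} (hG : HolAtCusp 1 G) :
    qExpansion 1 (D G) = theta (qExpansion 1 G) := by
  ext n
  rw [Fermat.Agent.S16.SerreLevel.coeff_qExpansion_D one_pos (periodic_one_of_holAtCusp hG)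
    hG.hol hG.bdd n, coeff_theta]
  simp

theorem G6fun_slash (a b : ℍ → ℂ) (γ : SL(2, ℤ)) :
    G6fun a b ∣[(6 : ℤ)] γ = G6fun (a ∣[(2 : ℤ)] γ) (b ∣[(2 : ℤ)] γ) := by
  ext z
  simp only [G6fun, ModularForm.SL_slash_apply, Pi.sub_apply, Pi.mul_apply, Pi.pow_apply]
  set d := denom (γ : GL (Fin 2) ℝ) z with hd
  have hd0 : d ≠ 0 := denom_ne_zero _ z
  have e6 : d ^ (-(6 : ℤ)) = (d⁻¹) ^ 6 := by
    rw [show (-(6 : ℤ)) = -((6 : ℕ) : ℤ) by norm_num, zpow_neg, zpow_natCast, inv_pow]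
  have e2 : d ^ (-(2 : ℤ)) = (d⁻¹) ^ 2 := by
    rw [show (-(2 : ℤ)) = -((2 : ℕ) : ℤ) by norm_num, zpow_neg, zpow_natCast, inv_pow]
  rw [e6, e2]
  ring

section Level

variable (p : ℕ) [hp : Fact p.Prime]

local instance neZero_p' : NeZero p := ⟨hp.out.ne_zero⟩

/-- `qExpansion 1 (E2lvl p) = p * E₂(q^p) - E₂(q)`. -/
theorem qExpansion_E2lvl_eq :
    qExpansion 1 (E2lvl p) =
      C (p : ℂ) * expand p hp.out.ne_zero (1 - 24 * Sc) - (1 - 24 * Sc) := by
  ext m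
  rw [qExpansion_E2lvl_coeff, cE, map_sub, coeff_C_mul, ← qExpansion_E2_eq, coeff_expand]
  have haE : ∀ n, aE2 n = coeff n (qExpansion 1 E2) := by
    intro n
    rw [Fermat.Agent.S16.SerreLevel.coeff_qExpansion_E2, aE2]
  rw [haE, haE]
  split_ifs <;> simp

theorem qExpansion_eisOne_eq :
    qExpansion 1 (eisOne p) = EpSeries p hp.out.ne_zero Sc := by
  have hp1 : (p : ℂ) - 1 ≠ 0 := by
    intro h
    have : (p : ℂ) = 1 := by linear_combination h
    have : p = 1 := by exact_mod_cast this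
    exact hp.out.one_lt.ne' this
  have h1 : (eisOne p : ℍ → ℂ) = ((p : ℂ) - 1)⁻¹ • (E2lvl p : ℍ → ℂ) := by
    rw [coe_eisOne, coe_eisM, smul_smul]
    congr 1
    field_simp
  rw [h1, ModularForm.qExpansion_smul one_pos (one_mem_strictPeriods p), qExpansion_E2lvl_eq,
    EpSeries, PowerSeries.smul_eq_C_mul]
  have hC : (C ((p : ℂ) - 1)⁻¹ : ℂ⟦X⟧) * C ((p : ℂ) - 1) = 1 := by
    rw [← map_mul, inv_mul_cancel₀ hp1, map_one]
  have hC2 : (C ((24 : ℂ) / ((p : ℂ) - 1)) : ℂ⟦X⟧) = C ((p : ℂ) - 1)⁻¹ * 24 := by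
    rw [← map_ofNat (C (R := ℂ)) 24, ← map_mul]
    congr 1
    ring
  rw [hC2, map_sub, map_one, map_mul, map_ofNat]
  have hCp : (C ((p : ℂ) - 1) : ℂ⟦X⟧) = C (p : ℂ) - 1 := by rw [map_sub, map_one]
  rw [hCp] at hC
  linear_combination hC

open Fermat.Agent.S16.FrickeTrace Fermat.Agent.S28.ModPolyCoset in
theorem qExpansion_heckeUForm (F : ModularForm (GammaP p) 2) :
    qExpansion 1 (heckeUForm p F) = Up p (qExpansion 1 F) := by
  ext n
  rw [coeff_Up, coe_heckeUForm]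
  have h := ModularFormClass.qCoeff_heckeU F (one_mem_strictPeriods p) hp.out.ne_zero n
  rw [ModularForm.coeffHeckeU_apply] at h
  rw [mul_comm]
  exact h

/-! ### The forms `G₆ = g³ - g E²` and `H₈ = ∂₆ G₆` -/

open Fermat.Agent.S28.ModPolyCoset in
/-- `G₆ = g³ - g E²` as a form of weight `6`. -/
noncomputable def G6 (g E : ModularForm (GammaP p) 2) : ModularForm (GammaP p) 6 :=
  ModularForm.mcast (by norm_num : (2 : ℤ) + 2 + 2 = 6) (((g.mul g).mul g) - ((g.mul E).mul E))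

open Fermat.Agent.S28.ModPolyCoset in
theorem coe_G6 (g E : ModularForm (GammaP p) 2) : (G6 p g E : ℍ → ℂ) = G6fun g E := by
  rw [G6, ModularForm.coe_mcast, FunLike.coe_sub, ModularForm.coe_mul, ModularForm.coe_mul,
    ModularForm.coe_mul, ModularForm.coe_mul, G6fun]
  ring

open Fermat.Agent.S28.ModPolyCoset in
/-- `H₈ = ∂₆ G₆`. -/
noncomputable def H8 (g E : ModularForm (GammaP p) 2) : ModularForm (GammaP p) (6 + 2) :=
  Fermat.Agent.S16.SerreLevel.serreLevel (G6 p g E)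

open Fermat.Agent.S28.ModPolyCoset in
theorem holAtCusp_form {k : ℤ} (F : ModularForm (GammaP p) k) : HolAtCusp 1 (F : ℍ → ℂ) :=
  Fermat.Agent.S16.NormLevelOne.holAtCusp_one_F p F

open Fermat.Agent.S28.ModPolyCoset in
/-- The expansion of `H₈` at `∞`. -/
theorem qExpansion_H8 (g E : ModularForm (GammaP p) 2) :
    qExpansion 1 (H8 p g E) =
      H8three 1 (1 / 2) (qExpansion 1 g) (qExpansion 1 E) (qExpansion 1 E2) := by
  have hg := holAtCusp_form p g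
  have hE := holAtCusp_form p E
  have hG := holAtCusp_form p (G6 p g E)
  have hq6 : qExpansion 1 (G6 p g E) = qExpansion 1 g ^ 3 - qExpansion 1 g * qExpansion 1 E ^ 2 := by
    have := qExpansion_G6fun hg hE
    rw [Nat.cast_one] at this
    rw [coe_G6, this]
  rw [H8, Fermat.Agent.S16.SerreLevel.qExpansion_serreLevel (G6 p g E)
    (Fermat.Agent.S16.SerreLevel.one_mem_strictPeriods_Gamma0' p), qExpansion_D_eq_theta hG, hq6,
    H8three, PowerSeries.smul_eq_C_mul]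
  have hc : (C (((6 : ℤ) : ℂ) * 12⁻¹) : ℂ⟦X⟧) = C (1 / 2) := by
    congr 1
    norm_num
  rw [hc, map_one, one_mul, mul_assoc]

open Fermat.Agent.S28.ModPolyCoset in
/-- The form `K` with `(H₈ ∣ S)(z) = p⁻¹ K(z/p)`. -/
noncomputable def Kfun (c : ℂ) (g1 E1 : ModularForm (GammaP p) 2) : ℍ → ℂ :=
  (Fermat.Agent.S16.SerreLevel.serreLevel ((c ^ 3) • G6 p g1 E1) : ℍ → ℂ) -
    (fun _ : ℍ => (1 / 2 : ℂ)) * ((E2lvl p : ℍ → ℂ) * ((c ^ 3) • G6 p g1 E1 : ModularForm (GammaP p) 6))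

open Fermat.Agent.S28.ModPolyCoset in
theorem holAtCusp_Kfun (c : ℂ) (g1 E1 : ModularForm (GammaP p) 2) :
    HolAtCusp 1 (Kfun p c g1 E1) := by
  unfold Kfun
  have h1 := holAtCusp_form p (Fermat.Agent.S16.SerreLevel.serreLevel ((c ^ 3) • G6 p g1 E1))
  have h2 := holAtCusp_form p (E2lvl p)
  have h3 := holAtCusp_form p ((c ^ 3) • G6 p g1 E1)
  have h4 := ((HolAtCusp.const (h := 1) (1 / 2 : ℂ)).mul (h2.mul h3)).neg
  have := h1.add h4
  rwa [← sub_eq_add_neg] at this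

open Fermat.Agent.S28.ModPolyCoset in
theorem H8_slash_S_apply (g E g1 E1 : ModularForm (GammaP p) 2) (c : ℂ)
    (hg : ∀ z w : ℍ, (w : ℂ) = (z : ℂ) / p →
      ((g : ℍ → ℂ) ∣[(2 : ℤ)] ModularGroup.S) z = c * g1 w)
    (hE : ∀ z w : ℍ, (w : ℂ) = (z : ℂ) / p →
      ((E : ℍ → ℂ) ∣[(2 : ℤ)] ModularGroup.S) z = c * E1 w)
    (z w : ℍ) (hw : (w : ℂ) = (z : ℂ) / p) :
    ((H8 p g E : ℍ → ℂ) ∣[((6 : ℤ) + 2)] ModularGroup.S) z = (p : ℂ)⁻¹ * Kfun p c g1 E1 w := by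
  have hwd : w = divN p z := UpperHalfPlane.ext (by rw [hw, coe_divN])
  subst hwd
  set Φ : ModularForm (GammaP p) 6 := (c ^ 3) • G6 p g1 E1 with hΦ
  have h1 : (G6 p g E : ℍ → ℂ) ∣[(6 : ℤ)] ModularGroup.S = fun w => Φ (divN p w) := by
    rw [coe_G6, G6fun_slash]
    funext w
    have hΦw : Φ (divN p w) = c ^ 3 * G6fun g1 E1 (divN p w) := by
      rw [hΦ]
      show (c ^ 3 • (G6 p g1 E1 : ℍ → ℂ)) (divN p w) = _
      rw [Pi.smul_apply, coe_G6, smul_eq_mul]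
    rw [hΦw]
    simp only [G6fun, Pi.sub_apply, Pi.mul_apply, Pi.pow_apply]
    rw [hg w (divN p w) (coe_divN p w), hE w (divN p w) (coe_divN p w)]
    ring
  rw [H8, Fermat.Agent.S16.SerreLevel.serreLevel_slash, h1,
    serreDerivative_comp_divN p _ (holo Φ) z]
  unfold Kfun
  simp only [Pi.sub_apply, Pi.mul_apply, Fermat.Agent.S16.SerreLevel.serreLevel_apply]
  have hcoe : (⇑Φ : ℍ → ℂ) = c ^ 3 • ⇑(G6 p g1 E1) := rfl
  rw [hcoe]
  push_cast
  ring

open Fermat.Agent.S28.ModPolyCoset in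
theorem qExpansion_smul_G6 (c : ℂ) (g1 E1 : ModularForm (GammaP p) 2) :
    qExpansion 1 ((c ^ 3) • G6 p g1 E1 : ModularForm (GammaP p) 6) =
      (C c * qExpansion 1 g1) ^ 3 - (C c * qExpansion 1 g1) * (C c * qExpansion 1 E1) ^ 2 := by
  have hg := holAtCusp_form p g1
  have hE := holAtCusp_form p E1
  have hq6 : qExpansion 1 (G6 p g1 E1) =
      qExpansion 1 g1 ^ 3 - qExpansion 1 g1 * qExpansion 1 E1 ^ 2 := by
    have := qExpansion_G6fun hg hE
    rw [Nat.cast_one] at this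
    rw [coe_G6, this]
  have h1 : (((c ^ 3) • G6 p g1 E1 : ModularForm (GammaP p) 6) : ℍ → ℂ) =
      (c ^ 3) • (G6 p g1 E1 : ℍ → ℂ) := rfl
  rw [h1, ModularForm.qExpansion_smul one_pos
    (Fermat.Agent.S16.SerreLevel.one_mem_strictPeriods_Gamma0' p), hq6,
    PowerSeries.smul_eq_C_mul, map_pow]
  ring

open Fermat.Agent.S28.ModPolyCoset in
theorem qExpansion_Kfun (c : ℂ) (g1 E1 : ModularForm (GammaP p) 2) :
    qExpansion 1 (Kfun p c g1 E1) =
      theta (qExpansion 1 ((c ^ 3) • G6 p g1 E1 : ModularForm (GammaP p) 6)) -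
        C (1 / 2 : ℂ) * (C (p : ℂ) * expand p hp.out.ne_zero (qExpansion 1 E2)) *
          qExpansion 1 ((c ^ 3) • G6 p g1 E1 : ModularForm (GammaP p) 6) := by
  set Φ : ModularForm (GammaP p) 6 := (c ^ 3) • G6 p g1 E1 with hΦ
  have h1 := holAtCusp_form p (Fermat.Agent.S16.SerreLevel.serreLevel Φ)
  have h2 := holAtCusp_form p (E2lvl p)
  have h3 := holAtCusp_form p Φ
  have hc := HolAtCusp.const (h := 1) (1 / 2 : ℂ)
  have h4 := (hc.mul (h2.mul h3))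
  have hK : Kfun p c g1 E1 = (Fermat.Agent.S16.SerreLevel.serreLevel Φ : ℍ → ℂ) +
      -((fun _ : ℍ => (1 / 2 : ℂ)) * ((E2lvl p : ℍ → ℂ) * (Φ : ℍ → ℂ))) := by
    unfold Kfun
    rw [sub_eq_add_neg]
  have e1 := qExpansion_add' h1 h4.neg
  have e2 := qExpansion_neg' h4
  have e3 := qExpansion_mul' hc (h2.mul h3)
  have e4 := qExpansion_mul' h2 h3
  have e5 := qExpansion_const' (h := 1) (1 / 2 : ℂ)
  rw [Nat.cast_one] at e1 e2 e3 e4 e5
  rw [hK, e1, e2, e3, e4, e5, Fermat.Agent.S16.SerreLevel.qExpansion_serreLevel Φ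
    (Fermat.Agent.S16.SerreLevel.one_mem_strictPeriods_Gamma0' p), qExpansion_D_eq_theta h3,
    qExpansion_E2lvl_eq, ← qExpansion_E2_eq, PowerSeries.smul_eq_C_mul]
  have hc6 : (C (((6 : ℤ) : ℂ) * 12⁻¹) : ℂ⟦X⟧) = C (1 / 2) := by
    congr 1
    norm_num
  rw [hc6]
  ring

open Fermat.Agent.S28.ModPolyCoset in
/-- The expansion of `H₈ ∣ S` in `q^(1/p)`. -/
theorem qExpansion_H8_slash_S (g E g1 E1 : ModularForm (GammaP p) 2) (c : ℂ)
    (hg : ∀ z w : ℍ, (w : ℂ) = (z : ℂ) / p →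
      ((g : ℍ → ℂ) ∣[(2 : ℤ)] ModularGroup.S) z = c * g1 w)
    (hE : ∀ z w : ℍ, (w : ℂ) = (z : ℂ) / p →
      ((E : ℍ → ℂ) ∣[(2 : ℤ)] ModularGroup.S) z = c * E1 w) :
    qExpansion (p : ℝ) ((H8 p g E : ℍ → ℂ) ∣[((6 : ℤ) + 2)] ModularGroup.S) =
      H8three (1 / (p : ℂ)) (1 / 2) (C c * qExpansion 1 g1) (C c * qExpansion 1 E1)
        (expand p hp.out.ne_zero (qExpansion 1 E2)) := by
  have hpc : (p : ℂ) ≠ 0 := by exact_mod_cast hp.out.ne_zero
  rw [Fermat.Agent.S16.NormLevelOneGen.qExpansion_slash_S_of_eq p (H8 p g E) (Kfun p c g1 E1)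
    (holAtCusp_Kfun p c g1 E1) ((p : ℂ)⁻¹) (H8_slash_S_apply p g E g1 E1 c hg hE),
    qExpansion_Kfun, qExpansion_smul_G6, H8three]
  have hC : (C ((p : ℂ)⁻¹) : ℂ⟦X⟧) * C (p : ℂ) = 1 := by
    rw [← map_mul, inv_mul_cancel₀ hpc, map_one]
  simp only [one_div]
  linear_combination (-(C (2⁻¹ : ℂ) : ℂ⟦X⟧) * expand p hp.out.ne_zero (qExpansion 1 E2) *
    ((C c * qExpansion 1 g1) ^ 3 - (C c * qExpansion 1 g1) * (C c * qExpansion 1 E1) ^ 2)) * hC

end Level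

/-! ### The arithmetic inputs of `three_contra` -/

theorem hSD : ∃ W : ℤ⟦X⟧, sig 1 ^ 3 - sig 1 + Δq = 3 * W := by
  obtain ⟨R, hR⟩ := Δq_mod_three
  exact ⟨R, by rw [hR]; ring⟩

theorem theta_eq (f : ℤ⟦X⟧) : theta f = Fermat.Agent.S16.DeltaTheta.theta f := by
  ext n
  rw [coeff_theta, Fermat.Agent.S16.DeltaTheta.theta, coeff_mk]

theorem hθD : ∃ W : ℤ⟦X⟧, theta Δq - Δq = 3 * W := by
  refine ⟨-(C (8 : ℤ) * sig 1 * Δq), ?_⟩
  rw [theta_eq, Fermat.Agent.S16.DeltaTheta.theta_Δq, Fermat.Agent.S16.DeltaTheta.E2q]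
  have h24 : (C (24 : ℤ) : ℤ⟦X⟧) = 3 * C (8 : ℤ) := by
    rw [← map_ofNat (C (R := ℤ)) 3, ← map_mul]
    norm_num
  rw [h24]
  ring

theorem hD0 : coeff 0 Δq = 0 := Fermat.Agent.S16.DeltaTheta.coeff_zero_Δq

theorem hD1 : coeff 1 Δq = 1 := by
  rw [Δq, show (1 : ℕ) = 0 + 1 from rfl, coeff_succ_X_mul, coeff_zero_eq_constantCoeff_apply,
    ModularCurve.constantCoeff_dedekindEtaUnit]

/-- `IsLInt 3 z → z ∈ IntL 3`. -/
theorem mem_IntL_of_isLInt {z : ℂ} (hz : Fermat.Agent.S16.Interfaces.IsLInt 3 z) :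
    z ∈ IntL 3 := by
  obtain ⟨a, b, hb, hzb⟩ := hz
  have hb0 : b ≠ 0 := by
    rintro rfl
    exact hb (dvd_zero _)
  have hbC : (b : ℂ) ≠ 0 := by exact_mod_cast hb0
  have hnat : ¬ 3 ∣ b.natAbs := by
    intro h
    apply hb
    have : ((3 : ℕ) : ℤ) ∣ b := Int.natCast_dvd.mpr h
    exact_mod_cast this
  have hz' : z = ((a * b.sign : ℤ) : ℂ) / (b.natAbs : ℂ) := by
    have h1 : ((b.natAbs : ℕ) : ℂ) = ((b.sign * b : ℤ) : ℂ) := by
      rw [Int.sign_mul_self_eq_abs, ← Int.natCast_natAbs, Int.cast_natCast]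
    have h1' : ((b.natAbs : ℕ) : ℂ) ≠ 0 := by
      have : b.natAbs ≠ 0 := Int.natAbs_ne_zero.mpr hb0
      exact_mod_cast this
    rw [eq_div_iff h1', h1]
    push_cast
    linear_combination ((b.sign : ℤ) : ℂ) * hzb
  rw [hz']
  exact intCast_div_natCast_mem_IntL 3 _ hnat

/-! ### The theorem -/

section Main

open Fermat.Agent.S28.ModPolyCoset Fermat.Agent.S16.FrickeTrace Fermat.Agent.S16.Interfaces
  Fermat.Agent.S16.NormLevelOne Fermat.Agent.S16.NormLevelOneGen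

variable (p : ℕ) [hp : Fact p.Prime]

local instance neZero_p'' : NeZero p := ⟨hp.out.ne_zero⟩

/-- `g = (F - E)/3`. -/
noncomputable def gForm (F : ModularForm (GammaP p) 2) : ModularForm (GammaP p) 2 :=
  (1 / 3 : ℂ) • (F - eisOne p)

theorem qExpansion_gForm (F : ModularForm (GammaP p) 2) :
    qExpansion 1 (gForm p F) =
      C (1 / 3 : ℂ) * (qExpansion 1 F - EpSeries p hp.out.ne_zero Sc) := by
  have h1 : (gForm p F : ℍ → ℂ) = (1 / 3 : ℂ) • ((F - eisOne p : ModularForm (GammaP p) 2) : ℍ → ℂ) :=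
    rfl
  have h2 : ((F - eisOne p : ModularForm (GammaP p) 2) : ℍ → ℂ) = (F : ℍ → ℂ) - (eisOne p : ℍ → ℂ) :=
    rfl
  rw [h1, ModularForm.qExpansion_smul one_pos
    (Fermat.Agent.S16.SerreLevel.one_mem_strictPeriods_Gamma0' p), h2,
    ModularForm.qExpansion_sub one_pos
    (Fermat.Agent.S16.SerreLevel.one_mem_strictPeriods_Gamma0' p), qExpansion_eisOne_eq,
    PowerSeries.smul_eq_C_mul]

theorem gForm_slash_S (F : ModularForm (GammaP p) 2) (z w : ℍ) (hw : (w : ℂ) = (z : ℂ) / p) :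
    ((gForm p F : ℍ → ℂ) ∣[(2 : ℤ)] ModularGroup.S) z =
      (-(p : ℂ)⁻¹) * gForm p (heckeUForm p F) w := by
  have h1 : (gForm p F : ℍ → ℂ) = (1 / 3 : ℂ) • ((F : ℍ → ℂ) - (eisOne p : ℍ → ℂ)) := rfl
  have h2 : (gForm p (heckeUForm p F) : ℍ → ℂ) =
      (1 / 3 : ℂ) • ((heckeUForm p F : ℍ → ℂ) - (eisOne p : ℍ → ℂ)) := rfl
  rw [h1, h2, ModularForm.SL_smul_slash, Pi.smul_apply, sub_eq_add_neg, SlashAction.add_slash,
    SlashAction.neg_slash, Pi.add_apply, Pi.neg_apply,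
    slash_S_eq p F z w hw, eisOne_slash_S p z w hw, Pi.smul_apply, Pi.sub_apply, coe_heckeUForm,
    smul_eq_mul, smul_eq_mul]
  ring

theorem eisOne_slash_S' (z w : ℍ) (hw : (w : ℂ) = (z : ℂ) / p) :
    ((eisOne p : ℍ → ℂ) ∣[(2 : ℤ)] ModularGroup.S) z = (-(p : ℂ)⁻¹) * eisOne p w := by
  rw [eisOne_slash_S p z w hw]
  ring

/-- **(UP3b)** `ℓ = 3`, `p ≡ 2 mod 3`: there is no weight-2 form of level `p` with `F ≡ 1 mod 9`. -/
theorem noOneMod_three (hp3 : p % 3 = 2) : NoOneMod p 3 2 := by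
  intro F hF
  have hp0 : p ≠ 0 := hp.out.ne_zero
  obtain ⟨hF0, hFj⟩ := hF
  set f : ℂ⟦X⟧ := qExpansion 1 F with hf
  have hf0 : coeff 0 f = 1 := hF0
  have hfj : ∀ n, 1 ≤ n → ∃ x ∈ IntL 3, coeff n f = 9 * x := by
    intro n hn
    obtain ⟨z, hz, hzn⟩ := hFj n hn
    refine ⟨z, mem_IntL_of_isLInt hz, ?_⟩
    have : coeff n f = ((3 : ℕ) : ℂ) ^ 2 * z := hzn
    rw [this]
    norm_num
  -- the forms
  set E : ModularForm (GammaP p) 2 := eisOne p with hE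
  set F1 : ModularForm (GammaP p) 2 := heckeUForm p F with hF1
  set H : ModularForm (GammaP p) (6 + 2) := H8 p (gForm p F) E with hH
  -- expansions
  have hinf : qExpansion 1 H = H8inf3 p hp0 Sc f := by
    rw [hH, qExpansion_H8, qExpansion_gForm, hE, qExpansion_eisOne_eq, qExpansion_E2_eq, H8inf3]
  have hzero : qExpansion (p : ℝ) ((H : ℍ → ℂ) ∣[((6 : ℤ) + 2)] ModularGroup.S) =
      H8zero3 p hp0 Sc f := by
    rw [hH, qExpansion_H8_slash_S p (gForm p F) E (gForm p F1) E (-(p : ℂ)⁻¹)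
      (gForm_slash_S p F) (eisOne_slash_S' p), qExpansion_gForm, hF1, qExpansion_heckeUForm, hE,
      qExpansion_eisOne_eq, qExpansion_E2_eq, H8zero3]
    simp only [one_div]
    rfl
  -- the norm
  have hnorm := expand_qExpansion_normForm p H
  rw [hinf, hzero] at hnorm
  have hζ : zeta p ^ p = 1 := by
    unfold zeta
    rw [← Complex.exp_nat_mul]
    have hpc : (p : ℂ) ≠ 0 := by exact_mod_cast hp0
    rw [show (p : ℂ) * (2 * π * Complex.I / p) = 2 * π * Complex.I by field_simp]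
    exact Complex.exp_two_pi_mul_I
  refine three_contra p hp0 hp3 (sig 1) Δq hSD hθD hD0 hD1 f hf0 hfj (zeta p) hζ
    (qExpansion 1 (normForm p H)) hnorm ?_
  intro nR hnR
  have h3K : ((3 : ℕ) : Kl 3) = 0 := natCast_Kl_eq_zero 3
  have h240 : (240 : Kl 3) = 0 := by
    have : (240 : Kl 3) = ((3 : ℕ) : Kl 3) * 80 := by push_cast; norm_num
    rw [this, h3K, zero_mul]
  have h504 : (504 : Kl 3) = 0 := by
    have : (504 : Kl 3) = ((3 : ℕ) : Kl 3) * 168 := by push_cast; norm_num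
    rw [this, h3K, zero_mul]
  obtain ⟨P, hP, hnP⟩ := Fermat.Agent.S16.LevelOneModL.exists_poly_delta_of_qExpansion
    (IntL 3).subtype Subtype.val_injective (red 3) h240 h504 (normForm p H) nR hnR
  refine ⟨P, ?_, hnP⟩
  by_cases hP0 : P = 0
  · rw [hP0]; simp
  · by_contra hlt
    apply hP0
    have hcoeff := hP P.natDegree (by push_cast; omega)
    exact Polynomial.leadingCoeff_eq_zero.mp hcoeff

/-- **(UP3b)** in the interface form. -/
theorem upper3b : Upper3bStatement := by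
  intro p _ _ hp3
  exact noOneMod_three p hp3

end Main

end Fermat.Agent.S16.G3InstB
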