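import Fermat.Agent.S16.Interfaces2
import Fermat.Agent.S16.Easy23Complex
import Fermat.Agent.S16.SerreCoreRing

/-!
# S16: adapters between `Interfaces.IsOneMod` and the subring shapes used by the block owners

* `IsLInt ℓ z ↔ z ∈ Easy23Complex.lInt ℓ` (the `ℓ`-integral rationals as a `Subring ℂ`);
* `IsLInt ℓ z → z ∈ SerreCoreRing.IntL ℓ` (the `ℓ`-integral algebraic numbers);
* `IsOneMod p ℓ r F` unfolded to statements on the complex power series `qExpansion 1 F`, in the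
  two shapes `∃ x ∈ R, coeff n f = ℓ^r * x` (`R = lInt ℓ` or `IntL ℓ`);
* `NoOneMod p ℓ r` from a contradiction at the level of power series.
-/

set_option autoImplicit false

open ModularCurve CuspForm UpperHalfPlane ModularFormClass

namespace Fermat.Agent.S16.OneModAdapter

open Fermat.Agent.S16.Interfaces Fermat.Agent.S16.Easy23Complex Fermat.Agent.S16.SerreCoreRing

variable {ℓ : ℕ} [hℓ : Fact ℓ.Prime]

theorem isLInt_iff_mem_lInt {z : ℂ} : IsLInt ℓ z ↔ z ∈ lInt ℓ := Iff.rfl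

theorem isLInt_intCast (a : ℤ) : IsLInt ℓ (a : ℂ) := intCast_mem (lInt ℓ) a

theorem isLInt_natCast (a : ℕ) : IsLInt ℓ (a : ℂ) := natCast_mem (lInt ℓ) a

theorem IsLInt.add {x y : ℂ} (hx : IsLInt ℓ x) (hy : IsLInt ℓ y) : IsLInt ℓ (x + y) :=
  (lInt ℓ).add_mem hx hy

theorem IsLInt.mul {x y : ℂ} (hx : IsLInt ℓ x) (hy : IsLInt ℓ y) : IsLInt ℓ (x * y) :=
  (lInt ℓ).mul_mem hx hy

theorem IsLInt.neg {x : ℂ} (hx : IsLInt ℓ x) : IsLInt ℓ (-x) :=
  (lInt ℓ).neg_mem hx

/-- An `ℓ`-integral rational number is an `ℓ`-integral algebraic number. -/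
theorem IsLInt.mem_IntL {z : ℂ} (hz : IsLInt ℓ z) : z ∈ IntL ℓ := by
  obtain ⟨a, b, hb, hab⟩ := hz
  refine ⟨b.natAbs, fun h => hb ?_, ?_⟩
  · exact Int.natCast_dvd.2 h
  · rcases Int.natAbs_eq b with hb' | hb'
    · have h1 : (b : ℂ) = ((b.natAbs : ℤ) : ℂ) := congrArg Int.cast hb'
      rw [Int.cast_natCast] at h1
      have : ((b.natAbs : ℕ) : ℂ) * z = ((a : ℤ) : ℂ) := by
        rw [← h1, mul_comm, hab]
      rw [this]
      exact isIntegral_algebraMap (R := ℤ) (A := ℂ) (x := a)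
    · have h1 : (b : ℂ) = ((-(b.natAbs : ℤ) : ℤ) : ℂ) := congrArg Int.cast hb'
      rw [Int.cast_neg, Int.cast_natCast] at h1
      have : ((b.natAbs : ℕ) : ℂ) * z = ((-a : ℤ) : ℂ) := by
        push_cast
        linear_combination -hab + z * h1
      rw [this]
      exact isIntegral_algebraMap (R := ℤ) (A := ℂ) (x := -a)

theorem lInt_le_IntL : lInt ℓ ≤ IntL ℓ := fun _ hz => IsLInt.mem_IntL hz

variable {p r : ℕ}

/-- `IsOneMod` unfolded on the complex `q`-expansion, coefficients in `lInt ℓ`. -/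
theorem coeff_lInt_of_isOneMod {F : ModularForm (CongruenceSubgroup.Gamma0 p) 2}
    (hF : IsOneMod p ℓ r F) :
    PowerSeries.coeff 0 (qExpansion 1 F) = 1 ∧
      ∀ n : ℕ, 1 ≤ n → ∃ x ∈ lInt ℓ,
        PowerSeries.coeff n (qExpansion 1 F) = (ℓ : ℂ) ^ r * x := by
  refine ⟨hF.1, fun n hn => ?_⟩
  obtain ⟨z, hz, h⟩ := hF.2 n hn
  exact ⟨z, hz, h⟩

/-- `IsOneMod` unfolded on the complex `q`-expansion, coefficients in `IntL ℓ`. -/
theorem coeff_IntL_of_isOneMod {F : ModularForm (CongruenceSubgroup.Gamma0 p) 2}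
    (hF : IsOneMod p ℓ r F) :
    PowerSeries.coeff 0 (qExpansion 1 F) = 1 ∧
      ∀ n : ℕ, 1 ≤ n → ∃ x ∈ IntL ℓ,
        PowerSeries.coeff n (qExpansion 1 F) = (ℓ : ℂ) ^ r * x := by
  refine ⟨hF.1, fun n hn => ?_⟩
  obtain ⟨z, hz, h⟩ := hF.2 n hn
  exact ⟨z, IsLInt.mem_IntL hz, h⟩

/-- All `q`-coefficients of a form `≡ 1 mod ℓ^r` are `ℓ`-integral rationals. -/
theorem coeff_mem_lInt_of_isOneMod {F : ModularForm (CongruenceSubgroup.Gamma0 p) 2}
    (hF : IsOneMod p ℓ r F) (n : ℕ) :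
    PowerSeries.coeff n (qExpansion 1 F) ∈ lInt ℓ := by
  rcases Nat.eq_zero_or_pos n with rfl | hn
  · rw [(coeff_lInt_of_isOneMod hF).1]
    exact (lInt ℓ).one_mem
  · obtain ⟨x, hx, h⟩ := (coeff_lInt_of_isOneMod hF).2 n hn
    rw [h]
    exact (lInt ℓ).mul_mem ((lInt ℓ).pow_mem (natCast_mem (lInt ℓ) ℓ) r) hx

/-- The `q`-expansion of a form `≡ 1 mod ℓ^r` as a power series over `lInt ℓ`, of the shape
`1 + ℓ^r • B` with `B` without constant term. -/
theorem exists_series_of_isOneMod {F : ModularForm (CongruenceSubgroup.Gamma0 p) 2}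
    (hF : IsOneMod p ℓ r F) :
    ∃ B : PowerSeries (lInt ℓ), PowerSeries.coeff 0 B = 0 ∧
      (1 + PowerSeries.C ((ℓ : lInt ℓ) ^ r) * B).map (lInt ℓ).subtype =
        qExpansion 1 F := by
  classical
  have h := coeff_lInt_of_isOneMod hF
  choose! x hx hxe using h.2
  refine ⟨PowerSeries.mk fun n => if hn : 1 ≤ n then ⟨x n, hx n hn⟩ else 0, ?_, ?_⟩
  · rw [PowerSeries.coeff_mk, dif_neg (by norm_num)]
  · ext n
    rw [PowerSeries.coeff_map, map_add, PowerSeries.coeff_C_mul, PowerSeries.coeff_mk]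
    rcases Nat.eq_zero_or_pos n with rfl | hn
    · rw [dif_neg (by norm_num), mul_zero, add_zero, h.1]
      simp
    · have hn' : 1 ≤ n := hn
      rw [dif_pos hn', hxe n hn', PowerSeries.coeff_one, if_neg (by omega), zero_add]
      simp

/-- `NoOneMod` from a contradiction on complex power series with `IntL ℓ`-coefficients (the shape
of `SerreCoreThree.three_contra` / `SerreCoreTwo.two_contra`). -/
theorem noOneMod_of_IntL
    (h : ∀ F : ModularForm (CongruenceSubgroup.Gamma0 p) 2,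
      PowerSeries.coeff 0 (qExpansion 1 F) = 1 →
      (∀ n : ℕ, 1 ≤ n → ∃ x ∈ IntL ℓ,
        PowerSeries.coeff n (qExpansion 1 F) = (ℓ : ℂ) ^ r * x) → False) :
    NoOneMod p ℓ r :=
  fun F hF => h F (coeff_IntL_of_isOneMod hF).1 (coeff_IntL_of_isOneMod hF).2

/-- `NoOneMod` from a contradiction on complex power series with `lInt ℓ`-coefficients. -/
theorem noOneMod_of_lInt
    (h : ∀ F : ModularForm (CongruenceSubgroup.Gamma0 p) 2,
      PowerSeries.coeff 0 (qExpansion 1 F) = 1 →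
      (∀ n : ℕ, 1 ≤ n → ∃ x ∈ lInt ℓ,
        PowerSeries.coeff n (qExpansion 1 F) = (ℓ : ℂ) ^ r * x) → False) :
    NoOneMod p ℓ r :=
  fun F hF => h F (coeff_lInt_of_isOneMod hF).1 (coeff_lInt_of_isOneMod hF).2

end Fermat.Agent.S16.OneModAdapter
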