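/-
S16, gap `ℓ = 3`, `p ≡ 2 mod 3` (no `F ≡ 1 mod 9`): analytic instantiation of
`SerreCoreThree.three_contra`, width-`p` route.  Owner: helper45 (hedge of G23.inst).

`g = (F - E)/3`, `G₆ = g³ - g E²`, `H₈ = ∂₆ G₆` on `Γ₀(p)`;
`hA : qExpansion 1 H₈ = H8inf3`, `hB : qExpansion p (H₈ ∣ S) = H8zero3`.
-/
import Fermat.Agent.S16.SerreExpansion
import Fermat.Agent.S16.SerreCoreInputs
import Fermat.Agent.S16.G2GlueB
import Fermat.Agent.S16.NormLevelOneFricke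
import Fermat.Agent.S16.OneModAdapter

set_option autoImplicit false

namespace Fermat.Agent.S16.G3InstC

open UpperHalfPlane hiding I
open ModularForm ModularFormClass MatrixGroups Complex CongruenceSubgroup SlashInvariantForm
open scoped Manifold Real
open Fermat.Agent.S24.CuspExpansion
open Fermat.Agent.S16.SerreLevel Fermat.Agent.S16.SerreExpansion Fermat.Agent.S16.SerreCoreOps
  Fermat.Agent.S16.SerreCoreChar Fermat.Agent.S16.SerreCoreThree Fermat.Agent.S16.DivisorCongr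
  Fermat.Agent.S16.E2LevelExtras Fermat.Agent.S16.NormLevelOne

/-! ### The polynomial `a³ - a b²` on functions and on series -/

/-- `a³ - a b²` for functions on `ℍ`. -/
def poly6 (a b : ℍ → ℂ) : ℍ → ℂ := a * a * a + -(a * (b * b))

lemma holAtCusp_poly6 {h : ℕ} [NeZero h] {a b : ℍ → ℂ} (ha : HolAtCusp h a) (hb : HolAtCusp h b) :
    HolAtCusp h (poly6 a b) :=
  ((ha.mul ha).mul ha).add (ha.mul (hb.mul hb)).neg

lemma qExpansion_poly6 {h : ℕ} [NeZero h] {a b : ℍ → ℂ} (ha : HolAtCusp h a)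
    (hb : HolAtCusp h b) :
    qExpansion (h : ℝ) (poly6 a b) =
      qExpansion (h : ℝ) a ^ 3 - qExpansion (h : ℝ) a * qExpansion (h : ℝ) b ^ 2 := by
  rw [poly6, qExpansion_add' ((ha.mul ha).mul ha) (ha.mul (hb.mul hb)).neg,
    qExpansion_neg' (ha.mul (hb.mul hb)), qExpansion_mul' (ha.mul ha) ha, qExpansion_mul' ha ha,
    qExpansion_mul' ha (hb.mul hb), qExpansion_mul' hb hb]
  ring

/-- `c (a - b)` for functions on `ℍ`. -/
def lin (c : ℂ) (a b : ℍ → ℂ) : ℍ → ℂ := (fun _ : ℍ => c) * (a + -b)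

lemma holAtCusp_lin {h : ℕ} [NeZero h] (c : ℂ) {a b : ℍ → ℂ} (ha : HolAtCusp h a) (hb : HolAtCusp h b) :
    HolAtCusp h (lin c a b) :=
  (HolAtCusp.const c).mul (ha.add hb.neg)

lemma qExpansion_lin {h : ℕ} [NeZero h] (c : ℂ) {a b : ℍ → ℂ} (ha : HolAtCusp h a)
    (hb : HolAtCusp h b) :
    qExpansion (h : ℝ) (lin c a b) =
      PowerSeries.C c * (qExpansion (h : ℝ) a - qExpansion (h : ℝ) b) := by
  rw [lin, qExpansion_mul' (HolAtCusp.const c) (ha.add hb.neg), qExpansion_const',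
    qExpansion_add' ha hb.neg, qExpansion_neg' hb]
  ring

/-! ### The forms `g`, `G₆`, `H₈` -/

section Forms

variable (p : ℕ) [hp : Fact p.Prime]

local instance neZero_p : NeZero p := ⟨hp.out.ne_zero⟩

variable (F : ModularForm ((Gamma0 p : Subgroup SL(2, ℤ)) : Subgroup (GL (Fin 2) ℝ)) 2)

/-- `g = (F - E) / 3`. -/
noncomputable def gForm :
    ModularForm ((Gamma0 p : Subgroup SL(2, ℤ)) : Subgroup (GL (Fin 2) ℝ)) 2 :=
  (1 / 3 : ℂ) • (F - eisOne p)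

lemma coe_gForm : (gForm p F : ℍ → ℂ) = lin (1 / 3) (F : ℍ → ℂ) (eisOne p : ℍ → ℂ) := by
  ext z
  simp only [gForm, lin, smul_apply, sub_apply, Pi.mul_apply,
    Pi.add_apply, Pi.neg_apply, smul_eq_mul]
  ring

/-- `G₆ = g³ - g E²`. -/
noncomputable def G6 :
    ModularForm ((Gamma0 p : Subgroup SL(2, ℤ)) : Subgroup (GL (Fin 2) ℝ)) 6 :=
  ModularForm.mcast (by norm_num) (((gForm p F).mul (gForm p F)).mul (gForm p F)) -
    ModularForm.mcast (by norm_num) ((gForm p F).mul ((eisOne p).mul (eisOne p)))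

lemma coe_G6 : (G6 p F : ℍ → ℂ) = poly6 (gForm p F : ℍ → ℂ) (eisOne p : ℍ → ℂ) := by
  ext z
  simp only [G6, poly6, sub_apply, ModularForm.mcast_apply, ModularForm.coe_mul,
    Pi.mul_apply, Pi.add_apply, Pi.neg_apply]
  ring

/-- `H₈ = ∂₆ G₆`. -/
noncomputable def H8 :
    ModularForm ((Gamma0 p : Subgroup SL(2, ℤ)) : Subgroup (GL (Fin 2) ℝ)) 8 :=
  ModularForm.mcast (by norm_num) (serreLevel (G6 p F))

lemma coe_H8 : (H8 p F : ℍ → ℂ) = (serreLevel (G6 p F) : ℍ → ℂ) := rfl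

/-! ### The expansion at `∞` -/

lemma qExpansion_gForm_inf :
    qExpansion (1 : ℝ) (gForm p F : ℍ → ℂ) =
      PowerSeries.C (1 / 3 : ℂ) *
        (qExpansion (1 : ℝ) (F : ℍ → ℂ) - EpSeries p (NeZero.ne p) (toC (sig 1))) := by
  have h := qExpansion_lin (h := 1) (1 / 3) (holAtCusp_one_F p F) (holAtCusp_one_F p (eisOne p))
  rw [Nat.cast_one] at h
  rw [coe_gForm, h, SerreCoreInputs.qExpansion_eisOne p hp.out.two_le]

lemma holAtCusp_one_gForm : HolAtCusp 1 (gForm p F : ℍ → ℂ) := holAtCusp_one_F p (gForm p F)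

lemma qExpansion_G6_inf :
    qExpansion (1 : ℝ) (G6 p F : ℍ → ℂ) =
      (PowerSeries.C (1 / 3 : ℂ) *
        (qExpansion (1 : ℝ) (F : ℍ → ℂ) - EpSeries p (NeZero.ne p) (toC (sig 1)))) ^ 3 -
      (PowerSeries.C (1 / 3 : ℂ) *
        (qExpansion (1 : ℝ) (F : ℍ → ℂ) - EpSeries p (NeZero.ne p) (toC (sig 1)))) *
        EpSeries p (NeZero.ne p) (toC (sig 1)) ^ 2 := by
  have h := qExpansion_poly6 (h := 1) (holAtCusp_one_gForm p F) (holAtCusp_one_F p (eisOne p))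
  rw [Nat.cast_one] at h
  rw [coe_G6, h, qExpansion_gForm_inf, SerreCoreInputs.qExpansion_eisOne p hp.out.two_le]

/-- **(i)** the expansion of `H₈` at `∞`. -/
theorem qExpansion_H8_inf :
    qExpansion (1 : ℝ) (H8 p F : ℍ → ℂ) =
      H8inf3 p (NeZero.ne p) (toC (sig 1)) (qExpansion (1 : ℝ) (F : ℍ → ℂ)) := by
  rw [coe_H8, qExpansion_one_serreLevel_Gamma0 p (G6 p F), qExpansion_G6_inf, H8inf3, H8three,
    E2q]
  have h6 : ((6 : ℤ) : ℂ) * 12⁻¹ = 1 / 2 := by norm_num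
  rw [h6, map_one, one_mul]
  ring

/-! ### The expansion at the cusp `0` -/

omit hp in
lemma lin_slash (c : ℂ) (a b : ℍ → ℂ) (k : ℤ) (γ : SL(2, ℤ)) :
    lin c a b ∣[k] γ = lin c (a ∣[k] γ) (b ∣[k] γ) := by
  have h : ∀ a b : ℍ → ℂ, lin c a b = c • (a + -b) := by
    intro a b
    ext z
    simp [lin]
  rw [h, h, ModularForm.SL_smul_slash, SlashAction.add_slash, SlashAction.neg_slash]

omit hp in
lemma poly6_slash (a b : ℍ → ℂ) (γ : SL(2, ℤ)) :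
    poly6 a b ∣[(6 : ℤ)] γ = poly6 (a ∣[(2 : ℤ)] γ) (b ∣[(2 : ℤ)] γ) := by
  have h1 : (a * a * a) ∣[(6 : ℤ)] γ = a ∣[(2 : ℤ)] γ * a ∣[(2 : ℤ)] γ * a ∣[(2 : ℤ)] γ := by
    have := ModularForm.mul_slash_SL2 (2 + 2) 2 γ (a * a) a
    rw [ModularForm.mul_slash_SL2 2 2 γ a a] at this
    exact this
  have h2 : (a * (b * b)) ∣[(6 : ℤ)] γ =
      a ∣[(2 : ℤ)] γ * (b ∣[(2 : ℤ)] γ * b ∣[(2 : ℤ)] γ) := by
    have := ModularForm.mul_slash_SL2 2 (2 + 2) γ a (b * b)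
    rw [ModularForm.mul_slash_SL2 2 2 γ b b] at this
    exact this
  rw [poly6, poly6, SlashAction.add_slash, SlashAction.neg_slash, h1, h2]

/-- `qExpansion p (F ∣ S) = -(1/p) U_p f`. -/
lemma qExpansion_slash_S_F :
    qExpansion (p : ℝ) ((F : ℍ → ℂ) ∣[(2 : ℤ)] ModularGroup.S) =
      PowerSeries.C (-(1 / (p : ℂ))) * Up p (qExpansion (1 : ℝ) (F : ℍ → ℂ)) := by
  ext n
  rw [Fermat.Agent.S16.NormLevelOneFricke.coeff_qExpansion_slash_S, PowerSeries.coeff_C_mul,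
    coeff_Up, mul_comm n p]
  ring

/-- `qExpansion p (E ∣ S) = -(1/p) E`. -/
lemma qExpansion_slash_S_eisOne :
    qExpansion (p : ℝ) ((eisOne p : ℍ → ℂ) ∣[(2 : ℤ)] ModularGroup.S) =
      PowerSeries.C (-(1 / (p : ℂ))) * EpSeries p (NeZero.ne p) (toC (sig 1)) := by
  rw [Fermat.Agent.S16.NormLevelOneGen.qExpansion_slash_S_of_eq p (eisOne p) (eisOne p : ℍ → ℂ)
    (holAtCusp_one_F p (eisOne p)) (-(1 / (p : ℂ)))
    (fun z w hw => by rw [eisOne_slash_S p z w hw]; ring),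
    SerreCoreInputs.qExpansion_eisOne p hp.out.two_le]

lemma qExpansion_G6_zero :
    qExpansion (p : ℝ) ((G6 p F : ℍ → ℂ) ∣[(6 : ℤ)] ModularGroup.S) =
      (PowerSeries.C (-(1 / (p : ℂ))) * (PowerSeries.C (1 / 3 : ℂ) *
        (Up p (qExpansion (1 : ℝ) (F : ℍ → ℂ)) - EpSeries p (NeZero.ne p) (toC (sig 1))))) ^ 3 -
      (PowerSeries.C (-(1 / (p : ℂ))) * (PowerSeries.C (1 / 3 : ℂ) *
        (Up p (qExpansion (1 : ℝ) (F : ℍ → ℂ)) - EpSeries p (NeZero.ne p) (toC (sig 1))))) *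
        (PowerSeries.C (-(1 / (p : ℂ))) * EpSeries p (NeZero.ne p) (toC (sig 1))) ^ 2 := by
  have hF := holAtCusp_slash p F ModularGroup.S
  have hE := holAtCusp_slash p (eisOne p) ModularGroup.S
  rw [coe_G6, poly6_slash, coe_gForm, lin_slash,
    qExpansion_poly6 (holAtCusp_lin (1 / 3) hF hE) hE, qExpansion_lin (1 / 3) hF hE,
    qExpansion_slash_S_F, qExpansion_slash_S_eisOne]
  ring

/-- **(ii)** the expansion of `H₈ ∣ S` in `t = q^(1/p)`. -/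
theorem qExpansion_H8_zero :
    qExpansion (p : ℝ) ((H8 p F : ℍ → ℂ) ∣[(8 : ℤ)] ModularGroup.S) =
      H8zero3 p (NeZero.ne p) (toC (sig 1)) (qExpansion (1 : ℝ) (F : ℍ → ℂ)) := by
  have h := qExpansion_serreLevel_slash_S p (G6 p F)
  have h8 : ((H8 p F : ℍ → ℂ) ∣[(8 : ℤ)] ModularGroup.S) =
      ((serreLevel (G6 p F) : ℍ → ℂ) ∣[(6 : ℤ) + 2] ModularGroup.S) := rfl
  rw [h8, h, qExpansion_G6_zero, H8zero3, H8three, E2q]
  have h6 : ((6 : ℤ) : ℂ) * 12⁻¹ = 1 / 2 := by norm_num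
  rw [h6, one_div (p : ℂ)]
  ring

end Forms

/-! ### The contradiction and `Upper3bStatement` -/

section Final

open Fermat.Agent.S16.SerreCoreRing Fermat.Agent.S16.Interfaces

/-- `ℓ = 3`, `p ≡ 2 mod 3`: no weight-2 form of level `p` is `≡ 1 mod 9`. -/
theorem no_one_mod_nine (p : ℕ) [hp : Fact p.Prime] (hp3 : p % 3 = 2)
    (F : ModularForm ((Gamma0 p : Subgroup SL(2, ℤ)) : Subgroup (GL (Fin 2) ℝ)) 2)
    (h0 : PowerSeries.coeff 0 (qExpansion (1 : ℝ) (F : ℍ → ℂ)) = 1)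
    (hF : ∀ n : ℕ, 1 ≤ n → ∃ x ∈ IntL 3,
      PowerSeries.coeff n (qExpansion (1 : ℝ) (F : ℍ → ℂ)) = ((3 : ℕ) : ℂ) ^ 2 * x) : False := by
  have hp0 : p ≠ 0 := hp.out.ne_zero
  refine three_contra p hp0 hp3 (sig 1) Δq SerreCoreInputs.hSD3 SerreCoreInputs.hθD3
    Fermat.Agent.S16.DeltaTheta.coeff_zero_Δq SerreCoreInputs.coeff_one_Δq
    (qExpansion (1 : ℝ) (F : ℍ → ℂ)) h0 ?_ (Fermat.Agent.S16.NormLevelOne.zeta p)
    (Fermat.Agent.S16.G2GlueB.zeta_pow p)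
    (qExpansion (1 : ℝ) (Fermat.Agent.S16.NormLevelOneGen.normForm p (H8 p F))) ?_ ?_
  · intro n hn
    obtain ⟨x, hx, hxe⟩ := hF n hn
    refine ⟨x, hx, ?_⟩
    rw [hxe]
    push_cast
    ring
  · exact Fermat.Agent.S16.G2GlueB.hnorm_of_eq p (H8 p F) _ _ (qExpansion_H8_inf p F)
      (qExpansion_H8_zero p F)
  · exact Fermat.Agent.S16.G2GlueB.hlevel p 3 (Or.inr rfl) (H8 p F)

/-- **(UP3b)**, literally. -/
theorem upper3b : Upper3bStatement := by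
  intro p _ _ hp3
  exact Fermat.Agent.S16.OneModAdapter.noOneMod_of_IntL (fun F h0 hF => no_one_mod_nine p hp3 F h0 hF)

end Final

end Fermat.Agent.S16.G3InstC
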