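import Fermat.Agent.S16.SerreCoreInputs
import Fermat.Agent.S16.SerreExpansion
import Fermat.Agent.S16.NormLevelOneGen
import Fermat.Agent.S16.NormLevelOneFricke
import Fermat.Agent.S16.LevelOneModL
import Fermat.Agent.S16.E2LevelExtras
import Fermat.Agent.S16.Interfaces2

/-!
# S16, block (UP3b): `ℓ = 3`, `p ≡ 2 mod 3`: no weight-2 form of level `p` is `≡ 1 mod 9`

Analytic instantiation of the Serre-derivative closure (helper52 #1235): the forms
`g = (F - E)/3`, `G₆ = g³ - g E²`, `H₈ = ∂₆ G₆` on `Γ₀(p)`, their expansions at both cusps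
(`SerreExpansion`, `NormLevelOneFricke`, `E2LevelExtras`), the norm to level one
(`NormLevelOneGen`), the level-one basis theorem (`LevelOneModL`) and the algebraic core
`SerreCoreThree.three_contra`.  Export: `upper3b : Interfaces.Upper3bStatement`.
-/

set_option autoImplicit false

open UpperHalfPlane ModularForm MatrixGroups CongruenceSubgroup
open scoped Manifold

noncomputable section

namespace Fermat.Agent.S16.G3Serre

open PowerSeries
open Fermat.Agent.S24.CuspExpansion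
open Fermat.Agent.S16.NormLevelOne Fermat.Agent.S16.NormLevelOneGen
open Fermat.Agent.S16.SerreCoreOps Fermat.Agent.S16.SerreCoreChar Fermat.Agent.S16.SerreCoreThree
open Fermat.Agent.S16.SerreLevel Fermat.Agent.S16.SerreExpansion
open Fermat.Agent.S16.E2LevelExtras

variable (p : ℕ) [hp : Fact p.Prime]

local instance neZero_p' : NeZero p := ⟨hp.out.ne_zero⟩

/-- `a³ - a e²` as a function. -/
def cubeFn (a e : ℍ → ℂ) : ℍ → ℂ := a * (a * a) + -(a * (e * e))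

theorem holAtCusp_cubeFn {h : ℕ} [NeZero h] {a e : ℍ → ℂ} (ha : HolAtCusp h a) (he : HolAtCusp h e) :
    HolAtCusp h (cubeFn a e) :=
  (ha.mul (ha.mul ha)).add (ha.mul (he.mul he)).neg

theorem qExpansion_cubeFn {h : ℕ} [NeZero h] {a e : ℍ → ℂ} (ha : HolAtCusp h a)
    (he : HolAtCusp h e) :
    qExpansion (h : ℝ) (cubeFn a e) =
      qExpansion (h : ℝ) a ^ 3 - qExpansion (h : ℝ) a * qExpansion (h : ℝ) e ^ 2 := by
  rw [cubeFn, qExpansion_add' (ha.mul (ha.mul ha)) (ha.mul (he.mul he)).neg,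
    qExpansion_neg' (ha.mul (he.mul he)), qExpansion_mul' ha (ha.mul ha), qExpansion_mul' ha ha,
    qExpansion_mul' ha (he.mul he), qExpansion_mul' he he]
  ring

variable (g E : ModularForm ((Gamma0 p : Subgroup SL(2, ℤ)) : Subgroup (GL (Fin 2) ℝ)) 2)

/-- `G₆ = g³ - g E²`. -/
def G6 : ModularForm ((Gamma0 p : Subgroup SL(2, ℤ)) : Subgroup (GL (Fin 2) ℝ)) 6 :=
  mcast (by norm_num) (g.mul (g.mul g)) + -(mcast (by norm_num) (g.mul (E.mul E)))

theorem coe_G6 : (G6 p g E : ℍ → ℂ) = cubeFn (g : ℍ → ℂ) (E : ℍ → ℂ) := by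
  ext z
  simp only [G6, cubeFn, ModularForm.add_apply, ModularForm.neg_apply, mcast_apply,
    Pi.add_apply, Pi.neg_apply, Pi.mul_apply]
  rw [ModularForm.coe_mul, ModularForm.coe_mul, ModularForm.coe_mul, ModularForm.coe_mul]
  rfl

theorem cubeFn_slash (a e : ℍ → ℂ) (A : SL(2, ℤ)) :
    (cubeFn a e) ∣[(6 : ℤ)] A = cubeFn (a ∣[(2 : ℤ)] A) (e ∣[(2 : ℤ)] A) := by
  have h6 : (6 : ℤ) = 2 + (2 + 2) := by norm_num
  rw [cubeFn, cubeFn, SlashAction.add_slash, SlashAction.neg_slash, h6, mul_slash_SL2,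
    mul_slash_SL2, mul_slash_SL2, mul_slash_SL2]

/-- `H₈ = ∂₆ G₆`. -/
def H8 : ModularForm ((Gamma0 p : Subgroup SL(2, ℤ)) : Subgroup (GL (Fin 2) ℝ)) (6 + 2) :=
  serreLevel (G6 p g E)

theorem qExpansion_H8 :
    qExpansion 1 (H8 p g E) =
      H8three 1 (1 / 2) (qExpansion 1 g) (qExpansion 1 E) E2q := by
  have h1 := qExpansion_one_serreLevel_Gamma0 p (G6 p g E)
  have hg : HolAtCusp 1 (g : ℍ → ℂ) := holAtCusp_one_F p g
  have hE : HolAtCusp 1 (E : ℍ → ℂ) := holAtCusp_one_F p E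
  have h2 : qExpansion 1 (G6 p g E) = qExpansion 1 g ^ 3 - qExpansion 1 g * qExpansion 1 E ^ 2 := by
    have := qExpansion_cubeFn (h := 1) hg hE
    rw [Nat.cast_one] at this
    rw [← this, coe_G6]
  rw [H8, h1, h2, H8three, map_one, one_mul]
  have hc : (C (((6 : ℤ) : ℂ) * 12⁻¹) : ℂ⟦X⟧) = C (1 / 2) := by
    congr 1; norm_num
  rw [hc]
  ring

theorem qExpansion_H8_slash_S :
    qExpansion (p : ℝ) ((H8 p g E : ℍ → ℂ) ∣[(6 + 2 : ℤ)] ModularGroup.S) =
      H8three (1 / (p : ℂ)) (1 / 2)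
        (qExpansion (p : ℝ) ((g : ℍ → ℂ) ∣[(2 : ℤ)] ModularGroup.S))
        (qExpansion (p : ℝ) ((E : ℍ → ℂ) ∣[(2 : ℤ)] ModularGroup.S))
        (expand p hp.out.ne_zero E2q) := by
  have h1 := qExpansion_serreLevel_slash_S p (G6 p g E)
  have hg : HolAtCusp p ((g : ℍ → ℂ) ∣[(2 : ℤ)] ModularGroup.S) := holAtCusp_slash p g _
  have hE : HolAtCusp p ((E : ℍ → ℂ) ∣[(2 : ℤ)] ModularGroup.S) := holAtCusp_slash p E _
  have h2 : qExpansion (p : ℝ) ((G6 p g E : ℍ → ℂ) ∣[(6 : ℤ)] ModularGroup.S) =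
      qExpansion (p : ℝ) ((g : ℍ → ℂ) ∣[(2 : ℤ)] ModularGroup.S) ^ 3 -
        qExpansion (p : ℝ) ((g : ℍ → ℂ) ∣[(2 : ℤ)] ModularGroup.S) *
          qExpansion (p : ℝ) ((E : ℍ → ℂ) ∣[(2 : ℤ)] ModularGroup.S) ^ 2 := by
    rw [coe_G6, cubeFn_slash, qExpansion_cubeFn hg hE]
  rw [H8, h1, h2, H8three]
  have hc : (C (((6 : ℤ) : ℂ) * 12⁻¹) : ℂ⟦X⟧) = C (1 / 2) := by
    congr 1; norm_num
  have hc' : (C ((p : ℂ)⁻¹) : ℂ⟦X⟧) = C (1 / (p : ℂ)) := by
    rw [one_div]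
  rw [hc, hc']
  ring

/-! ### Specialisation: `g = (F - E)/3`, `E = eisOne p` -/

section Special

open Fermat.Agent.S16.DivisorCongr Fermat.Agent.S16.DeltaTheta Fermat.Agent.S16.SerreCoreInputs
open Fermat.Agent.S16.SerreCoreRing Fermat.Agent.S16.Interfaces

variable (F : ModularForm ((Gamma0 p : Subgroup SL(2, ℤ)) : Subgroup (GL (Fin 2) ℝ)) 2)

/-- `g = (F - E)/c`. -/
def gForm (c : ℂ) : ModularForm ((Gamma0 p : Subgroup SL(2, ℤ)) : Subgroup (GL (Fin 2) ℝ)) 2 :=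
  c • (F - eisOne p)

theorem coe_gForm (c : ℂ) :
    (gForm p F c : ℍ → ℂ) = c • ((F : ℍ → ℂ) + -(eisOne p : ℍ → ℂ)) := by
  ext z
  simp [gForm, sub_eq_add_neg]
  ring

theorem zeta_pow_p : zeta p ^ p = 1 := by
  unfold zeta
  rw [← Complex.exp_nat_mul]
  have hp0 : (p : ℂ) ≠ 0 := by exact_mod_cast hp.out.ne_zero
  rw [mul_div_cancel₀ _ hp0]
  exact Complex.exp_two_pi_mul_I

theorem qExpansion_smul_fn {h : ℕ} [NeZero h] {f : ℍ → ℂ} (hf : HolAtCusp h f) (c : ℂ) :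
    qExpansion (h : ℝ) (c • f) = C c * qExpansion (h : ℝ) f := by
  rw [UpperHalfPlane.qExpansion_smul hf.analyticAt, smul_eq_C_mul]

theorem qExpansion_gForm (c : ℂ) (hp2 : 2 ≤ p) :
    qExpansion 1 (gForm p F c) =
      C c * (qExpansion 1 F - EpSeries p hp.out.ne_zero (toC (sig 1))) := by
  have hF : HolAtCusp 1 (F : ℍ → ℂ) := holAtCusp_one_F p F
  have hE : HolAtCusp 1 (eisOne p : ℍ → ℂ) := holAtCusp_one_F p (eisOne p)
  have h1 := qExpansion_smul_fn (h := 1) (hF.add hE.neg) c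
  have h2 := qExpansion_add' (h := 1) hF hE.neg
  have h3 := qExpansion_neg' (h := 1) hE
  rw [Nat.cast_one] at h1 h2 h3
  rw [coe_gForm, h1, h2, h3, qExpansion_eisOne p hp2]
  ring

theorem qExpansion_F_slash_S :
    qExpansion (p : ℝ) ((F : ℍ → ℂ) ∣[(2 : ℤ)] ModularGroup.S) =
      C (-(1 / (p : ℂ))) * Up p (qExpansion 1 F) := by
  ext n
  rw [Fermat.Agent.S16.NormLevelOneFricke.coeff_qExpansion_slash_S, coeff_C_mul, coeff_Up,
    mul_comm n p]
  ring

theorem qExpansion_eisOne_slash_S (hp2 : 2 ≤ p) :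
    qExpansion (p : ℝ) ((eisOne p : ℍ → ℂ) ∣[(2 : ℤ)] ModularGroup.S) =
      C (-(1 / (p : ℂ))) * EpSeries p hp.out.ne_zero (toC (sig 1)) := by
  rw [qExpansion_slash_S_of_eq p (eisOne p) (eisOne p : ℍ → ℂ) (holAtCusp_one_F p (eisOne p))
    (-(1 / (p : ℂ))) (fun z w hw => by rw [eisOne_slash_S p z w hw]; ring),
    ← qExpansion_eisOne p hp2]

theorem qExpansion_gForm_slash_S (c : ℂ) (hp2 : 2 ≤ p) :
    qExpansion (p : ℝ) ((gForm p F c : ℍ → ℂ) ∣[(2 : ℤ)] ModularGroup.S) =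
      C (-(1 / (p : ℂ))) *
        (C c * (Up p (qExpansion 1 F) - EpSeries p hp.out.ne_zero (toC (sig 1)))) := by
  have hF : HolAtCusp p ((F : ℍ → ℂ) ∣[(2 : ℤ)] ModularGroup.S) := holAtCusp_slash p F _
  have hE : HolAtCusp p ((eisOne p : ℍ → ℂ) ∣[(2 : ℤ)] ModularGroup.S) :=
    holAtCusp_slash p (eisOne p) _
  have hfun : (gForm p F c : ℍ → ℂ) ∣[(2 : ℤ)] ModularGroup.S =
      c • (((F : ℍ → ℂ) ∣[(2 : ℤ)] ModularGroup.S) +
        -((eisOne p : ℍ → ℂ) ∣[(2 : ℤ)] ModularGroup.S)) := by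
    rw [coe_gForm, ModularForm.SL_smul_slash, SlashAction.add_slash, SlashAction.neg_slash]
  rw [hfun, qExpansion_smul_fn (hF.add hE.neg) c, qExpansion_add' hF hE.neg, qExpansion_neg' hE,
    qExpansion_F_slash_S, qExpansion_eisOne_slash_S p hp2]
  ring

/-- **`ℓ = 3`, `p ≡ 2 mod 3`: no weight-2 form of level `p` is `≡ 1 mod 9`.** -/
theorem no_one_mod_nine (hp5 : 5 ≤ p) (hp3 : p % 3 = 2) : NoOneMod p 3 2 := by
  intro F hF
  have hp2 : 2 ≤ p := by omega
  have hp0 : p ≠ 0 := hp.out.ne_zero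
  obtain ⟨hf0, hf⟩ := qExpansion_of_isOneMod p 3 2 F hF
  set E := eisOne p with hE
  set g := gForm p F (1 / 3) with hg
  set H := H8 p g E with hH
  have hinf : qExpansion 1 H = H8inf3 p hp0 (toC (sig 1)) (qExpansion 1 F) := by
    rw [hH, qExpansion_H8, hg, qExpansion_gForm p F _ hp2, hE, qExpansion_eisOne p hp2, H8inf3,
      SerreExpansion.E2q]
  have hzero : qExpansion (p : ℝ) ((H : ℍ → ℂ) ∣[(6 + 2 : ℤ)] ModularGroup.S) =
      H8zero3 p hp0 (toC (sig 1)) (qExpansion 1 F) := by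
    rw [hH, qExpansion_H8_slash_S, hg, qExpansion_gForm_slash_S p F _ hp2, hE,
      qExpansion_eisOne_slash_S p hp2, H8zero3, SerreExpansion.E2q]
  have hnorm := expand_qExpansion_normForm p H
  rw [hinf, hzero] at hnorm
  refine three_contra p hp0 hp3 (sig 1) Δq hSD3 hθD3 coeff_zero_Δq coeff_one_Δq
    (qExpansion 1 F) hf0 (fun n hn => ?_) (zeta p) (zeta_pow_p p)
    (qExpansion 1 (normForm p H)) hnorm ?_
  · obtain ⟨x, hx, hxn⟩ := hf n hn
    refine ⟨x, hx, ?_⟩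
    rw [hxn]; norm_num
  · intro nR hnR
    have h240 : (240 : Kl 3) = 0 := by
      have h3 : (3 : Kl 3) = 0 := by
        have := natCast_Kl_eq_zero 3
        exact_mod_cast this
      linear_combination (80 : Kl 3) * h3
    have h504 : (504 : Kl 3) = 0 := by
      have h3 : (3 : Kl 3) = 0 := by
        have := natCast_Kl_eq_zero 3
        exact_mod_cast this
      linear_combination (168 : Kl 3) * h3
    obtain ⟨P, hP, hPn⟩ := Fermat.Agent.S16.LevelOneModL.exists_poly_delta_of_qExpansion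
      (IntL 3).subtype Subtype.val_injective (red 3) h240 h504 (normForm p H) nR hnR
    refine ⟨P, ?_, hPn⟩
    by_cases hP0 : P = 0
    · rw [hP0]; simp
    · by_contra hlt
      rw [not_le] at hlt
      have := hP P.natDegree (by push_cast; push_cast at hlt; omega)
      exact hP0 (Polynomial.leadingCoeff_eq_zero.1 this)

/-- Block (UP3b) of the S16 assembly, literally `Interfaces.Upper3bStatement`. -/
theorem upper3b : Upper3bStatement := fun p _ hp5 hp3 => no_one_mod_nine p hp5 hp3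

end Special

end Fermat.Agent.S16.G3Serre
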