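import Mathlib

/-!
# The coset space `SL(2,ℤ) ⧸ Γ₀(p)` for a prime `p`

`X = {x₀} ⊔ {y i = T^i S Γ₀(p) : i mod p}`; sum formula over `X`.
-/

set_option autoImplicit false

open scoped MatrixGroups
open ModularGroup CongruenceSubgroup

namespace Fermat.Agent.S16.Gamma0Cosets

/-- the `(1,0)` entry of `g⁻¹ * h` -/
theorem inv_mul_apply_one_zero (g h : SL(2,ℤ)) :
    (g⁻¹ * h) 1 0 = g 0 0 * h 1 0 - g 1 0 * h 0 0 := by
  simp only [Matrix.SpecialLinearGroup.coe_mul, Matrix.SpecialLinearGroup.coe_inv,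
    Matrix.adjugate_fin_two, Matrix.mul_apply, Fin.sum_univ_two]
  simp
  ring

theorem T_zpow_mul_S_apply (i : ℤ) :
    (T ^ i * S : SL(2,ℤ)) 0 0 = i ∧ (T ^ i * S : SL(2,ℤ)) 1 0 = 1 := by
  simp only [Matrix.SpecialLinearGroup.coe_mul, coe_T_zpow, coe_S, Matrix.mul_apply,
    Fin.sum_univ_two]
  simp

variable (p : ℕ)

/-- the coset space -/
abbrev X : Type := SL(2,ℤ) ⧸ Gamma0 p

/-- the base point (the cusp `∞`) -/
def x0 : X p := ((1 : SL(2,ℤ)) : X p)

/-- the other points `T^i S ∞ = i` -/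
def y (i : ℤ) : X p := ((T ^ i * S : SL(2,ℤ)) : X p)

theorem smul_mk (g r : SL(2,ℤ)) : g • (r : X p) = ((g * r : SL(2,ℤ)) : X p) := rfl

theorem mk_eq_mk_iff (g h : SL(2,ℤ)) :
    (g : X p) = (h : X p) ↔ ((g 0 0 * h 1 0 - g 1 0 * h 0 0 : ℤ) : ZMod p) = 0 := by
  rw [QuotientGroup.eq, Gamma0_mem, inv_mul_apply_one_zero]

theorem mk_eq_x0_iff (g : SL(2,ℤ)) : (g : X p) = x0 p ↔ ((g 1 0 : ℤ) : ZMod p) = 0 := by
  unfold x0
  rw [mk_eq_mk_iff]
  simp

theorem neg_one_smul (x : X p) : (-1 : SL(2,ℤ)) • x = x := by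
  induction x using QuotientGroup.induction_on with
  | H r =>
    rw [smul_mk, mk_eq_mk_iff]
    simp [mul_comm]

theorem T_zpow_smul_x0 (k : ℤ) : (T ^ k : SL(2,ℤ)) • x0 p = x0 p := by
  unfold x0
  rw [smul_mk, mul_one]
  show _ = x0 p
  rw [mk_eq_x0_iff, coe_T_zpow]
  simp

theorem T_smul_x0 : (T : SL(2,ℤ)) • x0 p = x0 p := by
  simpa using T_zpow_smul_x0 p 1

theorem T_zpow_smul_y (k i : ℤ) : (T ^ k : SL(2,ℤ)) • y p i = y p (k + i) := by
  unfold y
  rw [smul_mk, ← mul_assoc, ← _root_.zpow_add]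

theorem T_smul_y (i : ℤ) : (T : SL(2,ℤ)) • y p i = y p (i + 1) := by
  have := T_zpow_smul_y p 1 i
  rwa [zpow_one, add_comm] at this

theorem S_smul_x0 : (S : SL(2,ℤ)) • x0 p = y p 0 := by
  unfold x0 y
  rw [smul_mk, mul_one, zpow_zero, one_mul]

theorem y_eq_iff (i j : ℤ) : y p i = y p j ↔ (p : ℤ) ∣ j - i := by
  unfold y
  rw [mk_eq_mk_iff, (T_zpow_mul_S_apply i).1, (T_zpow_mul_S_apply i).2,
    (T_zpow_mul_S_apply j).1, (T_zpow_mul_S_apply j).2,
    ZMod.intCast_zmod_eq_zero_iff_dvd]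
  constructor <;> intro h
  · have : j - i = -(i * 1 - 1 * j) := by ring
    rw [this]; exact (dvd_neg).mpr h
  · have : i * 1 - 1 * j = -(j - i) := by ring
    rw [this]; exact (dvd_neg).mpr h

theorem y_ne_x0 (hp : 1 < p) (i : ℤ) : y p i ≠ x0 p := by
  unfold y
  rw [Ne, mk_eq_x0_iff, (T_zpow_mul_S_apply i).2]
  have : Fact (1 < p) := ⟨hp⟩
  simp

theorem y_emod (i : ℤ) : y p i = y p (i % p) := by
  rw [y_eq_iff]
  exact Int.dvd_sub_self_of_emod_eq rfl

variable [Fact p.Prime]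

theorem eq_x0_or_eq_y (x : X p) : x = x0 p ∨ ∃ i : ℤ, x = y p i := by
  induction x using QuotientGroup.induction_on with
  | H g =>
    by_cases hc : ((g 1 0 : ℤ) : ZMod p) = 0
    · exact Or.inl ((mk_eq_x0_iff p g).mpr hc)
    · right
      refine ⟨((((g 0 0 : ℤ) : ZMod p) * ((g 1 0 : ℤ) : ZMod p)⁻¹ : ZMod p)).val, ?_⟩
      unfold y
      rw [eq_comm, mk_eq_mk_iff, (T_zpow_mul_S_apply _).1, (T_zpow_mul_S_apply _).2]
      push_cast
      rw [ZMod.natCast_val, ZMod.cast_id', id_eq]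
      field_simp
      ring

theorem eq_x0_or_eq_y_nat (x : X p) : x = x0 p ∨ ∃ i : ℕ, i < p ∧ x = y p i := by
  rcases eq_x0_or_eq_y p x with h | ⟨i, hi⟩
  · exact Or.inl h
  · right
    have hp : (0 : ℤ) < p := by exact_mod_cast (Fact.out : p.Prime).pos
    refine ⟨(i % p).toNat, ?_, ?_⟩
    · have := Int.emod_lt_of_pos i hp
      have h0 := Int.emod_nonneg i hp.ne'
      omega
    · rw [hi, y_emod, Int.toNat_of_nonneg (Int.emod_nonneg i hp.ne')]

noncomputable instance : Fintype (X p) :=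
  haveI : NeZero p := ⟨(Fact.out : p.Prime).ne_zero⟩
  Subgroup.fintypeQuotientOfFiniteIndex

theorem sum_eq {M : Type*} [AddCommMonoid M] (f : X p → M) :
    ∑ x, f x = f (x0 p) + ∑ i ∈ Finset.range p, f (y p i) := by
  classical
  have hp1 : 1 < p := (Fact.out : p.Prime).one_lt
  have huniv : (Finset.univ : Finset (X p)) =
      insert (x0 p) ((Finset.range p).image fun i : ℕ => y p i) := by
    ext x
    simp only [Finset.mem_univ, Finset.mem_insert, Finset.mem_image, Finset.mem_range, true_iff]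
    rcases eq_x0_or_eq_y_nat p x with h | ⟨i, hi, hx⟩
    · exact Or.inl h
    · exact Or.inr ⟨i, hi, hx.symm⟩
  rw [huniv, Finset.sum_insert, Finset.sum_image]
  · intro i hi j hj hij
    rw [Finset.coe_range, Set.mem_Iio] at hi hj
    have hdvd := (y_eq_iff p i j).mp hij
    have : (j : ℤ) - i = 0 := by
      apply Int.eq_zero_of_abs_lt_dvd hdvd
      rw [abs_lt]; constructor <;> omega
    omega
  · simp only [Finset.mem_image, Finset.mem_range, not_exists, not_and]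
    intro i _ h
    exact y_ne_x0 p hp1 i h

end Fermat.Agent.S16.Gamma0Cosets
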