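import Mathlib

/-!
# Gauss sums of nondegenerate quadratic forms over a prime field (S16, block A-theta, step `ε = 1`)

For an odd prime `d`, a symmetric matrix `A` over `ZMod d` with `det A ≠ 0` and a nontrivial
additive character `ψ : AddChar (ZMod d) ℂ`:

  `∑ g : Fin n → ZMod d, ψ (g ⬝ᵥ A *ᵥ g) = χ (det A) * (gaussSum χ ψ) ^ n`,

`χ` the quadratic character.  For `n = 4` and `det A` a nonzero square this is `d ^ 2`.
-/

set_option autoImplicit false

open Finset Matrix

namespace Fermat.Agent.S16.GaussQuad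

variable {d : ℕ} [Fact d.Prime]

/-- the quadratic character of `ZMod d` with values in `ℂ`. -/
noncomputable def chi (d : ℕ) [Fact d.Prime] : MulChar (ZMod d) ℂ :=
  (quadraticChar (ZMod d)).ringHomComp (Int.castRingHom ℂ)

lemma chi_apply (a : ZMod d) : chi d a = ((quadraticChar (ZMod d) a : ℤ) : ℂ) := rfl

lemma chi_sq_eq_one {a : ZMod d} (ha : a ≠ 0) : chi d a ^ 2 = 1 := by
  rw [chi_apply]
  have := quadraticChar_sq_one ha
  exact_mod_cast congrArg (fun z : ℤ => (z : ℂ)) this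

lemma chi_mul_self {a : ZMod d} (ha : a ≠ 0) : chi d a * chi d a = 1 := by
  rw [← pow_two]; exact chi_sq_eq_one ha

lemma chi_isQuadratic : (chi d).IsQuadratic :=
  (quadraticChar_isQuadratic (ZMod d)).comp _

lemma ringChar_ne_two (hd : d ≠ 2) : ringChar (ZMod d) ≠ 2 := by
  rw [ZMod.ringChar_zmod_n]; exact hd

lemma chi_ne_one (hd : d ≠ 2) : chi d ≠ 1 := by
  obtain ⟨a, ha⟩ := quadraticChar_exists_neg_one' (ringChar_ne_two hd)
  intro h
  have h1 : chi d a = 1 := by rw [h]; exact MulChar.one_apply a.isUnit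
  rw [chi_apply, ha] at h1
  norm_num at h1

/-- number of square roots, complex form. -/
lemma card_sqrts (hd : d ≠ 2) (y : ZMod d) :
    ((univ.filter fun x : ZMod d => x ^ 2 = y).card : ℂ) = chi d y + 1 := by
  have h := quadraticChar_card_sqrts (ringChar_ne_two hd) y
  rw [chi_apply]
  have h2 : (univ.filter fun x : ZMod d => x ^ 2 = y) = {x : ZMod d | x ^ 2 = y}.toFinset := by
    ext x; simp
  rw [h2]
  have := congrArg (fun z : ℤ => (z : ℂ)) h
  simpa using this

/-- the one-dimensional quadratic Gauss sum. -/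
theorem sum_addChar_mul_sq (hd : d ≠ 2) (ψ : AddChar (ZMod d) ℂ) (hψ : ψ ≠ 1) {a : ZMod d}
    (ha : a ≠ 0) : ∑ x : ZMod d, ψ (a * x ^ 2) = chi d a * gaussSum (chi d) ψ := by
  classical
  -- group by the value of `x ^ 2`
  have h1 : ∑ x : ZMod d, ψ (a * x ^ 2) =
      ∑ y : ZMod d, ((univ.filter fun x : ZMod d => x ^ 2 = y).card : ℂ) * ψ (a * y) := by
    rw [← Finset.sum_fiberwise (s := univ) (g := fun x : ZMod d => x ^ 2)
      (f := fun x => ψ (a * x ^ 2))]
    refine Finset.sum_congr rfl fun y _ => ?_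
    rw [Finset.sum_congr rfl (g := fun _ => ψ (a * y))]
    · rw [Finset.sum_const, nsmul_eq_mul]
    · intro x hx
      rw [(Finset.mem_filter.mp hx).2]
  rw [h1]
  simp_rw [card_sqrts hd, add_mul, one_mul]
  rw [Finset.sum_add_distrib]
  -- the second sum vanishes
  have hu : IsUnit a := ha.isUnit
  have h2 : ∑ y : ZMod d, ψ (a * y) = 0 := by
    have hne : ψ.mulShift a ≠ 1 := (AddChar.IsPrimitive.of_ne_one hψ) ha
    have := AddChar.sum_eq_zero_of_ne_one hne
    simpa [AddChar.mulShift_apply] using this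
  rw [h2, add_zero]
  -- the first is a shifted Gauss sum
  have h3 : ∑ y : ZMod d, chi d y * ψ (a * y) = gaussSum (chi d) (ψ.mulShift hu.unit) := by
    simp [gaussSum, AddChar.mulShift_apply]
  rw [h3, gaussSum_mulShift_eq]
  have h4 : (chi d)⁻¹ (hu.unit : ZMod d) = chi d a := by
    rw [chi_isQuadratic.inv]; simp
  rw [h4]


/-- `2` is invertible in `ZMod d` for an odd prime `d`. -/
@[instance_reducible]
noncomputable def invertibleTwo (hd : d ≠ 2) : Invertible (2 : ZMod d) := by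
  have h2 : (2 : ZMod d) ≠ 0 := by
    intro h
    have h' : ((2 : ℕ) : ZMod d) = 0 := by exact_mod_cast h
    rw [ZMod.natCast_eq_zero_iff] at h'
    exact hd ((Nat.prime_dvd_prime_iff_eq (Fact.out : d.Prime) Nat.prime_two).mp h')
  exact invertibleOfNonzero h2

lemma addChar_sum (ψ : AddChar (ZMod d) ℂ) {ι : Type*} (s : Finset ι) (f : ι → ZMod d) :
    ψ (∑ i ∈ s, f i) = ∏ i ∈ s, ψ (f i) := by
  classical
  induction s using Finset.induction_on with
  | empty => simp
  | insert a s ha ih =>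
    rw [Finset.sum_insert ha, Finset.prod_insert ha, AddChar.map_add_eq_mul, ih]

/-- **Gauss sum of a nondegenerate quadratic form** over `ZMod d`, `d` an odd prime. -/
theorem sum_addChar_quadratic (hd : d ≠ 2) {n : ℕ} (A : Matrix (Fin n) (Fin n) (ZMod d))
    (hA : A.IsSymm) (hdet : A.det ≠ 0) (ψ : AddChar (ZMod d) ℂ) (hψ : ψ ≠ 1) :
    ∑ g : Fin n → ZMod d, ψ (g ⬝ᵥ A *ᵥ g) = chi d A.det * gaussSum (chi d) ψ ^ n := by
  classical
  have : Invertible (2 : ZMod d) := invertibleTwo hd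
  set B : LinearMap.BilinForm (ZMod d) (Fin n → ZMod d) := Matrix.toBilin' A with hBdef
  have hBapp : ∀ x y : Fin n → ZMod d, B x y = x ⬝ᵥ A *ᵥ y := fun x y =>
    Matrix.toBilin'_apply' A x y
  have hB : B.IsSymm := by
    refine ⟨fun x y => ?_⟩
    rw [hBapp, hBapp, Matrix.dotProduct_mulVec, ← Matrix.mulVec_transpose, hA.eq, dotProduct_comm]
  obtain ⟨v0, hv0⟩ :=
    LinearMap.BilinForm.exists_orthogonal_basis (LinearMap.BilinForm.isSymm_iff.mp hB)
  have hfr : Module.finrank (ZMod d) (Fin n → ZMod d) = n := Module.finrank_fin_fun _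
  let v : Module.Basis (Fin n) (ZMod d) (Fin n → ZMod d) := v0.reindex (finCongr hfr)
  have hv : ∀ i j, i ≠ j → B (v i) (v j) = 0 := by
    intro i j hij
    have := (LinearMap.isOrthoᵢ_def.mp hv0) ((finCongr hfr).symm i) ((finCongr hfr).symm j)
      (fun h => hij ((finCongr hfr).symm.injective h))
    simpa [v, Module.Basis.reindex_apply] using this
  set w : Fin n → ZMod d := fun i => B (v i) (v i) with hwdef
  -- the quadratic form in the orthogonal coordinates
  have hquad : ∀ c : Fin n → ZMod d,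
      B (v.equivFun.symm c) (v.equivFun.symm c) = ∑ i, w i * c i ^ 2 := by
    intro c
    rw [Module.Basis.equivFun_symm_apply]
    simp only [map_sum, LinearMap.sum_apply, map_smul, LinearMap.smul_apply, smul_eq_mul]
    refine Finset.sum_congr rfl fun i _ => ?_
    rw [Finset.sum_eq_single i]
    · rw [hwdef]; ring
    · intro j _ hji
      rw [hv j i hji, mul_zero]
    · intro h; exact absurd (Finset.mem_univ i) h
  -- change of variables
  have hsum : ∑ g : Fin n → ZMod d, ψ (g ⬝ᵥ A *ᵥ g) =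
      ∑ c : Fin n → ZMod d, ψ (∑ i, w i * c i ^ 2) := by
    rw [← Equiv.sum_comp v.equivFun.symm.toEquiv]
    refine Finset.sum_congr rfl fun c _ => ?_
    rw [← hquad c, hBapp]
    rfl
  -- factorisation of the sum
  have hprod : ∑ c : Fin n → ZMod d, ψ (∑ i, w i * c i ^ 2) =
      ∏ i, ∑ x : ZMod d, ψ (w i * x ^ 2) := by
    simp_rw [addChar_sum]
    rw [Finset.prod_univ_sum]
    simp [Fintype.piFinset_univ]
  -- the determinant of the Gram matrix
  let P : Matrix (Fin n) (Fin n) (ZMod d) := (Pi.basisFun (ZMod d) (Fin n)).toMatrix v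
  have hPapp : ∀ k i, P k i = v i k := fun k i => by
    simp [P, Module.Basis.toMatrix_apply]
  have hPAP : Pᵀ * A * P = Matrix.diagonal w := by
    ext i j
    have h1 : (Pᵀ * A * P) i j = B (v i) (v j) := by
      rw [hBapp, Matrix.mul_apply, dotProduct]
      simp only [Matrix.mul_apply, Matrix.transpose_apply, hPapp, Matrix.mulVec, dotProduct,
        Finset.sum_mul, Finset.mul_sum]
      rw [Finset.sum_comm]
      refine Finset.sum_congr rfl fun k _ => Finset.sum_congr rfl fun l _ => ?_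
      ring
    rw [h1]
    by_cases hij : i = j
    · subst hij; simp [hwdef]
    · rw [hv i j hij, Matrix.diagonal_apply_ne _ hij]
  have hdetP : P.det ≠ 0 := by
    have h1 : P * v.toMatrix (Pi.basisFun (ZMod d) (Fin n)) = 1 :=
      Module.Basis.toMatrix_mul_toMatrix_flip _ _
    intro h0
    have := congrArg Matrix.det h1
    rw [Matrix.det_mul, h0, zero_mul, Matrix.det_one] at this
    exact zero_ne_one this
  have hwprod : ∏ i, w i = P.det ^ 2 * A.det := by
    have := congrArg Matrix.det hPAP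
    rw [Matrix.det_mul, Matrix.det_mul, Matrix.det_transpose, Matrix.det_diagonal] at this
    rw [← this]; ring
  have hw0 : ∀ i, w i ≠ 0 := by
    intro i h0
    have : ∏ i, w i = 0 := Finset.prod_eq_zero (Finset.mem_univ i) h0
    rw [hwprod] at this
    exact (mul_ne_zero (pow_ne_zero 2 hdetP) hdet) this
  rw [hsum, hprod]
  rw [Finset.prod_congr rfl fun i _ => sum_addChar_mul_sq hd ψ hψ (hw0 i)]
  rw [Finset.prod_mul_distrib, Finset.prod_const, Finset.card_univ, Fintype.card_fin,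
    ← map_prod, hwprod, map_mul, map_pow, chi_sq_eq_one hdetP, one_mul]


/-- fourth power of the quadratic Gauss sum. -/
theorem gaussSum_pow_four (hd : d ≠ 2) (ψ : AddChar (ZMod d) ℂ) (hψ : ψ ≠ 1) :
    gaussSum (chi d) ψ ^ 4 = (d : ℂ) ^ 2 := by
  have h : gaussSum (chi d) ψ ^ 2 = chi d (-1) * (Fintype.card (ZMod d) : ℂ) :=
    gaussSum_sq (χ := chi d) (chi_ne_one hd) chi_isQuadratic (AddChar.IsPrimitive.of_ne_one hψ)
  have h4 : gaussSum (chi d) ψ ^ 4 = (gaussSum (chi d) ψ ^ 2) ^ 2 := by ring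
  rw [h4, h, ZMod.card, mul_pow, chi_sq_eq_one (by simp : (-1 : ZMod d) ≠ 0), one_mul]

/-- **Consumer form over `ZMod d`**: rank `4`, `det` a nonzero square. -/
theorem sum_addChar_quadratic_four (hd : d ≠ 2) (A : Matrix (Fin 4) (Fin 4) (ZMod d))
    (hA : A.IsSymm) {s : ZMod d} (hs : s ≠ 0) (hdet : A.det = s ^ 2)
    (ψ : AddChar (ZMod d) ℂ) (hψ : ψ ≠ 1) :
    ∑ g : Fin 4 → ZMod d, ψ (g ⬝ᵥ A *ᵥ g) = (d : ℂ) ^ 2 := by
  have hdet0 : A.det ≠ 0 := by rw [hdet]; exact pow_ne_zero 2 hs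
  rw [sum_addChar_quadratic hd A hA hdet0 ψ hψ, gaussSum_pow_four hd ψ hψ, hdet, map_pow,
    chi_sq_eq_one hs, one_mul]

/-- with a multiplier `b ≠ 0` inside the character. -/
theorem sum_addChar_mul_quadratic_four (hd : d ≠ 2) (A : Matrix (Fin 4) (Fin 4) (ZMod d))
    (hA : A.IsSymm) {s : ZMod d} (hs : s ≠ 0) (hdet : A.det = s ^ 2)
    (ψ : AddChar (ZMod d) ℂ) (hψ : ψ ≠ 1) {b : ZMod d} (hb : b ≠ 0) :
    ∑ g : Fin 4 → ZMod d, ψ (b * (g ⬝ᵥ A *ᵥ g)) = (d : ℂ) ^ 2 := by
  have hne : ψ.mulShift b ≠ 1 := (AddChar.IsPrimitive.of_ne_one hψ) hb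
  have := sum_addChar_quadratic_four hd A hA hs hdet (ψ.mulShift b) hne
  simpa [AddChar.mulShift_apply] using this

section integral

/-- the quadratic form of a symmetric integral matrix with even diagonal takes even values. -/
theorem even_dotProduct_mulVec (A : Matrix (Fin 4) (Fin 4) ℤ) (hA : A.IsSymm)
    (heven : ∀ i, Even (A i i)) (x : Fin 4 → ℤ) : Even (x ⬝ᵥ A *ᵥ x) := by
  obtain ⟨k0, hk0⟩ := heven 0
  obtain ⟨k1, hk1⟩ := heven 1
  obtain ⟨k2, hk2⟩ := heven 2
  obtain ⟨k3, hk3⟩ := heven 3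
  have h10 : A 1 0 = A 0 1 := hA.apply 0 1
  have h20 : A 2 0 = A 0 2 := hA.apply 0 2
  have h30 : A 3 0 = A 0 3 := hA.apply 0 3
  have h21 : A 2 1 = A 1 2 := hA.apply 1 2
  have h31 : A 3 1 = A 1 3 := hA.apply 1 3
  have h32 : A 3 2 = A 2 3 := hA.apply 2 3
  refine ⟨k0 * x 0 ^ 2 + k1 * x 1 ^ 2 + k2 * x 2 ^ 2 + k3 * x 3 ^ 2 + A 0 1 * x 0 * x 1 +
    A 0 2 * x 0 * x 2 + A 0 3 * x 0 * x 3 + A 1 2 * x 1 * x 2 + A 1 3 * x 1 * x 3 +
    A 2 3 * x 2 * x 3, ?_⟩
  simp only [dotProduct, Matrix.mulVec, Fin.sum_univ_four]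
  rw [hk0, hk1, hk2, hk3, h10, h20, h30, h21, h31, h32]
  ring

/-- **Consumer form with complex exponentials**: `A` integral symmetric `4 × 4` with even diagonal,
`det A = p ^ 2`, `d` an odd prime not dividing `p * b`; `Q(x) = xᵀ A x / 2`; `r` any system of
integral representatives of `(ZMod d)^4`.  Then `∑_g e(b Q(r g) / d) = d ^ 2`. -/
theorem sum_exp_quadratic_four (hd : d ≠ 2) (A : Matrix (Fin 4) (Fin 4) ℤ) (hA : A.IsSymm)
    (heven : ∀ i, Even (A i i)) {p : ℤ} (hdet : A.det = p ^ 2) (hp : (p : ZMod d) ≠ 0)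
    {b : ℤ} (hb : (b : ZMod d) ≠ 0) (r : (Fin 4 → ZMod d) → Fin 4 → ℤ)
    (hr : ∀ g i, ((r g i : ℤ) : ZMod d) = g i) :
    ∑ g : Fin 4 → ZMod d,
      Complex.exp (2 * Real.pi * Complex.I * ((b * ((r g ⬝ᵥ A *ᵥ r g) / 2) : ℤ) : ℂ) / (d : ℂ)) =
      (d : ℂ) ^ 2 := by
  classical
  have hinv : Invertible (2 : ZMod d) := invertibleTwo hd
  have h2 : (2 : ZMod d) ≠ 0 := hinv.ne_zero
  set Abar : Matrix (Fin 4) (Fin 4) (ZMod d) := A.map (Int.cast : ℤ → ZMod d) with hAbar
  have hAbarS : Abar.IsSymm := by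
    ext i j
    simp only [hAbar, Matrix.transpose_apply, Matrix.map_apply]
    rw [hA.apply j i]
  have hdetbar : Abar.det = (p : ZMod d) ^ 2 := by
    have : Abar = (Int.castRingHom (ZMod d)).mapMatrix A := rfl
    rw [this, ← RingHom.map_det, hdet]
    simp
  have hb' : (b : ZMod d) * (2 : ZMod d)⁻¹ ≠ 0 := mul_ne_zero hb (inv_ne_zero h2)
  have hψ : (ZMod.stdAddChar : AddChar (ZMod d) ℂ) ≠ 1 := by
    have hprim := ZMod.isPrimitive_stdAddChar d
    intro h1
    have := hprim (one_ne_zero : (1 : ZMod d) ≠ 0)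
    apply this
    rw [h1]
    ext x
    simp
  have key := sum_addChar_mul_quadratic_four hd Abar hAbarS hp hdetbar ZMod.stdAddChar hψ hb'
  rw [← key]
  refine Finset.sum_congr rfl fun g _ => ?_
  rw [← ZMod.stdAddChar_coe]
  congr 1
  -- the congruence of the arguments
  obtain ⟨m, hm⟩ := even_dotProduct_mulVec A hA heven (r g)
  have hdiv : (r g ⬝ᵥ A *ᵥ r g) / 2 = m := by rw [hm]; omega
  rw [hdiv]
  have hcast : ((r g ⬝ᵥ A *ᵥ r g : ℤ) : ZMod d) = g ⬝ᵥ Abar *ᵥ g := by
    simp only [dotProduct, Matrix.mulVec, hAbar, Matrix.map_apply]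
    push_cast
    simp only [hr]
  have h2m : (2 : ZMod d) * (m : ZMod d) = g ⬝ᵥ Abar *ᵥ g := by
    rw [← hcast, hm]; push_cast; ring
  rw [← h2m]
  push_cast
  field_simp

end integral

end Fermat.Agent.S16.GaussQuad
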