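import Fermat.Agent.S16.HeckeHom
import Fermat.Prelude.Def_ModularCurve_PeriodHomPair

/-!
# S16, lower bound (A-psi): the coset Hecke operators commute with the character involution

`charInvolution N R A φ = φ ∘ (conjugation by diag(1,-1))`.  For the coset systems `cosetT N l`
and `cosetU N q` of `S16/HeckeHom` we show
`heckeHom (charInvolution φ) = charInvolution (heckeHom φ)`.
-/

set_option autoImplicit false

namespace Fermat.Agent.S16.HeckeHomInvol

open scoped MatrixGroups
open Matrix CongruenceSubgroup ModularCurve.Period Fermat.Agent.S16.HeckeHom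

section Abstract

variable {G : Subgroup SL(2, ℤ)} {I : Type} [Fintype I] [DecidableEq I] (C : CosetSystem G I)
variable {A : Type*} [AddCommGroup A]

/-- Abstract form: if an automorphism `J` of `G` acts on matrices by `jConjMat` and permutes the
coset representatives up to left multiplication by elements of `G`, then the coset Hecke operator
commutes with composition by `J`. -/
theorem heckeHom_apply_aut (J : G →* G) (hJ : ∀ g, mat (J g) = jConjMat (mat g))
    (star : I ≃ I) (u : I → G) (hu : ∀ i, jConjMat (C.al i) = mat (u i) * C.al (star i))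
    (φ : Additive G →+ A) (g : G) :
    C.heckeHom φ (Additive.ofMul (J g)) =
      C.heckeHom (φ.comp (MonoidHom.toAdditive J)) (Additive.ofMul g) := by
  have key : ∀ i, C.al (star i) * mat (J g) =
      mat ((u i)⁻¹ * J (C.fac g i) * u (C.perm g i)) * C.al (star (C.perm g i)) := by
    intro i
    have h := congrArg jConjMat (C.spec g i)
    rw [jConjMat_mul, jConjMat_mul, hu i, hu (C.perm g i), ← hJ, ← hJ] at h
    have h2 : mat (u i)⁻¹ * (mat (u i) * C.al (star i) * mat (J g)) =
        mat (u i)⁻¹ * (mat (J (C.fac g i)) * (mat (u (C.perm g i)) * C.al (star (C.perm g i)))) := by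
      rw [h]
    rw [Matrix.mul_assoc (mat (u i)), ← Matrix.mul_assoc (mat (u i)⁻¹), mat_inv_mul,
      Matrix.one_mul] at h2
    rw [h2, mat_mul, mat_mul]
    simp only [Matrix.mul_assoc]
  have hfac : ∀ i, C.fac (J g) (star i) = (u i)⁻¹ * J (C.fac g i) * u (C.perm g i) := fun i =>
    ((C.eq_of_spec (key i)).2).symm
  rw [C.heckeHom_apply, C.heckeHom_apply, ← star.sum_comp]
  have hterm : ∀ i, φ (Additive.ofMul (C.fac (J g) (star i))) =
      (φ.comp (MonoidHom.toAdditive J)) (Additive.ofMul (C.fac g i)) +
        (φ (Additive.ofMul (u (C.perm g i))) - φ (Additive.ofMul (u i))) := by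
    intro i
    rw [hfac i, ofMul_mul, ofMul_mul, ofMul_inv, map_add, map_add, map_neg]
    show -φ (Additive.ofMul (u i)) + φ (Additive.ofMul (J (C.fac g i))) +
        φ (Additive.ofMul (u (C.perm g i))) = φ (Additive.ofMul (J (C.fac g i))) +
        (φ (Additive.ofMul (u (C.perm g i))) - φ (Additive.ofMul (u i)))
    abel
  simp only [hterm]
  rw [Finset.sum_add_distrib, Finset.sum_sub_distrib]
  have hperm : ∑ i, φ (Additive.ofMul (u (C.perm g i))) = ∑ i, φ (Additive.ofMul (u i)) :=
    (C.permEquiv g).sum_comp (fun i => φ (Additive.ofMul (u i)))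
  rw [hperm, sub_self, add_zero]

end Abstract

section Concrete

variable (N : ℕ)

theorem mat_jConjGamma0 (g : Gamma0 N) : mat (jConjGamma0 N g) = jConjMat (mat g) := rfl

/-- The translation `!![1, -ε; 0, 1]` as an element of `Γ₀(N)`. -/
def transl (ε : ℤ) : Gamma0 N := mkGamma0 N 1 (-ε) 0 1 (by ring) (dvd_zero _)

theorem mat_transl (ε : ℤ) : mat (transl N ε) = !![1, -ε; 0, 1] := rfl

/-- `0` if `j = 0`, `1` otherwise. -/
def eps {l : ℕ} (j : Fin l) : ℤ := if (j : ℕ) = 0 then 0 else 1

theorem val_neg_add {l : ℕ} [NeZero l] (j : Fin l) :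
    (((-j : Fin l) : ℕ) : ℤ) = eps j * (l : ℤ) - ((j : ℕ) : ℤ) := by
  unfold eps
  by_cases h : (j : ℕ) = 0
  · have hj : j = 0 := Fin.ext (by simpa using h)
    subst hj
    simp
  · rw [if_neg h, one_mul]
    have hlt := j.2
    have hneg : ((-j : Fin l) : ℕ) = l - (j : ℕ) := by
      rw [Fin.val_neg']
      apply Nat.mod_eq_of_lt
      omega
    rw [hneg]
    have : (j : ℕ) ≤ l := hlt.le
    push_cast [Nat.cast_sub this]
    ring

/-- The key matrix identity for the upper triangular representatives. -/
theorem jConjMat_upper {l : ℕ} [NeZero l] (j : Fin l) :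
    jConjMat !![1, ((j : ℕ) : ℤ); 0, (l : ℤ)] =
      mat (transl N (eps j)) * !![1, (((-j : Fin l) : ℕ) : ℤ); 0, (l : ℤ)] := by
  rw [mat_transl, val_neg_add]
  ext a b
  fin_cases a <;> fin_cases b <;> simp [jConjMat, Matrix.mul_apply, Fin.sum_univ_two]
  ring

end Concrete

section Main

variable (N : ℕ) (R : Type*) [Semiring R] {A : Type*} [AddCommGroup A] [Module R A]

/-- `T_l` on homomorphisms commutes with the character involution. -/
theorem heckeHom_cosetT_charInvolution (l : ℕ) [hl : Fact l.Prime] (hlN : ¬ l ∣ N)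
    (φ : Additive (Gamma0 N) →+ A) :
    (cosetT N l hlN).heckeHom (charInvolution N R A φ) =
      charInvolution N R A ((cosetT N l hlN).heckeHom φ) := by
  have : NeZero l := ⟨hl.out.ne_zero⟩
  refine AddMonoidHom.ext fun γ => ?_
  have h := heckeHom_apply_aut (cosetT N l hlN) (jConjGamma0 N) (mat_jConjGamma0 N)
    (Equiv.optionCongr (Equiv.neg (Fin l)))
    (fun i => match i with
      | none => 1
      | some j => transl N (eps j))
    (by
      intro i
      cases i with
      | none =>
        simp only [cosetT_al, alT, Equiv.optionCongr_apply, Option.map_none, mat_one,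
          Matrix.one_mul]
        ext a b
        fin_cases a <;> fin_cases b <;> simp [jConjMat]
      | some j =>
        simp only [cosetT_al, alT, Equiv.optionCongr_apply, Option.map_some, Equiv.neg_apply]
        exact jConjMat_upper N j)
    φ (Additive.toMul γ)
  exact h.symm

/-- `U_q` on homomorphisms commutes with the character involution. -/
theorem heckeHom_cosetU_charInvolution (q : ℕ) [hq : Fact q.Prime] (hqN : q ∣ N)
    (φ : Additive (Gamma0 N) →+ A) :
    (cosetU N q hqN).heckeHom (charInvolution N R A φ) =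
      charInvolution N R A ((cosetU N q hqN).heckeHom φ) := by
  have : NeZero q := ⟨hq.out.ne_zero⟩
  refine AddMonoidHom.ext fun γ => ?_
  have h := heckeHom_apply_aut (cosetU N q hqN) (jConjGamma0 N) (mat_jConjGamma0 N)
    (Equiv.neg (Fin q)) (fun j => transl N (eps j))
    (by
      intro j
      simp only [cosetU_al, alU, Equiv.neg_apply]
      exact jConjMat_upper N j)
    φ (Additive.toMul γ)
  exact h.symm

end Main

end Fermat.Agent.S16.HeckeHomInvol
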