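import Fermat.Agent.S16.EigenCongruence

/-!
# S16, input of block (P1): the Hecke polynomials `P_j`

For every `j ≥ 1` there is a polynomial `P_j` in the Hecke generators with
`ev p P_j = σ'(j)` and `a_n(P_j(T) g) = a_{nj}(g)` for every cusp form `g` of level `p` and every
`n` coprime to `j` (in particular `a_1(P_j(T) g) = a_j(g)`).
-/

set_option autoImplicit false

open ModularCurve CuspForm CongruenceSubgroup ModularFormClass

namespace Fermat.Agent.S16.HeckeTn

open Fermat.Agent.S16.Interfaces Fermat.Agent.S22 Fermat.Agent.S16.EigenCongruence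

noncomputable section

variable {p : ℕ} [NeZero p]

/-! ### coefficient formulas for the generators -/

omit [NeZero p] in
theorem qCoeff_heckeTLin {ℓ : ℕ} (hℓ : ℓ.Prime) (hℓp : ¬ ℓ ∣ p)
    (g : CuspForm (Gamma0 p) 2) (m : ℕ) :
    qCoeff (heckeTLin 2 hℓ hℓp g) m =
      qCoeff g (m * ℓ) + (if ℓ ∣ m then (ℓ : ℂ) * qCoeff g (m / ℓ) else 0) := by
  have h := LinearMap.congr_fun
    (coeffFunctional_comp_heckeT (N := p) (k := 2) (by norm_num) hℓ hℓp m) g
  rw [LinearMap.comp_apply, coeffFunctional_apply] at h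
  rw [h, LinearMap.add_apply, coeffFunctional_apply]
  congr 1
  split_ifs with hd
  · rw [LinearMap.smul_apply, coeffFunctional_apply, zsmul_eq_mul]
    norm_num
  · rfl

theorem qCoeff_heckeULin {ℓ : ℕ} (hℓ : ℓ.Prime) (hℓp : ℓ ∣ p)
    (g : CuspForm (Gamma0 p) 2) (m : ℕ) :
    qCoeff (heckeULin 2 hℓp g) m = qCoeff g (m * ℓ) := by
  have h := LinearMap.congr_fun
    (coeffFunctional_comp_heckeU (N := p) (k := 2) hℓ hℓp m) g
  rw [LinearMap.comp_apply, coeffFunctional_apply] at h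
  rw [h, coeffFunctional_apply]

/-! ### the endomorphism attached to a Hecke polynomial -/

variable (p) in
/-- The endomorphism of `S_2(Γ₀(p))` attached to `P`. -/
def op (P : HeckeAlg) : Module.End ℂ (CuspForm (Gamma0 p) 2) :=
  ((heckeEvalForms p 2 P : heckeAlgebra p 2 ∅) : Module.End ℂ (CuspForm (Gamma0 p) 2))

theorem op_one : op p 1 = 1 := by
  rw [op, map_one]
  rfl

theorem op_mul (P Q : HeckeAlg) : op p (P * Q) = op p P * op p Q := by
  rw [op, map_mul]
  rfl

theorem op_sub (P Q : HeckeAlg) : op p (P - Q) = op p P - op p Q := by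
  rw [op, map_sub]
  rfl

theorem op_C (a : ℤ) : op p (MvPolynomial.C a) = algebraMap ℤ _ a := by
  rw [op, heckeEvalForms_C]
  rfl

theorem op_comm (P Q : HeckeAlg) : op p P * op p Q = op p Q * op p P := by
  rw [← op_mul, ← op_mul, mul_comm]

theorem op_X_of_dvd {ℓ : Nat.Primes} (h : (ℓ : ℕ) ∣ p) :
    op p (MvPolynomial.X ℓ) = heckeULin 2 h := by
  have h2 : heckeEvalForms p 2 (MvPolynomial.X ℓ) = heckeFormsGen p 2 ℓ :=
    heckeEvalForms_heckeGen p 2 ℓ
  rw [op, h2, heckeFormsGen_of_dvd h, heckeAlgebra.coe_U]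

theorem op_X_of_not_dvd {ℓ : Nat.Primes} (h : ¬ (ℓ : ℕ) ∣ p) :
    op p (MvPolynomial.X ℓ) = heckeTLin 2 ℓ.2 h := by
  have h2 : heckeEvalForms p 2 (MvPolynomial.X ℓ) = heckeFormsGen p 2 ℓ :=
    heckeEvalForms_heckeGen p 2 ℓ
  rw [op, h2, heckeFormsGen_of_not_dvd h, heckeAlgebra.coe_T]

theorem qCoeff_op_C_mul (a : ℤ) (P : HeckeAlg) (g : CuspForm (Gamma0 p) 2) (n : ℕ) :
    qCoeff (op p (MvPolynomial.C a * P) g) n = (a : ℂ) * qCoeff (op p P g) n := by
  rw [op_mul, op_C, Module.End.mul_apply, Module.algebraMap_end_apply, ← coeffFunctional_apply,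
    map_zsmul, coeffFunctional_apply, zsmul_eq_mul]

theorem qCoeff_op_sub (P Q : HeckeAlg) (g : CuspForm (Gamma0 p) 2) (n : ℕ) :
    qCoeff (op p (P - Q) g) n = qCoeff (op p P g) n - qCoeff (op p Q g) n := by
  rw [op_sub, LinearMap.sub_apply, ← coeffFunctional_apply, map_sub, coeffFunctional_apply,
    coeffFunctional_apply]

omit [NeZero p] in
theorem ev_X (ℓ : Nat.Primes) : ev p (MvPolynomial.X ℓ) = eisensteinSystem p ℓ := by
  simp [ev]

omit [NeZero p] in
theorem ev_C (a : ℤ) : ev p (MvPolynomial.C a) = a := by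
  simp [ev]

/-! ### the Hecke polynomials -/

variable (p) in
/-- `P` acts as the `j`-th Hecke operator on the coefficients prime to `j`. -/
def IsTn (j : ℕ) (P : HeckeAlg) : Prop :=
  ∀ (g : CuspForm (Gamma0 p) 2) (n : ℕ), Nat.Coprime n j →
    qCoeff (op p P g) n = qCoeff g (n * j)

theorem exists_heckePoly (hp : p.Prime) (j : ℕ) (hj : 1 ≤ j) :
    ∃ P : HeckeAlg, ev p P = (sigmaPrime p j : ℤ) ∧ IsTn p j P := by
  induction j using Nat.strong_induction_on with
  | _ j ih =>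
  rcases Nat.lt_or_ge j 2 with hlt | hge
  · -- `j = 1`
    obtain rfl : j = 1 := by omega
    refine ⟨1, ?_, ?_⟩
    · rw [map_one, sigmaPrime_one hp]
      rfl
    · intro g n _
      rw [op_one, Module.End.one_apply, mul_one]
  · -- `j ≥ 2`
    have hj1 : j ≠ 1 := by omega
    have hℓ : (j.minFac).Prime := Nat.minFac_prime hj1
    set ℓ : ℕ := j.minFac with hℓdef
    obtain ⟨j', hj'⟩ : ℓ ∣ j := Nat.minFac_dvd j
    have hj'0 : j' ≠ 0 := by
      rintro rfl
      omega
    have hj'lt : j' < j := by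
      rw [hj']
      exact lt_mul_of_one_lt_left (Nat.pos_of_ne_zero hj'0) hℓ.one_lt
    obtain ⟨P', hev', hT'⟩ := ih j' hj'lt (Nat.one_le_iff_ne_zero.2 hj'0)
    have hcop : ∀ n : ℕ, Nat.Coprime n j → Nat.Coprime n j' ∧ ¬ ℓ ∣ n := by
      intro n hn
      rw [hj'] at hn
      refine ⟨Nat.Coprime.coprime_mul_left_right hn, fun h => ?_⟩
      have h1 : Nat.Coprime n ℓ := Nat.Coprime.coprime_mul_right_right hn
      exact hℓ.one_lt.ne' (Nat.Coprime.eq_one_of_dvd h1.symm h)
    by_cases hℓp : ℓ ∣ p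
    · -- `ℓ = p`
      have he : ℓ = p := (Nat.prime_dvd_prime_iff_eq hℓ hp).1 hℓp
      refine ⟨MvPolynomial.X ⟨ℓ, hℓ⟩ * P', ?_, ?_⟩
      · rw [map_mul, ev_X, eisensteinSystem_of_dvd (by exact hℓp), one_mul, hev', hj', mul_comm ℓ j',
          he, sigmaPrime_mul_self hp hj'0]
      · intro g n hn
        obtain ⟨hn', -⟩ := hcop n hn
        rw [op_mul, op_comm, Module.End.mul_apply, hT' _ n hn',
          op_X_of_dvd (ℓ := ⟨ℓ, hℓ⟩) hℓp, qCoeff_heckeULin hℓ hℓp, hj', mul_assoc,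
          mul_comm j' ℓ]
    · have hne : ℓ ≠ p := fun h => hℓp (h ▸ dvd_rfl)
      by_cases hd : ℓ ∣ j'
      · -- `ℓ ∣ j'`
        obtain ⟨j'', hj''⟩ := hd
        have hj''0 : j'' ≠ 0 := by
          rintro rfl
          exact hj'0 (by rw [hj'', mul_zero])
        have hj''lt : j'' < j := by
          refine lt_trans ?_ hj'lt
          rw [hj'']
          exact lt_mul_of_one_lt_left (Nat.pos_of_ne_zero hj''0) hℓ.one_lt
        obtain ⟨P'', hev'', hT''⟩ := ih j'' hj''lt (Nat.one_le_iff_ne_zero.2 hj''0)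
        refine ⟨MvPolynomial.X ⟨ℓ, hℓ⟩ * P' - MvPolynomial.C (ℓ : ℤ) * P'', ?_, ?_⟩
        · have hσ := sigmaPrime_hecke hp hℓ hne hj'0
          rw [if_pos ⟨j'', hj''⟩] at hσ
          have hdiv : j' / ℓ = j'' := by rw [hj'', Nat.mul_div_cancel_left j'' hℓ.pos]
          rw [hdiv] at hσ
          have hσ' : (sigmaPrime p (j' * ℓ) : ℤ) + (ℓ : ℤ) * (sigmaPrime p j'' : ℤ) =
              (1 + (ℓ : ℤ)) * (sigmaPrime p j' : ℤ) := by exact_mod_cast hσ
          rw [map_sub, map_mul, map_mul, ev_X, ev_C,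
            eisensteinSystem_of_not_dvd (by exact hℓp), hev', hev'', hj', mul_comm ℓ j']
          push_cast
          linarith
        · intro g n hn
          obtain ⟨hn', hℓn⟩ := hcop n hn
          have hn'' : Nat.Coprime n j'' := by
            rw [hj''] at hn'
            exact Nat.Coprime.coprime_mul_left_right hn'
          rw [qCoeff_op_sub, qCoeff_op_C_mul, hT'' g n hn'', op_mul, op_comm,
            Module.End.mul_apply, hT' _ n hn', op_X_of_not_dvd (ℓ := ⟨ℓ, hℓ⟩) hℓp,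
            qCoeff_heckeTLin hℓ hℓp]
          have hdvd : ℓ ∣ n * j' := Dvd.dvd.mul_left ⟨j'', hj''⟩ n
          have hdiv : n * j' / ℓ = n * j'' := by
            rw [hj'', ← mul_assoc, mul_comm n ℓ, mul_assoc, Nat.mul_div_cancel_left _ hℓ.pos]
          rw [if_pos hdvd, hdiv, hj', mul_assoc, mul_comm j' ℓ]
          push_cast
          ring
      · -- `ℓ ∤ j'`
        refine ⟨MvPolynomial.X ⟨ℓ, hℓ⟩ * P', ?_, ?_⟩
        · have hσ := sigmaPrime_hecke hp hℓ hne hj'0
          rw [if_neg hd, add_zero] at hσ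
          rw [map_mul, ev_X, eisensteinSystem_of_not_dvd (by exact hℓp), hev', hj', mul_comm ℓ j',
            hσ]
          push_cast
          ring
        · intro g n hn
          obtain ⟨hn', hℓn⟩ := hcop n hn
          have hnd : ¬ ℓ ∣ n * j' := fun h =>
            (Nat.Prime.dvd_mul hℓ).1 h |>.elim hℓn hd
          rw [op_mul, op_comm, Module.End.mul_apply, hT' _ n hn',
            op_X_of_not_dvd (ℓ := ⟨ℓ, hℓ⟩) hℓp, qCoeff_heckeTLin hℓ hℓp, if_neg hnd, add_zero,
            hj', mul_assoc, mul_comm j' ℓ]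

/-- The consumer form: `a_1(P_j(T) g) = a_j(g)` and `ev p P_j = σ'(j)`. -/
theorem exists_heckePoly_one (hp : p.Prime) (j : ℕ) (hj : 1 ≤ j) :
    ∃ P : HeckeAlg, ev p P = (sigmaPrime p j : ℤ) ∧
      ∀ g : CuspForm (Gamma0 p) 2,
        qCoeff (((heckeEvalForms p 2 P : heckeAlgebra p 2 ∅) :
          Module.End ℂ (CuspForm (Gamma0 p) 2)) g) 1 = qCoeff g j := by
  obtain ⟨P, hev, hT⟩ := exists_heckePoly hp j hj
  refine ⟨P, hev, fun g => ?_⟩
  have := hT g 1 (Nat.coprime_one_left j)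
  rwa [one_mul] at this

end

end Fermat.Agent.S16.HeckeTn
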