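import Fermat.Agent.S16.LowerPsi
import Fermat.Agent.S16.LiftHom

/-!
# S16 / LOW : the lower bound block, closed

`lowerStatement : Interfaces.LowerStatement`, obtained by feeding helper8's integral lift
`LiftHom.exists_int_lift_Gamma0` into helper67's `LowerPsi.lowerStatement_of_lift`.
-/

namespace Fermat.Agent.S16.LowerClosed

theorem liftStatement : Fermat.Agent.S16.LowerPsi.LiftStatement := by
  intro p _ n _ psi h
  exact Fermat.Agent.S16.LiftHom.exists_int_lift_Gamma0 p n psi h

theorem lowerStatement : Fermat.Agent.S16.Interfaces.LowerStatement :=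
  Fermat.Agent.S16.LowerPsi.lowerStatement_of_lift liftStatement

end Fermat.Agent.S16.LowerClosed
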