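import Fermat.Agent.S16.LowerPsi
import Fermat.Agent.S16.LiftHom

/-!
# S16: the lower bound `LowerStatement` (A-psi line), assembled

`LowerPsi.lowerStatement_of_lift` (helper67) reduces `Interfaces.LowerStatement` to the lifting
statement `LowerPsi.LiftStatement`, which is `LiftHom.exists_int_lift_Gamma0` (helper8).
-/

set_option autoImplicit false

namespace Fermat.Agent.S16.LowerInst

open Fermat.Agent.S16

/-- The lifting statement consumed by `LowerPsi`. -/
theorem liftStatement : LowerPsi.LiftStatement := by
  intro p _ n _ ψ hψ
  have : NeZero p := ⟨(Fact.out : p.Prime).ne_zero⟩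
  exact LiftHom.exists_int_lift_Gamma0 p n ψ hψ

/-- **(LOW)** the lower bound of S16, in the literal shape of `Interfaces2.lean`. -/
theorem lowerStatement : Interfaces.LowerStatement :=
  LowerPsi.lowerStatement_of_lift liftStatement

end Fermat.Agent.S16.LowerInst
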