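/-
S16, lower bound, (A-psi) line, final algebra (hedge copy "B" of P4, helper8).

`lowerStatement : Interfaces.LowerStatement`:  for `p ≥ 5` prime and `P` in the abstract Hecke ring,
if `P` acts as `0` on the integral cusp forms of level `p` then `n = eisensteinNumerator p` divides the
value of `P` at the Eisenstein system.

Inputs (all on main): S21 (period map of pairs is an isomorphism onto the parabolic homs), S23
(integral structure), `PeriodHeckePair` (Hecke equivariance), `ShimuraProps.exists_shimura` (the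
Shimura character `ψ : Γ₀(p) → ℤ/n` is an Eisenstein eigenvector) and `LiftHom.exists_int_lift_Gamma0`
(`ψ` lifts to an integral parabolic hom).  The proof is an induction over `P` carried out on the
`S₂ × S₂` side of the Eichler–Shimura isomorphism.
-/
import Fermat.Agent.S16.Interfaces2
import Fermat.Agent.S16.PeriodHeckePair
import Fermat.Agent.S16.ShimuraProps
import Fermat.Agent.S16.LiftHom
import Fermat.Agent.S21
import Fermat.Agent.S23

set_option autoImplicit false
set_option linter.unusedSectionVars false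
set_option linter.style.haveILetI false

noncomputable section

namespace Fermat.Agent.S16.LowerPsiB

open CongruenceSubgroup ModularCurve ModularCurve.Period CuspForm
open Fermat.Agent.S16.HeckeHom Fermat.Agent.S16.Interfaces

variable (p : ℕ) [NeZero p]

/-! ### The generator operators on `Hom(Γ₀(p), A)` -/

section hk

variable {A : Type*} [AddCommGroup A]

/-- The coset-formula operator attached to the prime `l` (`U_p` if `l ∣ p`, `T_l` otherwise). -/
def hk (l : Nat.Primes) (φ : Additive (Gamma0 p) →+ A) : Additive (Gamma0 p) →+ A :=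
  haveI : Fact (l : ℕ).Prime := ⟨l.2⟩
  if h : (l : ℕ) ∣ p then (cosetU p l h).heckeHom φ else (cosetT p l h).heckeHom φ

theorem hk_add (l : Nat.Primes) (φ ψ : Additive (Gamma0 p) →+ A) :
    hk p l (φ + ψ) = hk p l φ + hk p l ψ := by
  unfold hk
  split_ifs
  · exact CosetSystem.heckeHom_add _ _ _
  · exact CosetSystem.heckeHom_add _ _ _

theorem hk_zsmul (l : Nat.Primes) (n : ℤ) (φ : Additive (Gamma0 p) →+ A) :
    hk p l (n • φ) = n • hk p l φ := by
  unfold hk
  split_ifs
  · exact CosetSystem.heckeHom_zsmul _ _ _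
  · exact CosetSystem.heckeHom_zsmul _ _ _

theorem hk_comp {B : Type*} [AddCommGroup B] (l : Nat.Primes) (f : A →+ B)
    (φ : Additive (Gamma0 p) →+ A) : hk p l (f.comp φ) = f.comp (hk p l φ) := by
  unfold hk
  split_ifs
  · exact CosetSystem.heckeHom_comp _ _ _
  · exact CosetSystem.heckeHom_comp _ _ _

/-- Integer-valued complex homomorphisms. -/
def IntVal (φ : Additive (Gamma0 p) →+ ℂ) : Prop := ∀ γ, ∃ k : ℤ, φ γ = (k : ℂ)

theorem intVal_hk (l : Nat.Primes) {φ : Additive (Gamma0 p) →+ ℂ} (h : IntVal p φ) :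
    IntVal p (hk p l φ) := by
  haveI : Fact (l : ℕ).Prime := ⟨l.2⟩
  intro γ
  choose k hk' using h
  unfold hk
  split_ifs with hd
  · refine ⟨∑ i, k (Additive.ofMul ((cosetU p l hd).fac (Additive.toMul γ) i)), ?_⟩
    show ∑ i, φ (Additive.ofMul ((cosetU p l hd).fac (Additive.toMul γ) i)) = _
    push_cast
    exact Finset.sum_congr rfl fun i _ => hk' _
  · refine ⟨∑ i, k (Additive.ofMul ((cosetT p l hd).fac (Additive.toMul γ) i)), ?_⟩
    show ∑ i, φ (Additive.ofMul ((cosetT p l hd).fac (Additive.toMul γ) i)) = _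
    push_cast
    exact Finset.sum_congr rfl fun i _ => hk' _

theorem intVal_add {φ ψ : Additive (Gamma0 p) →+ ℂ} (h : IntVal p φ) (h' : IntVal p ψ) :
    IntVal p (φ + ψ) := by
  intro γ
  obtain ⟨a, ha⟩ := h γ
  obtain ⟨b, hb⟩ := h' γ
  exact ⟨a + b, by rw [AddMonoidHom.add_apply, ha, hb]; push_cast; rfl⟩

theorem intVal_zero : IntVal p (0 : Additive (Gamma0 p) →+ ℂ) := fun _ => ⟨0, by simp⟩

theorem intVal_int_smul (c : ℤ) {φ : Additive (Gamma0 p) →+ ℂ} (h : IntVal p φ) :
    IntVal p ((c : ℂ) • φ) := by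
  intro γ
  obtain ⟨a, ha⟩ := h γ
  exact ⟨c * a, by rw [AddMonoidHom.smul_apply, ha]; push_cast; rfl⟩

end hk

/-! ### The Hecke operators on cusp forms -/

/-- The operator on `S₂(Γ₀(p))` attached to `P`. -/
def TT (P : HeckeAlg) : Module.End ℂ (CuspForm (Gamma0 p) 2) :=
  ((heckeEvalForms p 2 P : ↥(heckeAlgebra p 2 ∅)) : Module.End ℂ (CuspForm (Gamma0 p) 2))

theorem TT_add (P Q : HeckeAlg) : TT p (P + Q) = TT p P + TT p Q := by
  unfold TT; rw [map_add]; rfl

theorem TT_mul (P Q : HeckeAlg) : TT p (P * Q) = TT p P * TT p Q := by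
  unfold TT; rw [map_mul]; rfl

theorem TT_C (a : ℤ) : TT p (MvPolynomial.C a) = (a : ℂ) • (1 : Module.End ℂ (CuspForm (Gamma0 p) 2)) := by
  unfold TT
  rw [heckeEvalForms_C]
  rw [Subalgebra.coe_algebraMap, Algebra.algebraMap_eq_smul_one]
  ext f
  simp

theorem TT_X (l : Nat.Primes) :
    TT p (MvPolynomial.X l) =
      if h : (l : ℕ) ∣ p then heckeULin 2 h else heckeTLin 2 l.2 h := by
  unfold TT
  have := heckeEvalForms_heckeGen p 2 l
  rw [show (MvPolynomial.X l : HeckeAlg) = heckeGen l from rfl, this]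
  unfold heckeFormsGen
  split_ifs with h
  · rfl
  · rfl

/-- The diagonal action on pairs. -/
def act (t : Module.End ℂ (CuspForm (Gamma0 p) 2))
    (x : CuspForm (Gamma0 p) 2 × CuspForm (Gamma0 p) 2) :
    CuspForm (Gamma0 p) 2 × CuspForm (Gamma0 p) 2 := (t x.1, t x.2)

theorem act_add (t : Module.End ℂ (CuspForm (Gamma0 p) 2))
    (x y : CuspForm (Gamma0 p) 2 × CuspForm (Gamma0 p) 2) :
    act p t (x + y) = act p t x + act p t y := by
  unfold act; ext <;> simp

theorem act_smul (t : Module.End ℂ (CuspForm (Gamma0 p) 2)) (c : ℂ)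
    (x : CuspForm (Gamma0 p) 2 × CuspForm (Gamma0 p) 2) :
    act p t (c • x) = c • act p t x := by
  unfold act; ext <;> simp

/-- Hecke equivariance of the period map of pairs, for the generators. -/
theorem periodHomPair_act_X (l : Nat.Primes)
    (x : CuspForm (Gamma0 p) 2 × CuspForm (Gamma0 p) 2) :
    periodHomPair p (act p (TT p (MvPolynomial.X l)) x) = hk p l (periodHomPair p x) := by
  haveI : Fact (l : ℕ).Prime := ⟨l.2⟩
  obtain ⟨f, g⟩ := x
  rw [TT_X]
  unfold hk act
  split_ifs with h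
  · exact PeriodHeckePair.periodHomPair_heckeU p l h f g
  · exact PeriodHeckePair.periodHomPair_heckeT p l h f g

/-! ### The lower bound -/

section Main

variable [hp : Fact p.Prime]

theorem eisensteinNumerator_ne_zero : eisensteinNumerator p ≠ 0 := by
  have h2 : 2 ≤ p := hp.out.two_le
  unfold eisensteinNumerator
  have hpos : 0 < p - 1 := by omega
  exact (Nat.div_pos (Nat.le_of_dvd hpos (Nat.gcd_dvd_left _ _))
    (Nat.gcd_pos_of_pos_left _ hpos)).ne'

/-- The Eisenstein eigen-equations of the Shimura character, in `hk` form. -/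
theorem hk_shimura (ψ : Additive (Gamma0 p) →+ ZMod (eisensteinNumerator p))
    (hT : ∀ (l : ℕ) [Fact l.Prime] (hlp : ¬ l ∣ p), (cosetT p l hlp).heckeHom ψ = (l + 1) • ψ)
    (hU : (cosetU p p (dvd_refl p)).heckeHom ψ = ψ) (l : Nat.Primes) :
    hk p l ψ = (eisensteinSystem p l) • ψ := by
  haveI : Fact (l : ℕ).Prime := ⟨l.2⟩
  unfold hk
  split_ifs with h
  · have hlp : (l : ℕ) = p := (Nat.prime_dvd_prime_iff_eq l.2 hp.out).mp h
    rw [eisensteinSystem_of_dvd h, one_smul]
    obtain ⟨l, hl⟩ := l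
    simp only at hlp h ⊢
    subst hlp
    exact hU
  · rw [eisensteinSystem_of_not_dvd h, hT l h]
    have e : (1 + ((l : ℕ) : ℤ)) = (((l : ℕ) + 1 : ℕ) : ℤ) := by push_cast; ring
    rw [e, natCast_zsmul]

theorem lowerStatement : LowerStatement := by
  intro p _ _ _ P hP
  have hnz : NeZero (eisensteinNumerator p) := ⟨eisensteinNumerator_ne_zero p⟩
  obtain ⟨ψ, hsurj, htr, hT, hU⟩ := ShimuraProps.exists_shimura p
  obtain ⟨φ, hφpar, hφred⟩ :=
    LiftHom.exists_int_lift_Gamma0 p (eisensteinNumerator p) ψ (fun γ h => htr γ h)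
  obtain ⟨n, hn⟩ : ∃ n : ℕ, n = eisensteinNumerator p := ⟨_, rfl⟩
  have hnC : (n : ℂ) ≠ 0 := by
    rw [hn]; exact_mod_cast eisensteinNumerator_ne_zero p
  -- complexification of the lift
  obtain ⟨φC, hφC⟩ : ∃ φC : Additive (Gamma0 p) →+ ℂ, φC = (Int.castAddHom ℂ).comp φ := ⟨_, rfl⟩
  have hφC_apply : ∀ γ, φC γ = ((φ γ : ℤ) : ℂ) := fun γ => by rw [hφC]; rfl
  have hφC_par : φC ∈ parabolicHoms ℂ (Gamma0 p) ℂ := by
    rw [mem_parabolicHoms_iff]
    intro γ hγ
    rw [hφC_apply, hφpar γ hγ, Int.cast_zero]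
  obtain ⟨hinj, hrange⟩ := Fermat.Agent.S21.result p
  obtain ⟨x₀, hx₀⟩ : ∃ x₀, periodHomPair p x₀ = φC := by
    rw [← hrange] at hφC_par
    exact hφC_par
  have hφψ : (Int.castAddHom (ZMod (eisensteinNumerator p))).comp φ = ψ :=
    AddMonoidHom.ext fun γ => hφred γ
  -- the generator step at `x₀`
  have hgen : ∀ l : Nat.Primes, ∃ y, IntVal p (periodHomPair p y) ∧
      act p (TT p (MvPolynomial.X l)) x₀ =
        ((eisensteinSystem p l : ℤ) : ℂ) • x₀ + (n : ℂ) • y := by
    intro l
    refine ⟨((n : ℂ))⁻¹ • (act p (TT p (MvPolynomial.X l)) x₀ -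
      ((eisensteinSystem p l : ℤ) : ℂ) • x₀), ?_, ?_⟩
    · intro γ
      rw [map_smul, map_sub, map_smul, periodHomPair_act_X, hx₀]
      have h1 : hk p l φC = (Int.castAddHom ℂ).comp (hk p l φ) := by
        rw [hφC]; exact hk_comp p l _ φ
      have h2 : (n : ℤ) ∣ (hk p l φ) γ - eisensteinSystem p l * φ γ := by
        rw [hn, ← ZMod.intCast_zmod_eq_zero_iff_dvd]
        have h3 : (Int.castAddHom (ZMod (eisensteinNumerator p))).comp (hk p l φ) =
            (eisensteinSystem p l) • ψ := by
          rw [← hk_comp, hφψ, hk_shimura p ψ hT hU l]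
        have h4 := congrArg (fun f : Additive (Gamma0 p) →+ ZMod (eisensteinNumerator p) => f γ) h3
        simp only [AddMonoidHom.coe_comp, Function.comp_apply, Int.coe_castAddHom,
          AddMonoidHom.coe_smul, Pi.smul_apply, zsmul_eq_mul] at h4
        push_cast
        rw [h4, hφred]
        ring
      obtain ⟨k, hk'⟩ := h2
      refine ⟨k, ?_⟩
      rw [h1]
      simp only [AddMonoidHom.smul_apply, AddMonoidHom.sub_apply, AddMonoidHom.coe_comp,
        Function.comp_apply, Int.coe_castAddHom, smul_eq_mul, hφC_apply]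
      have h5 : (((hk p l φ) γ : ℤ) : ℂ) - ((eisensteinSystem p l : ℤ) : ℂ) * ((φ γ : ℤ) : ℂ) =
          (n : ℂ) * (k : ℂ) := by exact_mod_cast hk'
      rw [h5, ← mul_assoc, inv_mul_cancel₀ hnC, one_mul]
    · rw [smul_smul, mul_inv_cancel₀ hnC, one_smul]
      abel
  -- the induction over `P`
  have main : ∀ Q : HeckeAlg,
      (∀ y, IntVal p (periodHomPair p y) → IntVal p (periodHomPair p (act p (TT p Q) y))) ∧
      ∃ y, IntVal p (periodHomPair p y) ∧
        act p (TT p Q) x₀ = ((ev p Q : ℤ) : ℂ) • x₀ + (n : ℂ) • y := by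
    intro Q
    induction Q using MvPolynomial.induction_on with
    | C a =>
      have hact : ∀ y, act p (TT p (MvPolynomial.C a)) y = (a : ℂ) • y := by
        intro y
        rw [TT_C]
        unfold act
        ext <;> simp
      refine ⟨fun y hy => ?_, 0, ?_, ?_⟩
      · rw [hact, map_smul]
        exact intVal_int_smul p a hy
      · rw [map_zero]; exact intVal_zero p
      · rw [hact, smul_zero, add_zero]
        congr 2
        show a = (MvPolynomial.aeval (R := ℤ) (eisensteinSystem p)) (MvPolynomial.C a)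
        rw [MvPolynomial.aeval_C]; rfl
    | add Q R hQ hR =>
      have hact : ∀ y, act p (TT p (Q + R)) y = act p (TT p Q) y + act p (TT p R) y := by
        intro y
        rw [TT_add]
        unfold act
        ext <;> simp
      obtain ⟨yQ, hyQ, hQx⟩ := hQ.2
      obtain ⟨yR, hyR, hRx⟩ := hR.2
      refine ⟨fun y hy => ?_, yQ + yR, ?_, ?_⟩
      · rw [hact, map_add]
        exact intVal_add p (hQ.1 y hy) (hR.1 y hy)
      · rw [map_add]; exact intVal_add p hyQ hyR
      · rw [hact, hQx, hRx, map_add]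
        push_cast
        rw [add_smul, smul_add]
        abel
    | mul_X Q l hQ =>
      have hact : ∀ y, act p (TT p (Q * MvPolynomial.X l)) y =
          act p (TT p Q) (act p (TT p (MvPolynomial.X l)) y) := by
        intro y
        rw [TT_mul]
        rfl
      obtain ⟨yQ, hyQ, hQx⟩ := hQ.2
      obtain ⟨yl, hyl, hlx⟩ := hgen l
      have hXint : ∀ y, IntVal p (periodHomPair p y) →
          IntVal p (periodHomPair p (act p (TT p (MvPolynomial.X l)) y)) := by
        intro y hy
        rw [periodHomPair_act_X]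
        exact intVal_hk p l hy
      refine ⟨fun y hy => ?_, ((eisensteinSystem p l : ℤ) : ℂ) • yQ + act p (TT p Q) yl, ?_, ?_⟩
      · rw [hact]
        exact hQ.1 _ (hXint y hy)
      · rw [map_add, map_smul]
        exact intVal_add p (intVal_int_smul p _ hyQ) (hQ.1 yl hyl)
      · rw [hact, hlx, act_add, act_smul, act_smul, hQx]
        have hev : ev p (Q * MvPolynomial.X l) = ev p Q * eisensteinSystem p l := by
          rw [map_mul]
          congr 1
          show (MvPolynomial.aeval (R := ℤ) (eisensteinSystem p)) (MvPolynomial.X l) = _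
          rw [MvPolynomial.aeval_X]
        rw [hev]
        push_cast
        simp only [smul_add, smul_smul]
        rw [add_assoc]
        congr 1
        · rw [mul_comm]
        · rw [mul_comm (n : ℂ)]
  -- `P` acts as zero
  have hTP : TT p P = 0 := by
    have hbij := latticeRestrictHom_bijective p ∅ (Fermat.Agent.S23.result p)
    have h0 : heckeEvalForms p 2 P = 0 := by
      apply hbij.1
      rw [map_zero]
      exact hP
    unfold TT
    rw [h0]; rfl
  obtain ⟨y, hy, hPx⟩ := (main P).2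
  rw [hTP] at hPx
  have hzero : act p (0 : Module.End ℂ (CuspForm (Gamma0 p) 2)) x₀ = 0 := rfl
  rw [hzero] at hPx
  have hB := congrArg (periodHomPair p) hPx
  rw [map_zero, map_add, map_smul, map_smul, hx₀] at hB
  obtain ⟨γ₁, hγ₁⟩ := hsurj 1
  obtain ⟨k, hk'⟩ := hy γ₁
  have hB1 := congrArg (fun f : Additive (Gamma0 p) →+ ℂ => f γ₁) hB
  simp only [AddMonoidHom.zero_apply, AddMonoidHom.add_apply, AddMonoidHom.smul_apply, smul_eq_mul,
    hφC_apply, hk'] at hB1
  have hZ : (0 : ℤ) = ev p P * φ γ₁ + (n : ℤ) * k := by exact_mod_cast hB1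
  rw [← ZMod.intCast_zmod_eq_zero_iff_dvd]
  have h6 := congrArg (Int.cast : ℤ → ZMod (eisensteinNumerator p)) hZ
  push_cast at h6
  rw [hφred, hγ₁, hn] at h6
  simpa using h6.symm

end Main

end Fermat.Agent.S16.LowerPsiB
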