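import Mathlib

/-!
# Lifting functions with a norm relation along a surjection

`σ : X → X` of order 2 (resp. 3), `u : X → B` with `u (σ x) + u x = 0`
(resp. `u (σ (σ x)) + u (σ x) + u x = 0`) and `u = 0` at fixed points of `σ`;
`π : A →+ B` surjective.  Then `u` lifts to `ũ : X → A` with the same relation.
-/

set_option autoImplicit false

namespace Fermat.Agent.S16.OrbitLift

variable {X A B : Type*} [LinearOrder X] [AddCommGroup A] [AddCommGroup B]

section Two

variable (σ : X → X) (L : B → A) (u : X → B)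

/-- the lift for an involution -/
noncomputable def lift2 (x : X) : A :=
  if x < σ x then L (u x) else if σ x < x then - L (u (σ x)) else 0

variable {σ L u}

theorem lift2_rel (hσ : ∀ x, σ (σ x) = x) (x : X) : lift2 σ L u (σ x) + lift2 σ L u x = 0 := by
  unfold lift2
  rw [hσ x]
  rcases lt_trichotomy x (σ x) with h | h | h
  · rw [if_pos h, if_neg (not_lt.mpr h.le), if_pos h]; abel
  · rw [← h, if_neg (lt_irrefl x)]; simp
  · rw [if_pos h, if_neg (not_lt.mpr h.le), if_pos h]; abel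

theorem lift2_red (π : A →+ B) (hL : ∀ b, π (L b) = b)
    (hu : ∀ x, u (σ x) + u x = 0) (hu0 : ∀ x, σ x = x → u x = 0) (x : X) :
    π (lift2 σ L u x) = u x := by
  unfold lift2
  rcases lt_trichotomy x (σ x) with h | h | h
  · rw [if_pos h, hL]
  · rw [← h, if_neg (lt_irrefl x), if_neg (lt_irrefl x), map_zero, hu0 x h.symm]
  · rw [if_neg (not_lt.mpr h.le), if_pos h, map_neg, hL]
    exact (eq_neg_of_add_eq_zero_right (hu x)).symm

end Two

section Three

variable (ρ : X → X) (L : B → A) (v : X → B)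

/-- `x` is the strict minimum of its `ρ`-orbit -/
def IsMin (x : X) : Prop := x < ρ x ∧ x < ρ (ρ x)

open Classical in
/-- the lift for a map of order three -/
noncomputable def lift3 (x : X) : A :=
  if ρ x = x then 0 else if IsMin ρ x then L (v x) else if IsMin ρ (ρ (ρ x)) then L (v x)
    else - L (v (ρ x)) - L (v (ρ (ρ x)))

variable {ρ L v}

omit [LinearOrder X] in
theorem fixed_of_sq_fixed (hρ : ∀ x, ρ (ρ (ρ x)) = x) {x : X} (h : ρ (ρ x) = x) : ρ x = x := by
  have := hρ x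
  rw [h] at this
  exact this

omit [LinearOrder X] in
theorem ne_of_free (hρ : ∀ x, ρ (ρ (ρ x)) = x) {x : X} (hx : ρ x ≠ x) :
    ρ (ρ x) ≠ ρ x ∧ ρ (ρ x) ≠ x := by
  refine ⟨fun h' => ?_, fun h' => hx (fixed_of_sq_fixed hρ h')⟩
  have e : x = ρ (ρ x) := by
    have := congrArg ρ h'
    rw [hρ] at this
    exact this
  exact hx (e.trans h').symm

theorem lift3_of_fixed {x : X} (h : ρ x = x) : lift3 ρ L v x = 0 := by
  unfold lift3; rw [if_pos h]

theorem lift3_of_min {x : X} (h : IsMin ρ x) : lift3 ρ L v x = L (v x) := by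
  unfold lift3
  rw [if_neg (fun h' => by have := h.1; rw [h'] at this; exact lt_irrefl _ this), if_pos h]

theorem lift3_rho_of_min (hρ : ∀ x, ρ (ρ (ρ x)) = x) {x : X} (h : IsMin ρ x) :
    lift3 ρ L v (ρ x) = L (v (ρ x)) := by
  unfold lift3
  have hx : ρ x ≠ x := fun h' => by
    have := h.1; rw [h'] at this; exact lt_irrefl _ this
  have h1 : ρ (ρ x) ≠ ρ x := (ne_of_free hρ hx).1
  have h2 : ¬ IsMin ρ (ρ x) := fun h' => by
    have := h'.2
    rw [hρ] at this
    exact lt_asymm this h.1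
  rw [if_neg h1, if_neg h2, hρ, if_pos h]

theorem lift3_rho2_of_min (hρ : ∀ x, ρ (ρ (ρ x)) = x) {x : X} (h : IsMin ρ x) :
    lift3 ρ L v (ρ (ρ x)) = - L (v x) - L (v (ρ x)) := by
  unfold lift3
  have h1 : ρ (ρ (ρ x)) ≠ ρ (ρ x) := fun h' => by
    rw [hρ] at h'
    have := h.2; rw [← h'] at this; exact lt_irrefl _ this
  have h2 : ¬ IsMin ρ (ρ (ρ x)) := fun h' => by
    have := h'.1
    rw [hρ] at this
    exact lt_asymm this h.2
  have h3' : ¬ IsMin ρ (ρ x) := fun h' => by
    have := h'.2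
    rw [hρ] at this
    exact lt_asymm this h.1
  rw [if_neg h1, if_neg h2]
  rw [hρ, if_neg h3', hρ]

/-- in a free orbit one of the three points is the strict minimum -/
theorem exists_min (hρ : ∀ x, ρ (ρ (ρ x)) = x) {x : X} (hx : ρ x ≠ x) :
    IsMin ρ x ∨ IsMin ρ (ρ x) ∨ IsMin ρ (ρ (ρ x)) := by
  have h2 : ρ (ρ x) ≠ x := (ne_of_free hρ hx).2
  have h3 : ρ (ρ x) ≠ ρ x := (ne_of_free hρ hx).1
  unfold IsMin
  simp only [hρ]
  rcases lt_or_gt_of_ne hx with a | a <;> rcases lt_or_gt_of_ne h2 with b | b <;>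
    rcases lt_or_gt_of_ne h3 with c | c
  all_goals first
    | (left; exact ⟨by assumption, by assumption⟩)
    | (right; left; exact ⟨by assumption, by assumption⟩)
    | (right; right; exact ⟨by assumption, by assumption⟩)
    | (exfalso; exact lt_irrefl _ (lt_trans (lt_trans ‹_› ‹_›) ‹_›))

theorem lift3_rel_of_min (hρ : ∀ x, ρ (ρ (ρ x)) = x) {x : X} (h : IsMin ρ x) :
    lift3 ρ L v (ρ (ρ x)) + lift3 ρ L v (ρ x) + lift3 ρ L v x = 0 := by
  rw [lift3_rho2_of_min hρ h, lift3_rho_of_min hρ h, lift3_of_min h]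
  abel

theorem lift3_rel (hρ : ∀ x, ρ (ρ (ρ x)) = x) (x : X) :
    lift3 ρ L v (ρ (ρ x)) + lift3 ρ L v (ρ x) + lift3 ρ L v x = 0 := by
  by_cases hx : ρ x = x
  · rw [hx, hx, lift3_of_fixed hx]; simp
  rcases exists_min hρ hx with h | h | h
  · exact lift3_rel_of_min hρ h
  · have := lift3_rel_of_min (L := L) (v := v) hρ h
    rw [hρ] at this
    rw [← this]; abel
  · have := lift3_rel_of_min (L := L) (v := v) hρ h
    rw [hρ, hρ] at this
    rw [← this]; abel

theorem lift3_red (π : A →+ B) (hL : ∀ b, π (L b) = b) (hρ : ∀ x, ρ (ρ (ρ x)) = x)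
    (hv : ∀ x, v (ρ (ρ x)) + v (ρ x) + v x = 0) (hv0 : ∀ x, ρ x = x → v x = 0) (x : X) :
    π (lift3 ρ L v x) = v x := by
  unfold lift3
  split_ifs with h1 h2 h3
  · rw [map_zero, hv0 x h1]
  · rw [hL]
  · rw [hL]
  · rw [map_sub, map_neg, hL, hL]
    calc -v (ρ x) - v (ρ (ρ x)) = v x - (v (ρ (ρ x)) + v (ρ x) + v x) := by abel
      _ = v x := by rw [hv x, sub_zero]

end Three

end Fermat.Agent.S16.OrbitLift
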