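/-
S16 helper library (helper8): every element of `SL(2,ℤ)` with `trace ^ 2 = 4` is `± g T^k g⁻¹`.
Mathlib only.
-/
import Mathlib

set_option autoImplicit false

namespace Fermat.Agent.S16.ParabolicConj

open Matrix Matrix.SpecialLinearGroup ModularGroup
open scoped MatrixGroups

/-- An element of `SL(2,ℤ)` with lower-left entry `0` is `± T^k`. -/
theorem eq_T_zpow_of_c_eq_zero (h : SL(2, ℤ)) (hc : h 1 0 = 0) :
    ∃ k : ℤ, h = T ^ k ∨ h = -T ^ k := by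
  have had := h.det_coe
  replace had : h 0 0 * h 1 1 = 1 := by rw [det_fin_two, hc] at had; lia
  rcases Int.eq_one_or_neg_one_of_mul_eq_one' had with (⟨ha, hd⟩ | ⟨ha, hd⟩)
  · refine ⟨h 0 1, Or.inl ?_⟩
    ext i j; fin_cases i <;> fin_cases j <;>
      simp [ha, hc, hd, coe_T_zpow, show (1 : Fin (0 + 2)) = (1 : Fin 2) from rfl]
  · refine ⟨-(h 0 1), Or.inr ?_⟩
    ext i j; fin_cases i <;> fin_cases j <;>
      simp [ha, hc, hd, coe_T_zpow, show (1 : Fin (0 + 2)) = (1 : Fin 2) from rfl]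

theorem conj_entry (g γ : SL(2, ℤ)) :
    (g⁻¹ * γ * g) 1 0 =
      -(g 1 0) * (γ 0 0 * g 0 0 + γ 0 1 * g 1 0) + g 0 0 * (γ 1 0 * g 0 0 + γ 1 1 * g 1 0) := by
  simp [Matrix.mul_apply, Fin.sum_univ_two, Matrix.adjugate_fin_two, Matrix.vecMul, dotProduct]
  ring

/-- Every element of `SL(2,ℤ)` with `trace ^ 2 = 4` is conjugate to `± T^k`. -/
theorem exists_conj_T_zpow (γ : SL(2, ℤ))
    (htr : (γ : Matrix (Fin 2) (Fin 2) ℤ).trace ^ 2 = 4) :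
    ∃ (g : SL(2, ℤ)) (k : ℤ), γ = g * T ^ k * g⁻¹ ∨ γ = -(g * T ^ k * g⁻¹) := by
  have hdet := γ.det_coe
  rw [det_fin_two] at hdet
  rw [trace_fin_two] at htr
  -- the sign
  obtain ⟨ε, hε, hsum⟩ : ∃ ε : ℤ, ε * ε = 1 ∧ γ 0 0 + γ 1 1 = 2 * ε := by
    have h4 : (γ 0 0 + γ 1 1 - 2) * (γ 0 0 + γ 1 1 + 2) = 0 := by linear_combination htr
    rcases mul_eq_zero.mp h4 with h | h
    · exact ⟨1, by norm_num, by linarith⟩
    · exact ⟨-1, by norm_num, by linarith⟩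
  suffices hmain : ∃ g : SL(2, ℤ), (g⁻¹ * γ * g) 1 0 = 0 by
    obtain ⟨g, hg⟩ := hmain
    obtain ⟨k, hk | hk⟩ := eq_T_zpow_of_c_eq_zero _ hg
    · refine ⟨g, k, Or.inl ?_⟩
      rw [← hk]; group
    · refine ⟨g, k, Or.inr ?_⟩
      have : g * T ^ k * g⁻¹ = -(g * (-T ^ k) * g⁻¹) := by simp
      rw [this, ← hk, neg_neg]; group
  by_cases hc : γ 1 0 = 0
  · exact ⟨1, by simpa using hc⟩
  · set α : ℤ := γ 0 0 - ε with hα
    set δ : ℤ := (Int.gcd α (γ 1 0) : ℤ) with hδ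
    have hδpos : 0 < Int.gcd α (γ 1 0) := Int.gcd_pos_of_ne_zero_right _ hc
    have hδne : δ ≠ 0 := by rw [hδ]; exact_mod_cast hδpos.ne'
    have h1 : α / δ * δ = α := Int.ediv_mul_cancel (Int.gcd_dvd_left _ _)
    have h2 : γ 1 0 / δ * δ = γ 1 0 := Int.ediv_mul_cancel (Int.gcd_dvd_right _ _)
    have hcop : IsCoprime (α / δ) (γ 1 0 / δ) :=
      Int.isCoprime_iff_gcd_eq_one.mpr (Int.gcd_div_gcd_div_gcd hδpos)
    obtain ⟨g, hg0, hg1⟩ := hcop.exists_SL2_col 0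
    refine ⟨g, ?_⟩
    rw [conj_entry, hg0, hg1]
    -- multiply by δ²
    have key : δ * δ * (-(γ 1 0 / δ) * (γ 0 0 * (α / δ) + γ 0 1 * (γ 1 0 / δ)) +
        α / δ * (γ 1 0 * (α / δ) + γ 1 1 * (γ 1 0 / δ))) = 0 := by
      have e : δ * δ * (-(γ 1 0 / δ) * (γ 0 0 * (α / δ) + γ 0 1 * (γ 1 0 / δ)) +
          α / δ * (γ 1 0 * (α / δ) + γ 1 1 * (γ 1 0 / δ))) =
          -(γ 1 0 / δ * δ) * (γ 0 0 * (α / δ * δ) + γ 0 1 * (γ 1 0 / δ * δ)) +
          (α / δ * δ) * (γ 1 0 * (α / δ * δ) + γ 1 1 * (γ 1 0 / δ * δ)) := by ring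
      rw [e, h1, h2, hα]
      have hd : γ 1 1 = 2 * ε - γ 0 0 := by linarith
      rw [hd] at hdet ⊢
      linear_combination (γ 1 0) * hdet - (γ 1 0) * hε
    rcases mul_eq_zero.mp key with h | h
    · exact absurd (mul_self_eq_zero.mp h) hδne
    · exact h

end Fermat.Agent.S16.ParabolicConj
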