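/-
S16, lower bound, block (A-psi), piece `LOW.psiLift` (owner: helper96).

Every homomorphism `ψ : Γ₀(N) → ℤ/n` which kills the parabolic elements and the elements of finite
order is the reduction mod `n` of a `ℤ`-valued parabolic homomorphism.

Method (no presentation of `Γ₀(N)`, no free products): Shapiro cocycles `SL(2,ℤ) → Map(X, A)`,
`X = SL(2,ℤ) ⧸ Γ₀(N)`, for `A = ℤ/n, ℤ, ℂ`.  A cocycle is determined by its values at `S`, `T`.
For `ψ` as above the cocycle is cohomologous to one with `z(S) = (S - 1) d`, `z(S T) = 0`,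
`z(T) = (S⁻¹ - 1) d` for a vertex potential `d : X → ℤ/n` whose `T`-orbit sums of `(S⁻¹ - 1) d`
vanish; `d` lifts to `ℤ` with the same property (connectedness of the orbit graph); over `ℂ` the
pair `((S - 1) d, (S⁻¹ - 1) d)` comes from a parabolic homomorphism because
`dim Hom_par(Γ₀(N), ℂ) = 2 g` (S21 + S20) makes the cocycle map of `S21/CocycleBound` onto; the
resulting homomorphism is integer valued since its cocycle is integer valued on generators.
-/
import Mathlib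
import Fermat.Agent.S21.CocycleBound
import Fermat.Agent.S20.LowerOfDict
import Fermat.Agent.S20.Dict.DictLowerFinal

set_option autoImplicit false

namespace Fermat.Agent.S16.ParabolicLift

open MulAction Module Fermat.Agent.S21.CocycleBound


/-! ### Cocycles with values in functions `X → A`, `A` any abelian group -/

section CocA

variable {G X A : Type*} [Group G] [MulAction G X] [AddCommGroup A]

/-- One-cocycles of `G` with values in `X → A` (action `(g • u) x = u (g⁻¹ • x)`). -/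
def IsCocA (z : G → X → A) : Prop := ∀ g h x, z (g * h) x = z g x + z h (g⁻¹ • x)

namespace IsCocA

variable {z : G → X → A}

theorem one (hz : IsCocA z) (x : X) : z 1 x = 0 := by
  have h := hz 1 1 x
  simp only [mul_one, inv_one, one_smul] at h
  simpa using h

theorem inv (hz : IsCocA z) (g : G) (x : X) : z g⁻¹ x = - z g (g • x) := by
  have h := hz g⁻¹ g x
  simp only [inv_mul_cancel, inv_inv, hz.one] at h
  exact eq_neg_of_add_eq_zero_left h.symm

theorem pow (hz : IsCocA z) (c : G) (m : ℕ) (x : X) :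
    z (c ^ m) x = ∑ i ∈ Finset.range m, z c ((c ^ i)⁻¹ • x) := by
  induction m with
  | zero => simp [hz.one]
  | succ m ih => rw [pow_succ, hz, ih, Finset.sum_range_succ]

theorem add {z w : G → X → A} (hz : IsCocA z) (hw : IsCocA w) :
    IsCocA (fun g x => z g x + w g x) := by
  intro g h x
  simp only [hz g h x, hw g h x]
  abel

theorem sub {z w : G → X → A} (hz : IsCocA z) (hw : IsCocA w) :
    IsCocA (fun g x => z g x - w g x) := by
  intro g h x
  simp only [hz g h x, hw g h x]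
  abel

theorem map {B : Type*} [AddCommGroup B] (ρ : A →+ B) (hz : IsCocA z) :
    IsCocA (fun g x => ρ (z g x)) := by
  intro g h x
  simp only [hz g h x, map_add]

/-- The set where a cocycle takes values in a subgroup `B` is a subgroup. -/
def memSubgroup (hz : IsCocA z) (B : AddSubgroup A) : Subgroup G where
  carrier := {g | ∀ x, z g x ∈ B}
  one_mem' := fun x => by rw [hz.one]; exact B.zero_mem
  mul_mem' := by
    intro g h hg hh x
    change ∀ x, z g x ∈ B at hg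
    change ∀ x, z h x ∈ B at hh
    rw [hz]
    exact B.add_mem (hg x) (hh _)
  inv_mem' := by
    intro g hg x
    change ∀ x, z g x ∈ B at hg
    rw [hz.inv]
    exact B.neg_mem (hg _)

theorem mem_of_closure (hz : IsCocA z) (B : AddSubgroup A) (s : Set G)
    (hs : Subgroup.closure s = ⊤) (h : ∀ g ∈ s, ∀ x, z g x ∈ B) (g : G) (x : X) : z g x ∈ B := by
  have hle : Subgroup.closure s ≤ hz.memSubgroup B := (Subgroup.closure_le _).mpr h
  rw [hs] at hle
  exact hle (Subgroup.mem_top g) x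

theorem eq_zero_of_closure (hz : IsCocA z) (s : Set G) (hs : Subgroup.closure s = ⊤)
    (h : ∀ g ∈ s, ∀ x, z g x = 0) (g : G) (x : X) : z g x = 0 := by
  have := hz.mem_of_closure ⊥ s hs (fun g hg x => by rw [AddSubgroup.mem_bot]; exact h g hg x) g x
  rwa [AddSubgroup.mem_bot] at this

theorem eq_of_closure {z w : G → X → A} (hz : IsCocA z) (hw : IsCocA w) (s : Set G)
    (hs : Subgroup.closure s = ⊤) (h : ∀ g ∈ s, ∀ x, z g x = w g x) (g : G) (x : X) :
    z g x = w g x := by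
  have := (hz.sub hw).eq_zero_of_closure s hs (fun g hg x => by rw [h g hg x, sub_self]) g x
  exact sub_eq_zero.mp this

end IsCocA

/-- The coboundary of `f : X → A`. -/
def cobdry (f : X → A) (g : G) (x : X) : A := f (g⁻¹ • x) - f x

theorem cobdry_apply (f : X → A) (g : G) (x : X) : cobdry f g x = f (g⁻¹ • x) - f x := rfl

theorem isCocA_cobdry (f : X → A) : IsCocA (cobdry (G := G) f) := by
  intro g h x
  simp only [cobdry, mul_inv_rev, mul_smul]
  abel

/-- A function invariant under generators of a transitive group is constant. -/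
theorem const_of_invariant' {B : Type*} [IsPretransitive G X] (s : Set G)
    (hs : Subgroup.closure s = ⊤) (h : X → B)
    (hinv : ∀ g ∈ s, ∀ x, h (g • x) = h x) (x y : X) : h x = h y := by
  let H : Subgroup G :=
    { carrier := {g | ∀ x, h (g • x) = h x}
      one_mem' := fun x => by rw [one_smul]
      mul_mem' := by
        intro g k hg hk x
        change ∀ x, h (g • x) = h x at hg
        change ∀ x, h (k • x) = h x at hk
        rw [mul_smul, hg, hk]
      inv_mem' := by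
        intro g hg x
        change ∀ x, h (g • x) = h x at hg
        rw [← hg (g⁻¹ • x), smul_inv_smul] }
  have hle : Subgroup.closure s ≤ H := (Subgroup.closure_le _).mpr hinv
  rw [hs] at hle
  obtain ⟨g, rfl⟩ := MulAction.exists_smul_eq G y x
  exact hle (Subgroup.mem_top g) y

end CocA

/-! ### Solving `r = (c - 1) w` when all cycle sums of `r` vanish -/

section Solve

variable {G X A : Type*} [Group G] [MulAction G X] [AddCommGroup A]

/-- All cycle sums of `r` along `c` vanish. -/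
def CycZero (c : G) (r : X → A) : Prop :=
  ∀ (x : X) (m : ℕ), (c ^ m)⁻¹ • x = x → ∑ i ∈ Finset.range m, r ((c ^ i)⁻¹ • x) = 0

/-- Partial sums of `r` along the `c⁻¹`-trajectory of `y`. -/
def psum (c : G) (r : X → A) (y : X) (k : ℕ) : A := ∑ i ∈ Finset.range k, r ((c ^ i)⁻¹ • y)

theorem psum_add (c : G) (r : X → A) (y : X) (j k : ℕ) :
    psum c r y (j + k) = psum c r y j + psum c r ((c ^ j)⁻¹ • y) k := by
  unfold psum
  rw [Finset.sum_range_add]
  congr 1
  refine Finset.sum_congr rfl fun i _ => ?_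
  rw [pow_add, mul_inv_rev, mul_smul]

theorem psum_eq_of_smul_eq {c : G} {r : X → A} (hr : CycZero c r) (y : X) {j l : ℕ}
    (h : (c ^ j)⁻¹ • y = (c ^ l)⁻¹ • y) : psum c r y j = psum c r y l := by
  wlog hjl : j ≤ l generalizing j l
  · exact (this h.symm (le_of_not_ge hjl)).symm
  obtain ⟨k, rfl⟩ := Nat.exists_eq_add_of_le hjl
  rw [psum_add]
  have h2 : (c ^ k)⁻¹ • ((c ^ j)⁻¹ • y) = (c ^ j)⁻¹ • y := by
    rw [← mul_smul, ← mul_inv_rev, ← pow_add, ← h]
  rw [show psum c r ((c ^ j)⁻¹ • y) k = 0 from hr _ k h2, add_zero]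

theorem pow_mul_inv_smul (c : G) (M : ℕ) (hM : ∀ x : X, (c ^ M)⁻¹ • x = x) (k : ℕ) (x : X) :
    (c ^ (M * k))⁻¹ • x = x := by
  induction k with
  | zero => simp
  | succ k ih => rw [Nat.mul_succ, pow_add, mul_inv_rev, mul_smul, ih, hM]

/-- The trajectory relation of `c⁻¹`, an equivalence relation when `c` acts with finite order. -/
def cycRel (c : G) (M : ℕ) (hM : ∀ x : X, (c ^ (M + 1))⁻¹ • x = x) : Setoid X where
  r x y := ∃ k : ℕ, (c ^ k)⁻¹ • x = y
  iseqv :=
    { refl := fun x => ⟨0, by simp⟩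
      symm := by
        rintro x y ⟨k, rfl⟩
        refine ⟨M * k, ?_⟩
        rw [← mul_smul, ← mul_inv_rev, ← pow_add]
        have : k + M * k = (M + 1) * k := by ring
        rw [this]
        exact pow_mul_inv_smul c (M + 1) hM k x
      trans := by
        rintro x y w ⟨k, rfl⟩ ⟨l, rfl⟩
        exact ⟨k + l, by rw [pow_add, mul_inv_rev, mul_smul]⟩ }

theorem exists_cobdry_of_cycZero (c : G) (r : X → A) (M : ℕ) (hM0 : 0 < M)
    (hM : ∀ x : X, (c ^ M)⁻¹ • x = x) (hr : CycZero c r) :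
    ∃ w : X → A, ∀ x, r x = w (c⁻¹ • x) - w x := by
  classical
  obtain ⟨M', rfl⟩ : ∃ M', M = M' + 1 := Nat.exists_eq_succ_of_ne_zero hM0.ne'
  let s : Setoid X := cycRel c M' hM
  have hrep : ∀ x : X, ∃ k : ℕ, (c ^ k)⁻¹ • (Quotient.mk s x).out = x :=
    fun x => Quotient.mk_out (s := s) x
  choose kf hkf using hrep
  refine ⟨fun x => psum c r (Quotient.mk s x).out (kf x), fun x => ?_⟩
  have h1 : Quotient.mk s (c⁻¹ • x) = Quotient.mk s x := by
    apply Quotient.sound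
    exact Setoid.symm (⟨1, by simp⟩ : s.r x (c⁻¹ • x))
  have h2 : (c ^ (kf (c⁻¹ • x)))⁻¹ • (Quotient.mk s x).out
      = (c ^ (kf x + 1))⁻¹ • (Quotient.mk s x).out := by
    have h3 := hkf (c⁻¹ • x)
    rw [h1] at h3
    rw [h3, pow_succ, mul_inv_rev, mul_smul, hkf x]
  show r x = psum c r (Quotient.mk s (c⁻¹ • x)).out (kf (c⁻¹ • x))
    - psum c r (Quotient.mk s x).out (kf x)
  rw [h1, psum_eq_of_smul_eq hr _ h2, psum_add, add_sub_cancel_left]
  simp [psum, hkf x]

end Solve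



/-! ### Orbit sums with values in an abelian group -/

section OrbSumA

variable {G X A : Type*} [Group G] [MulAction G X] [AddCommGroup A] [Fintype X]

open Classical in
/-- Orbit sums along the orbits of `c`, as an additive map. -/
noncomputable def orbSumHom (c : G) : (X → A) →+ (Orb X c → A) where
  toFun u o := ∑ x : X, if Orb.mk c x = o then u x else 0
  map_zero' := by
    funext o
    simp
  map_add' u v := by
    funext o
    simp only [Pi.add_apply, ← Finset.sum_add_distrib]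
    refine Finset.sum_congr rfl fun x _ => ?_
    split_ifs <;> simp

open Classical in
theorem orbSumHom_apply (c : G) (u : X → A) (o : Orb X c) :
    orbSumHom c u o = ∑ x : X, if Orb.mk c x = o then u x else 0 := rfl

theorem orbSumHom_map {B : Type*} [AddCommGroup B] (ρ : A →+ B) (c : G) (u : X → A)
    (o : Orb X c) : ρ (orbSumHom c u o) = orbSumHom c (fun x => ρ (u x)) o := by
  classical
  rw [orbSumHom_apply, orbSumHom_apply, map_sum]
  refine Finset.sum_congr rfl fun x _ => ?_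
  split_ifs <;> simp

/-- Orbit sums of `c`-coboundaries vanish. -/
theorem orbSumHom_cobdry (c : G) (w : X → A) :
    orbSumHom c (fun x => w (c⁻¹ • x) - w x) = 0 := by
  classical
  funext o
  rw [orbSumHom_apply]
  have h1 : ∀ x, (if Orb.mk c x = o then w (c⁻¹ • x) - w x else 0)
      = (if Orb.mk c x = o then w (c⁻¹ • x) else 0) - (if Orb.mk c x = o then w x else 0) := by
    intro x; split_ifs <;> simp
  simp only [h1, Finset.sum_sub_distrib, Pi.zero_apply]
  rw [sub_eq_zero]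
  refine Fintype.sum_equiv (MulAction.toPerm c⁻¹) _ _ fun x => ?_
  have h : Orb.mk c (c⁻¹ • x) = Orb.mk c x :=
    Orb.mk_zpowers_smul c (Subgroup.inv_mem _ (Subgroup.mem_zpowers c)) x
  simp only [MulAction.toPerm_apply, h]

theorem orbSumHom_single [DecidableEq X] (c : G) (y : X) (k : A) :
    orbSumHom c (Pi.single y k) = (open Classical in Pi.single (Orb.mk c y) k) := by
  classical
  funext o
  rw [orbSumHom_apply, Finset.sum_eq_single y]
  · by_cases h : Orb.mk c y = o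
    · subst h; simp
    · simp [h, Ne.symm h]
  · intro x _ hx
    simp [hx]
  · intro h; exact absurd (Finset.mem_univ y) h

/-- The total sum of the orbit sums is the total sum. -/
theorem sum_orbSumHom (c : G) [Fintype (Orb X c)] (u : X → A) :
    ∑ o, orbSumHom c u o = ∑ x, u x := by
  classical
  simp only [orbSumHom_apply]
  rw [Finset.sum_comm]
  refine Finset.sum_congr rfl fun x _ => ?_
  simp

end OrbSumA



/-! ### Lifting the vertex potential from `ℤ/n` to `ℤ` -/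

section Lift

variable {G X : Type*} [Group G] [MulAction G X] [Fintype X]

/-- `e ↦ (x ↦ e (a • x) - e x)`. -/
def pullSub (a : G) : (X → ℤ) →+ (X → ℤ) where
  toFun e x := e (a • x) - e x
  map_zero' := by funext x; simp
  map_add' e₁ e₂ := by funext x; simp only [Pi.add_apply]; ring

@[simp] theorem pullSub_apply (a : G) (e : X → ℤ) (x : X) : pullSub a e x = e (a • x) - e x := rfl

/-- `λ(e)(O) = ∑_{x ∈ O} (e (a x) - e x)` for the orbits `O` of `b`. -/
noncomputable def lamHom (a b : G) : (X → ℤ) →+ (Orb X b → ℤ) :=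
  (orbSumHom (A := ℤ) b).comp (pullSub a)

theorem pullSub_single [DecidableEq X] (a : G) (y : X) :
    pullSub a (Pi.single y (1 : ℤ)) = Pi.single (a⁻¹ • y) 1 - Pi.single y 1 := by
  funext x
  simp only [pullSub_apply, Pi.sub_apply, Pi.single_apply]
  by_cases h : x = a⁻¹ • y
  · subst h; simp
  · have : a • x ≠ y := fun h' => h (by rw [← h', inv_smul_smul])
    simp [h, this]

open Classical in
theorem lamHom_single [DecidableEq X] (a b : G) (y : X) :
    lamHom a b (Pi.single y (1 : ℤ))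
      = Pi.single (Orb.mk b (a⁻¹ • y)) 1 - Pi.single (Orb.mk b y) 1 := by
  unfold lamHom
  rw [AddMonoidHom.comp_apply, pullSub_single, map_sub, orbSumHom_single, orbSumHom_single]

open Classical in
/-- `λ` is onto the functions on the orbit space of `b` with total sum zero. -/
theorem lamHom_surj [IsPretransitive G X] (x0 : X) (a b : G)
    (hgen : Subgroup.closure {a, b} = ⊤)
    [Fintype (Orb X b)] (t : Orb X b → ℤ) (ht : ∑ o, t o = 0) :
    ∃ e : X → ℤ, lamHom a b e = t := by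
  let I : AddSubgroup (Orb X b → ℤ) := (lamHom (X := X) a b).range
  let q : (Orb X b → ℤ) →+ (Orb X b → ℤ) ⧸ I := QuotientAddGroup.mk' I
  let h : X → (Orb X b → ℤ) ⧸ I := fun x => q (Pi.single (Orb.mk b x) 1)
  have ha : ∀ x, h (a • x) = h x := by
    intro x
    have hmem : lamHom a b (Pi.single (a • x) (1 : ℤ)) ∈ I := ⟨_, rfl⟩
    rw [lamHom_single, inv_smul_smul] at hmem
    have : q (Pi.single (Orb.mk b x) 1 - Pi.single (Orb.mk b (a • x)) 1) = 0 :=
      (QuotientAddGroup.eq_zero_iff _).mpr hmem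
    rw [map_sub, sub_eq_zero] at this
    exact this.symm
  have hb : ∀ x, h (b • x) = h x := by
    intro x
    show q (Pi.single (Orb.mk b (b • x)) 1) = q (Pi.single (Orb.mk b x) 1)
    rw [Orb.mk_smul]
  have hconst : ∀ x y, h x = h y := by
    intro x y
    refine const_of_invariant' {a, b} hgen h ?_ x y
    intro g hg x
    rcases hg with rfl | rfl
    · exact ha x
    · exact hb x
  have ht' : t = ∑ o, t o • (Pi.single o (1 : ℤ) : Orb X b → ℤ) := by
    funext o'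
    simp [Finset.sum_apply, Pi.single_apply]
  have hq : q t = 0 := by
    rw [ht', map_sum]
    have : ∀ o ∈ (Finset.univ : Finset (Orb X b)),
        q (t o • (Pi.single o (1 : ℤ) : Orb X b → ℤ)) = t o • h x0 := by
      intro o _
      obtain ⟨x, rfl⟩ := Orb.mk_surjective b o
      rw [map_zsmul]
      exact congrArg _ (hconst x x0)
    rw [Finset.sum_congr rfl this, ← Finset.sum_smul, ht, zero_smul]
  obtain ⟨e, he⟩ := (QuotientAddGroup.eq_zero_iff _).mp hq
  exact ⟨e, he⟩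

/-- A vertex potential mod `n` whose `b`-orbit sums of `(a⁻¹ - 1) d` vanish lifts to an integral
vertex potential with the same property. -/
theorem exists_int_potential [IsPretransitive G X] (x0 : X) (a b : G)
    (hgen : Subgroup.closure {a, b} = ⊤) (n : ℕ) [NeZero n] (d : X → ZMod n)
    (hd : orbSumHom b (fun x => d (a • x) - d x) = 0) :
    ∃ D : X → ℤ, (∀ x, ((D x : ℤ) : ZMod n) = d x) ∧ lamHom a b D = 0 := by
  classical
  haveI : Fintype (Orb X b) := Fintype.ofFinite _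
  let D₀ : X → ℤ := fun x => (d x).cast
  have hD₀ : ∀ x, ((D₀ x : ℤ) : ZMod n) = d x := fun x => ZMod.intCast_zmod_cast (d x)
  have hdiv : ∀ o, (n : ℤ) ∣ lamHom a b D₀ o := by
    intro o
    rw [← ZMod.intCast_zmod_eq_zero_iff_dvd]
    have h1 := orbSumHom_map (Int.castAddHom (ZMod n)) b (pullSub a D₀) o
    have h2 : (fun x => Int.castAddHom (ZMod n) (pullSub a D₀ x)) = fun x => d (a • x) - d x := by
      funext x
      simp [hD₀]
    rw [h2, hd] at h1
    exact h1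
  choose t ht using hdiv
  have hsum : ∑ o, t o = 0 := by
    have h1 : ∑ o, lamHom a b D₀ o = 0 := by
      show ∑ o, orbSumHom b (pullSub a D₀) o = 0
      rw [sum_orbSumHom]
      simp only [pullSub_apply, Finset.sum_sub_distrib]
      rw [sub_eq_zero]
      exact Equiv.sum_comp (MulAction.toPerm a) D₀
    simp only [ht, ← Finset.mul_sum] at h1
    have hn : (n : ℤ) ≠ 0 := by exact_mod_cast NeZero.ne n
    exact (mul_eq_zero.mp h1).resolve_left hn
  obtain ⟨e, he⟩ := lamHom_surj x0 a b hgen t hsum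
  refine ⟨D₀ - (n : ℤ) • e, fun x => ?_, ?_⟩
  · simp [hD₀]
  · rw [map_sub, map_zsmul, he]
    funext o
    simp [ht o]

end Lift

/-! ### Shapiro cocycles with values in an abelian group -/

section ShapiroA

variable {G : Type*} [Group G] (Γ : Subgroup G) {A : Type*} [AddCommGroup A]

/-- The (Shapiro) cocycle attached to a homomorphism `Γ → A`. -/
noncomputable def cocA (φ : Additive Γ →+ A) (g : G) (x : G ⧸ Γ) : A :=
  φ (Additive.ofMul ⟨(sec Γ x)⁻¹ * g * sec Γ (g⁻¹ • x), sec_mem Γ g x⟩)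

theorem cocA_eq (φ : Additive Γ →+ A) (g : G) (x : G ⧸ Γ) (γ : Γ)
    (h : (sec Γ x)⁻¹ * g * sec Γ (g⁻¹ • x) = γ) : cocA Γ φ g x = φ (Additive.ofMul γ) := by
  unfold cocA
  congr 2
  exact Subtype.ext h

theorem cocA_isCocA (φ : Additive Γ →+ A) : IsCocA (cocA Γ φ) := by
  intro g h x
  have e : (sec Γ x)⁻¹ * (g * h) * sec Γ ((g * h)⁻¹ • x)
      = ((⟨(sec Γ x)⁻¹ * g * sec Γ (g⁻¹ • x), sec_mem Γ g x⟩ *
          ⟨(sec Γ (g⁻¹ • x))⁻¹ * h * sec Γ (h⁻¹ • g⁻¹ • x), sec_mem Γ h (g⁻¹ • x)⟩ : Γ) : G) := by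
    rw [mul_inv_rev, mul_smul]
    show _ = ((sec Γ x)⁻¹ * g * sec Γ (g⁻¹ • x)) *
      ((sec Γ (g⁻¹ • x))⁻¹ * h * sec Γ (h⁻¹ • g⁻¹ • x))
    group
  rw [cocA_eq Γ φ (g * h) x _ e, ofMul_mul, map_add]
  rfl

theorem cocA_comp {B : Type*} [AddCommGroup B] (ρ : A →+ B) (φ : Additive Γ →+ A) (g : G)
    (x : G ⧸ Γ) : cocA Γ (ρ.comp φ) g x = ρ (cocA Γ φ g x) := rfl

theorem coc_eq_cocA (φ : Additive Γ →+ ℂ) (g : G) (x : G ⧸ Γ) : coc Γ φ g x = cocA Γ φ g x := by
  unfold coc cocA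
  rw [ext0_of_mem Γ φ (sec_mem Γ g x)]

/-- The cocycle attached to a pair (homomorphism, function). -/
noncomputable def zcA (φ : Additive Γ →+ A) (f : G ⧸ Γ → A) (g : G) (x : G ⧸ Γ) : A :=
  cocA Γ φ g x + cobdry f g x

theorem zcA_isCocA (φ : Additive Γ →+ A) (f : G ⧸ Γ → A) : IsCocA (zcA Γ φ f) :=
  (cocA_isCocA Γ φ).add (isCocA_cobdry f)

theorem zc_eq_zcA (φ : Additive Γ →+ ℂ) (f : G ⧸ Γ → ℂ) (g : G) (x : G ⧸ Γ) :
    zc Γ φ f g x = zcA Γ φ f g x := by
  unfold zc zcA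
  rw [coc_eq_cocA]
  rfl

theorem zcA_comp {B : Type*} [AddCommGroup B] (ρ : A →+ B) (φ : Additive Γ →+ A)
    (f : G ⧸ Γ → A) (g : G) (x : G ⧸ Γ) :
    zcA Γ (ρ.comp φ) (fun y => ρ (f y)) g x = ρ (zcA Γ φ f g x) := by
  unfold zcA cobdry
  rw [cocA_comp, map_add, map_sub]

/-- The section at the base coset lies in `Γ`. -/
theorem sec_one_mem : sec Γ ((1 : G) : G ⧸ Γ) ∈ Γ := by
  have h1 : ((sec Γ ((1 : G) : G ⧸ Γ) : G) : G ⧸ Γ) = ((1 : G) : G ⧸ Γ) := mk_sec Γ _
  rw [QuotientGroup.eq] at h1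
  simpa using Γ.inv_mem h1

/-- The homomorphism is recovered from the cocycle of the pair `(φ, f)`. -/
theorem zcA_conj (φ : Additive Γ →+ A) (f : G ⧸ Γ → A) (γ : Γ) :
    zcA Γ φ f (sec Γ ((1 : G) : G ⧸ Γ) * (γ : G) * (sec Γ ((1 : G) : G ⧸ Γ))⁻¹)
      ((1 : G) : G ⧸ Γ) = φ (Additive.ofMul γ) := by
  set x0 : G ⧸ Γ := ((1 : G) : G ⧸ Γ) with hx0
  set σ := sec Γ x0 with hσ
  have hσmem : σ ∈ Γ := sec_one_mem Γ
  have hgmem : σ * (γ : G) * σ⁻¹ ∈ Γ :=
    Γ.mul_mem (Γ.mul_mem hσmem γ.2) (Γ.inv_mem hσmem)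
  have hfix : (σ * (γ : G) * σ⁻¹)⁻¹ • x0 = x0 := by
    rw [hx0, MulAction.Quotient.smul_coe, smul_eq_mul, mul_one, QuotientGroup.eq, inv_inv,
      mul_one]
    exact hgmem
  unfold zcA cobdry
  rw [hfix, sub_self, add_zero]
  apply cocA_eq
  rw [hfix, ← hσ]
  group

/-- Two pairs whose cocycles agree on generators have the same homomorphism. -/
theorem hom_eq_of_zcA (φ₁ φ₂ : Additive Γ →+ A) (f₁ f₂ : G ⧸ Γ → A) (s : Set G)
    (hs : Subgroup.closure s = ⊤) (h : ∀ g ∈ s, ∀ x, zcA Γ φ₁ f₁ g x = zcA Γ φ₂ f₂ g x) :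
    φ₁ = φ₂ := by
  have hall := (zcA_isCocA Γ φ₁ f₁).eq_of_closure (zcA_isCocA Γ φ₂ f₂) s hs h
  apply AddMonoidHom.ext
  intro γ'
  obtain ⟨γ, rfl⟩ : ∃ γ : Γ, Additive.ofMul γ = γ' := ⟨Additive.toMul γ', rfl⟩
  rw [← zcA_conj Γ φ₁ f₁ γ, ← zcA_conj Γ φ₂ f₂ γ, hall]

end ShapiroA

/-! ### The surjectivity of the cocycle map over `ℂ` for `Γ₀(N)` -/

section Gamma0

open MatrixGroups ModularGroup CongruenceSubgroup ModularCurve ModularCurve.Period

variable (N : ℕ) [NeZero N]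

/-- `dim Hom_par(Γ₀(N), ℂ) = 2 g`, in the form of an equality with orbit counts. -/
theorem finrank_parabolicHoms_add_orbits :
    finrank ℂ (parabolicHoms ℂ (Gamma0 N) ℂ)
      + (Nat.card (Orb (SL(2, ℤ) ⧸ Gamma0 N) (S : SL(2, ℤ)))
        + Nat.card (Orb (SL(2, ℤ) ⧸ Gamma0 N) (T : SL(2, ℤ)))
        + Nat.card (Orb (SL(2, ℤ) ⧸ Gamma0 N) (S * T : SL(2, ℤ))))
      = Nat.card (SL(2, ℤ) ⧸ Gamma0 N) + 2 := by
  have hdict := Fermat.Agent.S20.Dict.DictLowerFinal.dictLower N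
  obtain ⟨hinj, hrange⟩ := Fermat.Agent.S20.LowerOfDict.s21_of_dict N hdict
  have h20 := Fermat.Agent.S20.LowerOfDict.s20_of_dict N hdict
  have hfin : Module.Finite ℂ (CuspForm (Gamma0 N) 2) :=
    Fermat.Agent.S21.FromLower.finite_cuspForm N
  have h1 : finrank ℂ (parabolicHoms ℂ (Gamma0 N) ℂ)
      = 2 * finrank ℂ (CuspForm (Gamma0 N) 2) := by
    rw [← hrange, LinearMap.finrank_range_of_inj hinj, Module.finrank_prod]
    ring
  obtain ⟨hcard, h3, h2, hT, -⟩ := Fermat.Agent.S24.Comb.numerics N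
  change Nat.card (SL(2, ℤ) ⧸ Gamma0 N) = _ at hcard
  change 3 * Nat.card (Orb (SL(2, ℤ) ⧸ Gamma0 N) (S * T : SL(2, ℤ))) = _ at h3
  change 2 * Nat.card (Orb (SL(2, ℤ) ⧸ Gamma0 N) (S : SL(2, ℤ))) = _ at h2
  change Nat.card (Orb (SL(2, ℤ) ⧸ Gamma0 N) (T : SL(2, ℤ))) = _ at hT
  have h1' : (finrank ℂ (parabolicHoms ℂ (Gamma0 N) ℂ) : ℚ)
      = 2 * finrank ℂ (CuspForm (Gamma0 N) 2) := by exact_mod_cast h1
  have h3' : (3 : ℚ) * Nat.card (Orb (SL(2, ℤ) ⧸ Gamma0 N) (S * T : SL(2, ℤ)))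
      = dedekindPsi N + 2 * nuThree N := by exact_mod_cast h3
  have h2' : (2 : ℚ) * Nat.card (Orb (SL(2, ℤ) ⧸ Gamma0 N) (S : SL(2, ℤ)))
      = dedekindPsi N + nuTwo N := by exact_mod_cast h2
  have hT' : (Nat.card (Orb (SL(2, ℤ) ⧸ Gamma0 N) (T : SL(2, ℤ))) : ℚ) = cuspCount N := by
    exact_mod_cast hT
  have hc' : (Nat.card (SL(2, ℤ) ⧸ Gamma0 N) : ℚ) = dedekindPsi N := by exact_mod_cast hcard
  unfold genusFormula at h20
  have : ((finrank ℂ (parabolicHoms ℂ (Gamma0 N) ℂ)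
      + (Nat.card (Orb (SL(2, ℤ) ⧸ Gamma0 N) (S : SL(2, ℤ)))
        + Nat.card (Orb (SL(2, ℤ) ⧸ Gamma0 N) (T : SL(2, ℤ)))
        + Nat.card (Orb (SL(2, ℤ) ⧸ Gamma0 N) (S * T : SL(2, ℤ)))) : ℕ) : ℚ)
      = ((Nat.card (SL(2, ℤ) ⧸ Gamma0 N) + 2 : ℕ) : ℚ) := by
    push_cast
    linarith
  exact_mod_cast this

/-- Conjugates of powers of `S`, `T`, `S T` lying in `Γ₀(N)` are killed by homomorphisms which
kill the parabolic elements and the elements of finite order. -/
theorem kills_conj_pow {A : Type*} [AddCommGroup A] (φ : Additive (Gamma0 N) →+ A)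
    (hpar : IsParabolicHom (Gamma0 N) φ)
    (htors : ∀ γ : Gamma0 N, IsOfFinOrder γ → φ (Additive.ofMul γ) = 0) :
    ∀ c ∈ ({S, T, S * T} : Set SL(2, ℤ)), ∀ (g : SL(2, ℤ)) (m : ℕ)
      (h : g⁻¹ * c ^ m * g ∈ Gamma0 N), φ (Additive.ofMul ⟨g⁻¹ * c ^ m * g, h⟩) = 0 := by
  have hfo : ∀ (c : SL(2, ℤ)) (k : ℕ), 0 < k → c ^ k = 1 → ∀ (g : SL(2, ℤ)) (m : ℕ)
      (h : g⁻¹ * c ^ m * g ∈ Gamma0 N), φ (Additive.ofMul ⟨g⁻¹ * c ^ m * g, h⟩) = 0 := by
    intro c k hk hck g m h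
    apply htors
    rw [isOfFinOrder_iff_pow_eq_one]
    refine ⟨k, hk, Subtype.ext ?_⟩
    rw [Subgroup.coe_pow, Subgroup.coe_one]
    show (g⁻¹ * c ^ m * g) ^ k = 1
    have h1 := conj_pow (a := g⁻¹) (b := c ^ m) (i := k)
    rw [inv_inv] at h1
    rw [h1, ← pow_mul, mul_comm, pow_mul, hck, one_pow, mul_one, inv_mul_cancel]
  intro c hc g m h
  rcases hc with rfl | rfl | rfl
  · exact hfo S 4 (by norm_num) Fermat.Agent.S21.ParabolicBound.S_pow_four g m h
  · apply hpar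
    show ((g⁻¹ * T ^ m * g : SL(2, ℤ)) : Matrix (Fin 2) (Fin 2) ℤ).trace ^ 2 = 4
    rw [Fermat.Agent.S21.ParabolicBound.trace_conj_T_pow]
    norm_num
  · exact hfo (S * T) 6 (by norm_num) Fermat.Agent.S21.ParabolicBound.ST_pow_six g m h

/-- Complex valued homomorphisms kill elements of finite order. -/
theorem complex_kills_tors (φ : Additive (Gamma0 N) →+ ℂ) (γ : Gamma0 N)
    (hγ : IsOfFinOrder γ) : φ (Additive.ofMul γ) = 0 := by
  obtain ⟨k, hk, hγk⟩ := isOfFinOrder_iff_pow_eq_one.mp hγ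
  have h1 : k • φ (Additive.ofMul γ) = 0 := by
    rw [← map_nsmul, ← ofMul_pow, hγk, ofMul_one, map_zero]
  have hk' : (k : ℂ) ≠ 0 := by exact_mod_cast hk.ne'
  rw [nsmul_eq_mul] at h1
  exact (mul_eq_zero.mp h1).resolve_left hk'

/-- Over `ℂ`, every pair in the kernel of `mu S T` is the pair of values at `S`, `T` of the
cocycle of a parabolic homomorphism and a function. -/
theorem exists_zc_eq [Fintype (SL(2, ℤ) ⧸ Gamma0 N)] (u v : SL(2, ℤ) ⧸ Gamma0 N → ℂ)
    (huv : (u, v) ∈ LinearMap.ker (mu (X := SL(2, ℤ) ⧸ Gamma0 N) (S : SL(2, ℤ)) T)) :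
    ∃ φ : Additive (Gamma0 N) →+ ℂ, IsParabolicHom (Gamma0 N) φ ∧
      ∃ f : SL(2, ℤ) ⧸ Gamma0 N → ℂ, zc (Gamma0 N) φ f S = u ∧ zc (Gamma0 N) φ f T = v := by
  classical
  have hfin : Module.Finite ℂ (parabolicHoms ℂ (Gamma0 N) ℂ) := Fermat.Agent.S21.ParabolicGenus.parabolicHoms_finite N
  have hgen : Subgroup.closure ({S, T} : Set SL(2, ℤ)) = ⊤ := SpecialLinearGroup.SL2Z_generators
  have hE : ∀ φ ∈ (parabolicHoms ℂ (Gamma0 N) ℂ), ∀ c ∈ ({S, T, S * T} : Set SL(2, ℤ)), ∀ (g : SL(2, ℤ)) (m : ℕ)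
      (h : g⁻¹ * c ^ m * g ∈ Gamma0 N), φ (Additive.ofMul ⟨g⁻¹ * c ^ m * g, h⟩) = 0 :=
    fun φ hφ => kills_conj_pow N φ hφ (complex_kills_tors N φ)
  set x0 : SL(2, ℤ) ⧸ Gamma0 N := ((1 : SL(2, ℤ)) : SL(2, ℤ) ⧸ Gamma0 N) with hx0
  -- the kernel of `theta` is at most one-dimensional
  have hker : finrank ℂ (LinearMap.ker (theta (Gamma0 N) (parabolicHoms ℂ (Gamma0 N) ℂ) S T)) ≤ 1 := by
    let ev : LinearMap.ker (theta (Gamma0 N) (parabolicHoms ℂ (Gamma0 N) ℂ) S T) →ₗ[ℂ] ℂ :=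
      ((LinearMap.proj x0).comp (LinearMap.snd ℂ (parabolicHoms ℂ (Gamma0 N) ℂ) (SL(2, ℤ) ⧸ Gamma0 N → ℂ))).comp
        (Submodule.subtype _)
    have hinj : Function.Injective ev := by
      rw [injective_iff_map_eq_zero]
      rintro ⟨p, hp⟩ h0
      change p.2 x0 = 0 at h0
      rw [LinearMap.mem_ker] at hp
      obtain ⟨h1, h2⟩ := eq_zero_of_theta (Gamma0 N) (parabolicHoms ℂ (Gamma0 N) ℂ) S T hgen p hp
      apply Subtype.ext
      show p = 0
      refine Prod.ext h1 ?_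
      funext x
      rw [h2 x x0, h0]
      rfl
    have := LinearMap.finrank_le_finrank_of_injective hinj
    rwa [finrank_self] at this
  have hrange : LinearMap.range (theta (Gamma0 N) (parabolicHoms ℂ (Gamma0 N) ℂ) S T)
      ≤ LinearMap.ker (mu (X := SL(2, ℤ) ⧸ Gamma0 N) (S : SL(2, ℤ)) T) := by
    rintro _ ⟨p, rfl⟩
    exact theta_mem_ker_mu (Gamma0 N) (parabolicHoms ℂ (Gamma0 N) ℂ) S T hE p
  have hmu := finrank_ker_mu_add_le (X := SL(2, ℤ) ⧸ Gamma0 N) x0 (S : SL(2, ℤ)) T hgen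
  have hrn := LinearMap.finrank_range_add_finrank_ker (theta (Gamma0 N) (parabolicHoms ℂ (Gamma0 N) ℂ) S T)
  have hdom : finrank ℂ ((parabolicHoms ℂ (Gamma0 N) ℂ) × (SL(2, ℤ) ⧸ Gamma0 N → ℂ))
      = finrank ℂ (parabolicHoms ℂ (Gamma0 N) ℂ) + Nat.card (SL(2, ℤ) ⧸ Gamma0 N) := by
    rw [Module.finrank_prod, Module.finrank_fintype_fun_eq_card, Nat.card_eq_fintype_card]
  rw [hdom] at hrn
  rw [← Nat.card_eq_fintype_card] at hmu
  have heq := finrank_parabolicHoms_add_orbits N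
  have hle : finrank ℂ (LinearMap.ker (mu (X := SL(2, ℤ) ⧸ Gamma0 N) (S : SL(2, ℤ)) T))
      ≤ finrank ℂ (LinearMap.range (theta (Gamma0 N) (parabolicHoms ℂ (Gamma0 N) ℂ) S T)) := by
    omega
  have hrange_eq := Submodule.eq_of_le_of_finrank_le hrange hle
  rw [← hrange_eq] at huv
  obtain ⟨p, hp⟩ := huv
  rw [theta_apply, Prod.mk.injEq] at hp
  exact ⟨p.1.1, p.1.2, p.2, hp.1, hp.2⟩

end Gamma0

/-! ### The lifting theorem -/

section Main

open MatrixGroups ModularGroup CongruenceSubgroup ModularCurve ModularCurve.Period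

variable (N : ℕ) [NeZero N]

theorem orbSum_eq_orbSumHom {G X : Type*} [Group G] [MulAction G X] [Fintype X] (c : G)
    (u : X → ℂ) (o : Orb X c) : orbSum c u o = orbSumHom c u o := rfl

/-- **Lifting theorem.** A homomorphism `Γ₀(N) → ℤ/n` killing the parabolic elements and the
elements of finite order is the reduction of a `ℤ`-valued parabolic homomorphism. -/
theorem exists_int_lift (n : ℕ) [NeZero n] (ψ : Additive (Gamma0 N) →+ ZMod n)
    (hpar : IsParabolicHom (Gamma0 N) ψ)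
    (htors : ∀ g : Gamma0 N, IsOfFinOrder g → ψ (Additive.ofMul g) = 0) :
    ∃ φ : Additive (Gamma0 N) →+ ℤ, IsParabolicHom (Gamma0 N) φ ∧
      ∀ g, ((φ g : ℤ) : ZMod n) = ψ g := by
  classical
  haveI : Fintype (SL(2, ℤ) ⧸ Gamma0 N) := Fintype.ofFinite _
  have hgen : Subgroup.closure ({S, T} : Set SL(2, ℤ)) = ⊤ := SpecialLinearGroup.SL2Z_generators
  set x0 : SL(2, ℤ) ⧸ Gamma0 N := ((1 : SL(2, ℤ)) : SL(2, ℤ) ⧸ Gamma0 N) with hx0
  -- Step 1: cycle sums of the cocycle of `ψ` vanish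
  have hk := kills_conj_pow N ψ hpar htors
  have hz := cocA_isCocA (Gamma0 N) ψ
  have hcyc : ∀ c ∈ ({S, T, S * T} : Set SL(2, ℤ)), CycZero c (cocA (Gamma0 N) ψ c) := by
    intro c hc x m hfix
    rw [← hz.pow]
    have hmem : (sec (Gamma0 N) x)⁻¹ * c ^ m * sec (Gamma0 N) x ∈ Gamma0 N := by
      have := sec_mem (Gamma0 N) (c ^ m) x
      rwa [hfix] at this
    rw [cocA_eq (Gamma0 N) ψ (c ^ m) x ⟨_, hmem⟩ (by rw [hfix])]
    exact hk c hc (sec (Gamma0 N) x) m hmem
  -- Step 2: solve on the orbits of `S`, `S T`, `T`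
  obtain ⟨m₁, hm₁, hfix₁⟩ := exists_pow_smul_eq (Gamma0 N) (S : SL(2, ℤ))
  obtain ⟨m₂, hm₂, hfix₂⟩ := exists_pow_smul_eq (Gamma0 N) (S * T : SL(2, ℤ))
  obtain ⟨m₃, hm₃, hfix₃⟩ := exists_pow_smul_eq (Gamma0 N) (T : SL(2, ℤ))
  obtain ⟨w₁, hw₁⟩ := exists_cobdry_of_cycZero (S : SL(2, ℤ)) _ m₁ hm₁ hfix₁
    (hcyc S (by simp))
  obtain ⟨w₂, hw₂⟩ := exists_cobdry_of_cycZero (S * T : SL(2, ℤ)) _ m₂ hm₂ hfix₂
    (hcyc (S * T) (by simp))
  obtain ⟨w₃, hw₃⟩ := exists_cobdry_of_cycZero (T : SL(2, ℤ)) _ m₃ hm₃ hfix₃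
    (hcyc T (by simp))
  -- Step 3: the normalised cocycle `z' = z_ψ - ∂ w₂`
  set d : SL(2, ℤ) ⧸ Gamma0 N → ZMod n := fun x => w₁ x - w₂ x with hd
  have hz' := zcA_isCocA (Gamma0 N) ψ (fun x => - w₂ x)
  have hz'S : ∀ x, zcA (Gamma0 N) ψ (fun x => - w₂ x) S x = d ((S : SL(2, ℤ))⁻¹ • x) - d x := by
    intro x
    unfold zcA cobdry
    rw [hw₁ x]
    simp only [hd]
    ring
  have hz'ST : ∀ x, zcA (Gamma0 N) ψ (fun x => - w₂ x) (S * T) x = 0 := by
    intro x
    unfold zcA cobdry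
    rw [hw₂ x]
    ring
  have hz'T : ∀ x, zcA (Gamma0 N) ψ (fun x => - w₂ x) T x = d ((S : SL(2, ℤ)) • x) - d x := by
    intro x
    have h1 := hz' S T ((S : SL(2, ℤ)) • x)
    rw [hz'ST, hz'S, inv_smul_smul] at h1
    linear_combination -h1
  have hdT : orbSumHom (T : SL(2, ℤ)) (fun x => d ((S : SL(2, ℤ)) • x) - d x) = 0 := by
    have h1 : (fun x => d ((S : SL(2, ℤ)) • x) - d x)
        = fun x => (w₃ - w₂) ((T : SL(2, ℤ))⁻¹ • x) - (w₃ - w₂) x := by
      funext x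
      rw [← hz'T x]
      unfold zcA cobdry
      rw [hw₃ x]
      simp only [Pi.sub_apply]
      ring
    rw [h1]
    exact orbSumHom_cobdry (T : SL(2, ℤ)) (w₃ - w₂)
  -- Step 4: lift the potential to `ℤ`
  obtain ⟨D, hDd, hDlam⟩ := exists_int_potential x0 (S : SL(2, ℤ)) T hgen n d hdT
  -- Step 5: the complex pair lies in the kernel of `mu`
  set uC : SL(2, ℤ) ⧸ Gamma0 N → ℂ :=
    fun x => ((D ((S : SL(2, ℤ))⁻¹ • x) - D x : ℤ) : ℂ) with huC
  set vC : SL(2, ℤ) ⧸ Gamma0 N → ℂ :=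
    fun x => ((D ((S : SL(2, ℤ)) • x) - D x : ℤ) : ℂ) with hvC
  have hmem : (uC, vC) ∈ LinearMap.ker (mu (X := SL(2, ℤ) ⧸ Gamma0 N) (S : SL(2, ℤ)) T) := by
    rw [mem_ker_mu]
    refine ⟨?_, ?_, ?_⟩
    · funext o
      rw [orbSum_eq_orbSumHom]
      have h1 : uC = fun x => (fun y => ((D y : ℤ) : ℂ)) ((S : SL(2, ℤ))⁻¹ • x)
          - (fun y => ((D y : ℤ) : ℂ)) x := by
        funext x
        simp only [huC]
        push_cast
        ring
      rw [h1]
      exact congrFun (orbSumHom_cobdry (S : SL(2, ℤ)) (fun y => ((D y : ℤ) : ℂ))) o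
    · funext o
      rw [orbSum_eq_orbSumHom]
      have h1 := orbSumHom_map (Int.castAddHom ℂ) (T : SL(2, ℤ)) (pullSub (S : SL(2, ℤ)) D) o
      have h2 : orbSumHom (T : SL(2, ℤ)) (pullSub (S : SL(2, ℤ)) D) o = 0 := by
        have := congrFun hDlam o
        exact this
      rw [h2, map_zero] at h1
      rw [Pi.zero_apply, h1]
      rfl
    · have h1 : uC + shift (S : SL(2, ℤ)) vC = 0 := by
        funext x
        simp only [Pi.add_apply, shift_apply, huC, hvC, Pi.zero_apply, smul_inv_smul]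
        push_cast
        ring
      rw [h1, map_zero]
  -- Step 6: the complex homomorphism
  obtain ⟨φC, hφC, f, hfS, hfT⟩ := exists_zc_eq N uC vC hmem
  -- Step 7: integrality
  have hzC : IsCocA (zcA (Gamma0 N) φC f) := zcA_isCocA (Gamma0 N) φC f
  have hint : ∀ g x, zcA (Gamma0 N) φC f g x ∈ (Int.castAddHom ℂ).range := by
    refine hzC.mem_of_closure _ {S, T} hgen ?_
    intro g hg x
    rcases hg with rfl | rfl
    · rw [← zc_eq_zcA, hfS]
      exact ⟨_, rfl⟩
    · rw [← zc_eq_zcA, hfT]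
      exact ⟨_, rfl⟩
  have hφint : ∀ γ : Additive (Gamma0 N), ∃ k : ℤ, (k : ℂ) = φC γ := by
    intro γ'
    obtain ⟨γ, rfl⟩ : ∃ γ : Gamma0 N, Additive.ofMul γ = γ' := ⟨Additive.toMul γ', rfl⟩
    rw [← zcA_conj (Gamma0 N) φC f γ]
    exact hint _ _
  choose φfun hφfun using hφint
  let φZ : Additive (Gamma0 N) →+ ℤ :=
    { toFun := φfun
      map_zero' := by
        apply Int.cast_injective (α := ℂ)
        rw [hφfun, map_zero, Int.cast_zero]
      map_add' := fun a b => by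
        apply Int.cast_injective (α := ℂ)
        rw [Int.cast_add, hφfun, hφfun, hφfun, map_add] }
  have hφZ : ∀ γ, ((φZ γ : ℤ) : ℂ) = φC γ := hφfun
  have hfint : ∀ x, ∃ k : ℤ, (k : ℂ) = f x - f x0 := by
    intro x
    obtain ⟨g, hg⟩ := MulAction.exists_smul_eq SL(2, ℤ) x0 x
    obtain ⟨k, hk⟩ := hint g⁻¹ x0
    have hk' : (k : ℂ) = cocA (Gamma0 N) φC g⁻¹ x0 + (f ((g⁻¹)⁻¹ • x0) - f x0) := hk
    rw [inv_inv, hg] at hk'
    refine ⟨k - φZ (Additive.ofMul ⟨_, sec_mem (Gamma0 N) g⁻¹ x0⟩), ?_⟩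
    rw [Int.cast_sub, hφZ, hk']
    unfold cocA
    ring
  choose F hF using hfint
  -- the integral cocycle
  have hZ : ∀ g x, ((zcA (Gamma0 N) φZ F g x : ℤ) : ℂ) = zcA (Gamma0 N) φC f g x := by
    intro g x
    unfold zcA cobdry cocA
    rw [Int.cast_add, Int.cast_sub, hφZ, hF, hF]
    ring
  have hZS : ∀ x, zcA (Gamma0 N) φZ F S x = D ((S : SL(2, ℤ))⁻¹ • x) - D x := by
    intro x
    apply Int.cast_injective (α := ℂ)
    rw [hZ, ← zc_eq_zcA, hfS]
  have hZT : ∀ x, zcA (Gamma0 N) φZ F T x = D ((S : SL(2, ℤ)) • x) - D x := by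
    intro x
    apply Int.cast_injective (α := ℂ)
    rw [hZ, ← zc_eq_zcA, hfT]
  -- Step 8: comparison mod `n`
  have hcomp : (Int.castAddHom (ZMod n)).comp φZ = ψ := by
    refine hom_eq_of_zcA (Gamma0 N) _ _ (fun y => Int.castAddHom (ZMod n) (F y))
      (fun x => - w₂ x) {S, T} hgen ?_
    intro g hg x
    rw [zcA_comp]
    rcases hg with rfl | rfl
    · rw [hZS, hz'S]
      simp [hDd]
    · rw [hZT, hz'T]
      simp [hDd]
  refine ⟨φZ, ?_, ?_⟩
  · intro γ hγ
    apply Int.cast_injective (α := ℂ)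
    rw [hφZ, hφC γ hγ, Int.cast_zero]
  · intro g
    exact DFunLike.congr_fun hcomp g

end Main

end Fermat.Agent.S16.ParabolicLift
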