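import Mathlib
import Fermat.Prelude.Def_ModularCurve_PeriodMap
import Fermat.Agent.S16.PSL2Free
import Fermat.Agent.S16.Crossed
import Fermat.Agent.S16.OrbitLift
import Fermat.Agent.S16.Gamma0Cosets

/-!
# Lifting torsion-killing parabolic characters of `Γ₀(p)` to `ℤ`-valued parabolic homomorphisms

`exists_parabolic_lift` : if `φ : Γ₀(p) → B` (`B` a quotient of `ℤ` via `π`) kills all elements of
finite order and kills `T`, then there is a **parabolic** homomorphism `φ̃ : Γ₀(p) → ℤ`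
with `π ∘ φ̃ = φ`.
-/

set_option autoImplicit false

open scoped MatrixGroups
open ModularGroup CongruenceSubgroup

namespace Fermat.Agent.S16.PsiLift

open Fermat.Agent.S16.PSL2Free Fermat.Agent.S16.Crossed Fermat.Agent.S16.OrbitLift
open Fermat.Agent.S16.Gamma0Cosets

/-! ### parabolic elements of `SL(2,ℤ)` (copied from `S21/PeriodBasics`, to keep imports light) -/

theorem exists_conj_upper' (γ : SL(2, ℤ))
    (h : ((γ : Matrix (Fin 2) (Fin 2) ℤ)).trace ^ 2 = 4) :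
    ∃ δ σ : SL(2, ℤ), γ * δ = δ * σ ∧ σ 1 0 = 0 := by
  by_cases hc : γ 1 0 = 0
  · exact ⟨1, γ, by simp, hc⟩
  have hdet : γ 0 0 * γ 1 1 - γ 0 1 * γ 1 0 = 1 := by
    have := Matrix.SpecialLinearGroup.det_coe γ
    rwa [Matrix.det_fin_two] at this
  rw [Matrix.trace_fin_two] at h
  obtain ⟨ε, hε, ht⟩ : ∃ ε : ℤ, ε ^ 2 = 1 ∧ γ 0 0 + γ 1 1 = 2 * ε := by
    have h' : (γ 0 0 + γ 1 1 - 2) * (γ 0 0 + γ 1 1 + 2) = 0 := by linear_combination h
    rcases mul_eq_zero.mp h' with h1 | h1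
    · exact ⟨1, by norm_num, by linarith⟩
    · exact ⟨-1, by norm_num, by linarith⟩
  have hg : 0 < Int.gcd (γ 0 0 - ε) (γ 1 0) :=
    Int.gcd_pos_of_ne_zero_right _ hc
  obtain ⟨u, v, huv, hu, hv⟩ := Int.exists_gcd_one hg
  set g : ℤ := (Int.gcd (γ 0 0 - ε) (γ 1 0) : ℤ) with hgdef
  have hg0 : g ≠ 0 := by
    rw [hgdef]; exact_mod_cast hg.ne'
  have hbez : u * Int.gcdA u v + v * Int.gcdB u v = 1 := by
    have := Int.gcd_eq_gcd_ab u v
    rw [huv] at this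
    exact_mod_cast this.symm
  set A := Int.gcdA u v
  set B := Int.gcdB u v
  obtain ⟨δ, h00, h10⟩ : ∃ δ : SL(2, ℤ), δ 0 0 = u ∧ δ 1 0 = v :=
    ⟨⟨!![u, -B; v, A], by rw [Matrix.det_fin_two_of]; linarith⟩, rfl, rfl⟩
  refine ⟨δ, δ⁻¹ * γ * δ, by group, ?_⟩
  have hE : γ 1 0 * u ^ 2 + (γ 1 1 - γ 0 0) * u * v - γ 0 1 * v ^ 2 = 0 := by
    have h2 : g ^ 2 * (γ 1 0 * u ^ 2 + (γ 1 1 - γ 0 0) * u * v - γ 0 1 * v ^ 2) = 0 := by
      calc g ^ 2 * (γ 1 0 * u ^ 2 + (γ 1 1 - γ 0 0) * u * v - γ 0 1 * v ^ 2)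
          = γ 1 0 * (u * g) ^ 2 + (γ 1 1 - γ 0 0) * (u * g) * (v * g) - γ 0 1 * (v * g) ^ 2 := by
            ring
        _ = γ 1 0 * (γ 0 0 - ε) ^ 2 + (γ 1 1 - γ 0 0) * (γ 0 0 - ε) * (γ 1 0)
              - γ 0 1 * (γ 1 0) ^ 2 := by rw [← hu, ← hv]
        _ = 0 := by
            linear_combination (γ 1 0) * hdet - (γ 1 0) * ε * ht - (γ 1 0) * hε
    rcases mul_eq_zero.mp h2 with h3 | h3
    · exact absurd (pow_eq_zero_iff two_ne_zero |>.mp h3) hg0
    · exact h3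
  have hval : (δ⁻¹ * γ * δ) 1 0
      = γ 1 0 * u ^ 2 + (γ 1 1 - γ 0 0) * u * v - γ 0 1 * v ^ 2 := by
    rw [mul_assoc, inv_mul_apply_one_zero]
    have e1 : (γ * δ) 1 0 = γ 1 0 * δ 0 0 + γ 1 1 * δ 1 0 := by
      simp [Matrix.SpecialLinearGroup.coe_mul, Matrix.mul_apply, Fin.sum_univ_two]
    have e2 : (γ * δ) 0 0 = γ 0 0 * δ 0 0 + γ 0 1 * δ 1 0 := by
      simp [Matrix.SpecialLinearGroup.coe_mul, Matrix.mul_apply, Fin.sum_univ_two]
    rw [e1, e2, h00, h10]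
    ring
  rw [hval, hE]

/-- an upper triangular element of `SL(2,ℤ)` is `± T ^ k` -/
theorem eq_T_zpow_or_neg (g : SL(2,ℤ)) (hc : g 1 0 = 0) :
    ∃ k : ℤ, g = T ^ k ∨ g = -T ^ k := by
  have had := g.det_coe
  replace had : g 0 0 * g 1 1 = 1 := by rw [Matrix.det_fin_two, hc] at had; lia
  rcases Int.eq_one_or_neg_one_of_mul_eq_one' had with (⟨ha, hd⟩ | ⟨ha, hd⟩)
  · refine ⟨g 0 1, Or.inl ?_⟩
    ext i j; fin_cases i <;> fin_cases j <;>
      simp [ha, hc, hd, coe_T_zpow, show (1 : Fin (0 + 2)) = (1 : Fin 2) from rfl]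
  · refine ⟨-(g 0 1), Or.inr ?_⟩
    ext i j; fin_cases i <;> fin_cases j <;>
      simp [ha, hc, hd, coe_T_zpow, show (1 : Fin (0 + 2)) = (1 : Fin 2) from rfl]

theorem S_pow_four : (S : SL(2, ℤ)) ^ 4 = 1 := by decide

theorem ST_pow_six : (S * T : SL(2, ℤ)) ^ 6 = 1 := by decide


/-! ### The parabolic condition for a crossed homomorphism -/

section Core

variable (p : ℕ) [Fact p.Prime]

theorem S_smul_S_smul (x : X p) : (S : SL(2,ℤ)) • (S : SL(2,ℤ)) • x = x := by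
  rw [← mul_smul, ← pow_two, S_sq, Gamma0Cosets.neg_one_smul]

theorem R_smul_cube (x : X p) :
    (S * T : SL(2,ℤ)) • (S * T : SL(2,ℤ)) • (S * T : SL(2,ℤ)) • x = x := by
  rw [← mul_smul, ← mul_smul, ← pow_two, ← pow_succ, ST_cube, Gamma0Cosets.neg_one_smul]

theorem mem_Gamma0_smul_x0 {γ : SL(2,ℤ)} (hγ : γ ∈ Gamma0 p) : γ • x0 p = x0 p := by
  unfold x0
  rw [smul_mk, mul_one]
  show _ = x0 p
  rw [mk_eq_x0_iff]
  exact Gamma0_mem.mp hγ

variable {p}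
variable {c : SL(2,ℤ) → X p → ℤ} (hc : IsCrossed c)
  (hu : ∀ x, c S (S • x) + c S x = 0)
  (hv : ∀ x, c (S * T) ((S * T) • (S * T) • x) + c (S * T) ((S * T) • x) + c (S * T) x = 0)
  (hnorm : c (S * T) (x0 p) = c S (x0 p))

include hc hu in
theorem c_neg_one (x : X p) : c (-1) x = 0 := by
  rw [← S_sq, pow_two, hc, hu]

include hc hu in
theorem c_neg (g : SL(2,ℤ)) (x : X p) : c (-g) x = c g x := by
  have : -g = (-1) * g := by simp
  rw [this, hc, c_neg_one hc hu, zero_add]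

include hc hu in
theorem c_T (x : X p) : c T x = c (S * T) x - c S (T • x) := by
  have h1 : (T : SL(2,ℤ)) = S⁻¹ * (S * T) := by group
  have h2 : c (S⁻¹ * (S * T)) x = c S⁻¹ ((S * T) • x) + c (S * T) x := hc _ _ _
  rw [hc.inv, ← mul_smul, ← h1] at h2
  rw [h2]; ring

include hu in
theorem sum_cS : ∑ x : X p, c S x = 0 := by
  have h1 : ∑ x : X p, c S (S • x) = ∑ x : X p, c S x :=
    Equiv.sum_comp (MulAction.toPerm (S : SL(2,ℤ))) (c S)
  have h2 : ∑ x : X p, (c S (S • x) + c S x) = 0 := Finset.sum_eq_zero fun x _ => hu x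
  rw [Finset.sum_add_distrib, h1] at h2
  omega

include hv in
theorem sum_cR : ∑ x : X p, c (S * T) x = 0 := by
  have h1 : ∑ x : X p, c (S * T) ((S * T) • x) = ∑ x : X p, c (S * T) x :=
    Equiv.sum_comp (MulAction.toPerm (S * T : SL(2,ℤ))) (c (S * T))
  have h0 : ∑ x : X p, c (S * T) ((S * T) • (S * T) • x) = ∑ x : X p, c (S * T) ((S * T) • x) :=
    Equiv.sum_comp (MulAction.toPerm (S * T : SL(2,ℤ))) (fun x => c (S * T) ((S * T) • x))
  have h2 : ∑ x : X p, (c (S * T) ((S * T) • (S * T) • x) + c (S * T) ((S * T) • x)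
      + c (S * T) x) = 0 := Finset.sum_eq_zero fun x _ => hv x
  rw [Finset.sum_add_distrib, Finset.sum_add_distrib, h0, h1] at h2
  omega

include hc hu hv in
theorem sum_cT : ∑ x : X p, c T x = 0 := by
  have h1 : ∑ x : X p, c S (T • x) = ∑ x : X p, c S x :=
    Equiv.sum_comp (MulAction.toPerm (T : SL(2,ℤ))) (c S)
  simp_rw [c_T hc hu]
  rw [Finset.sum_sub_distrib, h1, sum_cS hu, sum_cR hv, sub_zero]

include hc hu hnorm in
theorem cT_x0 : c T (x0 p) = 0 := by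
  rw [c_T hc hu, T_smul_x0, hnorm, sub_self]

include hc hu hv hnorm in
theorem sum_range_cT : ∑ i ∈ Finset.range p, c T (y p i) = 0 := by
  have := sum_eq p (c T)
  rw [sum_cT hc hu hv, cT_x0 hc hu hnorm, zero_add] at this
  exact this.symm

include hc in
theorem c_zpow_of_fix {g : SL(2,ℤ)} (hg : g • x0 p = x0 p) (k : ℤ) :
    c (g ^ k) (x0 p) = k * c g (x0 p) := by
  have hfix : ∀ i : ℕ, g ^ i • x0 p = x0 p := by
    intro i
    induction i with
    | zero => simp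
    | succ n ih => rw [pow_succ, mul_smul, hg, ih]
  have hnat : ∀ n : ℕ, c (g ^ n) (x0 p) = n * c g (x0 p) := by
    intro n
    rw [hc.pow]
    simp only [hfix, Finset.sum_const, Finset.card_range, nsmul_eq_mul]
  obtain ⟨n, rfl | rfl⟩ := k.eq_nat_or_neg
  · rw [zpow_natCast, hnat]
  · rw [zpow_neg, zpow_natCast, hc.inv, inv_smul_eq_iff.mpr (hfix n).symm, hnat]
    push_cast; ring

include hc hu hv hnorm in
theorem c_W : c (S⁻¹ * T ^ (p : ℤ) * S) (x0 p) = 0 := by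
  have hfix : (T ^ (p : ℤ) : SL(2,ℤ)) • (S⁻¹ : SL(2,ℤ))⁻¹ • x0 p = (S⁻¹ : SL(2,ℤ))⁻¹ • x0 p := by
    rw [inv_inv, S_smul_x0, T_zpow_smul_y, y_eq_iff]
    simp
  have h1 := hc.conj (S⁻¹ : SL(2,ℤ)) (T ^ (p : ℤ)) (x0 p) hfix
  rw [inv_inv] at h1
  rw [h1, S_smul_x0, zpow_natCast, hc.pow]
  have : ∀ i : ℕ, (T ^ i : SL(2,ℤ)) • y p 0 = y p i := by
    intro i
    rw [← zpow_natCast, T_zpow_smul_y, add_zero]
  simp_rw [this]
  exact sum_range_cT hc hu hv hnorm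

theorem W_smul_x0 (m : ℤ) : (S⁻¹ * T ^ m * S : SL(2,ℤ)) • x0 p = x0 p ↔ (p : ℤ) ∣ m := by
  rw [mul_smul, S_smul_x0, mul_smul, T_zpow_smul_y, inv_smul_eq_iff, S_smul_x0, y_eq_iff]
  simp

include hc hu hv hnorm in
theorem c_W_zpow (m : ℤ) : c (S⁻¹ * T ^ ((p : ℤ) * m) * S) (x0 p) = 0 := by
  have h1 : (S⁻¹ * T ^ ((p : ℤ) * m) * S : SL(2,ℤ)) = (S⁻¹ * T ^ (p : ℤ) * S) ^ m := by
    rw [zpow_mul]
    have := conj_zpow (a := (S⁻¹ : SL(2,ℤ))) (b := T ^ (p : ℤ)) (i := m)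
    rw [inv_inv] at this
    exact this.symm
  rw [h1, c_zpow_of_fix hc ((W_smul_x0 (p := p) p).mpr dvd_rfl), c_W hc hu hv hnorm, mul_zero]

include hc hu hv hnorm in
/-- **The parabolic condition.** -/
theorem c_parabolic {γ : SL(2,ℤ)} (hγ : γ ∈ Gamma0 p)
    (htr : ((γ : Matrix (Fin 2) (Fin 2) ℤ)).trace ^ 2 = 4) : c γ (x0 p) = 0 := by
  obtain ⟨δ, σ, hδσ, hσ⟩ := exists_conj_upper' γ htr
  have hγeq : γ = δ * σ * δ⁻¹ := by rw [← hδσ]; group
  have hfix : σ • δ⁻¹ • x0 p = δ⁻¹ • x0 p := by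
    have h1 : σ * δ⁻¹ = δ⁻¹ * γ := by rw [hγeq]; group
    rw [← mul_smul, h1, mul_smul, mem_Gamma0_smul_x0 p hγ]
  rw [hγeq, hc.conj δ σ (x0 p) hfix]
  -- reduce to `σ = T ^ k`
  obtain ⟨k, hk⟩ := eq_T_zpow_or_neg σ hσ
  have hfix' : (T ^ k : SL(2,ℤ)) • δ⁻¹ • x0 p = δ⁻¹ • x0 p := by
    rcases hk with rfl | rfl
    · exact hfix
    · have : (-T ^ k : SL(2,ℤ)) = (-1) * T ^ k := by simp
      rw [this, mul_smul, Gamma0Cosets.neg_one_smul] at hfix
      exact hfix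
  have hred : c σ (δ⁻¹ • x0 p) = c (T ^ k) (δ⁻¹ • x0 p) := by
    rcases hk with rfl | rfl
    · rfl
    · exact c_neg hc hu _ _
  rw [hred]
  rcases eq_x0_or_eq_y p (δ⁻¹ • x0 p) with hy | ⟨j, hy⟩
  · rw [hy, c_zpow_of_fix hc (T_smul_x0 p), cT_x0 hc hu hnorm, mul_zero]
  · rw [hy] at hfix' ⊢
    rw [T_zpow_smul_y, y_eq_iff] at hfix'
    have hdvd : (p : ℤ) ∣ k := by
      have : j - (k + j) = -k := by ring
      rw [this] at hfix'
      exact (dvd_neg).mp hfix'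
    obtain ⟨m, rfl⟩ := hdvd
    have hfix2 : (T ^ ((p : ℤ) * m) : SL(2,ℤ)) • ((T ^ j * S : SL(2,ℤ))⁻¹)⁻¹ • x0 p
        = ((T ^ j * S : SL(2,ℤ))⁻¹)⁻¹ • x0 p := by
      rw [inv_inv, mul_smul, S_smul_x0, T_zpow_smul_y, T_zpow_smul_y, y_eq_iff]
      have : j + 0 - ((p : ℤ) * m + (j + 0)) = (p : ℤ) * (-m) := by ring
      rw [this]; exact dvd_mul_right _ _
    have h2 := hc.conj ((T ^ j * S : SL(2,ℤ))⁻¹) (T ^ ((p : ℤ) * m)) (x0 p) hfix2
    rw [inv_inv, mul_smul, S_smul_x0, T_zpow_smul_y, add_zero] at h2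
    rw [← h2]
    have h3 : (T ^ j * S : SL(2,ℤ))⁻¹ * T ^ ((p : ℤ) * m) * (T ^ j * S)
        = S⁻¹ * T ^ ((p : ℤ) * m) * S := by group
    rw [h3]
    exact c_W_zpow hc hu hv hnorm m

end Core

/-! ### The main theorem -/

section Main

variable (p : ℕ) [Fact p.Prime] {B : Type*} [AddCommGroup B]

/-- the Shapiro cocycle of `φ` vanishes at `(g, rΓ)` if `r⁻¹ g r ∈ Γ` has finite order -/
theorem coc_eq_zero_of_pow (φ : Additive (Gamma0 p) →+ B)
    (htors : ∀ γ : Gamma0 p, γ ^ 12 = 1 → φ (Additive.ofMul γ) = 0)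
    (g r : SL(2,ℤ)) (hg : g ^ 12 = 1) (h : r⁻¹ * g * r ∈ Gamma0 p) :
    coc (Gamma0 p) φ g (r : X p) = 0 := by
  rw [coc_of_conj_mem (Gamma0 p) φ g r h]
  apply htors
  apply Subtype.ext
  show (r⁻¹ * g * r) ^ 12 = 1
  have := conj_pow (a := r⁻¹) (b := g) (i := 12)
  rw [inv_inv] at this
  rw [this, hg]; group

theorem exists_parabolic_lift (π : ℤ →+ B) (hπ : Function.Surjective π)
    (φ : Additive (Gamma0 p) →+ B)
    (htors : ∀ γ : Gamma0 p, γ ^ 12 = 1 → φ (Additive.ofMul γ) = 0)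
    (hT : ∀ h : (T : SL(2,ℤ)) ∈ Gamma0 p, φ (Additive.ofMul ⟨T, h⟩) = 0) :
    ∃ φ' : Additive (Gamma0 p) →+ ℤ, ModularCurve.Period.IsParabolicHom (Gamma0 p) φ' ∧
      ∀ γ, π (φ' γ) = φ γ := by
  classical
  set c := coc (Gamma0 p) φ with hcdef
  have hcr : IsCrossed c := fun g h x => coc_mul (Gamma0 p) φ g h x
  have hneg1 : (-1 : SL(2,ℤ)) ^ 12 = 1 := by
    rw [← S_sq, ← pow_mul]
    have : (S : SL(2,ℤ)) ^ (2 * 12) = (S ^ 4) ^ 6 := by rw [← pow_mul]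
    rw [this, S_pow_four, one_pow]
  have hS12 : (S : SL(2,ℤ)) ^ 12 = 1 := by
    have : (S : SL(2,ℤ)) ^ 12 = (S ^ 4) ^ 3 := by rw [← pow_mul]
    rw [this, S_pow_four, one_pow]
  have hR12 : (S * T : SL(2,ℤ)) ^ 12 = 1 := by
    have : (S * T : SL(2,ℤ)) ^ 12 = ((S * T) ^ 6) ^ 2 := by rw [← pow_mul]
    rw [this, ST_pow_six, one_pow]
  have hc_neg1 : ∀ x : X p, c (-1) x = 0 := by
    intro x
    induction x using QuotientGroup.induction_on with
    | H r =>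
      refine coc_eq_zero_of_pow p φ htors (-1) r hneg1 ?_
      have : r⁻¹ * (-1) * r = -1 := by simp
      rw [this, Gamma0_mem]; simp
  have hu : ∀ x : X p, c S (S • x) + c S x = 0 := by
    intro x
    rw [← hcr, ← pow_two, S_sq, hc_neg1]
  have hv : ∀ x : X p, c (S * T) ((S * T) • (S * T) • x) + c (S * T) ((S * T) • x)
      + c (S * T) x = 0 := by
    intro x
    have h1 : c ((S * T) * (S * T) * (S * T)) x
        = c (S * T) ((S * T) • (S * T) • x) + c (S * T) ((S * T) • x) + c (S * T) x := by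
      rw [hcr, hcr]
    rw [← h1, ← pow_two, ← pow_succ, ST_cube, hc_neg1]
  have hfixmem : ∀ (g r : SL(2,ℤ)), g • (r : X p) = (r : X p) → r⁻¹ * g * r ∈ Gamma0 p := by
    intro g r h
    rw [smul_mk, QuotientGroup.eq] at h
    have := (Gamma0 p).inv_mem h
    rwa [mul_inv_rev, inv_inv, ← mul_assoc] at this
  have hu0 : ∀ x : X p, S • x = x → c S x = 0 := by
    intro x hx
    induction x using QuotientGroup.induction_on with
    | H r => exact coc_eq_zero_of_pow p φ htors S r hS12 (hfixmem S r hx)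
  have hv0 : ∀ x : X p, (S * T : SL(2,ℤ)) • x = x → c (S * T) x = 0 := by
    intro x hx
    induction x using QuotientGroup.induction_on with
    | H r => exact coc_eq_zero_of_pow p φ htors (S * T) r hR12 (hfixmem (S * T) r hx)
  letI : LinearOrder (X p) := IsWellOrder.linearOrder WellOrderingRel
  let L : B → ℤ := fun b => (hπ b).choose
  have hL : ∀ b, π (L b) = b := fun b => (hπ b).choose_spec
  -- the lifts
  set u' : X p → ℤ := lift2 (fun x => (S : SL(2,ℤ)) • x) L (c S) with hu'def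
  set v₀ : X p → ℤ := lift3 (fun x => (S * T : SL(2,ℤ)) • x) L (c (S * T)) with hv₀def
  have hu'rel : ∀ x, u' (S • x) + u' x = 0 := lift2_rel (S_smul_S_smul p)
  have hv₀rel : ∀ x, v₀ ((S * T) • (S * T) • x) + v₀ ((S * T) • x) + v₀ x = 0 :=
    lift3_rel (R_smul_cube p)
  have hu'red : ∀ x, π (u' x) = c S x := lift2_red π hL hu hu0
  have hv₀red : ∀ x, π (v₀ x) = c (S * T) x := lift3_red π hL (R_smul_cube p) hv hv0
  -- normalisation at `x₀`
  have hTmem : (T : SL(2,ℤ)) ∈ Gamma0 p := by rw [Gamma0_mem]; simp [coe_T]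
  have hcT0 : c T (x0 p) = 0 := by
    have := coc_of_mem (Gamma0 p) φ hTmem
    rw [hcdef]
    show coc (Gamma0 p) φ T (x0 p) = 0
    unfold x0
    rw [this, hT]
  have hcR0 : c (S * T) (x0 p) = c S (x0 p) := by
    rw [hcr, T_smul_x0, hcT0, add_zero]
  set δ : ℤ := u' (x0 p) - v₀ (x0 p) with hδdef
  have hπδ : π δ = 0 := by
    rw [hδdef, map_sub, hu'red, hv₀red, hcR0, sub_self]
  have hRR0 : (S * T : SL(2,ℤ)) • (S * T : SL(2,ℤ)) • x0 p ≠ x0 p := by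
    intro h
    have h1 : (S * T : SL(2,ℤ)) • x0 p = x0 p :=
      fixed_of_sq_fixed (ρ := fun x => (S * T : SL(2,ℤ)) • x) (R_smul_cube p) h
    rw [mul_smul, T_smul_x0, S_smul_x0] at h1
    exact y_ne_x0 p (Fact.out : p.Prime).one_lt 0 h1
  set v' : X p → ℤ := fun x => v₀ x + (if x = x0 p then δ else 0)
    - (if (S * T : SL(2,ℤ)) • (S * T : SL(2,ℤ)) • x = x0 p then δ else 0) with hv'def
  have hv'rel : ∀ x, v' ((S * T) • (S * T) • x) + v' ((S * T) • x) + v' x = 0 := by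
    intro x
    simp only [hv'def, R_smul_cube p x]
    have := hv₀rel x
    split_ifs <;> omega
  have hv'red : ∀ x, π (v' x) = c (S * T) x := by
    intro x
    have e1 : ∀ (P : Prop) [Decidable P], π (if P then δ else 0) = 0 := by
      intro P _
      split_ifs
      · exact hπδ
      · exact map_zero π
    simp only [hv'def, map_add, map_sub, e1, hv₀red, add_zero, sub_zero]
  have hv'x0 : v' (x0 p) = u' (x0 p) := by
    show v₀ (x0 p) + (if x0 p = x0 p then δ else 0)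
      - (if (S * T : SL(2,ℤ)) • (S * T : SL(2,ℤ)) • x0 p = x0 p then δ else 0) = u' (x0 p)
    rw [if_pos rfl, if_neg hRR0]
    omega
  -- the crossed homomorphism
  obtain ⟨ct, hct, hctS, hctR⟩ := exists_crossed (Gamma0Cosets.neg_one_smul p) u' v' hu'rel hv'rel
  have hred : (fun g x => π (ct g x)) = c := by
    refine crossed_ext (c := fun g x => π (ct g x)) ?_ hcr ?_ ?_
    · intro g h x
      show π (ct (g * h) x) = π (ct g (h • x)) + π (ct h x)
      rw [hct, map_add]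
    · funext x
      show π (ct S x) = c S x
      rw [hctS, hu'red]
    · funext x
      show π (ct (S * T) x) = c (S * T) x
      rw [hctR, hv'red]
  have huc : ∀ x, ct S (S • x) + ct S x = 0 := by rw [hctS]; exact hu'rel
  have hvc : ∀ x, ct (S * T) ((S * T) • (S * T) • x) + ct (S * T) ((S * T) • x)
      + ct (S * T) x = 0 := by rw [hctR]; exact hv'rel
  have hnorm : ct (S * T) (x0 p) = ct S (x0 p) := by rw [hctR, hctS]; exact hv'x0
  refine ⟨⟨⟨fun γ => ct ((Additive.toMul γ : Gamma0 p) : SL(2,ℤ)) (x0 p), hct.one _⟩, ?_⟩, ?_, ?_⟩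
  · intro γ γ'
    show ct (((Additive.toMul γ : Gamma0 p) : SL(2,ℤ)) * ((Additive.toMul γ' : Gamma0 p) : SL(2,ℤ)))
      (x0 p) = _
    rw [hct, mem_Gamma0_smul_x0 p (Additive.toMul γ').2]
  · intro γ hγ
    exact c_parabolic hct huc hvc hnorm γ.2 hγ
  · intro γ
    show π (ct ((Additive.toMul γ : Gamma0 p) : SL(2,ℤ)) (x0 p)) = φ γ
    have := congrFun (congrFun hred ((Additive.toMul γ : Gamma0 p) : SL(2,ℤ))) (x0 p)
    rw [this, hcdef]
    exact coc_of_mem (Gamma0 p) φ (Additive.toMul γ).2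

end Main

/-! ### The Shimura character -/

section Shimura

variable (p : ℕ) [Fact p.Prime]

/-- the character `γ ↦ (lower right entry of γ) mod p` of `Γ₀(p)` -/
noncomputable def chi : Gamma0 p →* (ZMod p)ˣ := (Gamma0Map p).toHomUnits

theorem coe_chi (γ : Gamma0 p) : ((chi p γ : (ZMod p)ˣ) : ZMod p) = ((γ : SL(2,ℤ)) 1 1 : ℤ) := rfl

/-- **Lift of the Shimura character.**  If `ν` kills the `12`-torsion of `(ℤ/p)ˣ` and `ζ`
generates (a group containing) the `ν`-th powers, the character `γ ↦ d(γ)^ν` lifts to a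
`ℤ`-valued parabolic homomorphism of `Γ₀(p)`. -/
theorem exists_shimura_lift (ν : ℕ) (hν : ∀ d : (ZMod p)ˣ, d ^ 12 = 1 → d ^ ν = 1)
    (ζ : (ZMod p)ˣ) (hζ : ∀ d : (ZMod p)ˣ, d ^ ν ∈ Subgroup.zpowers ζ) :
    ∃ φ' : Additive (Gamma0 p) →+ ℤ, ModularCurve.Period.IsParabolicHom (Gamma0 p) φ' ∧
      ∀ γ : Gamma0 p, ζ ^ (φ' (Additive.ofMul γ)) = chi p γ ^ ν := by
  let B := Additive (Subgroup.zpowers ζ)
  let π : ℤ →+ B := zmultiplesHom B (Additive.ofMul ⟨ζ, Subgroup.mem_zpowers ζ⟩)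
  have hπ_apply : ∀ k : ℤ, ((Additive.toMul (π k) : Subgroup.zpowers ζ) : (ZMod p)ˣ) = ζ ^ k := by
    intro k
    show ((Additive.toMul (k • (Additive.ofMul (⟨ζ, Subgroup.mem_zpowers ζ⟩ : Subgroup.zpowers ζ)))
      : Subgroup.zpowers ζ) : (ZMod p)ˣ) = ζ ^ k
    rw [← ofMul_zpow]
    rfl
  have hπ : Function.Surjective π := by
    intro b
    obtain ⟨k, hk⟩ := (Additive.toMul b : Subgroup.zpowers ζ).2
    refine ⟨k, ?_⟩
    apply Additive.toMul.injective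
    apply Subtype.ext
    rw [hπ_apply]
    exact hk
  let ψ : Gamma0 p →* Subgroup.zpowers ζ :=
    ((powMonoidHom ν).comp (chi p)).codRestrict (Subgroup.zpowers ζ) (fun γ => hζ _)
  let φ : Additive (Gamma0 p) →+ B := MonoidHom.toAdditive ψ
  have hφ_apply : ∀ γ : Gamma0 p,
      ((Additive.toMul (φ (Additive.ofMul γ)) : Subgroup.zpowers ζ) : (ZMod p)ˣ) = chi p γ ^ ν :=
    fun γ => rfl
  have htors : ∀ γ : Gamma0 p, γ ^ 12 = 1 → φ (Additive.ofMul γ) = 0 := by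
    intro γ hγ
    apply Additive.toMul.injective
    apply Subtype.ext
    rw [hφ_apply]
    show chi p γ ^ ν = 1
    apply hν
    rw [← map_pow, hγ, map_one]
  have hT : ∀ h : (T : SL(2,ℤ)) ∈ Gamma0 p, φ (Additive.ofMul ⟨T, h⟩) = 0 := by
    intro h
    apply Additive.toMul.injective
    apply Subtype.ext
    rw [hφ_apply]
    show chi p ⟨T, h⟩ ^ ν = 1
    have : chi p ⟨T, h⟩ = 1 := by
      apply Units.ext
      rw [coe_chi]
      simp [coe_T]
    rw [this, one_pow]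
  obtain ⟨φ', hpar, hred⟩ := exists_parabolic_lift p π hπ φ htors hT
  refine ⟨φ', hpar, fun γ => ?_⟩
  rw [← hπ_apply, hred, hφ_apply]

end Shimura

end Fermat.Agent.S16.PsiLift
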