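/-
S16 (Eisenstein ideal index), analytic support: Ramanujan's identity for `E₂`,
and the three Ramanujan identities as identities of `q`-expansions.
Owner: helper45.

* `D_E2` : `D E₂ = (E₂² - E₄) / 12`.
* `qExpansion_D` : `qExpansion 1 (D G) = X * d⁄dX (qExpansion 1 G)`.
* `ramanujan_e2`, `ramanujan_e4`, `ramanujan_e6` : the identities in `PowerSeries ℂ`.
-/
import Fermat.Agent.S16.SerreLevel

set_option autoImplicit false

namespace Fermat.Agent.S16.RamanujanE2

open UpperHalfPlane hiding I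
open ModularForm ModularFormClass MatrixGroups EisensteinSeries Complex Derivative
  Filter Topology CongruenceSubgroup SlashInvariantForm
open scoped Manifold Real
open Fermat.Agent.S24.JLocalOrder Fermat.Agent.S16.SerreLevel

local notation "𝕢" => Function.Periodic.qParam

/-! ### The transformation defect of `E₂` -/

/-- The defect `(2πi)⁻¹ · c / (cz + d)` in the transformation law of `E₂`. -/
noncomputable def corr (γ : SL(2, ℤ)) (z : ℍ) : ℂ :=
  (2 * π * I)⁻¹ * ((γ 1 0 : ℂ) * denom γ z ^ (-1 : ℤ))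

lemma E2_slash_apply (γ : SL(2, ℤ)) (z : ℍ) :
    (E2 ∣[(2 : ℤ)] γ) z = E2 z + 12 * corr γ z := by
  rw [E2_slash_action]
  simp only [Pi.sub_apply, Pi.smul_apply, D2, corr, riemannZeta_two, smul_eq_mul]
  have hpi : (π : ℂ) ≠ 0 := ofReal_ne_zero.mpr Real.pi_ne_zero
  have hd : denom γ z ≠ 0 := denom_ne_zero γ z
  rw [zpow_neg_one]
  field_simp
  ring_nf
  rw [I_sq]
  ring

lemma mdifferentiable_corr (γ : SL(2, ℤ)) : MDiff (corr γ) :=
  mdifferentiable_const.mul (mdifferentiable_const.mul (mdifferentiable_denom_zpow γ (-1)))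

lemma D_corr (γ : SL(2, ℤ)) (z : ℍ) : D (corr γ) z = -corr γ z ^ 2 := by
  have hder := ((hasDerivAt_denom_zpow γ (-1) z).const_mul (γ 1 0 : ℂ)).const_mul
    ((2 * π * I)⁻¹ : ℂ)
  have heq : (corr γ ∘ ofComplex) =ᶠ[𝓝 (z : ℂ)]
      fun w => (2 * π * I)⁻¹ * ((γ 1 0 : ℂ) * denom γ w ^ (-1 : ℤ)) := by
    filter_upwards [isOpen_upperHalfPlaneSet.mem_nhds z.im_pos] with w hw
    simp only [Function.comp_apply, corr, ofComplex_apply_of_im_pos hw, UpperHalfPlane.coe_mk]
  rw [normalizedDerivOfComplex, (hder.congr_of_eventuallyEq heq).deriv, corr]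
  have hd : denom γ z ≠ 0 := denom_ne_zero γ z
  have hc : (((γ : GL (Fin 2) ℝ) 1 0 : ℝ) : ℂ) = (γ 1 0 : ℂ) := by simp
  rw [hc]
  have h2 : (2 * (π : ℂ) * I) ≠ 0 := two_pi_I_ne_zero
  rw [show ((-1 : ℤ) - 1) = -2 by norm_num, zpow_neg_one, zpow_neg, zpow_ofNat]
  field_simp
  push_cast
  ring

/-! ### `D E₂ - E₂² / 12` is a modular form of weight `4` -/

/-- `D E₂ - E₂² / 12`. -/
noncomputable def ramFun : ℍ → ℂ := fun z => D E2 z - 12⁻¹ * E2 z ^ 2

lemma ramFun_slash (γ : SL(2, ℤ)) : ramFun ∣[(4 : ℤ)] γ = ramFun := by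
  ext z
  have h1 := congrFun (normalizedDerivOfComplex_SL_slash (k := 2) E2_mdifferentiable (γ := γ)) z
  have h2 : E2 ∣[(2 : ℤ)] γ = E2 + (12 : ℂ) • corr γ := by
    ext w
    simp [E2_slash_apply]
  have h3 : D (E2 ∣[(2 : ℤ)] γ) z = D E2 z - 12 * corr γ z ^ 2 := by
    rw [h2, normalizedDerivOfComplex_add _ _ E2_mdifferentiable
      ((mdifferentiable_corr γ).const_smul _),
      normalizedDerivOfComplex_smul _ _ (mdifferentiable_corr γ)]
    simp only [Pi.add_apply, Pi.smul_apply, D_corr, smul_eq_mul]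
    ring
  have h5 := E2_slash_apply γ z
  rw [h3] at h1
  simp only [Pi.sub_apply] at h1
  rw [SL_slash_apply, SL_slash_apply] at h1
  rw [SL_slash_apply] at h5
  rw [SL_slash_apply]
  simp only [ramFun]
  have hd : denom γ z ≠ 0 := denom_ne_zero γ z
  have hc : (2 * π * I)⁻¹ * ((γ 1 0 : ℂ) / denom γ z) = corr γ z := by
    rw [corr, zpow_neg_one, div_eq_mul_inv]
  have e4 : denom γ z ^ (-(4 : ℤ)) = (denom γ z ^ (-(2 : ℤ))) ^ 2 := by
    rw [← zpow_natCast, ← zpow_mul]
    norm_num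
  have e4' : denom γ z ^ (-((2 : ℤ) + 2)) = (denom γ z ^ (-(2 : ℤ))) ^ 2 := by
    rw [← e4]
    norm_num
  rw [e4'] at h1
  rw [e4]
  generalize denom γ z ^ (-(2 : ℤ)) = X at *
  generalize D E2 (γ • z) = A at *
  generalize E2 (γ • z) = B at *
  have h1' : D E2 z - 12 * corr γ z ^ 2 = A * X ^ 2 - 2 * corr γ z * (B * X) := by
    rw [h1, ← hc]
    push_cast
    ring
  linear_combination (-1 : ℂ) * h1' + (corr γ z - 12⁻¹ * (B * X + E2 z)) * h5

lemma mdifferentiable_ramFun : MDiff ramFun :=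
  (normalizedDerivOfComplex_mdifferentiable E2_mdifferentiable).sub
    (mdifferentiable_const.mul (E2_mdifferentiable.pow 2))

lemma tendsto_ramFun : Tendsto ramFun atImInfty (𝓝 (-(1 / 12))) := by
  have h1 : Tendsto (D E2) atImInfty (𝓝 0) :=
    D_isZeroAtImInfty_of_periodic one_pos periodic_E2 E2_mdifferentiable isBoundedAtImInfty_E2
  have h2 := (tendsto_const_nhds (x := (12⁻¹ : ℂ))).mul (tendsto_E2.pow 2)
  have h3 := h1.sub h2
  have hval : (0 : ℂ) - 12⁻¹ * 1 ^ 2 = -(1 / 12) := by norm_num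
  rw [hval] at h3
  exact h3

/-- `D E₂ - E₂² / 12` as a modular form of weight `4` and level one. -/
noncomputable def ramMF : ModularForm 𝒮ℒ 4 where
  toFun := ramFun
  slash_action_eq' := by
    rintro _ ⟨γ, rfl⟩
    have := ramFun_slash γ
    rwa [ModularForm.SL_slash] at this
  holo' := mdifferentiable_ramFun
  bdd_at_cusps' {c} hc := by
    rw [OnePoint.isBoundedAt_iff_forall_SL2Z hc]
    intro γ _
    rw [ramFun_slash]
    exact tendsto_ramFun.isBigO_one ℝ

lemma coe_ramMF : (ramMF : ℍ → ℂ) = ramFun := rfl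

/-- **Ramanujan**: `D E₂ = (E₂² - E₄) / 12`. -/
theorem D_E2 (z : ℍ) : D E2 z = (E2 z ^ 2 - E₄ z) / 12 := by
  have h := eq_mul_of_rank_one levelOne_weight_four_rank_one ramMF E₄ tendsto_ramFun tendsto_E4 z
  rw [coe_ramMF, ramFun] at h
  linear_combination h

/-- Ramanujan's identity for `E₂` in terms of the Serre derivative (of "weight one"). -/
theorem serreDerivative_E2 (z : ℍ) : serreDerivative 1 E2 z = -(1 / 12) * E₄ z := by
  rw [serreDerivative_apply, D_E2]
  ring

/-! ### The Ramanujan identities for `q`-expansions -/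

section PowerSeriesIdentities

open PowerSeries

/-- `θ = X · d/dX` on power series. -/
noncomputable def theta {R : Type*} [CommSemiring R] (f : PowerSeries R) : PowerSeries R :=
  X * d⁄dX R f

lemma coeff_theta {R : Type*} [CommSemiring R] (f : PowerSeries R) (n : ℕ) :
    (theta f).coeff n = (n : R) * f.coeff n := by
  cases n with
  | zero => simp [theta]
  | succ m =>
    rw [theta, coeff_succ_X_mul, coeff_derivative]
    push_cast
    ring

lemma map_theta {R S : Type*} [CommSemiring R] [CommSemiring S] (φ : R →+* S)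
    (f : PowerSeries R) : (theta f).map φ = theta (f.map φ) := by
  ext n
  simp [coeff_theta]

/-- `θ` is a derivation. -/
lemma theta_mul {R : Type*} [CommSemiring R] (f g : PowerSeries R) :
    theta (f * g) = theta f * g + f * theta g := by
  simp only [theta, Derivation.leibniz, smul_eq_mul]
  ring

lemma theta_add {R : Type*} [CommSemiring R] (f g : PowerSeries R) :
    theta (f + g) = theta f + theta g := by
  simp only [theta, map_add, mul_add]

/-- The `q`-expansion of `D G` is `θ` of the `q`-expansion of `G`. -/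
theorem qExpansion_D {G : ℍ → ℂ} (hper : Function.Periodic (G ∘ ofComplex) (1 : ℝ))
    (hhol : MDiff G) (hbdd : IsBoundedAtImInfty G) :
    qExpansion 1 (D G) = theta (qExpansion 1 G) := by
  ext n
  rw [coeff_qExpansion_D one_pos hper hhol hbdd, coeff_theta]
  simp

/-- The `q`-expansion of `E₂`. -/
noncomputable abbrev e2 : PowerSeries ℂ := qExpansion 1 E2
/-- The `q`-expansion of `E₄`. -/
noncomputable abbrev e4 : PowerSeries ℂ := qExpansion 1 (E₄ : ℍ → ℂ)
/-- The `q`-expansion of `E₆`. -/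
noncomputable abbrev e6 : PowerSeries ℂ := qExpansion 1 (E₆ : ℍ → ℂ)

lemma analyticAt_cuspFunction_levelOne {k : ℤ} (F : ModularForm 𝒮ℒ k) :
    AnalyticAt ℂ (cuspFunction 1 (F : ℍ → ℂ)) 0 :=
  analyticAt_cuspFunction_zero one_pos (periodic_levelOne F) (holo F)
    (isBoundedAtImInfty_levelOne F)

/-- **Ramanujan**, `q`-expansion form: `12 θ e₂ = e₂² - e₄`. -/
theorem ramanujan_e2 : (12 : ℂ) • theta e2 = e2 ^ 2 - e4 := by
  have hfun : D E2 = (12⁻¹ : ℂ) • (E2 * E2 - (E₄ : ℍ → ℂ)) := by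
    ext z
    rw [D_E2]
    simp only [Pi.smul_apply, Pi.sub_apply, Pi.mul_apply, smul_eq_mul]
    ring
  have hE2 := analyticAt_cuspFunction_E2
  have hE4 := analyticAt_cuspFunction_levelOne E₄
  have hE22 : AnalyticAt ℂ (cuspFunction 1 (E2 * E2)) 0 := by
    rw [cuspFunction_mul hE2.continuousAt hE2.continuousAt]
    exact hE2.mul hE2
  have hsub : AnalyticAt ℂ (cuspFunction 1 (E2 * E2 - (E₄ : ℍ → ℂ))) 0 := by
    rw [cuspFunction_sub hE22.continuousAt hE4.continuousAt]
    exact hE22.sub hE4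
  have h1 := qExpansion_D periodic_E2 E2_mdifferentiable isBoundedAtImInfty_E2
  rw [hfun, qExpansion_smul hsub, qExpansion_sub hE22 hE4, qExpansion_mul hE2 hE2] at h1
  rw [← h1, smul_smul]
  norm_num
  ring

/-- **Ramanujan**, `q`-expansion form: `3 θ e₄ = e₂ e₄ - e₆`. -/
theorem ramanujan_e4 : (3 : ℂ) • theta e4 = e2 * e4 - e6 := by
  have hfun : D (E₄ : ℍ → ℂ) = (3⁻¹ : ℂ) • (E2 * (E₄ : ℍ → ℂ) - (E₆ : ℍ → ℂ)) := by
    ext z
    rw [D_E4]
    simp only [Pi.smul_apply, Pi.sub_apply, Pi.mul_apply, smul_eq_mul]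
    ring
  have hE2 := analyticAt_cuspFunction_E2
  have hE4 := analyticAt_cuspFunction_levelOne E₄
  have hE6 := analyticAt_cuspFunction_levelOne E₆
  have hE24 : AnalyticAt ℂ (cuspFunction 1 (E2 * (E₄ : ℍ → ℂ))) 0 := by
    rw [cuspFunction_mul hE2.continuousAt hE4.continuousAt]
    exact hE2.mul hE4
  have hsub : AnalyticAt ℂ (cuspFunction 1 (E2 * (E₄ : ℍ → ℂ) - (E₆ : ℍ → ℂ))) 0 := by
    rw [cuspFunction_sub hE24.continuousAt hE6.continuousAt]
    exact hE24.sub hE6
  have h1 := qExpansion_D (periodic_levelOne E₄) (holo E₄) (isBoundedAtImInfty_levelOne E₄)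
  rw [hfun, qExpansion_smul hsub, qExpansion_sub hE24 hE6, qExpansion_mul hE2 hE4] at h1
  rw [← h1, smul_smul]
  norm_num

/-- **Ramanujan**, `q`-expansion form: `2 θ e₆ = e₂ e₆ - e₄²`. -/
theorem ramanujan_e6 : (2 : ℂ) • theta e6 = e2 * e6 - e4 ^ 2 := by
  have hfun : D (E₆ : ℍ → ℂ) =
      (2⁻¹ : ℂ) • (E2 * (E₆ : ℍ → ℂ) - (E₄ : ℍ → ℂ) * (E₄ : ℍ → ℂ)) := by
    ext z
    rw [D_E6]
    simp only [Pi.smul_apply, Pi.sub_apply, Pi.mul_apply, smul_eq_mul]
    ring
  have hE2 := analyticAt_cuspFunction_E2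
  have hE4 := analyticAt_cuspFunction_levelOne E₄
  have hE6 := analyticAt_cuspFunction_levelOne E₆
  have hE26 : AnalyticAt ℂ (cuspFunction 1 (E2 * (E₆ : ℍ → ℂ))) 0 := by
    rw [cuspFunction_mul hE2.continuousAt hE6.continuousAt]
    exact hE2.mul hE6
  have hE44 : AnalyticAt ℂ (cuspFunction 1 ((E₄ : ℍ → ℂ) * (E₄ : ℍ → ℂ))) 0 := by
    rw [cuspFunction_mul hE4.continuousAt hE4.continuousAt]
    exact hE4.mul hE4
  have hsub : AnalyticAt ℂ
      (cuspFunction 1 (E2 * (E₆ : ℍ → ℂ) - (E₄ : ℍ → ℂ) * (E₄ : ℍ → ℂ))) 0 := by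
    rw [cuspFunction_sub hE26.continuousAt hE44.continuousAt]
    exact hE26.sub hE44
  have h1 := qExpansion_D (periodic_levelOne E₆) (holo E₆) (isBoundedAtImInfty_levelOne E₆)
  rw [hfun, qExpansion_smul hsub, qExpansion_sub hE26 hE44, qExpansion_mul hE2 hE6,
    qExpansion_mul hE4 hE4] at h1
  rw [← h1, smul_smul]
  norm_num
  ring

/-! ### Integral forms -/

/-- `E₂ = 1 - 24 ∑ σ₁(n) qⁿ` as an integral power series. -/
noncomputable def E2Z : PowerSeries ℤ :=
  PowerSeries.mk fun n => if n = 0 then 1 else -24 * ((ArithmeticFunction.sigma 1 n : ℕ) : ℤ)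

/-- `E₄ = 1 + 240 ∑ σ₃(n) qⁿ` as an integral power series. -/
noncomputable def E4Z : PowerSeries ℤ :=
  PowerSeries.mk fun n => if n = 0 then 1 else 240 * ((ArithmeticFunction.sigma 3 n : ℕ) : ℤ)

/-- `E₆ = 1 - 504 ∑ σ₅(n) qⁿ` as an integral power series. -/
noncomputable def E6Z : PowerSeries ℤ :=
  PowerSeries.mk fun n => if n = 0 then 1 else -504 * ((ArithmeticFunction.sigma 5 n : ℕ) : ℤ)

lemma map_E2Z : E2Z.map (Int.castRingHom ℂ) = e2 := by
  ext m
  rw [coeff_qExpansion_E2]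
  simp only [E2Z, PowerSeries.coeff_map, PowerSeries.coeff_mk]
  split_ifs with h <;> simp

lemma map_E4Z : E4Z.map (Int.castRingHom ℂ) = e4 := by
  ext m
  rw [e4, EisensteinSeries.E_qExpansion_coeff (by norm_num) (by decide) m]
  simp only [E4Z, PowerSeries.coeff_map, PowerSeries.coeff_mk]
  split_ifs with h
  · simp
  · have hb : bernoulli 4 = -1 / 30 := by decide +kernel
    rw [hb]
    push_cast
    norm_num

lemma map_E6Z : E6Z.map (Int.castRingHom ℂ) = e6 := by
  ext m
  rw [e6, EisensteinSeries.E_qExpansion_coeff (by norm_num) (by decide) m]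
  simp only [E6Z, PowerSeries.coeff_map, PowerSeries.coeff_mk]
  split_ifs with h
  · simp
  · have hb : bernoulli 6 = 1 / 42 := by decide +kernel
    rw [hb]
    push_cast
    norm_num

lemma map_intCast_injective :
    Function.Injective (PowerSeries.map (Int.castRingHom ℂ)) := by
  intro f g hfg
  ext n
  have := congrArg (PowerSeries.coeff n) hfg
  simpa using this

/-- **Ramanujan** over `ℤ`: `12 θ E₂ = E₂² - E₄`. -/
theorem ramanujan_E2Z : 12 * theta E2Z = E2Z ^ 2 - E4Z := by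
  apply map_intCast_injective
  have h := ramanujan_e2
  rw [map_mul, map_theta, map_sub, map_pow, map_E2Z, map_E4Z, ← h, map_ofNat, smul_eq_C_mul,
    map_ofNat]

/-- **Ramanujan** over `ℤ`: `3 θ E₄ = E₂ E₄ - E₆`. -/
theorem ramanujan_E4Z : 3 * theta E4Z = E2Z * E4Z - E6Z := by
  apply map_intCast_injective
  have h := ramanujan_e4
  rw [map_mul, map_theta, map_sub, map_mul, map_E2Z, map_E4Z, map_E6Z, ← h, map_ofNat,
    smul_eq_C_mul, map_ofNat]

/-- **Ramanujan** over `ℤ`: `2 θ E₆ = E₂ E₆ - E₄²`. -/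
theorem ramanujan_E6Z : 2 * theta E6Z = E2Z * E6Z - E4Z ^ 2 := by
  apply map_intCast_injective
  have h := ramanujan_e6
  rw [map_mul, map_theta, map_sub, map_mul, map_pow, map_E2Z, map_E4Z, map_E6Z, ← h, map_ofNat,
    smul_eq_C_mul, map_ofNat]

/-- The Ramanujan identities over an arbitrary commutative ring, for the reductions of
`E₂, E₄, E₆`. -/
theorem ramanujan_map {R : Type*} [CommRing R] :
    let P := E2Z.map (Int.castRingHom R)
    let Q := E4Z.map (Int.castRingHom R)
    let S := E6Z.map (Int.castRingHom R)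
    12 * theta P = P ^ 2 - Q ∧ 3 * theta Q = P * Q - S ∧ 2 * theta S = P * S - Q ^ 2 := by
  intro P Q S
  refine ⟨?_, ?_, ?_⟩
  · have := congrArg (PowerSeries.map (Int.castRingHom R)) ramanujan_E2Z
    rwa [map_mul, map_theta, map_sub, map_pow, map_ofNat] at this
  · have := congrArg (PowerSeries.map (Int.castRingHom R)) ramanujan_E4Z
    rwa [map_mul, map_theta, map_sub, map_mul, map_ofNat] at this
  · have := congrArg (PowerSeries.map (Int.castRingHom R)) ramanujan_E6Z
    rwa [map_mul, map_theta, map_sub, map_mul, map_pow, map_ofNat] at this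

lemma constantCoeff_E2Z : PowerSeries.constantCoeff E2Z = 1 := by
  rw [← PowerSeries.coeff_zero_eq_constantCoeff]; simp [E2Z]

lemma constantCoeff_E4Z : PowerSeries.constantCoeff E4Z = 1 := by
  rw [← PowerSeries.coeff_zero_eq_constantCoeff]; simp [E4Z]

lemma constantCoeff_E6Z : PowerSeries.constantCoeff E6Z = 1 := by
  rw [← PowerSeries.coeff_zero_eq_constantCoeff]; simp [E6Z]

lemma E4Z_eq_eisenstein4 : E4Z = ModularCurve.eisenstein4 := by
  ext n
  simp only [E4Z, ModularCurve.eisenstein4, PowerSeries.coeff_mk]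
  split_ifs with h
  · rfl
  · simp [ArithmeticFunction.sigma_apply]

end PowerSeriesIdentities

end Fermat.Agent.S16.RamanujanE2
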