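import Mathlib

/-!
# S16: rational descent for symmetric functions of conjugate `q^(1/p)`-expansions

The `p + 1` conjugates of a form `F` of level `Γ₀(p)` under `SL₂(ℤ)` have expansions
`g(ζ^b v)` (`v = q^(1/p)`, `ζ` a `p`-th root of unity).  Their elementary symmetric functions
a priori have coefficients in `ℚ(ζ)`.  This file shows, without Galois theory, that they are
*rational* as soon as `g` is: the power sums `∑_b g(ζ^b v)^m` are rational because
`∑_b ζ^(b n) ∈ {0, p}`, and Newton's identities over `ℚ` express the elementary symmetric functions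
through the power sums.

Main statements (namespace `Fermat.Agent.S16.RationalDescent`):

* `aeval_esymm_mem_of_psum_mem` : abstract Newton step in a `ℚ`-algebra.
* `coeffSubalgebra S` : power series with coefficients in a `ℚ`-subalgebra `S`.
* `esymm_rescale_mem` : the elementary symmetric functions of `rescale (ω i) g` have coefficients
  in `S` as soon as `g` has and all power sums `∑ i, ω i ^ n` lie in `S`.
* `esymm_rescale_rootsOfUnity_mem` : the case `ω b = ζ ^ b`, `b < p`, `ζ ^ p = 1`.
* `prod_one_add_mul_X_coeff_mem`, `prod_X_add_C_coeff_mem` : the same for the coefficients of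
  `∏ (1 + C (x b) * X)` and `∏ (X + C (x b))`.
* `exists_int_of_isIntegral_mul`, `dvd_of_mem_of_ne_top` : a rational number which is `ℓ`-integral
  algebraic lies in `ℤ_(ℓ)`; a rational element of a proper ideal containing `ℓ` has numerator
  divisible by `ℓ`.
-/

set_option autoImplicit false

open MvPolynomial Finset

namespace Fermat.Agent.S16.RationalDescent

section Abstract

variable {B : Type*} [CommRing B] [Algebra ℚ B] (B' : Subalgebra ℚ B)

/-- **Newton step.** In a commutative `ℚ`-algebra, if all power sums of a finite family lie in a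
`ℚ`-subalgebra, so do all elementary symmetric functions. -/
theorem aeval_esymm_mem_of_psum_mem {σ : Type*} [Fintype σ] (x : σ → B)
    (hps : ∀ i : ℕ, 1 ≤ i → ∑ s, x s ^ i ∈ B') (k : ℕ) :
    aeval x (esymm σ ℚ k) ∈ B' := by
  induction k using Nat.strong_induction_on with
  | _ k ih =>
    rcases Nat.eq_zero_or_pos k with rfl | hk
    · rw [esymm_zero, map_one]; exact B'.one_mem
    · have hN := congrArg (aeval x) (mul_esymm_eq_sum σ ℚ k)
      rw [map_mul, map_natCast, map_mul, map_pow, map_neg, map_one, map_sum] at hN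
      have hmem : (k : B) * aeval x (esymm σ ℚ k) ∈ B' := by
        rw [hN]
        refine B'.mul_mem (B'.pow_mem (B'.neg_mem B'.one_mem) _) (B'.sum_mem ?_)
        intro a ha
        rw [Finset.mem_filter, HasAntidiagonal.mem_antidiagonal] at ha
        rw [map_mul, map_mul, map_pow, map_neg, map_one]
        refine B'.mul_mem (B'.mul_mem (B'.pow_mem (B'.neg_mem B'.one_mem) _) (ih a.1 ha.2)) ?_
        have h2 : 1 ≤ a.2 := by omega
        have : aeval x (psum σ ℚ a.2) = ∑ s, x s ^ a.2 := by
          simp [psum]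
        rw [this]
        exact hps a.2 h2
      have hk' : ((k : ℚ)) ≠ 0 := by exact_mod_cast hk.ne'
      have : aeval x (esymm σ ℚ k) = ((k : ℚ)⁻¹) • ((k : B) * aeval x (esymm σ ℚ k)) := by
        have h1 : (k : B) = algebraMap ℚ B (k : ℚ) := by simp
        rw [h1, ← Algebra.smul_def, smul_smul, inv_mul_cancel₀ hk', one_smul]
      rw [this]
      exact B'.smul_mem hmem _

/-- The multiset form of `aeval_esymm_mem_of_psum_mem`. -/
theorem multiset_esymm_mem_of_psum_mem {σ : Type*} [Fintype σ] (x : σ → B)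
    (hps : ∀ i : ℕ, 1 ≤ i → ∑ s, x s ^ i ∈ B') (k : ℕ) :
    ((Finset.univ : Finset σ).val.map x).esymm k ∈ B' := by
  rw [← aeval_esymm_eq_multiset_esymm σ ℚ]
  exact aeval_esymm_mem_of_psum_mem B' x hps k

end Abstract

section PowerSeries

variable {L : Type*} [Field L] [CharZero L]

/-- Power series over `L` all of whose coefficients lie in the `ℚ`-subalgebra `S`. -/
def coeffSubalgebra (S : Subalgebra ℚ L) : Subalgebra ℚ (PowerSeries L) where
  carrier := {f | ∀ n, PowerSeries.coeff n f ∈ S}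
  mul_mem' := by
    intro f g hf hg n
    rw [PowerSeries.coeff_mul]
    exact S.sum_mem fun a _ => S.mul_mem (hf _) (hg _)
  add_mem' := by
    intro f g hf hg n
    rw [map_add]
    exact S.add_mem (hf n) (hg n)
  algebraMap_mem' := by
    intro r n
    rw [PowerSeries.algebraMap_apply, PowerSeries.coeff_C]
    split_ifs
    · exact S.algebraMap_mem r
    · exact S.zero_mem

theorem mem_coeffSubalgebra {S : Subalgebra ℚ L} {f : PowerSeries L} :
    f ∈ coeffSubalgebra S ↔ ∀ n, PowerSeries.coeff n f ∈ S := Iff.rfl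

/-- Substituting `v ↦ v ^ d` keeps the coefficients in `S`. -/
theorem evalPowMem {S : Subalgebra ℚ L} {f : PowerSeries L} (hf : f ∈ coeffSubalgebra S)
    (g : PowerSeries L) (d : ℕ)
    (hg : ∀ n, PowerSeries.coeff n g = if d ∣ n then PowerSeries.coeff (n / d) f else 0) :
    g ∈ coeffSubalgebra S := by
  intro n
  rw [hg n]
  split_ifs
  · exact hf _
  · exact S.zero_mem

/-- The elementary symmetric functions of the family `g(ω i · v)` have coefficients in `S` as
soon as `g` has and all the power sums `∑ i, ω i ^ n` lie in `S`. -/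
theorem esymm_rescale_mem {S : Subalgebra ℚ L} {ι : Type*} [Fintype ι] (ω : ι → L)
    (hω : ∀ n : ℕ, ∑ i, ω i ^ n ∈ S) {g : PowerSeries L} (hg : g ∈ coeffSubalgebra S) (k : ℕ) :
    aeval (fun i => PowerSeries.rescale (ω i) g) (esymm ι ℚ k) ∈ coeffSubalgebra S := by
  refine aeval_esymm_mem_of_psum_mem (coeffSubalgebra S) _ ?_ k
  intro m _ n
  have hgm : g ^ m ∈ coeffSubalgebra S := (coeffSubalgebra S).pow_mem hg m
  have : PowerSeries.coeff n (∑ i, PowerSeries.rescale (ω i) g ^ m) =
      (∑ i, ω i ^ n) * PowerSeries.coeff n (g ^ m) := by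
    rw [map_sum, Finset.sum_mul]
    refine Finset.sum_congr rfl fun i _ => ?_
    rw [← map_pow, PowerSeries.coeff_rescale]
  rw [this]
  exact S.mul_mem (hω n) (hgm n)

/-- Power sums of the `p` powers `ζ ^ b`, `b < p`, of a `p`-th root of unity are `0` or `p`. -/
theorem sum_pow_rootOfUnity_mem (S : Subalgebra ℚ L) {p : ℕ} {ζ : L} (hζ : ζ ^ p = 1) (n : ℕ) :
    ∑ b : Fin p, (ζ ^ (b : ℕ)) ^ n ∈ S := by
  have h1 : ∑ b : Fin p, (ζ ^ (b : ℕ)) ^ n = ∑ b ∈ Finset.range p, (ζ ^ n) ^ b := by
    rw [Fin.sum_univ_eq_sum_range (fun b => (ζ ^ b) ^ n) p]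
    refine Finset.sum_congr rfl fun b _ => ?_
    rw [← pow_mul, ← pow_mul, mul_comm]
  rw [h1]
  by_cases h : ζ ^ n = 1
  · rw [h]
    simp only [one_pow, Finset.sum_const, Finset.card_range, nsmul_eq_mul, mul_one]
    exact natCast_mem S p
  · have h0 : ∑ b ∈ Finset.range p, (ζ ^ n) ^ b = 0 := by
      have hmul := mul_geom_sum (ζ ^ n) p
      rw [← pow_mul, mul_comm n p, pow_mul, hζ, one_pow, sub_self] at hmul
      rcases mul_eq_zero.1 hmul with h' | h'
      · exact absurd (sub_eq_zero.1 h') h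
      · exact h'
    rw [h0]
    exact S.zero_mem

/-- **Rational descent.** If `g` has coefficients in `S` (e.g. `S = ℚ`) and `ζ ^ p = 1`, then every
elementary symmetric function of `g(v), g(ζ v), …, g(ζ^(p-1) v)` has coefficients in `S`. -/
theorem esymm_rescale_rootsOfUnity_mem {S : Subalgebra ℚ L} {p : ℕ} {ζ : L} (hζ : ζ ^ p = 1)
    {g : PowerSeries L} (hg : g ∈ coeffSubalgebra S) (k : ℕ) :
    aeval (fun b : Fin p => PowerSeries.rescale (ζ ^ (b : ℕ)) g) (esymm (Fin p) ℚ k) ∈
      coeffSubalgebra S :=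
  esymm_rescale_mem (fun b : Fin p => ζ ^ (b : ℕ)) (sum_pow_rootOfUnity_mem S hζ) hg k

/-- Multiset form of `esymm_rescale_rootsOfUnity_mem`. -/
theorem multiset_esymm_rescale_rootsOfUnity_mem {S : Subalgebra ℚ L} {p : ℕ} {ζ : L}
    (hζ : ζ ^ p = 1) {g : PowerSeries L} (hg : g ∈ coeffSubalgebra S) (k : ℕ) :
    ((Finset.univ : Finset (Fin p)).val.map
      (fun b : Fin p => PowerSeries.rescale (ζ ^ (b : ℕ)) g)).esymm k ∈ coeffSubalgebra S := by
  rw [← aeval_esymm_eq_multiset_esymm (Fin p) ℚ]
  exact esymm_rescale_rootsOfUnity_mem hζ hg k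

theorem range_val_map_eq {α : Type*} (p : ℕ) (h : ℕ → α) :
    (Finset.range p).val.map h =
      (Finset.univ : Finset (Fin p)).val.map (fun b : Fin p => h (b : ℕ)) := by
  have : (Finset.range p) = (Finset.univ : Finset (Fin p)).map Fin.valEmbedding := by
    rw [Fin.map_valEmbedding_univ]
    exact (Nat.Iio_eq_range p).symm
  rw [this, Finset.map_val, Multiset.map_map]
  rfl

/-- Range form: the elementary symmetric functions of `(g(ζ^b v))_{b ∈ range p}`. -/
theorem range_esymm_rescale_rootsOfUnity_mem {S : Subalgebra ℚ L} {p : ℕ} {ζ : L}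
    (hζ : ζ ^ p = 1) {g : PowerSeries L} (hg : g ∈ coeffSubalgebra S) (k : ℕ) :
    ((Finset.range p).val.map (fun b : ℕ => PowerSeries.rescale (ζ ^ b) g)).esymm k ∈
      coeffSubalgebra S := by
  rw [range_val_map_eq]
  exact multiset_esymm_rescale_rootsOfUnity_mem hζ hg k

/-- The coefficients (in `X`) of `∏_{b < p} (X + C (g(ζ^b v)))` are power series with
coefficients in `S`. -/
theorem prod_X_add_C_coeff_mem {S : Subalgebra ℚ L} {p : ℕ} {ζ : L}
    (hζ : ζ ^ p = 1) {g : PowerSeries L} (hg : g ∈ coeffSubalgebra S) (k : ℕ) :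
    (∏ b ∈ Finset.range p,
      (Polynomial.X + Polynomial.C (PowerSeries.rescale (ζ ^ b) g))).coeff k ∈
        coeffSubalgebra S := by
  by_cases hk : k ≤ (Finset.range p).card
  · rw [Finset.prod_X_add_C_coeff _ _ hk]
    have := range_esymm_rescale_rootsOfUnity_mem hζ hg ((Finset.range p).card - k)
    rw [Finset.esymm_map_val] at this
    exact this
  · rw [Polynomial.coeff_eq_zero_of_natDegree_lt]
    · exact (coeffSubalgebra S).zero_mem
    · refine lt_of_le_of_lt (Polynomial.natDegree_prod_le _ _) ?_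
      refine lt_of_le_of_lt (Finset.sum_le_card_nsmul _ _ 1 fun b _ => ?_) ?_
      · exact (Polynomial.natDegree_X_add_C _).le
      · rw [smul_eq_mul, mul_one]; exact not_le.1 hk

/-- The coefficients (in `X`) of `∏_{b < p} (1 + C (g(ζ^b v)) * X)` are power series with
coefficients in `S`. -/
theorem prod_one_add_mul_X_coeff_mem {S : Subalgebra ℚ L} {p : ℕ} {ζ : L}
    (hζ : ζ ^ p = 1) {g : PowerSeries L} (hg : g ∈ coeffSubalgebra S) (k : ℕ) :
    (∏ b ∈ Finset.range p,
      (1 + Polynomial.C (PowerSeries.rescale (ζ ^ b) g) * Polynomial.X)).coeff k ∈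
        coeffSubalgebra S := by
  classical
  have hexp : (∏ b ∈ Finset.range p,
      (1 + Polynomial.C (PowerSeries.rescale (ζ ^ b) g) * Polynomial.X)) =
      ∑ t ∈ (Finset.range p).powerset,
        Polynomial.C (∏ b ∈ t, PowerSeries.rescale (ζ ^ b) g) * Polynomial.X ^ t.card := by
    rw [Finset.prod_one_add]
    refine Finset.sum_congr rfl fun t _ => ?_
    rw [Finset.prod_mul_distrib, Finset.prod_const, map_prod]
  rw [hexp, Polynomial.finsetSum_coeff]
  have hsplit : ∀ t ∈ (Finset.range p).powerset,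
      (Polynomial.C (∏ b ∈ t, PowerSeries.rescale (ζ ^ b) g) *
        Polynomial.X ^ t.card : Polynomial (PowerSeries L)).coeff k =
      if t.card = k then ∏ b ∈ t, PowerSeries.rescale (ζ ^ b) g else 0 := by
    intro t _
    rw [Polynomial.coeff_C_mul, Polynomial.coeff_X_pow]
    split_ifs with h1 h2 h2
    · rw [mul_one]
    · exact absurd h1.symm h2
    · exact absurd h2.symm h1
    · rw [mul_zero]
  rw [Finset.sum_congr rfl hsplit, ← Finset.sum_filter]
  have hfil : (Finset.range p).powerset.filter (fun t => t.card = k) =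
      (Finset.range p).powersetCard k := by
    ext t
    simp [Finset.mem_powersetCard]
  rw [hfil]
  have := range_esymm_rescale_rootsOfUnity_mem hζ hg k
  rw [Finset.esymm_map_val] at this
  exact this

/-- Convenience form with `S = ℚ`: rational input, rational output. -/
theorem prod_one_add_mul_X_coeff_rat {p : ℕ} {ζ : L} (hζ : ζ ^ p = 1) {g : PowerSeries L}
    (hg : ∀ n, ∃ r : ℚ, PowerSeries.coeff n g = (r : L)) (k n : ℕ) :
    ∃ r : ℚ, PowerSeries.coeff n ((∏ b ∈ Finset.range p,
      (1 + Polynomial.C (PowerSeries.rescale (ζ ^ b) g) * Polynomial.X)).coeff k) = (r : L) := by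
  have hg' : g ∈ coeffSubalgebra (⊥ : Subalgebra ℚ L) := by
    intro m
    obtain ⟨r, hr⟩ := hg m
    rw [hr]
    exact (⊥ : Subalgebra ℚ L).algebraMap_mem r
  have h := prod_one_add_mul_X_coeff_mem (S := (⊥ : Subalgebra ℚ L)) hζ hg' k n
  obtain ⟨r, hr⟩ := Algebra.mem_bot.1 h
  exact ⟨r, by rw [← hr]; rfl⟩

end PowerSeries

section Arithmetic

/-- A rational number `x` such that `m * x` is an algebraic integer has the form `n / m`:
`ℚ ∩ (ℓ-integral algebraic numbers) = ℤ_(ℓ)`. -/
theorem exists_int_of_isIntegral_mul (x : ℚ) (m : ℕ)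
    (h : IsIntegral ℤ ((m : ℂ) * (x : ℂ))) : ∃ n : ℤ, (m : ℚ) * x = (n : ℚ) := by
  have h1 : IsIntegral ℤ (algebraMap ℚ ℂ ((m : ℚ) * x)) := by
    have : algebraMap ℚ ℂ ((m : ℚ) * x) = (m : ℂ) * (x : ℂ) := by
      simp
    rw [this]; exact h
  have h2 : IsIntegral ℤ ((m : ℚ) * x) :=
    (isIntegral_algebraMap_iff (algebraMap ℚ ℂ).injective).1 h1
  obtain ⟨n, hn⟩ := IsIntegrallyClosed.isIntegral_iff.1 h2
  exact ⟨n, by rw [← hn]; simp⟩

/-- In a ring where every integer prime to `ℓ` is a unit, an element `u = a / b` (`a b` integers)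
of a proper ideal has numerator divisible by `ℓ`. -/
theorem dvd_of_mem_of_ne_top {A : Type*} [CommRing A] (l : ℕ) [Fact l.Prime] (𝔪 : Ideal A)
    (h𝔪 : 𝔪 ≠ ⊤) (hunit : ∀ n : ℕ, ¬ l ∣ n → IsUnit (n : A)) (a : ℤ) (b : ℕ) (u : A)
    (hu : u * (b : A) = (a : A)) (hmem : u ∈ 𝔪) : (l : ℤ) ∣ a := by
  by_contra hla
  have hnat : ¬ l ∣ a.natAbs := by
    intro h
    exact hla (Int.natCast_dvd.2 h)
  have h1 : IsUnit ((a.natAbs : ℕ) : A) := hunit _ hnat
  have h2 : IsUnit ((a : ℤ) : A) := by
    rcases Int.natAbs_eq a with h | h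
    · rw [h]; simpa using h1
    · rw [h]; simpa using h1
  have h3 : IsUnit u := by
    rw [← hu] at h2
    exact isUnit_of_mul_isUnit_left h2
  exact h𝔪 (Ideal.eq_top_of_isUnit_mem _ hmem h3)

end Arithmetic

end Fermat.Agent.S16.RationalDescent
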