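import Fermat.Agent.S16.Interfaces

/-!
# S16: reduction of the index statement to the three congruence statements
-/

set_option autoImplicit false

open ModularCurve CuspForm

namespace Fermat.Agent.S16.Reduction

open Fermat.Agent.S16.Interfaces

section General

variable {R T : Type*} [CommRing R] [CommRing T] (φ : R →+* T) (e : R →+* ℤ)

/-- The ideal of `ℤ` of values under `e` of the kernel of `φ`. -/
def relIdeal : Ideal ℤ where
  carrier := {k | ∃ P : R, φ P = 0 ∧ e P = k}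
  zero_mem' := ⟨0, map_zero _, map_zero _⟩
  add_mem' := by
    rintro a b ⟨P, hP, rfl⟩ ⟨Q, hQ, rfl⟩
    exact ⟨P + Q, by rw [map_add, hP, hQ, add_zero], map_add _ _ _⟩
  smul_mem' := by
    rintro c a ⟨P, hP, rfl⟩
    refine ⟨(c : R) * P, by rw [map_mul, hP, mul_zero], ?_⟩
    rw [map_mul, map_intCast, smul_eq_mul, Int.cast_id]

theorem mem_relIdeal_iff (k : ℤ) : k ∈ relIdeal φ e ↔ ∃ P : R, φ P = 0 ∧ e P = k :=
  Iff.rfl

/-- The canonical map `ℤ → T / φ(ker e) T`. -/
noncomputable def intToQuot : ℤ →+* (T ⧸ Ideal.map φ (RingHom.ker e)) :=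
  Int.castRingHom _

theorem intToQuot_apply (k : ℤ) :
    intToQuot φ e k = Ideal.Quotient.mk (Ideal.map φ (RingHom.ker e)) (φ (k : R)) := by
  rw [intToQuot, eq_intCast, map_intCast, map_intCast]

theorem intToQuot_surjective (hφ : Function.Surjective φ) :
    Function.Surjective (intToQuot φ e) := by
  intro x
  obtain ⟨t, rfl⟩ := Ideal.Quotient.mk_surjective x
  obtain ⟨P, rfl⟩ := hφ t
  refine ⟨e P, ?_⟩
  rw [intToQuot_apply, Ideal.Quotient.eq, ← map_sub]
  apply Ideal.mem_map_of_mem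
  rw [RingHom.mem_ker, map_sub, map_intCast, Int.cast_id, sub_self]

theorem ker_intToQuot (hφ : Function.Surjective φ) :
    RingHom.ker (intToQuot φ e) = relIdeal φ e := by
  ext k
  rw [RingHom.mem_ker, mem_relIdeal_iff, intToQuot_apply, Ideal.Quotient.eq_zero_iff_mem,
    Ideal.mem_map_iff_of_surjective _ hφ]
  constructor
  · rintro ⟨Q, hQ, hQk⟩
    refine ⟨(k : R) - Q, by rw [map_sub, hQk, sub_self], ?_⟩
    rw [map_sub, map_intCast, Int.cast_id, RingHom.mem_ker.1 hQ, sub_zero]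
  · rintro ⟨P, hP, hPk⟩
    refine ⟨(k : R) - P, ?_, by rw [map_sub, hP, sub_zero]⟩
    rw [RingHom.mem_ker, map_sub, map_intCast, Int.cast_id, hPk, sub_self]

/-- `T / φ(ker e) T ≃ ℤ / relIdeal`. -/
noncomputable def quotEquiv (hφ : Function.Surjective φ) :
    (ℤ ⧸ relIdeal φ e) ≃+* (T ⧸ Ideal.map φ (RingHom.ker e)) :=
  (Ideal.quotEquivOfEq (ker_intToQuot φ e hφ).symm).trans
    (RingHom.quotientKerEquivOfSurjective (intToQuot_surjective φ e hφ))

theorem natCard_eq_of_relIdeal_eq (hφ : Function.Surjective φ) {n : ℕ}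
    (h : relIdeal φ e = Ideal.span {(n : ℤ)}) :
    Nat.card (T ⧸ Ideal.map φ (RingHom.ker e)) = n := by
  rw [← Nat.card_congr (quotEquiv φ e hφ).toEquiv, h,
    Nat.card_congr (Int.quotientSpanNatEquivZMod n).toEquiv, Nat.card_zmod]

/-- abstract form of the reduction -/
theorem natCard_eq_of_dvd (hφ : Function.Surjective φ) {n : ℕ}
    (hup : ∀ m : ℕ, (∀ P : R, φ P = 0 → (m : ℤ) ∣ e P) → m ∣ n)
    (hlow : ∀ P : R, φ P = 0 → (n : ℤ) ∣ e P) :
    Nat.card (T ⧸ Ideal.map φ (RingHom.ker e)) = n := by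
  refine natCard_eq_of_relIdeal_eq φ e hφ ?_
  obtain ⟨m, hm⟩ : ∃ m : ℕ, relIdeal φ e = Ideal.span {(m : ℤ)} := by
    obtain ⟨g, hg⟩ := (IsPrincipalIdealRing.principal (relIdeal φ e)).principal
    refine ⟨g.natAbs, ?_⟩
    rw [hg, Int.span_natAbs]
  have hmn : m ∣ n := by
    apply hup m
    intro P hP
    have : e P ∈ relIdeal φ e := ⟨P, hP, rfl⟩
    rw [hm, Ideal.mem_span_singleton] at this
    exact this
  have hnm : n ∣ m := by
    have hmem : (m : ℤ) ∈ relIdeal φ e := by rw [hm]; exact Ideal.mem_span_singleton_self _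
    obtain ⟨P, hP, hPm⟩ := hmem
    have := hlow P hP
    rw [hPm] at this
    exact_mod_cast this
  rw [hm, Nat.dvd_antisymm hmn hnm]

end General

variable (p : ℕ) [NeZero p]

theorem heckeEvalForms_surjective : Function.Surjective (heckeEvalForms p 2) := by
  have key : ∀ t ∈ Algebra.adjoin ℤ (heckeGenerators p 2 ∅),
      ∃ a, ((heckeEvalForms p 2 a : heckeAlgebra p 2 ∅) :
        Module.End ℂ (CuspForm (CongruenceSubgroup.Gamma0 p) 2)) = t := by
    intro t ht
    induction ht using Algebra.adjoin_induction with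
    | mem x hx =>
      rcases hx with ⟨ℓ, hℓ, hℓN, hℓS, rfl⟩ | ⟨q, hqN, hq, hqS, rfl⟩
      · refine ⟨heckeGen ⟨ℓ, hℓ⟩, ?_⟩
        rw [heckeEvalForms_heckeGen_of_not_dvd (N := p) (k := 2) (ℓ := ⟨ℓ, hℓ⟩) hℓN]
        rfl
      · refine ⟨heckeGen ⟨q, hq⟩, ?_⟩
        rw [heckeEvalForms_heckeGen_of_dvd (N := p) (k := 2) (q := ⟨q, hq⟩) hqN]
        rfl
    | algebraMap r =>
      exact ⟨MvPolynomial.C r, by rw [heckeEvalForms_C]; rfl⟩
    | add x y hx hy ihx ihy =>
      obtain ⟨a, ha⟩ := ihx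
      obtain ⟨b, hb⟩ := ihy
      exact ⟨a + b, by rw [map_add, ← ha, ← hb]; rfl⟩
    | mul x y hx hy ihx ihy =>
      obtain ⟨a, ha⟩ := ihx
      obtain ⟨b, hb⟩ := ihy
      exact ⟨a * b, by rw [map_mul, ← ha, ← hb]; rfl⟩
  intro t
  obtain ⟨a, ha⟩ := key t.1 t.2
  exact ⟨a, Subtype.ext ha⟩

theorem phi_surjective : Function.Surjective (phi p) := by
  intro t
  obtain ⟨s, rfl⟩ := latticeRestrictHom_surjective p ∅ t
  obtain ⟨P, rfl⟩ := heckeEvalForms_surjective p s
  exact ⟨P, rfl⟩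

omit [NeZero p] in
theorem ker_ev : RingHom.ker (ev p) = eisensteinIdeal p := rfl

/-- **Reduction**: S16 follows from the three congruence statements. -/
theorem index_of_blocks (hD : DualityStatement) (hE : EigenCongruenceStatement)
    (hC : CongruenceIffStatement) (p : ℕ) [Fact p.Prime] :
    Nat.card (↥(heckeLatticeAlgebra p ∅) ⧸
        Ideal.map ((latticeRestrictHom p ∅).toRingHom.comp (heckeEvalForms p 2))
          (eisensteinIdeal p)) =
      eisensteinNumerator p := by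
  have : NeZero p := ⟨(Fact.out : p.Prime).ne_zero⟩
  have h := natCard_eq_of_dvd (phi p) (ev p) (phi_surjective p) (n := eisensteinNumerator p)
    (fun m hm => (hC p m).1 (hD p m hm))
    (hE p (eisensteinNumerator p) ((hC p (eisensteinNumerator p)).2 dvd_rfl))
  rw [ker_ev] at h
  exact h

end Fermat.Agent.S16.Reduction
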