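import Fermat.Agent.S16.Reduction
import Fermat.Agent.S16.Interfaces2

/-!
# S16: top-level assembly from the second-layer interfaces
-/

set_option autoImplicit false

open ModularCurve CuspForm

namespace Fermat.Agent.S16.Reduction

open Fermat.Agent.S16.Interfaces

/-- The frozen S16 from an upper and a lower divisibility statement on Hecke relations. -/
theorem index_of_up_low (p : ℕ) [Fact p.Prime] [NeZero p]
    (hup : ∀ m : ℕ, (∀ P : HeckeAlg, phi p P = 0 → (m : ℤ) ∣ ev p P) → m ∣ eisensteinNumerator p)
    (hlow : ∀ P : HeckeAlg, phi p P = 0 → (eisensteinNumerator p : ℤ) ∣ ev p P) :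
    Nat.card (↥(heckeLatticeAlgebra p ∅) ⧸
        Ideal.map ((latticeRestrictHom p ∅).toRingHom.comp (heckeEvalForms p 2))
          (eisensteinIdeal p)) =
      eisensteinNumerator p := by
  have h := natCard_eq_of_dvd (phi p) (ev p) (phi_surjective p) (n := eisensteinNumerator p)
    hup hlow
  rw [ker_ev] at h
  exact h

/-- **Final assembly** of S16 from: small primes, duality, the congruence bound and the lower bound. -/
theorem index_of_blocks2 (hSmall : SmallStatement) (hD : DualityStatement)
    (hB : CongruenceBoundStatement) (hL : LowerStatement) (p : ℕ) [Fact p.Prime] :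
    Nat.card (↥(heckeLatticeAlgebra p ∅) ⧸
        Ideal.map ((latticeRestrictHom p ∅).toRingHom.comp (heckeEvalForms p 2))
          (eisensteinIdeal p)) =
      eisensteinNumerator p := by
  have : NeZero p := ⟨(Fact.out : p.Prime).ne_zero⟩
  by_cases h5 : p < 5
  · exact hSmall p h5
  · have h5' : 5 ≤ p := not_lt.1 h5
    refine index_of_up_low p ?_ (hL p h5')
    intro m hm
    obtain ⟨f, hf⟩ := hD p m hm
    exact hB p h5' m f hf

/-- The lower bound from an Eisenstein-congruent cusp form modulo `n` (theta line). -/
theorem lower_of_congruent (hE : EigenCongruenceStatement)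
    (hf : ∀ (p : ℕ) [Fact p.Prime] (_ : 5 ≤ p),
      ∃ f : CuspForm (CongruenceSubgroup.Gamma0 p) 2, IsEisCongruent p (eisensteinNumerator p) f) :
    LowerStatement := by
  intro p _ _ h5 P hP
  exact hE p (eisensteinNumerator p) (hf p h5) P hP

end Fermat.Agent.S16.Reduction
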