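import Fermat.Agent.S16.SerreCoreOps

/-!
# S16, Serre-derivative closure of the `ℓ = 2, 3` gaps: the characteristic `ℓ` computations

Everything is generic in a commutative ring `K` with `(ℓ : K) = 0` and in two power series
`S D : K⟦X⟧` (reductions of `∑ σ(n) qⁿ` and of `Δ`).  Mathlib only.
-/

set_option autoImplicit false

namespace Fermat.Agent.S16.SerreCoreChar

open PowerSeries Fermat.Agent.S16.SerreCoreOps

section Formulas

variable {A B : Type*} [CommRing A] [CommRing B]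

/-- The weight-8 series for `ℓ = 3`: `D G₆ - c₂ E₂ G₆` with `G₆ = g³ - g E²` and `D = d θ`
(`c₂ = 1/2`, `d = 1` at `∞`, `d = 1/p` at the other cusp). -/
noncomputable def H8three (d c2 : A) (g E E2 : A⟦X⟧) : A⟦X⟧ :=
  C d * theta (g ^ 3 - g * E ^ 2) - C c2 * E2 * (g ^ 3 - g * E ^ 2)

theorem H8three_map (φ : A →+* B) (d c2 : A) (g E E2 : A⟦X⟧) :
    (H8three d c2 g E E2).map φ = H8three (φ d) (φ c2) (g.map φ) (E.map φ) (E2.map φ) := by
  simp only [H8three, map_sub, map_mul, map_pow, theta_map, map_C]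

/-- `G₄ = g² + g E` (`ℓ = 2`). -/
noncomputable def G4two (g E : A⟦X⟧) : A⟦X⟧ := g ^ 2 + g * E

theorem G4two_map (φ : A →+* B) (g E : A⟦X⟧) :
    (G4two g E).map φ = G4two (g.map φ) (E.map φ) := by
  simp only [G4two, map_add, map_mul, map_pow]

/-- `∂G = D G - c₃ E₂ G` (`c₃ = 1/3`, weight 4 Serre derivative with `D = d θ`). -/
noncomputable def serre4 (d c3 : A) (G E2 : A⟦X⟧) : A⟦X⟧ :=
  C d * theta G - C c3 * E2 * G

theorem serre4_map (φ : A →+* B) (d c3 : A) (G E2 : A⟦X⟧) :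
    (serre4 d c3 G E2).map φ = serre4 (φ d) (φ c3) (G.map φ) (E2.map φ) := by
  simp only [serre4, map_sub, map_mul, theta_map, map_C]

/-- `F₈ = 2 D(∂G) - E₂ ∂G - c₃ E ∂G - 4 c₃² E₄ G`  (`= 2 ∂²G - (1/3) E ∂G - (4/9) E₄ G`). -/
noncomputable def F8two (d c3 : A) (G E2 E4 E : A⟦X⟧) : A⟦X⟧ :=
  2 * (C d * theta (serre4 d c3 G E2)) - E2 * serre4 d c3 G E2 - C c3 * E * serre4 d c3 G E2
    - 4 * C c3 ^ 2 * E4 * G

theorem F8two_map (φ : A →+* B) (d c3 : A) (G E2 E4 E : A⟦X⟧) :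
    (F8two d c3 G E2 E4 E).map φ =
      F8two (φ d) (φ c3) (G.map φ) (E2.map φ) (E4.map φ) (E.map φ) := by
  simp only [F8two, map_sub, map_mul, map_pow, theta_map, map_C, serre4_map, map_ofNat]

end Formulas

section Char

variable {K : Type*} [CommRing K]

theorem natCast_series_eq_zero {n : ℕ} (h : (n : K) = 0) : (n : K⟦X⟧) = 0 := by
  rw [← map_natCast (C (R := K)), h, map_zero]

/-- `ℓ = 3`, `p ≡ 2 mod 3`: the weight-8 series reduces to `Δ` at `∞` (`d = 1`) and to `Δ(t^p)` at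
the other cusp (`d = 1/p = -1`). -/
theorem core3 (p : ℕ) (hp : p ≠ 0) (h3 : (3 : K) = 0) (hpK : (p : K) = -1)
    (S D : K⟦X⟧) (hS : S ^ 3 - S = -D) (hD : theta D = D)
    (g E E2 : K⟦X⟧) (c2 d : K) (hc2 : 2 * c2 = 1)
    (hg : g = S + expand p hp S) (hE : E = 1) (hE2 : E2 = 1) :
    (d = 1 → H8three d c2 g E E2 = D) ∧ (d = -1 → H8three d c2 g E E2 = expand p hp D) := by
  have h3' : (3 : K⟦X⟧) = 0 := by
    have := natCast_series_eq_zero (K := K) (n := 3) (by exact_mod_cast h3)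
    exact_mod_cast this
  have hVS : (expand p hp S) ^ 3 - expand p hp S = -expand p hp D := by
    rw [← map_pow, ← map_sub, hS, map_neg]
  have hG : g ^ 3 - g * E ^ 2 = -(D + expand p hp D) := by
    rw [hg, hE]
    linear_combination hS + hVS + (S * expand p hp S * (S + expand p hp S)) * h3'
  have hc2' : c2 = -1 := by linear_combination c2 * h3 - hc2
  have hθ : theta (-(D + expand p hp D)) = -D + expand p hp D := by
    rw [theta_neg, theta_add, theta_expand, hD, hpK, map_neg, map_one]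
    ring
  constructor
  · intro hd
    rw [H8three, hG, hθ, hE2, hd, hc2', map_neg, map_one]
    linear_combination (-D) * h3'
  · intro hd
    rw [H8three, hG, hθ, hE2, hd, hc2', map_neg, map_one]
    linear_combination (-expand p hp D) * h3'

theorem natCast_eq_one_of_odd {n : ℕ} (h2 : (2 : K) = 0) (hn : Odd n) : (n : K) = 1 := by
  obtain ⟨m, rfl⟩ := hn
  push_cast
  linear_combination (m : K) * h2

/-- `ℓ = 2`, `p` odd: `G₄ ≡ Δ + V_p Δ`, `∂G₄ ≡ 0`. -/
theorem core2_G (p : ℕ) (hp : p ≠ 0) (h2 : (2 : K) = 0) (hpK : (p : K) = 1)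
    (S D : K⟦X⟧) (hS : S ^ 2 + S = D) (hD : theta D = D)
    (g E E2 : K⟦X⟧) (c3 d : K) (hc3 : 3 * c3 = 1) (hd : d = 1)
    (hg : g = S + expand p hp S) (hE : E = 1) (hE2 : E2 = 1) :
    G4two g E = D + expand p hp D ∧ serre4 d c3 (G4two g E) E2 = 0 := by
  have h2' : (2 : K⟦X⟧) = 0 := by
    have := natCast_series_eq_zero (K := K) (n := 2) (by exact_mod_cast h2)
    exact_mod_cast this
  have hVS : (expand p hp S) ^ 2 + expand p hp S = expand p hp D := by
    rw [← map_pow, ← map_add, hS]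
  have hG : G4two g E = D + expand p hp D := by
    rw [G4two, hg, hE]
    linear_combination hS + hVS + (S * expand p hp S) * h2'
  refine ⟨hG, ?_⟩
  have hc3' : c3 = 1 := by linear_combination hc3 - c3 * h2
  rw [serre4, hG, theta_add, theta_expand, hD, hpK, hE2, hd, hc3', map_one]
  ring

/-- `ℓ = 2`, `p ≡ 3 mod 4`: the second-order operators on `Δ + V_p Δ`. -/
theorem core2_W (p : ℕ) (hp : p ≠ 0) (hp4 : p % 4 = 3) (h2 : (2 : K) = 0)
    (D : K⟦X⟧) (hD : theta D = D) (hD2 : D2 D = 0) :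
    D2 (D + expand p hp D) = expand p hp D ∧
      D2 (D + expand p hp D) - C (((p - 1) / 2 : ℕ) : K) * theta (D + expand p hp D) = D := by
  have h2' : (2 : K⟦X⟧) = 0 := by
    have := natCast_series_eq_zero (K := K) (n := 2) (by exact_mod_cast h2)
    exact_mod_cast this
  have hpodd : Odd p := by
    rw [Nat.odd_iff]; omega
  have hpK : (p : K) = 1 := natCast_eq_one_of_odd h2 hpodd
  have hm : Odd ((p - 1) / 2) := by
    rw [Nat.odd_iff]; omega
  have hmK : (((p - 1) / 2 : ℕ) : K) = 1 := natCast_eq_one_of_odd h2 hm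
  have hc : Odd (p.choose 2) := by
    rw [Nat.choose_two_right]
    obtain ⟨j, hj⟩ : ∃ j, p = 4 * j + 3 := ⟨p / 4, by omega⟩
    subst hj
    have : (4 * j + 3) * (4 * j + 3 - 1) / 2 = (4 * j + 3) * (2 * j + 1) := by
      have : (4 * j + 3) * (4 * j + 3 - 1) = 2 * ((4 * j + 3) * (2 * j + 1)) := by
        have : 4 * j + 3 - 1 = 2 * (2 * j + 1) := by omega
        rw [this]; ring
      rw [this, Nat.mul_div_cancel_left _ (by norm_num : 0 < 2)]
    rw [this]
    exact (by rw [Nat.odd_iff]; omega : Odd (4 * j + 3)).mul (by rw [Nat.odd_iff]; omega)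
  have hcK : ((p.choose 2 : ℕ) : K) = 1 := natCast_eq_one_of_odd h2 hc
  have h1 : D2 (D + expand p hp D) = expand p hp D := by
    rw [D2_add, D2_expand, hD2, hD, hcK, map_zero, mul_zero, zero_add, zero_add, map_one, one_mul]
  refine ⟨h1, ?_⟩
  rw [h1, hmK, theta_add, theta_expand, hD, hpK, map_one]
  linear_combination (-D) * h2'

end Char

section Mod8

variable {R : Type*} [CommRing R]

/-- The exact identity behind the mod 8 step (pure commutative algebra). -/
theorem mod8_identity {𝔄 : Type*} [CommRing 𝔄] (G DG DDG E2 DE2 E4 E s s3 ε Z c3 : 𝔄)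
    (hc3 : 3 * c3 = 1) (hE2 : E2 = 1 - 24 * s) (hE4 : E4 = 1 + 240 * s3) (hE : E = 1 + 4 * ε)
    (hR : 12 * DE2 = E2 ^ 2 - E4) (hZ : DG - c3 * E2 * G = 2 * Z) :
    4 * DDG - 4 * DG -
        2 * (2 * (DDG - c3 * (DE2 * G + E2 * DG)) - E2 * (DG - c3 * E2 * G)
          - c3 * E * (DG - c3 * E2 * G) - 4 * c3 ^ 2 * E4 * G) =
      16 * ((-10 * s + c3 * ε) * Z + (c3 * s + 20 * s ^ 2 + 35 * c3 * s3) * G) := by
  subst hE2 hE4 hE
  linear_combination (G * c3 ^ 2) * hR + (-96 * s * c3 - 48 * s + 8 * ε * c3 + 6 * c3 - 2) * hZ +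
    (-4 * G * DE2 * c3 + 960 * G * s ^ 2 * c3 + 320 * G * s ^ 2 - 80 * G * s * c3
      + 560 * G * s3 * c3 + 4 * G * c3 - 64 * s * Z + 4 * Z) * hc3

/-- The mod 8 step: `F₈ = 4 (W - 2Y)` where `2W = D²G - DG`. -/
theorem F8two_eq_four_mul [IsDomain R] [CharZero R] (d c3 : R) (hc3 : 3 * c3 = 1)
    (G E2 E4 E s s3 ε Z W : R⟦X⟧)
    (hE2 : E2 = 1 - 24 * s) (hE4 : E4 = 1 + 240 * s3) (hE : E = 1 + 4 * ε)
    (hRam : 12 * (C d * theta E2) = E2 ^ 2 - E4)
    (hZ : serre4 d c3 G E2 = 2 * Z)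
    (hW : C d * theta (C d * theta G) - C d * theta G = 2 * W) :
    F8two d c3 G E2 E4 E =
      4 * (W - 2 * ((-10 * s + C c3 * ε) * Z + (C c3 * s + 20 * s ^ 2 + 35 * C c3 * s3) * G)) := by
  have hc3' : 3 * (C c3 : R⟦X⟧) = 1 := by
    rw [← map_ofNat (C (R := R)) 3, ← map_mul, hc3, map_one]
  have hW' : C d * (C d * theta (theta G)) - C d * theta G = 2 * W := by
    rw [← theta_C_mul]; exact hW
  have hZ' : C d * theta G - C c3 * E2 * G = 2 * Z := hZ
  have key := mod8_identity G (C d * theta G) (C d * (C d * theta (theta G))) E2 (C d * theta E2)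
    E4 E s s3 ε Z (C c3) hc3' hE2 hE4 hE hRam hZ'
  have e1 : theta (serre4 d c3 G E2) =
      C d * theta (theta G) - C c3 * (theta E2 * G + E2 * theta G) := by
    rw [serre4, theta_sub, theta_C_mul, mul_assoc (C c3), theta_C_mul, theta_mul]
  have hF : F8two d c3 G E2 E4 E =
      2 * (C d * (C d * theta (theta G)) - C c3 * (C d * theta E2 * G + E2 * (C d * theta G)))
        - E2 * (C d * theta G - C c3 * E2 * G)
        - C c3 * E * (C d * theta G - C c3 * E2 * G) - 4 * C c3 ^ 2 * E4 * G := by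
    rw [F8two, e1, serre4]
    ring
  have h2 : (2 : R⟦X⟧) ≠ 0 := by
    intro h
    have := congrArg (constantCoeff (R := R)) h
    rw [map_ofNat, map_zero] at this
    exact two_ne_zero this
  apply mul_left_cancel₀ h2
  rw [hF]
  linear_combination (-1 : R⟦X⟧) * key + 4 * hW'

end Mod8

end Fermat.Agent.S16.SerreCoreChar
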