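import Mathlib

/-!
# S16, the `l = p` case of the upper bound: arithmetic input

* `ZpQ p : Subring ℚ`, the `p`-integral rationals, `ZpC p : Subring ℂ` its image in `ℂ`;
* `eisCoeff_mem`: for a prime `p ≥ 5` the coefficient `-(2k / B_k)`, `k = p - 1`, of the normalised
  Eisenstein series `E_{p-1}` is `p` times a `p`-integral rational (von Staudt–Clausen), so that
  `E_{p-1} ≡ 1 mod p`.
-/

set_option autoImplicit false

namespace Fermat.Agent.S16.SerreTracePArith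

variable (p : ℕ) [hp : Fact p.Prime]

/-- the `p`-integral rational numbers. -/
def ZpQ : Subring ℚ where
  carrier := {r | ¬ p ∣ r.den}
  zero_mem' := by
    show ¬ p ∣ (0 : ℚ).den
    rw [Rat.den_zero]; exact hp.out.one_lt.ne' ∘ Nat.dvd_one.mp
  one_mem' := by
    show ¬ p ∣ (1 : ℚ).den
    rw [Rat.den_one]; exact hp.out.one_lt.ne' ∘ Nat.dvd_one.mp
  add_mem' := by
    intro a b ha hb h
    have h1 : p ∣ a.den * b.den := h.trans (Rat.add_den_dvd a b)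
    rcases (Nat.Prime.dvd_mul hp.out).mp h1 with h2 | h2
    · exact ha h2
    · exact hb h2
  mul_mem' := by
    intro a b ha hb h
    have h1 : p ∣ a.den * b.den := h.trans (Rat.mul_den_dvd a b)
    rcases (Nat.Prime.dvd_mul hp.out).mp h1 with h2 | h2
    · exact ha h2
    · exact hb h2
  neg_mem' := by
    intro a ha
    show ¬ p ∣ (-a).den
    rwa [Rat.den_neg_eq_den]

theorem mem_ZpQ {r : ℚ} : r ∈ ZpQ p ↔ ¬ p ∣ r.den := Iff.rfl

/-- the `p`-integral rational numbers inside `ℂ`. -/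
noncomputable def ZpC : Subring ℂ := (ZpQ p).map (algebraMap ℚ ℂ)

theorem mem_ZpC {x : ℂ} : x ∈ ZpC p ↔ ∃ r : ℚ, ¬ p ∣ r.den ∧ (r : ℂ) = x := by
  unfold ZpC
  rw [Subring.mem_map]
  constructor
  · rintro ⟨r, hr, rfl⟩
    exact ⟨r, hr, rfl⟩
  · rintro ⟨r, hr, rfl⟩
    exact ⟨r, hr, rfl⟩

theorem ratCast_mem_ZpC {r : ℚ} (hr : r ∈ ZpQ p) : (r : ℂ) ∈ ZpC p :=
  (mem_ZpC p).mpr ⟨r, hr, rfl⟩

theorem intCast_mem_ZpQ (n : ℤ) : (n : ℚ) ∈ ZpQ p := intCast_mem _ n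

theorem natCast_mem_ZpQ (n : ℕ) : (n : ℚ) ∈ ZpQ p := natCast_mem _ n

/-- `1 / p` is not `p`-integral. -/
theorem inv_p_not_mem : ((p : ℚ)⁻¹) ∉ ZpQ p := by
  intro h
  have hp0 : 0 < p := hp.out.pos
  have hden : ((p : ℚ)⁻¹).den = p := Rat.inv_natCast_den_of_pos hp0
  rw [mem_ZpQ, hden] at h
  exact h dvd_rfl

/-- `1 / q` is `p`-integral for a prime `q ≠ p`. -/
theorem inv_prime_mem {q : ℕ} (hq : q.Prime) (hqp : q ≠ p) : ((1 : ℚ) / q) ∈ ZpQ p := by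
  have hden : ((1 : ℚ) / q).den = q := by
    rw [one_div]; exact Rat.inv_natCast_den_of_pos hq.pos
  rw [mem_ZpQ, hden]
  intro h
  exact hqp ((Nat.prime_dvd_prime_iff_eq hp.out hq).mp h).symm

/-- a `p`-integral rational whose numerator is prime to `p` has a `p`-integral inverse. -/
theorem inv_mem_of_not_dvd_num {t : ℚ} (ht : ¬ (p : ℤ) ∣ t.num) : t⁻¹ ∈ ZpQ p := by
  have h0 : t ≠ 0 := by
    rintro rfl
    exact ht (by simp)
  rw [mem_ZpQ, Rat.den_inv_of_ne_zero h0]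
  intro h
  exact ht (Int.natCast_dvd.mpr h)

/-- if the numerator of a `p`-integral `t` is divisible by `p` then `t = p s`, `s` `p`-integral. -/
theorem exists_eq_p_mul_of_dvd_num {t : ℚ} (ht : t ∈ ZpQ p) (h : (p : ℤ) ∣ t.num) :
    ∃ s ∈ ZpQ p, t = p * s := by
  obtain ⟨c, hc⟩ := h
  refine ⟨(c : ℚ) * (t.den : ℚ)⁻¹, ?_, ?_⟩
  · apply Subring.mul_mem _ (intCast_mem_ZpQ p c)
    have h1 : ((t.den : ℚ)⁻¹) = ((t.den : ℤ) : ℚ)⁻¹ := by simp
    rw [h1]
    apply inv_mem_of_not_dvd_num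
    rw [Rat.num_intCast]
    intro h2
    exact ht (Int.natCast_dvd_natCast.mp h2)
  · have hd : (t.den : ℚ) ≠ 0 := by exact_mod_cast t.den_nz
    have h1 : t = (t.num : ℚ) / t.den := (Rat.num_div_den t).symm
    have h2 : (t.num : ℚ) = (p : ℚ) * c := by rw [hc]; push_cast; ring
    rw [← mul_assoc, ← h2, ← div_eq_mul_inv]
    exact h1

/-- **von Staudt–Clausen at `p - 1`**: `B_{p-1} = c - 1/p` with `c` `p`-integral. -/
theorem bernoulli_pred_eq (hp2 : p ≠ 2) :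
    ∃ c ∈ ZpQ p, bernoulli (p - 1) = c - (p : ℚ)⁻¹ := by
  classical
  have hpp : p.Prime := hp.out
  have hodd : Odd p := hpp.odd_of_ne_two hp2
  obtain ⟨m, hm⟩ := hodd
  have hk : p - 1 = 2 * m := by omega
  obtain ⟨N, hN⟩ := Bernoulli.vonStaudt_clausen m
  set s : Finset ℕ := (Finset.range (2 * m + 2)).filter fun q => q.Prime ∧ (q - 1) ∣ 2 * m with hs
  have hps : p ∈ s := by
    rw [hs, Finset.mem_filter, Finset.mem_range]
    refine ⟨by omega, hpp, ?_⟩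
    rw [← hk]
  have hsum : ∑ q ∈ s, (1 : ℚ) / q = (1 : ℚ) / p + ∑ q ∈ s.erase p, (1 : ℚ) / q :=
    (Finset.add_sum_erase s (fun q => (1 : ℚ) / q) hps).symm
  have hrest : ∑ q ∈ s.erase p, (1 : ℚ) / q ∈ ZpQ p := by
    apply Subring.sum_mem
    intro q hq
    rw [Finset.mem_erase] at hq
    have hq2 : q ∈ s := hq.2
    rw [hs, Finset.mem_filter] at hq2
    exact inv_prime_mem p hq2.2.1 hq.1
  refine ⟨(N : ℚ) - ∑ q ∈ s.erase p, (1 : ℚ) / q,
    Subring.sub_mem _ (intCast_mem_ZpQ p N) hrest, ?_⟩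
  rw [hk]
  have h1 : bernoulli (2 * m) = (N : ℚ) - ∑ q ∈ s, (1 : ℚ) / q := by
    rw [hN]; ring
  rw [h1, hsum]
  ring

/-- the coefficient `-(2k / B_k)`, `k = p - 1`, of `E_{p-1}` is `p` times a `p`-integral
rational. -/
theorem eisCoeff_rat (hp2 : p ≠ 2) :
    ∃ y ∈ ZpQ p, -(2 * ((p - 1 : ℕ) : ℚ) / bernoulli (p - 1)) = p * y := by
  obtain ⟨c, hc, hB⟩ := bernoulli_pred_eq p hp2
  have hp0 : (p : ℚ) ≠ 0 := by exact_mod_cast hp.out.ne_zero
  set t : ℚ := p * c - 1 with ht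
  have htmem : t ∈ ZpQ p :=
    Subring.sub_mem _ (Subring.mul_mem _ (natCast_mem_ZpQ p p) hc) (Subring.one_mem _)
  have htnum : ¬ (p : ℤ) ∣ t.num := by
    intro h
    obtain ⟨s, hs, hts⟩ := exists_eq_p_mul_of_dvd_num p htmem h
    have h1 : (p : ℚ)⁻¹ = c - s := by
      have : (p : ℚ) * (c - s) = 1 := by
        rw [mul_sub, ← hts, ht]; ring
      field_simp
      linarith
    exact inv_p_not_mem p (h1 ▸ Subring.sub_mem _ hc hs)
  have ht0 : t ≠ 0 := by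
    intro h0
    apply htnum
    rw [h0]; simp
  have hBt : bernoulli (p - 1) = t / p := by
    rw [hB, ht]; field_simp
  refine ⟨-(2 * ((p - 1 : ℕ) : ℚ)) * t⁻¹, ?_, ?_⟩
  · apply Subring.mul_mem _ _ (inv_mem_of_not_dvd_num p htnum)
    apply Subring.neg_mem
    exact Subring.mul_mem _ (natCast_mem_ZpQ p 2) (natCast_mem_ZpQ p (p - 1))
  · rw [hBt]
    field_simp

/-- the complex version of `eisCoeff_rat`, in the shape of Mathlib's `E_qExpansion_coeff`. -/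
theorem eisCoeff_mem (hp2 : p ≠ 2) :
    ∃ y ∈ ZpC p, -(2 * ((p - 1 : ℕ) : ℂ) / (bernoulli (p - 1) : ℂ)) = (p : ℂ) * y := by
  obtain ⟨y, hy, h⟩ := eisCoeff_rat p hp2
  refine ⟨(y : ℂ), ratCast_mem_ZpC p hy, ?_⟩
  have h2 := congrArg (fun r : ℚ => (r : ℂ)) h
  push_cast at h2
  exact h2

end Fermat.Agent.S16.SerreTracePArith
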