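import Mathlib

/-!
# S16, the `l = p` case of the upper bound: power series with coefficients in a subring of `ℂ`

For a subring `S ⊆ ℂ` and `c ∈ S`:
* `intSeries S : Subring ℂ⟦X⟧`, the power series with all coefficients in `S`;
* `ZeroMod S c f : f = c • f'` and `OneMod S c f : f = 1 + c • f'` with `f' ∈ intSeries S`,
  with the closure properties used in the Serre trace argument.
-/

set_option autoImplicit false

open PowerSeries

namespace Fermat.Agent.S16.SerreTracePSeries

variable (S : Subring ℂ)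

/-- the power series with coefficients in `S`. -/
noncomputable def intSeries : Subring (PowerSeries ℂ) := (PowerSeries.map S.subtype).range

theorem mem_intSeries {f : PowerSeries ℂ} : f ∈ intSeries S ↔ ∀ n, coeff n f ∈ S := by
  unfold intSeries
  rw [RingHom.mem_range]
  constructor
  · rintro ⟨g, rfl⟩ n
    rw [coeff_map]
    exact (coeff n g).2
  · intro h
    refine ⟨PowerSeries.mk fun n => ⟨coeff n f, h n⟩, ?_⟩
    ext n
    rw [coeff_map, coeff_mk]
    rfl

theorem C_mem_intSeries {c : ℂ} (hc : c ∈ S) : C c ∈ intSeries S := by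
  rw [mem_intSeries]
  intro n
  rw [coeff_C]
  split_ifs
  · exact hc
  · exact S.zero_mem

variable {S}

/-- `f = c f'` with `f'` integral. -/
def ZeroMod (S : Subring ℂ) (c : ℂ) (f : PowerSeries ℂ) : Prop :=
  ∃ f' ∈ intSeries S, f = C c * f'

/-- `f = 1 + c f'` with `f'` integral. -/
def OneMod (S : Subring ℂ) (c : ℂ) (f : PowerSeries ℂ) : Prop :=
  ∃ f' ∈ intSeries S, f = 1 + C c * f'

variable {c : ℂ} {f g : PowerSeries ℂ}

theorem ZeroMod.mem (hc : c ∈ S) (hf : ZeroMod S c f) : f ∈ intSeries S := by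
  obtain ⟨f', hf', rfl⟩ := hf
  exact Subring.mul_mem _ (C_mem_intSeries S hc) hf'

theorem OneMod.mem (hc : c ∈ S) (hf : OneMod S c f) : f ∈ intSeries S := by
  obtain ⟨f', hf', rfl⟩ := hf
  exact Subring.add_mem _ (Subring.one_mem _) (Subring.mul_mem _ (C_mem_intSeries S hc) hf')

theorem ZeroMod.mul_right (hf : ZeroMod S c f) (hg : g ∈ intSeries S) : ZeroMod S c (f * g) := by
  obtain ⟨f', hf', rfl⟩ := hf
  exact ⟨f' * g, Subring.mul_mem _ hf' hg, by ring⟩

theorem ZeroMod.mul_left (hf : ZeroMod S c f) (hg : g ∈ intSeries S) : ZeroMod S c (g * f) := by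
  rw [mul_comm]; exact hf.mul_right hg

theorem ZeroMod.add (hf : ZeroMod S c f) (hg : ZeroMod S c g) : ZeroMod S c (f + g) := by
  obtain ⟨f', hf', rfl⟩ := hf
  obtain ⟨g', hg', rfl⟩ := hg
  exact ⟨f' + g', Subring.add_mem _ hf' hg', by ring⟩

theorem ZeroMod.neg (hf : ZeroMod S c f) : ZeroMod S c (-f) := by
  obtain ⟨f', hf', rfl⟩ := hf
  exact ⟨-f', Subring.neg_mem _ hf', by ring⟩

theorem ZeroMod.sub (hf : ZeroMod S c f) (hg : ZeroMod S c g) : ZeroMod S c (f - g) := by
  rw [sub_eq_add_neg]; exact hf.add hg.neg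

theorem OneMod.sub (hf : OneMod S c f) (hg : OneMod S c g) : ZeroMod S c (f - g) := by
  obtain ⟨f', hf', rfl⟩ := hf
  obtain ⟨g', hg', rfl⟩ := hg
  exact ⟨f' - g', Subring.sub_mem _ hf' hg', by ring⟩

theorem OneMod.mul (hc : c ∈ S) (hf : OneMod S c f) (hg : OneMod S c g) : OneMod S c (f * g) := by
  obtain ⟨f', hf', rfl⟩ := hf
  obtain ⟨g', hg', rfl⟩ := hg
  refine ⟨f' + g' + C c * (f' * g'), ?_, by ring⟩
  exact Subring.add_mem _ (Subring.add_mem _ hf' hg')
    (Subring.mul_mem _ (C_mem_intSeries S hc) (Subring.mul_mem _ hf' hg'))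

theorem OneMod.sub_zeroMod (hf : OneMod S c f) (hg : ZeroMod S c g) : OneMod S c (f - g) := by
  obtain ⟨f', hf', rfl⟩ := hf
  obtain ⟨g', hg', rfl⟩ := hg
  exact ⟨f' - g', Subring.sub_mem _ hf' hg', by ring⟩

theorem zeroMod_of_coeff (h : ∀ n, ∃ y ∈ S, coeff n f = c * y) : ZeroMod S c f := by
  choose y hy hfy using h
  refine ⟨PowerSeries.mk y, (mem_intSeries S).mpr fun n => by rw [coeff_mk]; exact hy n, ?_⟩
  ext n
  rw [coeff_C_mul, coeff_mk, hfy]

theorem ZeroMod.exists_coeff (hf : ZeroMod S c f) (n : ℕ) : ∃ y ∈ S, coeff n f = c * y := by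
  obtain ⟨f', hf', rfl⟩ := hf
  exact ⟨_, (mem_intSeries S).mp hf' n, coeff_C_mul n f' c⟩

/-- passing to the subsequence of coefficients `n ↦ a (n * p)` (the operator `U_p`). -/
theorem ZeroMod.subseq (hf : ZeroMod S c f) (φ : ℕ → ℕ) :
    ZeroMod S c (PowerSeries.mk fun n => coeff (φ n) f) := by
  apply zeroMod_of_coeff
  intro n
  rw [coeff_mk]
  exact hf.exists_coeff (φ n)

end Fermat.Agent.S16.SerreTracePSeries
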