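import Mathlib
import Fermat.Agent.S28.ModPolyCoset
import Fermat.Agent.S24.LevelForms
import Fermat.Prelude.Def_ModularForm_HeckeOperatorForms
import Fermat.Prelude.Thm_ModularFormClass_qCoeff_heckeU
import Fermat.Prelude.Thm_CongruenceSubgroup_one_mem_strictPeriods_Gamma0
import Fermat.Agent.S16.SerreTracePArith
import Fermat.Agent.S16.SerreTracePSeries

/-!
# S16, upper bound, the case `l = p` (Serre's trace argument)

For a prime `p ≥ 5` there is no `F ∈ M₂(Γ₀(p))` whose `q`-expansion is `p`-integral and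
`≡ 1 mod p` (`false_of_oneMod`).

With `k = p - 1`, `E = E_{p-1}` (level one), `g = E - p^k E(p ·)`, `G = F g ∈ M_{p+1}(Γ₀(p))` and
`R = (U_p F)(E(p ·) - E)`, the trace of `G` to level one is `G - U_p R` (`trace_GForm`, from the
explicit coset representatives `1, S T^b` and the hypothesis `FrickeS p`:
`(F ∣[2] S)(z) = -p⁻¹ (U_p F)(z / p)`).  By von Staudt–Clausen `E ≡ 1 mod p`, so the trace is a
level-one form of weight `p + 1` with `p`-integral `q`-expansion `≡ 1 mod p`; the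
Swinnerton-Dyer / Serre weight theorem (`SwDAt`) gives `(p - 1) ∣ (p + 1)`, impossible for `p ≥ 5`.
-/

set_option autoImplicit false
set_option linter.unusedSectionVars false

open UpperHalfPlane ModularForm MatrixGroups CongruenceSubgroup SlashInvariantForm
open Fermat.Agent.S28.ModPolyCoset Fermat.Agent.S24 Fermat.Agent.S24.LevelForms

namespace Fermat.Agent.S16.SerreTraceP

section traceA
variable (p : ℕ) [Fact p.Prime]

theorem quotientFunc_cosetEquiv {k : ℤ} (G : ModularForm (GammaP p) k) (o : Option (Fin p)) :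
    quotientFunc G (cosetEquiv p o) = (⇑G : ℍ → ℂ) ∣[k] (repInv p o) := by
  show quotientFunc G (QuotientGroup.mk (toSL (repInv p o)⁻¹)) = _
  rw [quotientFunc_mk]
  have h1 : ((toSL (repInv p o)⁻¹ : 𝒮ℒ) : GL (Fin 2) ℝ)⁻¹
      = Matrix.SpecialLinearGroup.mapGL ℝ (repInv p o) := by
    have : ((toSL (repInv p o)⁻¹ : 𝒮ℒ) : GL (Fin 2) ℝ)
        = Matrix.SpecialLinearGroup.mapGL ℝ (repInv p o)⁻¹ := rfl
    rw [this, map_inv, inv_inv]
  rw [h1]
  rfl

theorem coe_trace_eq {k : ℤ} (G : ModularForm (GammaP p) k) :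
    (⇑(ModularForm.trace 𝒮ℒ G) : ℍ → ℂ) = ⇑G + ∑ b ∈ Finset.range p,
      (⇑G : ℍ → ℂ) ∣[k] (ModularGroup.S * ModularGroup.T ^ ((b : ℕ) : ℤ)) := by
  classical
  rw [ModularForm.coe_trace]
  let : Fintype (Quo p) := Fintype.ofFinite _
  have h2 : (∑ q : Quo p, quotientFunc G q) = ∑ o : Option (Fin p), quotientFunc G (cosetEquiv p o) :=
    (Fintype.sum_equiv (cosetEquiv p) _ _ (fun _ => rfl)).symm
  rw [h2, Fintype.sum_option]
  congr 1
  · rw [quotientFunc_cosetEquiv]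
    show (⇑G : ℍ → ℂ) ∣[k] (1 : SL(2, ℤ)) = _
    exact SlashAction.slash_one _ _
  · rw [← Fin.sum_univ_eq_sum_range (fun b => (⇑G : ℍ → ℂ) ∣[k] (ModularGroup.S * ModularGroup.T ^ ((b : ℕ) : ℤ))) p]
    refine Finset.sum_congr rfl fun b _ => ?_
    rw [quotientFunc_cosetEquiv]
    rfl


end traceA

theorem denom_SL (γ : SL(2, ℤ)) (z : ℍ) :
    denom (γ : GL (Fin 2) ℝ) z = ((γ 1 0 : ℤ) : ℂ) * z + ((γ 1 1 : ℤ) : ℂ) := by
  simp [denom]

theorem denom_T_zpow (n : ℤ) (z : ℍ) : denom (ModularGroup.T ^ n : SL(2, ℤ)) z = 1 := by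
  rw [denom_SL]
  have h := ModularGroup.coe_T_zpow n
  have h10 : (ModularGroup.T ^ n : SL(2, ℤ)) 1 0 = 0 := by
    show ((ModularGroup.T ^ n : SL(2, ℤ)) : Matrix (Fin 2) (Fin 2) ℤ) 1 0 = 0
    rw [h]; rfl
  have h11 : (ModularGroup.T ^ n : SL(2, ℤ)) 1 1 = 1 := by
    show ((ModularGroup.T ^ n : SL(2, ℤ)) : Matrix (Fin 2) (Fin 2) ℤ) 1 1 = 1
    rw [h]; rfl
  rw [h10, h11]
  simp

theorem slash_S_mul_T_apply (f : ℍ → ℂ) (k : ℤ) (n : ℤ) (z : ℍ) :
    (f ∣[k] (ModularGroup.S * ModularGroup.T ^ n)) z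
      = (f ∣[k] ModularGroup.S) (ModularGroup.T ^ n • z) := by
  rw [SlashAction.slash_mul, SL_slash_apply (γ := ModularGroup.T ^ n), denom_T_zpow, one_zpow,
    mul_one]

theorem slash_S_apply (f : ℍ → ℂ) (k : ℤ) (z : ℍ) :
    (f ∣[k] ModularGroup.S) z = f (ModularGroup.S • z) * (z : ℂ) ^ (-k) := by
  rw [SL_slash_apply, ModularGroup.denom_S]

theorem coe_S_smul (w : ℍ) : ((ModularGroup.S • w : ℍ) : ℂ) = (-(w : ℂ))⁻¹ := by
  rw [UpperHalfPlane.modular_S_smul]

section slashB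
variable (p : ℕ) [Fact p.Prime]

/-- `heckeMatrix p 0 • (T^b • z) = heckeMatrix p b • z`. -/
theorem heckeMatrix_zero_smul_T (b : ℕ) (z : ℍ) :
    heckeMatrix p 0 • (ModularGroup.T ^ ((b : ℕ) : ℤ) • z) = heckeMatrix p b • z := by
  have hp : p ≠ 0 := (Fact.out : p.Prime).ne_zero
  apply UpperHalfPlane.ext
  rw [coe_heckeMatrix_smul hp, coe_heckeMatrix_smul hp, ModularGroup.coe_T_zpow_smul_eq]
  simp

/-- `p (S z) = S (z / p)`. -/
theorem scaleH_S_smul (z : ℍ) :
    scaleH p (ModularGroup.S • z) = ModularGroup.S • (heckeMatrix p 0 • z) := by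
  have hp : p ≠ 0 := (Fact.out : p.Prime).ne_zero
  have hp0 : (p : ℂ) ≠ 0 := by exact_mod_cast hp
  apply UpperHalfPlane.ext
  rw [coe_scaleH (Nat.pos_of_ne_zero hp), coe_S_smul, coe_S_smul, coe_heckeMatrix_smul hp]
  have hz : (z : ℂ) ≠ 0 := ne_zero z
  simp only [Nat.cast_zero, add_zero]
  field_simp

/-- `p (z / p) = z`. -/
theorem scaleH_heckeMatrix_zero (z : ℍ) : scaleH p (heckeMatrix p 0 • z) = z := by
  have hp : p ≠ 0 := (Fact.out : p.Prime).ne_zero
  have hp0 : (p : ℂ) ≠ 0 := by exact_mod_cast hp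
  apply UpperHalfPlane.ext
  rw [coe_scaleH (Nat.pos_of_ne_zero hp), coe_heckeMatrix_smul hp]
  simp only [Nat.cast_zero, add_zero]
  field_simp

/-- the slash by `S` of `z ↦ E (p z)` for a level one form `E`. -/
theorem scale_slash_S {k : ℤ} (E : ModularForm 𝒮ℒ k) (z : ℍ) :
    ((fun w => E (scaleH p w)) ∣[k] ModularGroup.S) z
      = ((p : ℂ) ^ k)⁻¹ * E (heckeMatrix p 0 • z) := by
  have hp : p ≠ 0 := (Fact.out : p.Prime).ne_zero
  have hp0 : (p : ℂ) ≠ 0 := by exact_mod_cast hp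
  rw [slash_S_apply, scaleH_S_smul]
  have h1 : E (ModularGroup.S • (heckeMatrix p 0 • z))
      = (denom (ModularGroup.S : SL(2, ℤ)) ((heckeMatrix p 0 • z : ℍ) : ℂ)) ^ k
        * E (heckeMatrix p 0 • z) := by
    have hS : ((ModularGroup.S : SL(2, ℤ)) : GL (Fin 2) ℝ) ∈ 𝒮ℒ := ⟨ModularGroup.S, rfl⟩
    exact SlashInvariantForm.slash_action_eqn'' E hS _
  rw [h1, ModularGroup.denom_S, coe_heckeMatrix_smul hp]
  simp only [Nat.cast_zero, add_zero]
  have hz : (z : ℂ) ≠ 0 := ne_zero z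
  rw [div_zpow, zpow_neg]
  field_simp

/-- a level-one form is invariant under the slash by `S`. -/
theorem levelOne_slash_S {k : ℤ} (E : ModularForm 𝒮ℒ k) :
    (⇑E : ℍ → ℂ) ∣[k] ModularGroup.S = ⇑E := by
  have hS : ((ModularGroup.S : SL(2, ℤ)) : GL (Fin 2) ℝ) ∈ 𝒮ℒ := ⟨ModularGroup.S, rfl⟩
  exact SlashInvariantForm.slash_action_eqn E _ hS


end slashB

section forms

variable (p : ℕ) [Fact p.Prime]

variable {k : ℤ}

/-- restriction of a level one form to `Γ₀(p)`. -/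
noncomputable def resForm (E : ModularForm 𝒮ℒ k) : ModularForm (GammaP p) k :=
  scaleForm p 1 (one_dvd p) E

theorem resForm_apply (E : ModularForm 𝒮ℒ k) (z : ℍ) : resForm p E z = E z := by
  unfold resForm
  rw [scaleForm_apply, scaleH_one]

/-- `z ↦ E (p z)` as a form on `Γ₀(p)`. -/
noncomputable def scForm (E : ModularForm 𝒮ℒ k) : ModularForm (GammaP p) k :=
  scaleForm p p dvd_rfl E

theorem scForm_apply (E : ModularForm 𝒮ℒ k) (z : ℍ) : scForm p E z = E (scaleH p z) := by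
  unfold scForm
  rw [scaleForm_apply]

/-- `g = E - p^k E(p ·)`. -/
noncomputable def gForm (E : ModularForm 𝒮ℒ k) : ModularForm (GammaP p) k :=
  resForm p E - ((p : ℂ) ^ k) • scForm p E

/-- `E(p ·) - E`. -/
noncomputable def dForm (E : ModularForm 𝒮ℒ k) : ModularForm (GammaP p) k :=
  scForm p E - resForm p E

theorem gForm_apply (E : ModularForm 𝒮ℒ k) (z : ℍ) :
    gForm p E z = E z - (p : ℂ) ^ k * E (scaleH p z) := by
  unfold gForm
  rw [sub_apply, resForm_apply]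
  congr 1
  show ((p : ℂ) ^ k) • (scForm p E z) = _
  rw [scForm_apply, smul_eq_mul]

theorem dForm_apply (E : ModularForm 𝒮ℒ k) (z : ℍ) :
    dForm p E z = E (scaleH p z) - E z := by
  unfold dForm
  rw [sub_apply, resForm_apply, scForm_apply]

/-- the hypothesis supplied by the Fricke/trace package at prime level. -/
def FrickeS : Prop :=
  ∀ (F : ModularForm (GammaP p) 2) (z : ℍ),
    ((⇑F : ℍ → ℂ) ∣[(2 : ℤ)] ModularGroup.S) z
      = -(p : ℂ)⁻¹ * heckeU 2 p (⇑F) (heckeMatrix p 0 • z)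

/-- `G = F g`. -/
noncomputable def GForm (F : ModularForm (GammaP p) 2) (E : ModularForm 𝒮ℒ k) :
    ModularForm (GammaP p) (2 + k) := F.mul (gForm p E)

/-- `R = (U_p F) (E(p ·) - E)`. -/
noncomputable def RForm (F : ModularForm (GammaP p) 2) (E : ModularForm 𝒮ℒ k) :
    ModularForm (GammaP p) (2 + k) := (heckeULin 2 (dvd_refl p) F).mul (dForm p E)

theorem gForm_slash_S (E : ModularForm 𝒮ℒ k) (z : ℍ) :
    ((⇑(gForm p E) : ℍ → ℂ) ∣[k] ModularGroup.S) z = E z - E (heckeMatrix p 0 • z) := by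
  have hp0 : (p : ℂ) ≠ 0 := by exact_mod_cast (Fact.out : p.Prime).ne_zero
  rw [slash_S_apply, gForm_apply, sub_mul, mul_assoc]
  have h1 : E (ModularGroup.S • z) * (z : ℂ) ^ (-k) = E z := by
    rw [← slash_S_apply, levelOne_slash_S]
  have h2 : E (scaleH p (ModularGroup.S • z)) * (z : ℂ) ^ (-k)
      = ((p : ℂ) ^ k)⁻¹ * E (heckeMatrix p 0 • z) := by
    rw [← scale_slash_S p E z, slash_S_apply]
  rw [h1, h2, ← mul_assoc, mul_inv_cancel₀ (zpow_ne_zero _ hp0), one_mul]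

theorem GForm_slash_S (hFr : FrickeS p) (F : ModularForm (GammaP p) 2) (E : ModularForm 𝒮ℒ k)
    (z : ℍ) :
    ((⇑(GForm p F E) : ℍ → ℂ) ∣[2 + k] ModularGroup.S) z
      = -(p : ℂ)⁻¹ * RForm p F E (heckeMatrix p 0 • z) := by
  have h1 : (⇑(GForm p F E) : ℍ → ℂ) = ⇑F * ⇑(gForm p E) := ModularForm.coe_mul _ _
  rw [h1, ModularForm.mul_slash_SL2, Pi.mul_apply, hFr F z, gForm_slash_S]
  have h2 : RForm p F E (heckeMatrix p 0 • z)
      = heckeU 2 p (⇑F) (heckeMatrix p 0 • z) * (E z - E (heckeMatrix p 0 • z)) := by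
    unfold RForm
    rw [ModularForm.coe_mul, Pi.mul_apply, dForm_apply, scaleH_heckeMatrix_zero]
    rfl
  rw [h2]
  ring

theorem trace_GForm (hFr : FrickeS p) (F : ModularForm (GammaP p) 2) (E : ModularForm 𝒮ℒ k) :
    (⇑(ModularForm.trace 𝒮ℒ (GForm p F E)) : ℍ → ℂ)
      = ⇑(GForm p F E) - heckeU (2 + k) p ⇑(RForm p F E) := by
  have hp : p ≠ 0 := (Fact.out : p.Prime).ne_zero
  rw [coe_trace_eq, sub_eq_add_neg]
  congr 1
  ext z
  rw [Finset.sum_apply, Pi.neg_apply, heckeU_apply _ hp, ← neg_mul, Finset.mul_sum]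
  refine Finset.sum_congr rfl fun b _ => ?_
  rw [slash_S_mul_T_apply, GForm_slash_S p hFr, heckeMatrix_zero_smul_T]

end forms

section qexp

open Fermat.Agent.S16.SerreTracePSeries Fermat.Agent.S16.SerreTracePArith PowerSeries

local notation "𝕢" => Function.Periodic.qParam

variable (p : ℕ) [Fact p.Prime]

theorem one_mem_strictPeriods_GammaP : (1 : ℝ) ∈ (GammaP p).strictPeriods :=
  CongruenceSubgroup.one_mem_strictPeriods_Gamma0 p

theorem qParam_scaleH (τ : ℍ) : 𝕢 1 (scaleH p τ) = 𝕢 1 τ ^ p := by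
  have hp : 0 < p := (Fact.out : p.Prime).pos
  simp only [Function.Periodic.qParam, Complex.ofReal_one, div_one, coe_scaleH hp]
  rw [← Complex.exp_nat_mul]
  congr 1
  ring

variable {k : ℤ}

/-- the coefficients of `E (p ·)`. -/
noncomputable def scCoeff (a : PowerSeries ℂ) : PowerSeries ℂ :=
  PowerSeries.mk fun m => if p ∣ m then coeff (m / p) a else 0

theorem hasSum_scForm (E : ModularForm 𝒮ℒ k) (τ : ℍ) :
    HasSum (fun m : ℕ => coeff m (scCoeff p (qExpansion 1 E)) • 𝕢 1 τ ^ m) (scForm p E τ) := by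
  have hp : 0 < p := (Fact.out : p.Prime).pos
  have h1 := ModularForm.hasSum_qExpansion (h := 1) E one_pos one_mem_strictPeriods_SL (scaleH p τ)
  rw [qParam_scaleH, ← scForm_apply] at h1
  have hinj : Function.Injective (fun m : ℕ ↦ p * m) := fun a b hab ↦
    Nat.eq_of_mul_eq_mul_left hp hab
  rw [← hinj.hasSum_iff]
  · convert h1 using 2 with m
    simp [scCoeff, Nat.mul_div_cancel_left _ hp, pow_mul]
  · intro n hn
    have : ¬ p ∣ n := by
      rintro ⟨m, rfl⟩
      exact hn ⟨m, rfl⟩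
    simp [scCoeff, this]

theorem qExpansion_scForm (E : ModularForm 𝒮ℒ k) :
    qExpansion 1 (scForm p E) = scCoeff p (qExpansion 1 E) := by
  ext m
  exact (ModularFormClass.qExpansion_coeff_unique (Γ := GammaP p) (k := k)
    (c := fun m => coeff m (scCoeff p (qExpansion 1 E))) one_pos
    (one_mem_strictPeriods_GammaP p) (f := scForm p E) (fun τ => hasSum_scForm p E τ) m).symm

theorem qExpansion_resForm (E : ModularForm 𝒮ℒ k) :
    qExpansion 1 (resForm p E) = qExpansion 1 E := by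
  have : (⇑(resForm p E) : ℍ → ℂ) = ⇑E := funext (resForm_apply p E)
  rw [this]

theorem qExpansion_gForm (E : ModularForm 𝒮ℒ k) :
    qExpansion 1 (gForm p E)
      = qExpansion 1 E - C ((p : ℂ) ^ k) * scCoeff p (qExpansion 1 E) := by
  have h1 : (⇑(gForm p E) : ℍ → ℂ) = ⇑(resForm p E) - ⇑(((p : ℂ) ^ k) • scForm p E) := rfl
  rw [h1, ModularForm.qExpansion_sub one_pos (one_mem_strictPeriods_GammaP p),
    qExpansion_resForm]
  congr 1
  have h2 : (⇑(((p : ℂ) ^ k) • scForm p E) : ℍ → ℂ) = ((p : ℂ) ^ k) • ⇑(scForm p E) := rfl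
  rw [h2, ModularForm.qExpansion_smul one_pos (one_mem_strictPeriods_GammaP p), qExpansion_scForm]
  ext n
  simp

theorem qExpansion_dForm (E : ModularForm 𝒮ℒ k) :
    qExpansion 1 (dForm p E) = scCoeff p (qExpansion 1 E) - qExpansion 1 E := by
  have h1 : (⇑(dForm p E) : ℍ → ℂ) = ⇑(scForm p E) - ⇑(resForm p E) := rfl
  rw [h1, ModularForm.qExpansion_sub one_pos (one_mem_strictPeriods_GammaP p),
    qExpansion_resForm, qExpansion_scForm]

/-- the coefficients of `U_p`. -/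
noncomputable def uCoeff (a : PowerSeries ℂ) : PowerSeries ℂ :=
  PowerSeries.mk fun n => coeff (n * p) a

theorem qExpansion_heckeU (f : ModularForm (GammaP p) k) :
    qExpansion 1 (heckeU k p ⇑f) = uCoeff p (qExpansion 1 f) := by
  have hp : p ≠ 0 := (Fact.out : p.Prime).ne_zero
  ext n
  have := ModularFormClass.qCoeff_heckeU f (one_mem_strictPeriods_GammaP p) hp n
  rw [uCoeff, coeff_mk]
  exact this

theorem qExpansion_GForm (F : ModularForm (GammaP p) 2) (E : ModularForm 𝒮ℒ k) :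
    qExpansion 1 (GForm p F E) = qExpansion 1 F * qExpansion 1 (gForm p E) :=
  ModularForm.qExpansion_mul one_pos (one_mem_strictPeriods_GammaP p) F (gForm p E)

theorem qExpansion_RForm (F : ModularForm (GammaP p) 2) (E : ModularForm 𝒮ℒ k) :
    qExpansion 1 (RForm p F E) = uCoeff p (qExpansion 1 F) * qExpansion 1 (dForm p E) := by
  unfold RForm
  rw [ModularForm.qExpansion_mul one_pos (one_mem_strictPeriods_GammaP p)]
  congr 1
  exact qExpansion_heckeU p F

theorem qExpansion_trace (hFr : FrickeS p) (F : ModularForm (GammaP p) 2) (E : ModularForm 𝒮ℒ k) :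
    qExpansion 1 (ModularForm.trace 𝒮ℒ (GForm p F E))
      = qExpansion 1 (GForm p F E) - uCoeff p (qExpansion 1 (RForm p F E)) := by
  rw [trace_GForm p hFr]
  have h1 : heckeU (2 + k) p ⇑(RForm p F E) = ⇑(heckeULin (2 + k) (dvd_refl p) (RForm p F E)) := rfl
  rw [h1, ModularForm.qExpansion_sub one_pos (one_mem_strictPeriods_GammaP p), ← h1,
    qExpansion_heckeU]

end qexp

section final

open Fermat.Agent.S16.SerreTracePSeries Fermat.Agent.S16.SerreTracePArith PowerSeries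
open EisensteinSeries

variable (p : ℕ) [Fact p.Prime]

theorem p_mem_ZpC : (p : ℂ) ∈ ZpC p := natCast_mem _ p

variable {p} in
theorem mem_intSeries_scCoeff {S : Subring ℂ} {a : PowerSeries ℂ} (ha : a ∈ intSeries S) :
    scCoeff p a ∈ intSeries S := by
  rw [mem_intSeries] at ha ⊢
  intro n
  rw [scCoeff, coeff_mk]
  split_ifs
  · exact ha _
  · exact S.zero_mem

variable {p} in
theorem mem_intSeries_uCoeff {S : Subring ℂ} {a : PowerSeries ℂ} (ha : a ∈ intSeries S) :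
    uCoeff p a ∈ intSeries S := by
  rw [mem_intSeries] at ha ⊢
  intro n
  rw [uCoeff, coeff_mk]
  exact ha _

variable {p} in
theorem oneMod_scCoeff {S : Subring ℂ} {c : ℂ} {a : PowerSeries ℂ} (ha : OneMod S c a) :
    OneMod S c (scCoeff p a) := by
  have hp : 0 < p := (Fact.out : p.Prime).pos
  obtain ⟨a', ha', rfl⟩ := ha
  refine ⟨scCoeff p a', mem_intSeries_scCoeff ha', ?_⟩
  ext m
  simp only [scCoeff, coeff_mk, map_add, coeff_one, coeff_C_mul]
  by_cases hm : p ∣ m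
  · rw [if_pos hm, if_pos hm]
    congr 1
    by_cases h0 : m = 0
    · subst h0; simp
    · have : m / p ≠ 0 := by
        obtain ⟨t, rfl⟩ := hm
        rw [Nat.mul_div_cancel_left _ hp]
        rintro rfl
        exact h0 (by simp)
      rw [if_neg this, if_neg h0]
  · rw [if_neg hm, if_neg hm]
    have h0 : m ≠ 0 := by
      rintro rfl
      exact hm (dvd_zero p)
    rw [if_neg h0]
    simp

variable {p} in
theorem zeroMod_uCoeff {S : Subring ℂ} {c : ℂ} {a : PowerSeries ℂ} (ha : ZeroMod S c a) :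
    ZeroMod S c (uCoeff p a) :=
  ha.subseq fun n => n * p

/-- `E_{p-1} ≡ 1 mod p` (von Staudt–Clausen). -/
theorem oneMod_E (hp5 : 5 ≤ p) :
    OneMod (ZpC p) (p : ℂ) (qExpansion 1 (E (k := p - 1) (by omega))) := by
  have hpp : p.Prime := Fact.out
  have hp2 : p ≠ 2 := by omega
  have hk : 3 ≤ p - 1 := by omega
  have hk2 : Even (p - 1) := by
    obtain ⟨m, hm⟩ := hpp.odd_of_ne_two hp2
    exact ⟨m, by omega⟩
  obtain ⟨y, hy, hyp⟩ := eisCoeff_mem p hp2
  refine ⟨PowerSeries.mk fun m => if m = 0 then 0 else y * (ArithmeticFunction.sigma (p - 1 - 1) m : ℂ),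
    ?_, ?_⟩
  · rw [mem_intSeries]
    intro n
    rw [coeff_mk]
    split_ifs
    · exact Subring.zero_mem _
    · exact Subring.mul_mem _ hy (natCast_mem _ _)
  · ext m
    rw [E_qExpansion_coeff hk hk2 m, map_add, coeff_one, coeff_C_mul, coeff_mk]
    by_cases h0 : m = 0
    · simp [h0]
    · rw [if_neg h0, if_neg h0, if_neg h0, zero_add, hyp, mul_assoc]

/-- the Swinnerton-Dyer / Serre weight theorem at level one, in the shape consumed here. -/
def SwDAt (w : ℤ) : Prop :=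
  ∀ g : ModularForm 𝒮ℒ w, OneMod (ZpC p) (p : ℂ) (qExpansion 1 g) → ((p : ℤ) - 1) ∣ w

/-- **The `l = p` case of the upper bound** (Serre's trace argument): for a prime `p ≥ 5` there is
no weight-two form on `Γ₀(p)` whose `q`-expansion is `p`-integral and `≡ 1 mod p`. -/
theorem false_of_oneMod (hp5 : 5 ≤ p) (hSwD : SwDAt p (2 + ((p - 1 : ℕ) : ℤ))) (hFr : FrickeS p)
    (F : ModularForm (GammaP p) 2) (hF : OneMod (ZpC p) (p : ℂ) (qExpansion 1 F)) : False := by
  have hpp : p.Prime := Fact.out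
  have hpS := p_mem_ZpC p
  set E₀ : ModularForm 𝒮ℒ ((p - 1 : ℕ) : ℤ) := E (k := p - 1) (by omega) with hE₀
  have hE : OneMod (ZpC p) (p : ℂ) (qExpansion 1 E₀) := oneMod_E p hp5
  have hEp : OneMod (ZpC p) (p : ℂ) (scCoeff p (qExpansion 1 E₀)) := oneMod_scCoeff hE
  -- `g ≡ 1`
  have hg : OneMod (ZpC p) (p : ℂ) (qExpansion 1 (gForm p E₀)) := by
    rw [qExpansion_gForm]
    apply hE.sub_zeroMod
    refine ⟨C ((p : ℂ) ^ (p - 2)) * scCoeff p (qExpansion 1 E₀), ?_, ?_⟩
    · exact Subring.mul_mem _ (C_mem_intSeries _ (Subring.pow_mem _ hpS _)) (hEp.mem hpS)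
    · rw [← mul_assoc, ← map_mul, zpow_natCast, ← pow_succ']
      congr 3
      omega
  -- `G ≡ 1`
  have hG : OneMod (ZpC p) (p : ℂ) (qExpansion 1 (GForm p F E₀)) := by
    rw [qExpansion_GForm]
    exact hF.mul hpS hg
  -- `R ≡ 0`
  have hR : ZeroMod (ZpC p) (p : ℂ) (qExpansion 1 (RForm p F E₀)) := by
    rw [qExpansion_RForm, qExpansion_dForm]
    exact (hEp.sub hE).mul_left (mem_intSeries_uCoeff (hF.mem hpS))
  -- the trace is `≡ 1`
  have hT : OneMod (ZpC p) (p : ℂ) (qExpansion 1 (ModularForm.trace 𝒮ℒ (GForm p F E₀))) := by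
    rw [qExpansion_trace p hFr]
    exact hG.sub_zeroMod (zeroMod_uCoeff hR)
  have hdvd := hSwD _ hT
  have h2 : ((p : ℤ) - 1) ∣ 2 := by
    have h3 : ((p - 1 : ℕ) : ℤ) = (p : ℤ) - 1 := by
      have : 1 ≤ p := hpp.one_lt.le
      push_cast [Nat.cast_sub this]
      ring
    rw [h3] at hdvd
    exact (Int.dvd_add_left dvd_rfl).mp hdvd
  have h4 := Int.le_of_dvd (by norm_num) h2
  omega

end final

end Fermat.Agent.S16.SerreTraceP
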