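import Mathlib
import Fermat.Agent.S16.SerreTraceP
import Fermat.Agent.S16.FrickeTrace
import Fermat.Agent.S16.Interfaces2

/-!
# S16, upper bound, the case `l = p`: instantiation against the landed interfaces

* `frickeS : FrickeS p` from `FrickeTrace.slash_S_eq`;
* `mem_ZpC_of_isLInt`, `oneMod_of_isOneMod`: adapters from `Interfaces.IsLInt` / `Interfaces.IsOneMod`
  to the subring `ZpC p` / `OneMod`;
* `noOneMod_self`: `Interfaces.NoOneMod p p 1` for `p ≥ 5`, from the Swinnerton-Dyer / Serre weight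
  theorem `SwDAt p (p + 1)` alone.
-/

set_option autoImplicit false

open UpperHalfPlane ModularForm MatrixGroups CongruenceSubgroup
open Fermat.Agent.S28.ModPolyCoset
open Fermat.Agent.S16.SerreTracePSeries Fermat.Agent.S16.SerreTracePArith PowerSeries
open Fermat.Agent.S16.SerreTraceP Fermat.Agent.S16.Interfaces

namespace Fermat.Agent.S16.SerreTracePInst

variable (p : ℕ) [Fact p.Prime]

/-- the Fricke hypothesis of `SerreTraceP`, from the landed `FrickeTrace` package. -/
theorem frickeS : FrickeS p := by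
  intro F z
  have hp : p ≠ 0 := (Fact.out : p.Prime).ne_zero
  have h := Fermat.Agent.S16.FrickeTrace.slash_S_eq p F z (heckeMatrix p 0 • z)
    (by rw [coe_heckeMatrix_smul hp]; simp)
  rw [h, neg_mul]

variable {p} in
/-- `IsLInt p z` means `z ∈ ZpC p`. -/
theorem mem_ZpC_of_isLInt {z : ℂ} (hz : IsLInt p z) : z ∈ ZpC p := by
  obtain ⟨a, b, hb, hzb⟩ := hz
  have hb0 : b ≠ 0 := by
    rintro rfl
    exact hb (dvd_zero _)
  have hbC : (b : ℂ) ≠ 0 := by exact_mod_cast hb0
  rw [mem_ZpC]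
  refine ⟨(a : ℚ) / (b : ℚ), ?_, ?_⟩
  · intro hden
    apply hb
    have h1 : (((a : ℚ) / (b : ℚ)).den : ℤ) ∣ b := by
      rw [← Rat.divInt_eq_div]
      exact Rat.den_dvd a b
    exact (Int.natCast_dvd_natCast.mpr hden).trans h1
  · push_cast
    rw [div_eq_iff hbC, hzb]

variable {p} in
/-- adapter: `Interfaces.IsOneMod p p 1 F` gives `OneMod (ZpC p) p (qExpansion 1 F)`. -/
theorem oneMod_of_isOneMod (F : ModularForm (CongruenceSubgroup.Gamma0 p) 2)
    (hF : IsOneMod p p 1 F) : OneMod (ZpC p) (p : ℂ) (qExpansion 1 F) := by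
  obtain ⟨h0, hj⟩ := hF
  have hj' : ∀ j : ℕ, ∃ z : ℂ, z ∈ ZpC p ∧ (j ≠ 0 → ModularFormClass.qCoeff F j = (p : ℂ) * z) := by
    intro j
    by_cases h : j = 0
    · exact ⟨0, Subring.zero_mem _, fun h' => absurd h h'⟩
    · obtain ⟨z, hz, hzj⟩ := hj j (Nat.one_le_iff_ne_zero.mpr h)
      exact ⟨z, mem_ZpC_of_isLInt hz, fun _ => by rw [hzj, pow_one]⟩
  choose z hz hzj using hj'
  refine ⟨PowerSeries.mk fun j => if j = 0 then 0 else z j, ?_, ?_⟩
  · rw [mem_intSeries]
    intro n
    rw [coeff_mk]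
    split_ifs
    · exact Subring.zero_mem _
    · exact hz n
  · ext j
    rw [map_add, coeff_one, coeff_C_mul, coeff_mk]
    by_cases h : j = 0
    · subst h
      rw [if_pos rfl, if_pos rfl, mul_zero, add_zero]
      exact h0
    · rw [if_neg h, if_neg h, zero_add]
      exact hzj j h

/-- **`l = p`**: for `p ≥ 5` there is no `F ≡ 1 mod p` of weight two on `Γ₀(p)`, given the
Swinnerton-Dyer / Serre weight theorem in weight `p + 1`. -/
theorem noOneMod_self (hp5 : 5 ≤ p) (hSwD : SwDAt p (2 + ((p - 1 : ℕ) : ℤ))) : NoOneMod p p 1 :=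
  fun F hF => false_of_oneMod p hp5 hSwD (frickeS p) F (oneMod_of_isOneMod F hF)

end Fermat.Agent.S16.SerreTracePInst
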