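import Mathlib
import Fermat.Agent.S16.SerreTracePArith

/-!
# S16, `l = p`: the reduction map `ZpC p →+* ZMod p`

`redQ p : ZpQ p →+* ZMod p` (through `ℤ_[p]` and `PadicInt.toZMod`), `redC p : ZpC p →+* ZMod p`,
with `redC p (p * y) = 0`.  Also `inv_natCast_mem_ZpC : ¬ p ∣ n → (n : ℂ)⁻¹ ∈ ZpC p`.
-/

set_option autoImplicit false

namespace Fermat.Agent.S16.SerreTracePRed

open Fermat.Agent.S16.SerreTracePArith

variable (p : ℕ) [hp : Fact p.Prime]

/-- `ZpQ p → ℤ_[p]`. -/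
noncomputable def toPadicInt : ZpQ p →+* ℤ_[p] :=
  RingHom.codRestrict ((Rat.castHom ℚ_[p]).comp (ZpQ p).subtype) (PadicInt.subring p)
    (fun r => by
      show ‖((r : ℚ) : ℚ_[p])‖ ≤ 1
      exact Padic.norm_rat_le_one ((mem_ZpQ p).mp r.2))

/-- reduction mod `p` on `p`-integral rationals. -/
noncomputable def redQ : ZpQ p →+* ZMod p := (PadicInt.toZMod).comp (toPadicInt p)

theorem redQ_p : redQ p ⟨(p : ℚ), natCast_mem_ZpQ p p⟩ = 0 := by
  have h1 : (⟨(p : ℚ), natCast_mem_ZpQ p p⟩ : ZpQ p) = ((p : ℕ) : ZpQ p) := by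
    apply Subtype.ext
    simp
  rw [h1, map_natCast]
  exact ZMod.natCast_self p

/-- `ZpC p ≃+* ZpQ p`. -/
noncomputable def equivQ : ZpQ p ≃+* ZpC p :=
  (ZpQ p).equivMapOfInjective (algebraMap ℚ ℂ) (algebraMap ℚ ℂ).injective

theorem coe_equivQ (r : ZpQ p) : ((equivQ p r : ZpC p) : ℂ) = ((r : ℚ) : ℂ) := rfl

/-- reduction mod `p` on `ZpC p`. -/
noncomputable def redC : ZpC p →+* ZMod p := (redQ p).comp (equivQ p).symm.toRingHom

theorem redC_natCast_p : redC p ((p : ℕ) : ZpC p) = 0 := by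
  rw [map_natCast]
  exact ZMod.natCast_self p

/-- `redC` kills `p * y`. -/
theorem redC_eq_zero_of_eq_mul {x y : ZpC p} (h : (x : ℂ) = (p : ℂ) * (y : ℂ)) : redC p x = 0 := by
  have h1 : x = ((p : ℕ) : ZpC p) * y := by
    apply Subtype.ext
    rw [h]
    push_cast
    rfl
  rw [h1, map_mul, redC_natCast_p, zero_mul]

/-- the inverse of an integer prime to `p` is `p`-integral. -/
theorem inv_natCast_mem_ZpC {n : ℕ} (hn : ¬ p ∣ n) : ((n : ℂ)⁻¹) ∈ ZpC p := by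
  have h : ((n : ℚ)⁻¹) ∈ ZpQ p := by
    have h1 : ((n : ℚ)⁻¹) = ((n : ℤ) : ℚ)⁻¹ := by simp
    rw [h1]
    apply inv_mem_of_not_dvd_num
    rw [Rat.num_intCast]
    intro h2
    exact hn (Int.natCast_dvd_natCast.mp h2)
  have := ratCast_mem_ZpC p h
  push_cast at this
  exact this

end Fermat.Agent.S16.SerreTracePRed
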