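import Mathlib
import Fermat.Agent.S16.SerreTracePInst
import Fermat.Agent.S16.SerreTracePRed
import Fermat.Agent.S16.UpperL5

/-!
# S16, `l = p`: the Swinnerton-Dyer input in the shape of `UpperL5.SwDStatement`

`swDAt_of_statement : UpperL5.SwDStatement → SwDAt p (p + 1)` (coefficient ring `ZpC p`, residue
field `ZMod p`), hence `noOneMod_self_of_swd : UpperL5.SwDStatement → NoOneMod p p 1` for `p ≥ 5`.
-/

set_option autoImplicit false

open UpperHalfPlane ModularForm MatrixGroups CongruenceSubgroup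
open Fermat.Agent.S16.SerreTracePSeries Fermat.Agent.S16.SerreTracePArith PowerSeries
open Fermat.Agent.S16.SerreTraceP Fermat.Agent.S16.Interfaces Fermat.Agent.S16.SerreTracePRed

namespace Fermat.Agent.S16.SerreTracePSwD

variable (p : ℕ) [Fact p.Prime]

/-- the Swinnerton-Dyer hypothesis of `SerreTraceP` from `UpperL5.SwDStatement`. -/
theorem swDAt_of_statement (hS : Fermat.Agent.S16.UpperL5.SwDStatement) (hp5 : 5 ≤ p) :
    SwDAt p (2 + ((p - 1 : ℕ) : ℤ)) := by
  intro g hg
  have hw : (2 + ((p - 1 : ℕ) : ℤ)) = ((p + 1 : ℕ) : ℤ) := by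
    have : 1 ≤ p := by omega
    push_cast [Nat.cast_sub this]
    ring
  obtain ⟨g1, hg1, hgg⟩ := hg
  have hpS := p_mem_ZpC p
  have hmem : ∀ n, coeff n (qExpansion 1 g) ∈ ZpC p := by
    have : qExpansion 1 g ∈ intSeries (ZpC p) := by
      rw [hgg]
      exact Subring.add_mem _ (Subring.one_mem _)
        (Subring.mul_mem _ (C_mem_intSeries _ hpS) hg1)
    exact (mem_intSeries _).mp this
  set A : PowerSeries (ZpC p) := PowerSeries.mk fun n => ⟨coeff n (qExpansion 1 g), hmem n⟩ with hA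
  have hAcoe : ∀ n, ((A.coeff n : ZpC p) : ℂ) = (qExpansion 1 (ModularForm.mcast hw g)).coeff n := by
    intro n
    rw [hA, coeff_mk]
    rfl
  have hAmap : A.map (redC p) = PowerSeries.C (1 : ZMod p) := by
    ext n
    rw [coeff_map, hA, coeff_mk, coeff_C]
    have hg1n : coeff n g1 ∈ ZpC p := (mem_intSeries _).mp hg1 n
    by_cases h0 : n = 0
    · subst h0
      rw [if_pos rfl]
      have h1 : (⟨coeff 0 (qExpansion 1 g), hmem 0⟩ : ZpC p)
          = 1 + (⟨coeff 0 (qExpansion 1 g) - 1, Subring.sub_mem _ (hmem 0) (Subring.one_mem _)⟩ :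
            ZpC p) := by
        apply Subtype.ext
        push_cast
        ring
      rw [h1, map_add, map_one]
      rw [redC_eq_zero_of_eq_mul p (y := ⟨coeff 0 g1, hg1n⟩), add_zero]
      show coeff 0 (qExpansion 1 g) - 1 = (p : ℂ) * coeff 0 g1
      rw [hgg, map_add, coeff_one, coeff_C_mul, if_pos rfl]
      ring
    · rw [if_neg h0]
      apply redC_eq_zero_of_eq_mul p (y := ⟨coeff n g1, hg1n⟩)
      show coeff n (qExpansion 1 g) = (p : ℂ) * coeff n g1
      rw [hgg, map_add, coeff_one, coeff_C_mul, if_neg h0, zero_add]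
  have hdvd := hS p hp5 (ZpC p) (fun n hn => inv_natCast_mem_ZpC p hn) (ZMod p) (redC p) (p + 1)
    (ModularForm.mcast hw g) A hAcoe 1 one_ne_zero hAmap
  rw [hw]
  obtain ⟨t, ht⟩ := hdvd
  refine ⟨(t : ℤ), ?_⟩
  have h1 : ((p + 1 : ℕ) : ℤ) = ((p - 1 : ℕ) : ℤ) * t := by exact_mod_cast ht
  rw [h1]
  congr 1
  have : 1 ≤ p := by omega
  push_cast [Nat.cast_sub this]
  ring

/-- **`l = p`** from `UpperL5.SwDStatement`. -/
theorem noOneMod_self_of_swd (hS : Fermat.Agent.S16.UpperL5.SwDStatement) (hp5 : 5 ≤ p) :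
    NoOneMod p p 1 :=
  Fermat.Agent.S16.SerreTracePInst.noOneMod_self p hp5 (swDAt_of_statement p hS hp5)

end Fermat.Agent.S16.SerreTracePSwD
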