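/-
S16, Swinnerton-Dyer block (helper98), file 1: isobaric polynomials in `Q` (weight 4) and `R`
(weight 6), the Ramanujan–Serre derivation `∂Q = -4R`, `∂R = -6Q²`, its compatibility with
evaluation maps, division by `Q³ - R²`, and the two affine charts.
Pure algebra over a commutative ring; no modular forms here.
-/
import Mathlib

set_option autoImplicit false

namespace Fermat.Agent.S16.SwDIso

open MvPolynomial

variable {A : Type*} [CommRing A]

/-- Weights: `Q = X 0` has weight `4`, `R = X 1` has weight `6`. -/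
def wt : Fin 2 → ℕ := ![4, 6]

lemma weight_eq (d : Fin 2 →₀ ℕ) : Finsupp.weight wt d = 4 * d 0 + 6 * d 1 := by
  rw [Finsupp.weight_apply, Finsupp.sum_fintype _ _ (by simp)]
  simp [Fin.sum_univ_two, wt, mul_comm]

/-- `Φ` is isobaric of weight `k`. -/
def Iso (k : ℕ) (Φ : MvPolynomial (Fin 2) A) : Prop := IsWeightedHomogeneous wt Φ k

lemma iso_Q : Iso 4 (X 0 : MvPolynomial (Fin 2) A) := by
  have := isWeightedHomogeneous_X A wt (0 : Fin 2)
  simpa [Iso, wt] using this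

lemma iso_R : Iso 6 (X 1 : MvPolynomial (Fin 2) A) := by
  have := isWeightedHomogeneous_X A wt (1 : Fin 2)
  simpa [Iso, wt] using this

lemma iso_zero (k : ℕ) : Iso k (0 : MvPolynomial (Fin 2) A) := isWeightedHomogeneous_zero A wt k

lemma iso_one : Iso 0 (1 : MvPolynomial (Fin 2) A) := isWeightedHomogeneous_one A wt

lemma iso_C (r : A) : Iso 0 (C r : MvPolynomial (Fin 2) A) := isWeightedHomogeneous_C wt r

lemma Iso.add {k : ℕ} {Φ Ψ : MvPolynomial (Fin 2) A} (h1 : Iso k Φ) (h2 : Iso k Ψ) :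
    Iso k (Φ + Ψ) := IsWeightedHomogeneous.add h1 h2

lemma Iso.neg {k : ℕ} {Φ : MvPolynomial (Fin 2) A} (h1 : Iso k Φ) : Iso k (-Φ) :=
  IsWeightedHomogeneous.neg h1

lemma Iso.sub {k : ℕ} {Φ Ψ : MvPolynomial (Fin 2) A} (h1 : Iso k Φ) (h2 : Iso k Ψ) :
    Iso k (Φ - Ψ) := IsWeightedHomogeneous.sub h1 h2

lemma Iso.mul {k j : ℕ} {Φ Ψ : MvPolynomial (Fin 2) A} (h1 : Iso k Φ) (h2 : Iso j Ψ) :
    Iso (k + j) (Φ * Ψ) := IsWeightedHomogeneous.mul h1 h2

lemma Iso.pow {k : ℕ} {Φ : MvPolynomial (Fin 2) A} (h1 : Iso k Φ) (n : ℕ) :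
    Iso (n * k) (Φ ^ n) := by
  have := IsWeightedHomogeneous.pow h1 n
  simpa [Iso, smul_eq_mul] using this

lemma Iso.C_mul {k : ℕ} {Φ : MvPolynomial (Fin 2) A} (h1 : Iso k Φ) (r : A) :
    Iso k (C r * Φ) := IsWeightedHomogeneous.C_mul h1 r

lemma Iso.congr {k j : ℕ} {Φ : MvPolynomial (Fin 2) A} (h1 : Iso k Φ) (h : k = j) : Iso j Φ :=
  h ▸ h1

lemma Iso.sum {ι : Type*} (s : Finset ι) (φ : ι → MvPolynomial (Fin 2) A) (k : ℕ)
    (h : ∀ i ∈ s, Iso k (φ i)) : Iso k (∑ i ∈ s, φ i) :=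
  IsWeightedHomogeneous.sum s φ k h

lemma monomial_eq' (d : Fin 2 →₀ ℕ) (r : A) :
    (monomial d r : MvPolynomial (Fin 2) A) = C r * (X 0 ^ d 0 * X 1 ^ d 1) := by
  rw [MvPolynomial.monomial_eq, Finsupp.prod_fintype _ _ (by simp)]
  simp [Fin.prod_univ_two]

lemma iso_monomial {k : ℕ} (d : Fin 2 →₀ ℕ) (r : A) (h : 4 * d 0 + 6 * d 1 = k) :
    Iso k (monomial d r : MvPolynomial (Fin 2) A) :=
  isWeightedHomogeneous_monomial wt d r (by rw [weight_eq, h])

lemma iso_QR_pow (a b : ℕ) : Iso (4 * a + 6 * b) (X 0 ^ a * X 1 ^ b : MvPolynomial (Fin 2) A) := by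
  have h1 := (iso_Q (A := A)).pow a
  have h2 := (iso_R (A := A)).pow b
  exact (h1.mul h2).congr (by ring)

/-- Induction principle for isobaric polynomials. -/
lemma Iso.induction_on {k : ℕ} {motive : MvPolynomial (Fin 2) A → Prop}
    (zero : motive 0)
    (add : ∀ p q, Iso k p → Iso k q → motive p → motive q → motive (p + q))
    (mono : ∀ (a b : ℕ) (r : A), 4 * a + 6 * b = k → motive (C r * (X 0 ^ a * X 1 ^ b)))
    {Φ : MvPolynomial (Fin 2) A} (hΦ : Iso k Φ) : motive Φ := by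
  refine IsWeightedHomogeneous.induction_on (motive := fun p _ => motive p) zero
    (fun p q hp hq => add p q hp hq) (fun d r hr => ?_) hΦ
  rw [monomial_eq']
  exact mono _ _ r (by rw [← hr, weight_eq])

/-! ### Evaluation -/

section Eval

variable {B : Type*} [CommRing B] [Algebra A B]

lemma aeval_mono (x y : B) (a b : ℕ) (r : A) :
    aeval ![x, y] (C r * (X 0 ^ a * X 1 ^ b) : MvPolynomial (Fin 2) A) =
      algebraMap A B r * (x ^ a * y ^ b) := by
  simp

end Eval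

/-! ### The derivation -/

/-- The Ramanujan–Serre derivation on `A[Q,R]`: `∂Q = -4R`, `∂R = -6Q²`. -/
noncomputable def dd : Derivation A (MvPolynomial (Fin 2) A) (MvPolynomial (Fin 2) A) :=
  mkDerivation A ![-4 * X 1, -6 * X 0 ^ 2]

lemma dd_Q : dd (X 0 : MvPolynomial (Fin 2) A) = -4 * X 1 := by
  simp [dd, mkDerivation_X]

lemma dd_R : dd (X 1 : MvPolynomial (Fin 2) A) = -6 * X 0 ^ 2 := by
  simp [dd, mkDerivation_X]

lemma dd_C (r : A) : dd (C r : MvPolynomial (Fin 2) A) = 0 := by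
  simp [dd]

lemma dd_mono (a b : ℕ) (r : A) :
    dd (C r * (X 0 ^ a * X 1 ^ b) : MvPolynomial (Fin 2) A) =
      C r * (((a : MvPolynomial (Fin 2) A) * X 0 ^ (a - 1) * (-4 * X 1)) * X 1 ^ b +
        X 0 ^ a * ((b : MvPolynomial (Fin 2) A) * X 1 ^ (b - 1) * (-6 * X 0 ^ 2))) := by
  rw [Derivation.leibniz, dd_C, Derivation.leibniz, Derivation.leibniz_pow,
    Derivation.leibniz_pow, dd_Q, dd_R]
  simp only [smul_eq_mul, nsmul_eq_mul]
  ring

lemma iso_natCast_mul_pow_pred (a : ℕ) (i : Fin 2) (w : ℕ) (hw : Iso w (X i : MvPolynomial (Fin 2) A))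
    (j : ℕ) (hj : j + w = a * w) :
    Iso j ((a : MvPolynomial (Fin 2) A) * X i ^ (a - 1)) := by
  rcases Nat.eq_zero_or_pos a with rfl | ha
  · simpa using iso_zero (A := A) j
  · have h1 : Iso ((a - 1) * w) ((X i : MvPolynomial (Fin 2) A) ^ (a - 1)) := hw.pow (a - 1)
    have h2 : (a : MvPolynomial (Fin 2) A) = C (a : A) := by simp
    rw [h2]
    refine (h1.C_mul _).congr ?_
    have : a * w = (a - 1) * w + w := by
      conv_lhs => rw [show a = (a - 1) + 1 by omega]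
      ring
    omega

lemma iso_dd {k : ℕ} {Φ : MvPolynomial (Fin 2) A} (hΦ : Iso k Φ) : Iso (k + 2) (dd Φ) := by
  refine Iso.induction_on (motive := fun Φ => Iso (k + 2) (dd Φ)) ?_ ?_ ?_ hΦ
  · simpa using iso_zero (A := A) (k + 2)
  · intro p q _ _ hp hq
    rw [map_add]
    exact hp.add hq
  · intro a b r hab
    rw [dd_mono]
    refine Iso.C_mul ?_ r
    refine Iso.add ?_ ?_
    · -- a Q^(a-1) (-4R) R^b : weight 4(a-1)+6+6b = k+2 when a ≥ 1
      rcases Nat.eq_zero_or_pos a with rfl | ha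
      · simpa using iso_zero (A := A) (k + 2)
      · have h1 := iso_natCast_mul_pow_pred (A := A) a 0 4 iso_Q (4 * (a - 1)) (by omega)
        have h2 : Iso 6 (-4 * X 1 : MvPolynomial (Fin 2) A) := by
          have : (-4 * X 1 : MvPolynomial (Fin 2) A) = C (-4 : A) * X 1 := by
            rw [map_neg, map_ofNat]
          rw [this]; exact iso_R.C_mul _
        have h3 := (iso_R (A := A)).pow b
        exact ((h1.mul h2).mul h3).congr (by omega)
    · rcases Nat.eq_zero_or_pos b with rfl | hb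
      · simpa using iso_zero (A := A) (k + 2)
      · have h1 := iso_natCast_mul_pow_pred (A := A) b 1 6 iso_R (6 * (b - 1)) (by omega)
        have h2 : Iso 8 (-6 * X 0 ^ 2 : MvPolynomial (Fin 2) A) := by
          have : (-6 * X 0 ^ 2 : MvPolynomial (Fin 2) A) = C (-6 : A) * X 0 ^ 2 := by
            rw [map_neg, map_ofNat]
          rw [this]; exact ((iso_Q (A := A)).pow 2).C_mul _
        have h3 := (iso_Q (A := A)).pow a
        exact (h3.mul (h1.mul h2)).congr (by omega)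

/-! ### Compatibility of `∂` with evaluation -/

section EvDD

variable {B : Type*} [CommRing B] [Algebra A B]

/-- Key formula: if `Θ` is a derivation of `B` with `Θ x = 4 (p x - y)`, `Θ y = 6 (p y - x²)`,
then for `Φ` isobaric of weight `k`: `Φ(∂)(x,y) = Θ(Φ(x,y)) - k p Φ(x,y)`. -/
theorem aeval_dd (Θ : Derivation A B B) (x y p : B)
    (hx : Θ x = 4 * (p * x - y)) (hy : Θ y = 6 * (p * y - x ^ 2))
    {k : ℕ} {Φ : MvPolynomial (Fin 2) A} (hΦ : Iso k Φ) :
    aeval ![x, y] (dd Φ) = Θ (aeval ![x, y] Φ) - (k : B) * p * aeval ![x, y] Φ := by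
  refine Iso.induction_on
    (motive := fun Φ => aeval ![x, y] (dd Φ) = Θ (aeval ![x, y] Φ) - (k : B) * p * aeval ![x, y] Φ)
    ?_ ?_ ?_ hΦ
  · simp
  · intro p' q _ _ hp hq
    rw [map_add, map_add, map_add, map_add, hp, hq]
    ring
  · intro a b r hab
    rw [dd_mono, aeval_mono]
    have hk : (k : B) = 4 * (a : B) + 6 * (b : B) := by
      rw [← hab]; push_cast; ring
    have hΘ : Θ (algebraMap A B r * (x ^ a * y ^ b)) =
        algebraMap A B r * ((a : B) * x ^ (a - 1) * Θ x * y ^ b + x ^ a * ((b : B) * y ^ (b - 1) * Θ y)) := by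
      rw [Derivation.leibniz, Derivation.map_algebraMap, Derivation.leibniz, Derivation.leibniz_pow,
        Derivation.leibniz_pow]
      simp only [smul_eq_mul, nsmul_eq_mul]
      ring
    rw [hΘ, hx, hy, hk]
    simp only [map_mul, map_add, map_pow, map_neg, map_ofNat, aeval_C, aeval_X, map_natCast]
    simp only [Matrix.cons_val_zero, Matrix.cons_val_one]
    have e1 : (a : B) * x ^ (a - 1) * x = (a : B) * x ^ a := by
      rcases Nat.eq_zero_or_pos a with rfl | ha
      · simp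
      · rw [mul_assoc, ← pow_succ, Nat.sub_add_cancel ha]
    have e2 : (b : B) * y ^ (b - 1) * y = (b : B) * y ^ b := by
      rcases Nat.eq_zero_or_pos b with rfl | hb
      · simp
      · rw [mul_assoc, ← pow_succ, Nat.sub_add_cancel hb]
    linear_combination (-(algebraMap A B r * y ^ b * 4 * p)) * e1 -
      (algebraMap A B r * x ^ a * 6 * p) * e2

end EvDD


/-! ### Division by `Q³ - R²` -/

lemma mono_sub_mono_aux (a b a' b' k : ℕ) (h : 4 * a + 6 * b = k) (h' : 4 * a' + 6 * b' = k)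
    (hle : a' ≤ a) :
    ∃ G : MvPolynomial (Fin 2) A, (12 ≤ k ∨ G = 0) ∧ Iso (k - 12) G ∧
      (X 0 ^ a * X 1 ^ b - X 0 ^ a' * X 1 ^ b' : MvPolynomial (Fin 2) A) =
        (X 0 ^ 3 - X 1 ^ 2) * G := by
  obtain ⟨t, ht⟩ : ∃ t, a = a' + 3 * t := ⟨(a - a') / 3, by omega⟩
  have hb : b' = b + 2 * t := by omega
  subst ht hb
  refine ⟨X 0 ^ a' * X 1 ^ b *
    ∑ i ∈ Finset.range t, (X 0 ^ 3) ^ i * (X 1 ^ 2) ^ (t - 1 - i), ?_, ?_, ?_⟩
  · rcases Nat.eq_zero_or_pos t with rfl | ht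
    · right; simp
    · left; omega
  · rcases Nat.eq_zero_or_pos t with rfl | ht
    · simpa using iso_zero (A := A) (k - 12)
    · have h0 := iso_QR_pow (A := A) a' b
      have h1 : Iso (12 * (t - 1)) (∑ i ∈ Finset.range t,
          ((X 0 : MvPolynomial (Fin 2) A) ^ 3) ^ i * (X 1 ^ 2) ^ (t - 1 - i)) := by
        refine Iso.sum _ _ _ fun i hi => ?_
        have hi' : i < t := Finset.mem_range.mp hi
        have e1 : ((X 0 : MvPolynomial (Fin 2) A) ^ 3) ^ i * (X 1 ^ 2) ^ (t - 1 - i) =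
            X 0 ^ (3 * i) * X 1 ^ (2 * (t - 1 - i)) := by
          rw [← pow_mul, ← pow_mul]
        rw [e1]
        exact (iso_QR_pow (A := A) (3 * i) (2 * (t - 1 - i))).congr (by omega)
      exact (h0.mul h1).congr (by omega)
  · have key := geom_sum₂_mul ((X 0 : MvPolynomial (Fin 2) A) ^ 3) (X 1 ^ 2) t
    have e1 : (X 0 : MvPolynomial (Fin 2) A) ^ (a' + 3 * t) = X 0 ^ a' * (X 0 ^ 3) ^ t := by
      rw [pow_add, pow_mul]
    have e2 : (X 1 : MvPolynomial (Fin 2) A) ^ (b + 2 * t) = X 1 ^ b * (X 1 ^ 2) ^ t := by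
      rw [pow_add, pow_mul]
    rw [e1, e2]
    linear_combination (-(X 0 ^ a' * X 1 ^ b : MvPolynomial (Fin 2) A)) * key

lemma mono_sub_mono (a b a' b' k : ℕ) (h : 4 * a + 6 * b = k) (h' : 4 * a' + 6 * b' = k) :
    ∃ G : MvPolynomial (Fin 2) A, (12 ≤ k ∨ G = 0) ∧ Iso (k - 12) G ∧
      (X 0 ^ a * X 1 ^ b - X 0 ^ a' * X 1 ^ b' : MvPolynomial (Fin 2) A) =
        (X 0 ^ 3 - X 1 ^ 2) * G := by
  rcases le_total a' a with hle | hle
  · exact mono_sub_mono_aux a b a' b' k h h' hle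
  · obtain ⟨G, hG1, hG2, hG3⟩ := mono_sub_mono_aux (A := A) a' b' a b k h' h hle
    refine ⟨-G, ?_, hG2.neg, ?_⟩
    · rcases hG1 with h12 | h0
      · exact Or.inl h12
      · exact Or.inr (by rw [h0, neg_zero])
    · linear_combination (-1 : MvPolynomial (Fin 2) A) * hG3

/-- An isobaric polynomial is, modulo `Q³ - R²`, a multiple of any fixed monomial of its weight,
the multiple being its value at `(1,1)`. -/
theorem exists_eq_delta_mul_add {k : ℕ} {Φ : MvPolynomial (Fin 2) A} (hΦ : Iso k Φ)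
    (a₀ b₀ : ℕ) (h₀ : 4 * a₀ + 6 * b₀ = k) :
    ∃ G : MvPolynomial (Fin 2) A, (12 ≤ k ∨ G = 0) ∧ Iso (k - 12) G ∧
      Φ = (X 0 ^ 3 - X 1 ^ 2) * G + C (aeval ![(1 : A), 1] Φ) * (X 0 ^ a₀ * X 1 ^ b₀) := by
  refine Iso.induction_on (motive := fun Φ => ∃ G : MvPolynomial (Fin 2) A,
      (12 ≤ k ∨ G = 0) ∧ Iso (k - 12) G ∧
      Φ = (X 0 ^ 3 - X 1 ^ 2) * G + C (aeval ![(1 : A), 1] Φ) * (X 0 ^ a₀ * X 1 ^ b₀))
    ?_ ?_ ?_ hΦ
  · exact ⟨0, Or.inr rfl, iso_zero _, by simp⟩
  · rintro p q _ _ ⟨G1, h1, h2, h3⟩ ⟨G2, h1', h2', h3'⟩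
    refine ⟨G1 + G2, ?_, h2.add h2', ?_⟩
    · rcases h1 with h | h
      · exact Or.inl h
      · rcases h1' with h' | h'
        · exact Or.inl h'
        · exact Or.inr (by rw [h, h', add_zero])
    · rw [map_add, map_add]
      linear_combination h3 + h3'
  · intro a b r hab
    obtain ⟨G, hG1, hG2, hG3⟩ := mono_sub_mono (A := A) a b a₀ b₀ k hab h₀
    refine ⟨C r * G, ?_, hG2.C_mul r, ?_⟩
    · rcases hG1 with h | h
      · exact Or.inl h
      · exact Or.inr (by rw [h, mul_zero])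
    · have : aeval ![(1 : A), 1] (C r * (X 0 ^ a * X 1 ^ b) : MvPolynomial (Fin 2) A) = r := by
        simp
      rw [this]
      linear_combination (C r : MvPolynomial (Fin 2) A) * hG3

/-- An isobaric polynomial vanishing at `(1,1)` is divisible by `Q³ - R²`, with isobaric
quotient. -/
theorem exists_eq_delta_mul {k : ℕ} {Φ : MvPolynomial (Fin 2) A} (hΦ : Iso k Φ)
    (h1 : aeval ![(1 : A), 1] Φ = 0) :
    ∃ G : MvPolynomial (Fin 2) A, (12 ≤ k ∨ G = 0) ∧ Iso (k - 12) G ∧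
      Φ = (X 0 ^ 3 - X 1 ^ 2) * G := by
  by_cases hΦ0 : Φ = 0
  · exact ⟨0, Or.inr rfl, iso_zero _, by simp [hΦ0]⟩
  · obtain ⟨d, hd⟩ : ∃ d, coeff d Φ ≠ 0 := by
      by_contra hcon
      simp only [not_exists, not_not] at hcon
      exact hΦ0 (MvPolynomial.ext _ _ (by simpa using hcon))
    have hw : 4 * d 0 + 6 * d 1 = k := by rw [← weight_eq]; exact hΦ hd
    obtain ⟨G, hG1, hG2, hG3⟩ := exists_eq_delta_mul_add hΦ (d 0) (d 1) hw
    refine ⟨G, hG1, hG2, ?_⟩
    rw [h1, map_zero, zero_mul, add_zero] at hG3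
    exact hG3

/-! ### Twisting by roots of unity -/

section Twist

variable {B : Type*} [CommRing B] [Algebra A B]

lemma aeval_cube_root {k : ℕ} {Φ : MvPolynomial (Fin 2) A} (hΦ : Iso k Φ) (r : B)
    (hr : r ^ 3 = 1) : aeval ![r, 1] Φ = r ^ k * aeval ![(1 : B), 1] Φ := by
  refine Iso.induction_on
    (motive := fun Φ => aeval ![r, 1] Φ = r ^ k * aeval ![(1 : B), 1] Φ) ?_ ?_ ?_ hΦ
  · simp
  · intro p q _ _ hp hq
    rw [map_add, map_add, hp, hq]; ring
  · intro a b c hab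
    rw [aeval_mono, aeval_mono]
    have : r ^ k = r ^ a := by
      rw [← hab, show 4 * a + 6 * b = a + 3 * (a + 2 * b) by ring, pow_add, pow_mul, hr, one_pow,
        mul_one]
    rw [this]; simp; ring

lemma aeval_sq_root {k : ℕ} {Φ : MvPolynomial (Fin 2) A} (hΦ : Iso k Φ) (s : B)
    (hs : s ^ 2 = 1) : aeval ![1, s] Φ = s ^ (k / 2) * aeval ![(1 : B), 1] Φ := by
  refine Iso.induction_on
    (motive := fun Φ => aeval ![1, s] Φ = s ^ (k / 2) * aeval ![(1 : B), 1] Φ) ?_ ?_ ?_ hΦ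
  · simp
  · intro p q _ _ hp hq
    rw [map_add, map_add, hp, hq]; ring
  · intro a b c hab
    rw [aeval_mono, aeval_mono]
    have hk2 : k / 2 = b + 2 * (a + b) := by omega
    have : s ^ (k / 2) = s ^ b := by
      rw [hk2, pow_add, pow_mul, hs, one_pow, mul_one]
    rw [this]; simp; ring

end Twist

/-! ### The two affine charts -/

section Charts

open Polynomial in
/-- Chart 1: `R = 1`. -/
noncomputable def chart1 : MvPolynomial (Fin 2) A →ₐ[A] Polynomial A :=
  aeval ![Polynomial.X, 1]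

open Polynomial in
/-- Chart 2: `Q = 1`. -/
noncomputable def chart2 : MvPolynomial (Fin 2) A →ₐ[A] Polynomial A :=
  aeval ![1, Polynomial.X]

lemma chart1_mono (a b : ℕ) (r : A) :
    chart1 (C r * (X 0 ^ a * X 1 ^ b) : MvPolynomial (Fin 2) A) =
      Polynomial.C r * Polynomial.X ^ a := by
  simp [chart1, aeval_mono, Polynomial.algebraMap_eq]

lemma chart2_mono (a b : ℕ) (r : A) :
    chart2 (C r * (X 0 ^ a * X 1 ^ b) : MvPolynomial (Fin 2) A) =
      Polynomial.C r * Polynomial.X ^ b := by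
  simp [chart2, aeval_mono, Polynomial.algebraMap_eq]

lemma mono_eq_monomial (a b : ℕ) (r : A) :
    (C r * (X 0 ^ a * X 1 ^ b) : MvPolynomial (Fin 2) A) =
      monomial (Finsupp.single 0 a + Finsupp.single 1 b) r := by
  rw [monomial_eq']
  simp

lemma single_add_single_eq_iff (a b a' b' : ℕ) :
    (Finsupp.single (0 : Fin 2) a + Finsupp.single 1 b =
      Finsupp.single (0 : Fin 2) a' + Finsupp.single 1 b') ↔ a = a' ∧ b = b' := by
  constructor
  · intro h
    have h0 := DFunLike.congr_fun h 0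
    have h1 := DFunLike.congr_fun h 1
    simp at h0 h1
    exact ⟨h0, h1⟩
  · rintro ⟨rfl, rfl⟩; rfl

lemma coeff_chart1 {k : ℕ} {Φ : MvPolynomial (Fin 2) A} (hΦ : Iso k Φ) (a b : ℕ)
    (hab : 4 * a + 6 * b = k) :
    (chart1 Φ).coeff a = coeff (Finsupp.single 0 a + Finsupp.single 1 b) Φ := by
  refine Iso.induction_on (motive := fun Φ =>
    (chart1 Φ).coeff a = coeff (Finsupp.single 0 a + Finsupp.single 1 b) Φ) ?_ ?_ ?_ hΦ
  · simp
  · intro p q _ _ hp hq
    rw [map_add, Polynomial.coeff_add, coeff_add, hp, hq]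
  · intro a' b' r hab'
    rw [chart1_mono, mono_eq_monomial, coeff_monomial, Polynomial.coeff_C_mul,
      Polynomial.coeff_X_pow]
    by_cases h : a = a'
    · have hb : b = b' := by omega
      subst h hb
      simp
    · have : ¬ (Finsupp.single (0 : Fin 2) a' + Finsupp.single 1 b' =
          Finsupp.single (0 : Fin 2) a + Finsupp.single 1 b) := by
        rw [single_add_single_eq_iff]; tauto
      simp [h, this]

lemma coeff_chart2 {k : ℕ} {Φ : MvPolynomial (Fin 2) A} (hΦ : Iso k Φ) (a b : ℕ)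
    (hab : 4 * a + 6 * b = k) :
    (chart2 Φ).coeff b = coeff (Finsupp.single 0 a + Finsupp.single 1 b) Φ := by
  refine Iso.induction_on (motive := fun Φ =>
    (chart2 Φ).coeff b = coeff (Finsupp.single 0 a + Finsupp.single 1 b) Φ) ?_ ?_ ?_ hΦ
  · simp
  · intro p q _ _ hp hq
    rw [map_add, Polynomial.coeff_add, coeff_add, hp, hq]
  · intro a' b' r hab'
    rw [chart2_mono, mono_eq_monomial, coeff_monomial, Polynomial.coeff_C_mul,
      Polynomial.coeff_X_pow]
    by_cases h : b = b'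
    · have ha : a = a' := by omega
      subst h ha
      simp
    · have : ¬ (Finsupp.single (0 : Fin 2) a' + Finsupp.single 1 b' =
          Finsupp.single (0 : Fin 2) a + Finsupp.single 1 b) := by
        rw [single_add_single_eq_iff]; tauto
      simp [h, this]

lemma finsupp_fin2_eq (d : Fin 2 →₀ ℕ) :
    d = Finsupp.single 0 (d 0) + Finsupp.single 1 (d 1) := by
  ext i
  fin_cases i <;> simp

/-- An isobaric polynomial of positive weight both of whose charts are constant is zero. -/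
theorem eq_zero_of_charts_const {k : ℕ} (hk : 0 < k) {Φ : MvPolynomial (Fin 2) A}
    (hΦ : Iso k Φ) (c₁ c₂ : A) (h1 : chart1 Φ = Polynomial.C c₁)
    (h2 : chart2 Φ = Polynomial.C c₂) : Φ = 0 := by
  refine MvPolynomial.ext _ _ fun d => ?_
  rw [coeff_zero]
  by_contra hd
  have hw : 4 * d 0 + 6 * d 1 = k := by rw [← weight_eq]; exact hΦ hd
  rw [finsupp_fin2_eq d] at hd
  rcases Nat.eq_zero_or_pos (d 0) with h0 | h0
  · have hb : 0 < d 1 := by omega
    rw [← coeff_chart2 hΦ (d 0) (d 1) hw, h2, Polynomial.coeff_C, if_neg hb.ne'] at hd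
    exact hd rfl
  · rw [← coeff_chart1 hΦ (d 0) (d 1) hw, h1, Polynomial.coeff_C, if_neg h0.ne'] at hd
    exact hd rfl

lemma natDegree_chart1_le {k : ℕ} {Φ : MvPolynomial (Fin 2) A} (hΦ : Iso k Φ) :
    (chart1 Φ).natDegree ≤ k := by
  refine Iso.induction_on (motive := fun Φ => (chart1 Φ).natDegree ≤ k) ?_ ?_ ?_ hΦ
  · simp
  · intro p q _ _ hp hq
    rw [map_add]
    exact (Polynomial.natDegree_add_le _ _).trans (max_le hp hq)
  · intro a b r hab
    rw [chart1_mono]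
    exact (Polynomial.natDegree_C_mul_X_pow_le r a).trans (by omega)

lemma natDegree_chart2_le {k : ℕ} {Φ : MvPolynomial (Fin 2) A} (hΦ : Iso k Φ) :
    (chart2 Φ).natDegree ≤ k := by
  refine Iso.induction_on (motive := fun Φ => (chart2 Φ).natDegree ≤ k) ?_ ?_ ?_ hΦ
  · simp
  · intro p q _ _ hp hq
    rw [map_add]
    exact (Polynomial.natDegree_add_le _ _).trans (max_le hp hq)
  · intro a b r hab
    rw [chart2_mono]
    exact (Polynomial.natDegree_C_mul_X_pow_le r b).trans (by omega)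

end Charts

end Fermat.Agent.S16.SwDIso
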