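/-
S16, Swinnerton-Dyer block (helper98), file 2: the formal (purely algebraic) core.
Over an algebraically closed field `κ` of characteristic `ℓ ≥ 5`, given "series data"
`x, y, p` in a `κ`-domain `B` with a derivation `Θ` satisfying Ramanujan's identities,
an isobaric `Ã` of weight `ℓ - 1` evaluating to `1` (the Hasse invariant), and an isobaric `Φ`
of weight `k` evaluating to a nonzero constant, we get `(ℓ - 1) ∣ k`.
-/
import Fermat.Agent.S16.SwDIso

set_option autoImplicit false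

namespace Fermat.Agent.S16.SwDFormal

open Fermat.Agent.S16.SwDIso

/-! ### Injectivity of evaluation on isobaric polynomials -/

section F1

open MvPolynomial

variable {κ : Type*} [Field κ] {B : Type*} [CommRing B] [IsDomain B] [Algebra κ B]

theorem eq_zero_of_aeval_eq_zero (x y : B) (hΔ : x ^ 3 - y ^ 2 ≠ 0)
    (hε : ∀ Φ : MvPolynomial (Fin 2) κ, aeval ![x, y] Φ = 0 → aeval ![(1 : κ), 1] Φ = 0) :
    ∀ (k : ℕ) (Φ : MvPolynomial (Fin 2) κ), Iso k Φ → aeval ![x, y] Φ = 0 → Φ = 0 := by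
  intro k
  induction k using Nat.strong_induction_on with
  | _ k ih =>
    intro Φ hΦ h0
    obtain ⟨G, hG1, hG2, hG3⟩ := exists_eq_delta_mul hΦ (hε Φ h0)
    rcases hG1 with h12 | hG0
    · have hG : aeval ![x, y] G = 0 := by
        rw [hG3, map_mul] at h0
        have e : aeval ![x, y] (X 0 ^ 3 - X 1 ^ 2 : MvPolynomial (Fin 2) κ) = x ^ 3 - y ^ 2 := by
          simp
        rw [e] at h0
        exact (mul_eq_zero.mp h0).resolve_left hΔ
      rw [hG3, ih (k - 12) (by omega) G hG2 hG, mul_zero]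
    · rw [hG3, hG0, mul_zero]

theorem eq_of_aeval_eq (x y : B) (hΔ : x ^ 3 - y ^ 2 ≠ 0)
    (hε : ∀ Φ : MvPolynomial (Fin 2) κ, aeval ![x, y] Φ = 0 → aeval ![(1 : κ), 1] Φ = 0)
    {k : ℕ} {Φ Ψ : MvPolynomial (Fin 2) κ} (hΦ : Iso k Φ) (hΨ : Iso k Ψ)
    (h : aeval ![x, y] Φ = aeval ![x, y] Ψ) : Φ = Ψ := by
  have := eq_zero_of_aeval_eq_zero x y hΔ hε k (Φ - Ψ) (hΦ.sub hΨ) (by rw [map_sub, h, sub_self])
  exact sub_eq_zero.mp this

end F1

/-! ### The multiplicity lemma -/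

section Mult

open Polynomial

theorem mult_lemma {κ : Type*} [Field κ] (u g₁ g₂ w α β : κ[X]) (r : κ) (hα : α ≠ 0)
    (hu : u.eval r ≠ 0)
    (hβ : β = u * derivative α + g₁ * α) (h2 : u * derivative β + g₂ * β = w * α) :
    ((rootMultiplicity r α : ℕ) : κ) * ((rootMultiplicity r α : κ) - 1) = 0 := by
  obtain ⟨β₀, hβ₀, hndvd⟩ := exists_eq_pow_rootMultiplicity_mul_and_not_dvd α hα r
  set a := rootMultiplicity r α with ha
  rcases Nat.lt_or_ge a 2 with hlt | hge
  · interval_cases a <;> simp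
  obtain ⟨n, hn⟩ : ∃ n, a = n + 2 := ⟨a - 2, by omega⟩
  rw [hn] at hβ₀ ⊢
  set t : κ[X] := X - C r with ht
  have ht0 : t ≠ 0 := X_sub_C_ne_zero r
  have hdt : derivative t = 1 := by simp [ht]
  have hβ₀r : β₀.eval r ≠ 0 := fun h => hndvd (dvd_iff_isRoot.mpr h)
  set γ : κ[X] := C ((n + 2 : ℕ) : κ) * u * β₀ + t * (u * derivative β₀ + g₁ * β₀) with hγ
  have e1 : β = t ^ (n + 1) * γ := by
    rw [hβ, hβ₀, derivative_mul, derivative_pow, hdt, hγ]
    simp only [show n + 2 - 1 = n + 1 by omega]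
    ring
  have e2 : t ^ n * (C ((n + 1 : ℕ) : κ) * u * γ + t * (u * derivative γ + g₂ * γ)) =
      t ^ n * (t ^ 2 * w * β₀) := by
    have : u * derivative β + g₂ * β = w * α := h2
    rw [e1, hβ₀, derivative_mul, derivative_pow, hdt] at this
    simp only [show n + 1 - 1 = n by omega] at this
    linear_combination this
  have e3 := mul_left_cancel₀ (pow_ne_zero n ht0) e2
  have e4 := congrArg (eval r) e3
  simp only [eval_add, eval_mul, eval_pow, eval_C, ht, eval_sub, eval_X, sub_self, zero_mul,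
    add_zero, hγ, ne_eq, OfNat.ofNat_ne_zero, not_false_eq_true, zero_pow] at e4
  have : ((n + 1 : ℕ) : κ) * ((n + 2 : ℕ) : κ) = 0 := by
    have h5 : ((n + 1 : ℕ) : κ) * ((n + 2 : ℕ) : κ) * (eval r u ^ 2 * eval r β₀) = 0 := by
      linear_combination e4
    rcases mul_eq_zero.mp h5 with h | h
    · exact h
    · exact absurd h (mul_ne_zero (pow_ne_zero 2 hu) hβ₀r)
  push_cast at this ⊢
  linear_combination this

end Mult

/-! ### The chart argument -/

section Chart

open Polynomial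

variable {κ : Type*} [Field κ] (ℓ : ℕ) [hℓp : Fact ℓ.Prime] [CharP κ ℓ]

include hℓp in
lemma natCast_pred_eq : (((ℓ - 1 : ℕ)) : κ[X]) = -1 := by
  have h1 : 1 ≤ ℓ := hℓp.out.one_lt.le
  have h0 : ((ℓ : ℕ) : κ[X]) = 0 := by
    have : ((ℓ : ℕ) : κ[X]) = C ((ℓ : ℕ) : κ) := by simp
    rw [this, CharP.cast_eq_zero κ ℓ, map_zero]
  rw [Nat.cast_sub h1, h0]; simp

include hℓp in
lemma natCast_succ_eq : (((ℓ - 1 + 2 : ℕ)) : κ[X]) = 1 := by
  have h1 : 1 ≤ ℓ := hℓp.out.one_lt.le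
  have h0 : ((ℓ : ℕ) : κ[X]) = 0 := by
    have : ((ℓ : ℕ) : κ[X]) = C ((ℓ : ℕ) : κ) := by simp
    rw [this, CharP.cast_eq_zero κ ℓ, map_zero]
  have : ℓ - 1 + 2 = ℓ + 1 := by omega
  rw [this, Nat.cast_add, h0]; simp

/-- In a chart in which `∂` becomes `u · d/dX - k · pp`, the chart of `Ã` is constant. -/
theorem chart_const [IsAlgClosed κ]
    (ch : MvPolynomial (Fin 2) κ →ₐ[κ] κ[X]) (u pp w : κ[X])
    (hdd : ∀ (k : ℕ) (Φ : MvPolynomial (Fin 2) κ), Iso k Φ →
      ch (dd Φ) = u * derivative (ch Φ) - (k : κ[X]) * pp * ch Φ)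
    (hQ : ch (MvPolynomial.X 0) = w)
    (Atil : MvPolynomial (Fin 2) κ) (hA : Iso (ℓ - 1) Atil)
    (hroot : ∀ r : κ, u.eval r = 0 → (ch Atil).eval r ≠ 0)
    (hdeg : (ch Atil).natDegree < ℓ) (hne : ch Atil ≠ 0)
    (hode : dd (dd Atil) = -(MvPolynomial.X 0 * Atil))
    (Φ : MvPolynomial (Fin 2) κ) (c : κ) (hc : c ≠ 0) (e m : ℕ) (he : 2 ≤ e)
    (hcop : Nat.Coprime m e) (hpow : Φ ^ e = MvPolynomial.C (c ^ e) * Atil ^ m) :
    ∃ c' : κ, ch Atil = C c' := by
  classical
  set α := ch Atil with hα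
  set β := ch (dd Atil) with hβ
  have h1 : β = u * derivative α + pp * α := by
    rw [hβ, hdd _ _ hA, natCast_pred_eq ℓ]; ring
  have h2 : u * derivative β + (-pp) * β = (-w) * α := by
    have := hdd _ _ (iso_dd hA)
    rw [hode, natCast_succ_eq ℓ, map_neg, map_mul, hQ] at this
    rw [hβ, hα]
    linear_combination -this
  by_contra hcon
  have hdeg0 : α.degree ≠ 0 := by
    intro h0
    exact hcon ⟨α.coeff 0, eq_C_of_degree_eq_zero h0⟩
  obtain ⟨r, hr⟩ := IsAlgClosed.exists_root α hdeg0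
  have hur : u.eval r ≠ 0 := fun h => hroot r h hr
  have hmul := mult_lemma u pp (-pp) (-w) α β r hne hur h1 h2
  set a := rootMultiplicity r α with ha
  have ha1 : 1 ≤ a := (rootMultiplicity_pos hne).mpr hr
  have haℓ : a < ℓ := by
    have hdvd : (X - C r) ^ a ∣ α := pow_rootMultiplicity_dvd α r
    have := natDegree_le_of_dvd hdvd hne
    rw [natDegree_pow, natDegree_X_sub_C, mul_one] at this
    omega
  have ha_eq : a = 1 := by
    have h3 : (((a * (a - 1) : ℕ)) : κ) = 0 := by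
      rw [Nat.cast_mul, Nat.cast_sub ha1, Nat.cast_one]; exact hmul
    rw [CharP.cast_eq_zero_iff κ ℓ] at h3
    rcases (Nat.Prime.dvd_mul hℓp.out).mp h3 with h | h
    · exact absurd (Nat.le_of_dvd (by omega) h) (by omega)
    · rcases Nat.eq_zero_or_pos (a - 1) with h0 | hpos
      · omega
      · exact absurd (Nat.le_of_dvd hpos h) (by omega)
  -- compare root multiplicities in `ch Φ ^ e = C (c^e) * α ^ m`
  have hC : ch (MvPolynomial.C (c ^ e)) = C (c ^ e) := by
    rw [← MvPolynomial.algebraMap_eq, AlgHom.commutes, Polynomial.algebraMap_eq]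
  have hpow' : (ch Φ) ^ e = C (c ^ e) * α ^ m := by
    rw [← map_pow, hpow, map_mul, hC, map_pow ch Atil m]
  have hcount : Multiset.count r ((ch Φ) ^ e).roots = Multiset.count r (C (c ^ e) * α ^ m).roots := by
    rw [hpow']
  rw [roots_pow, roots_C_mul _ (pow_ne_zero e hc), roots_pow, Multiset.count_nsmul,
    Multiset.count_nsmul, count_roots, count_roots, ← ha, ha_eq, mul_one] at hcount
  have hdvd : e ∣ m := ⟨_, hcount.symm⟩
  have : e ∣ 1 := by
    have := Nat.Coprime.dvd_of_dvd_mul_left (hcop.symm) (k := e) (m := m) (n := 1) (by simpa using hdvd)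
    exact this
  have : e = 1 := Nat.dvd_one.mp this
  omega

end Chart


/-! ### The formal main theorem -/

section Main

open Polynomial

lemma eval_chart1 {A : Type*} [CommRing A] (r : A) (Φ : MvPolynomial (Fin 2) A) :
    (chart1 Φ).eval r = MvPolynomial.aeval ![r, 1] Φ := by
  have h := MvPolynomial.comp_aeval (R := A) ![(Polynomial.X : A[X]), 1] (Polynomial.aeval r)
  have h2 : (fun i => (Polynomial.aeval r) (![(Polynomial.X : A[X]), 1] i)) = ![r, 1] := by
    funext i; fin_cases i <;> simp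
  rw [h2] at h
  have := congrArg (fun f => f Φ) h
  simpa [chart1, Polynomial.coe_aeval_eq_eval] using this

lemma eval_chart2 {A : Type*} [CommRing A] (r : A) (Φ : MvPolynomial (Fin 2) A) :
    (chart2 Φ).eval r = MvPolynomial.aeval ![1, r] Φ := by
  have h := MvPolynomial.comp_aeval (R := A) ![1, (Polynomial.X : A[X])] (Polynomial.aeval r)
  have h2 : (fun i => (Polynomial.aeval r) (![1, (Polynomial.X : A[X])] i)) = ![1, r] := by
    funext i; fin_cases i <;> simp
  rw [h2] at h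
  have := congrArg (fun f => f Φ) h
  simpa [chart2, Polynomial.coe_aeval_eq_eval] using this

variable {κ : Type*} [Field κ] (ℓ : ℕ) [hℓp : Fact ℓ.Prime] [CharP κ ℓ]

lemma chart1_dd (k : ℕ) (Φ : MvPolynomial (Fin 2) κ) (hΦ : Iso k Φ) :
    chart1 (dd Φ) = (4 * (X ^ 3 - 1)) * derivative (chart1 Φ) - (k : κ[X]) * X ^ 2 * chart1 Φ := by
  have := aeval_dd (A := κ) (B := κ[X])
    ((4 * (X ^ 3 - 1) : κ[X]) • (Polynomial.derivative' : Derivation κ κ[X] κ[X]))
    X 1 (X ^ 2)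
    (by rw [Derivation.coe_smul, Pi.smul_apply, smul_eq_mul]
        show _ * derivative X = _
        rw [derivative_X]; ring)
    (by simp) hΦ
  simpa [chart1] using this

lemma chart2_dd (k : ℕ) (Φ : MvPolynomial (Fin 2) κ) (hΦ : Iso k Φ) :
    chart2 (dd Φ) = (6 * (X ^ 2 - 1)) * derivative (chart2 Φ) - (k : κ[X]) * X * chart2 Φ := by
  have := aeval_dd (A := κ) (B := κ[X])
    ((6 * (X ^ 2 - 1) : κ[X]) • (Polynomial.derivative' : Derivation κ κ[X] κ[X]))
    1 X X (by simp)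
    (by rw [Derivation.coe_smul, Pi.smul_apply, smul_eq_mul]
        show _ * derivative X = _
        rw [derivative_X]; ring) hΦ
  simpa [chart2] using this

omit hℓp in
lemma natCast_ne_zero_of_lt {n : ℕ} (h0 : 0 < n) (hn : n < ℓ) : ((n : ℕ) : κ) ≠ 0 := by
  intro h
  rw [CharP.cast_eq_zero_iff κ ℓ] at h
  exact absurd (Nat.le_of_dvd h0 h) (by omega)

lemma natCast_pred_eq' (κ : Type*) [Field κ] (ℓ : ℕ) [hℓp : Fact ℓ.Prime] [CharP κ ℓ]
    (B : Type*) [CommRing B] [Algebra κ B] : (((ℓ - 1 : ℕ)) : B) = -1 := by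
  have h1 : 1 ≤ ℓ := hℓp.out.one_lt.le
  have h0 : ((ℓ : ℕ) : B) = 0 := by
    rw [← map_natCast (algebraMap κ B), CharP.cast_eq_zero κ ℓ, map_zero]
  rw [Nat.cast_sub h1, h0]; simp

lemma natCast_succ_eq' (κ : Type*) [Field κ] (ℓ : ℕ) [hℓp : Fact ℓ.Prime] [CharP κ ℓ]
    (B : Type*) [CommRing B] [Algebra κ B] : (((ℓ - 1 + 2 : ℕ)) : B) = 1 := by
  have h1 : 1 ≤ ℓ := hℓp.out.one_lt.le
  have h0 : ((ℓ : ℕ) : B) = 0 := by
    rw [← map_natCast (algebraMap κ B), CharP.cast_eq_zero κ ℓ, map_zero]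
  have : ℓ - 1 + 2 = ℓ + 1 := by omega
  rw [this, Nat.cast_add, h0]; simp

variable {B : Type*} [CommRing B] [IsDomain B] [Algebra κ B]

/-- **Formal Swinnerton-Dyer theorem.** -/
theorem main [IsAlgClosed κ] (hℓ : 5 ≤ ℓ) (Θ : Derivation κ B B) (x y p : B)
    (hx : Θ x = 4 * (p * x - y)) (hy : Θ y = 6 * (p * y - x ^ 2)) (hp : Θ p = p ^ 2 - x)
    (hΔ : x ^ 3 - y ^ 2 ≠ 0)
    (hε : ∀ Φ : MvPolynomial (Fin 2) κ,
      MvPolynomial.aeval ![x, y] Φ = 0 → MvPolynomial.aeval ![(1 : κ), 1] Φ = 0)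
    (Atil : MvPolynomial (Fin 2) κ) (hA : Iso (ℓ - 1) Atil)
    (hA1 : MvPolynomial.aeval ![x, y] Atil = 1)
    (k : ℕ) (Φ : MvPolynomial (Fin 2) κ) (hΦ : Iso k Φ) (c : κ) (hc : c ≠ 0)
    (hΦc : MvPolynomial.aeval ![x, y] Φ = algebraMap κ B c) : (ℓ - 1) ∣ k := by
  have hℓ1 : 0 < ℓ - 1 := by omega
  -- the second order equation
  have hode : dd (dd Atil) = -(MvPolynomial.X 0 * Atil) := by
    refine eq_of_aeval_eq x y hΔ hε (iso_dd (iso_dd hA))
      (((iso_Q (A := κ)).mul hA).neg.congr (by omega)) ?_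
    have e1 : MvPolynomial.aeval ![x, y] (dd Atil) = p := by
      rw [aeval_dd Θ x y p hx hy hA, hA1, Derivation.map_one_eq_zero, natCast_pred_eq' κ ℓ B]
      ring
    rw [aeval_dd Θ x y p hx hy (iso_dd hA), e1, hp, natCast_succ_eq' κ ℓ B, map_neg, map_mul, hA1]
    simp
    ring
  -- value at (1,1)
  have hA11 : MvPolynomial.aeval ![(1 : κ), 1] Atil = 1 := by
    have := hε (Atil - 1) (by rw [map_sub, hA1, map_one, sub_self])
    rw [map_sub, map_one] at this
    exact sub_eq_zero.mp this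
  -- arithmetic
  have hgpos : 0 < Nat.gcd k (ℓ - 1) := Nat.gcd_pos_of_pos_right _ hℓ1
  obtain ⟨e, hl'⟩ : ∃ e, ℓ - 1 = Nat.gcd k (ℓ - 1) * e := Nat.gcd_dvd_right k (ℓ - 1)
  obtain ⟨m, hk'⟩ : ∃ m, k = Nat.gcd k (ℓ - 1) * m := Nat.gcd_dvd_left k (ℓ - 1)
  have hcop : Nat.Coprime m e := by
    have := Nat.coprime_div_gcd_div_gcd hgpos
    rwa [Nat.div_eq_of_eq_mul_right hgpos hk', Nat.div_eq_of_eq_mul_right hgpos hl'] at this
  generalize Nat.gcd k (ℓ - 1) = g at hgpos hl' hk'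
  by_cases he1 : e = 1
  · rw [hl', hk', he1, mul_one]; exact dvd_mul_right g m
  exfalso
  have he0 : e ≠ 0 := by
    intro h0; rw [h0, mul_zero] at hl'; omega
  have he2 : 2 ≤ e := by omega
  have hwt : m * (ℓ - 1) = e * k := by
    calc m * (ℓ - 1) = m * (g * e) := by rw [← hl']
      _ = e * (g * m) := by ring
      _ = e * k := by rw [← hk']
  have hpow : Φ ^ e = MvPolynomial.C (c ^ e) * Atil ^ m := by
    refine eq_of_aeval_eq x y hΔ hε (hΦ.pow e) (((hA.pow m).C_mul _).congr hwt) ?_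
    have h1 : MvPolynomial.aeval ![x, y] (MvPolynomial.C (c ^ e) * Atil ^ m) =
        algebraMap κ B (c ^ e) := by
      rw [map_mul, MvPolynomial.aeval_C, map_pow (MvPolynomial.aeval ![x, y]) Atil m, hA1, one_pow,
        mul_one]
    rw [map_pow (MvPolynomial.aeval ![x, y]) Φ e, hΦc, h1, map_pow]
  -- chart 1
  have h4 : (4 : κ) ≠ 0 := by
    have := natCast_ne_zero_of_lt (κ := κ) ℓ (n := 4) (by norm_num) (by omega)
    exact_mod_cast this
  have h6 : (6 : κ) ≠ 0 := by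
    intro h
    have h' : ((6 : ℕ) : κ) = 0 := by exact_mod_cast h
    rw [CharP.cast_eq_zero_iff κ ℓ] at h'
    have h'' : ℓ ∣ 2 * 3 := h'
    rcases (Nat.Prime.dvd_mul hℓp.out).mp h'' with h2 | h3
    · exact absurd (Nat.le_of_dvd (by norm_num) h2) (by omega)
    · exact absurd (Nat.le_of_dvd (by norm_num) h3) (by omega)
  obtain ⟨c₁, hc₁⟩ := chart_const ℓ chart1 (4 * (X ^ 3 - 1)) (X ^ 2) X
    (chart1_dd) (by simp [chart1]) Atil hA
    (by
      intro r hr
      have hr3 : r ^ 3 = 1 := by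
        have : (4 : κ) * (r ^ 3 - 1) = 0 := by simpa using hr
        have := (mul_eq_zero.mp this).resolve_left h4
        exact sub_eq_zero.mp this
      rw [eval_chart1, aeval_cube_root hA r hr3, hA11, mul_one]
      have hr0 : r ≠ 0 := by
        intro h0; rw [h0] at hr3; simp at hr3
      exact pow_ne_zero _ hr0)
    (lt_of_le_of_lt (natDegree_chart1_le hA) (by omega))
    (by
      intro h0
      have := eval_chart1 (1 : κ) Atil
      rw [h0, hA11] at this
      simp at this)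
    hode Φ c hc e m he2 hcop hpow
  obtain ⟨c₂, hc₂⟩ := chart_const ℓ chart2 (6 * (X ^ 2 - 1)) X 1
    (chart2_dd) (by simp [chart2]) Atil hA
    (by
      intro r hr
      have hr2 : r ^ 2 = 1 := by
        have : (6 : κ) * (r ^ 2 - 1) = 0 := by simpa using hr
        have := (mul_eq_zero.mp this).resolve_left h6
        exact sub_eq_zero.mp this
      rw [eval_chart2, aeval_sq_root hA r hr2, hA11, mul_one]
      have hr0 : r ≠ 0 := by
        intro h0; rw [h0] at hr2; simp at hr2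
      exact pow_ne_zero _ hr0)
    (lt_of_le_of_lt (natDegree_chart2_le hA) (by omega))
    (by
      intro h0
      have := eval_chart2 (1 : κ) Atil
      rw [h0, hA11] at this
      simp at this)
    hode Φ c hc e m he2 hcop hpow
  have hA0 : Atil = 0 := eq_zero_of_charts_const hℓ1 hA c₁ c₂ hc₁ hc₂
  rw [hA0, map_zero] at hA1
  exact zero_ne_one hA1

end Main

end Fermat.Agent.S16.SwDFormal
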