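/-
S16, Swinnerton-Dyer block: the Hasse invariant input `E_{ℓ-1} ≡ 1 (mod ℓ)` (helper98).
From Mathlib's `Bernoulli.vonStaudt_clausen` and `E_qExpansion_coeff`: for a prime `ℓ ≥ 5` the
`m`-th q-coefficient (`m ≥ 1`) of `E_{ℓ-1}` is `ℓ * (u / v) * σ_{ℓ-2}(m)` with `ℓ ∤ v`.
-/
import Mathlib

set_option autoImplicit false

namespace Fermat.Agent.S16.SwDHasseB

open ModularForm ModularFormClass EisensteinSeries ArithmeticFunction UpperHalfPlane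

/-- `x` is `ℓ`-integral. -/
def LInt (ℓ : ℕ) (x : ℚ) : Prop := ¬ ℓ ∣ x.den

variable {ℓ : ℕ} [hℓ : Fact ℓ.Prime]

lemma LInt.add {x y : ℚ} (hx : LInt ℓ x) (hy : LInt ℓ y) : LInt ℓ (x + y) := by
  intro h
  have := h.trans (Rat.add_den_dvd x y)
  rcases (Nat.Prime.dvd_mul hℓ.out).mp this with h1 | h1
  · exact hx h1
  · exact hy h1

omit hℓ in
lemma LInt.neg {x : ℚ} (hx : LInt ℓ x) : LInt ℓ (-x) := by
  unfold LInt at *
  rwa [Rat.neg_den]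

lemma lInt_intCast (n : ℤ) : LInt ℓ (n : ℚ) := by
  unfold LInt
  have h1 : ((n : ℚ)).den = 1 := by simp
  rw [h1]
  exact hℓ.out.one_lt.ne' ∘ Nat.dvd_one.mp

lemma lInt_zero : LInt ℓ (0 : ℚ) := by
  simpa using lInt_intCast (ℓ := ℓ) 0

lemma LInt.sum {ι : Type*} (s : Finset ι) (f : ι → ℚ) (h : ∀ i ∈ s, LInt ℓ (f i)) :
    LInt ℓ (∑ i ∈ s, f i) := by
  classical
  induction s using Finset.induction_on with
  | empty => simpa using lInt_zero (ℓ := ℓ)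
  | insert a s ha ih =>
    rw [Finset.sum_insert ha]
    exact (h a (Finset.mem_insert_self a s)).add
      (ih fun i hi => h i (Finset.mem_insert_of_mem hi))

lemma lInt_one_div_prime {q : ℕ} (hq : q.Prime) (hne : q ≠ ℓ) : LInt ℓ ((1 : ℚ) / q) := by
  unfold LInt
  have : ((1 : ℚ) / q).den = q := by simp [hq.ne_zero]
  rw [this]
  intro h
  exact hne ((Nat.prime_dvd_prime_iff_eq hℓ.out hq).mp h).symm

/-- `B_{ℓ-1} + 1/ℓ` is `ℓ`-integral (von Staudt–Clausen). -/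
theorem lInt_bernoulli_add (hodd : ℓ ≠ 2) : LInt ℓ (bernoulli (ℓ - 1) + 1 / (ℓ : ℚ)) := by
  classical
  have h2 : 2 ≤ ℓ := hℓ.out.two_le
  obtain ⟨k₀, hk₀⟩ : ∃ k₀, ℓ - 1 = 2 * k₀ := by
    rcases hℓ.out.eq_two_or_odd with h | h
    · exact absurd h hodd
    · exact ⟨(ℓ - 1) / 2, by omega⟩
  obtain ⟨n, hn⟩ := Bernoulli.vonStaudt_clausen k₀
  rw [hk₀]
  set s := (Finset.range (2 * k₀ + 2)).filter fun p => p.Prime ∧ (p - 1) ∣ 2 * k₀ with hs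
  have hmem : ℓ ∈ s := by
    rw [hs, Finset.mem_filter, Finset.mem_range]
    exact ⟨by omega, hℓ.out, by rw [← hk₀]⟩
  have hsplit : (∑ p ∈ s, (1 : ℚ) / p) = 1 / (ℓ : ℚ) + ∑ p ∈ s.erase ℓ, (1 : ℚ) / p :=
    (Finset.add_sum_erase s (fun p => (1 : ℚ) / p) hmem).symm
  have hn' : bernoulli (2 * k₀) + ∑ p ∈ s, (1 : ℚ) / p = (n : ℚ) := hn.symm
  have key : bernoulli (2 * k₀) + 1 / (ℓ : ℚ) = (n : ℚ) + -(∑ p ∈ s.erase ℓ, (1 : ℚ) / p) := by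
    rw [hsplit] at hn'
    linear_combination hn'
  rw [key]
  refine (lInt_intCast n).add (LInt.neg (LInt.sum _ _ fun q hq => ?_))
  rw [Finset.mem_erase, hs, Finset.mem_filter] at hq
  exact lInt_one_div_prime hq.2.2.1 hq.1

/-- The rational form of the Hasse congruence: `-(2(ℓ-1)/B_{ℓ-1}) = ℓ * u / v`, `ℓ ∤ v`. -/
theorem exists_coeff_eq (hodd : ℓ ≠ 2) :
    ∃ (u : ℤ) (v : ℕ), ¬ ℓ ∣ v ∧
      -(2 * ((ℓ - 1 : ℕ) : ℚ) / bernoulli (ℓ - 1)) = (ℓ : ℚ) * u / v := by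
  set x := bernoulli (ℓ - 1) + 1 / (ℓ : ℚ) with hx
  have hxint : LInt ℓ x := lInt_bernoulli_add hodd
  have hℓ0 : (ℓ : ℚ) ≠ 0 := Nat.cast_ne_zero.mpr hℓ.out.ne_zero
  have hd0 : (x.den : ℚ) ≠ 0 := Nat.cast_ne_zero.mpr x.den_ne_zero
  set N : ℤ := (ℓ : ℤ) * x.num - x.den with hN
  have hNdvd : ¬ (ℓ : ℤ) ∣ N := by
    intro h
    have h1 : (ℓ : ℤ) ∣ (x.den : ℤ) := by
      have : (x.den : ℤ) = (ℓ : ℤ) * x.num - N := by rw [hN]; ring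
      rw [this]
      exact dvd_sub (dvd_mul_right _ _) h
    exact hxint (Int.natCast_dvd_natCast.mp h1)
  have hN0 : N ≠ 0 := fun h => hNdvd (h ▸ dvd_zero _)
  have hNq : (N : ℚ) ≠ 0 := Int.cast_ne_zero.mpr hN0
  have hxm : x * (x.den : ℚ) = (x.num : ℚ) := Rat.mul_den_eq_num x
  have hB : bernoulli (ℓ - 1) = (N : ℚ) / ((ℓ : ℚ) * x.den) := by
    have : bernoulli (ℓ - 1) = x - 1 / (ℓ : ℚ) := by rw [hx]; ring
    rw [this, eq_div_iff (mul_ne_zero hℓ0 hd0), hN]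
    push_cast
    field_simp
    linear_combination (ℓ : ℚ) * hxm
  rcases lt_or_gt_of_ne hN0 with hneg | hpos
  · have hv : (((-N).toNat : ℕ) : ℤ) = -N := Int.toNat_of_nonneg (by omega)
    refine ⟨2 * ((ℓ - 1 : ℕ) : ℤ) * x.den, (-N).toNat, ?_, ?_⟩
    · intro h
      have h1 : (ℓ : ℤ) ∣ (((-N).toNat : ℕ) : ℤ) := Int.natCast_dvd_natCast.mpr h
      rw [hv] at h1
      exact hNdvd ((dvd_neg).mp h1)
    · have hvq : (((-N).toNat : ℕ) : ℚ) = -(N : ℚ) := by exact_mod_cast hv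
      rw [hB, hvq]
      push_cast
      field_simp
  · have hv : ((N.toNat : ℕ) : ℤ) = N := Int.toNat_of_nonneg (by omega)
    refine ⟨-(2 * ((ℓ - 1 : ℕ) : ℤ) * x.den), N.toNat, ?_, ?_⟩
    · intro h
      have h1 : (ℓ : ℤ) ∣ ((N.toNat : ℕ) : ℤ) := Int.natCast_dvd_natCast.mpr h
      rw [hv] at h1
      exact hNdvd h1
    · have hvq : ((N.toNat : ℕ) : ℚ) = (N : ℚ) := by exact_mod_cast hv
      rw [hB, hvq]
      push_cast
      field_simp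

/-- **Hasse invariant**: for a prime `ℓ ≥ 5`, `E_{ℓ-1} ≡ 1 (mod ℓ)`: its `m`-th q-coefficient
(`m ≥ 1`) is `ℓ * (u / v) * σ_{ℓ-2}(m)` with `ℓ ∤ v`. -/
theorem hasse (ℓ : ℕ) [hℓ : Fact ℓ.Prime] (hl : 5 ≤ ℓ) (hk : 3 ≤ ℓ - 1) :
    ∃ (u : ℤ) (v : ℕ), ¬ ℓ ∣ v ∧ ∀ m : ℕ,
      (qExpansion 1 (E hk)).coeff m =
        if m = 0 then 1 else ((ℓ : ℂ) * u / v) * (ArithmeticFunction.sigma (ℓ - 2) m : ℂ) := by
  have hodd : ℓ ≠ 2 := by omega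
  have heven : Even (ℓ - 1) := by
    rcases hℓ.out.eq_two_or_odd with h | h
    · exact absurd h hodd
    · exact ⟨(ℓ - 1) / 2, by omega⟩
  obtain ⟨u, v, hv, huv⟩ := exists_coeff_eq (ℓ := ℓ) hodd
  refine ⟨u, v, hv, fun m => ?_⟩
  rw [E_qExpansion_coeff hk heven m]
  by_cases hm : m = 0
  · simp [hm]
  · rw [if_neg hm, if_neg hm]
    have h2 : ℓ - 1 - 1 = ℓ - 2 := by omega
    rw [h2]
    congr 1
    have h3 : ((-(2 * ((ℓ - 1 : ℕ) : ℚ) / bernoulli (ℓ - 1)) : ℚ) : ℂ) =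
        (((ℓ : ℚ) * u / v : ℚ) : ℂ) := by rw [huv]
    push_cast at h3 ⊢
    exact h3

end Fermat.Agent.S16.SwDHasseB
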