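import Mathlib

/-!
# S16, upper bound for `ℓ ≥ 5`: the Swinnerton-Dyer step as pure algebra

`K` a field of characteristic `ℓ`, `P Q R : K⟦X⟧` power series (the reductions of `E₂, E₄, E₆`)
satisfying Ramanujan's differential equations, `A` an isobaric polynomial of weight `ℓ - 1`
in `K[X₀, X₁]` (weights `4, 6`) with `A(Q, R) = 1` (the Hasse invariant `E_{ℓ-1}`).

Main result `dvd_weight_of_aeval_eq_C`: an isobaric `Φ` of weight `k` with `Φ(Q, R)` a nonzero
constant has `(ℓ - 1) ∣ k`.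
-/

set_option autoImplicit false

open MvPolynomial

namespace Fermat.Agent.S16.SwdCore

variable {K : Type*} [Field K]

/-- the weights of `X₀ = E₄`, `X₁ = E₆`. -/
def wt : Fin 2 → ℕ := ![4, 6]

/-- `θ = q d/dq` on power series. -/
noncomputable def theta : Derivation K (PowerSeries K) (PowerSeries K) :=
  (PowerSeries.X : PowerSeries K) • PowerSeries.derivative K

lemma theta_apply (f : PowerSeries K) :
    theta f = PowerSeries.X * PowerSeries.derivative K f := rfl

/-- the Ramanujan–Serre derivation `∂X₀ = -4X₁`, `∂X₁ = -6X₀²` (it is `12θ - kP` in weight `k`). -/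
noncomputable def del : Derivation K (MvPolynomial (Fin 2) K) (MvPolynomial (Fin 2) K) :=
  mkDerivation K ![-4 * X 1, -6 * X 0 ^ 2]

@[simp] lemma del_X0 : del (X 0 : MvPolynomial (Fin 2) K) = -4 * X 1 := by
  simp [del, mkDerivation_X]

@[simp] lemma del_X1 : del (X 1 : MvPolynomial (Fin 2) K) = -6 * X 0 ^ 2 := by
  simp [del, mkDerivation_X]

/-- evaluation at `(Q, R)`. -/
noncomputable def ev (Q R : PowerSeries K) : MvPolynomial (Fin 2) K →ₐ[K] PowerSeries K :=
  aeval ![Q, R]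

@[simp] lemma ev_X0 (Q R : PowerSeries K) : ev Q R (X 0) = Q := by simp [ev]
@[simp] lemma ev_X1 (Q R : PowerSeries K) : ev Q R (X 1) = R := by simp [ev]
@[simp] lemma ev_C (Q R : PowerSeries K) (c : K) : ev Q R (C c) = PowerSeries.C c := by
  simp [ev]

lemma monomial_fin_two (d : Fin 2 →₀ ℕ) (r : K) :
    monomial d r = C r * X 0 ^ d 0 * X 1 ^ d 1 := by
  rw [monomial_eq, Finsupp.prod_fintype _ _ (fun i => pow_zero _), Fin.prod_univ_two, mul_assoc]

lemma weight_fin_two (d : Fin 2 →₀ ℕ) : Finsupp.weight wt d = d 0 * 4 + d 1 * 6 := by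
  rw [Finsupp.weight_apply, Finsupp.sum_fintype _ _ (fun i => by simp), Fin.sum_univ_two]
  simp [wt]


/-! ### `12θ(Φ(Q,R)) = (∂Φ)(Q,R) + k·P·Φ(Q,R)` for isobaric `Φ` of weight `k` -/

section Good

variable (P Q R : PowerSeries K)

/-- the compatibility of `θ` and `∂` in weight `k`. -/
def Good (p : MvPolynomial (Fin 2) K) (k : ℕ) : Prop :=
  12 * theta (ev Q R p) = ev Q R (del p) + (k : PowerSeries K) * P * ev Q R p

lemma good_C (c : K) : Good P Q R (C c) 0 := by
  simp only [Good, ev_C, Nat.cast_zero, zero_mul, add_zero]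
  have h1 : theta (PowerSeries.C c : PowerSeries K) = 0 := by
    have := (theta (K := K)).map_algebraMap c
    simpa [PowerSeries.algebraMap_apply] using this
  have h2 : del (C c : MvPolynomial (Fin 2) K) = 0 := by
    simp [del]
  rw [h1, h2]; simp

variable {P Q R}

lemma good_X0 (hQ : 3 * theta Q = P * Q - R) : Good P Q R (X 0) 4 := by
  simp only [Good, ev_X0, del_X0, map_mul, map_neg, ev_X1]
  have : ev Q R (4 : MvPolynomial (Fin 2) K) = 4 := map_ofNat _ 4
  rw [this]; push_cast; linear_combination 4 * hQ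

lemma good_X1 (hR : 2 * theta R = P * R - Q ^ 2) : Good P Q R (X 1) 6 := by
  simp only [Good, ev_X1, del_X1, map_mul, map_neg, map_pow, ev_X0]
  have : ev Q R (6 : MvPolynomial (Fin 2) K) = 6 := map_ofNat _ 6
  rw [this]; push_cast; linear_combination 6 * hR

lemma Good.mul {p q : MvPolynomial (Fin 2) K} {k k' : ℕ} (hp : Good P Q R p k)
    (hq : Good P Q R q k') : Good P Q R (p * q) (k + k') := by
  simp only [Good] at *
  rw [map_mul, Derivation.leibniz, Derivation.leibniz, smul_eq_mul, smul_eq_mul, smul_eq_mul,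
    smul_eq_mul, map_add, map_mul, map_mul]
  push_cast
  linear_combination (ev Q R q) * hp + (ev Q R p) * hq

lemma Good.pow {p : MvPolynomial (Fin 2) K} {k : ℕ} (hp : Good P Q R p k) (n : ℕ) :
    Good P Q R (p ^ n) (n * k) := by
  induction n with
  | zero => simpa using good_C P Q R (1 : K)
  | succ n ih =>
    rw [pow_succ, Nat.succ_mul]
    exact ih.mul hp

lemma good_of_isWeightedHomogeneous (hQ : 3 * theta Q = P * Q - R)
    (hR : 2 * theta R = P * R - Q ^ 2) {p : MvPolynomial (Fin 2) K} {k : ℕ}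
    (hp : IsWeightedHomogeneous wt p k) : Good P Q R p k := by
  induction hp using IsWeightedHomogeneous.induction_on with
  | zero => simp [Good]
  | add p q _ _ h1 h2 =>
    simp only [Good, map_add] at *
    linear_combination h1 + h2
  | monomial d r hr =>
    rw [weight_fin_two] at hr
    rw [monomial_fin_two, ← hr]
    have := ((good_C P Q R r).mul ((good_X0 hQ).pow (d 0))).mul ((good_X1 hR).pow (d 1))
    simpa using this

end Good


/-! ### `∂` raises the weight by `2` -/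

section Weight

/-- `p` is isobaric of weight `k` and `∂p` is isobaric of weight `k + 2`. -/
def Good2 (p : MvPolynomial (Fin 2) K) (k : ℕ) : Prop :=
  IsWeightedHomogeneous wt (del p) (k + 2)

lemma good2_C (c : K) : Good2 (C c : MvPolynomial (Fin 2) K) 0 := by
  have h2 : del (C c : MvPolynomial (Fin 2) K) = 0 := by simp [del]
  simp only [Good2, h2]
  exact isWeightedHomogeneous_zero K wt _

lemma isWH_X0 : IsWeightedHomogeneous wt (X 0 : MvPolynomial (Fin 2) K) 4 :=
  isWeightedHomogeneous_X K wt 0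

lemma isWH_X1 : IsWeightedHomogeneous wt (X 1 : MvPolynomial (Fin 2) K) 6 :=
  isWeightedHomogeneous_X K wt 1

lemma good2_X0 : Good2 (X 0 : MvPolynomial (Fin 2) K) 4 := by
  simp only [Good2, del_X0]
  have : (-4 : MvPolynomial (Fin 2) K) = C (-4 : K) := by
    rw [map_neg, ← map_ofNat (C : K →+* MvPolynomial (Fin 2) K) 4]
  rw [this]
  exact (isWH_X1 (K := K)).C_mul _

lemma good2_X1 : Good2 (X 1 : MvPolynomial (Fin 2) K) 6 := by
  simp only [Good2, del_X1]
  have : (-6 : MvPolynomial (Fin 2) K) = C (-6 : K) := by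
    rw [map_neg, ← map_ofNat (C : K →+* MvPolynomial (Fin 2) K) 6]
  rw [this]
  exact ((isWH_X0 (K := K)).pow 2).C_mul _

lemma Good2.mul {p q : MvPolynomial (Fin 2) K} {k k' : ℕ}
    (hp : IsWeightedHomogeneous wt p k) (hp' : Good2 p k)
    (hq : IsWeightedHomogeneous wt q k') (hq' : Good2 q k') : Good2 (p * q) (k + k') := by
  simp only [Good2] at *
  rw [Derivation.leibniz, smul_eq_mul, smul_eq_mul]
  refine IsWeightedHomogeneous.add ?_ ?_
  · have := hp.mul hq'
    rwa [show k + (k' + 2) = k + k' + 2 by ring] at this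
  · have := hq.mul hp'
    rwa [show k' + (k + 2) = k + k' + 2 by ring] at this

lemma Good2.pow {p : MvPolynomial (Fin 2) K} {k : ℕ}
    (hp : IsWeightedHomogeneous wt p k) (hp' : Good2 p k) (n : ℕ) : Good2 (p ^ n) (n * k) := by
  induction n with
  | zero => simpa using good2_C (1 : K)
  | succ n ih =>
    rw [pow_succ, Nat.succ_mul]
    exact Good2.mul (hp.pow n) ih hp hp'

lemma isWH_del {p : MvPolynomial (Fin 2) K} {k : ℕ}
    (hp : IsWeightedHomogeneous wt p k) : IsWeightedHomogeneous wt (del p) (k + 2) := by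
  induction hp using IsWeightedHomogeneous.induction_on with
  | zero => simpa using isWeightedHomogeneous_zero K wt _
  | add p q _ _ h1 h2 => rw [map_add]; exact h1.add h2
  | monomial d r hr =>
    rw [weight_fin_two] at hr
    rw [monomial_fin_two, ← hr]
    have h0 : IsWeightedHomogeneous wt (C r : MvPolynomial (Fin 2) K) 0 :=
      isWeightedHomogeneous_C wt r
    have hA := Good2.mul h0 (good2_C r) ((isWH_X0 (K := K)).pow (d 0))
      (Good2.pow isWH_X0 good2_X0 (d 0))
    have hB := Good2.mul (h0.mul ((isWH_X0 (K := K)).pow (d 0))) hA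
      ((isWH_X1 (K := K)).pow (d 1)) (Good2.pow isWH_X1 good2_X1 (d 1))
    simpa [Good2] using hB

end Weight


/-! ### Quotients of isobaric polynomials -/

section Quot

attribute [local instance] MvPolynomial.weightedGradedAlgebra

/-- If `a ≠ 0` is isobaric of weight `m` and `a * b` is isobaric of weight `n`, then `b` is
isobaric of weight `n - m` (and `m ≤ n` unless `b = 0`). -/
lemma isWH_of_mul {a b : MvPolynomial (Fin 2) K} {m n : ℕ}
    (ha : IsWeightedHomogeneous wt a m) (ha0 : a ≠ 0)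
    (hab : IsWeightedHomogeneous wt (a * b) n) :
    IsWeightedHomogeneous wt b (n - m) ∧ (b ≠ 0 → m ≤ n) := by
  classical
  set 𝒜 := weightedHomogeneousSubmodule K wt with h𝒜
  have ha' : a ∈ 𝒜 m := ha
  have hab' : a * b ∈ 𝒜 n := hab
  -- every nonzero component of `b` sits in degree `i` with `m + i = n`
  have key : ∀ i, ((DirectSum.decompose 𝒜 b i : MvPolynomial (Fin 2) K)) ≠ 0 → m + i = n := by
    intro i hi
    by_contra hne
    have h1 := DirectSum.coe_decompose_mul_add_of_left_mem 𝒜 (b := b) (j := i) ha'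
    rw [DirectSum.decompose_of_mem_ne 𝒜 hab' (Ne.symm hne)] at h1
    exact hi ((mul_eq_zero.mp h1.symm).resolve_left ha0)
  have hsum := DirectSum.sum_support_decompose 𝒜 b
  constructor
  · rw [← hsum]
    refine IsWeightedHomogeneous.sum _ _ _ ?_
    intro i hi
    have hi' : ((DirectSum.decompose 𝒜 b i : MvPolynomial (Fin 2) K)) ≠ 0 := by
      intro h0
      rw [DFinsupp.mem_support_toFun] at hi
      exact hi (Subtype.ext h0)
    have := key i hi'
    have hi2 : i = n - m := by omega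
    rw [← hi2]
    exact (DirectSum.decompose 𝒜 b i).2
  · intro hb
    by_contra hmn
    apply hb
    rw [← hsum]
    refine Finset.sum_eq_zero ?_
    intro i hi
    by_contra h0
    have := key i h0
    omega

end Quot

/-- Monomials of the same weight are congruent modulo `X₀³ - X₁²`. -/
lemma dvd_monomial_sub {a b a' b' : ℕ} (h : a * 4 + b * 6 = a' * 4 + b' * 6) :
    ((X 0 : MvPolynomial (Fin 2) K) ^ 3 - X 1 ^ 2) ∣ X 0 ^ a * X 1 ^ b - X 0 ^ a' * X 1 ^ b' := by
  wlog hle : a' ≤ a generalizing a b a' b'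
  · have := this h.symm (by omega)
    have h2 : X 0 ^ a * X 1 ^ b - X 0 ^ a' * X 1 ^ b'
        = -((X 0 : MvPolynomial (Fin 2) K) ^ a' * X 1 ^ b' - X 0 ^ a * X 1 ^ b) := by ring
    rw [h2]
    exact (dvd_neg).mpr this
  obtain ⟨t, ht⟩ : ∃ t, a = a' + 3 * t := ⟨(a - a') / 3, by omega⟩
  have hb : b' = b + 2 * t := by omega
  subst ht hb
  have : (X 0 : MvPolynomial (Fin 2) K) ^ (a' + 3 * t) * X 1 ^ b - X 0 ^ a' * X 1 ^ (b + 2 * t)
      = X 0 ^ a' * X 1 ^ b * ((X 0 ^ 3) ^ t - (X 1 ^ 2) ^ t) := by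
    rw [← pow_mul, ← pow_mul]; ring
  rw [this]
  exact Dvd.dvd.mul_left (sub_dvd_pow_sub_pow _ _ t) _


lemma constantCoeff_ev (Q R : PowerSeries K) (p : MvPolynomial (Fin 2) K) :
    PowerSeries.constantCoeff (ev Q R p)
      = eval ![PowerSeries.constantCoeff Q, PowerSeries.constantCoeff R] p := by
  induction p using MvPolynomial.induction_on with
  | C a => simp
  | add p q hp hq => simp [hp, hq]
  | mul_X p i hp =>
    rw [map_mul, map_mul, map_mul, hp]
    fin_cases i <;> simp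

lemma dvd_sub_eval_mul {p : MvPolynomial (Fin 2) K} {k : ℕ}
    (hp : IsWeightedHomogeneous wt p k) : ∀ a0 b0 : ℕ, a0 * 4 + b0 * 6 = k →
      ((X 0 : MvPolynomial (Fin 2) K) ^ 3 - X 1 ^ 2) ∣
        p - C (eval ![(1 : K), 1] p) * (X 0 ^ a0 * X 1 ^ b0) := by
  induction hp using IsWeightedHomogeneous.induction_on with
  | zero => intro a0 b0 _; simp
  | add p q _ _ h1 h2 =>
    intro a0 b0 h
    have e : p + q - C (eval ![(1 : K), 1] (p + q)) * (X 0 ^ a0 * X 1 ^ b0)
        = (p - C (eval ![(1 : K), 1] p) * (X 0 ^ a0 * X 1 ^ b0))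
          + (q - C (eval ![(1 : K), 1] q) * (X 0 ^ a0 * X 1 ^ b0)) := by
      rw [map_add, map_add]; ring
    rw [e]
    exact dvd_add (h1 a0 b0 h) (h2 a0 b0 h)
  | monomial d r hr =>
    intro a0 b0 h
    rw [weight_fin_two] at hr
    have e : monomial d r - C (eval ![(1 : K), 1] (monomial d r)) * (X 0 ^ a0 * X 1 ^ b0)
        = C r * ((X 0 : MvPolynomial (Fin 2) K) ^ d 0 * X 1 ^ d 1 - X 0 ^ a0 * X 1 ^ b0) := by
      rw [monomial_fin_two]
      simp
      ring
    rw [e]
    exact Dvd.dvd.mul_left (dvd_monomial_sub (by omega)) _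

/-- An isobaric polynomial vanishing at `(1, 1)` is divisible by `X₀³ - X₁²`. -/
lemma dvd_of_eval_one_one {p : MvPolynomial (Fin 2) K} {k : ℕ}
    (hp : IsWeightedHomogeneous wt p k) (h1 : eval ![(1 : K), 1] p = 0) :
    ((X 0 : MvPolynomial (Fin 2) K) ^ 3 - X 1 ^ 2) ∣ p := by
  by_cases hp0 : p = 0
  · simp [hp0]
  obtain ⟨d, hd⟩ := exists_coeff_ne_zero hp0
  have hw := hp hd
  rw [weight_fin_two] at hw
  have := dvd_sub_eval_mul hp (d 0) (d 1) hw
  rwa [h1, map_zero, zero_mul, sub_zero] at this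

/-- **(F1)** evaluation at `(Q, R)` is injective on isobaric polynomials of a fixed weight. -/
theorem eq_zero_of_ev_eq_zero {Q R : PowerSeries K}
    (hQ0 : PowerSeries.constantCoeff Q = 1) (hR0 : PowerSeries.constantCoeff R = 1)
    (hΔ : Q ^ 3 - R ^ 2 ≠ 0) :
    ∀ (k : ℕ) (p : MvPolynomial (Fin 2) K), IsWeightedHomogeneous wt p k → ev Q R p = 0 →
      p = 0 := by
  intro k
  induction k using Nat.strong_induction_on with
  | _ k ih =>
    intro p hp hev
    have h1 : eval ![(1 : K), 1] p = 0 := by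
      have := constantCoeff_ev Q R p
      rw [hev, hQ0, hR0, map_zero] at this
      exact this.symm
    obtain ⟨q, rfl⟩ := dvd_of_eval_one_one hp h1
    by_contra hne
    have hq0 : q ≠ 0 := fun h => hne (by rw [h, mul_zero])
    have hD : IsWeightedHomogeneous wt
        ((X 0 : MvPolynomial (Fin 2) K) ^ 3 - X 1 ^ 2) 12 :=
      ((isWH_X0 (K := K)).pow 3).sub ((isWH_X1 (K := K)).pow 2)
    have hD0 : ((X 0 : MvPolynomial (Fin 2) K) ^ 3 - X 1 ^ 2) ≠ 0 := by
      intro h
      apply hΔ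
      have := congrArg (ev Q R) h
      simpa using this
    obtain ⟨hq, hle⟩ := isWH_of_mul hD hD0 hp
    have hle' := hle hq0
    have hevq : ev Q R q = 0 := by
      rw [map_mul] at hev
      rcases mul_eq_zero.mp hev with h | h
      · exfalso; apply hΔ; simpa using h
      · exact h
    exact hq0 (ih (k - 12) (by omega) q hq hevq)


/-! ### The Riccati residue lemma -/

lemma del_pow_succ_mul (φ u : MvPolynomial (Fin 2) K) (n : ℕ) :
    del (φ ^ (n + 1) * u) = φ ^ n * (((n + 1 : ℕ) : MvPolynomial (Fin 2) K) * del φ * u + φ * del u) := by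
  rw [Derivation.leibniz, Derivation.leibniz_pow, smul_eq_mul, smul_eq_mul, nsmul_eq_mul,
    smul_eq_mul, Nat.add_sub_cancel]
  ring

/-- If `∂²a = c·a` and a prime `φ` with `φ ∤ ∂φ` divides `a` exactly `s + 2` times, then
`(s+1)(s+2) = 0` in `K`. -/
lemma riccati {φ u a c : MvPolynomial (Fin 2) K} {s : ℕ} (hφ : Prime φ) (hφ' : ¬ φ ∣ del φ)
    (hu : ¬ φ ∣ u) (ha : a = φ ^ (s + 2) * u) (hode : del (del a) = c * a) :
    (((s + 1) * (s + 2) : ℕ) : K) = 0 := by
  by_contra hN
  set v : MvPolynomial (Fin 2) K :=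
    ((s + 1 + 1 : ℕ) : MvPolynomial (Fin 2) K) * del φ * u + φ * del u with hv
  have h1 : del a = φ ^ (s + 1) * v := by
    rw [ha, del_pow_succ_mul]
  have h2 : del (del a) = φ ^ s *
      (((s + 1 : ℕ) : MvPolynomial (Fin 2) K) * del φ * v + φ * del v) := by
    rw [h1, del_pow_succ_mul]
  have hφ0 : φ ^ s ≠ 0 := pow_ne_zero _ hφ.ne_zero
  have h3 : ((s + 1 : ℕ) : MvPolynomial (Fin 2) K) * del φ * v + φ * del v = c * (φ ^ 2 * u) := by
    apply mul_left_cancel₀ hφ0
    rw [← h2, hode, ha]; ring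
  have h4 : φ ∣ (((s + 1) * (s + 2) : ℕ) : MvPolynomial (Fin 2) K) * (del φ * del φ * u) := by
    refine ⟨c * (φ * u) - del v - ((s + 1 : ℕ) : MvPolynomial (Fin 2) K) * del φ * del u, ?_⟩
    have : ((s + 1 : ℕ) : MvPolynomial (Fin 2) K) * del φ * v
        = (((s + 1) * (s + 2) : ℕ) : MvPolynomial (Fin 2) K) * (del φ * del φ * u)
          + φ * (((s + 1 : ℕ) : MvPolynomial (Fin 2) K) * del φ * del u) := by
      rw [hv]; push_cast; ring
    linear_combination (-1 : MvPolynomial (Fin 2) K) * this + h3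
  rcases hφ.dvd_or_dvd h4 with h | h
  · have hunit : IsUnit ((((s + 1) * (s + 2) : ℕ) : MvPolynomial (Fin 2) K)) := by
      have : ((((s + 1) * (s + 2) : ℕ) : MvPolynomial (Fin 2) K))
          = C ((((s + 1) * (s + 2) : ℕ) : K)) := (map_natCast C _).symm
      rw [this]
      exact (IsUnit.mk0 _ hN).map C
    exact hφ.not_isUnit (isUnit_of_dvd_unit h hunit)
  · rcases hφ.dvd_or_dvd h with h | h
    · rcases hφ.dvd_or_dvd h with h | h <;> exact hφ' h
    · exact hu h


/-! ### Auxiliary facts on `K[X₀, X₁]` -/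

/-- If every prime factor `φ` of `ξ` divides `∂φ`, then `ξ ∣ ∂ξ`. -/
lemma dvd_del_of_forall_prime (ξ : MvPolynomial (Fin 2) K) :
    (∀ φ, Prime φ → φ ∣ ξ → φ ∣ del φ) → ξ ∣ del ξ := by
  induction ξ using UniqueFactorizationMonoid.induction_on_prime with
  | h₁ => intro _; simp
  | h₂ x hx => intro _; exact hx.dvd
  | h₃ a p ha0 hp ih =>
    intro h
    have hpd : p ∣ del p := h p hp (dvd_mul_right p a)
    have had : a ∣ del a := ih (fun φ hφ hφa => h φ hφ (hφa.mul_left p))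
    rw [Derivation.leibniz, smul_eq_mul, smul_eq_mul]
    exact dvd_add (mul_dvd_mul_left p had) (by rw [mul_comm p a]; exact mul_dvd_mul_left a hpd)

lemma le_totalDegree_pow {φ : MvPolynomial (Fin 2) K} (hφ : Prime φ) (r : ℕ) :
    r ≤ (φ ^ r).totalDegree := by
  have h1 : 1 ≤ φ.totalDegree := by
    by_contra h
    have h0 : φ.totalDegree = 0 := by omega
    rw [totalDegree_eq_zero_iff_eq_C] at h0
    have hc : coeff 0 φ ≠ 0 := by
      intro hc
      rw [hc, map_zero] at h0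
      exact hφ.ne_zero h0
    apply hφ.not_isUnit
    rw [h0]
    exact (IsUnit.mk0 _ hc).map C
  induction r with
  | zero => simp
  | succ r ih =>
    rw [pow_succ, totalDegree_mul_of_isDomain (pow_ne_zero _ hφ.ne_zero) hφ.ne_zero]
    omega

lemma totalDegree_le_of_isWH {p : MvPolynomial (Fin 2) K} {k : ℕ}
    (hp : IsWeightedHomogeneous wt p k) : p.totalDegree ≤ k := by
  rw [totalDegree]
  refine Finset.sup_le ?_
  intro d hd
  have hw := hp (mem_support_iff.mp hd)
  rw [weight_fin_two] at hw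
  rw [Finsupp.sum_fintype _ _ (fun i => rfl), Fin.sum_univ_two]
  omega

lemma eq_zero_of_isWH_two {p : MvPolynomial (Fin 2) K}
    (hp : IsWeightedHomogeneous wt p 2) : p = 0 := by
  refine hp.eq_zero_of_no_monomials ?_
  intro d
  rw [weight_fin_two]
  omega


/-! ### The main theorem -/

section Main

variable {ℓ : ℕ} [hℓ : Fact ℓ.Prime] [CharP K ℓ]
variable {P Q R : PowerSeries K}

omit hℓ in
lemma natCast_prime_powerSeries : ((ℓ : ℕ) : PowerSeries K) = 0 := by
  rw [← map_natCast (PowerSeries.C (R := K)), CharP.cast_eq_zero K ℓ, map_zero]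

/-- the Hasse-invariant package: `B := ∂A` has `B(Q,R) = P` and `∂B = -X₀·A`. -/
lemma hasse_package (hQ0 : PowerSeries.constantCoeff Q = 1)
    (hR0 : PowerSeries.constantCoeff R = 1) (hΔ : Q ^ 3 - R ^ 2 ≠ 0)
    (hP : 12 * theta P = P ^ 2 - Q) (hQ : 3 * theta Q = P * Q - R)
    (hR : 2 * theta R = P * R - Q ^ 2)
    {A : MvPolynomial (Fin 2) K} (hA : IsWeightedHomogeneous wt A (ℓ - 1))
    (hA1 : ev Q R A = 1) :
    IsWeightedHomogeneous wt (del A) (ℓ - 1 + 2) ∧ ev Q R (del A) = P ∧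
      del (del A) = -(X 0) * A := by
  have hℓ2 : 2 ≤ ℓ := hℓ.out.two_le
  have hchar : ((ℓ : ℕ) : PowerSeries K) = 0 := natCast_prime_powerSeries
  have hBwt : IsWeightedHomogeneous wt (del A) (ℓ - 1 + 2) := isWH_del hA
  have hcast1 : ((ℓ - 1 : ℕ) : PowerSeries K) = -1 := by
    have : ((ℓ - 1 : ℕ) : PowerSeries K) + 1 = 0 := by
      rw [← Nat.cast_one (R := PowerSeries K), ← Nat.cast_add, Nat.sub_add_cancel (by omega)]
      exact hchar
    linear_combination this
  have hcast2 : ((ℓ - 1 + 2 : ℕ) : PowerSeries K) = 1 := by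
    rw [Nat.cast_add, hcast1]; push_cast; ring
  have hevB : ev Q R (del A) = P := by
    have h := good_of_isWeightedHomogeneous (P := P) hQ hR hA
    simp only [Good] at h
    rw [hA1, Derivation.map_one_eq_zero, hcast1] at h
    linear_combination -h
  refine ⟨hBwt, hevB, ?_⟩
  have hwt1 : IsWeightedHomogeneous wt (del (del A)) (ℓ - 1 + 2 + 2) := isWH_del hBwt
  have hwt2 : IsWeightedHomogeneous wt (-(X 0) * A) (ℓ - 1 + 2 + 2) := by
    have := (isWH_X0 (K := K)).neg.mul hA
    rwa [show 4 + (ℓ - 1) = ℓ - 1 + 2 + 2 by omega] at this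
  have hev0 : ev Q R (del (del A) - -(X 0) * A) = 0 := by
    have h := good_of_isWeightedHomogeneous (P := P) hQ hR hBwt
    simp only [Good] at h
    rw [hevB, hcast2] at h
    rw [map_sub, map_mul, map_neg, ev_X0, hA1]
    linear_combination -h + hP
  exact sub_eq_zero.mp (eq_zero_of_ev_eq_zero hQ0 hR0 hΔ _ _ (hwt1.sub hwt2) hev0)

/-- **Swinnerton-Dyer, weak form.** If an isobaric polynomial `Φ` of weight `k` in `E₄, E₆`
reduces to a nonzero constant, then `(ℓ - 1) ∣ k`. -/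
theorem dvd_weight_of_ev_eq_C (hP0 : P ≠ 0) (hQ0 : PowerSeries.constantCoeff Q = 1)
    (hR0 : PowerSeries.constantCoeff R = 1) (hΔ : Q ^ 3 - R ^ 2 ≠ 0)
    (hP : 12 * theta P = P ^ 2 - Q) (hQ : 3 * theta Q = P * Q - R)
    (hR : 2 * theta R = P * R - Q ^ 2)
    {A : MvPolynomial (Fin 2) K} (hA : IsWeightedHomogeneous wt A (ℓ - 1))
    (hA1 : ev Q R A = 1)
    {Φ : MvPolynomial (Fin 2) K} {k : ℕ} (hΦ : IsWeightedHomogeneous wt Φ k) {c : K}
    (hc : c ≠ 0) (hev : ev Q R Φ = PowerSeries.C c) : (ℓ - 1) ∣ k := by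
  have hℓ2 : 2 ≤ ℓ := hℓ.out.two_le
  obtain ⟨hBwt, hevB, hode⟩ := hasse_package hQ0 hR0 hΔ hP hQ hR hA hA1
  by_contra hnd
  have hk0 : k ≠ 0 := fun h => hnd (h ▸ dvd_zero _)
  have hA0 : A ≠ 0 := by
    intro h; rw [h, map_zero] at hA1; exact zero_ne_one hA1
  -- normalise the constant
  set Φ' : MvPolynomial (Fin 2) K := C c⁻¹ * Φ with hΦ'def
  have hΦ' : IsWeightedHomogeneous wt Φ' k := hΦ.C_mul _
  have hevΦ' : ev Q R Φ' = 1 := by
    rw [hΦ'def, map_mul, ev_C, hev, ← map_mul, inv_mul_cancel₀ hc, map_one]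
  -- the exponents
  set g := Nat.gcd k (ℓ - 1) with hg
  have hgpos : 0 < g := Nat.gcd_pos_of_pos_left _ (Nat.pos_of_ne_zero hk0)
  obtain ⟨n, hn⟩ : g ∣ k := Nat.gcd_dvd_left _ _
  obtain ⟨m, hm⟩ : g ∣ ℓ - 1 := Nat.gcd_dvd_right _ _
  have hcop : Nat.Coprime n m := by
    have := Nat.coprime_div_gcd_div_gcd (m := k) (n := ℓ - 1) hgpos
    rwa [← hg, Nat.div_eq_of_eq_mul_right hgpos hn, Nat.div_eq_of_eq_mul_right hgpos hm] at this
  have hm2 : 2 ≤ m := by
    rcases Nat.lt_or_ge m 2 with h | h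
    · exfalso
      interval_cases m
      · omega
      · apply hnd; rw [hm, mul_one]; exact Nat.gcd_dvd_left _ _
    · exact h
  have hn0 : n ≠ 0 := by
    rintro rfl; exact hk0 (by rw [hn, mul_zero])
  -- `A ^ n = Φ' ^ m`
  have hpow : A ^ n = Φ' ^ m := by
    have h1 : IsWeightedHomogeneous wt (A ^ n) (n * (ℓ - 1)) := hA.pow n
    have h2 : IsWeightedHomogeneous wt (Φ' ^ m) (m * k) := hΦ'.pow m
    have hw : m * k = n * (ℓ - 1) := by rw [hn, hm]; ring
    rw [hw] at h2
    have h0 : ev Q R (A ^ n - Φ' ^ m) = 0 := by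
      rw [map_sub, map_pow, map_pow, hA1, hevΦ', one_pow, one_pow, sub_self]
    exact sub_eq_zero.mp (eq_zero_of_ev_eq_zero hQ0 hR0 hΔ _ _ (h1.sub h2) h0)
  -- `A` is an `m`-th power
  obtain ⟨ξ, hξ⟩ : ∃ ξ, A = ξ ^ m := by
    obtain ⟨r, -, hr⟩ := Nat.exists_mul_mod_eq_one_of_coprime hcop (by omega : 1 < m)
    set s := n * r / m with hs
    have hrs : n * r = s * m + 1 := by
      have := Nat.div_add_mod (n * r) m
      rw [hr] at this; rw [hs]; linarith
    have h1 : A * (A ^ s) ^ m = (Φ' ^ r) ^ m := by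
      calc A * (A ^ s) ^ m = A ^ (s * m + 1) := by rw [← pow_mul, pow_succ, mul_comm]
        _ = (A ^ n) ^ r := by rw [← hrs, pow_mul]
        _ = (Φ' ^ r) ^ m := by rw [hpow, ← pow_mul, ← pow_mul, mul_comm]
    have h2 : A ^ s ∣ Φ' ^ r := by
      rw [← UniqueFactorizationMonoid.pow_dvd_pow_iff_dvd (n := m) (by omega)]
      exact ⟨A, by rw [← h1, mul_comm]⟩
    obtain ⟨ξ, hξ⟩ := h2
    refine ⟨ξ, ?_⟩
    have h3 : (A ^ s) ^ m ≠ 0 := pow_ne_zero _ (pow_ne_zero _ hA0)
    apply mul_left_cancel₀ h3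
    rw [mul_comm, h1, hξ, mul_pow]
  have hξ0 : ξ ≠ 0 := by
    rintro rfl
    rw [zero_pow (by omega)] at hξ
    exact hA0 hξ
  -- every prime factor of `ξ` divides its own `∂`
  have hprime : ∀ φ, Prime φ → φ ∣ ξ → φ ∣ del φ := by
    intro φ hφ hdvd
    by_contra hnd'
    obtain ⟨e, u, hu, hξu⟩ := WfDvdMonoid.max_power_factor hξ0 hφ.irreducible
    have he : 1 ≤ e := by
      rcases Nat.eq_zero_or_pos e with h | h
      · exfalso; rw [h, pow_zero, one_mul] at hξu; exact hu (hξu ▸ hdvd)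
      · exact h
    have hum : ¬ φ ∣ u ^ m := fun h => hu (hφ.dvd_of_dvd_pow h)
    have hme : 2 ≤ m * e := by
      calc 2 = 2 * 1 := rfl
        _ ≤ m * e := Nat.mul_le_mul hm2 he
    obtain ⟨s, hs⟩ : ∃ s, m * e = s + 2 := ⟨m * e - 2, by omega⟩
    have hAφ : A = φ ^ (s + 2) * u ^ m := by
      rw [hξ, hξu, mul_pow, ← pow_mul, ← hs, mul_comm e m]
    have hz := riccati hφ hnd' hum hAφ hode
    have hdvdℓ : ℓ ∣ (s + 1) * (s + 2) := (CharP.cast_eq_zero_iff K ℓ _).mp hz
    have hle : ℓ ≤ s + 2 := by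
      rcases (Nat.Prime.dvd_mul hℓ.out).mp hdvdℓ with h | h
      · have := Nat.le_of_dvd (by omega) h; omega
      · exact Nat.le_of_dvd (by omega) h
    have h1 : s + 2 ≤ (φ ^ (s + 2)).totalDegree := le_totalDegree_pow hφ _
    have h2 : (φ ^ (s + 2)).totalDegree ≤ A.totalDegree :=
      totalDegree_le_of_dvd_of_isDomain ⟨u ^ m, hAφ⟩ hA0
    have h3 : A.totalDegree ≤ ℓ - 1 := totalDegree_le_of_isWH hA
    omega
  -- hence `A ∣ ∂A`
  have hξd : ξ ∣ del ξ := dvd_del_of_forall_prime ξ hprime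
  have hAB : A ∣ del A := by
    obtain ⟨t, ht⟩ := hξd
    refine ⟨(m : MvPolynomial (Fin 2) K) * t, ?_⟩
    rw [hξ, Derivation.leibniz_pow, ht, nsmul_eq_mul, smul_eq_mul]
    obtain ⟨m', rfl⟩ : ∃ m', m = m' + 1 := ⟨m - 1, by omega⟩
    rw [Nat.add_sub_cancel, pow_succ]
    ring
  obtain ⟨lam, hlam⟩ := hAB
  rw [hlam] at hBwt
  obtain ⟨hlamwt, -⟩ := isWH_of_mul hA hA0 hBwt
  rw [show ℓ - 1 + 2 - (ℓ - 1) = 2 by omega] at hlamwt
  have hlam0 := eq_zero_of_isWH_two hlamwt
  apply hP0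
  rw [← hevB, hlam, hlam0, mul_zero, map_zero]

end Main

end Fermat.Agent.S16.SwdCore
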