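import Mathlib
import Fermat.Agent.S16.UpperL5
import Fermat.Agent.S16.SwdCore
import Fermat.Agent.S16.SwDHasseB
import Fermat.Agent.S16.RamanujanE2
import Fermat.Agent.S16.LevelOneModL

/-!
# S16 / (UP5) (helper71): HEDGE instantiation of the Swinnerton-Dyer weight theorem

`swdStatement : UpperL5.SwDStatement` from
* `SwdCore.dvd_weight_of_ev_eq_C` (helper63, abstract core over any field of characteristic `ℓ`),
* `LevelOneModL.exists_isobaric_of_qExpansion` (helper28, basis theorem over a coefficient ring),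
* `RamanujanE2.ramanujan_map` (helper45, Ramanujan's identities over any ring),
* `SwDHasseB.hasse` (helper98, `E_{ℓ-1} ≡ 1 mod ℓ`).
-/

set_option autoImplicit false

open UpperHalfPlane ModularForm ModularFormClass MatrixGroups

namespace Fermat.Agent.S16.SwDInstB

open Fermat.Agent.S16.LevelOneModL Fermat.Agent.S16.RamanujanE2

noncomputable section

/-- The two integral models of `E₆` agree. -/
lemma E6Z_eq : E6Z = LevelOneModL.eisenstein6 := by
  ext n
  simp only [E6Z, LevelOneModL.eisenstein6, PowerSeries.coeff_mk]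
  split_ifs with h
  · rfl
  · simp [ArithmeticFunction.sigma_apply]

lemma map_map_intCast {R κ : Type*} [CommRing R] [CommRing κ] (φ : R →+* κ)
    (f : PowerSeries ℤ) :
    (f.map (Int.castRingHom R)).map φ = f.map (Int.castRingHom κ) := by
  ext n
  simp [PowerSeries.coeff_map]

/-- Reduction commutes with evaluation at `(E₄, E₆)`. -/
lemma map_aeval_eisPoint {R κ : Type*} [CommRing R] [CommRing κ] (φ : R →+* κ)
    (P : MvPolynomial (Fin 2) R) :
    (MvPolynomial.aeval (eisPoint R) P).map φ =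
      MvPolynomial.aeval (eisPoint κ) (MvPolynomial.map φ P) := by
  induction P using MvPolynomial.induction_on with
  | C a =>
    rw [MvPolynomial.aeval_C, MvPolynomial.map_C, MvPolynomial.aeval_C,
      ← PowerSeries.C_eq_algebraMap, ← PowerSeries.C_eq_algebraMap, PowerSeries.map_C]
  | add p q hp hq =>
    rw [map_add, map_add, hp, hq, map_add, map_add]
  | mul_X p i hp =>
    rw [map_mul, map_mul, hp, MvPolynomial.aeval_X, map_mul, MvPolynomial.map_X, map_mul,
      MvPolynomial.aeval_X]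
    congr 1
    fin_cases i
    · simp [eisPoint, map_map_intCast]
    · simp [eisPoint, map_map_intCast]

lemma isWeightedHomogeneous_map {R κ : Type*} [CommRing R] [CommRing κ] (φ : R →+* κ)
    {w : Fin 2 → ℕ} {P : MvPolynomial (Fin 2) R} {n : ℕ}
    (h : MvPolynomial.IsWeightedHomogeneous w P n) :
    MvPolynomial.IsWeightedHomogeneous w (MvPolynomial.map φ P) n := by
  intro d hd
  apply h
  intro h0
  apply hd
  rw [MvPolynomial.coeff_map, h0, map_zero]

/-- `Q³ - R² ≠ 0` over a field in which `1728 ≠ 0`. -/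
lemma cube_sub_sq_ne_zero {κ : Type*} [Field κ] (h : (1728 : κ) ≠ 0) :
    (ModularCurve.eisenstein4.map (Int.castRingHom κ)) ^ 3 -
      (LevelOneModL.eisenstein6.map (Int.castRingHom κ)) ^ 2 ≠ 0 := by
  have h1 := congrArg (PowerSeries.map (Int.castRingHom κ)) deltaZ_identity
  rw [map_mul, map_sub, map_pow, map_pow] at h1
  rw [← h1]
  intro h0
  have h2 := congrArg (PowerSeries.coeff 1) h0
  have h3 : (PowerSeries.map (Int.castRingHom κ)) (1728 : PowerSeries ℤ) =
      PowerSeries.C (1728 : κ) := by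
    rw [show (1728 : PowerSeries ℤ) = PowerSeries.C (1728 : ℤ) by simp, PowerSeries.map_C]
    simp
  rw [h3, PowerSeries.coeff_C_mul, map_zero, PowerSeries.coeff_map, deltaZ,
    show (1 : ℕ) = 0 + 1 from rfl, PowerSeries.coeff_succ_X_mul,
    PowerSeries.coeff_zero_eq_constantCoeff, ModularCurve.constantCoeff_dedekindEtaUnit] at h2
  simp at h2
  exact h h2

/-- **(SwD)**, hedge copy. -/
theorem swdStatement : UpperL5.SwDStatement := by
  intro ℓ hℓ hℓ5 R hinv κ _ _ φ k f A hA c hc hAc
  have hℓP : ℓ.Prime := hℓ.out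
  have hι : Function.Injective (R.subtype : R →+* ℂ) := Subtype.val_injective
  -- `1728` is invertible in `R`, nonzero in `κ`
  have h1728 : ¬ ℓ ∣ 1728 := by
    intro h
    have h' : ℓ ∣ 2 ^ 6 * 3 ^ 3 := by
      have : (2 : ℕ) ^ 6 * 3 ^ 3 = 1728 := by norm_num
      rw [this]; exact h
    rcases (Nat.Prime.dvd_mul hℓP).mp h' with h2 | h3
    · have := (Nat.prime_dvd_prime_iff_eq hℓP Nat.prime_two).mp (hℓP.dvd_of_dvd_pow h2)
      omega
    · have := (Nat.prime_dvd_prime_iff_eq hℓP Nat.prime_three).mp (hℓP.dvd_of_dvd_pow h3)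
      omega
  have h1728κ : (1728 : κ) ≠ 0 := by
    have := (CharP.cast_eq_zero_iff κ ℓ 1728).not.mpr h1728
    exact_mod_cast this
  let u : R := ⟨((1728 : ℕ) : ℂ)⁻¹, hinv 1728 h1728⟩
  have hu : (1728 : R) * u = 1 := by
    apply Subtype.ext
    have h1 : ((1728 : R) : ℂ) = 1728 := by
      have : ((1728 : ℕ) : R) = 1728 := by norm_cast
      rw [← this, Subring.coe_natCast]
      norm_num
    rw [Subring.coe_mul, Subring.coe_one, h1]
    show (1728 : ℂ) * ((1728 : ℕ) : ℂ)⁻¹ = 1
    norm_num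
  -- basis theorem for `f`
  have hAmap : A.map (R.subtype : R →+* ℂ) = qExpansion 1 f := by
    ext n
    rw [PowerSeries.coeff_map]
    exact hA n
  obtain ⟨Φ, hΦwt, hΦ⟩ := exists_isobaric_of_qExpansion (R.subtype : R →+* ℂ) hι u hu f A hAmap
  rw [Int.toNat_natCast] at hΦwt
  -- the Hasse invariant
  have hk3 : 3 ≤ ℓ - 1 := by omega
  obtain ⟨a, v, hv, hE⟩ := SwDHasseB.hasse ℓ hℓ5 hk3
  have hvinv : ((v : ℕ) : ℂ)⁻¹ ∈ R := hinv v hv
  let cR : R := (ℓ : R) * (a : R) * ⟨_, hvinv⟩
  let H : PowerSeries R := PowerSeries.mk fun m =>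
    if m = 0 then 1 else cR * ((ArithmeticFunction.sigma (ℓ - 2) m : ℕ) : R)
  have hHmap : H.map (R.subtype : R →+* ℂ) = qExpansion 1 (ModularForm.E hk3) := by
    ext m
    rw [PowerSeries.coeff_map, PowerSeries.coeff_mk, hE m]
    split_ifs with hm
    · simp
    · simp only [cR, Subring.coe_subtype, Subring.coe_mul, Subring.coe_natCast,
        Subring.coe_intCast]
      ring
  obtain ⟨Ψ, hΨwt, hΨ⟩ := exists_isobaric_of_qExpansion (R.subtype : R →+* ℂ) hι u hu
    (ModularForm.E hk3) H hHmap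
  rw [Int.toNat_natCast] at hΨwt
  have hHφ : H.map φ = 1 := by
    ext m
    rw [PowerSeries.coeff_map, PowerSeries.coeff_mk, PowerSeries.coeff_one]
    split_ifs with hm
    · simp
    · simp only [cR, map_mul, map_natCast, CharP.cast_eq_zero, zero_mul]
  -- pass to `κ`
  have hΦκ : MvPolynomial.aeval (eisPoint κ) (MvPolynomial.map φ Φ) = PowerSeries.C c := by
    rw [← map_aeval_eisPoint, ← hΦ, hAc]
  have hΨκ : MvPolynomial.aeval (eisPoint κ) (MvPolynomial.map φ Ψ) = 1 := by
    rw [← map_aeval_eisPoint, ← hΨ, hHφ]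
  -- Ramanujan over `κ`
  obtain ⟨hP, hQ, hR⟩ := RamanujanE2.ramanujan_map (R := κ)
  simp only [E4Z_eq_eisenstein4, E6Z_eq] at hP hQ hR
  have hP0 : E2Z.map (Int.castRingHom κ) ≠ 0 := by
    intro h0
    have := congrArg PowerSeries.constantCoeff h0
    rw [← PowerSeries.coeff_zero_eq_constantCoeff, PowerSeries.coeff_map,
      PowerSeries.coeff_zero_eq_constantCoeff, constantCoeff_E2Z] at this
    simp at this
  have hQ0 : PowerSeries.constantCoeff (ModularCurve.eisenstein4.map (Int.castRingHom κ)) = 1 := by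
    rw [← PowerSeries.coeff_zero_eq_constantCoeff, PowerSeries.coeff_map,
      PowerSeries.coeff_zero_eq_constantCoeff, ModularCurve.constantCoeff_eisenstein4]
    simp
  have hR0 : PowerSeries.constantCoeff (LevelOneModL.eisenstein6.map (Int.castRingHom κ)) = 1 := by
    rw [← PowerSeries.coeff_zero_eq_constantCoeff, PowerSeries.coeff_map,
      PowerSeries.coeff_zero_eq_constantCoeff, LevelOneModL.constantCoeff_eisenstein6]
    simp
  exact SwdCore.dvd_weight_of_ev_eq_C (K := κ) (ℓ := ℓ) hP0 hQ0 hR0 (cube_sub_sq_ne_zero h1728κ)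
    hP hQ hR (A := MvPolynomial.map φ Ψ) (isWeightedHomogeneous_map φ hΨwt) hΨκ
    (Φ := MvPolynomial.map φ Φ) (k := k) (isWeightedHomogeneous_map φ hΦwt) hc hΦκ

end

end Fermat.Agent.S16.SwDInstB
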