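/-
S16 / LOW (A-theta): common definitions and the interface Props of the theta block.  (helper65)

Everything is stated for REAL symmetric matrices `M : Matrix (Fin n) (Fin n) ℝ`, so that the
integral Gram matrix `A` (cast to `ℝ`) and its inverse `A⁻¹ = p⁻¹ • B` are treated uniformly.
The dual lattice never appears as a set: in dual coordinates it is `ℤ⁴` with the form `A⁻¹`.
-/
import Mathlib

set_option autoImplicit false

namespace Fermat.Agent.S16.Theta

open Complex Matrix Real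

/-- The quadratic form `y ↦ yᵀ M y`. -/
noncomputable def qf {n : ℕ} (M : Matrix (Fin n) (Fin n) ℝ) (y : Fin n → ℝ) : ℝ :=
  y ⬝ᵥ M *ᵥ y

/-- The general term of `thetaShift`. -/
noncomputable def shiftTerm {n : ℕ} (M : Matrix (Fin n) (Fin n) ℝ) (u : Fin n → ℝ) (z : ℂ)
    (x : Fin n → ℤ) : ℂ :=
  cexp (π * I * z * (qf M (fun i => (x i : ℝ) + u i) : ℝ))

/-- Theta series with real characteristic `u`:  `∑_{x ∈ ℤⁿ} exp(π i z (x+u)ᵀ M (x+u))`. -/
noncomputable def thetaShift {n : ℕ} (M : Matrix (Fin n) (Fin n) ℝ) (u : Fin n → ℝ) (z : ℂ) : ℂ :=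
  ∑' x : Fin n → ℤ, shiftTerm M u z x

/-- The general term of `thetaTwist`. -/
noncomputable def twistTerm {n : ℕ} (M : Matrix (Fin n) (Fin n) ℝ) (u : Fin n → ℝ) (z : ℂ)
    (k : Fin n → ℤ) : ℂ :=
  cexp (π * I * z * (qf M (fun i => (k i : ℝ)) : ℝ) + 2 * π * I * ((∑ i, (k i : ℝ) * u i : ℝ) : ℂ))

/-- Theta series twisted by the linear character `u`:
`∑_{k ∈ ℤⁿ} exp(π i z kᵀ M k + 2 π i k·u)`. -/
noncomputable def thetaTwist {n : ℕ} (M : Matrix (Fin n) (Fin n) ℝ) (u : Fin n → ℝ) (z : ℂ) : ℂ :=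
  ∑' k : Fin n → ℤ, twistTerm M u z k

/-- The plain theta series `∑_{x ∈ ℤⁿ} exp(π i z xᵀ M x)`. -/
noncomputable def theta {n : ℕ} (M : Matrix (Fin n) (Fin n) ℝ) (z : ℂ) : ℂ :=
  thetaShift M 0 z

/-- (SUM) absolute summability of the theta series of a positive definite form. -/
def SummabilityStatement : Prop :=
  ∀ {n : ℕ} (M : Matrix (Fin n) (Fin n) ℝ), M.PosDef → ∀ (u : Fin n → ℝ) (z : ℂ), 0 < z.im →
    Summable (fun x => ‖shiftTerm M u z x‖) ∧ Summable (fun k => ‖twistTerm M u z k‖)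

/-- (INV4) theta inversion (Poisson summation for a Gaussian) in four variables:
`∑_x exp(π i z (x+u)ᵀ M (x+u)) = -(z² √(det M))⁻¹ ∑_k exp(π i (-1/z) kᵀ M⁻¹ k + 2 π i k·u)`. -/
def Inversion4Statement : Prop :=
  ∀ (M N : Matrix (Fin 4) (Fin 4) ℝ) (D : ℝ), M.PosDef → M * N = 1 → 0 < D → D ^ 2 = M.det →
    ∀ (u : Fin 4 → ℝ) (z : ℂ), 0 < z.im →
      thetaShift M u z = -(1 / (z ^ 2 * (D : ℂ))) * thetaTwist N u (-1 / z)

end Fermat.Agent.S16.Theta
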