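import Fermat.Agent.S16.Reduction2
import Fermat.Prelude.Thm_CongruenceSubgroup_one_mem_strictPeriods_Gamma0

/-!
# S16, row (BR2): from the theta form to the lower bound

`EisStatement + CuspCriterionStatement + ThetaFormStatement + EigenCongruenceStatement ⟹ LowerStatement`.

With `ν = gcd(p - 1, 12) = x (p - 1) + 12 y` (Bezout), the form `H = x E + y (G / 2)` has constant term
`ν / 24` and integral higher coefficients; `g = E - n H` (`n ν = p - 1`) has constant term `0`, hence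
is a cusp form, and is congruent to the Eisenstein series modulo `n`.
-/

set_option autoImplicit false

open ModularCurve CuspForm CongruenceSubgroup ModularFormClass

namespace Fermat.Agent.S16.ThetaBridge

open Fermat.Agent.S16.Interfaces

variable {N : ℕ}

theorem hΓ (N : ℕ) :
    (1 : ℝ) ∈ (Subgroup.map (Matrix.SpecialLinearGroup.mapGL ℝ) (Gamma0 N)).strictPeriods :=
  CongruenceSubgroup.one_mem_strictPeriods_Gamma0 N

theorem qCoeff_add (f g : ModularForm (Gamma0 N) 2) (n : ℕ) :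
    qCoeff ⇑(f + g) n = qCoeff ⇑f n + qCoeff ⇑g n := by
  have h1 : ⇑(f + g) = ⇑f + ⇑g := rfl
  simp only [qCoeff, h1]
  rw [ModularForm.qExpansion_add one_pos (hΓ N) f g]
  simp

theorem qCoeff_smul (c : ℂ) (f : ModularForm (Gamma0 N) 2) (n : ℕ) :
    qCoeff ⇑(c • f) n = c * qCoeff ⇑f n := by
  have h1 : ⇑(c • f) = c • ⇑f := rfl
  simp only [qCoeff, h1]
  rw [ModularForm.qExpansion_smul one_pos (hΓ N) c f]
  simp

theorem qCoeff_sub (f g : ModularForm (Gamma0 N) 2) (n : ℕ) :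
    qCoeff ⇑(f - g) n = qCoeff ⇑f n - qCoeff ⇑g n := by
  have h1 : ⇑(f - g) = ⇑f - ⇑g := rfl
  simp only [qCoeff, h1]
  rw [ModularForm.qExpansion_sub one_pos (hΓ N) f g]
  simp

/-- `n * gcd(p-1,12) = p - 1`. -/
lemma eisensteinNumerator_mul_gcd (p : ℕ) :
    eisensteinNumerator p * Nat.gcd (p - 1) 12 = p - 1 :=
  Nat.div_mul_cancel (Nat.gcd_dvd_left _ _)

/-- The abstract construction: from `E` and `G` to an Eisenstein-congruent form with vanishing
constant term. -/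
theorem exists_form (p : ℕ) (hp : 1 ≤ p)
    (E G : ModularForm (Gamma0 p) 2)
    (hE0 : qCoeff E 0 = ((p : ℂ) - 1) / 24)
    (hE : ∀ j : ℕ, 1 ≤ j → qCoeff E j = (sigmaPrime p j : ℂ))
    (hG0 : qCoeff G 0 = 1)
    (hG : ∀ j : ℕ, 1 ≤ j → ∃ c : ℤ, qCoeff G j = 2 * (c : ℂ)) :
    ∃ g : ModularForm (Gamma0 p) 2, qCoeff g 0 = 0 ∧
      ∀ j : ℕ, 1 ≤ j → ∃ c : ℤ,
        qCoeff g j = (sigmaPrime p j : ℂ) + (eisensteinNumerator p : ℂ) * (c : ℂ) := by
  set n := eisensteinNumerator p with hn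
  set x : ℤ := Nat.gcdA (p - 1) 12 with hx
  set y : ℤ := Nat.gcdB (p - 1) 12 with hy
  have hbez : ((Nat.gcd (p - 1) 12 : ℕ) : ℤ) = ((p - 1 : ℕ) : ℤ) * x + ((12 : ℕ) : ℤ) * y :=
    Nat.gcd_eq_gcd_ab (p - 1) 12
  have hnν : (n : ℂ) * ((Nat.gcd (p - 1) 12 : ℕ) : ℂ) = (p : ℂ) - 1 := by
    have h := eisensteinNumerator_mul_gcd p
    have h' : ((n * Nat.gcd (p - 1) 12 : ℕ) : ℂ) = ((p - 1 : ℕ) : ℂ) := by rw [hn, h]
    rw [Nat.cast_mul, Nat.cast_sub hp] at h'
    simpa using h'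
  have hbezC : ((Nat.gcd (p - 1) 12 : ℕ) : ℂ) = ((p : ℂ) - 1) * (x : ℂ) + 12 * (y : ℂ) := by
    have h := congrArg (fun z : ℤ => (z : ℂ)) hbez
    simp only [Int.cast_add, Int.cast_mul, Int.cast_natCast] at h
    rw [Nat.cast_sub hp] at h
    simpa using h
  -- H := x E + y (G/2)
  let H : ModularForm (Gamma0 p) 2 := (x : ℂ) • E + ((y : ℂ) * (1 / 2)) • G
  refine ⟨E - (n : ℂ) • H, ?_, ?_⟩
  · rw [qCoeff_sub, qCoeff_smul, qCoeff_add, qCoeff_smul, qCoeff_smul, hE0, hG0]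
    have : ((p : ℂ) - 1) / 24 - (n : ℂ) * ((x : ℂ) * (((p : ℂ) - 1) / 24) + (y : ℂ) * (1 / 2) * 1)
        = ((p : ℂ) - 1) / 24 -
          (n : ℂ) * ((((p : ℂ) - 1) * (x : ℂ) + 12 * (y : ℂ)) / 24) := by ring
    rw [this, ← hbezC, ← mul_div_assoc, hnν, sub_self]
  · intro j hj
    obtain ⟨c, hc⟩ := hG j hj
    refine ⟨-(x * (sigmaPrime p j : ℤ) + y * c), ?_⟩
    rw [qCoeff_sub, qCoeff_smul, qCoeff_add, qCoeff_smul, qCoeff_smul, hE j hj, hc]
    push_cast
    ring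

/-- Row (BR2): existence of an Eisenstein-congruent cusp form modulo `n` from the theta form. -/
theorem exists_isEisCongruent (hEis : EisStatement) (hCusp : CuspCriterionStatement)
    (hTheta : ThetaFormStatement) (p : ℕ) [Fact p.Prime] (h5 : 5 ≤ p) :
    ∃ f : CuspForm (Gamma0 p) 2, IsEisCongruent p (eisensteinNumerator p) f := by
  obtain ⟨E, hE0, hE⟩ := hEis p
  obtain ⟨G, hG0, hG⟩ := hTheta p h5
  obtain ⟨g, hg0, hg⟩ := exists_form p (by omega) E G hE0 hE hG0 hG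
  obtain ⟨f, hf⟩ := hCusp p g hg0
  have hfg : (⇑f : UpperHalfPlane → ℂ) = ⇑g := funext hf
  refine ⟨f, ?_, ?_⟩
  · intro j
    rcases Nat.eq_zero_or_pos j with rfl | hj
    · exact ⟨0, by rw [hfg, hg0]; simp⟩
    · obtain ⟨c, hc⟩ := hg j hj
      exact ⟨(sigmaPrime p j : ℤ) + (eisensteinNumerator p : ℤ) * c, by
        rw [hfg, hc]; push_cast; ring⟩
  · intro j hj
    obtain ⟨c, hc⟩ := hg j hj
    exact ⟨c, by rw [hfg, hc]⟩

/-- Row (BR2), final form: the lower bound from the theta line. -/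
theorem lower_of_theta (hEis : EisStatement) (hCusp : CuspCriterionStatement)
    (hTheta : ThetaFormStatement) (hE : EigenCongruenceStatement) : LowerStatement :=
  Fermat.Agent.S16.Reduction.lower_of_congruent hE
    (fun p _ h5 => exists_isEisCongruent hEis hCusp hTheta p h5)

end Fermat.Agent.S16.ThetaBridge
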