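import Fermat.Agent.S16.ThetaFinal
import Fermat.Agent.S16.ThetaBridge
import Fermat.Agent.S16.Assembly
import Fermat.Agent.S16.CuspCriterionB
import Fermat.Agent.S16.EigenCongruence

/-!
# S16, (A-theta) line closed: the lower bound `(LOW)` through the theta series

`lowerStatement : Interfaces.LowerStatement`: second, independent proof of the lower bound of S16
(next to `LowerPsiFinal.lowerStatement` / `LowerClosed.lowerStatement`), obtained from
`ThetaFinal.thetaForm` (theta series of an even quaternary lattice of level `p`: a weight-2 form on
`Γ₀(p)` with `a₀ = 1` and even higher coefficients) via `ThetaBridge.lower_of_theta`.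

Owner: helper88.
-/

set_option autoImplicit false

namespace Fermat.Agent.S16.ThetaClosed

open Fermat.Agent.S16

theorem lowerStatement : Interfaces.LowerStatement :=
  ThetaBridge.lower_of_theta Assembly.eisStatement CuspCriterionB.cuspCriterionStatement
    ThetaFinal.thetaForm EigenCongruence.eigenCongruenceStatement

end Fermat.Agent.S16.ThetaClosed
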