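/-
S16 / LOW (A-theta): the lattice.  (helper65)

For every odd prime `p` there is an explicit even, positive definite quaternary lattice of
determinant `p ^ 2` and level `p`:  with integers `a` (even, `a ≥ 2`), `r`, `s` such that
`(2 * a - 1) * s = r ^ 2 + p`  (i.e. `q := 2 a - 1 ≡ 3 mod 4`, `q ∣ r ^ 2 + p`)

  `gram p a r s = !![2, 1, 0, 0; 1, a, 0, r; 0, 0, a * p, p; 0, r, p, 2 * s]`

is symmetric with even diagonal, `det = p ^ 2`, positive definite over `ℝ`, and
`gram * dual = p • 1` for the explicit integral matrix `dual p a r s` with even diagonal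
(so the level divides `p`).  No quaternion algebra is used.  Existence of `(a, r, s)`:
`p ≡ 3 mod 4`: `q = p, r = 0, s = 1`;  `p ≡ 5 mod 8`: `q = (p+1)/2, r = 1, s = 2`;
`p ≡ 1 mod 8`: Dirichlet + quadratic reciprocity (a prime `q ≡ 3 mod 4`, non-residue mod `p`).

Consequently `(1/2) * θ_A` has constant term `1/2` and integral higher coefficients.
-/
import Mathlib

set_option autoImplicit false

namespace Fermat.Agent.S16.ThetaLattice

open Matrix

/-- The Gram matrix `A(p,q,r)` with `q = 2a - 1`, `a = (1+q)/2`. -/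
def gram (p a r s : ℤ) : Matrix (Fin 4) (Fin 4) ℤ :=
  !![2, 1, 0, 0; 1, a, 0, r; 0, 0, a * p, p; 0, r, p, 2 * s]

/-- `p • (gram)⁻¹`, an integral matrix with even diagonal. -/
def dual (p a r s : ℤ) : Matrix (Fin 4) (Fin 4) ℤ :=
  !![a * s, p - 2 * a * s, -r, a * r;
     p - 2 * a * s, 2 * (2 * a * s - p), 2 * r, -(2 * a * r);
     -r, 2 * r, 2, 1 - 2 * a;
     a * r, -(2 * a * r), 1 - 2 * a, a * (2 * a - 1)]

theorem gram_isSymm (p a r s : ℤ) : (gram p a r s).IsSymm := by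
  ext i j
  fin_cases i <;> fin_cases j <;> simp [gram]

theorem dual_isSymm (p a r s : ℤ) : (dual p a r s).IsSymm := by
  ext i j
  fin_cases i <;> fin_cases j <;> simp [dual]

theorem gram_mul_dual {p a r s : ℤ} (h : (2 * a - 1) * s = r ^ 2 + p) :
    gram p a r s * dual p a r s = p • (1 : Matrix (Fin 4) (Fin 4) ℤ) := by
  ext i j
  fin_cases i <;> fin_cases j <;>
    simp [gram, dual, Matrix.mul_apply, Fin.sum_univ_four]
  all_goals
    first
    | ring1
    | linear_combination (-a) * h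
    | linear_combination (2 * a) * h
    | linear_combination (-2 : ℤ) * h

theorem dual_mul_gram {p a r s : ℤ} (h : (2 * a - 1) * s = r ^ 2 + p) :
    dual p a r s * gram p a r s = p • (1 : Matrix (Fin 4) (Fin 4) ℤ) := by
  have := congrArg Matrix.transpose (gram_mul_dual h)
  rwa [Matrix.transpose_mul, (gram_isSymm p a r s).eq, (dual_isSymm p a r s).eq,
    Matrix.transpose_smul, Matrix.transpose_one] at this

theorem gram_det {p a r s : ℤ} (h : (2 * a - 1) * s = r ^ 2 + p) :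
    (gram p a r s).det = p ^ 2 := by
  rw [Matrix.det_succ_row_zero]
  simp [Fin.sum_univ_four, Matrix.det_fin_three, gram, Matrix.submatrix, Fin.succAbove]
  linear_combination (2 * a * p) * h

theorem gram_diag_even (p r s : ℤ) {a : ℤ} (ha : Even a) (i : Fin 4) :
    Even (gram p a r s i i) := by
  fin_cases i <;> simp [gram, ha]

theorem dual_diag_even (p r s : ℤ) {a : ℤ} (ha : Even a) (i : Fin 4) :
    Even (dual p a r s i i) := by
  fin_cases i <;> simp [dual, ha]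

/-- The quadratic form `x ↦ xᵀ A x` written out. -/
theorem gram_quadForm (p a r s : ℤ) (x : Fin 4 → ℝ) :
    x ⬝ᵥ ((gram p a r s).map (Int.cast : ℤ → ℝ)) *ᵥ x =
      2 * x 0 ^ 2 + 2 * x 0 * x 1 + a * x 1 ^ 2 + 2 * r * x 1 * x 3 + a * p * x 2 ^ 2
        + 2 * p * x 2 * x 3 + 2 * s * x 3 ^ 2 := by
  simp [gram, dotProduct, Matrix.mulVec, Fin.sum_univ_four]
  ring

/-- Sum-of-squares identity (completing the square twice). -/
theorem sos_identity (p a r s : ℝ) (h : (2 * a - 1) * s = r ^ 2 + p) (x0 x1 x2 x3 : ℝ) :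
    2 * (2 * a - 1) * a * (2 * x0 ^ 2 + 2 * x0 * x1 + a * x1 ^ 2 + 2 * r * x1 * x3
        + a * p * x2 ^ 2 + 2 * p * x2 * x3 + 2 * s * x3 ^ 2) =
      (2 * a - 1) * a * (2 * x0 + x1) ^ 2 + a * ((2 * a - 1) * x1 + 2 * r * x3) ^ 2
        + 2 * (2 * a - 1) * p * (a * x2 + x3) ^ 2 + 2 * p * x3 ^ 2 := by
  linear_combination (4 * a * x3 ^ 2) * h

theorem gram_quadForm_pos {p a r s : ℤ} (h : (2 * a - 1) * s = r ^ 2 + p) (ha : 1 ≤ a)
    (hp : 0 < p) {x : Fin 4 → ℝ} (hx : x ≠ 0) :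
    0 < x ⬝ᵥ ((gram p a r s).map (Int.cast : ℤ → ℝ)) *ᵥ x := by
  rw [gram_quadForm]
  have hR : (2 * (a : ℝ) - 1) * s = (r : ℝ) ^ 2 + p := by exact_mod_cast h
  have haR : (1 : ℝ) ≤ a := by exact_mod_cast ha
  have hpR : (0 : ℝ) < p := by exact_mod_cast hp
  have hq : (0 : ℝ) < 2 * a - 1 := by linarith
  have ha0 : (0 : ℝ) < a := by linarith
  have key := sos_identity (p : ℝ) a r s hR (x 0) (x 1) (x 2) (x 3)
  set Q : ℝ := 2 * x 0 ^ 2 + 2 * x 0 * x 1 + a * x 1 ^ 2 + 2 * r * x 1 * x 3 + a * p * x 2 ^ 2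
        + 2 * p * x 2 * x 3 + 2 * s * x 3 ^ 2 with hQ
  by_contra hneg
  rw [not_lt] at hneg
  have hc : (0 : ℝ) < 2 * (2 * a - 1) * a := by positivity
  have hle : 2 * (2 * (a : ℝ) - 1) * a * Q ≤ 0 := mul_nonpos_of_nonneg_of_nonpos hc.le hneg
  have t1 : 0 ≤ (2 * (a : ℝ) - 1) * a * (2 * x 0 + x 1) ^ 2 := by positivity
  have t2 : 0 ≤ (a : ℝ) * ((2 * a - 1) * x 1 + 2 * r * x 3) ^ 2 := by positivity
  have t3 : 0 ≤ 2 * (2 * (a : ℝ) - 1) * p * (a * x 2 + x 3) ^ 2 := by positivity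
  have t4 : 0 ≤ 2 * (p : ℝ) * x 3 ^ 2 := by positivity
  have e4 : 2 * (p : ℝ) * x 3 ^ 2 = 0 := by linarith
  have e3 : 2 * (2 * (a : ℝ) - 1) * p * (a * x 2 + x 3) ^ 2 = 0 := by linarith
  have e2 : (a : ℝ) * ((2 * a - 1) * x 1 + 2 * r * x 3) ^ 2 = 0 := by linarith
  have e1 : (2 * (a : ℝ) - 1) * a * (2 * x 0 + x 1) ^ 2 = 0 := by linarith
  have x3 : x 3 = 0 := by
    have : x 3 ^ 2 = 0 := by
      rcases mul_eq_zero.mp e4 with h' | h'
      · exfalso; linarith
      · exact h'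
    exact pow_eq_zero_iff (two_ne_zero) |>.mp this
  have x2 : x 2 = 0 := by
    have : (a * x 2 + x 3) ^ 2 = 0 := by
      rcases mul_eq_zero.mp e3 with h' | h'
      · exfalso
        have : (0 : ℝ) < 2 * (2 * a - 1) * p := by positivity
        linarith
      · exact h'
    have h2 : (a : ℝ) * x 2 + x 3 = 0 := pow_eq_zero_iff (two_ne_zero) |>.mp this
    rw [x3, add_zero] at h2
    exact (mul_eq_zero.mp h2).resolve_left ha0.ne'
  have x1 : x 1 = 0 := by
    have : ((2 * (a : ℝ) - 1) * x 1 + 2 * r * x 3) ^ 2 = 0 :=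
      (mul_eq_zero.mp e2).resolve_left ha0.ne'
    have h2 : (2 * (a : ℝ) - 1) * x 1 + 2 * r * x 3 = 0 :=
      pow_eq_zero_iff (two_ne_zero) |>.mp this
    rw [x3, mul_zero, add_zero] at h2
    exact (mul_eq_zero.mp h2).resolve_left hq.ne'
  have x0 : x 0 = 0 := by
    have : (2 * x 0 + x 1) ^ 2 = 0 := by
      rcases mul_eq_zero.mp e1 with h' | h'
      · exfalso
        have : (0 : ℝ) < (2 * a - 1) * a := by positivity
        linarith
      · exact h'
    have h2 : 2 * x 0 + x 1 = 0 := pow_eq_zero_iff (two_ne_zero) |>.mp this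
    rw [x1, add_zero] at h2
    linarith
  apply hx
  funext i
  fin_cases i <;> simp [x0, x1, x2, x3]

theorem gram_posDef {p a r s : ℤ} (h : (2 * a - 1) * s = r ^ 2 + p) (ha : 1 ≤ a)
    (hp : 0 < p) : ((gram p a r s).map (Int.cast : ℤ → ℝ)).PosDef := by
  refine Matrix.PosDef.of_dotProduct_mulVec_pos ?_ ?_
  · rw [Matrix.IsHermitian, Matrix.conjTranspose_eq_transpose_of_trivial, ← Matrix.transpose_map,
      (gram_isSymm p a r s).eq]
  · intro x hx
    simpa using gram_quadForm_pos h ha hp hx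

/-- integer version of positivity -/
theorem gram_quadForm_int_pos {p a r s : ℤ} (h : (2 * a - 1) * s = r ^ 2 + p) (ha : 1 ≤ a)
    (hp : 0 < p) {x : Fin 4 → ℤ} (hx : x ≠ 0) :
    0 < x ⬝ᵥ (gram p a r s) *ᵥ x := by
  have hx' : (fun i => ((x i : ℤ) : ℝ)) ≠ 0 := by
    intro h0
    apply hx
    funext i
    have := congrFun h0 i
    simpa using this
  have := gram_quadForm_pos h ha hp hx'
  have hcast : ((x ⬝ᵥ (gram p a r s) *ᵥ x : ℤ) : ℝ) =
      (fun i => ((x i : ℤ) : ℝ)) ⬝ᵥ ((gram p a r s).map (Int.cast : ℤ → ℝ)) *ᵥ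
        (fun i => ((x i : ℤ) : ℝ)) := by
    simp [dotProduct, Matrix.mulVec, Fin.sum_univ_four]
  rw [← hcast] at this
  exact_mod_cast this

/-! ### Existence of the parameters -/

/-- `p ≡ 1 mod 8`: Dirichlet + quadratic reciprocity. -/
theorem exists_params_one_mod_eight (p : ℕ) [hp : Fact p.Prime] (h8 : p % 8 = 1) :
    ∃ k r s : ℤ, 1 ≤ k ∧ (4 * k - 1) * s = r ^ 2 + p := by
  have hp4 : p % 4 = 1 := by omega
  have hp2 : p ≠ 2 := by omega
  have hcop : Nat.Coprime 4 p := by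
    have : Nat.Coprime 2 p := by
      rw [Nat.coprime_primes Nat.prime_two hp.out]; exact fun h => hp2 h.symm
    exact Nat.Coprime.pow_left 2 this
  have : NeZero (4 * p) := ⟨by have := hp.out.pos; omega⟩
  -- a non-square `u` mod `p`
  obtain ⟨u, hu⟩ : ∃ u : ZMod p, ¬ IsSquare u :=
    FiniteField.exists_nonsquare (by rw [ZMod.ringChar_zmod_n]; exact hp2)
  have hu0 : u ≠ 0 := fun h => hu (h ▸ IsSquare.zero)
  -- the residue class mod `4p`
  set e := ZMod.chineseRemainder hcop with he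
  set a : ZMod (4 * p) := e.symm ((3 : ZMod 4), u) with ha
  have h3 : IsUnit (3 : ZMod 4) := by decide
  have hau : IsUnit a := by
    have : IsUnit (((3 : ZMod 4), u) : ZMod 4 × ZMod p) :=
      Prod.isUnit_iff.mpr ⟨h3, isUnit_iff_ne_zero.mpr hu0⟩
    exact this.map e.symm
  obtain ⟨q, hq2, hqp, hqa⟩ := Nat.forall_exists_prime_gt_and_eq_mod hau 2
  have : Fact q.Prime := ⟨hqp⟩
  have hea : e (q : ZMod (4 * p)) = ((3 : ZMod 4), u) := by
    rw [hqa, ha, RingEquiv.apply_symm_apply]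
  have hq4' : ((q : ℕ) : ZMod 4) = 3 := by
    have := congrArg Prod.fst hea
    simpa using this
  have hqu : ((q : ℕ) : ZMod p) = u := by
    have := congrArg Prod.snd hea
    simpa using this
  have hq4 : q % 4 = 3 := by
    have : ((q : ℕ) : ZMod 4) = ((3 : ℕ) : ZMod 4) := by simpa using hq4'
    rw [ZMod.natCast_eq_natCast_iff'] at this
    simpa using this
  -- quadratic reciprocity
  have hpq : ¬ IsSquare ((p : ℕ) : ZMod q) := by
    rw [← ZMod.exists_sq_eq_prime_iff_of_mod_four_eq_one hp4 (by omega : q ≠ 2), hqu]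
    exact hu
  have hneg : ¬ IsSquare (-1 : ZMod q) := by
    rw [ZMod.exists_sq_eq_neg_one_iff]; simp [hq4]
  have hp0 : ((p : ℕ) : ZMod q) ≠ 0 := fun h => hpq (h ▸ IsSquare.zero)
  have hsq : IsSquare (-((p : ℕ) : ZMod q)) := by
    have hne : (-((p : ℕ) : ZMod q)) ≠ 0 := neg_ne_zero.mpr hp0
    rw [← quadraticChar_one_iff_isSquare hne]
    have h1 : quadraticChar (ZMod q) (-1) = -1 :=
      quadraticChar_neg_one_iff_not_isSquare.mpr hneg
    have h2 : quadraticChar (ZMod q) ((p : ℕ) : ZMod q) = -1 :=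
      quadraticChar_neg_one_iff_not_isSquare.mpr hpq
    have : (-((p : ℕ) : ZMod q)) = (-1) * ((p : ℕ) : ZMod q) := by ring
    rw [this, map_mul, h1, h2]; norm_num
  obtain ⟨y, hy⟩ := hsq
  have hdvd : (q : ℤ) ∣ (y.val : ℤ) ^ 2 + p := by
    rw [← ZMod.intCast_zmod_eq_zero_iff_dvd]
    push_cast
    rw [ZMod.natCast_zmod_val]
    linear_combination -hy
  obtain ⟨s, hs⟩ := hdvd
  refine ⟨((q : ℤ) + 1) / 4, (y.val : ℤ), s, by omega, ?_⟩
  have : 4 * (((q : ℤ) + 1) / 4) - 1 = q := by omega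
  rw [this, hs]

/-- For every odd prime `p` there are `k ≥ 1`, `r`, `s` with `(4k-1) s = r² + p`. -/
theorem exists_params (p : ℕ) [hp : Fact p.Prime] (hp2 : p ≠ 2) :
    ∃ k r s : ℤ, 1 ≤ k ∧ (4 * k - 1) * s = r ^ 2 + p := by
  have hodd : p % 2 = 1 := hp.out.eq_two_or_odd.resolve_left hp2
  have h8 : p % 8 = 1 ∨ p % 8 = 3 ∨ p % 8 = 5 ∨ p % 8 = 7 := by omega
  rcases h8 with h | h | h | h
  · exact exists_params_one_mod_eight p h
  · -- q = p, r = 0, s = 1
    refine ⟨((p : ℤ) + 1) / 4, 0, 1, by omega, ?_⟩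
    have : 4 * (((p : ℤ) + 1) / 4) - 1 = p := by omega
    rw [this]; ring
  · -- q = (p+1)/2, r = 1, s = 2
    refine ⟨((p : ℤ) + 3) / 8, 1, 2, by omega, ?_⟩
    have : 8 * (((p : ℤ) + 3) / 8) = p + 3 := by omega
    linear_combination this
  · refine ⟨((p : ℤ) + 1) / 4, 0, 1, by omega, ?_⟩
    have : 4 * (((p : ℤ) + 1) / 4) - 1 = p := by omega
    rw [this]; ring

/-- **Main export.**  For every odd prime `p` there is an even, positive definite quaternary
lattice of determinant `p ^ 2` whose `p`-scaled dual is again even integral (level `p`). -/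
theorem exists_lattice (p : ℕ) [Fact p.Prime] (hp2 : p ≠ 2) :
    ∃ A B : Matrix (Fin 4) (Fin 4) ℤ,
      A.IsSymm ∧ (∀ i, Even (A i i)) ∧ (A.map (Int.cast : ℤ → ℝ)).PosDef ∧
      (∀ x : Fin 4 → ℤ, x ≠ 0 → 0 < x ⬝ᵥ A *ᵥ x) ∧
      A.det = (p : ℤ) ^ 2 ∧ B.IsSymm ∧ A * B = (p : ℤ) • 1 ∧ B * A = (p : ℤ) • 1 ∧
      (∀ i, Even (B i i)) := by
  obtain ⟨k, r, s, hk, h⟩ := exists_params p hp2
  have h' : (2 * (2 * k) - 1) * s = r ^ 2 + (p : ℤ) := by rw [← h]; ring
  have hpos : (0 : ℤ) < p := by exact_mod_cast (Fact.out : p.Prime).pos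
  have hev : Even (2 * k) := even_two_mul k
  exact ⟨gram p (2 * k) r s, dual p (2 * k) r s, gram_isSymm _ _ _ _,
    gram_diag_even _ _ _ hev, gram_posDef h' (by omega) hpos,
    fun x hx => gram_quadForm_int_pos h' (by omega) hpos hx, gram_det h', dual_isSymm _ _ _ _,
    gram_mul_dual h', dual_mul_gram h', dual_diag_even _ _ _ hev⟩

end Fermat.Agent.S16.ThetaLattice
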