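/-
S16 / LOW (A-theta): the transformation of the quaternary theta series under `Γ₀(p)`.  (helper65)
From the interface Props `Inversion4Statement`, `SummabilityStatement` of `ThetaDefs.lean`.
-/
import Fermat.Agent.S16.ThetaDefs

set_option autoImplicit false

namespace Fermat.Agent.S16.ThetaGamma

open Complex Matrix Real Fermat.Agent.S16.Theta


/-! ### The character `ee n m = exp(2πi n/m)` -/

/-- `exp(2 π i n / m)` -/
noncomputable def ee (n : ℤ) (m : ℕ) : ℂ := cexp (2 * π * I * (n : ℂ) / (m : ℂ))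

theorem ee_add (n n' : ℤ) (m : ℕ) : ee (n + n') m = ee n m * ee n' m := by
  unfold ee
  rw [← Complex.exp_add]
  congr 1
  push_cast
  ring

theorem ee_mul_self (t : ℤ) (m : ℕ) [NeZero m] : ee (m * t) m = 1 := by
  unfold ee
  have hm : (m : ℂ) ≠ 0 := Nat.cast_ne_zero.mpr (NeZero.ne m)
  have : 2 * π * I * ((m * t : ℤ) : ℂ) / (m : ℂ) = t * (2 * π * I) := by
    push_cast
    field_simp
  rw [this, Complex.exp_int_mul_two_pi_mul_I]

theorem ee_zero (m : ℕ) : ee 0 m = 1 := by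
  unfold ee
  simp

theorem ee_congr {n n' : ℤ} {m : ℕ} [NeZero m] (h : (m : ℤ) ∣ n - n') : ee n m = ee n' m := by
  obtain ⟨t, ht⟩ := h
  have : n = n' + m * t := by linarith
  rw [this, ee_add, ee_mul_self, mul_one]

theorem norm_ee (n : ℤ) (m : ℕ) : ‖ee n m‖ = 1 := by
  unfold ee
  have : 2 * π * I * (n : ℂ) / (m : ℂ) = ((2 * π * n / m : ℝ) : ℂ) * I := by
    push_cast
    ring
  rw [this, Complex.norm_exp_ofReal_mul_I]

theorem ee_neg (n : ℤ) (m : ℕ) : ee (-n) m = (ee n m)⁻¹ := by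
  unfold ee
  rw [← Complex.exp_neg]
  congr 1
  push_cast
  ring



variable (A : Matrix (Fin 4) (Fin 4) ℤ)

/-- `xᵀ A y` -/
def bil (x y : Fin 4 → ℤ) : ℤ := x ⬝ᵥ A *ᵥ y

/-- `xᵀ A x` -/
def Q2 (x : Fin 4 → ℤ) : ℤ := bil A x x

theorem bil_add_left (x x' y : Fin 4 → ℤ) : bil A (x + x') y = bil A x y + bil A x' y := by
  simp [bil, add_dotProduct]

theorem bil_add_right (x y y' : Fin 4 → ℤ) : bil A x (y + y') = bil A x y + bil A x y' := by
  simp [bil, mulVec_add, dotProduct_add]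

theorem bil_smul_left (c : ℤ) (x y : Fin 4 → ℤ) : bil A (c • x) y = c * bil A x y := by
  rw [bil, bil, smul_dotProduct, smul_eq_mul]

theorem bil_smul_right (c : ℤ) (x y : Fin 4 → ℤ) : bil A x (c • y) = c * bil A x y := by
  rw [bil, bil, mulVec_smul, dotProduct_smul, smul_eq_mul]

theorem bil_comm (hA : A.IsSymm) (x y : Fin 4 → ℤ) : bil A x y = bil A y x := by
  unfold bil
  rw [dotProduct_mulVec, ← hA.eq, vecMul_transpose, dotProduct_comm]
  rw [hA.eq]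

theorem Q2_add (hA : A.IsSymm) (x y : Fin 4 → ℤ) :
    Q2 A (x + y) = Q2 A x + 2 * bil A x y + Q2 A y := by
  unfold Q2
  rw [bil_add_left, bil_add_right, bil_add_right, bil_comm A hA y x]
  ring

theorem Q2_smul (c : ℤ) (x : Fin 4 → ℤ) : Q2 A (c • x) = c ^ 2 * Q2 A x := by
  unfold Q2
  rw [bil_smul_left, bil_smul_right]
  ring

theorem Q2_neg (x : Fin 4 → ℤ) : Q2 A (-x) = Q2 A x := by
  have := Q2_smul A (-1) x
  simpa using this

theorem Q2_zero : Q2 A 0 = 0 := by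
  simp [Q2, bil]

/-- `(A x)ᵀ y = xᵀ A y` -/
theorem mulVec_dotProduct_eq (hA : A.IsSymm) (x y : Fin 4 → ℤ) :
    (A *ᵥ x) ⬝ᵥ y = bil A x y := by
  rw [dotProduct_comm]
  exact bil_comm A hA y x

theorem Q2_even (hA : A.IsSymm) (hev : ∀ i, Even (A i i)) (x : Fin 4 → ℤ) : Even (Q2 A x) := by
  obtain ⟨t0, h0⟩ := hev 0
  obtain ⟨t1, h1⟩ := hev 1
  obtain ⟨t2, h2⟩ := hev 2
  obtain ⟨t3, h3⟩ := hev 3
  have s01 : A 1 0 = A 0 1 := by rw [← hA.apply 0 1]
  have s02 : A 2 0 = A 0 2 := by rw [← hA.apply 0 2]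
  have s03 : A 3 0 = A 0 3 := by rw [← hA.apply 0 3]
  have s12 : A 2 1 = A 1 2 := by rw [← hA.apply 1 2]
  have s13 : A 3 1 = A 1 3 := by rw [← hA.apply 1 3]
  have s23 : A 3 2 = A 2 3 := by rw [← hA.apply 2 3]
  refine ⟨t0 * x 0 ^ 2 + t1 * x 1 ^ 2 + t2 * x 2 ^ 2 + t3 * x 3 ^ 2 + A 0 1 * x 0 * x 1
    + A 0 2 * x 0 * x 2 + A 0 3 * x 0 * x 3 + A 1 2 * x 1 * x 2 + A 1 3 * x 1 * x 3
    + A 2 3 * x 2 * x 3, ?_⟩
  simp only [Q2, bil, dotProduct, mulVec, Fin.sum_univ_four]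
  rw [s01, s02, s03, s12, s13, s23, h0, h1, h2, h3]
  ring



section Residues

variable (c : ℕ) [NeZero c]

/-- integer lift (in `[0,c)`) of a residue vector -/
def lift (g : Fin 4 → ZMod c) : Fin 4 → ℤ := fun i => ((g i).val : ℤ)

/-- reduction mod `c` -/
def red (x : Fin 4 → ℤ) : Fin 4 → ZMod c := fun i => (x i : ZMod c)

/-- quotient by `c` -/
def quo (x : Fin 4 → ℤ) : Fin 4 → ℤ := fun i => x i / (c : ℤ)

theorem lift_red_add (x : Fin 4 → ℤ) : lift c (red c x) + (c : ℤ) • quo c x = x := by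
  funext i
  simp only [lift, red, quo, Pi.add_apply, Pi.smul_apply, smul_eq_mul]
  rw [ZMod.val_intCast]
  exact Int.emod_add_mul_ediv (x i) c

theorem red_lift (g : Fin 4 → ZMod c) : red c (lift c g) = g := by
  funext i
  simp [lift, red]

theorem red_add_smul (x y : Fin 4 → ℤ) : red c (x + (c : ℤ) • y) = red c x := by
  funext i
  simp [red]

theorem red_add (x y : Fin 4 → ℤ) : red c (x + y) = red c x + red c y := by
  funext i
  simp [red]

theorem quo_lift_add (g : Fin 4 → ZMod c) (y : Fin 4 → ℤ) :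
    quo c (lift c g + (c : ℤ) • y) = y := by
  funext i
  simp only [lift, quo, Pi.add_apply, Pi.smul_apply, smul_eq_mul]
  have hc : (0 : ℤ) < c := by exact_mod_cast Nat.pos_of_ne_zero (NeZero.ne c)
  rw [Int.add_mul_ediv_left _ _ hc.ne', Int.ediv_eq_zero_of_lt (by positivity), zero_add]
  exact_mod_cast ZMod.val_lt (g i)

/-- `ℤ⁴ ≃ (ℤ/c)⁴ × ℤ⁴`, `x ↦ (x mod c, x / c)`. -/
def splitEquiv : (Fin 4 → ℤ) ≃ (Fin 4 → ZMod c) × (Fin 4 → ℤ) where
  toFun x := (red c x, quo c x)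
  invFun gy := lift c gy.1 + (c : ℤ) • gy.2
  left_inv := lift_red_add c
  right_inv := by
    rintro ⟨g, y⟩
    simp only [Prod.mk.injEq]
    exact ⟨by rw [red_add_smul, red_lift], quo_lift_add c g y⟩

variable {c}

theorem periodic_lift_red {F : (Fin 4 → ℤ) → ℂ}
    (hF : ∀ x y : Fin 4 → ℤ, F (x + (c : ℤ) • y) = F x) (x : Fin 4 → ℤ) :
    F (lift c (red c x)) = F x := by
  conv_rhs => rw [← lift_red_add c x]
  rw [hF]

/-- shift invariance of a complete sum of a `c`-periodic function -/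
theorem sum_lift_add {F : (Fin 4 → ℤ) → ℂ}
    (hF : ∀ x y : Fin 4 → ℤ, F (x + (c : ℤ) • y) = F x) (t : Fin 4 → ℤ) :
    ∑ g : Fin 4 → ZMod c, F (lift c g + t) = ∑ g : Fin 4 → ZMod c, F (lift c g) := by
  have h1 : ∀ g : Fin 4 → ZMod c, F (lift c g + t) = F (lift c (g + red c t)) := by
    intro g
    rw [← periodic_lift_red hF (lift c g + t), red_add, red_lift]
  simp_rw [h1]
  exact Fintype.sum_equiv (Equiv.addRight (red c t)) _ _ (fun g => rfl)

end Residues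


/-! ### The lattice data and the real matrices -/

/-- The hypotheses on the lattice used in this file. -/
structure Data (p : ℕ) (A B : Matrix (Fin 4) (Fin 4) ℤ) : Prop where
  ppos : 0 < p
  symmA : A.IsSymm
  symmB : B.IsSymm
  evenA : ∀ x, Even (Q2 A x)
  evenB : ∀ x, Even (Q2 B x)
  AB : A * B = (p : ℤ) • (1 : Matrix (Fin 4) (Fin 4) ℤ)
  BA : B * A = (p : ℤ) • (1 : Matrix (Fin 4) (Fin 4) ℤ)
  posDef : (A.map (Int.cast : ℤ → ℝ)).PosDef
  det : A.det = (p : ℤ) ^ 2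

/-- `A` as a real matrix -/
noncomputable def AR (A : Matrix (Fin 4) (Fin 4) ℤ) : Matrix (Fin 4) (Fin 4) ℝ :=
  A.map (Int.cast : ℤ → ℝ)

/-- `A⁻¹ = p⁻¹ B` as a real matrix -/
noncomputable def NR (p : ℕ) (B : Matrix (Fin 4) (Fin 4) ℤ) : Matrix (Fin 4) (Fin 4) ℝ :=
  (p : ℝ)⁻¹ • B.map (Int.cast : ℤ → ℝ)

theorem qf_AR (A : Matrix (Fin 4) (Fin 4) ℤ) (x : Fin 4 → ℤ) :
    qf (AR A) (fun i => (x i : ℝ)) = (Q2 A x : ℝ) := by
  simp only [qf, AR, Q2, bil, dotProduct, mulVec, Matrix.map_apply]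
  push_cast
  rfl

theorem qf_smul {n : ℕ} (M : Matrix (Fin n) (Fin n) ℝ) (r : ℝ) (y : Fin n → ℝ) :
    qf M (r • y) = r ^ 2 * qf M y := by
  simp only [qf, mulVec_smul, smul_dotProduct, dotProduct_smul, smul_eq_mul]
  ring

theorem qf_NR (p : ℕ) (B : Matrix (Fin 4) (Fin 4) ℤ) (k : Fin 4 → ℤ) :
    qf (NR p B) (fun i => (k i : ℝ)) = (Q2 B k : ℝ) / p := by
  have h := qf_AR B k
  simp only [qf, AR] at h
  simp only [qf, NR, smul_mulVec, dotProduct_smul, smul_eq_mul, h]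
  ring

theorem qf_AR_shift (A : Matrix (Fin 4) (Fin 4) ℤ) (c : ℕ) [NeZero c] (g y : Fin 4 → ℤ) :
    qf (AR A) (fun i => (y i : ℝ) + (g i : ℝ) / c) = (Q2 A (g + (c : ℤ) • y) : ℝ) / (c : ℝ) ^ 2 := by
  have hc : (c : ℝ) ≠ 0 := Nat.cast_ne_zero.mpr (NeZero.ne c)
  have : (fun i => (y i : ℝ) + (g i : ℝ) / c) =
      (c : ℝ)⁻¹ • (fun i => (((g + (c : ℤ) • y) i : ℤ) : ℝ)) := by
    funext i
    simp only [Pi.add_apply, Pi.smul_apply, smul_eq_mul]
    push_cast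
    field_simp
    ring
  rw [this, qf_smul, qf_AR]
  field_simp

theorem AR_mul_NR {p : ℕ} {A B : Matrix (Fin 4) (Fin 4) ℤ} (h : Data p A B) :
    AR A * NR p B = 1 := by
  have hp : (p : ℝ) ≠ 0 := Nat.cast_ne_zero.mpr h.ppos.ne'
  have hmul : A.map (Int.cast : ℤ → ℝ) * B.map (Int.cast : ℤ → ℝ) =
      (A * B).map (Int.cast : ℤ → ℝ) :=
    (Matrix.map_mul (f := Int.castRingHom ℝ)).symm
  unfold AR NR
  rw [Matrix.mul_smul, hmul, h.AB]
  ext i j
  rw [Matrix.smul_apply, Matrix.map_apply, Matrix.smul_apply, Matrix.one_apply, Matrix.one_apply]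
  by_cases hij : i = j
  · simp only [hij, if_true, smul_eq_mul, mul_one]
    push_cast
    field_simp
  · simp only [hij, if_false, smul_eq_mul, mul_zero]
    simp

theorem det_AR {p : ℕ} {A B : Matrix (Fin 4) (Fin 4) ℤ} (h : Data p A B) :
    ((p : ℝ)) ^ 2 = (AR A).det := by
  have := (RingHom.map_det (Int.castRingHom ℝ) A).symm
  have h2 : (Int.castRingHom ℝ).mapMatrix A = AR A := rfl
  rw [h2, h.det] at this
  rw [this]
  simp

theorem NR_posDef {p : ℕ} {A B : Matrix (Fin 4) (Fin 4) ℤ} (h : Data p A B) :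
    (NR p B).PosDef := by
  have hinv : (AR A)⁻¹ = NR p B := Matrix.inv_eq_right_inv (AR_mul_NR h)
  rw [← hinv]
  exact h.posDef.inv

/-- `(az+b)/(cz+d) = a/c - 1/(c(cz+d))`. -/
theorem mobius_eq (a b d : ℤ) (c : ℕ) [NeZero c] (hdet : a * d - b * c = 1) (z : ℂ)
    (hcz : (c : ℂ) * z + d ≠ 0) :
    ((a : ℂ) * z + b) / (c * z + d) = a / c - 1 / (c * (c * z + d)) := by
  have hc : (c : ℂ) ≠ 0 := Nat.cast_ne_zero.mpr (NeZero.ne c)
  have hdet' : (a : ℂ) * d - b * c = 1 := by exact_mod_cast congrArg (Int.cast : ℤ → ℂ) hdet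
  rw [div_eq_iff hcz, sub_mul, one_div, mul_inv, mul_assoc, inv_mul_cancel₀ hcz, mul_one]
  field_simp
  linear_combination (-1 : ℂ) * hdet'

theorem Q2_add_smul {A : Matrix (Fin 4) (Fin 4) ℤ} (hA : A.IsSymm) (c : ℤ) (g y : Fin 4 → ℤ) :
    Q2 A (g + c • y) = Q2 A g + 2 * c * bil A g y + c ^ 2 * Q2 A y := by
  rw [Q2_add A hA, bil_smul_right, Q2_smul]
  ring

/-- The key termwise identity behind the splitting `x = g + c y`. -/
theorem shiftTerm_split {p : ℕ} {A B : Matrix (Fin 4) (Fin 4) ℤ} (h : Data p A B) (a b d : ℤ)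
    (c : ℕ) [NeZero c] (hdet : a * d - b * c = 1) (z : ℂ) (hcz : (c : ℂ) * z + d ≠ 0)
    (g y : Fin 4 → ℤ) :
    shiftTerm (AR A) 0 (((a : ℂ) * z + b) / (c * z + d)) (g + (c : ℤ) • y) =
      ee (a * Q2 A g) (2 * c) *
        shiftTerm (AR A) (fun i => (g i : ℝ) / c) (-(c : ℂ) / (c * z + d)) y := by
  have hc : (c : ℂ) ≠ 0 := Nat.cast_ne_zero.mpr (NeZero.ne c)
  obtain ⟨t, ht⟩ := h.evenA y
  have hL : qf (AR A) (fun i => (((g + (c : ℤ) • y) i : ℤ) : ℝ) + (0 : Fin 4 → ℝ) i) =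
      (Q2 A (g + (c : ℤ) • y) : ℝ) := by
    simp only [Pi.zero_apply, add_zero]
    exact qf_AR A _
  unfold shiftTerm ee
  rw [hL, qf_AR_shift, ← Complex.exp_add, Complex.exp_eq_exp_iff_exists_int]
  refine ⟨a * bil A g y + a * c * t, ?_⟩
  rw [mobius_eq a b d c hdet z hcz, Q2_add_smul h.symmA, ht]
  push_cast
  field_simp
  ring

theorem twistTerm_eq (p : ℕ) (B : Matrix (Fin 4) (Fin 4) ℤ) (c : ℕ) [NeZero c] (g k : Fin 4 → ℤ)
    (z : ℂ) :
    twistTerm (NR p B) (fun i => (g i : ℝ) / c) z k =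
      cexp (π * I * z * ((Q2 B k : ℂ) / p)) * ee (2 * (k ⬝ᵥ g)) (2 * c) := by
  have hc : (c : ℂ) ≠ 0 := Nat.cast_ne_zero.mpr (NeZero.ne c)
  unfold twistTerm ee
  rw [qf_NR, ← Complex.exp_add]
  congr 1
  have : ((∑ i, (k i : ℝ) * ((g i : ℝ) / c) : ℝ) : ℂ) = ((k ⬝ᵥ g : ℤ) : ℂ) / c := by
    simp only [dotProduct]
    push_cast
    rw [Finset.sum_div]
    refine Finset.sum_congr rfl fun i _ => ?_
    ring
  rw [this]
  push_cast
  field_simp

/-- The finite exponential sum attached to `(a, c, k)`. -/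
noncomputable def gaussK (A : Matrix (Fin 4) (Fin 4) ℤ) (c : ℕ) [NeZero c] (a : ℤ) (k : Fin 4 → ℤ) :
    ℂ :=
  ∑ g : Fin 4 → ZMod c, ee (a * Q2 A (lift c g) + 2 * (k ⬝ᵥ lift c g)) (2 * c)

theorem denom_ne_zero' (d : ℤ) (c : ℕ) [NeZero c] (z : ℂ) (hz : 0 < z.im) :
    (c : ℂ) * z + d ≠ 0 := by
  intro h0
  have := congrArg Complex.im h0
  simp at this
  rcases this with h1 | h1
  · exact NeZero.ne c h1
  · exact hz.ne' h1

theorem im_tau_pos (d : ℤ) (c : ℕ) [NeZero c] (z : ℂ) (hz : 0 < z.im) :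
    0 < (-(c : ℂ) / (c * z + d)).im := by
  have hcz := denom_ne_zero' d c z hz
  have hc : (0 : ℝ) < c := Nat.cast_pos.mpr (Nat.pos_of_ne_zero (NeZero.ne c))
  rw [div_eq_mul_inv, Complex.mul_im, Complex.inv_im, Complex.inv_re]
  simp only [Complex.neg_re, Complex.neg_im, Complex.natCast_re, Complex.natCast_im, neg_zero,
    zero_mul, add_zero]
  have him : ((c : ℂ) * z + d).im = c * z.im := by simp
  rw [him]
  have hns : 0 < Complex.normSq ((c : ℂ) * z + d) := Complex.normSq_pos.mpr hcz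
  have : -(c : ℝ) * (-(c * z.im) / Complex.normSq ((c : ℂ) * z + d)) =
      c * c * z.im / Complex.normSq ((c : ℂ) * z + d) := by ring
  rw [this]
  positivity

theorem im_mobius_pos (a b d : ℤ) (c : ℕ) [NeZero c] (hdet : a * d - b * c = 1) (z : ℂ)
    (hz : 0 < z.im) : 0 < (((a : ℂ) * z + b) / (c * z + d)).im := by
  have hcz := denom_ne_zero' d c z hz
  have hc : (c : ℂ) ≠ 0 := Nat.cast_ne_zero.mpr (NeZero.ne c)
  have hcR : (0 : ℝ) < c := Nat.cast_pos.mpr (Nat.pos_of_ne_zero (NeZero.ne c))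
  rw [mobius_eq a b d c hdet z hcz]
  have h1 : ((a : ℂ) / c).im = 0 := by
    have : ((a : ℂ) / c) = (((a : ℝ) / c : ℝ) : ℂ) := by push_cast; rfl
    rw [this, Complex.ofReal_im]
  have h2 : (1 / ((c : ℂ) * (c * z + d))) = (c : ℂ)⁻¹ ^ 2 * -(-(c : ℂ) / (c * z + d)) := by
    field_simp
  rw [Complex.sub_im, h1, h2, zero_sub]
  have h3 : ((c : ℂ)⁻¹ ^ 2) = (((c : ℝ)⁻¹ ^ 2 : ℝ) : ℂ) := by push_cast; rfl
  rw [h3, Complex.im_ofReal_mul, Complex.neg_im]
  have := im_tau_pos d c z hz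
  have hpos : (0 : ℝ) < (c : ℝ)⁻¹ ^ 2 := by positivity
  nlinarith

/-- **General transformation formula**: for `γ = (a b; c d) ∈ SL₂(ℤ)`, `c > 0`,
`θ_A(γ z) = -((cz+d)²/(c² p)) ∑_k exp(π i (z + d/c) kᵀ A⁻¹ k) G_c(a; k)`. -/
theorem general_formula (hInv : Inversion4Statement) (hSum : SummabilityStatement) {p : ℕ}
    {A B : Matrix (Fin 4) (Fin 4) ℤ} (h : Data p A B) (a b d : ℤ) (c : ℕ) [NeZero c]
    (hdet : a * d - b * c = 1) (z : ℂ) (hz : 0 < z.im) :
    theta (AR A) (((a : ℂ) * z + b) / (c * z + d)) =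
      -(((c : ℂ) * z + d) ^ 2 / ((c : ℂ) ^ 2 * p)) *
        ∑' k : Fin 4 → ℤ, cexp (π * I * (z + d / c) * ((Q2 B k : ℂ) / p)) * gaussK A c a k := by
  have hc : (c : ℂ) ≠ 0 := Nat.cast_ne_zero.mpr (NeZero.ne c)
  have hpC : (p : ℂ) ≠ 0 := Nat.cast_ne_zero.mpr h.ppos.ne'
  have hcz := denom_ne_zero' d c z hz
  have hw := im_mobius_pos a b d c hdet z hz
  have hτ := im_tau_pos d c z hz
  set w : ℂ := ((a : ℂ) * z + b) / (c * z + d) with hwdef
  set τ : ℂ := -(c : ℂ) / (c * z + d) with hτdef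
  have hτ0 : τ ≠ 0 := by
    rw [hτdef]; exact div_ne_zero (neg_ne_zero.mpr hc) hcz
  have hz' : -1 / τ = z + d / c := by
    rw [hτdef]; field_simp
  have hz'im : 0 < (z + (d : ℂ) / c).im := by
    have : ((d : ℂ) / c).im = 0 := by
      have : ((d : ℂ) / c) = (((d : ℝ) / c : ℝ) : ℂ) := by push_cast; rfl
      rw [this, Complex.ofReal_im]
    rw [Complex.add_im, this, add_zero]; exact hz
  -- summability
  have hsumf : Summable (fun x => shiftTerm (AR A) 0 w x) :=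
    ((hSum (AR A) h.posDef 0 w hw).1).of_norm
  -- step 1: split the sum
  have e1 : theta (AR A) w = ∑ g : Fin 4 → ZMod c,
      ∑' y : Fin 4 → ℤ, shiftTerm (AR A) 0 w (lift c g + (c : ℤ) • y) := by
    unfold theta thetaShift
    rw [← (splitEquiv c).symm.tsum_eq]
    have hs2 : Summable (fun gy : (Fin 4 → ZMod c) × (Fin 4 → ℤ) =>
        shiftTerm (AR A) 0 w ((splitEquiv c).symm gy)) :=
      ((splitEquiv c).symm.summable_iff).mpr hsumf
    rw [hs2.tsum_prod' (fun g => hs2.prod_factor g), tsum_fintype]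
    rfl
  -- step 2: each inner sum
  have e2 : ∀ g : Fin 4 → ZMod c,
      ∑' y : Fin 4 → ℤ, shiftTerm (AR A) 0 w (lift c g + (c : ℤ) • y) =
        ee (a * Q2 A (lift c g)) (2 * c) *
          (-(1 / (τ ^ 2 * (p : ℂ))) *
            ∑' k : Fin 4 → ℤ, cexp (π * I * (z + d / c) * ((Q2 B k : ℂ) / p)) *
              ee (2 * (k ⬝ᵥ lift c g)) (2 * c)) := by
    intro g
    have h1 : ∀ y : Fin 4 → ℤ, shiftTerm (AR A) 0 w (lift c g + (c : ℤ) • y) =
        ee (a * Q2 A (lift c g)) (2 * c) *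
          shiftTerm (AR A) (fun i => (lift c g i : ℝ) / c) τ y :=
      fun y => shiftTerm_split h a b d c hdet z hcz (lift c g) y
    rw [tsum_congr h1, tsum_mul_left]
    congr 1
    have hI := hInv (AR A) (NR p B) (p : ℝ) h.posDef (AR_mul_NR h)
      (Nat.cast_pos.mpr h.ppos) (det_AR h) (fun i => (lift c g i : ℝ) / c) τ hτ
    unfold thetaShift at hI
    rw [hI, Complex.ofReal_natCast]
    congr 1
    unfold thetaTwist
    rw [hz']
    exact tsum_congr fun k => twistTerm_eq p B c (lift c g) k _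
  rw [e1, Finset.sum_congr rfl fun g _ => e2 g]
  -- step 3: swap the finite sum and the series
  have hsumk : ∀ g : Fin 4 → ZMod c, Summable (fun k : Fin 4 → ℤ =>
      cexp (π * I * (z + d / c) * ((Q2 B k : ℂ) / p)) * ee (2 * (k ⬝ᵥ lift c g)) (2 * c)) := by
    intro g
    have hN : (NR p B).PosDef := NR_posDef h
    have := ((hSum (NR p B) hN (fun i => (lift c g i : ℝ) / c) (z + d / c) hz'im).2).of_norm
    refine this.congr fun k => ?_
    exact twistTerm_eq p B c (lift c g) k _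
  have hτ2 : 1 / (τ ^ 2 * (p : ℂ)) = ((c : ℂ) * z + d) ^ 2 / ((c : ℂ) ^ 2 * p) := by
    rw [hτdef]; field_simp
  rw [← hτ2]
  have e3 : ∀ g : Fin 4 → ZMod c,
      ee (a * Q2 A (lift c g)) (2 * c) *
          (-(1 / (τ ^ 2 * (p : ℂ))) *
            ∑' k : Fin 4 → ℤ, cexp (π * I * (z + d / c) * ((Q2 B k : ℂ) / p)) *
              ee (2 * (k ⬝ᵥ lift c g)) (2 * c)) =
        -(1 / (τ ^ 2 * (p : ℂ))) *
          ∑' k : Fin 4 → ℤ, ee (a * Q2 A (lift c g)) (2 * c) *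
            (cexp (π * I * (z + d / c) * ((Q2 B k : ℂ) / p)) *
              ee (2 * (k ⬝ᵥ lift c g)) (2 * c)) := by
    intro g
    rw [tsum_mul_left]
    ring
  rw [Finset.sum_congr rfl fun g _ => e3 g, ← Finset.mul_sum]
  congr 1
  rw [← Summable.tsum_finsetSum (fun g _ => (hsumk g).mul_left _)]
  refine tsum_congr fun k => ?_
  unfold gaussK
  rw [Finset.mul_sum]
  refine Finset.sum_congr rfl fun g _ => ?_
  rw [ee_add]
  ring

/-! ### The Gauss sums for `γ S`, `γ ∈ Γ₀(p)` -/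

instance neZero_two_mul (d : ℕ) [NeZero d] : NeZero (2 * d) :=
  ⟨by have := NeZero.ne d; omega⟩

theorem mulVec_mulVec_AB {p : ℕ} {A B : Matrix (Fin 4) (Fin 4) ℤ} (h : Data p A B)
    (k : Fin 4 → ℤ) : A *ᵥ (B *ᵥ k) = (p : ℤ) • k := by
  rw [Matrix.mulVec_mulVec, h.AB, Matrix.smul_mulVec, Matrix.one_mulVec]

/-- `g ↦ ee (b * Q2 A g) (2d)` is `d`-periodic. -/
theorem ee_Q2_periodic {p : ℕ} {A B : Matrix (Fin 4) (Fin 4) ℤ} (h : Data p A B) (b : ℤ) (d : ℕ)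
    [NeZero d] (x y : Fin 4 → ℤ) :
    ee (b * Q2 A (x + (d : ℤ) • y)) (2 * d) = ee (b * Q2 A x) (2 * d) := by
  obtain ⟨s, hs⟩ := h.evenA y
  apply ee_congr
  rw [Q2_add_smul h.symmA, hs]
  refine ⟨b * bil A x y + b * d * s, ?_⟩
  push_cast
  ring

theorem gaussK_zero (A : Matrix (Fin 4) (Fin 4) ℤ) (d : ℕ) [NeZero d] (b : ℤ) :
    gaussK A d b 0 = ∑ g : Fin 4 → ZMod d, ee (b * Q2 A (lift d g)) (2 * d) := by
  unfold gaussK
  simp

/-- **Completing the square**: if `ad - bc = 1`, `c = p c'`, then for every `k`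
`e(-c' kᵀBk / 2d) G_d(b; k) = G_d(b; 0)`. -/
theorem gaussK_eq {p : ℕ} {A B : Matrix (Fin 4) (Fin 4) ℤ} (h : Data p A B) (a b c' : ℤ) (d : ℕ)
    [NeZero d] (hdet : a * d - b * (p * c') = 1) (k : Fin 4 → ℤ) :
    ee (-(c' * Q2 B k)) (2 * d) * gaussK A d b k = gaussK A d b 0 := by
  obtain ⟨s, hs⟩ := h.evenB k
  set t : Fin 4 → ℤ := (-c') • (B *ᵥ k) with ht
  have hbil : ∀ g : Fin 4 → ℤ, bil A g t = -(c' * p * (g ⬝ᵥ k)) := by
    intro g
    rw [ht, bil_smul_right, bil, mulVec_mulVec_AB h, dotProduct_smul, smul_eq_mul]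
    ring
  have hQt : Q2 A t = c' ^ 2 * p * Q2 B k := by
    rw [ht, Q2_smul, Q2, bil, mulVec_mulVec_AB h, dotProduct_smul, smul_eq_mul, Q2, bil,
      dotProduct_comm (B *ᵥ k) k]
    ring
  have key : ∀ g : Fin 4 → ℤ, ee (b * Q2 A g + 2 * (k ⬝ᵥ g)) (2 * d) =
      ee (b * Q2 A (g + t)) (2 * d) * ee (c' * Q2 B k) (2 * d) := by
    intro g
    rw [← ee_add]
    apply ee_congr
    rw [Q2_add A h.symmA, hbil, hQt, hs, dotProduct_comm k g]
    refine ⟨a * (g ⬝ᵥ k) - a * c' * s, ?_⟩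
    push_cast
    linear_combination (-(2 * (g ⬝ᵥ k)) + 2 * c' * s) * hdet
  rw [gaussK_zero]
  unfold gaussK
  rw [Finset.sum_congr rfl fun g _ => key (lift d g), ← Finset.sum_mul,
    sum_lift_add (F := fun x => ee (b * Q2 A x) (2 * d)) (fun x y => ee_Q2_periodic h b d x y) t,
    mul_comm, mul_assoc, ← ee_add]
  have : c' * Q2 B k + -(c' * Q2 B k) = 0 := by ring
  rw [this, ee_zero, mul_one]

/-- The "dual" theta series `∑_k exp(π i z kᵀ A⁻¹ k)` in terms of `θ_A` (inversion at `u = 0`). -/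
theorem theta_inversion (hInv : Inversion4Statement) {p : ℕ} {A B : Matrix (Fin 4) (Fin 4) ℤ}
    (h : Data p A B) (z : ℂ) (hz : 0 < z.im) :
    theta (AR A) z =
      -(1 / (z ^ 2 * (p : ℂ))) * ∑' k : Fin 4 → ℤ, cexp (π * I * (-1 / z) * ((Q2 B k : ℂ) / p)) := by
  have hI := hInv (AR A) (NR p B) (p : ℝ) h.posDef (AR_mul_NR h)
    (Nat.cast_pos.mpr h.ppos) (det_AR h) 0 z hz
  unfold theta
  rw [hI, Complex.ofReal_natCast]
  congr 1
  unfold thetaTwist
  refine tsum_congr fun k => ?_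
  unfold twistTerm
  rw [qf_NR]
  simp

/-- **Modularity** for `γ = (a b; p c' d)` with `d > 0`, given the value `d²` of the Gauss sum. -/
theorem theta_transform (hInv : Inversion4Statement) (hSum : SummabilityStatement) {p : ℕ}
    {A B : Matrix (Fin 4) (Fin 4) ℤ} (h : Data p A B) (a b c' : ℤ) (d : ℕ) [NeZero d]
    (hdet : a * d - b * (p * c') = 1) (hG : gaussK A d b 0 = (d : ℂ) ^ 2) (z : ℂ)
    (hz : 0 < z.im) :
    theta (AR A) (((a : ℂ) * z + b) / ((p : ℂ) * c' * z + d)) =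
      ((p : ℂ) * c' * z + d) ^ 2 * theta (AR A) z := by
  have hz0 : z ≠ 0 := by
    intro h0; rw [h0] at hz; simp at hz
  have hpC : (p : ℂ) ≠ 0 := Nat.cast_ne_zero.mpr h.ppos.ne'
  have hdC : (d : ℂ) ≠ 0 := Nat.cast_ne_zero.mpr (NeZero.ne d)
  set z' : ℂ := -1 / z with hz'def
  have hz' : 0 < z'.im := by
    rw [hz'def, neg_div, Complex.neg_im, one_div, Complex.inv_im, neg_div, neg_neg]
    exact div_pos hz (Complex.normSq_pos.mpr hz0)
  have hdet' : b * ((-(p * c') : ℤ)) - (-a) * d = 1 := by linarith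
  have hGF := general_formula hInv hSum h b (-a) (-(p * c')) d hdet' z' hz'
  have hterm : ∀ k : Fin 4 → ℤ,
      cexp (π * I * (z' + ((-(p * c') : ℤ) : ℂ) / d) * ((Q2 B k : ℂ) / p)) * gaussK A d b k =
        (d : ℂ) ^ 2 * cexp (π * I * z' * ((Q2 B k : ℂ) / p)) := by
    intro k
    have h1 : cexp (π * I * (z' + ((-(p * c') : ℤ) : ℂ) / d) * ((Q2 B k : ℂ) / p)) =
        cexp (π * I * z' * ((Q2 B k : ℂ) / p)) * ee (-(c' * Q2 B k)) (2 * d) := by
      unfold ee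
      rw [← Complex.exp_add]
      congr 1
      push_cast
      field_simp
    rw [h1, mul_assoc, gaussK_eq h a b c' d hdet k, hG, mul_comm]
  rw [tsum_congr hterm, tsum_mul_left] at hGF
  have hinv := theta_inversion hInv h z hz
  -- the left-hand sides agree
  have hcz : (p : ℂ) * c' * z + d ≠ 0 := by
    intro h0
    have := congrArg Complex.im h0
    simp at this
    rcases this with h1 | h1
    · rcases h1 with h1 | h1
      · exact h.ppos.ne' h1
      · have : a * (d : ℤ) = 1 := by rw [h1] at hdet; linarith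
        -- c' = 0 : then the imaginary part is zero but the real part is d ≠ 0
        have h2 := congrArg Complex.re h0
        rw [h1] at h2
        simp at h2
        exact NeZero.ne d h2
    · exact hz.ne' h1
  have hlhs : ((b : ℂ) * z' + ((-a : ℤ) : ℂ)) / ((d : ℂ) * z' + ((-(p * c') : ℤ) : ℂ)) =
      ((a : ℂ) * z + b) / ((p : ℂ) * c' * z + d) := by
    rw [hz'def]
    have hden : (d : ℂ) * (-1 / z) + ((-(p * c') : ℤ) : ℂ) ≠ 0 := by
      intro h0
      apply hcz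
      have : (p : ℂ) * c' * z + d = -z * ((d : ℂ) * (-1 / z) + ((-(p * c') : ℤ) : ℂ)) := by
        push_cast; field_simp; ring
      rw [this, h0, mul_zero]
    rw [div_eq_div_iff hden hcz]
    push_cast
    field_simp
    ring
  rw [hlhs] at hGF
  rw [hGF, hinv]
  rw [← hz'def]
  have : ((d : ℂ) * z' + ((-(p * c') : ℤ) : ℂ)) ^ 2 = ((p : ℂ) * c' * z + d) ^ 2 / z ^ 2 := by
    rw [hz'def]; push_cast; field_simp; ring
  rw [this]
  field_simp

end Fermat.Agent.S16.ThetaGamma
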