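/-
S16 / LOW (A-theta): adapters + Dirichlet step.  (helper65)
From `Theta/Inversion.lean` (helper29), `Theta/GaussPrime.lean` (helper57) and `ThetaGamma.lean`:
the transformation law of `thetaFun A` under `Γ₀(p)` and its boundedness at all cusps, in exactly
the shape consumed by `Theta/Package.lean` (helper47).
-/
import Fermat.Agent.S16.ThetaGamma
import Fermat.Agent.S16.Theta.Inversion
import Fermat.Agent.S16.Theta.GaussPrime

set_option autoImplicit false

namespace Fermat.Agent.S16.ThetaSlash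

open Complex Matrix Real Fermat.Agent.S16.Theta Fermat.Agent.S16.ThetaGamma

/-! ### Adapter 1: the interface Props of `ThetaDefs.lean` -/

theorem shiftTerm_eq_thetaTerm {n : ℕ} (M : Matrix (Fin n) (Fin n) ℝ) (u : Fin n → ℝ) (z : ℂ)
    (x : Fin n → ℤ) : shiftTerm M u z x = thetaTerm M z u 0 x := by
  unfold shiftTerm thetaTerm qf quad
  simp

theorem twistTerm_eq_thetaDualTerm {n : ℕ} (M N : Matrix (Fin n) (Fin n) ℝ) (hMN : M * N = 1)
    (u : Fin n → ℝ) (z : ℂ) (k : Fin n → ℤ) :
    twistTerm N u (-1 / z) k = thetaDualTerm M z u 0 k := by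
  have hinv : M⁻¹ = N := Matrix.inv_eq_right_inv hMN
  unfold twistTerm thetaDualTerm qf quad
  rw [hinv]
  simp only [Pi.zero_apply, sub_zero]
  congr 1
  ring

theorem summability : SummabilityStatement := by
  intro n M hM u z hz
  constructor
  · have := Inversion.summable_gauss n M hM (π * z.im) (by positivity) u
    refine this.congr fun x => ?_
    rw [shiftTerm_eq_thetaTerm, Inversion.norm_thetaTerm]
  · have := Inversion.summable_gauss n M hM (π * z.im) (by positivity) 0
    refine this.congr fun k => ?_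
    have h1 : ‖twistTerm M u z k‖ = ‖thetaTerm M z 0 u k‖ := by
      unfold twistTerm thetaTerm qf quad
      rw [Complex.norm_exp, Complex.norm_exp]
      congr 1
      simp only [Pi.zero_apply, add_zero, Complex.add_re]
      congr 1
      · have : (2 * (π : ℂ) * I * ((∑ i, (k i : ℝ) * u i : ℝ) : ℂ)) =
            ((2 * π * (∑ i, (k i : ℝ) * u i) : ℝ) : ℂ) * I := by push_cast; ring
        have h2 : (2 * (π : ℂ) * I * ((∑ i, u i * (k i : ℝ) : ℝ) : ℂ)) =
            ((2 * π * (∑ i, u i * (k i : ℝ)) : ℝ) : ℂ) * I := by push_cast; ring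
        rw [this, h2, Complex.re_ofReal_mul, Complex.re_ofReal_mul]
        simp
    rw [h1, Inversion.norm_thetaTerm]

theorem inversion4 : Inversion4Statement := by
  intro M N D hM hMN hD hD2 u z hz
  have hz0 : z ≠ 0 := by
    intro h0; rw [h0] at hz; simp at hz
  have h := Inversion.inversion_aux 4 M hM z hz u 0
  unfold thetaShift thetaTwist
  rw [tsum_congr fun x => shiftTerm_eq_thetaTerm M u z x,
    tsum_congr fun k => twistTerm_eq_thetaDualTerm M N hMN u z k, h]
  have h4 : (1 / (-I * z) ^ (1 / 2 : ℂ)) ^ 4 = -(1 / z ^ 2) := by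
    have h1 : ((-I * z) ^ (1 / 2 : ℂ)) ^ 2 = -I * z := by simp
    rw [one_div, inv_pow, show (4 : ℕ) = 2 * 2 from rfl, pow_mul, h1, mul_pow]
    have : (-I) ^ 2 = -1 := by rw [neg_sq, I_sq]
    rw [this]
    field_simp
  have hsq : Real.sqrt M.det = D := by
    rw [← hD2, Real.sqrt_sq hD.le]
  rw [h4, hsq]
  have hDC : (D : ℂ) ≠ 0 := by exact_mod_cast hD.ne'
  field_simp

/-! ### Adapter 2: the lattice data -/

theorem data_of_isLevelLattice {p : ℕ} {A B : Matrix (Fin 4) (Fin 4) ℤ}
    (h : IsLevelLattice p A B) (hp : p ≠ 0) : Data p A B where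
  ppos := Nat.pos_of_ne_zero hp
  symmA := h.symm
  symmB := h.symmB
  evenA := Q2_even A h.symm h.even
  evenB := Q2_even B h.symmB h.evenB
  AB := h.mul
  BA := h.mul'
  posDef := h.posDef
  det := h.det

theorem thetaFun_eq (A : Matrix (Fin 4) (Fin 4) ℤ) (z : ℂ) : thetaFun A z = theta (AR A) z := by
  unfold thetaFun theta thetaShift
  refine tsum_congr fun x => ?_
  unfold shiftTerm
  have : qf (AR A) (fun i => (x i : ℝ) + (0 : Fin 4 → ℝ) i) = (Q2 A x : ℝ) := by
    simp only [Pi.zero_apply, add_zero]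
    exact qf_AR A x
  rw [this]
  push_cast
  rfl

/-! ### Adapter 3: the Gauss sums -/

theorem gaussK_zero_eq_gaussQ (A : Matrix (Fin 4) (Fin 4) ℤ) (d : ℕ) [NeZero d] (b : ℤ) :
    gaussK A d b 0 = gaussQ A b d := by
  rw [gaussK_zero]
  unfold gaussQ
  let e : (Fin 4 → Fin d) ≃ (Fin 4 → ZMod d) :=
    Equiv.piCongrRight fun _ => GaussPrime.finZModEquiv d
  rw [← Equiv.sum_comp e]
  refine Finset.sum_congr rfl fun g _ => ?_
  have hrg : lift d (e g) = fun i => ((g i : ℕ) : ℤ) := by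
    funext i
    show (((e g i : ZMod d)).val : ℤ) = _
    have : e g i = (((g i : Fin d) : ℕ) : ZMod d) := rfl
    rw [this, ZMod.val_natCast, Nat.mod_eq_of_lt (g i).isLt]
  rw [hrg]
  unfold ee
  have hd : (d : ℂ) ≠ 0 := Nat.cast_ne_zero.mpr (NeZero.ne d)
  congr 1
  unfold Q2 bil qz
  push_cast
  field_simp

/-! ### Periodicity -/

theorem thetaFun_add_int {A : Matrix (Fin 4) (Fin 4) ℤ} (hA : A.IsSymm) (hev : ∀ i, Even (A i i))
    (z : ℂ) (n : ℤ) : thetaFun A (z + n) = thetaFun A z := by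
  unfold thetaFun
  refine tsum_congr fun x => ?_
  obtain ⟨t, ht⟩ := Q2_even A hA hev x
  have hq : qz A x = t + t := ht
  rw [Complex.exp_eq_exp_iff_exists_int]
  refine ⟨n * t, ?_⟩
  rw [hq]
  push_cast
  ring

/-! ### The transformation law on `Γ₀(p)` -/

/-- Dirichlet: a prime `q > N` with `q = d + n c`. -/
theorem exists_prime_shift (a b c d : ℤ) (hdet : a * d - b * c = 1) (hc : c ≠ 0) (N : ℕ) :
    ∃ (q : ℕ) (n : ℤ), q.Prime ∧ N < q ∧ (q : ℤ) = d + n * c := by
  set m : ℕ := c.natAbs with hm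
  have hm0 : m ≠ 0 := Int.natAbs_ne_zero.mpr hc
  have : NeZero m := ⟨hm0⟩
  have hcm : ((c : ℤ) : ZMod m) = 0 := by
    rw [ZMod.intCast_zmod_eq_zero_iff_dvd]
    exact Int.natAbs_dvd.mpr dvd_rfl
  have hunit : IsUnit ((d : ℤ) : ZMod m) := by
    have h1 : ((a : ℤ) : ZMod m) * ((d : ℤ) : ZMod m) = 1 := by
      have := congrArg (fun t : ℤ => (t : ZMod m)) hdet
      simp only [Int.cast_sub, Int.cast_mul, Int.cast_one, hcm, mul_zero, sub_zero] at this
      exact this
    exact IsUnit.of_mul_eq_one _ (by rw [mul_comm]; exact h1)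
  obtain ⟨q, hqN, hqp, hq⟩ := Nat.forall_exists_prime_gt_and_eq_mod hunit N
  have hdvd : (m : ℤ) ∣ (q : ℤ) - d := by
    rw [← ZMod.intCast_zmod_eq_zero_iff_dvd]
    push_cast
    rw [hq, sub_self]
  have hdvd' : c ∣ (q : ℤ) - d := Int.natAbs_dvd.mp hdvd
  obtain ⟨n, hn⟩ := hdvd'
  exact ⟨q, n, hqp, hqN, by linarith [hn, mul_comm c n]⟩

/-- **The transformation law** of `Θ_A` under `Γ₀(p)`, for complex arguments. -/
theorem thetaFun_transform {p : ℕ} {A B : Matrix (Fin 4) (Fin 4) ℤ} (h : IsLevelLattice p A B)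
    (hp : p ≠ 0) (a b c d : ℤ) (hdet : a * d - b * c = 1) (hpc : (p : ℤ) ∣ c) (z : ℂ)
    (hz : 0 < z.im) :
    thetaFun A (((a : ℂ) * z + b) / ((c : ℂ) * z + d)) =
      ((c : ℂ) * z + d) ^ 2 * thetaFun A z := by
  have hD := data_of_isLevelLattice h hp
  by_cases hc : c = 0
  · -- translations
    subst hc
    have had : a * d = 1 := by linarith
    rcases Int.eq_one_or_neg_one_of_mul_eq_one' had with ⟨ha, hd⟩ | ⟨ha, hd⟩
    · subst ha hd
      have : ((1 : ℤ) : ℂ) * z + b = z + b := by push_cast; ring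
      simp only [Int.cast_zero, zero_mul, zero_add, Int.cast_one, div_one, one_pow, one_mul]
      rw [thetaFun_add_int h.symm h.even]
    · subst ha hd
      have : (((-1 : ℤ) : ℂ) * z + b) / ((0 : ℂ) * z + ((-1 : ℤ) : ℂ)) = z + ((-b : ℤ) : ℂ) := by
        push_cast; field_simp; ring
      simp only [Int.cast_zero] 
      rw [this, thetaFun_add_int h.symm h.even]
      push_cast
      ring
  · obtain ⟨c', hc'⟩ := hpc
    obtain ⟨q, n, hqp, hqN, hq⟩ := exists_prime_shift a b c d hdet hc (max 2 p)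
    have : Fact q.Prime := ⟨hqp⟩
    have : NeZero q := ⟨hqp.ne_zero⟩
    have hq2 : q ≠ 2 := by
      have := (le_max_left 2 p).trans_lt hqN
      omega
    have hqp' : ¬ q ∣ p := by
      intro hdvd
      have := Nat.le_of_dvd (Nat.pos_of_ne_zero hp) hdvd
      have := (le_max_right 2 p).trans_lt hqN
      omega
    set b' : ℤ := b + n * a with hb'
    have hdet' : a * (q : ℤ) - b' * ((p : ℤ) * c') = 1 := by
      rw [hq, hb', ← hc']
      linarith
    have hqb : ¬ (q : ℤ) ∣ b' := by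
      intro hdvd
      have h1 : (q : ℤ) ∣ a * (q : ℤ) - b' * ((p : ℤ) * c') :=
        dvd_sub (dvd_mul_left _ _) (Dvd.dvd.mul_right hdvd _)
      rw [hdet'] at h1
      have := Int.eq_one_of_dvd_one (by positivity) h1
      have hq1 : q = 1 := by exact_mod_cast this
      exact hqp.one_lt.ne' hq1
    have hG : gaussK A q b' 0 = (q : ℂ) ^ 2 := by
      rw [gaussK_zero_eq_gaussQ]
      exact GaussPrime.gaussQ_prime_of_isLevelLattice h q hq2 hqp' b' hqb
    set z₁ : ℂ := z + ((-n : ℤ) : ℂ) with hz₁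
    have hz₁im : 0 < z₁.im := by
      rw [hz₁, Complex.add_im, Complex.intCast_im, add_zero]; exact hz
    have key := theta_transform inversion4 summability hD a b' c' q hdet' hG z₁ hz₁im
    rw [← thetaFun_eq, ← thetaFun_eq] at key
    have e1 : (a : ℂ) * z₁ + b' = (a : ℂ) * z + b := by
      rw [hz₁, hb']; push_cast; ring
    have e2 : (p : ℂ) * c' * z₁ + q = (c : ℂ) * z + d := by
      have hqC : (q : ℂ) = (d : ℂ) + n * c := by exact_mod_cast congrArg (Int.cast : ℤ → ℂ) hq
      have hcC : (c : ℂ) = (p : ℂ) * c' := by exact_mod_cast congrArg (Int.cast : ℤ → ℂ) hc'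
      rw [hz₁, hqC, hcC]; push_cast; ring
    rw [e1, e2, hz₁, thetaFun_add_int h.symm h.even] at key
    exact key

end Fermat.Agent.S16.ThetaSlash
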