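/-
S16 / LOW (A-theta): the FINAL export of the theta line.  (helper65)

`thetaForm : Interfaces.ThetaFormStatement`, assembling
* `ThetaLattice.exists_lattice`   (an even quaternary lattice of level `p`, `det = p²`; helper65),
* `ThetaSlash.thetaFun_transform`   (the weight-2 transformation law under all of `Γ₀(p)`:
  general transformation formula + completing the square + prime Gauss sum + Dirichlet; helper65,
  on helper29's theta inversion and helper57's `GaussPrime`),
* `Theta.Bounded.hbdd`   (boundedness at all cusps; helper88),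
* `Theta.Package.thetaForm_of`   (packaging into a `ModularForm`; helper47).
-/
import Fermat.Agent.S16.Interfaces2
import Fermat.Agent.S16.ThetaLattice
import Fermat.Agent.S16.ThetaSlash
import Fermat.Agent.S16.Theta.Inversion
import Fermat.Agent.S16.Theta.Bounded
import Fermat.Agent.S16.Theta.Package

set_option autoImplicit false

open Complex Matrix
open UpperHalfPlane hiding I
open ModularForm CongruenceSubgroup MatrixGroups

namespace Fermat.Agent.S16.ThetaFinal

open Fermat.Agent.S16.Theta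

/-- (hbdd) boundedness of `Θ_A ∣[2] γ` at `i∞` for every `γ ∈ SL(2, ℤ)`: literally the hypothesis
`hbdd` of `Package.thetaForm_of`, for every level lattice. -/
def BddStatement : Prop :=
  ∀ (p : ℕ) (A B : Matrix (Fin 4) (Fin 4) ℤ), IsLevelLattice p A B → p ≠ 0 →
    ∀ γ : SL(2, ℤ), IsBoundedAtImInfty ((fun z : ℍ => thetaFun A (z : ℂ)) ∣[(2 : ℤ)] γ)

/-- the lattice of `ThetaLattice.exists_lattice`, as an `IsLevelLattice`. -/
theorem exists_isLevelLattice (p : ℕ) [Fact p.Prime] (hp2 : p ≠ 2) :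
    ∃ A B : Matrix (Fin 4) (Fin 4) ℤ, IsLevelLattice p A B := by
  obtain ⟨A, B, h1, h2, h3, h4, h5, h6, h7, h8, h9⟩ := ThetaLattice.exists_lattice p hp2
  exact ⟨A, B, ⟨h1, h2, h3, h4, h5, h6, h7, h8, h9⟩⟩

/-- **The weight-2 transformation law of `Θ_A` under `Γ₀(p)`**, literally the hypothesis `hslash`
of `Package.thetaForm_of`. -/
theorem hslash {p : ℕ} {A B : Matrix (Fin 4) (Fin 4) ℤ} (h : IsLevelLattice p A B) (hp : p ≠ 0) :
    ∀ γ ∈ Gamma0 p, ∀ z : ℍ, thetaFun A ((γ • z : ℍ) : ℂ) =
      (((γ 1 0 : ℤ) : ℂ) * (z : ℂ) + ((γ 1 1 : ℤ) : ℂ)) ^ 2 * thetaFun A (z : ℂ) := by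
  intro γ hγ z
  have hdet : γ 0 0 * γ 1 1 - γ 0 1 * γ 1 0 = 1 := by
    have := γ.det_coe
    rw [Matrix.det_fin_two] at this
    exact this
  have hpc : (p : ℤ) ∣ γ 1 0 := by
    rw [Gamma0_mem] at hγ
    exact (ZMod.intCast_zmod_eq_zero_iff_dvd _ p).mp hγ
  have hcoe : ((γ • z : ℍ) : ℂ) =
      (((γ 0 0 : ℤ) : ℂ) * z + ((γ 0 1 : ℤ) : ℂ)) / (((γ 1 0 : ℤ) : ℂ) * z + ((γ 1 1 : ℤ) : ℂ)) := by
    rw [UpperHalfPlane.coe_specialLinearGroup_apply]
    simp
  rw [hcoe]
  exact ThetaSlash.thetaFun_transform h hp _ _ _ _ hdet hpc z z.im_pos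

/-- **(A-theta)**, conditional form: from boundedness at the cusps. -/
theorem thetaForm_of_bdd (hB : BddStatement) : Interfaces.ThetaFormStatement := by
  intro p _ hp5
  have hp0 : p ≠ 0 := by omega
  obtain ⟨A, B, h⟩ := exists_isLevelLattice p (by omega)
  exact Package.thetaForm_of h (hslash h hp0) (hB p A B h hp0)

/-- boundedness at all cusps (helper88's `Bounded.hbdd`). -/
theorem bddStatement : BddStatement :=
  fun _ _ _ h hp => Bounded.hbdd Inversion.inversion h hp

/-- **(A-theta)**: for every prime `p ≥ 5` there is `G ∈ M₂(Γ₀(p))` with `a₀(G) = 1` and all higher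
`q`-coefficients in `2ℤ`: the theta series of an even quaternary lattice of level `p`, `det = p²`. -/
theorem thetaForm : Interfaces.ThetaFormStatement := thetaForm_of_bdd bddStatement

end Fermat.Agent.S16.ThetaFinal
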