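/-
S16 / (UP.traceSq) (helper77): the trace of `F²` to level one, with EXPLICIT constant.

For `F : ModularForm Γ₀(p) 2` (p prime), `Tr(F²) = F² + p⁻¹ U_p((U_p F)²)` is a level one form of
weight 4, hence a multiple of `E₄`; comparing constant terms gives, coefficientwise,

  `p · a_n(F²) + a_{np}((U_p F)²) = (p + 1) · a_0(F)² · a_n(E₄)`          (`coeff_trace_sq`)

and in the `Up p` vocabulary of `S16/Easy23`:

  `C p * (qF)² + Up p ((Up p (qF))²) = C ((p + 1) a₀²) * toC E4q`         (`trace_sq_series`)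
  `C p * (Up p (qF))² + Up p ((qF)²) = C ((p + 1) a₀²) * toC E4q`         (`trace_sq_series'`)
  `Up p (Up p (qF)) = qF`                                                  (`Up_Up_qExpansion`)

Same mathematics as helper82's `S16/Easy23Glue` (which has the constant existentially quantified);
this file is independent of it and keeps the constant explicit.
-/
import Mathlib
import Fermat.Prelude.Def_ModularForm_HeckeOperator
import Fermat.Prelude.Def_ModularForm_HeckeOperatorForms
import Fermat.Prelude.Def_FLTPrelim_Modularity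
import Fermat.Prelude.Thm_ModularFormClass_qCoeff_heckeU
import Fermat.Prelude.Thm_CongruenceSubgroup_one_mem_strictPeriods_Gamma0
import Fermat.Agent.S28.ModPolyCoset
import Fermat.Agent.S16.FrickeTraceB
import Fermat.Agent.S16.DivisorCongr
import Fermat.Agent.S16.Easy23
import Fermat.Agent.S24.JLocalOrder

set_option autoImplicit false

open UpperHalfPlane ModularForm MatrixGroups CongruenceSubgroup SlashInvariantForm
open Fermat.Agent.S28.ModPolyCoset Fermat.Agent.S16.FrickeTraceB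
open Fermat.Agent.S16.DivisorCongr Fermat.Agent.S24.JLocalOrder

namespace Fermat.Agent.S16.TraceSq

variable (p : ℕ) [Fact p.Prime]

theorem p_ne_zero : p ≠ 0 := (Fact.out : p.Prime).ne_zero

omit [Fact p.Prime] in
theorem one_mem_strictPeriods : (1 : ℝ) ∈ (GammaP p).strictPeriods :=
  CongruenceSubgroup.one_mem_strictPeriods_Gamma0 p

/-- **Trace to level one, explicit cosets, any weight** (re-export of `FrickeTraceB.trace_apply`). -/
theorem trace_apply {k : ℤ} (G : ModularForm (GammaP p) k) (τ : ℍ) :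
    (ModularForm.trace 𝒮ℒ G) τ = G τ + ∑ b ∈ Finset.range p,
      ((G : ℍ → ℂ) ∣[k] (ModularGroup.S * ModularGroup.T ^ ((b : ℕ) : ℤ))) τ :=
  Fermat.Agent.S16.FrickeTraceB.trace_apply p k G τ

/-- `q`-coefficients of `U_p H`, any weight. -/
theorem coeff_heckeU {k : ℤ} (H : ModularForm (GammaP p) k) (n : ℕ) :
    (qExpansion 1 (heckeU k p H)).coeff n = (qExpansion 1 H).coeff (n * p) :=
  ModularFormClass.qCoeff_heckeU H (one_mem_strictPeriods p) (p_ne_zero p) n

theorem coeff_heckeUForm (F : ModularForm (GammaP p) 2) (n : ℕ) :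
    (qExpansion 1 (heckeUForm p F)).coeff n = (qExpansion 1 F).coeff (n * p) := by
  rw [coe_heckeUForm]
  exact coeff_heckeU p F n

theorem heckeUForm_heckeUForm (F : ModularForm (GammaP p) 2) :
    heckeUForm p (heckeUForm p F) = F := by
  apply DFunLike.coe_injective
  rw [coe_heckeUForm, coe_heckeUForm, heckeU_heckeU]

theorem coeff_heckeUForm_heckeUForm (F : ModularForm (GammaP p) 2) (n : ℕ) :
    (qExpansion 1 (heckeUForm p F)).coeff (n * p) = (qExpansion 1 F).coeff n := by
  rw [← coeff_heckeUForm p (heckeUForm p F) n, heckeUForm_heckeUForm]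

/-- Pointwise: `Tr(F²) = F² + p⁻¹ U_p((U_p F)²)`. -/
theorem trace_sq_apply (F : ModularForm (GammaP p) 2) (τ : ℍ) :
    (ModularForm.trace 𝒮ℒ (F.mul F)) τ =
      F τ * F τ + (p : ℂ)⁻¹ *
        heckeU ((2 : ℤ) + 2) p ((heckeU 2 p F) * (heckeU 2 p F)) τ := by
  rw [trace_apply, heckeU_apply _ (p_ne_zero p)]
  have key : ∀ b ∈ Finset.range p,
      ((⇑(F.mul F)) ∣[(2 : ℤ) + 2] (ModularGroup.S * ModularGroup.T ^ ((b : ℕ) : ℤ))) τ =
      (p : ℂ)⁻¹ * ((p : ℂ)⁻¹ * ((heckeU 2 p F * heckeU 2 p F) (heckeMatrix p b • τ))) := by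
    intro b _
    rw [ModularForm.coe_mul, ModularForm.mul_slash_SL2, Pi.mul_apply, slash_S_T_eq, Pi.mul_apply]
    ring
  rw [Finset.sum_congr rfl key, ← Finset.mul_sum, ← Finset.mul_sum, ModularForm.coe_mul,
    Pi.mul_apply]


/-- `(U_p F)²` as a form of weight `2 + 2`. -/
noncomputable def uSq (F : ModularForm (GammaP p) 2) : ModularForm (GammaP p) ((2 : ℤ) + 2) :=
  (heckeUForm p F).mul (heckeUForm p F)

theorem coe_uSq (F : ModularForm (GammaP p) 2) :
    (uSq p F : ℍ → ℂ) = heckeU 2 p F * heckeU 2 p F := by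
  rw [uSq, ModularForm.coe_mul, coe_heckeUForm]

/-- The trace of `F²`, as a level one form of weight `4`. -/
noncomputable def trSq (F : ModularForm (GammaP p) 2) : ModularForm 𝒮ℒ 4 :=
  ModularForm.mcast (show (2 : ℤ) + 2 = 4 by norm_num) (ModularForm.trace 𝒮ℒ (F.mul F))

theorem trSq_apply (F : ModularForm (GammaP p) 2) (τ : ℍ) :
    trSq p F τ = F τ * F τ + (p : ℂ)⁻¹ * heckeU ((2 : ℤ) + 2) p (uSq p F) τ := by
  rw [coe_uSq]
  exact trace_sq_apply p F τ

/-- `Tr(F²) = c · E₄`. -/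
theorem trSq_eq (F : ModularForm (GammaP p) 2) (τ : ℍ) :
    trSq p F τ = (qExpansion 1 (trSq p F)).coeff 0 * E₄ τ :=
  eq_mul_of_rank_one ModularForm.levelOne_weight_four_rank_one (trSq p F) E₄
    (tendsto_levelOne (trSq p F)) tendsto_E4 τ


theorem qExpansion_trSq (F : ModularForm (GammaP p) 2) :
    qExpansion 1 (trSq p F) = (qExpansion 1 (trSq p F)).coeff 0 • toC E4q := by
  have h : (trSq p F : ℍ → ℂ) = ((qExpansion 1 (trSq p F)).coeff 0) • (E₄ : ℍ → ℂ) := by
    funext τ
    rw [trSq_eq]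
    rfl
  conv_lhs => rw [h]
  rw [ModularForm.qExpansion_smul one_pos one_mem_strictPeriods_SL, qExpansion_E4']

theorem qExpansion_trSq_coeff (F : ModularForm (GammaP p) 2) (n : ℕ) :
    (qExpansion 1 (trSq p F)).coeff n = ((qExpansion 1 F) ^ 2).coeff n +
      (p : ℂ)⁻¹ * ((qExpansion 1 (heckeUForm p F)) ^ 2).coeff (n * p) := by
  have : NeZero p := ⟨p_ne_zero p⟩
  have hΓ := one_mem_strictPeriods p
  obtain ⟨UU, hUU⟩ : ∃ UU : ModularForm (GammaP p) ((2 : ℤ) + 2),
      (UU : ℍ → ℂ) = heckeU ((2 : ℤ) + 2) p (uSq p F) :=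
    ⟨ModularForm.heckeULin (N := p) ((2 : ℤ) + 2) (dvd_refl p) (uSq p F), rfl⟩
  have hfun : (trSq p F : ℍ → ℂ) = ⇑(F.mul F) + ⇑((p : ℂ)⁻¹ • UU) := by
    funext τ
    rw [trSq_apply, Pi.add_apply, ModularForm.coe_mul, Pi.mul_apply, FunLike.coe_smul,
      Pi.smul_apply, hUU, smul_eq_mul]
  rw [hfun, ModularForm.qExpansion_add one_pos hΓ, FunLike.coe_smul,
    ModularForm.qExpansion_smul one_pos hΓ, ModularForm.qExpansion_mul one_pos hΓ, hUU, map_add,
    PowerSeries.coeff_smul, coeff_heckeU, uSq, ModularForm.qExpansion_mul one_pos hΓ, sq, sq,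
    smul_eq_mul]


/-- **The trace identity for `F²`, coefficientwise.**  For `F ∈ M₂(Γ₀(p))`,
`p · a_n(F²) + a_{np}((U_p F)²) = (p + 1) a_0(F)² a_n(E₄)`. -/
theorem coeff_trace_sq (F : ModularForm (GammaP p) 2) (n : ℕ) :
    (p : ℂ) * ((qExpansion 1 F) ^ 2).coeff n +
      ((qExpansion 1 (heckeUForm p F)) ^ 2).coeff (n * p) =
    ((p : ℂ) + 1) * ((qExpansion 1 F).coeff 0) ^ 2 * ((toC E4q).coeff n) := by
  have hp' : (p : ℂ) ≠ 0 := by exact_mod_cast p_ne_zero p
  have hsq : ∀ f : PowerSeries ℂ, (f ^ 2).coeff 0 = (f.coeff 0) ^ 2 := by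
    intro f
    simp [PowerSeries.coeff_zero_eq_constantCoeff]
  have h0 := qExpansion_trSq_coeff p F 0
  rw [zero_mul, hsq, hsq, coeff_heckeUForm, zero_mul] at h0
  have hn := qExpansion_trSq_coeff p F n
  have hE := congrArg (fun f : PowerSeries ℂ => f.coeff n) (qExpansion_trSq p F)
  simp only [PowerSeries.coeff_smul, smul_eq_mul] at hE
  rw [hn, h0] at hE
  field_simp at hE
  linear_combination hE


/-! ### Power series form, in the vocabulary of `S16/Easy23` (`Up p`) -/

open Fermat.Agent.S16.Easy23 in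
/-- `q(U_p F) = Up p (q F)`. -/
theorem qExpansion_heckeUForm (F : ModularForm (GammaP p) 2) :
    qExpansion 1 (heckeUForm p F) = Up p (qExpansion 1 F) := by
  ext n
  rw [coeff_heckeUForm, coeff_Up, mul_comm]

open Fermat.Agent.S16.Easy23 in
/-- `Up p (Up p (q F)) = q F`. -/
theorem Up_Up_qExpansion (F : ModularForm (GammaP p) 2) :
    Up p (Up p (qExpansion 1 F)) = qExpansion 1 F := by
  rw [← qExpansion_heckeUForm, ← qExpansion_heckeUForm, heckeUForm_heckeUForm]

open Fermat.Agent.S16.Easy23 in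
/-- **Trace identity for `F²`**, series form:
`p · (qF)² + Up p ((Up p (qF))²) = (p + 1) a₀² · E₄`. -/
theorem trace_sq_series (F : ModularForm (GammaP p) 2) :
    PowerSeries.C ((p : ℂ)) * (qExpansion 1 F) ^ 2 + Up p ((Up p (qExpansion 1 F)) ^ 2) =
      PowerSeries.C (((p : ℂ) + 1) * ((qExpansion 1 F).coeff 0) ^ 2) * toC E4q := by
  ext n
  rw [map_add, PowerSeries.coeff_C_mul, coeff_Up, PowerSeries.coeff_C_mul,
    ← qExpansion_heckeUForm, mul_comm p n]
  exact coeff_trace_sq p F n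

open Fermat.Agent.S16.Easy23 in
/-- **Trace identity for `(U_p F)²`**, series form:
`p · (Up p (qF))² + Up p ((qF)²) = (p + 1) a₀² · E₄`. -/
theorem trace_sq_series' (F : ModularForm (GammaP p) 2) :
    PowerSeries.C ((p : ℂ)) * (Up p (qExpansion 1 F)) ^ 2 + Up p ((qExpansion 1 F) ^ 2) =
      PowerSeries.C (((p : ℂ) + 1) * ((qExpansion 1 F).coeff 0) ^ 2) * toC E4q := by
  have h := trace_sq_series p (heckeUForm p F)
  rw [qExpansion_heckeUForm, Up_Up_qExpansion] at h
  rw [h, coeff_Up, mul_zero]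

/-- Coefficients of `E₄`, in the shape used by `Easy23Complex`. -/
theorem coeff_toC_E4q (n : ℕ) :
    (toC E4q).coeff n =
      if n = 0 then 1 else 240 * ((ArithmeticFunction.sigma 3 n : ℕ) : ℂ) := by
  rw [toC, PowerSeries.coeff_map, E4q_eq, map_add, PowerSeries.coeff_one]
  by_cases hn : n = 0
  · subst hn
    rw [if_pos rfl, if_pos rfl, PowerSeries.coeff_mul]
    simp
  · rw [if_neg hn, if_neg hn, zero_add]
    have : ((240 : PowerSeries ℤ) * sig 3).coeff n = 240 * (sig 3).coeff n := by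
      rw [show (240 : PowerSeries ℤ) = PowerSeries.C (240 : ℤ) by rw [map_ofNat],
        PowerSeries.coeff_C_mul]
    rw [this, coeff_sig]
    simp [ArithmeticFunction.sigma_apply]

end Fermat.Agent.S16.TraceSq
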