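import Fermat.Agent.S16.Interfaces
import Fermat.Agent.S16.E2Level

/-!
# S16: assembly of the upper bound

From the per-prime statements `NoUnitCongr p ℓ r` ("no weight-2 form `F` on `Γ₀(p)` with `a₀ = 1` and
all higher coefficients `ℓ`-integral and divisible by `ℓ ^ r`") we deduce the direction `→` of
`Interfaces.CongruenceIffStatement`: an integral cusp form congruent to the Eisenstein series
modulo `k` forces `k ∣ eisensteinNumerator p`.

The form used is `F = (E2lvl p - 24 f) / (p - 1)`, with `E2lvl p = (p - 1) + 24 ∑ σ'(j) q^j`.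
-/

set_option autoImplicit false

open UpperHalfPlane ModularForm CongruenceSubgroup ModularFormClass ModularCurve
open scoped ArithmeticFunction.sigma

namespace Fermat.Agent.S16.UpAssembly

open Fermat.Agent.S16.Interfaces Fermat.Agent.S16.E2Level

/-- `z = u / v` with `ℓ ∤ v` and `ℓ ^ r ∣ u`. -/
def LDvd (ℓ r : ℕ) (z : ℂ) : Prop :=
  ∃ (u : ℤ) (v : ℕ), ¬ ℓ ∣ v ∧ ((ℓ : ℤ) ^ r ∣ u) ∧ z = (u : ℂ) / (v : ℂ)

/-- There is no weight-2 modular form on `Γ₀(p)` with constant term `1` all of whose higher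
`q`-coefficients are `ℓ`-integral rationals divisible by `ℓ ^ r`. -/
def NoUnitCongr (p ℓ r : ℕ) : Prop :=
  ¬ ∃ F : ModularForm (G0 p) 2, (qExpansion 1 F).coeff 0 = 1 ∧
      ∀ j : ℕ, 1 ≤ j → LDvd ℓ r ((qExpansion 1 F).coeff j)

/-- The exponent needed at the prime `ℓ`: `v_ℓ(24) + 1 - v_ℓ(gcd(p - 1, 12))`. -/
def thr (p ℓ : ℕ) : ℕ :=
  (24 : ℕ).factorization ℓ + 1 - (Nat.gcd (p - 1) 12).factorization ℓ

theorem LDvd.mono {ℓ r s : ℕ} (hrs : s ≤ r) {z : ℂ} (h : LDvd ℓ r z) : LDvd ℓ s z := by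
  obtain ⟨u, v, hv, hu, rfl⟩ := h
  exact ⟨u, v, hv, (pow_dvd_pow _ hrs).trans hu, rfl⟩

theorem NoUnitCongr.mono {p ℓ r s : ℕ} (hrs : s ≤ r) (h : NoUnitCongr p ℓ s) :
    NoUnitCongr p ℓ r := by
  rintro ⟨F, h0, hF⟩
  exact h ⟨F, h0, fun j hj => (hF j hj).mono hrs⟩

/-! ### The divisor sum prime to `p` -/

theorem sigma_one_eq (p : ℕ) (hp : p.Prime) (j : ℕ) (hj : j ≠ 0) :
    σ 1 j = sigmaPrime p j + if p ∣ j then p * σ 1 (j / p) else 0 := by
  have hsplit : σ 1 j = sigmaPrime p j + ∑ d ∈ j.divisors.filter (fun d => p ∣ d), d := by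
    rw [ArithmeticFunction.sigma_one_apply, sigmaPrime, add_comm]
    exact (Finset.sum_filter_add_sum_filter_not j.divisors (fun d => p ∣ d) (fun d => d)).symm
  rw [hsplit]
  congr 1
  split_ifs with h
  · obtain ⟨m, rfl⟩ := h
    have hm : m ≠ 0 := by rintro rfl; exact hj (by simp)
    rw [Nat.mul_div_cancel_left _ hp.pos, ArithmeticFunction.sigma_one_apply, Finset.mul_sum]
    refine (Finset.sum_bij (fun d _ => p * d) ?_ ?_ ?_ ?_).symm
    · intro d hd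
      rw [Finset.mem_filter, Nat.mem_divisors]
      exact ⟨⟨Nat.mul_dvd_mul_left p (Nat.dvd_of_mem_divisors hd), hj⟩, dvd_mul_right p d⟩
    · intro a _ b _ hab
      exact Nat.eq_of_mul_eq_mul_left hp.pos hab
    · intro d hd
      rw [Finset.mem_filter, Nat.mem_divisors] at hd
      obtain ⟨⟨hd1, _⟩, ⟨e, rfl⟩⟩ := hd
      exact ⟨e, Nat.mem_divisors.mpr ⟨Nat.dvd_of_mul_dvd_mul_left hp.pos hd1, hm⟩, rfl⟩
    · intro d _
      rfl
  · apply Finset.sum_eq_zero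
    intro d hd
    rw [Finset.mem_filter, Nat.mem_divisors] at hd
    exact absurd (hd.2.trans hd.1.1) h

theorem cE_eq_sigmaPrime (p : ℕ) [Fact p.Prime] (j : ℕ) (hj : 1 ≤ j) :
    cE p j = 24 * (sigmaPrime p j : ℂ) := by
  have hp : p.Prime := Fact.out
  have : NeZero p := ⟨hp.ne_zero⟩
  have hj0 : j ≠ 0 := by omega
  have h := sigma_one_eq p hp j hj0
  by_cases hd : p ∣ j
  · rw [cE_of_dvd p hj0 hd, h, if_pos hd]
    push_cast
    ring
  · rw [cE_of_not_dvd p hj0 hd, h, if_neg hd]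
    push_cast
    ring

/-! ### The unit-constant-term form attached to a congruence -/

theorem exists_form (p : ℕ) [Fact p.Prime] (k : ℕ) (f : CuspForm (Gamma0 p) 2) (c : ℕ → ℤ)
    (hc : ∀ j : ℕ, 1 ≤ j → qCoeff f j = (sigmaPrime p j : ℂ) + (k : ℂ) * (c j : ℂ)) :
    ∃ F : ModularForm (G0 p) 2, (qExpansion 1 F).coeff 0 = 1 ∧
      ∀ j : ℕ, 1 ≤ j →
        (qExpansion 1 F).coeff j = -(24 * (k : ℂ) * (c j : ℂ)) / ((p : ℂ) - 1) := by
  have hp : p.Prime := Fact.out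
  have : NeZero p := ⟨hp.ne_zero⟩
  have hΓ := CongruenceSubgroup.one_mem_strictPeriods_Gamma0 p
  have hp1 : ((p : ℂ) - 1) ≠ 0 := by
    have : (p : ℂ) ≠ 1 := by exact_mod_cast hp.one_lt.ne'
    exact sub_ne_zero.mpr this
  let f' : ModularForm (G0 p) 2 := CuspForm.toModularFormₗ f
  have hf'coe : (⇑f' : ℍ → ℂ) = ⇑f := rfl
  refine ⟨((p : ℂ) - 1)⁻¹ • (E2lvl p - (24 : ℂ) • f'), ?_, ?_⟩
  all_goals
    rw [FunLike.coe_smul,
      ModularForm.qExpansion_smul one_pos hΓ (((p : ℂ) - 1)⁻¹) (E2lvl p - (24 : ℂ) • f'),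
      FunLike.coe_sub,
      ModularForm.qExpansion_sub one_pos hΓ (E2lvl p) ((24 : ℂ) • f'),
      FunLike.coe_smul, ModularForm.qExpansion_smul one_pos hΓ (24 : ℂ) f', hf'coe]
  · simp only [PowerSeries.coeff_smul, map_sub, smul_eq_mul, qExpansion_E2lvl_coeff, cE_zero]
    rw [CuspFormClass.qExpansion_coeff_zero f one_pos hΓ, mul_zero, sub_zero]
    exact inv_mul_cancel₀ hp1
  · intro j hj
    simp only [PowerSeries.coeff_smul, map_sub, smul_eq_mul, qExpansion_E2lvl_coeff]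
    have h1 : (qExpansion 1 f).coeff j = (sigmaPrime p j : ℂ) + (k : ℂ) * (c j : ℂ) := hc j hj
    rw [h1, cE_eq_sigmaPrime p j hj]
    field_simp
    ring

/-! ### The arithmetic: choosing the prime `ℓ` -/

theorem thr_le (p ℓ m : ℕ) (hm : 24 = Nat.gcd (p - 1) 12 * m) (hg0 : Nat.gcd (p - 1) 12 ≠ 0) :
    thr p ℓ ≤ m.factorization ℓ + 1 := by
  unfold thr
  have h1 : m = 24 / Nat.gcd (p - 1) 12 := by
    rw [hm, Nat.mul_div_cancel_left _ (Nat.pos_of_ne_zero hg0)]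
  have h2 : m.factorization ℓ =
      (24 : ℕ).factorization ℓ - (Nat.gcd (p - 1) 12).factorization ℓ := by
    rw [h1, Nat.factorization_div ⟨m, hm⟩]
    rfl
  omega

theorem exists_prime_LDvd (p k : ℕ) (hp : 2 ≤ p) (hk : ¬ k ∣ eisensteinNumerator p) :
    ∃ ℓ : ℕ, ℓ.Prime ∧
      ∀ c : ℤ, LDvd ℓ (thr p ℓ) (-(24 * (k : ℂ) * (c : ℂ)) / ((p : ℂ) - 1)) := by
  obtain ⟨g, hg⟩ : ∃ g, g = Nat.gcd (p - 1) 12 := ⟨_, rfl⟩
  obtain ⟨n, hn⟩ : ∃ n, n = eisensteinNumerator p := ⟨_, rfl⟩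
  have hng : n * g = p - 1 := by
    rw [hn, hg]
    exact Nat.div_mul_cancel (Nat.gcd_dvd_left _ _)
  have hg24 : g ∣ 24 := by
    rw [hg]
    exact (Nat.gcd_dvd_right _ _).trans (by norm_num)
  have hn0 : n ≠ 0 := by
    rintro h0
    rw [h0, zero_mul] at hng
    omega
  have hg0 : g ≠ 0 := by
    rintro h0
    rw [h0, mul_zero] at hng
    omega
  obtain ⟨m, hm⟩ := hg24
  rw [← hn] at hk
  by_cases hk0 : k = 0
  · refine ⟨2, Nat.prime_two, fun c => ⟨0, 1, by norm_num, dvd_zero _, ?_⟩⟩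
    simp [hk0]
  rw [Nat.dvd_iff_prime_pow_dvd_dvd] at hk
  push Not at hk
  obtain ⟨ℓ, e, hℓ, hek, hen⟩ := hk
  refine ⟨ℓ, hℓ, fun c => ?_⟩
  obtain ⟨a, n', hn', hℓn'⟩ : ∃ a n', n = ℓ ^ a * n' ∧ ¬ ℓ ∣ n' :=
    ⟨n.factorization ℓ, _, (Nat.ordProj_mul_ordCompl_eq_self n ℓ).symm,
      Nat.not_dvd_ordCompl hℓ hn0⟩
  have hae : a < e := by
    by_contra h
    push Not at h
    exact hen ((pow_dvd_pow ℓ h).trans ⟨n', hn'⟩)
  obtain ⟨k', hk'⟩ := hek
  obtain ⟨e', he'⟩ : ∃ e', e = a + 1 + e' := ⟨e - (a + 1), by omega⟩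
  obtain ⟨μ, m', hμ, hm'⟩ : ∃ μ m', μ = m.factorization ℓ ∧ m = ℓ ^ μ * m' :=
    ⟨_, _, rfl, (Nat.ordProj_mul_ordCompl_eq_self m ℓ).symm⟩
  have hthr : thr p ℓ ≤ μ + 1 := by
    rw [hμ]
    exact thr_le p ℓ m (hg ▸ hm) (hg ▸ hg0)
  have hn'0 : n' ≠ 0 := by
    rintro rfl
    exact hn0 (by rw [hn', mul_zero])
  refine LDvd.mono hthr ⟨-((ℓ : ℤ) ^ (μ + 1) * ((m' : ℤ) * (ℓ : ℤ) ^ e' * (k' : ℤ) * c)), n',
    hℓn', (dvd_mul_right _ _).neg_right, ?_⟩
  have hp1 : ((p : ℂ) - 1) = (n : ℂ) * (g : ℂ) := by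
    have h1 : ((p - 1 : ℕ) : ℂ) = (p : ℂ) - 1 := by
      rw [Nat.cast_sub (by omega)]
      simp
    rw [← h1, ← hng]
    push_cast
    ring
  have hpne : ((p : ℂ) - 1) ≠ 0 := by
    rw [hp1]
    exact mul_ne_zero (by exact_mod_cast hn0) (by exact_mod_cast hg0)
  have hn'ne : (n' : ℂ) ≠ 0 := by exact_mod_cast hn'0
  have h24 : (24 : ℂ) = (g : ℂ) * (m : ℂ) := by exact_mod_cast hm
  have hkC : (k : ℂ) = (ℓ : ℂ) ^ e * (k' : ℂ) := by exact_mod_cast hk'
  have hnC : (n : ℂ) = (ℓ : ℂ) ^ a * (n' : ℂ) := by exact_mod_cast hn'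
  have hmC : (m : ℂ) = (ℓ : ℂ) ^ μ * (m' : ℂ) := by exact_mod_cast hm'
  rw [div_eq_div_iff hpne hn'ne, hp1, h24, hkC, hnC, hmC, he']
  push_cast
  ring

/-! ### Explicit values of the threshold -/

theorem factorization_eq_of_pow_dvd {ℓ n s : ℕ} (hℓ : ℓ.Prime) (hn : n ≠ 0) (h1 : ℓ ^ s ∣ n)
    (h2 : ¬ ℓ ^ (s + 1) ∣ n) : n.factorization ℓ = s := by
  rw [hℓ.pow_dvd_iff_le_factorization hn] at h1 h2
  omega

theorem gcd12_ne_zero (p : ℕ) : Nat.gcd (p - 1) 12 ≠ 0 :=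
  (Nat.gcd_pos_of_pos_right _ (by norm_num)).ne'

theorem one_le_thr (p ℓ : ℕ) : 1 ≤ thr p ℓ := by
  unfold thr
  have hdvd : Nat.gcd (p - 1) 12 ∣ 24 := (Nat.gcd_dvd_right _ _).trans (by norm_num)
  have h := (Nat.factorization_le_iff_dvd (gcd12_ne_zero p) (by norm_num)).mpr hdvd ℓ
  omega

theorem thr_of_not_dvd (p ℓ : ℕ) (h : ¬ ℓ ∣ 24) : thr p ℓ = 1 := by
  unfold thr
  have hdvd : Nat.gcd (p - 1) 12 ∣ 24 := (Nat.gcd_dvd_right _ _).trans (by norm_num)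
  rw [Nat.factorization_eq_zero_of_not_dvd h,
    Nat.factorization_eq_zero_of_not_dvd (fun h' => h (h'.trans hdvd))]

theorem thr_of_five_le (p ℓ : ℕ) (hℓ : ℓ.Prime) (h5 : 5 ≤ ℓ) : thr p ℓ = 1 := by
  apply thr_of_not_dvd
  intro h
  have h24 : (24 : ℕ) = 2 ^ 3 * 3 := by norm_num
  rw [h24] at h
  rcases (Nat.Prime.dvd_mul hℓ).mp h with h | h
  · have := (Nat.prime_dvd_prime_iff_eq hℓ Nat.prime_two).mp (hℓ.dvd_of_dvd_pow h)
    omega
  · have := (Nat.prime_dvd_prime_iff_eq hℓ Nat.prime_three).mp h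
    omega

theorem fact24_three : (24 : ℕ).factorization 3 = 1 :=
  factorization_eq_of_pow_dvd Nat.prime_three (by norm_num) (by norm_num) (by norm_num)

theorem fact24_two : (24 : ℕ).factorization 2 = 3 :=
  factorization_eq_of_pow_dvd Nat.prime_two (by norm_num) (by norm_num) (by norm_num)

theorem thr_three_of_dvd (p : ℕ) (h : 3 ∣ p - 1) : thr p 3 = 1 := by
  unfold thr
  have hg : (Nat.gcd (p - 1) 12).factorization 3 = 1 := by
    refine factorization_eq_of_pow_dvd Nat.prime_three (gcd12_ne_zero p) ?_ ?_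
    · exact Nat.dvd_gcd (by simpa using h) (by norm_num)
    · intro h'
      have := h'.trans (Nat.gcd_dvd_right _ _)
      norm_num at this
  rw [fact24_three, hg]

theorem thr_three_of_not_dvd (p : ℕ) (h : ¬ 3 ∣ p - 1) : thr p 3 = 2 := by
  unfold thr
  rw [fact24_three,
    Nat.factorization_eq_zero_of_not_dvd (fun h' => h (h'.trans (Nat.gcd_dvd_left _ _)))]

theorem thr_two_of_four_dvd (p : ℕ) (h : 4 ∣ p - 1) : thr p 2 = 2 := by
  unfold thr
  have hg : (Nat.gcd (p - 1) 12).factorization 2 = 2 := by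
    refine factorization_eq_of_pow_dvd Nat.prime_two (gcd12_ne_zero p) ?_ ?_
    · exact Nat.dvd_gcd (by simpa using h) (by norm_num)
    · intro h'
      have := h'.trans (Nat.gcd_dvd_right _ _)
      norm_num at this
  rw [fact24_two, hg]

theorem thr_two_of_two_dvd (p : ℕ) (h2 : 2 ∣ p - 1) (h4 : ¬ 4 ∣ p - 1) : thr p 2 = 3 := by
  unfold thr
  have hg : (Nat.gcd (p - 1) 12).factorization 2 = 1 := by
    refine factorization_eq_of_pow_dvd Nat.prime_two (gcd12_ne_zero p) ?_ ?_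
    · exact Nat.dvd_gcd (by simpa using h2) (by norm_num)
    · intro h'
      exact h4 (by simpa using h'.trans (Nat.gcd_dvd_left _ _))
  rw [fact24_two, hg]

theorem thr_two_of_not_dvd (p : ℕ) (h : ¬ 2 ∣ p - 1) : thr p 2 = 4 := by
  unfold thr
  rw [fact24_two,
    Nat.factorization_eq_zero_of_not_dvd (fun h' => h (h'.trans (Nat.gcd_dvd_left _ _)))]

/-! ### Main result -/

/-- **Upper bound, assembled.** If for every prime `ℓ` there is no weight-2 form on `Γ₀(p)` with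
constant term `1` and all higher coefficients divisible by `ℓ ^ thr p ℓ`, then a cusp form
congruent to the Eisenstein series modulo `k` forces `k ∣ eisensteinNumerator p`. -/
theorem dvd_eisensteinNumerator (p : ℕ) [Fact p.Prime] (k : ℕ) (f : CuspForm (Gamma0 p) 2)
    (hf : IsEisCongruent p k f) (H : ∀ ℓ : ℕ, ℓ.Prime → NoUnitCongr p ℓ (thr p ℓ)) :
    k ∣ eisensteinNumerator p := by
  have hp : p.Prime := Fact.out
  by_contra hk
  obtain ⟨ℓ, hℓ, hL⟩ := exists_prime_LDvd p k hp.two_le hk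
  choose c hc using hf.2
  obtain ⟨F, hF0, hF⟩ := exists_form p k f (fun j => if h : 1 ≤ j then c j h else 0)
    (fun j hj => by rw [dif_pos hj]; exact hc j hj)
  exact H ℓ hℓ ⟨F, hF0, fun j hj => by rw [hF j hj]; exact hL _⟩

/-- The direction `→` of `Interfaces.CongruenceIffStatement`, from the per-prime statements. -/
theorem congruence_imp (H : ∀ (p : ℕ) [Fact p.Prime] (ℓ : ℕ), ℓ.Prime → NoUnitCongr p ℓ (thr p ℓ))
    (p : ℕ) [Fact p.Prime] (k : ℕ)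
    (h : ∃ f : CuspForm (Gamma0 p) 2, IsEisCongruent p k f) : k ∣ eisensteinNumerator p := by
  obtain ⟨f, hf⟩ := h
  exact dvd_eisensteinNumerator p k f hf (H p)

/-- **Upper bound, assembled, with explicit exponents.** The hypotheses are the per-prime
non-existence statements, in the shape in which they are proved:

* `ℓ ≥ 5` (including `ℓ = p`): no form `≡ 1 mod ℓ`;
* `ℓ = 3`: no form `≡ 1 mod 3` if `3 ∣ p - 1`, no form `≡ 1 mod 9` otherwise;
* `ℓ = 2`: no form `≡ 1 mod 4` if `4 ∣ p - 1`, `mod 8` if `p ≡ 3 mod 4`, `mod 16` if `p = 2`. -/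
theorem dvd_eisensteinNumerator_of_cases (p : ℕ) [Fact p.Prime] (k : ℕ)
    (f : CuspForm (Gamma0 p) 2) (hf : IsEisCongruent p k f)
    (H5 : ∀ ℓ : ℕ, ℓ.Prime → 5 ≤ ℓ → NoUnitCongr p ℓ 1)
    (H3a : 3 ∣ p - 1 → NoUnitCongr p 3 1)
    (H3b : ¬ 3 ∣ p - 1 → NoUnitCongr p 3 2)
    (H2a : 4 ∣ p - 1 → NoUnitCongr p 2 2)
    (H2b : 2 ∣ p - 1 → ¬ 4 ∣ p - 1 → NoUnitCongr p 2 3)
    (H2c : ¬ 2 ∣ p - 1 → NoUnitCongr p 2 4) :
    k ∣ eisensteinNumerator p := by
  refine dvd_eisensteinNumerator p k f hf (fun ℓ hℓ => ?_)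
  by_cases h5 : 5 ≤ ℓ
  · rw [thr_of_five_le p ℓ hℓ h5]
    exact H5 ℓ hℓ h5
  · have hℓ2 := hℓ.two_le
    have hcases : ℓ = 2 ∨ ℓ = 3 := by
      have : ℓ ≠ 4 := by
        rintro rfl
        norm_num at hℓ
      omega
    rcases hcases with rfl | rfl
    · by_cases h2 : 2 ∣ p - 1
      · by_cases h4 : 4 ∣ p - 1
        · rw [thr_two_of_four_dvd p h4]
          exact H2a h4
        · rw [thr_two_of_two_dvd p h2 h4]
          exact H2b h2 h4
      · rw [thr_two_of_not_dvd p h2]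
        exact H2c h2
    · by_cases h3 : 3 ∣ p - 1
      · rw [thr_three_of_dvd p h3]
        exact H3a h3
      · rw [thr_three_of_not_dvd p h3]
        exact H3b h3

end Fermat.Agent.S16.UpAssembly
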