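import Fermat.Agent.S16.UpperL5
import Fermat.Agent.S16.EsymmInst
import Fermat.Agent.S16.SwDInstB

/-!
# S16 / (UP5) (helper71): `Interfaces.Upper5Statement`, closed

For primes `p ≥ 5`, `ℓ ≥ 5` (including `ℓ = p`) there is no `F ∈ M₂(Γ₀(p))` with `F ≡ 1 (mod ℓ)`.
-/

set_option autoImplicit false

namespace Fermat.Agent.S16.Upper5Inst

/-- **(UP5)**: literally `Interfaces.Upper5Statement`. -/
theorem upper5 : Fermat.Agent.S16.Interfaces.Upper5Statement :=
  Fermat.Agent.S16.UpperL5.upper5_of Fermat.Agent.S16.EsymmInst.esymmStatement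
    Fermat.Agent.S16.SwDInstB.swdStatement

end Fermat.Agent.S16.Upper5Inst
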