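import Fermat.Agent.S16.EisBridge

/-!
# S16: the exponents `eisExp p l` by cases

`eisExp p l = v_l(24 / gcd(p-1,12)) + 1` evaluated: `1` for `l ≥ 5`; for `l = 3`: `1` if
`p ≡ 1 (3)`, else `2`; for `l = 2`: `2` if `p ≡ 1 (4)`, `3` if `p ≡ 3 (4)`, `4` if `p = 2`.
So `UpperStatement` follows from the non-congruences with plain numerals as exponents.
-/

set_option autoImplicit false

namespace Fermat.Agent.S16.UpperCases

open Fermat.Agent.S16.EisBridge

theorem padicValNat_eq_of {l n a m : ℕ} (hl : l.Prime) (h : n = l ^ a * m) (hm : ¬ l ∣ m) :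
    padicValNat l n = a := by
  haveI : Fact l.Prime := ⟨hl⟩
  have hm0 : m ≠ 0 := by
    rintro rfl
    exact hm (dvd_zero _)
  rw [h, padicValNat.mul (pow_ne_zero _ hl.ne_zero) hm0, padicValNat.prime_pow,
    padicValNat.eq_zero_of_not_dvd hm, add_zero]

/-- `24 / gcd(p-1,12)` divides `24`. -/
theorem div_gcd_dvd (p : ℕ) : 24 / Nat.gcd (p - 1) 12 ∣ 24 :=
  Nat.div_dvd_of_dvd ((Nat.gcd_dvd_right _ _).trans (by norm_num))

theorem eisExp_of_five_le (p l : ℕ) (hl : l.Prime) (h5 : 5 ≤ l) : eisExp p l = 1 := by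
  haveI : Fact l.Prime := ⟨hl⟩
  rw [eisExp, Nat.add_eq_right]
  apply padicValNat.eq_zero_of_not_dvd
  intro h
  have h24 : l ∣ 24 := h.trans (div_gcd_dvd p)
  have hle : l ≤ 24 := Nat.le_of_dvd (by norm_num) h24
  interval_cases l <;> first | omega | (exact absurd hl (by norm_num))

/-- the value of `24 / gcd(p-1,12)` in terms of `(p-1) % 12`. -/
theorem div_gcd_eq (q r : ℕ) :
    24 / Nat.gcd (12 * q + r + 1 - 1) 12 = 24 / Nat.gcd r 12 := by
  rw [Nat.add_sub_cancel, Nat.gcd_mul_left_add_left]

theorem eisExp_three (p : ℕ) (hp : 1 ≤ p) :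
    eisExp p 3 = if p % 3 = 1 then 1 else 2 := by
  obtain ⟨q, r, hr, rfl⟩ : ∃ q r, r < 12 ∧ p = 12 * q + r + 1 :=
    ⟨(p - 1) / 12, (p - 1) % 12, Nat.mod_lt _ (by norm_num), by omega⟩
  rw [eisExp, div_gcd_eq]
  have h3 : Nat.Prime 3 := by norm_num
  interval_cases r
  · rw [if_pos (by omega), padicValNat_eq_of h3 (a := 0) (m := 2) (by decide) (by decide)]
  · rw [if_neg (by omega), padicValNat_eq_of h3 (a := 1) (m := 8) (by decide) (by decide)]
  · rw [if_neg (by omega), padicValNat_eq_of h3 (a := 1) (m := 4) (by decide) (by decide)]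
  · rw [if_pos (by omega), padicValNat_eq_of h3 (a := 0) (m := 8) (by decide) (by decide)]
  · rw [if_neg (by omega), padicValNat_eq_of h3 (a := 1) (m := 2) (by decide) (by decide)]
  · rw [if_neg (by omega), padicValNat_eq_of h3 (a := 1) (m := 8) (by decide) (by decide)]
  · rw [if_pos (by omega), padicValNat_eq_of h3 (a := 0) (m := 4) (by decide) (by decide)]
  · rw [if_neg (by omega), padicValNat_eq_of h3 (a := 1) (m := 8) (by decide) (by decide)]
  · rw [if_neg (by omega), padicValNat_eq_of h3 (a := 1) (m := 2) (by decide) (by decide)]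
  · rw [if_pos (by omega), padicValNat_eq_of h3 (a := 0) (m := 8) (by decide) (by decide)]
  · rw [if_neg (by omega), padicValNat_eq_of h3 (a := 1) (m := 4) (by decide) (by decide)]
  · rw [if_neg (by omega), padicValNat_eq_of h3 (a := 1) (m := 8) (by decide) (by decide)]

theorem eisExp_two (p : ℕ) (hp : 1 ≤ p) :
    eisExp p 2 = if p % 4 = 1 then 2 else if p % 4 = 3 then 3 else 4 := by
  obtain ⟨q, r, hr, rfl⟩ : ∃ q r, r < 12 ∧ p = 12 * q + r + 1 :=
    ⟨(p - 1) / 12, (p - 1) % 12, Nat.mod_lt _ (by norm_num), by omega⟩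
  rw [eisExp, div_gcd_eq]
  have h2 : Nat.Prime 2 := by norm_num
  interval_cases r
  · rw [if_pos (by omega), padicValNat_eq_of h2 (a := 1) (m := 1) (by decide) (by decide)]
  · rw [if_neg (by omega), if_neg (by omega),
      padicValNat_eq_of h2 (a := 3) (m := 3) (by decide) (by decide)]
  · rw [if_neg (by omega), if_pos (by omega),
      padicValNat_eq_of h2 (a := 2) (m := 3) (by decide) (by decide)]
  · rw [if_neg (by omega), if_neg (by omega),
      padicValNat_eq_of h2 (a := 3) (m := 1) (by decide) (by decide)]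
  · rw [if_pos (by omega), padicValNat_eq_of h2 (a := 1) (m := 3) (by decide) (by decide)]
  · rw [if_neg (by omega), if_neg (by omega),
      padicValNat_eq_of h2 (a := 3) (m := 3) (by decide) (by decide)]
  · rw [if_neg (by omega), if_pos (by omega),
      padicValNat_eq_of h2 (a := 2) (m := 1) (by decide) (by decide)]
  · rw [if_neg (by omega), if_neg (by omega),
      padicValNat_eq_of h2 (a := 3) (m := 3) (by decide) (by decide)]
  · rw [if_pos (by omega), padicValNat_eq_of h2 (a := 1) (m := 3) (by decide) (by decide)]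
  · rw [if_neg (by omega), if_neg (by omega),
      padicValNat_eq_of h2 (a := 3) (m := 1) (by decide) (by decide)]
  · rw [if_neg (by omega), if_pos (by omega),
      padicValNat_eq_of h2 (a := 2) (m := 3) (by decide) (by decide)]
  · rw [if_neg (by omega), if_neg (by omega),
      padicValNat_eq_of h2 (a := 3) (m := 3) (by decide) (by decide)]

/-- **Upper bound by cases**: `UpperStatement` at `p` from the non-congruences with numeral
exponents. -/
theorem upper_of_cases (p : ℕ) (hp : 1 ≤ p)
    (h5 : ∀ l : ℕ, l.Prime → 5 ≤ l → NoCongruence p l 1)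
    (h3 : NoCongruence p 3 (if p % 3 = 1 then 1 else 2))
    (h2 : NoCongruence p 2 (if p % 4 = 1 then 2 else if p % 4 = 3 then 3 else 4)) :
    ∀ l : ℕ, l.Prime → NoCongruence p l (eisExp p l) := by
  intro l hl
  rcases Nat.lt_or_ge l 5 with hlt | hge
  · have h2le := hl.two_le
    interval_cases l
    · rw [eisExp_two p hp]; exact h2
    · rw [eisExp_three p hp]; exact h3
    · exact absurd hl (by norm_num)
  · rw [eisExp_of_five_le p l hl hge]
    exact h5 l hl hge

/-- for an odd prime `p ≥ 5` the five classical cases. -/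
theorem upper_of_five_cases (p : ℕ) (hp : p.Prime) (hp5 : 5 ≤ p)
    (h5 : ∀ l : ℕ, l.Prime → 5 ≤ l → NoCongruence p l 1)
    (h3a : p % 3 = 1 → NoCongruence p 3 1) (h3b : p % 3 = 2 → NoCongruence p 3 2)
    (h2a : p % 4 = 1 → NoCongruence p 2 2) (h2b : p % 4 = 3 → NoCongruence p 2 3) :
    ∀ l : ℕ, l.Prime → NoCongruence p l (eisExp p l) := by
  have h3 : p % 3 = 1 ∨ p % 3 = 2 := by
    have : p % 3 ≠ 0 := by
      intro h
      have := (Nat.prime_dvd_prime_iff_eq (by norm_num : Nat.Prime 3) hp).1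
        (Nat.dvd_of_mod_eq_zero h)
      omega
    omega
  have h4 : p % 4 = 1 ∨ p % 4 = 3 := by
    have : p % 2 ≠ 0 := by
      intro h
      have := (Nat.prime_dvd_prime_iff_eq (by norm_num : Nat.Prime 2) hp).1
        (Nat.dvd_of_mod_eq_zero h)
      omega
    omega
  refine upper_of_cases p (by omega) h5 ?_ ?_
  · rcases h3 with h | h
    · rw [if_pos h]; exact h3a h
    · rw [if_neg (by omega)]; exact h3b h
  · rcases h4 with h | h
    · rw [if_pos h]; exact h2a h
    · rw [if_neg (by omega), if_pos h]; exact h2b h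

end Fermat.Agent.S16.UpperCases
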