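/-
S16 / (UP_p) (helper71): HEDGE for the case `l = p ≥ 7` of the upper bound (the main line is the
scaled (ESYMM) + (SwD) argument in `S16/UpperL5.lean`, which also covers `p = 5`).

If `F ∈ M₂(Γ₀(p))` has `p`-integral `q`-expansion `f ≡ 1 (mod p)`, then so has `U_p F` (`g`), and the
weight-4 trace identity `Tr(F²) = (1 + 1/p) E₄`, multiplied by `p`, reads
`p f² + U_p(g²) = (p + 1) E₄`.  Comparing the coefficients of `q¹` gives `p ∣ 240`.
This file is the pure power-series end: over ANY commutative ring `R`.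
-/
import Mathlib

set_option autoImplicit false

namespace Fermat.Agent.S16.UpperLp

open PowerSeries

variable {R : Type*} [CommRing R]

/-- If all coefficients of `g` in positive degrees are divisible by `c`, then every
coefficient of `g²` in a positive degree is divisible by `c`. -/
theorem dvd_coeff_sq {c : R} {g : PowerSeries R}
    (hg : ∀ n, 1 ≤ n → c ∣ coeff n g) {n : ℕ} (hn : 1 ≤ n) : c ∣ coeff n (g ^ 2) := by
  rw [pow_two, coeff_mul]
  apply Finset.dvd_sum
  rintro ⟨i, j⟩ hij
  have hij' : i + j = n := Finset.HasAntidiagonal.mem_antidiagonal.mp hij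
  simp only
  rcases Nat.eq_zero_or_pos i with rfl | hi
  · have hj : 1 ≤ j := by omega
    exact Dvd.dvd.mul_left (hg j hj) _
  · exact Dvd.dvd.mul_right (hg i hi) _

/-- **(UP_p), pure end.**  `f = qExp F`, `g = qExp (U_p F)`; `hid` is the `q¹`-coefficient of
`p · f² + U_p(g²) = (p + 1) · E₄` (the coefficient of `q¹` in `U_p(g²)` is the coefficient of `q^p`
in `g²`, and that of `E₄` is `240`). -/
theorem dvd_240_of_trace_identity (p : ℕ) (hp : 1 ≤ p) (f g : PowerSeries R)
    (hg : ∀ n, 1 ≤ n → (p : R) ∣ coeff n g)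
    (hid : (p : R) * coeff 1 (f ^ 2) + coeff p (g ^ 2) = ((p : R) + 1) * 240) :
    (p : R) ∣ 240 := by
  have h1 : (p : R) ∣ (p : R) * coeff 1 (f ^ 2) + coeff p (g ^ 2) :=
    dvd_add (Dvd.intro _ rfl) (dvd_coeff_sq hg hp)
  rw [hid] at h1
  have h2 : ((p : R) + 1) * 240 = (p : R) * 240 + 240 := by ring
  rw [h2] at h1
  exact (dvd_add_right (Dvd.intro _ rfl)).mp h1

/-- In `ℤ` (hence in any ring in which only the primes `≠ p` are inverted), a prime `p ≥ 7`
does not divide `240`. -/
theorem not_dvd_240 {p : ℕ} (hp : p.Prime) (hp7 : 7 ≤ p) : ¬ p ∣ 240 := by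
  intro h
  have h240 : (240 : ℕ) = 2 ^ 4 * 3 * 5 := by norm_num
  rw [h240] at h
  rcases (Nat.Prime.dvd_mul hp).mp h with h1 | h1
  · rcases (Nat.Prime.dvd_mul hp).mp h1 with h2 | h2
    · have := (Nat.prime_dvd_prime_iff_eq hp Nat.prime_two).mp (hp.dvd_of_dvd_pow h2)
      omega
    · have := (Nat.prime_dvd_prime_iff_eq hp Nat.prime_three).mp h2
      omega
  · have := (Nat.prime_dvd_prime_iff_eq hp Nat.prime_five).mp h1
    omega

end Fermat.Agent.S16.UpperLp
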